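import Mathlib

/-!
# S34, block (M), leaf (EXT)(d): the cap property of the integral closure

Two-field setting: `ι : F'' →+* F` a field embedding (finite in the application), `B₁ ⊆ V'`
subrings of `F''` (the level-`N'` chart and its Gauss valuation ring), `B` the integral closure of
`ι B₁` in `F` (a chart of the nodal model), `V₁`, `V₂` the two component valuation rings of `F`.

`s34_ext_cap` : if `B₁` and `V'` are integrally closed in `F''`, `B₁[1/ϖ] ∩ V' = B₁`, and every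
element of `V₁ ⊓ V₂` is integral over `ι V'` (no third extension of `V'`), then
`x ∈ B`, `ϖ⁻¹ x ∈ V₁ ⊓ V₂` imply `ϖ⁻¹ x ∈ B`  (the special fibre of `B` is reduced with the two
components `V₁`, `V₂`).

Proof: the coefficients of the minimal polynomial of `y = ϖ⁻¹ x` over `F''` lie in `V'` (as `y` is
integral over `V'`), and become elements of `B₁` after multiplication by powers of `ϖ` (as `x` is
integral over `B₁`); so they lie in `B₁`.
-/

set_option autoImplicit false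
set_option linter.unusedVariables false
set_option linter.style.haveILetI false

namespace Fermat.Agent.S34

open Polynomial

/-- Iterated form of `B₁[1/ϖ] ∩ V' = B₁`. -/
theorem s34_ext_cap_pow {F'' : Type*} [Field F''] {ϖ'' : F''} (hϖ : ϖ'' ≠ 0) (B₁ V' : Subring F'')
    (hϖV' : ϖ'' ∈ V')
    (hgauss : ∀ b ∈ B₁, ϖ''⁻¹ * b ∈ V' → ϖ''⁻¹ * b ∈ B₁) :
    ∀ (k : ℕ) (b : F''), b ∈ B₁ → b * ϖ''⁻¹ ^ k ∈ V' → b * ϖ''⁻¹ ^ k ∈ B₁ := by
  intro k
  induction k with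
  | zero => intro b hb _; simpa using hb
  | succ k ih =>
    intro b hb hV
    have h1 : b * ϖ''⁻¹ ^ k ∈ V' := by
      have e : b * ϖ''⁻¹ ^ k = ϖ'' * (b * ϖ''⁻¹ ^ (k + 1)) := by
        rw [pow_succ]; field_simp
      rw [e]; exact V'.mul_mem hϖV' hV
    have h2 := ih b hb h1
    have e : b * ϖ''⁻¹ ^ (k + 1) = ϖ''⁻¹ * (b * ϖ''⁻¹ ^ k) := by
      rw [pow_succ]; ring
    rw [e] at hV ⊢
    exact hgauss _ h2 hV

/-- **(EXT)(d): cap.**  `x ∈ B`, `ϖ⁻¹ x ∈ V₁ ⊓ V₂` ⟹ `ϖ⁻¹ x ∈ B`. -/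
theorem s34_ext_cap {F'' F : Type*} [Field F''] [Field F] (ι : F'' →+* F) {ϖ'' : F''}
    (hϖ : ϖ'' ≠ 0) (B₁ V' : Subring F'') (B V₁ V₂ : Subring F)
    (hϖB₁ : ϖ'' ∈ B₁) (hB₁V' : B₁ ≤ V')
    (hfrac : ∀ x : F'', ∃ a ∈ B₁, ∃ b ∈ B₁, b ≠ 0 ∧ x = a / b)
    (hnormal : ∀ z : F'', IsIntegral B₁ z → z ∈ B₁)
    (hV'normal : ∀ z : F'', IsIntegral V' z → z ∈ V')
    (hgauss : ∀ b ∈ B₁, ϖ''⁻¹ * b ∈ V' → ϖ''⁻¹ * b ∈ B₁)
    (hint : ∀ x ∈ B, ∃ P : Polynomial B₁, P.Monic ∧ P.eval₂ (ι.comp B₁.subtype) x = 0)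
    (hclosed : ∀ x : F, (∃ P : Polynomial B₁, P.Monic ∧ P.eval₂ (ι.comp B₁.subtype) x = 0) →
      x ∈ B)
    (ha : ∀ y ∈ V₁, y ∈ V₂ → ∃ P : Polynomial V', P.Monic ∧ P.eval₂ (ι.comp V'.subtype) y = 0) :
    ∀ x ∈ B, (ι ϖ'')⁻¹ * x ∈ V₁ → (ι ϖ'')⁻¹ * x ∈ V₂ → (ι ϖ'')⁻¹ * x ∈ B := by
  intro x hx hx₁ hx₂
  letI : Algebra F'' F := ι.toAlgebra
  have halg : algebraMap F'' F = ι := rfl
  set y : F := (ι ϖ'')⁻¹ * x with hy
  have hιϖ : ι ϖ'' ≠ 0 := (map_ne_zero ι).mpr hϖ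
  obtain ⟨PV, hPVm, hPV⟩ := ha y hx₁ hx₂
  obtain ⟨PB, hPBm, hPB⟩ := hint x hx
  -- `y` and `x` are integral over `F''`
  have hyV : aeval y (PV.map V'.subtype) = 0 := by
    rw [aeval_def, eval₂_map, halg]; exact hPV
  have hxB : aeval x (PB.map B₁.subtype) = 0 := by
    rw [aeval_def, eval₂_map, halg]; exact hPB
  have hyint : IsIntegral F'' y := ⟨PV.map V'.subtype, hPVm.map _, by rw [← aeval_def]; exact hyV⟩
  have hxint : IsIntegral F'' x := ⟨PB.map B₁.subtype, hPBm.map _, by rw [← aeval_def]; exact hxB⟩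
  set g := minpoly F'' y with hg
  set m := minpoly F'' x with hm
  have hgm : g.Monic := minpoly.monic hyint
  have hmm : m.Monic := minpoly.monic hxint
  -- the coefficients of `g` lie in `V'`, those of `m` in `B₁`
  have hgV : ∀ i, g.coeff i ∈ V' := fun i =>
    hV'normal _ (isIntegral_coeff_of_dvd PV g hPVm hgm (minpoly.dvd F'' y hyV) i)
  have hmB : ∀ i, m.coeff i ∈ B₁ := fun i =>
    hnormal _ (isIntegral_coeff_of_dvd PB m hPBm hmm (minpoly.dvd F'' x hxB) i)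
  -- `g = scaleRoots m ϖ⁻¹`
  have hxy : x = algebraMap F'' F ϖ'' * y := by
    rw [halg, hy, ← mul_assoc, mul_inv_cancel₀ hιϖ, one_mul]
  have hyx : y = algebraMap F'' F ϖ''⁻¹ * x := by
    rw [halg, map_inv₀]
  have h1 : g ∣ scaleRoots m ϖ''⁻¹ := by
    apply minpoly.dvd
    rw [hyx]
    exact scaleRoots_aeval_eq_zero (minpoly.aeval F'' x)
  have h2 : m ∣ scaleRoots g ϖ'' := by
    apply minpoly.dvd
    rw [hxy]
    exact scaleRoots_aeval_eq_zero (minpoly.aeval F'' y)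
  have hsm : (scaleRoots m ϖ''⁻¹).Monic := (monic_scaleRoots_iff _).mpr hmm
  have hsg : (scaleRoots g ϖ'').Monic := (monic_scaleRoots_iff _).mpr hgm
  have hdeg : m.natDegree ≤ g.natDegree := by
    have := natDegree_le_of_dvd h2 hsg.ne_zero
    rwa [natDegree_scaleRoots] at this
  have hgeq : scaleRoots m ϖ''⁻¹ = g :=
    eq_of_monic_of_dvd_of_natDegree_le hgm hsm h1 (by rw [natDegree_scaleRoots]; exact hdeg)
  -- the coefficients of `g` lie in `B₁`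
  have hgB : ∀ i, g.coeff i ∈ B₁ := by
    intro i
    have e : g.coeff i = m.coeff i * ϖ''⁻¹ ^ (m.natDegree - i) := by
      rw [← hgeq, coeff_scaleRoots]
    have hV := hgV i
    rw [e] at hV ⊢
    exact s34_ext_cap_pow hϖ B₁ V' (hB₁V' hϖB₁) hgauss _ _ (hmB i) hV
  -- `y` is a root of a monic polynomial over `B₁`
  have hcoeffs : (↑g.coeffs : Set F'') ⊆ B₁ := by
    intro c hc
    obtain ⟨n, -, rfl⟩ := mem_coeffs_iff.mp hc
    exact hgB n
  apply hclosed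
  refine ⟨g.toSubring B₁ hcoeffs, (monic_toSubring g B₁ hcoeffs).mpr hgm, ?_⟩
  rw [← eval₂_map, map_toSubring, ← halg, ← aeval_def]
  exact minpoly.aeval F'' y

end Fermat.Agent.S34
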