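import Mathlib
import Fermat.Agent.S18.AsChart

/-!
# S34, block (G'): chart approximation from local data

`B ⊆ V ⊆ F`, `V` the (semi-local) Gauss ring of the chart `B`.  The chart approximation property

  `∃ x ∈ B, ϖ⁻ⁿ (x - M u) ∈ V`

(for a `p`-th root `u ≡ 1` of `h` modulo `ϖ^n` in `V` and a multiplier `M`, `M, M h ∈ B`) is local
on the maximal ideals of `B` (`s34_chart_approx_of_local`), and holds

* away from the special fibre (`s34_local_away`),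
* at a point having an open neighbourhood `B' = B[1/f]` that is an honest `s18_Chart`
  (`s34_local_smooth`, via the frozen `s18_as_chart_approx`),
* at a point (a node) where a local factorisation `h = g^p * w` with `w` a unit of `B_𝔪` and
  `g ≡ 1 mod ϖ V` is given and `B_𝔪 ⊆ V` is closed under `p`-th roots (`s34_local_node`).

`s34_chart_approx` combines the three cases.
-/

set_option autoImplicit false

namespace Fermat.Agent.S34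

open Fermat.Agent.S18

variable {F : Type*} [Field F] {ϖ : F}

/-- The chart approximation property is local on the maximal ideals of `B`. -/
theorem s34_chart_approx_of_local (B V : Subring F) (hBV : B ≤ V) (M u : F) (n : ℕ)
    (hloc : ∀ 𝔪 : Ideal B, 𝔪.IsMaximal →
      ∃ s : B, s ∉ 𝔪 ∧ ∃ x ∈ B, ϖ⁻¹ ^ n * ((s : F) * (M * u) - x) ∈ V) :
    ∃ x ∈ B, ϖ⁻¹ ^ n * (x - M * u) ∈ V := by
  classical
  let J : Ideal B :=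
    { carrier := {s | ∃ x ∈ B, ϖ⁻¹ ^ n * ((s : F) * (M * u) - x) ∈ V}
      add_mem' := by
        rintro s₁ s₂ ⟨x₁, hx₁, h₁⟩ ⟨x₂, hx₂, h₂⟩
        refine ⟨x₁ + x₂, B.add_mem hx₁ hx₂, ?_⟩
        have e : ϖ⁻¹ ^ n * (((s₁ + s₂ : B) : F) * (M * u) - (x₁ + x₂)) =
            ϖ⁻¹ ^ n * ((s₁ : F) * (M * u) - x₁) + ϖ⁻¹ ^ n * ((s₂ : F) * (M * u) - x₂) := by
          push_cast; ring
        rw [e]; exact V.add_mem h₁ h₂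
      zero_mem' := ⟨0, B.zero_mem, by simp [V.zero_mem]⟩
      smul_mem' := by
        rintro c s ⟨x, hx, h₁⟩
        refine ⟨c * x, B.mul_mem c.2 hx, ?_⟩
        have e : ϖ⁻¹ ^ n * (((c • s : B) : F) * (M * u) - c * x) =
            (c : F) * (ϖ⁻¹ ^ n * ((s : F) * (M * u) - x)) := by
          simp only [smul_eq_mul, Subring.coe_mul]; ring
        rw [e]; exact V.mul_mem (hBV c.2) h₁ }
  have hJ : J = ⊤ := by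
    by_contra hne
    obtain ⟨𝔪, h𝔪, hJ𝔪⟩ := Ideal.exists_le_maximal J hne
    obtain ⟨s, hs, x, hx, hsx⟩ := hloc 𝔪 h𝔪
    exact hs (hJ𝔪 ⟨x, hx, hsx⟩)
  have h1 : (1 : B) ∈ J := by rw [hJ]; trivial
  obtain ⟨x, hx, hx'⟩ := h1
  refine ⟨x, hx, ?_⟩
  have e : ϖ⁻¹ ^ n * (x - M * u) = -(ϖ⁻¹ ^ n * (((1 : B) : F) * (M * u) - x)) := by
    simp only [Subring.coe_one]; ring
  rw [e]
  exact V.neg_mem hx'

/-- Away from the special fibre. -/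
theorem s34_local_away (hϖ0 : ϖ ≠ 0) (B V : Subring F) (hϖB : ϖ ∈ B) (M u : F) (hM : M ∈ V)
    (hu : u ∈ V) (n : ℕ) (𝔪 : Ideal B) [h𝔪 : 𝔪.IsPrime] (hϖ𝔪 : (⟨ϖ, hϖB⟩ : B) ∉ 𝔪) :
    ∃ s : B, s ∉ 𝔪 ∧ ∃ x ∈ B, ϖ⁻¹ ^ n * ((s : F) * (M * u) - x) ∈ V := by
  refine ⟨(⟨ϖ, hϖB⟩ : B) ^ n, fun h => hϖ𝔪 (h𝔪.mem_of_pow_mem n h), 0, B.zero_mem, ?_⟩
  have e : ϖ⁻¹ ^ n * ((((⟨ϖ, hϖB⟩ : B) ^ n : B) : F) * (M * u) - 0) = M * u := by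
    simp only [Subring.coe_pow, sub_zero]
    rw [← mul_assoc, ← mul_pow, inv_mul_cancel₀ hϖ0, one_pow, one_mul]
  rw [e]
  exact V.mul_mem hM hu

/-- A point with a neighbourhood `B' = B[1/f]` which is an honest chart in the sense of S18. -/
theorem s34_local_smooth (B B' V : Subring F) (hBB' : B ≤ B') (hBV : B ≤ V)
    (f : F) (hf : f ∈ B) (hfB' : ∀ x ∈ B', ∃ k : ℕ, f ^ k * x ∈ B)
    (hB' : s18_Chart ϖ B') (hVg : ∀ x ∈ V, x ∈ s18_gauss ϖ B')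
    (hgV : ∀ y ∈ s18_gauss ϖ B', ∃ k : ℕ, f ^ k * y ∈ V)
    (p : ℕ) (hp : 0 < p) (hp0 : (p : F) ≠ 0) (hpu : ((p : F))⁻¹ ∈ B)
    (h : F) (hh1 : ϖ⁻¹ * (h - 1) ∈ V)
    (hdiv : ∀ W : ValuationSubring F, IsDiscreteValuationRing W → B ≤ W.toSubring → ϖ⁻¹ ∈ W →
      ∃ g u : F, u ∈ W ∧ u⁻¹ ∈ W ∧ h = u * g ^ p)
    (M : F) (hM : M ∈ B) (hMh : M * h ∈ B) (n : ℕ) (u : F) (hu : ϖ⁻¹ * (u - 1) ∈ V)
    (hun : ϖ⁻¹ ^ n * (u ^ p - h) ∈ V) :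
    ∃ k : ℕ, ∃ x ∈ B, ϖ⁻¹ ^ n * (f ^ k * (M * u) - x) ∈ V := by
  have hϖ0 := hB'.ϖ_ne
  -- Gauss normal form of `h` in `B'`
  obtain ⟨a', ha', b', hb', hb'ϖ, hab'⟩ := hVg _ hh1
  have hb'0 : b' ≠ 0 := s18_ne_zero_of_not_dvd hb'ϖ
  have hh : h = (b' + ϖ * a') / b' := by
    have e : h = 1 + ϖ * (ϖ⁻¹ * (h - 1)) := by
      rw [← mul_assoc, mul_inv_cancel₀ hϖ0]; ring
    rw [e, hab']; field_simp
  have hab : ϖ⁻¹ * ((b' + ϖ * a') - b') ∈ B' := by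
    have e : ϖ⁻¹ * ((b' + ϖ * a') - b') = a' := by
      rw [add_sub_cancel_left, ← mul_assoc, inv_mul_cancel₀ hϖ0, one_mul]
    rw [e]; exact ha'
  obtain ⟨x', hx', hx'V⟩ := s18_as_chart_approx hB' p hp hp0 (hBB' hpu) h (b' + ϖ * a') b'
    (B'.add_mem hb' (B'.mul_mem hB'.ϖ_mem ha')) hb' hb'ϖ hab hh
    (fun W hW hBW hϖW => hdiv W hW (hBB'.trans hBW) hϖW) M (hBB' hM) (hBB' hMh) n u
    (hVg _ hu) (hVg _ hun)
  obtain ⟨k₁, hk₁⟩ := hfB' x' hx'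
  obtain ⟨k₂, hk₂⟩ := hgV _ hx'V
  refine ⟨k₁ + k₂, f ^ (k₁ + k₂) * x', ?_, ?_⟩
  · have e : f ^ (k₁ + k₂) * x' = f ^ k₂ * (f ^ k₁ * x') := by rw [pow_add]; ring
    rw [e]; exact B.mul_mem (B.pow_mem hf k₂) hk₁
  · have e : ϖ⁻¹ ^ n * (f ^ (k₁ + k₂) * (M * u) - f ^ (k₁ + k₂) * x') =
        -(f ^ k₁ * (f ^ k₂ * (ϖ⁻¹ ^ n * (x' - M * u)))) := by rw [pow_add]; ring
    rw [e]
    exact V.neg_mem (V.mul_mem (V.pow_mem (hBV hf) k₁) hk₂)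

/-- A point with a given local factorisation `h = g^p * w` (`w` a unit of `B_𝔪`, `g ≡ 1`), where
`B_𝔪 ⊆ V` and `B_𝔪` is closed under `p`-th roots. -/
theorem s34_local_node (hϖ0 : ϖ ≠ 0) (B V : Subring F) (hBV : B ≤ V) (hϖB : ϖ ∈ B)
    (hcap : ∀ x ∈ B, ϖ⁻¹ * x ∈ V → ϖ⁻¹ * x ∈ B)
    (hVu : ∀ x ∈ V, (1 + ϖ * x)⁻¹ ∈ V)
    (𝔪 : Ideal B) [h𝔪 : 𝔪.IsPrime]
    (hlocV : ∀ s : B, s ∉ 𝔪 → ((s : F))⁻¹ ∈ V)
    (p : ℕ) (hp : 0 < p) (hp0 : (p : F) ≠ 0) (hpu : ((p : F))⁻¹ ∈ B)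
    (hroot : ∀ z : F, z ^ p ∈ s18_loc B 𝔪 → z ∈ s18_loc B 𝔪)
    (h : F) (hh1 : ϖ⁻¹ * (h - 1) ∈ V)
    (g w : F) (hgw : h = g ^ p * w) (hw : w ∈ s18_loc B 𝔪) (hw' : w⁻¹ ∈ s18_loc B 𝔪)
    (hg1 : ϖ⁻¹ * (g - 1) ∈ V)
    (M : F) (hM : M ∈ B) (hMh : M * h ∈ B) (n : ℕ) (u : F) (hu : ϖ⁻¹ * (u - 1) ∈ V)
    (hun : ϖ⁻¹ ^ n * (u ^ p - h) ∈ V) :
    ∃ s : B, s ∉ 𝔪 ∧ ∃ x ∈ B, ϖ⁻¹ ^ n * ((s : F) * (M * u) - x) ∈ V := by
  classical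
  set L := s18_locRing B 𝔪 with hL
  have hϖV : ϖ ∈ V := hBV hϖB
  have hϖL : ϖ ∈ L := s18_le_locRing B 𝔪 hϖB
  have hLV : ∀ y, y ∈ L → y ∈ V := by
    rintro y ⟨a, b, hb, rfl⟩
    rw [div_eq_mul_inv]
    exact V.mul_mem (hBV a.2) (hlocV b hb)
  have one_add : ∀ y : F, ϖ⁻¹ * (y - 1) ∈ V → y ∈ V := by
    intro y hy
    have e : y = 1 + ϖ * (ϖ⁻¹ * (y - 1)) := by
      rw [← mul_assoc, mul_inv_cancel₀ hϖ0]; ring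
    rw [e]
    exact V.add_mem V.one_mem (V.mul_mem hϖV hy)
  have one_add_inv : ∀ y : F, ϖ⁻¹ * (y - 1) ∈ V → y⁻¹ ∈ V := by
    intro y hy
    have e : y = 1 + ϖ * (ϖ⁻¹ * (y - 1)) := by
      rw [← mul_assoc, mul_inv_cancel₀ hϖ0]; ring
    rw [e]
    exact hVu _ hy
  have hgV : g ∈ V := one_add g hg1
  have hgV' : g⁻¹ ∈ V := one_add_inv g hg1
  have huV : u ∈ V := one_add u hu
  have hhV : h ∈ V := one_add h hh1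
  have hMV : M ∈ V := hBV hM
  -- the degenerate case `ϖ⁻¹ ∈ V`
  by_cases hdeg : ϖ⁻¹ ∈ V
  · refine ⟨1, fun h1 => h𝔪.ne_top ((Ideal.eq_top_iff_one _).mpr h1), 0, B.zero_mem, ?_⟩
    simp only [Subring.coe_one, one_mul, sub_zero]
    exact V.mul_mem (V.pow_mem hdeg n) (V.mul_mem hMV huV)
  have hh0 : h ≠ 0 := by
    intro h0
    apply hdeg
    have : ϖ⁻¹ = -(ϖ⁻¹ * (h - 1)) := by rw [h0]; ring
    rw [this]; exact V.neg_mem hh1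
  have hw0 : w ≠ 0 := by
    rintro rfl
    exact hh0 (by rw [hgw, mul_zero])
  have hg0 : g ≠ 0 := by
    rintro rfl
    apply hh0
    rw [hgw, zero_pow (by omega), zero_mul]
  -- `p` is a unit in the local ring and in `V`
  have hpO : IsUnit ((p : ℕ) : L) := by
    refine IsUnit.of_mul_eq_one (⟨(p : F)⁻¹, s18_le_locRing B 𝔪 hpu⟩ : L) ?_
    apply Subtype.ext
    simp only [Subring.coe_mul, Subring.coe_natCast, Subring.coe_one]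
    exact mul_inv_cancel₀ hp0
  have hpV : IsUnit ((p : ℕ) : V) := by
    refine IsUnit.of_mul_eq_one (⟨(p : F)⁻¹, hBV hpu⟩ : V) ?_
    apply Subtype.ext
    simp only [Subring.coe_mul, Subring.coe_natCast, Subring.coe_one]
    exact mul_inv_cancel₀ hp0
  -- `w ≡ 1 mod ϖ` in `V`, hence in `B_𝔪`
  have hgp1 : ϖ⁻¹ * (g ^ p - 1) ∈ V := by
    have hgeom : g ^ p - 1 = (g - 1) * ∑ i ∈ Finset.range p, g ^ i := by
      rw [mul_comm (g - 1), geom_sum_mul]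
    rw [hgeom, ← mul_assoc]
    exact V.mul_mem hg1 (Subring.sum_mem V (fun i _ => V.pow_mem hgV i))
  have hw1V : ϖ⁻¹ * (w - 1) ∈ V := by
    have hG' : g ^ p * (g⁻¹) ^ p = 1 := by rw [← mul_pow, mul_inv_cancel₀ hg0, one_pow]
    have e : ϖ⁻¹ * (w - 1) = (ϖ⁻¹ * (h - 1) - ϖ⁻¹ * (g ^ p - 1)) * (g⁻¹) ^ p := by
      rw [hgw]
      linear_combination (-(ϖ⁻¹ * (w - 1))) * hG'
    rw [e]
    exact V.mul_mem (V.sub_mem hh1 hgp1) (V.pow_mem hgV' p)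
  have hw1 : ϖ⁻¹ * (w - 1) ∈ L := by
    have hw1L : w - 1 ∈ L := L.sub_mem hw L.one_mem
    obtain ⟨a, b, hb, hab⟩ := hw1L
    have hb0 : (b : F) ≠ 0 := fun h => hb (by
      have : b = 0 := Subtype.ext h
      rw [this]; exact 𝔪.zero_mem)
    have h1 : ϖ⁻¹ * (a : F) ∈ V := by
      have := V.mul_mem (hBV b.2) hw1V
      have e : (b : F) * (ϖ⁻¹ * (w - 1)) = ϖ⁻¹ * (a : F) := by
        rw [hab]; field_simp
      rwa [e] at this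
    have h2 := hcap _ a.2 h1
    exact ⟨⟨_, h2⟩, b, hb, by rw [hab]; simp only; rw [mul_div_assoc]⟩
  -- Hensel in the local ring
  have hwd : (⟨ϖ, hϖL⟩ : L) ∣ (⟨w, hw⟩ : L) - 1 := by
    rw [s18_subring_dvd_iff_one _ hϖL hϖ0]
    exact hw1
  obtain ⟨wn, hwn1, hwnp⟩ := as3_exists_root_principal (⟨ϖ, hϖL⟩ : L) p hpO ⟨w, hw⟩ hwd n
  rw [s18_subring_dvd_iff_one _ hϖL hϖ0] at hwn1
  rw [s18_subring_dvd_iff _ hϖL hϖ0] at hwnp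
  simp only [AddSubgroupClass.coe_sub, Subring.coe_one, Subring.coe_pow] at hwn1 hwnp
  have hwnV : (wn : F) ∈ V := hLV _ wn.2
  -- uniqueness in `V`
  have hyV : g * (wn : F) ∈ V := V.mul_mem hgV hwnV
  have hu1 : (⟨ϖ, hϖV⟩ : V) ∣ (⟨u, huV⟩ : V) - 1 := by
    rw [s18_subring_dvd_iff_one _ hϖV hϖ0]
    exact hu
  have hy1 : (⟨ϖ, hϖV⟩ : V) ∣ (⟨g * (wn : F), hyV⟩ : V) - 1 := by
    rw [s18_subring_dvd_iff_one _ hϖV hϖ0]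
    simp only [AddSubgroupClass.coe_sub, Subring.coe_one]
    have e : ϖ⁻¹ * (g * (wn : F) - 1) = ϖ⁻¹ * (g - 1) * (wn : F) + ϖ⁻¹ * ((wn : F) - 1) := by
      ring
    rw [e]
    exact V.add_mem (V.mul_mem hg1 hwnV) (hLV _ hwn1)
  have huy : (⟨ϖ, hϖV⟩ : V) ^ n ∣ (⟨u, huV⟩ : V) ^ p - (⟨g * (wn : F), hyV⟩ : V) ^ p := by
    rw [s18_subring_dvd_iff _ hϖV hϖ0]
    simp only [AddSubgroupClass.coe_sub, Subring.coe_pow]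
    have e : ϖ⁻¹ ^ n * (u ^ p - (g * (wn : F)) ^ p) =
        ϖ⁻¹ ^ n * (u ^ p - h) - g ^ p * (ϖ⁻¹ ^ n * ((wn : F) ^ p - w)) := by
      rw [hgw]; ring
    rw [e]
    exact V.sub_mem hun (V.mul_mem (V.pow_mem hgV p) (hLV _ hwnp))
  have key := as3_root_unique_principal (⟨ϖ, hϖV⟩ : V) p hpV _ _ hu1 hy1 n huy
  rw [s18_subring_dvd_iff _ hϖV hϖ0] at key
  simp only [AddSubgroupClass.coe_sub] at key
  -- `M g w_n` lies in the local ring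
  have hMg : M * g ∈ L := by
    apply hroot
    have e : (M * g) ^ p = M ^ (p - 1) * (M * h * w⁻¹) := by
      obtain ⟨p', rfl⟩ : ∃ p', p = p' + 1 := ⟨p - 1, by omega⟩
      rw [hgw, Nat.add_sub_cancel]
      field_simp
      ring
    rw [e]
    exact L.mul_mem (L.pow_mem (s18_le_locRing B 𝔪 hM) _)
      (L.mul_mem (s18_le_locRing B 𝔪 hMh) hw')
  have ho : M * g * (wn : F) ∈ L := L.mul_mem hMg wn.2
  obtain ⟨a', s', hs', ho'⟩ := ho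
  have hs0 : (s' : F) ≠ 0 := fun h0 => hs' (by
    have : s' = 0 := Subtype.ext h0
    rw [this]; exact 𝔪.zero_mem)
  refine ⟨s', hs', a', a'.2, ?_⟩
  have e : ϖ⁻¹ ^ n * ((s' : F) * (M * u) - a') =
      (s' : F) * M * (ϖ⁻¹ ^ n * (u - g * (wn : F))) := by
    have ha' : (a' : F) = (s' : F) * (M * g * (wn : F)) := by
      rw [ho']; field_simp
    rw [ha']; ring
  rw [e]
  exact V.mul_mem (V.mul_mem (hBV s'.2) hMV) key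

/-- (G'2) chart approximation in a chart `B` with Gauss ring `V`: every maximal ideal containing
`ϖ` either has a neighbourhood `B' = B[1/f]` that is an `s18_Chart`, or carries a local
factorisation `h = g^p * w`. -/
theorem s34_chart_approx (hϖ0 : ϖ ≠ 0) (B V : Subring F) (hBV : B ≤ V) (hϖB : ϖ ∈ B)
    (hcap : ∀ x ∈ B, ϖ⁻¹ * x ∈ V → ϖ⁻¹ * x ∈ B)
    (hVu : ∀ x ∈ V, (1 + ϖ * x)⁻¹ ∈ V)
    (p : ℕ) (hp : 0 < p) (hp0 : (p : F) ≠ 0) (hpu : ((p : F))⁻¹ ∈ B)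
    (h : F) (hh1 : ϖ⁻¹ * (h - 1) ∈ V)
    (hdiv : ∀ W : ValuationSubring F, IsDiscreteValuationRing W → B ≤ W.toSubring → ϖ⁻¹ ∈ W →
      ∃ g u : F, u ∈ W ∧ u⁻¹ ∈ W ∧ h = u * g ^ p)
    (hpts : ∀ 𝔪 : Ideal B, 𝔪.IsMaximal → (⟨ϖ, hϖB⟩ : B) ∈ 𝔪 →
      (∃ (B' : Subring F) (f : B), f ∉ 𝔪 ∧ B ≤ B' ∧ (∀ x ∈ B', ∃ k : ℕ, (f : F) ^ k * x ∈ B) ∧
        s18_Chart ϖ B' ∧ (∀ x ∈ V, x ∈ s18_gauss ϖ B') ∧
        (∀ y ∈ s18_gauss ϖ B', ∃ k : ℕ, (f : F) ^ k * y ∈ V)) ∨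
      ((∀ s : B, s ∉ 𝔪 → ((s : F))⁻¹ ∈ V) ∧ (∀ z : F, z ^ p ∈ s18_loc B 𝔪 → z ∈ s18_loc B 𝔪) ∧
        ∃ g w : F, h = g ^ p * w ∧ w ∈ s18_loc B 𝔪 ∧ w⁻¹ ∈ s18_loc B 𝔪 ∧ ϖ⁻¹ * (g - 1) ∈ V))
    (M : F) (hM : M ∈ B) (hMh : M * h ∈ B) (n : ℕ) (u : F) (hu : ϖ⁻¹ * (u - 1) ∈ V)
    (hun : ϖ⁻¹ ^ n * (u ^ p - h) ∈ V) :
    ∃ x ∈ B, ϖ⁻¹ ^ n * (x - M * u) ∈ V := by
  apply s34_chart_approx_of_local B V hBV M u n
  intro 𝔪 h𝔪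
  haveI := h𝔪.isPrime
  have huV : u ∈ V := by
    have e : u = 1 + ϖ * (ϖ⁻¹ * (u - 1)) := by
      rw [← mul_assoc, mul_inv_cancel₀ hϖ0]; ring
    rw [e]
    exact V.add_mem V.one_mem (V.mul_mem (hBV hϖB) hu)
  by_cases hϖ𝔪 : (⟨ϖ, hϖB⟩ : B) ∈ 𝔪
  · rcases hpts 𝔪 h𝔪 hϖ𝔪 with ⟨B', f, hf, hBB', hfB', hB', hVg, hgV⟩ | ⟨hlocV, hroot, g, w, hgw, hw, hw', hg1⟩
    · obtain ⟨k, x, hx, hxV⟩ := s34_local_smooth B B' V hBB' hBV (f : F) f.2 hfB' hB' hVg hgV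
        p hp hp0 hpu h hh1 hdiv M hM hMh n u hu hun
      exact ⟨f ^ k, fun hk => hf (h𝔪.isPrime.mem_of_pow_mem k hk), x, hx, by
        simpa only [Subring.coe_pow] using hxV⟩
    · exact s34_local_node hϖ0 B V hBV hϖB hcap hVu 𝔪 hlocV p hp hp0 hpu hroot h hh1 g w hgw
        hw hw' hg1 M hM hMh n u hu hun
  · exact s34_local_away hϖ0 B V hϖB M u (hBV hM) huV n 𝔪 hϖ𝔪

end Fermat.Agent.S34
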