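import Mathlib
import Fermat.Agent.S18.AsMain

/-!
# S34, block (G'): the two-chart theorem over an abstract semi-local Gauss ring

`s34_glue_main` is the analogue of `s18_as_main` in which the Gauss valuation ring of the charts is
replaced by an arbitrary subring `V` of `F` (in the application `V = V_∞ ∩ V_0`, the intersection of
the valuation rings of the two components of the special fibre), and the chart approximation
property is a hypothesis (`LA0`, `LAi`):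

  every `p`-th root `u ≡ 1` of `h` modulo `ϖ^n` in `V` is, after multiplication with a multiplier
  `M` (`M, M h ∈ B`), congruent modulo `ϖ^n V` to an element of the chart ring `B`.

`s34_cap_pow` : the `ϖ`-saturation `B ∩ ϖ V = ϖ B` implies `B ∩ ϖ^n V = ϖ^n B`.
-/

set_option autoImplicit false

namespace Fermat.Agent.S34

open Fermat.Agent.S18

/-- `ϖ`-saturation of a subring in a bigger ring, iterated. -/
theorem s34_cap_pow {F : Type*} [Field F] {ϖ : F} (hϖ0 : ϖ ≠ 0) (B V : Subring F)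
    (hϖV : ϖ ∈ V) (hcap : ∀ x ∈ B, ϖ⁻¹ * x ∈ V → ϖ⁻¹ * x ∈ B) {x : F} (hx : x ∈ B) (n : ℕ)
    (h : ϖ⁻¹ ^ n * x ∈ V) : ϖ⁻¹ ^ n * x ∈ B := by
  induction n with
  | zero => simpa using hx
  | succ n ih =>
    have h1 : ϖ⁻¹ ^ n * x ∈ V := by
      have := V.mul_mem hϖV h
      have e : ϖ * (ϖ⁻¹ ^ (n + 1) * x) = ϖ⁻¹ ^ n * x := by
        rw [pow_succ]; field_simp
      rwa [e] at this
    have hy := ih h1
    have e2 : ϖ⁻¹ ^ (n + 1) * x = ϖ⁻¹ * (ϖ⁻¹ ^ n * x) := by rw [pow_succ]; ring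
    rw [e2]
    apply hcap _ hy
    rw [← e2]; exact h

/-- (G'1) the two-chart theorem over an abstract Gauss ring `V`, from the chart approximation
property of the two charts. -/
theorem s34_glue_main {A₀ F : Type*} [CommRing A₀] [IsDomain A₀] [IsDiscreteValuationRing A₀]
    [Field F] [Algebra A₀ F] (hinj : Function.Injective (algebraMap A₀ F)) {π : A₀}
    (hπ : Irreducible π) {t : F} {B0 Binf : Subalgebra A₀ F} (V : Subring F)
    (hB0V : ∀ x ∈ B0, x ∈ V) (hBiV : ∀ x ∈ Binf, x ∈ V)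
    (hcap0 : ∀ x ∈ B0, (algebraMap A₀ F π)⁻¹ * x ∈ V → (algebraMap A₀ F π)⁻¹ * x ∈ B0)
    (hcapi : ∀ x ∈ Binf, (algebraMap A₀ F π)⁻¹ * x ∈ V → (algebraMap A₀ F π)⁻¹ * x ∈ Binf)
    (t_ne : t ≠ 0) (t_mem : t ∈ B0) (tinv_mem : t⁻¹ ∈ Binf)
    (glue0 : ∀ x ∈ B0, ∃ k : ℕ, t⁻¹ ^ k * x ∈ Binf)
    (glueInf : ∀ x ∈ Binf, ∃ k : ℕ, t ^ k * x ∈ B0)
    (h1 : ∃ c₁ : ℕ, ∀ c, c₁ ≤ c → ∀ x ∈ B0, ∀ k : ℕ,
      ∃ a ∈ B0, ∃ b ∈ Binf, t⁻¹ ^ k * x = a + t ^ c * b)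
    (fin : ∀ c : ℕ, ∃ s : Finset F, ∀ x ∈ B0, t⁻¹ ^ c * x ∈ Binf →
      x ∈ Submodule.span A₀ (s : Set F))
    (p : ℕ) (hp : 0 < p) (hpu : IsUnit (p : A₀))
    (h b : F) (hh1 : (algebraMap A₀ F π)⁻¹ * (h - 1) ∈ V)
    (hb0 : b ≠ 0) (hb : b ∈ B0) (hbh : b * h ∈ B0)
    (LA0 : ∀ M : F, M ∈ B0 → M * h ∈ B0 → ∀ (n : ℕ) (u : F),
      (algebraMap A₀ F π)⁻¹ * (u - 1) ∈ V → (algebraMap A₀ F π)⁻¹ ^ n * (u ^ p - h) ∈ V →
      ∃ x ∈ B0, (algebraMap A₀ F π)⁻¹ ^ n * (x - M * u) ∈ V)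
    (LAi : ∀ M : F, M ∈ Binf → M * h ∈ Binf → ∀ (n : ℕ) (u : F),
      (algebraMap A₀ F π)⁻¹ * (u - 1) ∈ V → (algebraMap A₀ F π)⁻¹ ^ n * (u ^ p - h) ∈ V →
      ∃ x ∈ Binf, (algebraMap A₀ F π)⁻¹ ^ n * (x - M * u) ∈ V)
    {Ω E : Type*} [Field Ω] [IsAlgClosed Ω] [CommRing E] (φ : A₀ →+* Ω)
    (hφ : Function.Injective φ) (ιF : F →+* E) (ιΩ : Ω →+* E)
    (hc : ∀ x : A₀, ιΩ (φ x) = ιF (algebraMap A₀ F x)) :
    ∃ (n : ℕ) (ω : Fin n → Ω) (e : Fin n → F) (M : F), M ≠ 0 ∧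
      (∑ i, ιΩ (ω i) * ιF (e i)) ^ p = ιF (M ^ p * h) := by
  classical
  set ϖ : F := algebraMap A₀ F π with hϖdef
  have hϖ0 : ϖ ≠ 0 := by
    intro h0
    exact hπ.ne_zero (hinj (by rw [← hϖdef, h0, map_zero]))
  have ht0 : t ≠ 0 := t_ne
  have hp1 : 1 ≤ p := hp
  have hϖB0 : ϖ ∈ B0 := B0.algebraMap_mem π
  have hϖBi : ϖ ∈ Binf := Binf.algebraMap_mem π
  have hϖV : ϖ ∈ V := hB0V _ hϖB0
  have hcapn0 : ∀ x ∈ B0, ∀ n : ℕ, ϖ⁻¹ ^ n * x ∈ V → ϖ⁻¹ ^ n * x ∈ B0 := fun x hx n hxn =>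
    s34_cap_pow hϖ0 B0.toSubring V hϖV hcap0 hx n hxn
  have hcapni : ∀ x ∈ Binf, ∀ n : ℕ, ϖ⁻¹ ^ n * x ∈ V → ϖ⁻¹ ^ n * x ∈ Binf := fun x hx n hxn =>
    s34_cap_pow hϖ0 Binf.toSubring V hϖV hcapi hx n hxn
  -- `p` is invertible
  obtain ⟨q, hq⟩ := hpu.exists_right_inv
  have hpq : (p : F) * algebraMap A₀ F q = 1 := by
    have := congrArg (algebraMap A₀ F) hq
    simpa using this
  have hp0 : (p : F) ≠ 0 := left_ne_zero_of_mul_eq_one hpq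
  have hpinv : (p : F)⁻¹ = algebraMap A₀ F q := (eq_inv_of_mul_eq_one_right hpq).symm
  have hpu0 : (p : F)⁻¹ ∈ V := by rw [hpinv]; exact hB0V _ (B0.algebraMap_mem q)
  -- lifting exponents
  have hup0 : ∀ (y : F) (k j : ℕ), t⁻¹ ^ k * y ∈ Binf → t⁻¹ ^ (k + j) * y ∈ Binf := by
    intro y k j hy
    have e : t⁻¹ ^ (k + j) * y = t⁻¹ ^ j * (t⁻¹ ^ k * y) := by rw [pow_add]; ring
    rw [e]; exact Binf.mul_mem (Binf.pow_mem tinv_mem j) hy
  -- `b`, `b h` at infinity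
  obtain ⟨ka, hka⟩ := glue0 _ hbh
  obtain ⟨kb, hkb⟩ := glue0 b hb
  set k := ka + kb with hk
  have hainf : t⁻¹ ^ k * (b * h) ∈ Binf := hup0 _ ka kb hka
  have hbinf : t⁻¹ ^ k * b ∈ Binf := by
    have := hup0 b kb ka hkb
    have e : kb + ka = k := by omega
    rwa [e] at this
  have htk : ∀ (j : ℕ) (y : F), t ^ j * (t⁻¹ ^ j * y) = y := fun j y => by
    rw [← mul_assoc, ← mul_pow, mul_inv_cancel₀ ht0, one_pow, one_mul]
  have htk' : ∀ (j : ℕ) (y : F), t⁻¹ ^ j * (t ^ j * y) = y := fun j y => by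
    rw [← mul_assoc, ← mul_pow, inv_mul_cancel₀ ht0, one_pow, one_mul]
  -- the constants `c`
  obtain ⟨c₁, hc₁⟩ := h1
  set c := c₁ + k with hcdef
  have hMhinf : t⁻¹ ^ k * b * h = t⁻¹ ^ k * (b * h) := by rw [mul_assoc]
  have hlam_mul : ∀ f : Fin p → F, (∀ i, f i ∈ s18_lam t B0 Binf c) →
      ∏ i, f i ∈ s18_lam t B0 Binf (p * c) := by
    intro f hf
    refine ⟨B0.prod_mem (fun i _ => (hf i).1), ?_⟩
    have e : t⁻¹ ^ (p * c) * ∏ i, f i = ∏ i, (t⁻¹ ^ c * f i) := by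
      rw [Finset.prod_mul_distrib, Finset.prod_const, Finset.card_univ, Fintype.card_fin,
        ← pow_mul, mul_comm c p]
    rw [e]
    exact Binf.prod_mem (fun i _ => (hf i).2)
  have hbc : t⁻¹ ^ c * b ∈ Binf := by
    have := hup0 b k c₁ hbinf
    rwa [add_comm] at this
  have hac : t⁻¹ ^ c * (b * h) ∈ Binf := by
    have := hup0 _ k c₁ hainf
    rwa [add_comm] at this
  have hb_lam : b ∈ s18_lam t B0 Binf c := ⟨hb, hbc⟩
  have ha_lam : b * h ∈ s18_lam t B0 Binf c := ⟨hbh, hac⟩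
  have hy_lam : b ^ p * h ∈ s18_lam t B0 Binf (p * c) := by
    have e : b ^ p * h = ∏ i : Fin p, (if (i : ℕ) = 0 then b * h else b) := by
      obtain ⟨p', rfl⟩ : ∃ p', p = p' + 1 := ⟨p - 1, by omega⟩
      rw [Fin.prod_univ_succ]
      simp only [Fin.val_zero, if_true, Fin.val_succ, Nat.succ_ne_zero, if_false,
        Finset.prod_const, Finset.card_univ, Fintype.card_fin]
      ring
    rw [e]
    apply hlam_mul
    intro i
    split_ifs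
    · exact ha_lam
    · exact hb_lam
  -- finite generation
  have hfg : ∀ c' : ℕ, (s18_lam t B0 Binf c').FG := by
    intro c'
    obtain ⟨s, hs⟩ := fin c'
    have hle : s18_lam t B0 Binf c' ≤ Submodule.span A₀ (s : Set F) := fun x hx => hs x hx.1 hx.2
    haveI : IsNoetherian A₀ (Submodule.span A₀ (s : Set F)) :=
      isNoetherian_span_of_finite A₀ s.finite_toSet
    haveI : IsNoetherian A₀ (s18_lam t B0 Binf c') := isNoetherian_of_le hle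
    exact Module.Finite.iff_fg.mp inferInstance
  -- approximations
  have happrox : ∀ n : ℕ, ∃ x ∈ s18_lam t B0 Binf c, ∃ z ∈ s18_lam t B0 Binf (p * c),
      x ^ p - b ^ p * h = algebraMap A₀ F π ^ n * z := by
    intro n
    -- a `p`-th root of `h` modulo `ϖ^n` in the Gauss ring
    have hhV : h ∈ V := by
      have e : h = 1 + ϖ * (ϖ⁻¹ * (h - 1)) := by
        rw [← mul_assoc, mul_inv_cancel₀ hϖ0]; ring
      rw [e]
      exact V.add_mem V.one_mem (V.mul_mem hϖV hh1)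
    have hpV : IsUnit ((p : ℕ) : V) := by
      refine IsUnit.of_mul_eq_one (⟨(p : F)⁻¹, hpu0⟩ : V) ?_
      apply Subtype.ext
      simp only [Subring.coe_mul, Subring.coe_natCast, Subring.coe_one]
      exact mul_inv_cancel₀ hp0
    have hh1' : (⟨ϖ, hϖV⟩ : V) ∣ (⟨h, hhV⟩ : V) - 1 := by
      rw [s18_subring_dvd_iff_one _ hϖV hϖ0]
      simpa only [AddSubgroupClass.coe_sub, Subring.coe_one] using hh1
    obtain ⟨uV, hu1, hun⟩ := as3_exists_root_principal (⟨ϖ, hϖV⟩ : V) p hpV ⟨h, hhV⟩ hh1' n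
    rw [s18_subring_dvd_iff_one _ hϖV hϖ0] at hu1
    rw [s18_subring_dvd_iff _ hϖV hϖ0] at hun
    simp only [AddSubgroupClass.coe_sub, Subring.coe_one, Subring.coe_pow] at hu1 hun
    set u : F := (uV : F) with hu
    have huV : u ∈ V := uV.2
    -- chart approximations
    obtain ⟨x0, hx0, hx0'⟩ := LA0 b hb hbh n u hu1 hun
    obtain ⟨xi, hxi, hxi'⟩ := LAi (t⁻¹ ^ k * b) hbinf (by rw [hMhinf]; exact hainf) n u hu1 hun
    -- the difference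
    have htV : t ∈ V := hB0V _ t_mem
    have htiV : t⁻¹ ∈ V := hBiV _ tinv_mem
    have hδV : ϖ⁻¹ ^ n * (x0 - t ^ k * xi) ∈ V := by
      have e : ϖ⁻¹ ^ n * (x0 - t ^ k * xi) =
          ϖ⁻¹ ^ n * (x0 - b * u) - t ^ k * (ϖ⁻¹ ^ n * (xi - t⁻¹ ^ k * b * u)) := by
        have : t ^ k * (t⁻¹ ^ k * b * u) = b * u := by rw [mul_assoc, htk]
        calc ϖ⁻¹ ^ n * (x0 - t ^ k * xi)
            = ϖ⁻¹ ^ n * (x0 - b * u) - ϖ⁻¹ ^ n * (t ^ k * xi - b * u) := by ring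
          _ = ϖ⁻¹ ^ n * (x0 - b * u) - ϖ⁻¹ ^ n * (t ^ k * xi - t ^ k * (t⁻¹ ^ k * b * u)) := by
              rw [this]
          _ = _ := by ring
      rw [e]
      exact V.sub_mem hx0' (V.mul_mem (V.pow_mem htV k) hxi')
    obtain ⟨j, hj⟩ := glueInf xi hxi
    have hyB : t ^ j * (x0 - t ^ k * xi) ∈ B0 := by
      have e : t ^ j * (x0 - t ^ k * xi) = t ^ j * x0 - t ^ k * (t ^ j * xi) := by ring
      rw [e]
      exact B0.sub_mem (B0.mul_mem (B0.pow_mem t_mem j) hx0)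
        (B0.mul_mem (B0.pow_mem t_mem k) hj)
    have hyB' : ϖ⁻¹ ^ n * (t ^ j * (x0 - t ^ k * xi)) ∈ B0 := by
      apply hcapn0 _ hyB n
      have e : ϖ⁻¹ ^ n * (t ^ j * (x0 - t ^ k * xi)) = t ^ j * (ϖ⁻¹ ^ n * (x0 - t ^ k * xi)) := by
        ring
      rw [e]
      exact V.mul_mem (V.pow_mem htV j) hδV
    obtain ⟨α, hα, β, hβ, hαβ⟩ := hc₁ c (by omega) _ hyB' j
    have hδ : ϖ⁻¹ ^ n * (x0 - t ^ k * xi) = α + t ^ c * β := by
      rw [← hαβ]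
      have e : ϖ⁻¹ ^ n * (t ^ j * (x0 - t ^ k * xi)) = t ^ j * (ϖ⁻¹ ^ n * (x0 - t ^ k * xi)) := by
        ring
      rw [e, htk']
    have hϖn : ∀ y : F, ϖ ^ n * (ϖ⁻¹ ^ n * y) = y := fun y => by
      rw [← mul_assoc, ← mul_pow, mul_inv_cancel₀ hϖ0, one_pow, one_mul]
    have hϖn' : ∀ y : F, ϖ⁻¹ ^ n * (ϖ ^ n * y) = y := fun y => by
      rw [← mul_assoc, ← mul_pow, inv_mul_cancel₀ hϖ0, one_pow, one_mul]
    have hδ' : x0 - t ^ k * xi = ϖ ^ n * (α + t ^ c * β) := by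
      rw [← hδ, hϖn]
    -- the glued element
    set lam : F := x0 - ϖ ^ n * α with hlam
    have hlam0 : lam ∈ B0 := B0.sub_mem hx0 (B0.mul_mem (B0.pow_mem hϖB0 n) hα)
    have hlam_eq : lam = t ^ k * xi + ϖ ^ n * (t ^ c * β) := by
      have : x0 = t ^ k * xi + ϖ ^ n * (α + t ^ c * β) := by rw [← hδ']; ring
      rw [hlam, this]; ring
    have hlami : t⁻¹ ^ c * lam ∈ Binf := by
      have e : t⁻¹ ^ c * lam = t⁻¹ ^ c₁ * xi + ϖ ^ n * β := by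
        rw [hlam_eq, hcdef, pow_add]
        have h1 : t⁻¹ ^ c₁ * t⁻¹ ^ k * (t ^ k * xi) = t⁻¹ ^ c₁ * xi := by
          rw [mul_assoc, htk']
        have h2 : t⁻¹ ^ c₁ * t⁻¹ ^ k * (ϖ ^ n * (t ^ c * β)) = ϖ ^ n * β := by
          rw [hcdef]
          have : t⁻¹ ^ c₁ * t⁻¹ ^ k * (ϖ ^ n * (t ^ (c₁ + k) * β)) =
              ϖ ^ n * (t⁻¹ ^ (c₁ + k) * (t ^ (c₁ + k) * β)) := by rw [pow_add]; ring
          rw [this, htk']
        rw [mul_add, h1, h2]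
      rw [e]
      exact Binf.add_mem (Binf.mul_mem (Binf.pow_mem tinv_mem c₁) hxi)
        (Binf.mul_mem (Binf.pow_mem hϖBi n) hβ)
    have hlam_mem : lam ∈ s18_lam t B0 Binf c := ⟨hlam0, hlami⟩
    have hαV : α ∈ V := hB0V _ hα
    have hbV : b ∈ V := hB0V _ hb
    have hlamu : ϖ⁻¹ ^ n * (lam - b * u) ∈ V := by
      have e : ϖ⁻¹ ^ n * (lam - b * u) = ϖ⁻¹ ^ n * (x0 - b * u) - α := by
        rw [hlam, sub_right_comm, mul_sub, hϖn']
      rw [e]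
      exact V.sub_mem hx0' hαV
    -- `lam^p ≡ b^p h`
    have hzV : ϖ⁻¹ ^ n * (lam ^ p - b ^ p * h) ∈ V := by
      have hlamV : lam ∈ V := hB0V _ hlam0
      have hbuV : b * u ∈ V := V.mul_mem hbV huV
      set d : F := ∑ i ∈ Finset.range p, lam ^ i * (b * u) ^ (p - 1 - i) with hd_def
      have hd : lam ^ p - (b * u) ^ p = (lam - b * u) * d := by
        rw [mul_comm (lam - b * u) d]; exact ((Commute.all lam (b * u)).geom_sum₂_mul p).symm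
      have hdV : d ∈ V :=
        V.sum_mem fun i _ => V.mul_mem (V.pow_mem hlamV i) (V.pow_mem hbuV _)
      have e : ϖ⁻¹ ^ n * (lam ^ p - b ^ p * h) =
          ϖ⁻¹ ^ n * (lam - b * u) * d + b ^ p * (ϖ⁻¹ ^ n * (u ^ p - h)) := by
        have : lam ^ p - b ^ p * h = (lam ^ p - (b * u) ^ p) + b ^ p * (u ^ p - h) := by ring
        rw [this, hd]; ring
      rw [e]
      exact V.add_mem (V.mul_mem hlamu hdV) (V.mul_mem (V.pow_mem hbV p) hun)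
    have hlamp : lam ^ p ∈ s18_lam t B0 Binf (p * c) := by
      have := hlam_mul (fun _ => lam) (fun _ => hlam_mem)
      rwa [Finset.prod_const, Finset.card_univ, Fintype.card_fin] at this
    have hdiff : lam ^ p - b ^ p * h ∈ s18_lam t B0 Binf (p * c) :=
      (s18_lam t B0 Binf (p * c)).sub_mem hlamp hy_lam
    refine ⟨lam, hlam_mem, ϖ⁻¹ ^ n * (lam ^ p - b ^ p * h), ⟨?_, ?_⟩, ?_⟩
    · exact hcapn0 _ hdiff.1 n hzV
    · have e : t⁻¹ ^ (p * c) * (ϖ⁻¹ ^ n * (lam ^ p - b ^ p * h)) =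
          ϖ⁻¹ ^ n * (t⁻¹ ^ (p * c) * (lam ^ p - b ^ p * h)) := by ring
      rw [e]
      apply hcapni _ hdiff.2 n
      rw [← e]
      exact V.mul_mem (V.pow_mem htiV _) hzV
    · rw [← hϖdef, hϖn]
  obtain ⟨n, ω, e, he⟩ := s18_as_exact hinj hπ p (s18_lam t B0 Binf c)
    (s18_lam t B0 Binf (p * c)) (hfg c) (hfg (p * c)) hlam_mul (b ^ p * h) hy_lam happrox
    φ hφ ιF ιΩ hc
  exact ⟨n, ω, e, b, hb0, he⟩

end Fermat.Agent.S34
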