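import Mathlib
import Fermat.Agent.S34.GlueMain
import Fermat.Agent.S34.GlueLocal

/-!
# S34, block (G'): the two-chart theorem for a reduced special fibre with nodes

`s34_PointData ϖ B V p h 𝔪` : what is needed at a closed point `𝔪` of the special fibre of the
chart `B` (with semi-local Gauss ring `V`): either a neighbourhood `B' = B[1/f]` which is an honest
S18 chart (a smooth point lying on one component only), or a local factorisation `h = g^p * w`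
(a node).

`s34_two_chart_nodal` : the two-chart theorem (analogue of `s18_as_main`).
-/

set_option autoImplicit false

namespace Fermat.Agent.S34

open Fermat.Agent.S18

/-- The local data at a closed point `𝔪` of the special fibre of the chart `B`. -/
def s34_PointData {F : Type*} [Field F] (ϖ : F) (B V : Subring F) (p : ℕ) (h : F)
    (𝔪 : Ideal B) : Prop :=
  (∃ (B' : Subring F) (f : B), f ∉ 𝔪 ∧ B ≤ B' ∧ (∀ x ∈ B', ∃ k : ℕ, (f : F) ^ k * x ∈ B) ∧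
    s18_Chart ϖ B' ∧ (∀ x ∈ V, x ∈ s18_gauss ϖ B') ∧
    (∀ y ∈ s18_gauss ϖ B', ∃ k : ℕ, (f : F) ^ k * y ∈ V)) ∨
  ((∀ s : B, s ∉ 𝔪 → ((s : F))⁻¹ ∈ V) ∧ (∀ z : F, z ^ p ∈ s18_loc B 𝔪 → z ∈ s18_loc B 𝔪) ∧
    ∃ g w : F, h = g ^ p * w ∧ w ∈ s18_loc B 𝔪 ∧ w⁻¹ ∈ s18_loc B 𝔪 ∧ ϖ⁻¹ * (g - 1) ∈ V)

/-- (G') the two-chart theorem for a reduced special fibre with nodes.

`V` is the semi-local Gauss ring (`V = V_∞ ∩ V_0` in the application); `hcap0`, `hcapi` say that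
the special fibres of the charts are reduced with generic points in `V`; `hVu` says that `ϖ` is in
the Jacobson radical of `V`; `hh1` says `h ≡ 1` on every component of the special fibre; `hdiv`
says that the divisor of `h` on the generic fibre is divisible by `p`; `hpts0`, `hptsi` give the
local data at the closed points of the special fibre. -/
theorem s34_two_chart_nodal {A₀ F : Type*} [CommRing A₀] [IsDomain A₀]
    [IsDiscreteValuationRing A₀] [Field F] [Algebra A₀ F]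
    (hinj : Function.Injective (algebraMap A₀ F)) {π : A₀}
    (hπ : Irreducible π) {t : F} {B0 Binf : Subalgebra A₀ F} (V : Subring F)
    (hB0V : ∀ x ∈ B0, x ∈ V) (hBiV : ∀ x ∈ Binf, x ∈ V)
    (hcap0 : ∀ x ∈ B0, (algebraMap A₀ F π)⁻¹ * x ∈ V → (algebraMap A₀ F π)⁻¹ * x ∈ B0)
    (hcapi : ∀ x ∈ Binf, (algebraMap A₀ F π)⁻¹ * x ∈ V → (algebraMap A₀ F π)⁻¹ * x ∈ Binf)
    (hVu : ∀ x ∈ V, (1 + algebraMap A₀ F π * x)⁻¹ ∈ V)
    (t_ne : t ≠ 0) (t_mem : t ∈ B0) (tinv_mem : t⁻¹ ∈ Binf)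
    (glue0 : ∀ x ∈ B0, ∃ k : ℕ, t⁻¹ ^ k * x ∈ Binf)
    (glueInf : ∀ x ∈ Binf, ∃ k : ℕ, t ^ k * x ∈ B0)
    (h1 : ∃ c₁ : ℕ, ∀ c, c₁ ≤ c → ∀ x ∈ B0, ∀ k : ℕ,
      ∃ a ∈ B0, ∃ b ∈ Binf, t⁻¹ ^ k * x = a + t ^ c * b)
    (fin : ∀ c : ℕ, ∃ s : Finset F, ∀ x ∈ B0, t⁻¹ ^ c * x ∈ Binf →
      x ∈ Submodule.span A₀ (s : Set F))
    (p : ℕ) (hp : 0 < p) (hpu : IsUnit (p : A₀))
    (h b : F) (hh1 : (algebraMap A₀ F π)⁻¹ * (h - 1) ∈ V)
    (hb0 : b ≠ 0) (hb : b ∈ B0) (hbh : b * h ∈ B0)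
    (hdiv : ∀ W : ValuationSubring F, IsDiscreteValuationRing W →
      (∀ x : A₀, algebraMap A₀ F x ∈ W) → (algebraMap A₀ F π)⁻¹ ∈ W →
      ∃ g u : F, u ∈ W ∧ u⁻¹ ∈ W ∧ h = u * g ^ p)
    (hpts0 : ∀ 𝔪 : Ideal B0.toSubring, 𝔪.IsMaximal →
      (⟨algebraMap A₀ F π, B0.algebraMap_mem π⟩ : B0.toSubring) ∈ 𝔪 →
      s34_PointData (algebraMap A₀ F π) B0.toSubring V p h 𝔪)
    (hptsi : ∀ 𝔪 : Ideal Binf.toSubring, 𝔪.IsMaximal →
      (⟨algebraMap A₀ F π, Binf.algebraMap_mem π⟩ : Binf.toSubring) ∈ 𝔪 →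
      s34_PointData (algebraMap A₀ F π) Binf.toSubring V p h 𝔪)
    {Ω E : Type*} [Field Ω] [IsAlgClosed Ω] [CommRing E] (φ : A₀ →+* Ω)
    (hφ : Function.Injective φ) (ιF : F →+* E) (ιΩ : Ω →+* E)
    (hc : ∀ x : A₀, ιΩ (φ x) = ιF (algebraMap A₀ F x)) :
    ∃ (n : ℕ) (ω : Fin n → Ω) (e : Fin n → F) (M : F), M ≠ 0 ∧
      (∑ i, ιΩ (ω i) * ιF (e i)) ^ p = ιF (M ^ p * h) := by
  have hϖ0 : algebraMap A₀ F π ≠ 0 := by
    intro h0
    exact hπ.ne_zero (hinj (by rw [h0, map_zero]))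
  -- `p` is invertible
  obtain ⟨q, hq⟩ := hpu.exists_right_inv
  have hpq : (p : F) * algebraMap A₀ F q = 1 := by
    have := congrArg (algebraMap A₀ F) hq
    simpa using this
  have hp0 : (p : F) ≠ 0 := left_ne_zero_of_mul_eq_one hpq
  have hpinv : (p : F)⁻¹ = algebraMap A₀ F q := (eq_inv_of_mul_eq_one_right hpq).symm
  have hpu0 : (p : F)⁻¹ ∈ B0.toSubring := by rw [hpinv]; exact B0.algebraMap_mem q
  have hpui : (p : F)⁻¹ ∈ Binf.toSubring := by rw [hpinv]; exact Binf.algebraMap_mem q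
  refine s34_glue_main hinj hπ V hB0V hBiV hcap0 hcapi t_ne t_mem tinv_mem glue0 glueInf h1 fin
    p hp hpu h b hh1 hb0 hb hbh ?_ ?_ φ hφ ιF ιΩ hc
  · intro M hM hMh n u hu hun
    exact s34_chart_approx hϖ0 B0.toSubring V (fun x hx => hB0V x hx) (B0.algebraMap_mem π)
      hcap0 hVu p hp hp0 hpu0 h hh1
      (fun W hW hBW hϖW => hdiv W hW (fun x => hBW (B0.algebraMap_mem x)) hϖW)
      hpts0 M hM hMh n u hu hun
  · intro M hM hMh n u hu hun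
    exact s34_chart_approx hϖ0 Binf.toSubring V (fun x hx => hBiV x hx) (Binf.algebraMap_mem π)
      hcapi hVu p hp hp0 hpui h hh1
      (fun W hW hBW hϖW => hdiv W hW (fun x => hBW (Binf.algebraMap_mem x)) hϖW)
      hptsi M hM hMh n u hu hun

end Fermat.Agent.S34
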