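import Mathlib
import Fermat.Agent.S34.GlueNodal

/-!
# S34, block (G'): units at a closed point from the horizontal primes

`s34_mem_loc_of_horizontal` : if `B ∩ ϖ V = ϖ B`, an element `w ∈ V` lying in `B_𝔮` for every prime
`𝔮 ⊆ 𝔪` not containing `ϖ` lies in `B_𝔪` (no normality or noetherianity needed).

`s34_root_closed_loc` : localisations of a root-closed ring are root-closed.

`s34_pointData_node` : the node case of `s34_PointData` from a function `g ≡ 1 mod ϖ V` such that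
`h / g^p` is a unit at every horizontal prime through the point.
-/

set_option autoImplicit false

namespace Fermat.Agent.S34

open Fermat.Agent.S18

variable {F : Type*} [Field F] {ϖ : F}

/-- An element of `V` lying in `B_𝔮` for all primes `𝔮 ⊆ 𝔪` not containing `ϖ` lies in `B_𝔪`. -/
theorem s34_mem_loc_of_horizontal (hϖ0 : ϖ ≠ 0) (B V : Subring F) (hBV : B ≤ V) (hϖB : ϖ ∈ B)
    (hcap : ∀ x ∈ B, ϖ⁻¹ * x ∈ V → ϖ⁻¹ * x ∈ B)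
    (𝔪 : Ideal B) [h𝔪 : 𝔪.IsPrime] (w : F) (hwV : w ∈ V)
    (hhor : ∀ 𝔮 : Ideal B, 𝔮.IsPrime → 𝔮 ≤ 𝔪 → (⟨ϖ, hϖB⟩ : B) ∉ 𝔮 → w ∈ s18_loc B 𝔮) :
    w ∈ s18_loc B 𝔪 := by
  classical
  -- the ideal of denominators
  let D : Ideal B :=
    { carrier := {s | (s : F) * w ∈ B}
      add_mem' := by
        intro s₁ s₂ h₁ h₂
        show ((s₁ + s₂ : B) : F) * w ∈ B
        have e : ((s₁ + s₂ : B) : F) * w = (s₁ : F) * w + (s₂ : F) * w := by push_cast; ring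
        rw [e]; exact B.add_mem h₁ h₂
      zero_mem' := by
        show ((0 : B) : F) * w ∈ B
        simp [B.zero_mem]
      smul_mem' := by
        intro c s h₁
        show ((c • s : B) : F) * w ∈ B
        have e : ((c • s : B) : F) * w = (c : F) * ((s : F) * w) := by
          simp only [smul_eq_mul, Subring.coe_mul]; ring
        rw [e]; exact B.mul_mem c.2 h₁ }
  -- the multiplicative set generated by `ϖ` and the complement of `𝔪`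
  let S : Submonoid B :=
    { carrier := {x | ∃ (k : ℕ) (s : B), s ∉ 𝔪 ∧ x = (⟨ϖ, hϖB⟩ : B) ^ k * s}
      mul_mem' := by
        rintro x y ⟨k, s, hs, rfl⟩ ⟨l, s', hs', rfl⟩
        exact ⟨k + l, s * s', fun h => (h𝔪.mem_or_mem h).elim hs hs', by rw [pow_add]; ring⟩
      one_mem' := ⟨0, 1, fun h => h𝔪.ne_top ((Ideal.eq_top_iff_one _).mpr h), by simp⟩ }
  have hDS : ¬ Disjoint (D : Set B) S := by
    intro hdisj
    obtain ⟨𝔮, h𝔮, hD𝔮, h𝔮S⟩ := Ideal.exists_le_prime_disjoint D S hdisj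
    have h𝔮𝔪 : 𝔮 ≤ 𝔪 := by
      intro x hx
      by_contra hx𝔪
      exact Set.disjoint_left.mp h𝔮S hx ⟨0, x, hx𝔪, by simp⟩
    have hϖ𝔮 : (⟨ϖ, hϖB⟩ : B) ∉ 𝔮 := by
      intro hx
      exact Set.disjoint_left.mp h𝔮S hx
        ⟨1, 1, fun h => h𝔪.ne_top ((Ideal.eq_top_iff_one _).mpr h), by simp⟩
    obtain ⟨a, s, hs, hw⟩ := hhor 𝔮 h𝔮 h𝔮𝔪 hϖ𝔮
    have hs0 : (s : F) ≠ 0 := fun h => hs (by
      have : s = 0 := Subtype.ext h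
      rw [this]; exact 𝔮.zero_mem)
    apply hs
    apply hD𝔮
    show (s : F) * w ∈ B
    have e : (s : F) * w = a := by rw [hw]; field_simp
    rw [e]; exact a.2
  obtain ⟨x, hxD, hxS⟩ := Set.not_disjoint_iff.mp hDS
  obtain ⟨k, s, hs, rfl⟩ := hxS
  have hb : ϖ ^ k * (s : F) * w ∈ B := by
    have : (((⟨ϖ, hϖB⟩ : B) ^ k * s : B) : F) * w ∈ B := hxD
    simpa only [Subring.coe_mul, Subring.coe_pow] using this
  have hs0 : (s : F) ≠ 0 := fun h => hs (by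
    have : s = 0 := Subtype.ext h
    rw [this]; exact 𝔪.zero_mem)
  have hsw : (s : F) * w ∈ B := by
    have h1 := s34_cap_pow hϖ0 B V (hBV hϖB) hcap hb k (by
      have e : ϖ⁻¹ ^ k * (ϖ ^ k * (s : F) * w) = (s : F) * w := by
        rw [mul_assoc, ← mul_assoc (ϖ⁻¹ ^ k), ← mul_pow, inv_mul_cancel₀ hϖ0, one_pow, one_mul]
      rw [e]
      exact V.mul_mem (hBV s.2) hwV)
    have e : ϖ⁻¹ ^ k * (ϖ ^ k * (s : F) * w) = (s : F) * w := by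
      rw [mul_assoc, ← mul_assoc (ϖ⁻¹ ^ k), ← mul_pow, inv_mul_cancel₀ hϖ0, one_pow, one_mul]
    rwa [e] at h1
  exact ⟨⟨_, hsw⟩, s, hs, by simp only; field_simp⟩

/-- Localisations of a `p`-root-closed subring are `p`-root-closed. -/
theorem s34_root_closed_loc (B : Subring F) (p : ℕ) (hp : 0 < p)
    (hroot : ∀ z : F, z ^ p ∈ B → z ∈ B) (𝔪 : Ideal B) (z : F) (hz : z ^ p ∈ s18_loc B 𝔪) :
    z ∈ s18_loc B 𝔪 := by
  obtain ⟨a, s, hs, hzs⟩ := hz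
  have hs0 : (s : F) ≠ 0 := fun h => hs (by
    have : s = 0 := Subtype.ext h
    rw [this]; exact 𝔪.zero_mem)
  have h1 : ((s : F) * z) ^ p ∈ B := by
    obtain ⟨p', rfl⟩ : ∃ p', p = p' + 1 := ⟨p - 1, by omega⟩
    have e : ((s : F) * z) ^ (p' + 1) = (s : F) ^ p' * (a : F) := by
      rw [mul_pow, hzs]; field_simp; ring
    rw [e]
    exact B.mul_mem (B.pow_mem s.2 p') a.2
  have h2 := hroot _ h1
  exact ⟨⟨_, h2⟩, s, hs, by simp only; field_simp⟩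

/-- The node case of `s34_PointData`: a function `g ≡ 1 mod ϖ V` such that `h / g^p` is a unit at
every horizontal prime through `𝔪`. -/
theorem s34_pointData_node (hϖ0 : ϖ ≠ 0) (B V : Subring F) (hBV : B ≤ V) (hϖB : ϖ ∈ B)
    (hcap : ∀ x ∈ B, ϖ⁻¹ * x ∈ V → ϖ⁻¹ * x ∈ B)
    (hVu : ∀ x ∈ V, (1 + ϖ * x)⁻¹ ∈ V) (hϖV : ϖ⁻¹ ∉ V)
    (𝔪 : Ideal B) [h𝔪 : 𝔪.IsPrime]
    (hlocV : ∀ s : B, s ∉ 𝔪 → ((s : F))⁻¹ ∈ V)
    (p : ℕ) (hp : 0 < p) (hroot : ∀ z : F, z ^ p ∈ B → z ∈ B)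
    (h : F) (hh1 : ϖ⁻¹ * (h - 1) ∈ V) (g : F) (hg1 : ϖ⁻¹ * (g - 1) ∈ V)
    (hhor : ∀ 𝔮 : Ideal B, 𝔮.IsPrime → 𝔮 ≤ 𝔪 → (⟨ϖ, hϖB⟩ : B) ∉ 𝔮 →
      h * (g⁻¹) ^ p ∈ s18_loc B 𝔮 ∧ g ^ p * h⁻¹ ∈ s18_loc B 𝔮) :
    s34_PointData ϖ B V p h 𝔪 := by
  have one_add : ∀ y : F, ϖ⁻¹ * (y - 1) ∈ V → y ∈ V := by
    intro y hy
    have e : y = 1 + ϖ * (ϖ⁻¹ * (y - 1)) := by
      rw [← mul_assoc, mul_inv_cancel₀ hϖ0]; ring
    rw [e]
    exact V.add_mem V.one_mem (V.mul_mem (hBV hϖB) hy)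
  have one_add_inv : ∀ y : F, ϖ⁻¹ * (y - 1) ∈ V → y⁻¹ ∈ V := by
    intro y hy
    have e : y = 1 + ϖ * (ϖ⁻¹ * (y - 1)) := by
      rw [← mul_assoc, mul_inv_cancel₀ hϖ0]; ring
    rw [e]
    exact hVu _ hy
  have hg0 : g ≠ 0 := by
    rintro rfl
    apply hϖV
    have : ϖ⁻¹ = -(ϖ⁻¹ * ((0 : F) - 1)) := by ring
    rw [this]; exact V.neg_mem hg1
  have hh0 : h ≠ 0 := by
    rintro rfl
    apply hϖV
    have : ϖ⁻¹ = -(ϖ⁻¹ * ((0 : F) - 1)) := by ring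
    rw [this]; exact V.neg_mem hh1
  have hwV : h * (g⁻¹) ^ p ∈ V := V.mul_mem (one_add h hh1) (V.pow_mem (one_add_inv g hg1) p)
  have hwV' : g ^ p * h⁻¹ ∈ V := V.mul_mem (V.pow_mem (one_add g hg1) p) (one_add_inv h hh1)
  refine Or.inr ⟨hlocV, fun z hz => s34_root_closed_loc B p hp hroot 𝔪 z hz, g, h * (g⁻¹) ^ p,
    ?_, ?_, ?_, hg1⟩
  · rw [inv_pow]; field_simp
  · exact s34_mem_loc_of_horizontal hϖ0 B V hBV hϖB hcap 𝔪 _ hwV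
      (fun 𝔮 h𝔮 h𝔮𝔪 hϖ𝔮 => (hhor 𝔮 h𝔮 h𝔮𝔪 hϖ𝔮).1)
  · have e : (h * (g⁻¹) ^ p)⁻¹ = g ^ p * h⁻¹ := by
      rw [mul_inv, inv_pow, inv_inv, mul_comm]
    rw [e]
    exact s34_mem_loc_of_horizontal hϖ0 B V hBV hϖB hcap 𝔪 _ hwV'
      (fun 𝔮 h𝔮 h𝔮𝔪 hϖ𝔮 => (hhor 𝔮 h𝔮 h𝔮𝔪 hϖ𝔮).2)

end Fermat.Agent.S34
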