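import Mathlib
import Fermat.Agent.S34.NodeUnit

/-!
# S34, block (G'): the smooth case of `s34_PointData`, and the two-component Gauss ring

`s34_Unif ϖ V` : the subring `V` of the field `F` is a discrete valuation ring with uniformizer `ϖ`
(elementary form: every nonzero element of `F` is `ϖ^j * unit`).

`s34_away B f` : the subring `B[1/f]` of `F`.

`s34_pointData_smooth` : at a closed point of the chart `B` lying on the component `V₁` only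
(`f ∈ B \ 𝔪` a unit of `V₁` with `f ∈ ϖ V₂`), the left disjunct of `s34_PointData` for the Gauss
ring `V₁ ⊓ V₂` holds as soon as `B[1/f]` is regular at its closed points over `ϖ`.
-/

set_option autoImplicit false

namespace Fermat.Agent.S34

open Fermat.Agent.S18

variable {F : Type*} [Field F] {ϖ : F}

/-- `V` is a discrete valuation ring of `F` with uniformizer `ϖ`. -/
structure s34_Unif (ϖ : F) (V : Subring F) : Prop where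
  mem : ϖ ∈ V
  inv_not_mem : ϖ⁻¹ ∉ V
  decomp : ∀ x : F, x ≠ 0 → ∃ (j : ℤ) (u : F), u ∈ V ∧ u⁻¹ ∈ V ∧ x = ϖ ^ j * u

namespace s34_Unif

variable {V : Subring F}

theorem ne_zero (hV : s34_Unif ϖ V) : ϖ ≠ 0 := by
  rintro rfl
  apply hV.inv_not_mem
  rw [inv_zero]; exact V.zero_mem

theorem zpow_mem (hV : s34_Unif ϖ V) {j : ℤ} (hj : 0 ≤ j) : ϖ ^ j ∈ V := by
  obtain ⟨k, rfl⟩ := Int.eq_ofNat_of_zero_le hj
  rw [zpow_natCast]; exact V.pow_mem hV.mem k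

/-- A power of `ϖ` with negative exponent is not in `V`. -/
theorem zpow_not_mem (hV : s34_Unif ϖ V) {j : ℤ} (hj : j < 0) : ϖ ^ j ∉ V := by
  intro h
  apply hV.inv_not_mem
  have h1 : ϖ ^ (-j - 1) ∈ V := hV.zpow_mem (by omega)
  have h2 := V.mul_mem h h1
  rw [← zpow_add₀ hV.ne_zero] at h2
  have e : j + (-j - 1) = -1 := by ring
  rwa [e, zpow_neg_one] at h2

/-- Membership in `V` in terms of the exponent. -/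
theorem mem_iff (hV : s34_Unif ϖ V) {j : ℤ} {u : F} (hu0 : u ≠ 0) (hu : u ∈ V) (hu' : u⁻¹ ∈ V) :
    ϖ ^ j * u ∈ V ↔ 0 ≤ j := by
  constructor
  · intro h
    by_contra hj
    apply hV.zpow_not_mem (not_le.mp hj)
    have e : ϖ ^ j = ϖ ^ j * u * u⁻¹ := by field_simp
    rw [e]; exact V.mul_mem h hu'
  · intro hj
    exact V.mul_mem (hV.zpow_mem hj) hu

/-- Every element of `F` has a bounded pole. -/
theorem exists_pow_mul_mem (hV : s34_Unif ϖ V) (y : F) : ∃ k : ℕ, ϖ ^ k * y ∈ V := by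
  by_cases hy : y = 0
  · exact ⟨0, by rw [hy, mul_zero]; exact V.zero_mem⟩
  obtain ⟨j, u, hu, hu', rfl⟩ := hV.decomp y hy
  have hu0 : u ≠ 0 := by rintro rfl; simp at hy
  refine ⟨(-j).toNat, ?_⟩
  have e : ϖ ^ (-j).toNat * (ϖ ^ j * u) = ϖ ^ (((-j).toNat : ℤ) + j) * u := by
    rw [zpow_add₀ hV.ne_zero, zpow_natCast, mul_assoc]
  rw [e, hV.mem_iff hu0 hu hu']
  omega

/-- The unit part of an element of `V` not divisible by `ϖ`. -/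
theorem inv_mem_of_not_dvd (hV : s34_Unif ϖ V) {x : F} (hx : x ∈ V) (hx' : ϖ⁻¹ * x ∉ V) :
    x⁻¹ ∈ V := by
  have hx0 : x ≠ 0 := by
    rintro rfl
    exact hx' (by rw [mul_zero]; exact V.zero_mem)
  obtain ⟨j, u, hu, hu', rfl⟩ := hV.decomp x hx0
  have hu0 : u ≠ 0 := by rintro rfl; simp at hx0
  have hj := (hV.mem_iff hu0 hu hu').mp hx
  have hj' : ¬ (0 ≤ j - 1) := by
    intro h
    apply hx'
    have e : ϖ⁻¹ * (ϖ ^ j * u) = ϖ ^ (j - 1) * u := by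
      rw [zpow_sub₀ hV.ne_zero, zpow_one]; field_simp [hV.ne_zero]
    rw [e]
    exact (hV.mem_iff hu0 hu hu').mpr h
  have hj0 : j = 0 := by omega
  rw [hj0, zpow_zero, one_mul]
  exact hu'

/-- An element of `V` whose inverse is in `V` is not divisible by `ϖ`. -/
theorem not_dvd_of_inv_mem (hV : s34_Unif ϖ V) {x : F} (hx0 : x ≠ 0) (hx' : x⁻¹ ∈ V) :
    ϖ⁻¹ * x ∉ V := by
  intro h
  apply hV.inv_not_mem
  have e : ϖ⁻¹ = ϖ⁻¹ * x * x⁻¹ := by field_simp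
  rw [e]; exact V.mul_mem h hx'

/-- `ϖ` is a prime element of `V`. -/
theorem prime (hV : s34_Unif ϖ V) {x y : F} (hx : x ∈ V) (hy : y ∈ V)
    (hxy : ϖ⁻¹ * (x * y) ∈ V) : ϖ⁻¹ * x ∈ V ∨ ϖ⁻¹ * y ∈ V := by
  by_contra hcon
  push Not at hcon
  have hx' := hV.inv_mem_of_not_dvd hx hcon.1
  have hy' := hV.inv_mem_of_not_dvd hy hcon.2
  have hx0 : x ≠ 0 := by
    rintro rfl
    exact hcon.1 (by rw [mul_zero]; exact V.zero_mem)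
  have hy0 : y ≠ 0 := by
    rintro rfl
    exact hcon.2 (by rw [mul_zero]; exact V.zero_mem)
  apply hV.inv_not_mem
  have e : ϖ⁻¹ = ϖ⁻¹ * (x * y) * (x⁻¹ * y⁻¹) := by field_simp
  rw [e]; exact V.mul_mem hxy (V.mul_mem hx' hy')

/-- `1 + ϖ V ⊆ V^×`. -/
theorem one_add_inv_mem (hV : s34_Unif ϖ V) {x : F} (hx : x ∈ V) : (1 + ϖ * x)⁻¹ ∈ V := by
  apply hV.inv_mem_of_not_dvd (V.add_mem V.one_mem (V.mul_mem hV.mem hx))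
  intro h
  apply hV.inv_not_mem
  have e : ϖ⁻¹ = ϖ⁻¹ * (1 + ϖ * x) - x := by
    field_simp [hV.ne_zero]; ring
  rw [e]; exact V.sub_mem h hx

/-- The exact power of `ϖ` dividing a nonzero element of `V`. -/
theorem exists_pow (hV : s34_Unif ϖ V) {x : F} (hx : x ∈ V) (hx0 : x ≠ 0) :
    ∃ k : ℕ, ϖ⁻¹ ^ k * x ∈ V ∧ (ϖ⁻¹ ^ k * x)⁻¹ ∈ V := by
  obtain ⟨j, u, hu, hu', rfl⟩ := hV.decomp x hx0
  have hu0 : u ≠ 0 := by rintro rfl; simp at hx0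
  have hj := (hV.mem_iff hu0 hu hu').mp hx
  obtain ⟨k, rfl⟩ := Int.eq_ofNat_of_zero_le hj
  have e : ϖ⁻¹ ^ k * (ϖ ^ (k : ℤ) * u) = u := by
    rw [zpow_natCast, ← mul_assoc, ← mul_pow, inv_mul_cancel₀ hV.ne_zero, one_pow, one_mul]
  exact ⟨k, by rw [e]; exact hu, by rw [e]; exact hu'⟩

end s34_Unif

/-- The hypothesis `hVu` of `s34_two_chart_nodal` for the intersection of two uniformized rings. -/
theorem s34_inf_one_add_inv {V₁ V₂ : Subring F} (hV₁ : s34_Unif ϖ V₁) (hV₂ : s34_Unif ϖ V₂)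
    (x : F) (hx : x ∈ V₁ ⊓ V₂) : (1 + ϖ * x)⁻¹ ∈ V₁ ⊓ V₂ :=
  ⟨hV₁.one_add_inv_mem hx.1, hV₂.one_add_inv_mem hx.2⟩

/-- The subring `B[1/f]` of `F`. -/
def s34_away (B : Subring F) (f : F) (hf : f ∈ B) : Subring F where
  carrier := {x | ∃ k : ℕ, f ^ k * x ∈ B}
  mul_mem' := by
    rintro x y ⟨k, hk⟩ ⟨l, hl⟩
    refine ⟨k + l, ?_⟩
    have e : f ^ (k + l) * (x * y) = (f ^ k * x) * (f ^ l * y) := by rw [pow_add]; ring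
    rw [e]; exact B.mul_mem hk hl
  one_mem' := ⟨0, by simp [B.one_mem]⟩
  add_mem' := by
    rintro x y ⟨k, hk⟩ ⟨l, hl⟩
    refine ⟨k + l, ?_⟩
    have e : f ^ (k + l) * (x + y) = f ^ l * (f ^ k * x) + f ^ k * (f ^ l * y) := by
      rw [pow_add]; ring
    rw [e]
    exact B.add_mem (B.mul_mem (B.pow_mem hf l) hk) (B.mul_mem (B.pow_mem hf k) hl)
  zero_mem' := ⟨0, by simp [B.zero_mem]⟩
  neg_mem' := by
    rintro x ⟨k, hk⟩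
    exact ⟨k, by rw [mul_neg]; exact B.neg_mem hk⟩

theorem s34_mem_away {B : Subring F} {f : F} {hf : f ∈ B} {x : F} :
    x ∈ s34_away B f hf ↔ ∃ k : ℕ, f ^ k * x ∈ B := Iff.rfl

theorem s34_le_away (B : Subring F) (f : F) (hf : f ∈ B) : B ≤ s34_away B f hf :=
  fun x hx => ⟨0, by simpa using hx⟩

theorem s34_inv_mem_away (B : Subring F) (f : F) (hf : f ∈ B) : f⁻¹ ∈ s34_away B f hf := by
  by_cases h0 : f = 0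
  · have e : f⁻¹ = 0 := by rw [h0, inv_zero]
    rw [e]; exact (s34_away B f hf).zero_mem
  · exact ⟨1, by rw [pow_one, mul_inv_cancel₀ h0]; exact B.one_mem⟩

/-- `B[1/f]` is noetherian. -/
theorem s34_away_noeth (B : Subring F) (f : F) (hf : f ∈ B) (hf0 : f ≠ 0)
    (hnoeth : IsNoetherianRing B) : IsNoetherianRing (s34_away B f hf) := by
  letI : Algebra B (s34_away B f hf) := (Subring.inclusion (s34_le_away B f hf)).toAlgebra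
  have hmap : ∀ x : B, ((algebraMap B (s34_away B f hf) x : s34_away B f hf) : F) = (x : F) :=
    fun x => rfl
  haveI : IsLocalization (Submonoid.powers (⟨f, hf⟩ : B)) (s34_away B f hf) := by
    rw [isLocalization_iff]
    refine ⟨?_, ?_, ?_⟩
    · rintro ⟨y, k, rfl⟩
      refine IsUnit.of_mul_eq_one (⟨(f⁻¹) ^ k, (s34_away B f hf).pow_mem
        (s34_inv_mem_away B f hf) k⟩ : s34_away B f hf) ?_
      apply Subtype.ext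
      simp only [Subring.coe_mul, hmap, Subring.coe_pow, Subring.coe_one]
      rw [← mul_pow, mul_inv_cancel₀ hf0, one_pow]
    · rintro ⟨z, k, hk⟩
      refine ⟨(⟨f ^ k * z, hk⟩, ⟨(⟨f, hf⟩ : B) ^ k, k, rfl⟩), ?_⟩
      apply Subtype.ext
      simp only [Subring.coe_mul, hmap, Subring.coe_pow]
      ring
    · intro x y hxy
      refine ⟨1, ?_⟩
      have h1 : (x : F) = (y : F) := by
        have := congrArg (Subtype.val : s34_away B f hf → F) hxy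
        simpa only [hmap] using this
      have h2 : x = y := Subtype.ext h1
      rw [h2]
  exact IsLocalization.isNoetherianRing (Submonoid.powers (⟨f, hf⟩ : B)) (s34_away B f hf) hnoeth

section Smooth

variable {B V₁ V₂ : Subring F}

/-- Divisibility by `ϖ` in `B[1/f]` is detected by `V₁` when `f` vanishes on the component
`V₂`. -/
theorem s34_away_cap (hB₁ : B ≤ V₁) (hB₂ : B ≤ V₂)
    (hcap : ∀ x ∈ B, ϖ⁻¹ * x ∈ V₁ → ϖ⁻¹ * x ∈ V₂ → ϖ⁻¹ * x ∈ B)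
    (f : F) (hf : f ∈ B) (hf₂ : ϖ⁻¹ * f ∈ V₂) {x : F} (hx : x ∈ s34_away B f hf)
    (hx₁ : ϖ⁻¹ * x ∈ V₁) : ϖ⁻¹ * x ∈ s34_away B f hf := by
  obtain ⟨k, hk⟩ := hx
  refine ⟨k + 1, ?_⟩
  have e : f ^ (k + 1) * (ϖ⁻¹ * x) = ϖ⁻¹ * (f ^ (k + 1) * x) := by ring
  rw [e]
  have hmem : f ^ (k + 1) * x ∈ B := by
    have e' : f ^ (k + 1) * x = f * (f ^ k * x) := by rw [pow_succ]; ring
    rw [e']; exact B.mul_mem hf hk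
  apply hcap _ hmem
  · rw [← e]
    exact V₁.mul_mem (V₁.pow_mem (hB₁ hf) _) hx₁
  · have e' : ϖ⁻¹ * (f ^ (k + 1) * x) = (ϖ⁻¹ * f) * (f ^ k * x) := by rw [pow_succ]; ring
    rw [e']
    exact V₂.mul_mem hf₂ (hB₂ hk)

/-- `B[1/f] ⊆ V₁` when `f` is a unit of `V₁`. -/
theorem s34_away_le (hB₁ : B ≤ V₁) (f : F) (hf : f ∈ B) (hf0 : f ≠ 0) (hf₁ : f⁻¹ ∈ V₁) :
    s34_away B f hf ≤ V₁ := by
  rintro x ⟨k, hk⟩
  have e : x = (f⁻¹) ^ k * (f ^ k * x) := by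
    rw [← mul_assoc, ← mul_pow, inv_mul_cancel₀ hf0, one_pow, one_mul]
  rw [e]
  exact V₁.mul_mem (V₁.pow_mem hf₁ k) (hB₁ hk)

/-- `B[1/f]` is an `s18_Chart` as soon as it is regular at its closed points over `ϖ`. -/
theorem s34_away_chart (hV₁ : s34_Unif ϖ V₁) (hB₁ : B ≤ V₁) (hB₂ : B ≤ V₂) (hϖB : ϖ ∈ B)
    (hcap : ∀ x ∈ B, ϖ⁻¹ * x ∈ V₁ → ϖ⁻¹ * x ∈ V₂ → ϖ⁻¹ * x ∈ B)
    (hnoeth : IsNoetherianRing B) (hfrac : ∀ x : F, ∃ a ∈ B, ∃ b ∈ B, b ≠ 0 ∧ x = a / b)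
    (f : F) (hf : f ∈ B) (hf0 : f ≠ 0) (hf₁ : f⁻¹ ∈ V₁) (hf₂ : ϖ⁻¹ * f ∈ V₂)
    (hreg : ∀ 𝔫 : Ideal (s34_away B f hf), 𝔫.IsMaximal →
      (⟨ϖ, s34_le_away B f hf hϖB⟩ : s34_away B f hf) ∈ 𝔫 →
      ∃ s ∈ 𝔫, ∀ x ∈ 𝔫, ∃ u, u ∉ 𝔫 ∧
        u * x ∈ Ideal.span {(⟨ϖ, s34_le_away B f hf hϖB⟩ : s34_away B f hf), s}) :
    s18_Chart ϖ (s34_away B f hf) where
  ϖ_mem := s34_le_away B f hf hϖB
  ϖ_ne := hV₁.ne_zero
  noeth := s34_away_noeth B f hf hf0 hnoeth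
  frac := fun x => by
    obtain ⟨a, ha, b, hb, hb0, rfl⟩ := hfrac x
    exact ⟨a, s34_le_away B f hf ha, b, s34_le_away B f hf hb, hb0, rfl⟩
  prime := fun x hx y hy hxy => by
    have hle := s34_away_le hB₁ f hf hf0 hf₁
    rcases hV₁.prime (hle hx) (hle hy) (hle hxy) with h | h
    · left; exact s34_away_cap hB₁ hB₂ hcap f hf hf₂ hx h
    · right; exact s34_away_cap hB₁ hB₂ hcap f hf hf₂ hy h
  nonunit := fun h => hV₁.inv_not_mem (s34_away_le hB₁ f hf hf0 hf₁ h)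
  reg := hreg

/-- The smooth case of `s34_PointData` (point on the component `V₁` only). -/
theorem s34_pointData_smooth (hV₁ : s34_Unif ϖ V₁) (hV₂ : s34_Unif ϖ V₂) (hB₁ : B ≤ V₁)
    (hB₂ : B ≤ V₂) (hϖB : ϖ ∈ B)
    (hcap : ∀ x ∈ B, ϖ⁻¹ * x ∈ V₁ → ϖ⁻¹ * x ∈ V₂ → ϖ⁻¹ * x ∈ B)
    (hnoeth : IsNoetherianRing B) (hfrac : ∀ x : F, ∃ a ∈ B, ∃ b ∈ B, b ≠ 0 ∧ x = a / b)
    (𝔪 : Ideal B) (f : B) (hf𝔪 : f ∉ 𝔪) (hf₁ : ((f : F))⁻¹ ∈ V₁) (hf₂ : ϖ⁻¹ * (f : F) ∈ V₂)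
    (hreg : ∀ 𝔫 : Ideal (s34_away B (f : F) f.2), 𝔫.IsMaximal →
      (⟨ϖ, s34_le_away B (f : F) f.2 hϖB⟩ : s34_away B (f : F) f.2) ∈ 𝔫 →
      ∃ s ∈ 𝔫, ∀ x ∈ 𝔫, ∃ u, u ∉ 𝔫 ∧
        u * x ∈ Ideal.span {(⟨ϖ, s34_le_away B (f : F) f.2 hϖB⟩ : s34_away B (f : F) f.2), s})
    (p : ℕ) (h : F) : s34_PointData ϖ B (V₁ ⊓ V₂) p h 𝔪 := by
  have hϖ0 := hV₁.ne_zero
  have hf0 : (f : F) ≠ 0 := fun h0 => hf𝔪 (by
    have : f = 0 := Subtype.ext h0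
    rw [this]; exact 𝔪.zero_mem)
  have hchart := s34_away_chart hV₁ hB₁ hB₂ hϖB hcap hnoeth hfrac (f : F) f.2 hf0 hf₁ hf₂ hreg
  have hle := s34_away_le hB₁ (f : F) f.2 hf0 hf₁
  have hcapV : ∀ x ∈ B, ϖ⁻¹ * x ∈ V₁ ⊓ V₂ → ϖ⁻¹ * x ∈ B := fun x hx hxV => hcap x hx hxV.1 hxV.2
  have hϖV : ϖ ∈ V₁ ⊓ V₂ := ⟨hB₁ hϖB, hB₂ hϖB⟩
  refine Or.inl ⟨s34_away B (f : F) f.2, f, hf𝔪, s34_le_away B (f : F) f.2, fun x hx => hx,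
    hchart, ?_, ?_⟩
  · -- `V₁ ⊓ V₂ ⊆ s18_gauss ϖ B[1/f]`
    rintro x ⟨hx₁, hx₂⟩
    by_cases hx0 : x = 0
    · exact ⟨0, (s34_away B (f : F) f.2).zero_mem, 1, (s34_away B (f : F) f.2).one_mem,
        by rw [mul_one]; exact hchart.nonunit, by rw [hx0, zero_div]⟩
    obtain ⟨a, ha, b, hb, hb0, rfl⟩ := hfrac x
    obtain ⟨k, hk, hk'⟩ := hV₁.exists_pow (hB₁ hb) hb0
    have hfk : ∀ y : F, ϖ⁻¹ ^ k * ((f : F) ^ k * y) = (ϖ⁻¹ * (f : F)) ^ k * y := fun y => by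
      rw [mul_pow]; ring
    have hb' : ϖ⁻¹ ^ k * ((f : F) ^ k * b) ∈ B := by
      apply s34_cap_pow hϖ0 B (V₁ ⊓ V₂) hϖV hcapV (B.mul_mem (B.pow_mem f.2 k) hb) k
      refine ⟨?_, ?_⟩
      · have e : ϖ⁻¹ ^ k * ((f : F) ^ k * b) = (f : F) ^ k * (ϖ⁻¹ ^ k * b) := by ring
        rw [e]; exact V₁.mul_mem (V₁.pow_mem (hB₁ f.2) k) hk
      · rw [hfk]; exact V₂.mul_mem (V₂.pow_mem hf₂ k) (hB₂ hb)
    have ha' : ϖ⁻¹ ^ k * ((f : F) ^ k * a) ∈ B := by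
      apply s34_cap_pow hϖ0 B (V₁ ⊓ V₂) hϖV hcapV (B.mul_mem (B.pow_mem f.2 k) ha) k
      refine ⟨?_, ?_⟩
      · have e : ϖ⁻¹ ^ k * ((f : F) ^ k * a) = (f : F) ^ k * ((ϖ⁻¹ ^ k * b) * (a / b)) := by
          field_simp
        rw [e]
        exact V₁.mul_mem (V₁.pow_mem (hB₁ f.2) k) (V₁.mul_mem hk hx₁)
      · rw [hfk]; exact V₂.mul_mem (V₂.pow_mem hf₂ k) (hB₂ ha)
    refine ⟨_, s34_le_away B (f : F) f.2 ha', _, s34_le_away B (f : F) f.2 hb', ?_, ?_⟩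
    · intro hcon
      have h1 := hle hcon
      have hne : ϖ⁻¹ ^ k * ((f : F) ^ k * b) ≠ 0 :=
        mul_ne_zero (pow_ne_zero _ (inv_ne_zero hϖ0)) (mul_ne_zero (pow_ne_zero _ hf0) hb0)
      refine hV₁.not_dvd_of_inv_mem hne ?_ h1
      have e : (ϖ⁻¹ ^ k * ((f : F) ^ k * b))⁻¹ = ((f : F)⁻¹) ^ k * (ϖ⁻¹ ^ k * b)⁻¹ := by
        rw [mul_left_comm, mul_inv, ← inv_pow]
      rw [e]
      exact V₁.mul_mem (V₁.pow_mem hf₁ k) hk'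
    · have hne : ϖ⁻¹ ^ k * (f : F) ^ k ≠ 0 :=
        mul_ne_zero (pow_ne_zero _ (inv_ne_zero hϖ0)) (pow_ne_zero _ hf0)
      rw [← mul_assoc, ← mul_assoc, mul_div_mul_left _ _ hne]
  · -- poles along `V₂` are killed by powers of `f`
    rintro y ⟨a, ha, b, hb, hbϖ, rfl⟩
    have hb₁ : b⁻¹ ∈ V₁ := by
      apply hV₁.inv_mem_of_not_dvd (hle hb)
      intro hcon
      exact hbϖ (s34_away_cap hB₁ hB₂ hcap (f : F) f.2 hf₂ hb hcon)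
    have hy₁ : a / b ∈ V₁ := by
      rw [div_eq_mul_inv]; exact V₁.mul_mem (hle ha) hb₁
    obtain ⟨k, hk⟩ := hV₂.exists_pow_mul_mem (a / b)
    refine ⟨k, V₁.mul_mem (V₁.pow_mem (hB₁ f.2) k) hy₁, ?_⟩
    have e : (f : F) ^ k * (a / b) = (ϖ⁻¹ * (f : F)) ^ k * (ϖ ^ k * (a / b)) := by
      rw [mul_pow, inv_pow]; field_simp
    rw [e]
    exact V₂.mul_mem (V₂.pow_mem hf₂ k) hk

end Smooth

/-- **Local data from the trichotomy at a closed point** of a chart `B` whose special fibre is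
reduced with (at most) two components `V₁`, `V₂`.  For a prime `𝔪 ∋ ϖ`:
* if some `f ∈ B \ 𝔪` vanishes on one component, it is enough that `B[1/f]` is regular at its
  closed points over `ϖ` (`hsmooth`);
* otherwise (`𝔪` is a crossing point) a function `g ≡ 1 mod ϖ (V₁ ⊓ V₂)` with `h / g^p` a unit at
  all horizontal primes through `𝔪` is needed (`hnode`). -/
theorem s34_pointData_of_cases {B V₁ V₂ : Subring F} (hV₁ : s34_Unif ϖ V₁) (hV₂ : s34_Unif ϖ V₂)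
    (hB₁ : B ≤ V₁) (hB₂ : B ≤ V₂) (hϖB : ϖ ∈ B)
    (hcap : ∀ x ∈ B, ϖ⁻¹ * x ∈ V₁ → ϖ⁻¹ * x ∈ V₂ → ϖ⁻¹ * x ∈ B)
    (hnoeth : IsNoetherianRing B) (hfrac : ∀ x : F, ∃ a ∈ B, ∃ b ∈ B, b ≠ 0 ∧ x = a / b)
    (𝔪 : Ideal B) [h𝔪 : 𝔪.IsPrime] (hϖ𝔪 : (⟨ϖ, hϖB⟩ : B) ∈ 𝔪)
    (p : ℕ) (hp : 0 < p) (hroot : ∀ z : F, z ^ p ∈ B → z ∈ B)
    (h : F) (hh1 : ϖ⁻¹ * (h - 1) ∈ V₁ ⊓ V₂)
    (hsmooth : ∀ f : B, f ∉ 𝔪 → (ϖ⁻¹ * (f : F) ∈ V₁ ∨ ϖ⁻¹ * (f : F) ∈ V₂) →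
      ∀ 𝔫 : Ideal (s34_away B (f : F) f.2), 𝔫.IsMaximal →
      (⟨ϖ, s34_le_away B (f : F) f.2 hϖB⟩ : s34_away B (f : F) f.2) ∈ 𝔫 →
      ∃ s ∈ 𝔫, ∀ x ∈ 𝔫, ∃ u, u ∉ 𝔫 ∧
        u * x ∈ Ideal.span {(⟨ϖ, s34_le_away B (f : F) f.2 hϖB⟩ : s34_away B (f : F) f.2), s})
    (hnode : (∀ s : B, s ∉ 𝔪 → ϖ⁻¹ * (s : F) ∉ V₁ ∧ ϖ⁻¹ * (s : F) ∉ V₂) →
      ∃ g : F, ϖ⁻¹ * (g - 1) ∈ V₁ ⊓ V₂ ∧
        ∀ 𝔮 : Ideal B, 𝔮.IsPrime → 𝔮 ≤ 𝔪 → (⟨ϖ, hϖB⟩ : B) ∉ 𝔮 →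
          h * (g⁻¹) ^ p ∈ s18_loc B 𝔮 ∧ g ^ p * h⁻¹ ∈ s18_loc B 𝔮) :
    s34_PointData ϖ B (V₁ ⊓ V₂) p h 𝔪 := by
  have hϖ0 := hV₁.ne_zero
  -- an element outside `𝔪` is not divisible by `ϖ` on both components
  have hnot : ∀ f : B, f ∉ 𝔪 → ϖ⁻¹ * (f : F) ∈ V₁ → ϖ⁻¹ * (f : F) ∈ V₂ → False := by
    intro f hf h₁ h₂
    apply hf
    have hmem := hcap _ f.2 h₁ h₂
    have e : f = ⟨ϖ, hϖB⟩ * ⟨ϖ⁻¹ * (f : F), hmem⟩ := by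
      apply Subtype.ext
      simp only [Subring.coe_mul]
      field_simp
    rw [e]
    exact 𝔪.mul_mem_right _ hϖ𝔪
  by_cases hc₂ : ∃ f : B, f ∉ 𝔪 ∧ ϖ⁻¹ * (f : F) ∈ V₂
  · obtain ⟨f, hf, hf₂⟩ := hc₂
    have hf₁ : ((f : F))⁻¹ ∈ V₁ :=
      hV₁.inv_mem_of_not_dvd (hB₁ f.2) (fun h₁ => hnot f hf h₁ hf₂)
    exact s34_pointData_smooth hV₁ hV₂ hB₁ hB₂ hϖB hcap hnoeth hfrac 𝔪 f hf hf₁ hf₂
      (hsmooth f hf (Or.inr hf₂)) p h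
  by_cases hc₁ : ∃ f : B, f ∉ 𝔪 ∧ ϖ⁻¹ * (f : F) ∈ V₁
  · obtain ⟨f, hf, hf₁⟩ := hc₁
    have hf₂ : ((f : F))⁻¹ ∈ V₂ :=
      hV₂.inv_mem_of_not_dvd (hB₂ f.2) (fun h₂ => hnot f hf hf₁ h₂)
    have := s34_pointData_smooth hV₂ hV₁ hB₂ hB₁ hϖB (fun x hx h₂ h₁ => hcap x hx h₁ h₂) hnoeth
      hfrac 𝔪 f hf hf₂ hf₁ (hsmooth f hf (Or.inl hf₁)) p h
    rwa [inf_comm] at this
  push Not at hc₁ hc₂
  have hall : ∀ s : B, s ∉ 𝔪 → ϖ⁻¹ * (s : F) ∉ V₁ ∧ ϖ⁻¹ * (s : F) ∉ V₂ :=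
    fun s hs => ⟨hc₁ s hs, hc₂ s hs⟩
  obtain ⟨g, hg1, hhor⟩ := hnode hall
  exact s34_pointData_node hϖ0 B (V₁ ⊓ V₂) (le_inf hB₁ hB₂) hϖB
    (fun x hx hxV => hcap x hx hxV.1 hxV.2) (fun x hx => s34_inf_one_add_inv hV₁ hV₂ x hx)
    (fun hc => hV₁.inv_not_mem hc.1) 𝔪
    (fun s hs => ⟨hV₁.inv_mem_of_not_dvd (hB₁ s.2) (hall s hs).1,
      hV₂.inv_mem_of_not_dvd (hB₂ s.2) (hall s hs).2⟩)
    p hp hroot h hh1 g hg1 hhor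

/-- **(G'), two-component form.**  The two-chart theorem for charts `B0`, `Binf` whose special
fibres are reduced with the two components `V₁`, `V₂` (discrete valuation rings of `F` with
uniformizer `ϖ`).  Besides the gluing data (as in `s18_TwoChart`) one needs:
* `hsm0`, `hsmi` : `B[1/f]` is regular at its closed points over `ϖ` whenever `f` vanishes on one
  of the two components;
* `hnode0`, `hnodei` : at a crossing point `𝔪` a function `g ≡ 1 mod ϖ (V₁ ⊓ V₂)` such that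
  `h / g^p` is a unit at all horizontal primes through `𝔪`. -/
theorem s34_two_chart_components {A₀ F : Type*} [CommRing A₀] [IsDomain A₀]
    [IsDiscreteValuationRing A₀] [Field F] [Algebra A₀ F]
    (hinj : Function.Injective (algebraMap A₀ F)) {π : A₀}
    (hπ : Irreducible π) {t : F} {B0 Binf : Subalgebra A₀ F} (V₁ V₂ : Subring F)
    (hV₁ : s34_Unif (algebraMap A₀ F π) V₁) (hV₂ : s34_Unif (algebraMap A₀ F π) V₂)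
    (hB0₁ : B0.toSubring ≤ V₁) (hB0₂ : B0.toSubring ≤ V₂)
    (hBi₁ : Binf.toSubring ≤ V₁) (hBi₂ : Binf.toSubring ≤ V₂)
    (hcap0 : ∀ x ∈ B0.toSubring, (algebraMap A₀ F π)⁻¹ * x ∈ V₁ → (algebraMap A₀ F π)⁻¹ * x ∈ V₂ →
      (algebraMap A₀ F π)⁻¹ * x ∈ B0.toSubring)
    (hcapi : ∀ x ∈ Binf.toSubring, (algebraMap A₀ F π)⁻¹ * x ∈ V₁ →
      (algebraMap A₀ F π)⁻¹ * x ∈ V₂ → (algebraMap A₀ F π)⁻¹ * x ∈ Binf.toSubring)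
    (noeth0 : IsNoetherianRing B0.toSubring) (noethi : IsNoetherianRing Binf.toSubring)
    (frac0 : ∀ x : F, ∃ a ∈ B0.toSubring, ∃ b ∈ B0.toSubring, b ≠ 0 ∧ x = a / b)
    (fraci : ∀ x : F, ∃ a ∈ Binf.toSubring, ∃ b ∈ Binf.toSubring, b ≠ 0 ∧ x = a / b)
    (t_ne : t ≠ 0) (t_mem : t ∈ B0) (tinv_mem : t⁻¹ ∈ Binf)
    (glue0 : ∀ x ∈ B0, ∃ k : ℕ, t⁻¹ ^ k * x ∈ Binf)
    (glueInf : ∀ x ∈ Binf, ∃ k : ℕ, t ^ k * x ∈ B0)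
    (h1 : ∃ c₁ : ℕ, ∀ c, c₁ ≤ c → ∀ x ∈ B0, ∀ k : ℕ,
      ∃ a ∈ B0, ∃ b ∈ Binf, t⁻¹ ^ k * x = a + t ^ c * b)
    (fin : ∀ c : ℕ, ∃ s : Finset F, ∀ x ∈ B0, t⁻¹ ^ c * x ∈ Binf →
      x ∈ Submodule.span A₀ (s : Set F))
    (p : ℕ) (hp : 0 < p) (hpu : IsUnit (p : A₀))
    (hroot0 : ∀ z : F, z ^ p ∈ B0.toSubring → z ∈ B0.toSubring)
    (hrooti : ∀ z : F, z ^ p ∈ Binf.toSubring → z ∈ Binf.toSubring)
    (h : F) (hh1 : (algebraMap A₀ F π)⁻¹ * (h - 1) ∈ V₁ ⊓ V₂)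
    (hdiv : ∀ W : ValuationSubring F, IsDiscreteValuationRing W →
      (∀ x : A₀, algebraMap A₀ F x ∈ W) → (algebraMap A₀ F π)⁻¹ ∈ W →
      ∃ g u : F, u ∈ W ∧ u⁻¹ ∈ W ∧ h = u * g ^ p)
    (hsm0 : ∀ f : B0.toSubring,
      ((algebraMap A₀ F π)⁻¹ * (f : F) ∈ V₁ ∨ (algebraMap A₀ F π)⁻¹ * (f : F) ∈ V₂) →
      ∀ 𝔫 : Ideal (s34_away B0.toSubring (f : F) f.2), 𝔫.IsMaximal →
      (⟨algebraMap A₀ F π, s34_le_away B0.toSubring (f : F) f.2 (B0.algebraMap_mem π)⟩ :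
        s34_away B0.toSubring (f : F) f.2) ∈ 𝔫 →
      ∃ s ∈ 𝔫, ∀ x ∈ 𝔫, ∃ u, u ∉ 𝔫 ∧ u * x ∈ Ideal.span
        {(⟨algebraMap A₀ F π, s34_le_away B0.toSubring (f : F) f.2 (B0.algebraMap_mem π)⟩ :
          s34_away B0.toSubring (f : F) f.2), s})
    (hsmi : ∀ f : Binf.toSubring,
      ((algebraMap A₀ F π)⁻¹ * (f : F) ∈ V₁ ∨ (algebraMap A₀ F π)⁻¹ * (f : F) ∈ V₂) →
      ∀ 𝔫 : Ideal (s34_away Binf.toSubring (f : F) f.2), 𝔫.IsMaximal →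
      (⟨algebraMap A₀ F π, s34_le_away Binf.toSubring (f : F) f.2 (Binf.algebraMap_mem π)⟩ :
        s34_away Binf.toSubring (f : F) f.2) ∈ 𝔫 →
      ∃ s ∈ 𝔫, ∀ x ∈ 𝔫, ∃ u, u ∉ 𝔫 ∧ u * x ∈ Ideal.span
        {(⟨algebraMap A₀ F π, s34_le_away Binf.toSubring (f : F) f.2 (Binf.algebraMap_mem π)⟩ :
          s34_away Binf.toSubring (f : F) f.2), s})
    (hnode0 : ∀ 𝔪 : Ideal B0.toSubring, 𝔪.IsMaximal →
      (⟨algebraMap A₀ F π, B0.algebraMap_mem π⟩ : B0.toSubring) ∈ 𝔪 →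
      (∀ s : B0.toSubring, s ∉ 𝔪 →
        (algebraMap A₀ F π)⁻¹ * (s : F) ∉ V₁ ∧ (algebraMap A₀ F π)⁻¹ * (s : F) ∉ V₂) →
      ∃ g : F, (algebraMap A₀ F π)⁻¹ * (g - 1) ∈ V₁ ⊓ V₂ ∧
        ∀ 𝔮 : Ideal B0.toSubring, 𝔮.IsPrime → 𝔮 ≤ 𝔪 →
          (⟨algebraMap A₀ F π, B0.algebraMap_mem π⟩ : B0.toSubring) ∉ 𝔮 →
          h * (g⁻¹) ^ p ∈ s18_loc B0.toSubring 𝔮 ∧ g ^ p * h⁻¹ ∈ s18_loc B0.toSubring 𝔮)
    (hnodei : ∀ 𝔪 : Ideal Binf.toSubring, 𝔪.IsMaximal →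
      (⟨algebraMap A₀ F π, Binf.algebraMap_mem π⟩ : Binf.toSubring) ∈ 𝔪 →
      (∀ s : Binf.toSubring, s ∉ 𝔪 →
        (algebraMap A₀ F π)⁻¹ * (s : F) ∉ V₁ ∧ (algebraMap A₀ F π)⁻¹ * (s : F) ∉ V₂) →
      ∃ g : F, (algebraMap A₀ F π)⁻¹ * (g - 1) ∈ V₁ ⊓ V₂ ∧
        ∀ 𝔮 : Ideal Binf.toSubring, 𝔮.IsPrime → 𝔮 ≤ 𝔪 →
          (⟨algebraMap A₀ F π, Binf.algebraMap_mem π⟩ : Binf.toSubring) ∉ 𝔮 →
          h * (g⁻¹) ^ p ∈ s18_loc Binf.toSubring 𝔮 ∧ g ^ p * h⁻¹ ∈ s18_loc Binf.toSubring 𝔮)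
    {Ω E : Type*} [Field Ω] [IsAlgClosed Ω] [CommRing E] (φ : A₀ →+* Ω)
    (hφ : Function.Injective φ) (ιF : F →+* E) (ιΩ : Ω →+* E)
    (hc : ∀ x : A₀, ιΩ (φ x) = ιF (algebraMap A₀ F x)) :
    ∃ (n : ℕ) (ω : Fin n → Ω) (e : Fin n → F) (M : F), M ≠ 0 ∧
      (∑ i, ιΩ (ω i) * ιF (e i)) ^ p = ιF (M ^ p * h) := by
  -- a multiplier `b`
  obtain ⟨a, ha, b, hb, hb0, hab⟩ := frac0 h
  have hbh : b * h ∈ B0 := by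
    have e : b * h = a := by rw [hab]; field_simp
    rw [e]; exact ha
  exact s34_two_chart_nodal hinj hπ (V₁ ⊓ V₂)
    (fun x hx => ⟨hB0₁ hx, hB0₂ hx⟩) (fun x hx => ⟨hBi₁ hx, hBi₂ hx⟩)
    (fun x hx hxV => hcap0 x hx hxV.1 hxV.2) (fun x hx hxV => hcapi x hx hxV.1 hxV.2)
    (fun x hx => s34_inf_one_add_inv hV₁ hV₂ x hx)
    t_ne t_mem tinv_mem glue0 glueInf h1 fin p hp hpu h b hh1 hb0 hb hbh hdiv
    (fun 𝔪 h𝔪 hϖ𝔪 => by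
      haveI := h𝔪.isPrime
      exact s34_pointData_of_cases hV₁ hV₂ hB0₁ hB0₂ (B0.algebraMap_mem π) hcap0 noeth0 frac0 𝔪
        hϖ𝔪 p hp hroot0 h hh1 (fun f _ hf => hsm0 f hf) (hnode0 𝔪 h𝔪 hϖ𝔪))
    (fun 𝔪 h𝔪 hϖ𝔪 => by
      haveI := h𝔪.isPrime
      exact s34_pointData_of_cases hV₁ hV₂ hBi₁ hBi₂ (Binf.algebraMap_mem π) hcapi noethi fraci 𝔪
        hϖ𝔪 p hp hrooti h hh1 (fun f _ hf => hsmi f hf) (hnodei 𝔪 h𝔪 hϖ𝔪))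
    φ hφ ιF ιΩ hc

end Fermat.Agent.S34
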