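import Mathlib
import Fermat.Prelude.Def_ModularCurve_ArithmeticGalois
import Fermat.Prelude.Def_ModularCurve_X0ModL
import Fermat.Agent.S18.ChVal
import Fermat.Agent.S34.SmoothPoint

/-!
# S34 (NODE), leaf (GI): the `q`-expansion Gauss valuation at infinity of `K · F_N`

`K` a field of characteristic zero, `A₁` a valuation subring of `K` which is a discrete valuation
ring with uniformizer `π`, `N` ANY level (no coprimality hypothesis), and
`F = laurentBaseChange K (modularFunctionFieldFull N) = K · F_N ⊆ K((q))`.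

* `s34_gi_V A₁ N` : the subring of `F` of all `x` with `s * x = y` for `A₁`-integral series `s, y`
  with `s` Gauss-primitive (the pull-back of the coefficientwise Gauss ring `s18_W`);
* `s34_gi_unif` : it is a discrete valuation ring of `F` with uniformizer `π` (`s34_Unif`);
* `s34_gi_red` : the reduction map `V → k((q))`, `y / s ↦ res y / res s`, with kernel `π V`
  (`s34_gi_red_eq_zero_iff`).
-/

set_option autoImplicit false
set_option linter.unusedSectionVars false

open ModularCurve

noncomputable section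

namespace Fermat.Agent.S34

open Fermat.Agent.S18

section Frac

variable {K : Type*} [Field K] (A₁ : ValuationSubring K)

/-- The subfield of `K((q))` of quotients of `A₁`-integral series. -/
def s34_gi_frac : Subfield (LaurentSeries K) where
  carrier := {x | ∃ s y : LaurentSeries A₁, s ≠ 0 ∧
    coeffMap A₁.subtype s * x = coeffMap A₁.subtype y}
  mul_mem' := by
    rintro a b ⟨s, y, hs, h⟩ ⟨s', y', hs', h'⟩
    refine ⟨s * s', y * y', mul_ne_zero hs hs', ?_⟩
    rw [map_mul, map_mul, ← h, ← h']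
    ring
  one_mem' := ⟨1, 1, one_ne_zero, by rw [map_one, one_mul]⟩
  add_mem' := by
    rintro a b ⟨s, y, hs, h⟩ ⟨s', y', hs', h'⟩
    refine ⟨s * s', s' * y + s * y', mul_ne_zero hs hs', ?_⟩
    rw [map_mul, map_add, map_mul, map_mul, ← h, ← h']
    ring
  zero_mem' := ⟨1, 0, one_ne_zero, by rw [map_zero, mul_zero]⟩
  neg_mem' := by
    rintro a ⟨s, y, hs, h⟩
    exact ⟨s, -y, hs, by rw [map_neg, ← h]; ring⟩
  inv_mem' := by
    rintro a ⟨s, y, hs, h⟩
    by_cases ha : a = 0
    · rw [ha, inv_zero]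
      exact ⟨1, 0, one_ne_zero, by rw [map_zero, mul_zero]⟩
    · have hs0 : coeffMap A₁.subtype s ≠ 0 := fun h0 =>
        hs (s18_coeffMap_injective _ Subtype.val_injective (by rw [h0, map_zero]))
      have hy : y ≠ 0 := by
        rintro rfl
        rw [map_zero] at h
        rcases mul_eq_zero.mp h with h | h
        · exact hs0 h
        · exact ha h
      refine ⟨y, s, hy, ?_⟩
      rw [← h, mul_assoc, mul_inv_cancel₀ ha, mul_one]

theorem s34_gi_C_mem_frac (c : K) : (HahnSeries.C c : LaurentSeries K) ∈ s34_gi_frac A₁ := by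
  have e : ∀ r : A₁, (HahnSeries.C (r : K) : LaurentSeries K) =
      coeffMap A₁.subtype (HahnSeries.C r) := fun r => by
    rw [HahnSeries.C_apply, HahnSeries.C_apply, coeffMap_single]; rfl
  rcases A₁.mem_or_inv_mem c with hc | hc
  · exact ⟨1, HahnSeries.C ⟨c, hc⟩, one_ne_zero, by rw [map_one, one_mul, ← e]⟩
  · by_cases hc0 : c = 0
    · rw [hc0, map_zero]
      exact Subfield.zero_mem _
    · refine ⟨HahnSeries.C ⟨c⁻¹, hc⟩, 1, ?_, ?_⟩
      · rw [Ne, map_eq_zero_iff _ HahnSeries.C_injective]
        exact fun h0 => inv_ne_zero hc0 (congrArg Subtype.val h0)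
      · rw [← e, map_one, ← map_mul]
        show HahnSeries.C (c⁻¹ * c) = 1
        rw [inv_mul_cancel₀ hc0, map_one]

variable [Algebra ℚ K]

theorem s34_gi_jq_mem_frac (d : ℕ) [NeZero d] :
    coeffEmb K (qExpand ℚ d jq) ∈ s34_gi_frac A₁ := by
  refine ⟨1, qExpand A₁ d (jqModC A₁), one_ne_zero, ?_⟩
  rw [map_one, one_mul, coeffEmb, coeffMap_qExpand, coeffMap_qExpand, ← jqModC_rat,
    coeffMap_jqModC, coeffMap_jqModC]

/-- Every function of `K · F_N` is a quotient of `A₁`-integral series. -/
theorem s34_gi_le_frac (N : ℕ) {x : LaurentSeries K}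
    (hx : x ∈ laurentBaseChange K (modularFunctionFieldFull N)) : x ∈ s34_gi_frac A₁ := by
  have hQ : ∀ z ∈ modularFunctionFieldFull N, coeffEmb K z ∈ s34_gi_frac A₁ := by
    intro z hz
    have hz' : z ∈ Subfield.closure
        (Set.range (algebraMap ℚ (LaurentSeries ℚ)) ∪ divisorExpansions N) := hz
    have hle : Subfield.closure
        (Set.range (algebraMap ℚ (LaurentSeries ℚ)) ∪ divisorExpansions N) ≤
        (s34_gi_frac A₁).comap (coeffEmb K) := by
      rw [Subfield.closure_le]
      rintro y (⟨r, rfl⟩ | ⟨d, hd0, hd, rfl⟩)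
      · show coeffEmb K (algebraMap ℚ (LaurentSeries ℚ) r) ∈ s34_gi_frac A₁
        rw [algebraMap_laurentSeries_eq_single, coeffEmb, coeffMap_single, ← HahnSeries.C_apply]
        exact s34_gi_C_mem_frac A₁ _
      · exact s34_gi_jq_mem_frac A₁ d
    exact hle hz'
  rw [mem_laurentBaseChange_iff] at hx
  refine (Subfield.closure_le (t := s34_gi_frac A₁)).mpr ?_ hx
  rintro y (⟨c, rfl⟩ | ⟨z, hz, rfl⟩)
  · rw [algebraMap_laurentSeries_eq_single, ← HahnSeries.C_apply]
    exact s34_gi_C_mem_frac A₁ c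
  · exact hQ z hz

end Frac

section Gauss

variable {K : Type*} [Field K] [Algebra ℚ K] (A₁ : ValuationSubring K) (N : ℕ)

/-- The `q`-expansion Gauss ring of `K · F_N` over `A₁`. -/
def s34_gi_V : Subring (laurentBaseChange K (modularFunctionFieldFull N)) :=
  (s18_W A₁.subtype (IsLocalRing.residue A₁)).comap
    (algebraMap (laurentBaseChange K (modularFunctionFieldFull N)) (LaurentSeries K))

variable {A₁ N}

theorem s34_gi_mem_V {x : laurentBaseChange K (modularFunctionFieldFull N)} :
    x ∈ s34_gi_V A₁ N ↔ ∃ s y : LaurentSeries A₁, coeffMap (IsLocalRing.residue A₁) s ≠ 0 ∧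
      coeffMap A₁.subtype s * (x : LaurentSeries K) = coeffMap A₁.subtype y := Iff.rfl

theorem s34_gi_coe_algebraMap (c : K) :
    ((algebraMap K (laurentBaseChange K (modularFunctionFieldFull N)) c :
      laurentBaseChange K (modularFunctionFieldFull N)) : LaurentSeries K) = HahnSeries.C c := by
  rw [HahnSeries.C_apply, ← algebraMap_laurentSeries_eq_single]
  rfl

theorem s34_gi_C_coe (r : A₁) : (HahnSeries.C (r : K) : LaurentSeries K) =
    coeffMap A₁.subtype (HahnSeries.C r) := by
  rw [HahnSeries.C_apply, HahnSeries.C_apply, coeffMap_single]; rfl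

theorem s34_gi_res_C (r : A₁) : coeffMap (IsLocalRing.residue A₁) (HahnSeries.C r) =
    HahnSeries.C (IsLocalRing.residue A₁ r) := by
  rw [HahnSeries.C_apply, HahnSeries.C_apply, coeffMap_single]

/-- Constants of `A₁` are in the Gauss ring. -/
theorem s34_gi_algebraMap_mem (r : A₁) :
    algebraMap K (laurentBaseChange K (modularFunctionFieldFull N)) (r : K) ∈ s34_gi_V A₁ N := by
  rw [s34_gi_mem_V]
  exact ⟨1, HahnSeries.C r, by rw [map_one]; exact one_ne_zero,
    by rw [map_one, one_mul, s34_gi_coe_algebraMap, s34_gi_C_coe]⟩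

/-- A function with `A₁`-integral `q`-expansion is in the Gauss ring. -/
theorem s34_gi_mem_of_integral {x : laurentBaseChange K (modularFunctionFieldFull N)}
    (y : LaurentSeries A₁) (h : (x : LaurentSeries K) = coeffMap A₁.subtype y) :
    x ∈ s34_gi_V A₁ N := by
  rw [s34_gi_mem_V]
  exact ⟨1, y, by rw [map_one]; exact one_ne_zero, by rw [map_one, one_mul, h]⟩

variable [IsDiscreteValuationRing A₁] {π : A₁}

theorem s34_gi_res_pi (hπ : Irreducible π) : IsLocalRing.residue A₁ π = 0 :=
  (IsLocalRing.residue_eq_zero_iff π).mpr hπ.not_isUnit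

theorem s34_gi_res_dvd (hπ : Irreducible π) (r : A₁) (hr : IsLocalRing.residue A₁ r = 0) :
    ∃ r', r = π * r' := by
  rw [IsLocalRing.residue_eq_zero_iff, hπ.maximalIdeal_eq, Ideal.mem_span_singleton] at hr
  exact hr

theorem s34_gi_val (hπ : Irreducible π) (r : A₁) (hr : r ≠ 0) :
    ∃ (n : ℕ) (r' : A₁), r = π ^ n * r' ∧ IsLocalRing.residue A₁ r' ≠ 0 := by
  obtain ⟨n, u, hu⟩ := IsDiscreteValuationRing.eq_unit_mul_pow_irreducible hr hπ
  refine ⟨n, u, by rw [hu, mul_comm], ?_⟩
  rw [Ne, IsLocalRing.residue_eq_zero_iff]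
  exact fun hmem => (IsLocalRing.mem_maximalIdeal _).mp hmem u.isUnit

/-- Content of an integral series. -/
theorem s34_gi_content (hπ : Irreducible π) (y : LaurentSeries A₁) (hy : y ≠ 0) :
    ∃ (n : ℕ) (y' : LaurentSeries A₁), y = HahnSeries.C π ^ n * y' ∧
      coeffMap (IsLocalRing.residue A₁) y' ≠ 0 :=
  s18_series_content (ρ := IsLocalRing.residue A₁) hπ.ne_zero (s34_gi_res_pi hπ)
    (s34_gi_res_dvd hπ) (s34_gi_val hπ) y hy

/-- An integral series with zero reduction is divisible by `π`. -/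
theorem s34_gi_dvd_of_res (hπ : Irreducible π) (y : LaurentSeries A₁)
    (hy : coeffMap (IsLocalRing.residue A₁) y = 0) :
    ∃ y' : LaurentSeries A₁, y = HahnSeries.C π * y' := by
  apply s18_exists_eq_C_mul_of_coeff π hπ.ne_zero
  intro n
  apply s34_gi_res_dvd hπ
  have h1 := congrArg (fun z : LaurentSeries (IsLocalRing.ResidueField A₁) => z.coeff n) hy
  simpa only [coeffMap_coeff, HahnSeries.coeff_zero] using h1

theorem s34_gi_res_C_pi_mul (hπ : Irreducible π) (y : LaurentSeries A₁) :
    coeffMap (IsLocalRing.residue A₁) (HahnSeries.C π * y) = 0 := by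
  rw [map_mul, s34_gi_res_C, s34_gi_res_pi hπ, map_zero, zero_mul]

theorem s34_gi_pi_ne (hπ : Irreducible π) :
    algebraMap K (laurentBaseChange K (modularFunctionFieldFull N)) (π : K) ≠ 0 := by
  rw [Ne, map_eq_zero]
  exact fun h => hπ.ne_zero (Subtype.ext h)

/-- Divisibility by `π` in the Gauss ring, in terms of series. -/
theorem s34_gi_pi_inv_mul_mem_iff (hπ : Irreducible π)
    {x : laurentBaseChange K (modularFunctionFieldFull N)} :
    (algebraMap K (laurentBaseChange K (modularFunctionFieldFull N)) (π : K))⁻¹ * x ∈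
        s34_gi_V A₁ N ↔
      ∃ s y : LaurentSeries A₁, coeffMap (IsLocalRing.residue A₁) s ≠ 0 ∧
        coeffMap A₁.subtype s * (x : LaurentSeries K) =
          coeffMap A₁.subtype (HahnSeries.C π * y) := by
  have hC0 : (HahnSeries.C (π : K) : LaurentSeries K) ≠ 0 := by
    rw [Ne, map_eq_zero]
    exact fun h => hπ.ne_zero (Subtype.ext h)
  have hcoe : (((algebraMap K (laurentBaseChange K (modularFunctionFieldFull N)) (π : K))⁻¹ * x :
      laurentBaseChange K (modularFunctionFieldFull N)) : LaurentSeries K) =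
      (HahnSeries.C (π : K))⁻¹ * (x : LaurentSeries K) := by
    rw [← s34_gi_coe_algebraMap (N := N)]
    rfl
  rw [s34_gi_mem_V, hcoe]
  constructor
  · rintro ⟨s, y, hs, h⟩
    refine ⟨s, y, hs, ?_⟩
    rw [map_mul, ← s34_gi_C_coe, ← h]
    field_simp
  · rintro ⟨s, y, hs, h⟩
    refine ⟨s, y, hs, ?_⟩
    rw [map_mul, ← s34_gi_C_coe] at h
    rw [mul_left_comm, h, ← mul_assoc, inv_mul_cancel₀ hC0, one_mul]

/-- **The `q`-expansion Gauss ring of `K · F_N` is a discrete valuation ring with uniformizer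
`π`** (any level `N`). -/
theorem s34_gi_unif (hπ : Irreducible π) :
    s34_Unif (algebraMap K (laurentBaseChange K (modularFunctionFieldFull N)) (π : K))
      (s34_gi_V A₁ N) := by
  have hC0 : (HahnSeries.C (π : K) : LaurentSeries K) ≠ 0 := by
    rw [Ne, map_eq_zero]
    exact fun h => hπ.ne_zero (Subtype.ext h)
  have hϖ0 := s34_gi_pi_ne (N := N) hπ
  refine ⟨s34_gi_algebraMap_mem π, ?_, ?_⟩
  · intro hmem
    have h1 := (s34_gi_pi_inv_mul_mem_iff (N := N) hπ (x := 1)).mp (by rwa [mul_one])
    obtain ⟨s, y, hs, h⟩ := h1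
    apply hs
    have h2 : s = HahnSeries.C π * y := by
      apply s18_coeffMap_injective A₁.subtype Subtype.val_injective
      rw [← h]
      simp
    rw [h2]
    exact s34_gi_res_C_pi_mul hπ y
  · intro x hx
    obtain ⟨s, y, hs, h⟩ := s34_gi_le_frac A₁ N x.2
    have hx0 : (x : LaurentSeries K) ≠ 0 := fun h0 => hx (Subtype.ext h0)
    have hs0 : coeffMap A₁.subtype s ≠ 0 := fun h0 =>
      hs (s18_coeffMap_injective _ Subtype.val_injective (by rw [h0, map_zero]))
    have hy : y ≠ 0 := by
      rintro rfl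
      rw [map_zero] at h
      rcases mul_eq_zero.mp h with h | h
      · exact hs0 h
      · exact hx0 h
    obtain ⟨a, s', hs', hsne⟩ := s34_gi_content hπ s hs
    obtain ⟨b, y', hy', hyne⟩ := s34_gi_content hπ y hy
    set ϖ := algebraMap K (laurentBaseChange K (modularFunctionFieldFull N)) (π : K) with hϖ
    -- the unit part
    set u : laurentBaseChange K (modularFunctionFieldFull N) := ϖ ^ ((a : ℤ) - b) * x with hu
    have hucoe : (u : LaurentSeries K) =
        HahnSeries.C (π : K) ^ ((a : ℤ) - b) * (x : LaurentSeries K) := by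
      rw [hu, hϖ, ← s34_gi_coe_algebraMap (N := N)]
      push_cast
      rfl
    have hkey : coeffMap A₁.subtype s' * (u : LaurentSeries K) = coeffMap A₁.subtype y' := by
      have h1 : HahnSeries.C (π : K) ^ a * coeffMap A₁.subtype s' * (x : LaurentSeries K) =
          HahnSeries.C (π : K) ^ b * coeffMap A₁.subtype y' := by
        have := h
        rw [hs', hy', map_mul, map_mul, map_pow, map_pow, ← s34_gi_C_coe] at this
        exact this
      rw [hucoe, zpow_sub₀ hC0, zpow_natCast, zpow_natCast]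
      field_simp
      rw [← h1]
      ring
    have hu0 : u ≠ 0 := by
      rw [hu]
      exact mul_ne_zero (zpow_ne_zero _ hϖ0) hx
    have hu0' : (u : LaurentSeries K) ≠ 0 := fun h0 => hu0 (Subtype.ext h0)
    refine ⟨(b : ℤ) - a, u, ?_, ?_, ?_⟩
    · rw [s34_gi_mem_V]
      exact ⟨s', y', hsne, hkey⟩
    · rw [s34_gi_mem_V]
      refine ⟨y', s', hyne, ?_⟩
      have hcoe : ((u⁻¹ : laurentBaseChange K (modularFunctionFieldFull N)) : LaurentSeries K) =
          (u : LaurentSeries K)⁻¹ := rfl
      rw [hcoe, ← hkey, mul_assoc, mul_inv_cancel₀ hu0', mul_one]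
    · rw [hu, ← mul_assoc, ← zpow_add₀ hϖ0]
      have e : (b : ℤ) - a + ((a : ℤ) - b) = 0 := by ring
      rw [e, zpow_zero, one_mul]

end Gauss

section Red

variable {K : Type*} [Field K] [Algebra ℚ K] (A₁ : ValuationSubring K) (N : ℕ)

/-- The inclusion of the Gauss ring of `K · F_N` into the coefficientwise Gauss ring. -/
def s34_gi_toW : s34_gi_V A₁ N →+* s18_W A₁.subtype (IsLocalRing.residue A₁) where
  toFun x := ⟨((x : laurentBaseChange K (modularFunctionFieldFull N)) : LaurentSeries K), x.2⟩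
  map_one' := rfl
  map_mul' _ _ := rfl
  map_zero' := rfl
  map_add' _ _ := rfl

/-- The reduction map of the Gauss ring of `K · F_N`: `y / s ↦ res y / res s ∈ k((q))`. -/
def s34_gi_red : s34_gi_V A₁ N →+* LaurentSeries (IsLocalRing.ResidueField A₁) :=
  (s18_red (ι := A₁.subtype) (ρ := IsLocalRing.residue A₁) Subtype.val_injective).comp
    (s34_gi_toW A₁ N)

variable {A₁ N}

theorem s34_gi_red_eq (x : s34_gi_V A₁ N) (s y : LaurentSeries A₁)
    (hs : coeffMap (IsLocalRing.residue A₁) s ≠ 0)
    (h : coeffMap A₁.subtype s *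
      ((x : laurentBaseChange K (modularFunctionFieldFull N)) : LaurentSeries K) =
        coeffMap A₁.subtype y) :
    s34_gi_red A₁ N x = coeffMap (IsLocalRing.residue A₁) y / coeffMap (IsLocalRing.residue A₁) s :=
  s18_red_eq Subtype.val_injective (s34_gi_toW A₁ N x) s y hs h

/-- Reduction of a function with integral `q`-expansion. -/
theorem s34_gi_red_integral (x : s34_gi_V A₁ N) (y : LaurentSeries A₁)
    (h : ((x : laurentBaseChange K (modularFunctionFieldFull N)) : LaurentSeries K) =
      coeffMap A₁.subtype y) :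
    s34_gi_red A₁ N x = coeffMap (IsLocalRing.residue A₁) y := by
  rw [s34_gi_red_eq x 1 y (by rw [map_one]; exact one_ne_zero) (by rw [map_one, one_mul, h]),
    map_one, div_one]

/-- Reduction of a constant. -/
theorem s34_gi_red_algebraMap (r : A₁) :
    s34_gi_red A₁ N ⟨_, s34_gi_algebraMap_mem (N := N) r⟩ =
      HahnSeries.C (IsLocalRing.residue A₁ r) := by
  rw [s34_gi_red_integral _ (HahnSeries.C r) (by rw [s34_gi_coe_algebraMap, s34_gi_C_coe]),
    s34_gi_res_C]

variable [IsDiscreteValuationRing A₁] {π : A₁}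

/-- **The kernel of the reduction map is `π V`.** -/
theorem s34_gi_red_eq_zero_iff (hπ : Irreducible π) (x : s34_gi_V A₁ N) :
    s34_gi_red A₁ N x = 0 ↔
      (algebraMap K (laurentBaseChange K (modularFunctionFieldFull N)) (π : K))⁻¹ *
        (x : laurentBaseChange K (modularFunctionFieldFull N)) ∈ s34_gi_V A₁ N := by
  rw [s34_gi_pi_inv_mul_mem_iff hπ]
  constructor
  · intro h0
    obtain ⟨s, y, hs, h⟩ := s34_gi_mem_V.mp x.2
    rw [s34_gi_red_eq x s y hs h, div_eq_zero_iff] at h0
    rcases h0 with h0 | h0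
    · obtain ⟨y', rfl⟩ := s34_gi_dvd_of_res hπ y h0
      exact ⟨s, y', hs, h⟩
    · exact absurd h0 hs
  · rintro ⟨s, y, hs, h⟩
    rw [s34_gi_red_eq x s _ hs h, s34_gi_res_C_pi_mul hπ, zero_div]

end Red

end Fermat.Agent.S34
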