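import Mathlib
import Fermat.Agent.S34.GaussInf
import Fermat.Prelude.Def_ModularCurve_HeckeOperator
import Fermat.Agent.S37.EsFrob

/-!
# S34 (NODE), leaf (GI), part (d): the Gauss ring at infinity and change of level

`F_N = laurentBaseChange K (modularFunctionFieldFull N)`, `V_N = s34_gi_V A₁ N`.

* `s34_gi_mem_of_coe_eq` : membership in the Gauss ring only depends on the `q`-expansion
  (`V_M ∩ F_N = V_N`); `s34_gi_alpha_mem_iff` for the degeneracy map `heckeAlphaBar`;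
* `s34_gi_mem_of_coe_qExpand` : `x(q^d) ∈ V_M ↔ x ∈ V_N` (the substitution `q ↦ q^d` preserves the
  Gauss valuation); `s34_gi_beta_mem_iff` for `heckeBetaBar`;
* the corresponding statements for the reduction map `s34_gi_red`;
* `s34_gi_frob_red`, `s34_gi_frob_rat` : the Frobenius congruence `x^ℓ ≡ x(q^ℓ) mod π V` in residue
  characteristic `ℓ` for functions whose reduction has Frobenius-fixed coefficients, e.g. functions
  with rational `A₁`-integral `q`-expansion.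
-/

set_option autoImplicit false
set_option linter.unusedSectionVars false
set_option linter.style.haveILetI false

open ModularCurve

noncomputable section

namespace Fermat.Agent.S34

open Fermat.Agent.S18

section Level

variable {K : Type*} [Field K] [Algebra ℚ K] {A₁ : ValuationSubring K} {N M : ℕ}

/-- Membership in the Gauss ring only depends on the `q`-expansion. -/
theorem s34_gi_mem_of_coe_eq {x : laurentBaseChange K (modularFunctionFieldFull N)}
    {x' : laurentBaseChange K (modularFunctionFieldFull M)}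
    (h : (x' : LaurentSeries K) = (x : LaurentSeries K)) :
    x' ∈ s34_gi_V A₁ M ↔ x ∈ s34_gi_V A₁ N := by
  rw [s34_gi_mem_V, s34_gi_mem_V, h]

/-- The reduction only depends on the `q`-expansion. -/
theorem s34_gi_red_of_coe_eq (x : s34_gi_V A₁ N) (x' : s34_gi_V A₁ M)
    (h : ((x' : laurentBaseChange K (modularFunctionFieldFull M)) : LaurentSeries K) =
      ((x : laurentBaseChange K (modularFunctionFieldFull N)) : LaurentSeries K)) :
    s34_gi_red A₁ M x' = s34_gi_red A₁ N x := by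
  obtain ⟨s, y, hs, hsy⟩ := s34_gi_mem_V.mp x.2
  rw [s34_gi_red_eq x s y hs hsy, s34_gi_red_eq x' s y hs (by rw [h]; exact hsy)]

/-- `q ↦ q^d` on integral series. -/
theorem s34_gi_coeffMap_qExpand_sub (d : ℕ) [NeZero d] (s : LaurentSeries A₁) :
    coeffMap A₁.subtype (qExpand A₁ d s) = qExpand K d (coeffMap A₁.subtype s) :=
  coeffMap_qExpand _ d s

theorem s34_gi_res_qExpand_ne (d : ℕ) [NeZero d] (s : LaurentSeries A₁)
    (hs : coeffMap (IsLocalRing.residue A₁) s ≠ 0) :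
    coeffMap (IsLocalRing.residue A₁) (qExpand A₁ d s) ≠ 0 := by
  rw [coeffMap_qExpand]
  intro h0
  exact hs (qExpand_injective d (by rw [h0, map_zero]))

/-- The substitution `q ↦ q^d` maps the Gauss ring into the Gauss ring. -/
theorem s34_gi_qExpand_mem (d : ℕ) [NeZero d]
    {x : laurentBaseChange K (modularFunctionFieldFull N)}
    {x' : laurentBaseChange K (modularFunctionFieldFull M)}
    (h : (x' : LaurentSeries K) = qExpand K d (x : LaurentSeries K)) (hx : x ∈ s34_gi_V A₁ N) :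
    x' ∈ s34_gi_V A₁ M := by
  obtain ⟨s, y, hs, hsy⟩ := s34_gi_mem_V.mp hx
  rw [s34_gi_mem_V]
  refine ⟨qExpand A₁ d s, qExpand A₁ d y, s34_gi_res_qExpand_ne d s hs, ?_⟩
  rw [s34_gi_coeffMap_qExpand_sub, s34_gi_coeffMap_qExpand_sub, h, ← map_mul, hsy]

/-- The reduction of `x(q^d)` is `(red x)(q^d)`. -/
theorem s34_gi_red_qExpand (d : ℕ) [NeZero d] (x : s34_gi_V A₁ N) (x' : s34_gi_V A₁ M)
    (h : ((x' : laurentBaseChange K (modularFunctionFieldFull M)) : LaurentSeries K) =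
      qExpand K d ((x : laurentBaseChange K (modularFunctionFieldFull N)) : LaurentSeries K)) :
    s34_gi_red A₁ M x' = qExpand (IsLocalRing.ResidueField A₁) d (s34_gi_red A₁ N x) := by
  obtain ⟨s, y, hs, hsy⟩ := s34_gi_mem_V.mp x.2
  rw [s34_gi_red_eq x s y hs hsy,
    s34_gi_red_eq x' (qExpand A₁ d s) (qExpand A₁ d y) (s34_gi_res_qExpand_ne d s hs)
      (by rw [s34_gi_coeffMap_qExpand_sub, s34_gi_coeffMap_qExpand_sub, h, ← map_mul, hsy]),
    coeffMap_qExpand, coeffMap_qExpand, map_div₀]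

variable [IsDiscreteValuationRing A₁] {π : A₁}

/-- **The substitution `q ↦ q^d` preserves the Gauss valuation**: `x(q^d) ∈ V_M ↔ x ∈ V_N`. -/
theorem s34_gi_mem_of_coe_qExpand (hπ : Irreducible π) (d : ℕ) [NeZero d]
    {x : laurentBaseChange K (modularFunctionFieldFull N)}
    {x' : laurentBaseChange K (modularFunctionFieldFull M)}
    (h : (x' : LaurentSeries K) = qExpand K d (x : LaurentSeries K)) :
    x' ∈ s34_gi_V A₁ M ↔ x ∈ s34_gi_V A₁ N := by
  refine ⟨fun hx' => ?_, s34_gi_qExpand_mem d h⟩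
  by_cases hx : x = 0
  · rw [hx]; exact Subring.zero_mem _
  obtain ⟨j, u, hu, hu', rfl⟩ := (s34_gi_unif (N := N) hπ).decomp x hx
  have hu0 : u ≠ 0 := by
    rintro rfl
    simp at hx
  set ϖN := algebraMap K (laurentBaseChange K (modularFunctionFieldFull N)) (π : K) with hϖN
  set ϖM := algebraMap K (laurentBaseChange K (modularFunctionFieldFull M)) (π : K) with hϖM
  have hϖM0 : ϖM ≠ 0 := s34_gi_pi_ne hπ
  have hC0 : (HahnSeries.C (π : K) : LaurentSeries K) ≠ 0 := by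
    rw [Ne, map_eq_zero]
    exact fun h => hπ.ne_zero (Subtype.ext h)
  -- the unit part at level `M`
  set u' : laurentBaseChange K (modularFunctionFieldFull M) := ϖM ^ (-j) * x' with hu'def
  have hcoeN : ((ϖN ^ j * u : laurentBaseChange K (modularFunctionFieldFull N)) :
      LaurentSeries K) = HahnSeries.C (π : K) ^ j * (u : LaurentSeries K) := by
    rw [hϖN, ← s34_gi_coe_algebraMap (N := N)]
    push_cast
    rfl
  have hcoeM : (u' : LaurentSeries K) = HahnSeries.C (π : K) ^ (-j) * (x' : LaurentSeries K) := by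
    rw [hu'def, hϖM, ← s34_gi_coe_algebraMap (N := M)]
    push_cast
    rfl
  have hu'coe : (u' : LaurentSeries K) = qExpand K d (u : LaurentSeries K) := by
    rw [hcoeM, h, hcoeN, map_mul, map_zpow₀, qExpand_C, ← mul_assoc, ← zpow_add₀ hC0]
    simp
  have hu'0 : u' ≠ 0 := by
    intro h0
    have h1 : (u' : LaurentSeries K) = 0 := by rw [h0]; rfl
    rw [hu'coe] at h1
    have h2 : (u : LaurentSeries K) = 0 := qExpand_injective d (by rw [h1, map_zero])
    exact hu0 (Subtype.ext h2)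
  have hu'V : u' ∈ s34_gi_V A₁ M := s34_gi_qExpand_mem d hu'coe hu
  have hu'V' : u'⁻¹ ∈ s34_gi_V A₁ M := by
    refine s34_gi_qExpand_mem (x := u⁻¹) d ?_ hu'
    show (u' : LaurentSeries K)⁻¹ = qExpand K d ((u : LaurentSeries K)⁻¹)
    rw [hu'coe, map_inv₀]
  have hx'eq : x' = ϖM ^ j * u' := by
    rw [hu'def, ← mul_assoc, ← zpow_add₀ hϖM0]
    simp
  rw [hx'eq, (s34_gi_unif (N := M) hπ).mem_iff hu'0 hu'V hu'V'] at hx'
  exact ((s34_gi_unif (N := N) hπ).mem_iff hu0 hu hu').mpr hx'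

end Level

section Degeneracy

variable {K : Type*} [Field K] [Algebra ℚ K] {A₁ : ValuationSubring K}
variable (N ℓ : ℕ) [NeZero N] [NeZero ℓ]

/-- The degeneracy inclusion `α : F_N → F_{Nℓ}` pulls the Gauss ring back to the Gauss ring. -/
theorem s34_gi_alpha_mem_iff (x : laurentBaseChange K (modularFunctionFieldFull N)) :
    heckeAlphaBar K N ℓ x ∈ s34_gi_V A₁ (N * ℓ) ↔ x ∈ s34_gi_V A₁ N :=
  s34_gi_mem_of_coe_eq (coe_heckeAlphaBar N ℓ x)

/-- The degeneracy map `β : F_N → F_{Nℓ}`, `q ↦ q^ℓ`, pulls the Gauss ring back to the Gauss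
ring. -/
theorem s34_gi_beta_mem_iff [IsDiscreteValuationRing A₁] {π : A₁} (hπ : Irreducible π)
    (x : laurentBaseChange K (modularFunctionFieldFull N)) :
    heckeBetaBar K N ℓ x ∈ s34_gi_V A₁ (N * ℓ) ↔ x ∈ s34_gi_V A₁ N :=
  s34_gi_mem_of_coe_qExpand hπ ℓ (coe_heckeBetaBar N ℓ x)

theorem s34_gi_red_alpha (x : s34_gi_V A₁ N)
    (hx : heckeAlphaBar K N ℓ (x : laurentBaseChange K (modularFunctionFieldFull N)) ∈
      s34_gi_V A₁ (N * ℓ)) :
    s34_gi_red A₁ (N * ℓ) ⟨_, hx⟩ = s34_gi_red A₁ N x :=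
  s34_gi_red_of_coe_eq x ⟨_, hx⟩ (coe_heckeAlphaBar N ℓ _)

theorem s34_gi_red_beta (x : s34_gi_V A₁ N)
    (hx : heckeBetaBar K N ℓ (x : laurentBaseChange K (modularFunctionFieldFull N)) ∈
      s34_gi_V A₁ (N * ℓ)) :
    s34_gi_red A₁ (N * ℓ) ⟨_, hx⟩ =
      qExpand (IsLocalRing.ResidueField A₁) ℓ (s34_gi_red A₁ N x) :=
  s34_gi_red_qExpand ℓ x ⟨_, hx⟩ (coe_heckeBetaBar N ℓ _)

end Degeneracy

section Frobenius

variable {K : Type*} [Field K] [Algebra ℚ K] {A₁ : ValuationSubring K} {M : ℕ}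
variable [IsDiscreteValuationRing A₁] {π : A₁}
variable (ℓ : ℕ) [Fact ℓ.Prime] [CharP (IsLocalRing.ResidueField A₁) ℓ]

/-- **Frobenius congruence at the Gauss valuation at infinity**: if the reduction of `x₁ ∈ V` has
Frobenius-fixed coefficients then `x₁^ℓ ≡ x₁(q^ℓ) mod π V`. -/
theorem s34_gi_frob_red (hπ : Irreducible π)
    {x₁ x₂ : laurentBaseChange K (modularFunctionFieldFull M)} (hx₁ : x₁ ∈ s34_gi_V A₁ M)
    (h₂ : (x₂ : LaurentSeries K) =
      @qExpand K _ ℓ ⟨(Fact.out : ℓ.Prime).ne_zero⟩ (x₁ : LaurentSeries K))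
    (hfix : coeffMap (frobenius (IsLocalRing.ResidueField A₁) ℓ) (s34_gi_red A₁ M ⟨x₁, hx₁⟩) =
      s34_gi_red A₁ M ⟨x₁, hx₁⟩) :
    (algebraMap K (laurentBaseChange K (modularFunctionFieldFull M)) (π : K))⁻¹ *
      (x₁ ^ ℓ - x₂) ∈ s34_gi_V A₁ M := by
  haveI : NeZero ℓ := ⟨(Fact.out : ℓ.Prime).ne_zero⟩
  have hx₂ : x₂ ∈ s34_gi_V A₁ M := s34_gi_qExpand_mem ℓ h₂ hx₁
  have hmem : x₁ ^ ℓ - x₂ ∈ s34_gi_V A₁ M :=
    Subring.sub_mem _ (Subring.pow_mem _ hx₁ ℓ) hx₂
  have hred : s34_gi_red A₁ M ⟨x₁ ^ ℓ - x₂, hmem⟩ = 0 := by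
    have e : (⟨x₁ ^ ℓ - x₂, hmem⟩ : s34_gi_V A₁ M) = ⟨x₁, hx₁⟩ ^ ℓ - ⟨x₂, hx₂⟩ := rfl
    rw [e, map_sub, map_pow, s34_gi_red_qExpand ℓ ⟨x₁, hx₁⟩ ⟨x₂, hx₂⟩ h₂,
      Fermat.Agent.S37.s37_ec_pow_char ℓ, hfix, sub_self]
  exact (s34_gi_red_eq_zero_iff hπ ⟨x₁ ^ ℓ - x₂, hmem⟩).mp hred

omit [IsDiscreteValuationRing A₁] in
/-- The residue of an `A₁`-integral rational number is fixed by Frobenius. -/
theorem s34_gi_frob_fix_rat (r : ℚ) (hr : algebraMap ℚ K r ∈ A₁) :
    (IsLocalRing.residue A₁ ⟨algebraMap ℚ K r, hr⟩) ^ ℓ =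
      IsLocalRing.residue A₁ ⟨algebraMap ℚ K r, hr⟩ := by
  have hℓ : ℓ.Prime := Fact.out
  set k := IsLocalRing.ResidueField A₁
  have hfixInt : ∀ n : ℤ, ((n : k)) ^ ℓ = (n : k) := by
    intro n
    have := map_intCast (frobenius k ℓ) n
    rwa [frobenius_def] at this
  have hden : (r.den : k) ≠ 0 := by
    intro h0
    have h1 : ℓ ∣ r.den := (CharP.cast_eq_zero_iff k ℓ r.den).mp h0
    -- then the numerator also reduces to zero
    have h2 : IsLocalRing.residue A₁ ⟨algebraMap ℚ K r, hr⟩ * (r.den : k) = (r.num : k) := by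
      have e : (⟨algebraMap ℚ K r, hr⟩ : A₁) * (r.den : A₁) = (r.num : A₁) := by
        apply Subtype.ext
        push_cast
        have h3 : (r * r.den : ℚ) = r.num := Rat.mul_den_eq_num r
        have h4 := congrArg (algebraMap ℚ K) h3
        rw [map_mul, map_natCast, map_intCast] at h4
        exact h4
      have := congrArg (IsLocalRing.residue A₁) e
      rwa [map_mul, map_natCast, map_intCast] at this
    rw [h0, mul_zero] at h2
    have h5 : (ℓ : ℤ) ∣ r.num := (CharP.intCast_eq_zero_iff k ℓ r.num).mp h2.symm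
    have h6 : ℓ ∣ r.num.natAbs := Int.natCast_dvd.mp h5
    have h7 : ℓ ∣ Nat.gcd r.num.natAbs r.den := Nat.dvd_gcd h6 h1
    rw [r.reduced] at h7
    exact hℓ.one_lt.ne' (Nat.dvd_one.mp h7)
  have h2 : IsLocalRing.residue A₁ ⟨algebraMap ℚ K r, hr⟩ * (r.den : k) = (r.num : k) := by
    have e : (⟨algebraMap ℚ K r, hr⟩ : A₁) * (r.den : A₁) = (r.num : A₁) := by
      apply Subtype.ext
      push_cast
      have h3 : (r * r.den : ℚ) = r.num := Rat.mul_den_eq_num r
      have h4 := congrArg (algebraMap ℚ K) h3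
      rw [map_mul, map_natCast, map_intCast] at h4
      exact h4
    have := congrArg (IsLocalRing.residue A₁) e
    rwa [map_mul, map_natCast, map_intCast] at this
  have h3 : (IsLocalRing.residue A₁ ⟨algebraMap ℚ K r, hr⟩) ^ ℓ * (r.den : k) =
      IsLocalRing.residue A₁ ⟨algebraMap ℚ K r, hr⟩ * (r.den : k) := by
    have hd := hfixInt (r.den : ℤ)
    rw [Int.cast_natCast] at hd
    calc (IsLocalRing.residue A₁ ⟨algebraMap ℚ K r, hr⟩) ^ ℓ * (r.den : k)
        = (IsLocalRing.residue A₁ ⟨algebraMap ℚ K r, hr⟩ * (r.den : k)) ^ ℓ := by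
          rw [mul_pow, hd]
      _ = IsLocalRing.residue A₁ ⟨algebraMap ℚ K r, hr⟩ * (r.den : k) := by
          rw [h2, hfixInt]
  exact mul_right_cancel₀ hden h3

/-- **Frobenius congruence for functions with rational integral `q`-expansion**:
`x^ℓ ≡ x(q^ℓ) mod π V`. -/
theorem s34_gi_frob_rat (hπ : Irreducible π) (z : LaurentSeries ℚ)
    (hz : ∀ n : ℤ, algebraMap ℚ K (z.coeff n) ∈ A₁)
    {x₁ x₂ : laurentBaseChange K (modularFunctionFieldFull M)}
    (h₁ : (x₁ : LaurentSeries K) = coeffEmb K z)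
    (h₂ : (x₂ : LaurentSeries K) =
      coeffEmb K (@qExpand ℚ _ ℓ ⟨(Fact.out : ℓ.Prime).ne_zero⟩ z)) :
    (algebraMap K (laurentBaseChange K (modularFunctionFieldFull M)) (π : K))⁻¹ *
      (x₁ ^ ℓ - x₂) ∈ s34_gi_V A₁ M := by
  haveI : NeZero ℓ := ⟨(Fact.out : ℓ.Prime).ne_zero⟩
  -- the integral model of `z`
  obtain ⟨y, hy⟩ : ∃ y : LaurentSeries A₁, ∀ n : ℤ, y.coeff n = ⟨algebraMap ℚ K (z.coeff n), hz n⟩ := by
    refine ⟨HahnSeries.ofSuppBddBelow (fun n => ⟨algebraMap ℚ K (z.coeff n), hz n⟩) ?_,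
      fun n => rfl⟩
    refine ⟨z.order, fun n hn => le_of_not_gt fun hlt => hn ?_⟩
    apply Subtype.ext
    show algebraMap ℚ K (z.coeff n) = 0
    rw [HahnSeries.coeff_eq_zero_of_lt_order hlt, map_zero]
  have hyz : coeffMap A₁.subtype y = coeffEmb K z := by
    ext n
    rw [coeffMap_coeff, hy n, coeffEmb_coeff]
    rfl
  have hx₁ : x₁ ∈ s34_gi_V A₁ M := s34_gi_mem_of_integral y (by rw [h₁, hyz])
  refine s34_gi_frob_red ℓ hπ hx₁ ?_ ?_
  · rw [h₂, h₁]
    exact coeffMap_qExpand _ ℓ z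
  · rw [s34_gi_red_integral ⟨x₁, hx₁⟩ y (by rw [h₁, hyz])]
    ext n
    rw [coeffMap_coeff, coeffMap_coeff, hy n, frobenius_def]
    exact s34_gi_frob_fix_rat ℓ _ (hz n)

end Frobenius

end Fermat.Agent.S34
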