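import Mathlib
import Fermat.Agent.S18.ChH1
import Fermat.Agent.S18.ChFin
import Fermat.Agent.S18.ChFinite
import Fermat.Agent.S18.ChartDefs

/-!
# S34 (NODE), generic model leaf (IC): the integral-closure two-chart package

`A₀` a ring (a DVR in the application), `F` a field and an `A₀`-algebra, `t : F`.

* `s34_ic_chart A₀ t` : the chart of the coordinate `t`, the integral closure of `A₀[t]` in `F`,
  as a subalgebra of `F` over `A₀`.

For `B0 = s34_ic_chart A₀ t`, `Binf = s34_ic_chart A₀ t⁻¹` the file proves the chart-side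
hypotheses of the two-chart theorems (`s18_as_main`, `s34_two_chart_nodal`): `t ∈ B0`,
`t⁻¹ ∈ Binf`, the gluing statements, the vanishing `h1`, the finiteness `fin`, noetherianity,
`Frac B = F`, normality, closure of the local rings under roots, and `B ≤ W` for every valuation
subring `W ∋ t` containing `A₀`.
-/

set_option autoImplicit false

namespace Fermat.Agent.S34

open Polynomial IntermediateField Fermat.Agent.S18

section Def

variable (A₀ : Type*) {F : Type*} [CommRing A₀] [Field F] [Algebra A₀ F]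

/-- The chart of the coordinate `t`: the integral closure of `A₀[t]` in `F`. -/
def s34_ic_chart (t : F) : Subalgebra A₀ F :=
  (integralClosure (Algebra.adjoin A₀ ({t} : Set F)) F).restrictScalars A₀

variable {A₀}

theorem s34_ic_mem {t x : F} :
    x ∈ s34_ic_chart A₀ t ↔ IsIntegral (Algebra.adjoin A₀ ({t} : Set F)) x := Iff.rfl

/-- Membership in the chart: a monic equation with coefficients polynomials in `t`. -/
theorem s34_ic_mem_iff {t x : F} :
    x ∈ s34_ic_chart A₀ t ↔ ((aeval t : A₀[X] →ₐ[A₀] F) : A₀[X] →+* F).IsIntegralElem x := by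
  rw [s34_ic_mem]
  have hrange : ∀ y : F, y ∈ Algebra.adjoin A₀ ({t} : Set F) ↔ ∃ P : A₀[X], aeval t P = y := by
    intro y
    rw [Algebra.adjoin_singleton_eq_range_aeval]
    exact Iff.rfl
  -- the corestriction of `aeval t` to `A₀[t]`
  let φS : A₀[X] →+* Algebra.adjoin A₀ ({t} : Set F) :=
    ((aeval t : A₀[X] →ₐ[A₀] F) : A₀[X] →+* F).codRestrict
      (Algebra.adjoin A₀ ({t} : Set F)).toSubring (fun P => (hrange _).mpr ⟨P, rfl⟩)
  have hφS : Function.Surjective φS := by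
    rintro ⟨y, hy⟩
    obtain ⟨P, hP⟩ := (hrange y).mp hy
    exact ⟨P, Subtype.ext hP⟩
  have hcomp : (algebraMap (Algebra.adjoin A₀ ({t} : Set F)) F).comp φS =
      ((aeval t : A₀[X] →ₐ[A₀] F) : A₀[X] →+* F) := by
    ext P <;> rfl
  constructor
  · rintro ⟨p, hp, hpx⟩
    obtain ⟨q, hq, -, hqm⟩ := Polynomial.lifts_and_degree_eq_and_monic
      (p := p) (f := φS) (by
        rw [Polynomial.lifts_iff_coeff_lifts]
        intro n
        exact hφS _) hp
    refine ⟨q, hqm, ?_⟩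
    rw [← hcomp, ← Polynomial.eval₂_map, hq]
    exact hpx
  · rintro ⟨p, hp, hpx⟩
    refine ⟨p.map φS, hp.map φS, ?_⟩
    rw [Polynomial.eval₂_map, hcomp]
    exact hpx

theorem s34_ic_adjoin_le (t : F) : Algebra.adjoin A₀ ({t} : Set F) ≤ s34_ic_chart A₀ t := by
  intro x hx
  exact s34_ic_mem.mpr
    (isIntegral_algebraMap (x := (⟨x, hx⟩ : Algebra.adjoin A₀ ({t} : Set F))))

theorem s34_ic_t_mem (t : F) : t ∈ s34_ic_chart A₀ t :=
  s34_ic_adjoin_le t (Algebra.subset_adjoin (Set.mem_singleton t))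

theorem s34_ic_aeval_mem (t : F) (P : A₀[X]) : aeval t P ∈ s34_ic_chart A₀ t :=
  s34_ic_adjoin_le t (aeval_mem_adjoin_singleton A₀ t)

/-- Normality: an element of `F` integral over the chart lies in the chart. -/
theorem s34_ic_normal {t : F} {z : F} (hz : IsIntegral (s34_ic_chart A₀ t) z) :
    z ∈ s34_ic_chart A₀ t := by
  rw [s34_ic_mem]
  have h1 : IsIntegral (integralClosure (Algebra.adjoin A₀ ({t} : Set F)) F) z := hz
  have h2 : z ∈ integralClosure (integralClosure (Algebra.adjoin A₀ ({t} : Set F)) F) F := h1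
  rw [integralClosure_idem] at h2
  obtain ⟨y, hy⟩ := h2
  rw [← hy]
  exact y.2

/-- `aeval t⁻¹ (reflect d P) = t⁻¹ ^ d * aeval t P` for `natDegree P ≤ d`. -/
theorem s34_ic_reflect {t : F} (ht : t ≠ 0) (d : ℕ) (P : A₀[X]) (hP : P.natDegree ≤ d) :
    aeval t⁻¹ (reflect d P) = t⁻¹ ^ d * aeval t P := by
  have h := s18_ch_reflect (A₀ := A₀) t⁻¹ (inv_ne_zero ht) d P hP
  rwa [inv_inv] at h

/-- Gluing: an element of the chart of `t` becomes an element of the chart of `t⁻¹` after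
multiplication by a power of `t⁻¹`. -/
theorem s34_ic_glue {t : F} (ht : t ≠ 0) {x : F} (hx : x ∈ s34_ic_chart A₀ t) :
    ∃ k : ℕ, t⁻¹ ^ k * x ∈ s34_ic_chart A₀ t⁻¹ := by
  classical
  have : Nontrivial A₀ := (algebraMap A₀ F).domain_nontrivial
  rw [s34_ic_mem_iff] at hx
  obtain ⟨p, hp, hpx⟩ := hx
  set n := p.natDegree with hn
  set d := (Finset.range (n + 1)).sup (fun i => (p.coeff i).natDegree) with hd
  have hdi : ∀ i ∈ Finset.range (n + 1), (p.coeff i).natDegree ≤ d := fun i hi =>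
    Finset.le_sup (f := fun i => (p.coeff i).natDegree) hi
  set P' : A₀[X][X] := ∑ i ∈ Finset.range (n + 1), C (reflect d (p.coeff i)) * X ^ i with hP'
  have hcoeff : ∀ k, P'.coeff k =
      if k ∈ Finset.range (n + 1) then reflect d (p.coeff k) else 0 := by
    intro k
    rw [hP', Polynomial.finsetSum_coeff]
    simp only [coeff_C_mul_X_pow]
    exact Finset.sum_ite_eq (Finset.range (n + 1)) k _
  have hlead : P'.coeff n = X ^ d := by
    rw [hcoeff n, if_pos (Finset.self_mem_range_succ n)]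
    have h1 : p.coeff n = 1 := hp.coeff_natDegree
    rw [h1, ← C_1, reflect_C, C_1, one_mul]
  have hXd : (X : A₀[X]) ^ d ≠ 0 := (monic_X_pow d).ne_zero
  have hdeg : P'.natDegree = n := by
    refine natDegree_eq_of_le_of_coeff_ne_zero ?_ (by rw [hlead]; exact hXd)
    rw [natDegree_le_iff_coeff_eq_zero]
    intro k hk
    rw [hcoeff k, if_neg]
    intro hmem
    have := Finset.mem_range.mp hmem
    omega
  have hlc : P'.leadingCoeff = X ^ d := by
    rw [leadingCoeff, hdeg, hlead]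
  have heval : P'.eval₂ ((aeval t⁻¹ : A₀[X] →ₐ[A₀] F) : A₀[X] →+* F) x = 0 := by
    rw [hP', eval₂_finsetSum]
    have h2 : ∀ i ∈ Finset.range (n + 1),
        eval₂ ((aeval t⁻¹ : A₀[X] →ₐ[A₀] F) : A₀[X] →+* F) x (C (reflect d (p.coeff i)) * X ^ i)
          = t⁻¹ ^ d * (aeval t (p.coeff i) * x ^ i) := by
      intro i hi
      rw [eval₂_mul, eval₂_C, eval₂_pow, eval₂_X]
      show aeval t⁻¹ (reflect d (p.coeff i)) * x ^ i = _
      rw [s34_ic_reflect ht d _ (hdi i hi), mul_assoc]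
    rw [Finset.sum_congr rfl h2, ← Finset.mul_sum]
    have h3 : ∑ i ∈ Finset.range (n + 1), aeval t (p.coeff i) * x ^ i
        = p.eval₂ ((aeval t : A₀[X] →ₐ[A₀] F) : A₀[X] →+* F) x := by
      rw [eval₂_eq_sum_range]
      rfl
    rw [h3, hpx, mul_zero]
  have hint := RingHom.isIntegralElem_leadingCoeff_mul
    ((aeval t⁻¹ : A₀[X] →ₐ[A₀] F) : A₀[X] →+* F) P' x heval
  refine ⟨d, s34_ic_mem_iff.mpr ?_⟩
  have h4 : ((aeval t⁻¹ : A₀[X] →ₐ[A₀] F) : A₀[X] →+* F) P'.leadingCoeff = t⁻¹ ^ d := by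
    rw [hlc]
    show aeval t⁻¹ ((X : A₀[X]) ^ d) = _
    rw [map_pow, aeval_X]
  rwa [h4] at hint

/-- Gluing in the other direction. -/
theorem s34_ic_glue' {t : F} (ht : t ≠ 0) {x : F} (hx : x ∈ s34_ic_chart A₀ t⁻¹) :
    ∃ k : ℕ, t ^ k * x ∈ s34_ic_chart A₀ t := by
  obtain ⟨k, hk⟩ := s34_ic_glue (inv_ne_zero ht) hx
  rw [inv_inv] at hk
  exact ⟨k, hk⟩

/-- The chart is contained in every valuation subring containing `A₀` and `t`. -/
theorem s34_ic_le_valuation {t : F} (W : ValuationSubring F)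
    (hA : ∀ a : A₀, algebraMap A₀ F a ∈ W) (ht : t ∈ W) {x : F}
    (hx : x ∈ s34_ic_chart A₀ t) : x ∈ W := by
  rw [s34_ic_mem_iff] at hx
  obtain ⟨p, hp, hpx⟩ := hx
  have hcoef : ∀ P : A₀[X], ((aeval t : A₀[X] →ₐ[A₀] F) : A₀[X] →+* F) P ∈ W.toSubring := by
    intro P
    show aeval t P ∈ W
    rw [aeval_eq_sum_range]
    refine W.toSubring.sum_mem fun i _ => ?_
    rw [Algebra.smul_def]
    exact W.mul_mem _ _ (hA _) (W.pow_mem ht i)
  let φW : A₀[X] →+* W :=
    ((aeval t : A₀[X] →ₐ[A₀] F) : A₀[X] →+* F).codRestrict W.toSubring hcoef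
  have hint : IsIntegral W x := by
    refine ⟨p.map φW, hp.map φW, ?_⟩
    rw [eval₂_map]
    exact hpx
  obtain ⟨y, hy⟩ := IsIntegrallyClosed.isIntegral_iff.mp hint
  rw [← hy]
  exact y.2

/-- A valuation subring containing `A₀` contains the chart of `t` or the chart of `t⁻¹`. -/
theorem s34_ic_valuative (t : F) (W : ValuationSubring F)
    (hA : ∀ a : A₀, algebraMap A₀ F a ∈ W) :
    (∀ x ∈ s34_ic_chart A₀ t, x ∈ W) ∨ (∀ x ∈ s34_ic_chart A₀ t⁻¹, x ∈ W) := by
  rcases W.mem_or_inv_mem t with h | h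
  · exact Or.inl fun x hx => s34_ic_le_valuation W hA h hx
  · exact Or.inr fun x hx => s34_ic_le_valuation W hA h hx

/-- Stability: a ring endomorphism of `F` which maps `A₀` into the chart and `t` into the chart
maps the chart into itself. (Used for the Atkin–Lehner swap and for the Galois action.) -/
theorem s34_ic_map_mem {t : F} (σ : F →+* F)
    (hσA : ∀ a : A₀, σ (algebraMap A₀ F a) ∈ s34_ic_chart A₀ t)
    (hσt : σ t ∈ s34_ic_chart A₀ t) {x : F} (hx : x ∈ s34_ic_chart A₀ t) :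
    σ x ∈ s34_ic_chart A₀ t := by
  rw [s34_ic_mem_iff] at hx
  obtain ⟨p, hp, hpx⟩ := hx
  have hcoef : ∀ P : A₀[X], (σ.comp ((aeval t : A₀[X] →ₐ[A₀] F) : A₀[X] →+* F)) P ∈
      (s34_ic_chart A₀ t).toSubring := by
    intro P
    show σ (aeval t P) ∈ s34_ic_chart A₀ t
    rw [aeval_eq_sum_range, map_sum]
    refine Subalgebra.sum_mem _ fun i _ => ?_
    rw [Algebra.smul_def, map_mul, map_pow]
    exact Subalgebra.mul_mem _ (hσA _) (Subalgebra.pow_mem _ hσt i)
  let φB : A₀[X] →+* (s34_ic_chart A₀ t) :=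
    (σ.comp ((aeval t : A₀[X] →ₐ[A₀] F) : A₀[X] →+* F)).codRestrict
      (s34_ic_chart A₀ t).toSubring hcoef
  have hint : IsIntegral (s34_ic_chart A₀ t) (σ x) := by
    refine ⟨p.map φB, hp.map φB, ?_⟩
    rw [eval₂_map]
    have h1 : eval₂ (σ.comp ((aeval t : A₀[X] →ₐ[A₀] F) : A₀[X] →+* F)) (σ x) p
        = σ (eval₂ ((aeval t : A₀[X] →ₐ[A₀] F) : A₀[X] →+* F) x p) :=
      (Polynomial.hom_eval₂ p _ σ x).symm
    rw [hpx, map_zero] at h1
    exact h1
  exact s34_ic_normal hint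

/-- The local rings of a normal subring are closed under roots. -/
theorem s34_ic_loc_root_gen (B : Subring F) (hnorm : ∀ z : F, IsIntegral B z → z ∈ B)
    (𝔪 : Ideal B) (p : ℕ) (hp : 0 < p) (z : F) (hz : z ^ p ∈ s18_loc B 𝔪) :
    z ∈ s18_loc B 𝔪 := by
  obtain ⟨a, b, hb, hab⟩ := hz
  have hb0 : (b : F) ≠ 0 := by
    intro h0
    apply hb
    have : b = 0 := Subtype.ext h0
    rw [this]
    exact 𝔪.zero_mem
  have h1 : ((b : F) * z) ^ p = ((b ^ (p - 1) * a : B) : F) := by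
    rw [mul_pow, hab]
    push_cast
    have hp' : p = (p - 1) + 1 := by omega
    conv_lhs => rw [hp', pow_succ]
    field_simp
  have h2 : IsIntegral B ((b : F) * z) := by
    refine IsIntegral.of_pow hp ?_
    rw [h1]
    exact isIntegral_algebraMap (x := (b ^ (p - 1) * a : B))
  have h3 := hnorm _ h2
  refine ⟨⟨(b : F) * z, h3⟩, b, hb, ?_⟩
  show z = (b : F) * z / (b : F)
  field_simp

/-- The local rings of the chart are closed under roots (the `hroot` field of the node case). -/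
theorem s34_ic_loc_root {t : F} (𝔪 : Ideal (s34_ic_chart A₀ t).toSubring) (p : ℕ) (hp : 0 < p)
    (z : F) (hz : z ^ p ∈ s18_loc (s34_ic_chart A₀ t).toSubring 𝔪) :
    z ∈ s18_loc (s34_ic_chart A₀ t).toSubring 𝔪 :=
  s34_ic_loc_root_gen _ (fun _ hz => s34_ic_normal hz) 𝔪 p hp z hz

end Def

section Fin

set_option linter.unusedSectionVars false

theorem s34_ic_algebraMap_injective (A₀ K F : Type*) [CommRing A₀] [Field K] [Algebra A₀ K]
    [IsFractionRing A₀ K] [Field F] [Algebra K F] [Algebra A₀ F] [IsScalarTower A₀ K F] :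
    Function.Injective (algebraMap A₀ F) := by
  rw [IsScalarTower.algebraMap_eq A₀ K F]
  exact (algebraMap K F).injective.comp (IsFractionRing.injective A₀ K)

variable {A₀ K F : Type*} [CommRing A₀] [IsDomain A₀] [IsNoetherianRing A₀]
  [UniqueFactorizationMonoid A₀] [Field K] [CharZero K] [Algebra A₀ K] [IsFractionRing A₀ K]
  [Field F] [Algebra K F] [Algebra A₀ F] [IsScalarTower A₀ K F]

omit [IsNoetherianRing A₀] [UniqueFactorizationMonoid A₀] [CharZero K] in
theorem s34_ic_transcendental_inv {t : F} (ht : Transcendental K t) : Transcendental K t⁻¹ :=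
  fun h => ht (by simpa using h.inv)

omit [IsNoetherianRing A₀] [UniqueFactorizationMonoid A₀] [CharZero K] in
theorem s34_ic_ne_zero {t : F} (ht : Transcendental K t) : t ≠ 0 := by
  rintro rfl
  exact ht isAlgebraic_zero

omit [IsNoetherianRing A₀] [UniqueFactorizationMonoid A₀] [CharZero K] in
theorem s34_ic_aeval_injective {t : F} (ht : Transcendental K t) (P : A₀[X])
    (hP : aeval t P = 0) : P = 0 := by
  have hinj : Function.Injective (aeval t : A₀[X] →ₐ[A₀] F) :=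
    transcendental_iff_injective.mp (ht.restrictScalars (IsFractionRing.injective A₀ K))
  exact hinj (hP.trans (map_zero _).symm)

omit [IsNoetherianRing A₀] [UniqueFactorizationMonoid A₀] [CharZero K] [Algebra A₀ K]
  [IsFractionRing A₀ K] [Algebra A₀ F] [IsScalarTower A₀ K F] [CommRing A₀] [IsDomain A₀] in
theorem s34_ic_adjoin_inv (t : F) : K⟮t⁻¹⟯ = K⟮t⟯ := by
  apply le_antisymm
  · rw [adjoin_simple_le_iff]
    exact inv_mem (mem_adjoin_simple_self K t)
  · rw [adjoin_simple_le_iff]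
    have := inv_mem (mem_adjoin_simple_self K t⁻¹)
    rwa [inv_inv] at this

/-- Finite generation of the chart as a module over `A₀[t]`. -/
theorem s34_ic_gen (t : F) (ht : Transcendental K t) [FiniteDimensional K⟮t⟯ F] :
    ∃ gen : Finset F, (∀ m ∈ gen, m ∈ s34_ic_chart A₀ t) ∧
      ∀ x ∈ s34_ic_chart A₀ t, ∃ c : F → A₀[X], x = ∑ m ∈ gen, aeval t (c m) * m :=
  s18_ch_finite (A₀ := A₀) (K := K) t ht (Algebra.adjoin A₀ ({t} : Set F)) rfl

/-- The same for the chart of `t⁻¹`. -/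
theorem s34_ic_gen_inv (t : F) (ht : Transcendental K t) [FiniteDimensional K⟮t⟯ F] :
    ∃ gen : Finset F, (∀ m ∈ gen, m ∈ s34_ic_chart A₀ t⁻¹) ∧
      ∀ x ∈ s34_ic_chart A₀ t⁻¹, ∃ c : F → A₀[X], x = ∑ m ∈ gen, aeval t⁻¹ (c m) * m := by
  have : FiniteDimensional K⟮t⁻¹⟯ F :=
    (s34_ic_adjoin_inv (K := K) t).symm ▸ (inferInstance : FiniteDimensional K⟮t⟯ F)
  exact s34_ic_gen (A₀ := A₀) (K := K) t⁻¹ (s34_ic_transcendental_inv ht)

/-- `h1` : `B0[t⁻¹] = B0 + t^c Binf` for all large `c`. -/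
theorem s34_ic_h1 (t : F) (ht : Transcendental K t) [FiniteDimensional K⟮t⟯ F] :
    ∃ c₁ : ℕ, ∀ c, c₁ ≤ c → ∀ x ∈ s34_ic_chart A₀ t, ∀ k : ℕ,
      ∃ a ∈ s34_ic_chart A₀ t, ∃ b ∈ s34_ic_chart A₀ t⁻¹, t⁻¹ ^ k * x = a + t ^ c * b := by
  obtain ⟨gen, hgen, hspan⟩ := s34_ic_gen (A₀ := A₀) (K := K) t ht
  exact s18_ch_h1 t (s34_ic_ne_zero ht) (s34_ic_chart A₀ t) (s34_ic_chart A₀ t⁻¹)
    (s34_ic_t_mem t) (s34_ic_t_mem t⁻¹) gen hgen hspan
    (fun x hx => s34_ic_glue (s34_ic_ne_zero ht) hx)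

/-- `fin` : finiteness of `H⁰(O(c))`. -/
theorem s34_ic_fin (t : F) (ht : Transcendental K t) [FiniteDimensional K⟮t⟯ F] :
    ∀ c : ℕ, ∃ s : Finset F, ∀ x ∈ s34_ic_chart A₀ t, t⁻¹ ^ c * x ∈ s34_ic_chart A₀ t⁻¹ →
      x ∈ Submodule.span A₀ (s : Set F) := by
  obtain ⟨gen0, hgen0, hspan0⟩ := s34_ic_gen (A₀ := A₀) (K := K) t ht
  obtain ⟨genI, hgenI, hspanI⟩ := s34_ic_gen_inv (A₀ := A₀) (K := K) t ht
  exact s18_ch_fin (s34_ic_algebraMap_injective A₀ K F) t (s34_ic_aeval_injective ht)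
    (s34_ic_chart A₀ t) (s34_ic_chart A₀ t⁻¹) (s34_ic_t_mem t) (s34_ic_t_mem t⁻¹)
    gen0 hgen0 hspan0 genI hgenI hspanI
    (fun x hx => s34_ic_glue (s34_ic_ne_zero ht) hx)
    (fun x hx => s34_ic_glue' (s34_ic_ne_zero ht) hx)

/-- The chart is a finitely generated `A₀`-algebra, hence noetherian. -/
theorem s34_ic_noeth (t : F) (ht : Transcendental K t) [FiniteDimensional K⟮t⟯ F] :
    IsNoetherianRing (s34_ic_chart A₀ t) := by
  classical
  obtain ⟨gen, hgen, hspan⟩ := s34_ic_gen (A₀ := A₀) (K := K) t ht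
  refine isNoetherianRing_of_fg ⟨insert t gen, ?_⟩
  apply le_antisymm
  · refine Algebra.adjoin_le ?_
    intro y hy
    rcases Finset.mem_insert.mp (Finset.mem_coe.mp hy) with rfl | hy
    · exact s34_ic_t_mem y
    · exact hgen y hy
  · intro x hx
    obtain ⟨c, rfl⟩ := hspan x hx
    refine Subalgebra.sum_mem _ fun m hm => Subalgebra.mul_mem _ ?_
      (Algebra.subset_adjoin (Finset.mem_coe.mpr (Finset.mem_insert_of_mem hm)))
    have hmono : Algebra.adjoin A₀ ({t} : Set F) ≤ Algebra.adjoin A₀ ((insert t gen : Finset F) : Set F) :=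
      Algebra.adjoin_mono (by
        intro z hz
        rw [Set.mem_singleton_iff] at hz
        rw [hz]
        exact Finset.mem_coe.mpr (Finset.mem_insert_self t gen))
    exact hmono (aeval_mem_adjoin_singleton A₀ t)

/-- `F` is the fraction field of the chart. -/
theorem s34_ic_frac (t : F) [FiniteDimensional K⟮t⟯ F] (x : F) :
    ∃ a ∈ s34_ic_chart A₀ t, ∃ b ∈ s34_ic_chart A₀ t, b ≠ 0 ∧ x = a / b := by
  classical
  set S₀ : Subalgebra A₀ F := Algebra.adjoin A₀ ({t} : Set F) with hS₀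
  have hle : S₀.toSubring ≤ (K⟮t⟯).toSubring := by
    intro y hy
    have h1 : S₀ ≤ (K⟮t⟯).toSubalgebra.restrictScalars A₀ := by
      refine Algebra.adjoin_le ?_
      intro z hz
      rw [Set.mem_singleton_iff] at hz
      rw [hz]
      exact mem_adjoin_simple_self K t
    exact h1 hy
  let alg1 : Algebra S₀ K⟮t⟯ := (Subring.inclusion hle).toAlgebra
  have tower : IsScalarTower S₀ K⟮t⟯ F := IsScalarTower.of_algebraMap_eq (fun y => rfl)
  have : FaithfulSMul S₀ K⟮t⟯ :=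
    (faithfulSMul_iff_algebraMap_injective _ _).mpr (Subring.inclusion_injective hle)
  have frac : IsFractionRing S₀ K⟮t⟯ := IsFractionRing.of_field S₀ K⟮t⟯ (fun z => by
    obtain ⟨r, s, hrs⟩ := (mem_adjoin_simple_iff K (z : F)).mp z.2
    obtain ⟨P, d, hd, hP⟩ := s18_ch_finite_aux (A₀ := A₀) t r
    obtain ⟨P', d', hd', hP'⟩ := s18_ch_finite_aux (A₀ := A₀) t s
    refine ⟨⟨aeval t (C d' * P), aeval_mem_adjoin_singleton A₀ t⟩,
      ⟨aeval t (C d * P'), aeval_mem_adjoin_singleton A₀ t⟩, ?_⟩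
    apply Subtype.ext
    show (z : F) = aeval t (C d' * P) / aeval t (C d * P')
    rw [hrs, hP, hP', map_mul, map_mul, aeval_C, aeval_C, inv_mul_eq_div, inv_mul_eq_div,
      div_div_div_eq]
    ring)
  have hxint : IsIntegral K⟮t⟯ x := IsIntegral.of_finite K⟮t⟯ x
  obtain ⟨m, hm⟩ :=
    IsIntegral.exists_multiple_integral_of_isLocalization (nonZeroDivisors S₀) x hxint
  have hm0 : ((m : S₀) : F) ≠ 0 := by
    intro h
    exact nonZeroDivisors.ne_zero m.2 (Subtype.ext h)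
  have hmx : (m • x : F) = ((m : S₀) : F) * x := rfl
  rw [hmx] at hm
  refine ⟨((m : S₀) : F) * x, s34_ic_mem.mpr hm, ((m : S₀) : F),
    s34_ic_adjoin_le t (m : S₀).2, hm0, ?_⟩
  field_simp

end Fin

end Fermat.Agent.S34
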