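import Mathlib
import Fermat.Agent.S34.IcChart
import Fermat.Agent.S34.SmoothPoint

/-!
# S34 (NODE), generic glue for the integral-closure charts

* `s34_ic_le_unif` : the chart of `t` lies in every discrete valuation ring `V` (in the elementary
  form `s34_Unif ϖ V`) containing `A₀` and `t`.
* `s34_ic_root` : the chart is closed under roots.
* `s34_ic_isIntegral_iff` : the chart is the integral closure of any subring between `A₀[t]` and
  the chart.
-/

set_option autoImplicit false

namespace Fermat.Agent.S34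

open Polynomial Fermat.Agent.S18

variable {A₀ : Type*} {F : Type*} [CommRing A₀] [Field F] [Algebra A₀ F]

/-- A subring `V` of a field with `x ∈ V ∨ x⁻¹ ∈ V` for all `x` contains the chart of `t` as soon
as it contains `A₀` and `t`. -/
theorem s34_ic_le_of_mem_or_inv (V : Subring F) (hV : ∀ x : F, x ∈ V ∨ x⁻¹ ∈ V)
    (hA : ∀ a : A₀, algebraMap A₀ F a ∈ V) {t : F} (ht : t ∈ V) :
    (s34_ic_chart A₀ t).toSubring ≤ V := by
  intro x hx
  let W : ValuationSubring F := { V with mem_or_inv_mem' := hV }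
  exact s34_ic_le_valuation (A₀ := A₀) W hA ht hx

/-- An `s34_Unif` ring is a valuation ring. -/
theorem s34_unif_mem_or_inv {ϖ : F} {V : Subring F} (hV : s34_Unif ϖ V) (x : F) :
    x ∈ V ∨ x⁻¹ ∈ V := by
  by_cases hx : x = 0
  · left; rw [hx]; exact V.zero_mem
  obtain ⟨j, u, hu, hu', rfl⟩ := hV.decomp x hx
  have hu0 : u ≠ 0 := by
    rintro rfl
    exact hx (mul_zero _)
  rcases le_or_gt 0 j with hj | hj
  · left
    exact (hV.mem_iff hu0 hu hu').mpr hj
  · right
    have e : (ϖ ^ j * u)⁻¹ = ϖ ^ (-j) * u⁻¹ := by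
      rw [mul_inv, zpow_neg]
    rw [e]
    exact (hV.mem_iff (inv_ne_zero hu0) hu' (by rwa [inv_inv])).mpr (by omega)

/-- The chart of `t` lies in every `s34_Unif` ring containing `A₀` and `t`
(`hB0₁`, `hB0₂`, `hBi₁`, `hBi₂` of `s34_two_chart_components`). -/
theorem s34_ic_le_unif {ϖ : F} {V : Subring F} (hV : s34_Unif ϖ V)
    (hA : ∀ a : A₀, algebraMap A₀ F a ∈ V) {t : F} (ht : t ∈ V) :
    (s34_ic_chart A₀ t).toSubring ≤ V :=
  s34_ic_le_of_mem_or_inv V (s34_unif_mem_or_inv hV) hA ht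

/-- The chart is closed under roots (`hroot0`, `hrooti` of `s34_two_chart_components`). -/
theorem s34_ic_root (t : F) (p : ℕ) (hp : 0 < p) (z : F)
    (hz : z ^ p ∈ (s34_ic_chart A₀ t).toSubring) : z ∈ (s34_ic_chart A₀ t).toSubring := by
  have h1 : IsIntegral (s34_ic_chart A₀ t) z := by
    refine IsIntegral.of_pow hp ?_
    exact isIntegral_algebraMap (x := (⟨z ^ p, hz⟩ : s34_ic_chart A₀ t))
  exact s34_ic_normal h1

/-- The chart is the integral closure of any subring `B₁` between `A₀[t]` and the chart. -/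
theorem s34_ic_isIntegral_iff (t : F) (B₁ : Subring F)
    (hA : ∀ a : A₀, algebraMap A₀ F a ∈ B₁) (ht : t ∈ B₁)
    (hle : ∀ x ∈ B₁, x ∈ s34_ic_chart A₀ t) (z : F) :
    IsIntegral B₁ z ↔ z ∈ s34_ic_chart A₀ t := by
  constructor
  · rintro ⟨p, hp, hpz⟩
    -- coefficients in `B₁ ⊆ chart`
    let ι : B₁ →+* s34_ic_chart A₀ t :=
      (B₁.subtype).codRestrict (s34_ic_chart A₀ t).toSubring (fun x => hle x x.2)
    refine s34_ic_normal ⟨p.map ι, hp.map ι, ?_⟩
    rw [eval₂_map]
    exact hpz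
  · intro hz
    obtain ⟨p, hp, hpz⟩ := s34_ic_mem.mp hz
    have hadj : ∀ y ∈ Algebra.adjoin A₀ ({t} : Set F), y ∈ B₁ := by
      intro y hy
      let B₁' : Subalgebra A₀ F := { B₁ with algebraMap_mem' := hA }
      have : Algebra.adjoin A₀ ({t} : Set F) ≤ B₁' := Algebra.adjoin_le (by
        intro w hw
        rw [Set.mem_singleton_iff] at hw
        rw [hw]
        exact ht)
      exact this hy
    let κ : Algebra.adjoin A₀ ({t} : Set F) →+* B₁ :=
      ((Algebra.adjoin A₀ ({t} : Set F)).val : _ →+* F).codRestrict B₁ (fun x => hadj x x.2)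
    refine ⟨p.map κ, hp.map κ, ?_⟩
    rw [eval₂_map]
    exact hpz

end Fermat.Agent.S34
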