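import Mathlib
import Fermat.Agent.S18.LevelMain
import Fermat.Agent.S18.SmBridge
import Fermat.Agent.S18.Gauss
import Fermat.Prelude.Def_ModularCurve_HeckeOperator
import Fermat.Agent.S34.IcChart
import Fermat.Agent.S34.SmoothPoint

/-!
# S34 (NODE), model leaf (B1): the smooth level-`N` charts (`ℓ ∤ N`) and their Gauss ring

Setting of S18 block C: `K` a field over `ℚ`, `A` a valuation subring of `K` which is a DVR with
uniformizer `π`, `ℓ` the residue characteristic, `N` a level prime to `ℓ`, `t` a coordinate,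
`FK = K · F_N ⊆ K((q))`, `B1 = s18_chAlg N ℓ A t` the S18 chart.

* `s34_lc_V N A` : the `q`-expansion Gauss ring of `FK` (elements whose `q`-expansion lies in the
  coefficientwise Gauss ring `s18_W`);
* `s34_lc_gauss_iff` : `s18_gauss π B1 = s34_lc_V N A` (given that `B1` is an S18 chart);
* `s34_lc_unif` : `s34_lc_V N A` is a discrete valuation ring with uniformizer `π` (`s34_Unif`);
* `s34_lc_cap` : `B1[1/π] ∩ V = B1`;
* `s34_lc_normal` : `B1[1/π]` is integrally closed in `FK`;
* `s34_lc_integral` : `B1 ⊆ s34_ic_chart A t` (every element of the chart is integral over `A[t]`);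
* `s34_lc_incl_*` : behaviour under the inclusion `ι = heckeAlphaBar : K·F_N → K·F_{N q}`:
  `ι x ∈ V_{N q} ↔ x ∈ V_N`, `ι (B1) ⊆ s34_ic_chart A (ι t)`;
* `s34_lc_twoChart_t2`, `s34_lc_twoChart_t3` : the S18 two-chart structure for the Hauptmoduln
  over `A₁ = A ∩ K₁` (so `.chart0`, `.chartInf` are the `s18_Chart`s of the two charts).
-/

set_option autoImplicit false
set_option synthInstance.maxHeartbeats 400000

open ModularCurve ModularCurve.IgusaScheme AlgebraicCurve Fermat.Agent.S28 Polynomial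
open Fermat.Agent.S18

noncomputable section

namespace Fermat.Agent.S34

/-! ### The coefficientwise Gauss ring -/

section Gauss

variable {R L k : Type*} [CommRing R] [Field L] [Field k] {ι : R →+* L} {ρ : R →+* k}

/-- An element of the Gauss ring with nonzero reduction is a unit of the Gauss ring. -/
theorem s34_lc_W_inv_mem (hι : Function.Injective ι) (x : s18_W ι ρ) (hx : s18_red hι x ≠ 0) :
    ((x : LaurentSeries L))⁻¹ ∈ s18_W ι ρ := by
  obtain ⟨s, y, hs, h⟩ := s18_W_exists_rep x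
  have h1 := s18_red_spec hι x s y h
  have hy : coeffMap ρ y ≠ 0 := by
    rw [← h1]
    exact mul_ne_zero hs hx
  have hx0 : (x : LaurentSeries L) ≠ 0 := by
    intro h0
    apply hx
    have : x = 0 := Subtype.ext h0
    rw [this, map_zero]
  refine ⟨y, s, hy, ?_⟩
  rw [← h, mul_assoc, mul_inv_cancel₀ hx0, mul_one]

/-- The inverse of a constant killed by the residue map is not in the Gauss ring. -/
theorem s34_lc_C_inv_not_mem_W [IsDomain R] (hι : Function.Injective ι) (π : R) (hπ0 : π ≠ 0)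
    (hπ : ρ π = 0) : (HahnSeries.C (ι π) : LaurentSeries L)⁻¹ ∉ s18_W ι ρ := by
  intro hmem
  have hC0 : (HahnSeries.C (ι π) : LaurentSeries L) ≠ 0 := by
    rw [Ne, map_eq_zero]
    intro h0
    exact hπ0 (hι (by rw [h0, map_zero]))
  have hprod : (⟨HahnSeries.C (ι π), s18_C_mem_W π⟩ : s18_W ι ρ) *
      ⟨(HahnSeries.C (ι π) : LaurentSeries L)⁻¹, hmem⟩ = 1 := by
    apply Subtype.ext
    show (HahnSeries.C (ι π) : LaurentSeries L) * (HahnSeries.C (ι π) : LaurentSeries L)⁻¹ = 1
    exact mul_inv_cancel₀ hC0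
  have h2 := congrArg (s18_red hι) hprod
  rw [map_mul, s18_red_C hι π (s18_C_mem_W π), hπ, map_zero, zero_mul, map_one] at h2
  exact zero_ne_one h2

end Gauss

/-! ### The Gauss ring of the smooth chart -/

section Chart

variable {N : ℕ} [NeZero N] {ℓ : ℕ} [Fact ℓ.Prime]
variable {K : Type*} [Field K] [Algebra ℚ K] {A : ValuationSubring K}
variable {t : modularFunctionFieldFull N}

local notation "FK" => laurentBaseChange K (modularFunctionFieldFull N)

variable (N A) in
/-- The `q`-expansion Gauss ring of `K · F_N`. -/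
def s34_lc_V : Subring (laurentBaseChange K (modularFunctionFieldFull N)) :=
  (s18_W A.subtype (IsLocalRing.residue A)).comap
    ((laurentBaseChange K (modularFunctionFieldFull N)).val :
      laurentBaseChange K (modularFunctionFieldFull N) →+* LaurentSeries K)

omit [NeZero N] in
theorem s34_lc_mem_V {x : FK} :
    x ∈ s34_lc_V N A ↔ (x : LaurentSeries K) ∈ s18_W A.subtype (IsLocalRing.residue A) :=
  Iff.rfl

variable [IsDiscreteValuationRing A] {π : A}

/-- The inverse of the uniformizer is not in the Gauss ring. -/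
theorem s34_lc_inv_not_mem_V (hπ : Irreducible π) : (algebraMap A FK π)⁻¹ ∉ s34_lc_V N A := by
  intro hmem
  rw [s34_lc_mem_V] at hmem
  have hcoe : (((algebraMap A FK π)⁻¹ : FK) : LaurentSeries K) =
      (HahnSeries.C (A.subtype π))⁻¹ := by
    rw [← s18_coe_algebraMap (N := N)]
    rfl
  rw [hcoe] at hmem
  exact s34_lc_C_inv_not_mem_W (s18_valSubtype_injective (A := A)) π hπ.ne_zero
    (s18_residue_uniformizer hπ) hmem

/-- The Gauss ring of the chart lies in the `q`-expansion Gauss ring. -/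
theorem s34_lc_gauss_le_V (hR : s18_ResBasis ℓ A π) (h : s18_cz_Coord N ℓ t)
    {B : Subring (LaurentSeries ℚ)} (hB : CoreData N ℓ B) (x : FK)
    (hx : x ∈ s18_gauss (algebraMap A FK π) (s18_chAlg N ℓ A t).toSubring) :
    x ∈ s34_lc_V N A := by
  obtain ⟨a, ha, b, hb, hb', rfl⟩ := hx
  have ha' : a ∈ s18_chAlg N ℓ A t := ha
  have hb2 : b ∈ s18_chAlg N ℓ A t := hb
  have haW := s18_chRing_le_W hR.unit h hB (s18_mem_chAlg.mp ha')
  have hbW := s18_chRing_le_W hR.unit h hB (s18_mem_chAlg.mp hb2)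
  have hred : s18_red (ρ := IsLocalRing.residue A) (s18_valSubtype_injective (A := A))
      ⟨(b : LaurentSeries K), hbW⟩ ≠ 0 := by
    intro h0
    exact hb' (s18_chAlg_dvd hR h hB b hb2 h0)
  have hbinv := s34_lc_W_inv_mem (s18_valSubtype_injective (A := A))
    ⟨(b : LaurentSeries K), hbW⟩ hred
  have haV : a ∈ s34_lc_V N A := haW
  have hbV : b⁻¹ ∈ s34_lc_V N A := hbinv
  rw [div_eq_mul_inv]
  exact (s34_lc_V N A).mul_mem haV hbV

/-- **The Gauss ring of the smooth chart is the `q`-expansion Gauss ring.** -/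
theorem s34_lc_gauss_iff (hR : s18_ResBasis ℓ A π) (h : s18_cz_Coord N ℓ t)
    {B : Subring (LaurentSeries ℚ)} (hB : CoreData N ℓ B)
    (hchart : s18_Chart (algebraMap A FK π) (s18_chAlg N ℓ A t).toSubring) (x : FK) :
    x ∈ s18_gauss (algebraMap A FK π) (s18_chAlg N ℓ A t).toSubring ↔ x ∈ s34_lc_V N A := by
  refine ⟨s34_lc_gauss_le_V hR h hB x, fun hx => ?_⟩
  by_cases hx0 : x = 0
  · rw [hx0]
    exact (s18_gaussRing hchart).zero_mem
  obtain ⟨n, u, hu, hu', rfl⟩ := s18_gauss_decomp hchart hx0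
  have hϖ0 : algebraMap A FK π ≠ 0 := hchart.ϖ_ne
  rcases le_or_gt 0 n with hn | hn
  · obtain ⟨j, rfl⟩ := Int.eq_ofNat_of_zero_le hn
    rw [zpow_natCast]
    exact (s18_gaussRing hchart).mul_mem
      ((s18_gaussRing hchart).pow_mem (s18_le_gaussRing hchart hchart.ϖ_mem) j) hu
  · exfalso
    obtain ⟨j, hj⟩ := Int.eq_ofNat_of_zero_le (show 0 ≤ -n - 1 by omega)
    have hn' : n = -((j : ℤ) + 1) := by omega
    have huV : u⁻¹ ∈ s34_lc_V N A := s34_lc_gauss_le_V hR h hB _ hu'
    have hϖV : algebraMap A FK π ∈ s34_lc_V N A :=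
      s34_lc_gauss_le_V hR h hB _ (s18_le_gaussRing hchart hchart.ϖ_mem)
    have hu0 : u ≠ 0 := by
      rintro rfl
      exact hx0 (mul_zero _)
    have e : (algebraMap A FK π)⁻¹ =
        (algebraMap A FK π) ^ j * ((algebraMap A FK π) ^ n * u * u⁻¹) := by
      have e1 : (algebraMap A FK π) ^ n = ((algebraMap A FK π) ^ j)⁻¹ * (algebraMap A FK π)⁻¹ := by
        rw [hn', zpow_neg, zpow_add_one₀ hϖ0, zpow_natCast, mul_inv]
      rw [mul_assoc, mul_inv_cancel₀ hu0, mul_one, e1,
        mul_inv_cancel_left₀ (pow_ne_zero j hϖ0)]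
    apply s34_lc_inv_not_mem_V (N := N) hR.irr
    rw [e]
    exact (s34_lc_V N A).mul_mem ((s34_lc_V N A).pow_mem hϖV j) ((s34_lc_V N A).mul_mem hx huV)

/-- The `q`-expansion Gauss ring of the smooth level is a discrete valuation ring with
uniformizer `π`. -/
theorem s34_lc_unif (hR : s18_ResBasis ℓ A π) (h : s18_cz_Coord N ℓ t)
    {B : Subring (LaurentSeries ℚ)} (hB : CoreData N ℓ B)
    (hchart : s18_Chart (algebraMap A FK π) (s18_chAlg N ℓ A t).toSubring) :
    s34_Unif (algebraMap A FK π) (s34_lc_V N A) where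
  mem := s34_lc_gauss_le_V hR h hB _ (s18_le_gaussRing hchart hchart.ϖ_mem)
  inv_not_mem := s34_lc_inv_not_mem_V hR.irr
  decomp := by
    intro x hx
    obtain ⟨n, u, hu, hu', hxu⟩ := s18_gauss_decomp hchart hx
    exact ⟨n, u, s34_lc_gauss_le_V hR h hB _ hu, s34_lc_gauss_le_V hR h hB _ hu', hxu⟩

/-- `B1[1/π] ∩ V = B1`. -/
theorem s34_lc_cap (hR : s18_ResBasis ℓ A π) (h : s18_cz_Coord N ℓ t)
    {B : Subring (LaurentSeries ℚ)} (hB : CoreData N ℓ B)
    (hchart : s18_Chart (algebraMap A FK π) (s18_chAlg N ℓ A t).toSubring) (x : FK)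
    (hx : x ∈ s34_lc_V N A) (j : ℕ) (hj : (algebraMap A FK π) ^ j * x ∈ s18_chAlg N ℓ A t) :
    x ∈ s18_chAlg N ℓ A t := by
  have hϖ0 : algebraMap A FK π ≠ 0 := hchart.ϖ_ne
  have e : (algebraMap A FK π)⁻¹ ^ j * ((algebraMap A FK π) ^ j * x) = x := by
    rw [← mul_assoc, ← mul_pow, inv_mul_cancel₀ hϖ0, one_pow, one_mul]
  have h1 := s18_gauss_cap hchart (x := (algebraMap A FK π) ^ j * x) hj j (by
    rw [e]
    exact (s34_lc_gauss_iff hR h hB hchart x).mpr hx)
  rw [e] at h1
  exact h1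

/-- Every element of the chart is integral over `A[t]`. -/
theorem s34_lc_integral (hsm : s18_SmHyp π (s18_coord K t) (s18_chAlg N ℓ A t)) (x : FK)
    (hx : x ∈ s18_chAlg N ℓ A t) : x ∈ s34_ic_chart A (s18_coord K t) := by
  classical
  rw [s34_ic_mem_iff]
  obtain ⟨gen, hgen, hspan⟩ := hsm.finite
  letI alg : Algebra A[X] FK := ((aeval (s18_coord K t) : A[X] →ₐ[A] FK) : A[X] →+* FK).toAlgebra
  have halg : ∀ P : A[X], algebraMap A[X] FK P = aeval (s18_coord K t) P := fun P => rfl
  have hmemP : ∀ P : A[X], aeval (s18_coord K t) P ∈ s18_chAlg N ℓ A t := by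
    intro P
    have h1 : Algebra.adjoin A ({s18_coord K t} : Set FK) ≤ s18_chAlg N ℓ A t :=
      Algebra.adjoin_le (Set.singleton_subset_iff.mpr hsm.t_mem)
    exact h1 (aeval_mem_adjoin_singleton A (s18_coord K t))
  let S : Subalgebra A[X] FK :=
    { (s18_chAlg N ℓ A t).toSubsemiring with
      algebraMap_mem' := fun P => by
        show algebraMap A[X] FK P ∈ s18_chAlg N ℓ A t
        rw [halg]
        exact hmemP P }
  have hS : ∀ y : FK, y ∈ S ↔ y ∈ s18_chAlg N ℓ A t := fun y => Iff.rfl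
  have hfg : S.toSubmodule.FG := by
    refine ⟨gen, le_antisymm ?_ ?_⟩
    · rw [Submodule.span_le]
      intro m hm
      exact (hS m).mpr (hgen m hm)
    · intro y hy
      obtain ⟨c, hc⟩ := hspan y ((hS y).mp hy)
      rw [hc]
      refine Submodule.sum_mem _ fun m hm => ?_
      have e : aeval (s18_coord K t) (c m) * m = (c m) • m := by
        rw [Algebra.smul_def, halg]
      rw [e]
      exact Submodule.smul_mem _ _ (Submodule.subset_span hm)
  have hint : IsIntegral A[X] x := IsIntegral.of_mem_of_fg S hfg x ((hS x).mpr hx)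
  exact hint

/-- `B1[1/π]` is integrally closed in `K · F_N`. -/
theorem s34_lc_normal (hsm : s18_SmHyp π (s18_coord K t) (s18_chAlg N ℓ A t)) (z : FK)
    (hz : IsIntegral (s18_chAlg N ℓ A t) z) :
    ∃ j : ℕ, (algebraMap A FK π) ^ j * z ∈ s18_chAlg N ℓ A t :=
  hsm.normal z hz

end Chart

/-! ### The inclusion `K · F_N ⊆ K · F_{N q}` -/

section Incl

variable {N : ℕ} [NeZero N] (q : ℕ) [NeZero q] {ℓ : ℕ} [Fact ℓ.Prime]
variable {K : Type*} [Field K] [Algebra ℚ K] {A : ValuationSubring K}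
variable {t : modularFunctionFieldFull N}

/-- The inclusion commutes with the structure maps from `A`. -/
theorem s34_lc_incl_algebraMap (a : A) :
    heckeAlphaBar K N q (algebraMap A (laurentBaseChange K (modularFunctionFieldFull N)) a) =
      algebraMap A (laurentBaseChange K (modularFunctionFieldFull (N * q))) a :=
  (heckeAlphaBar K N q).commutes (a : K)

/-- The inclusion preserves and reflects membership in the `q`-expansion Gauss rings. -/
theorem s34_lc_incl_mem_V (x : laurentBaseChange K (modularFunctionFieldFull N)) :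
    heckeAlphaBar K N q x ∈ s34_lc_V (N * q) A ↔ x ∈ s34_lc_V N A := by
  rw [s34_lc_mem_V, s34_lc_mem_V, coe_heckeAlphaBar]

/-- The inclusion of the coordinate is the coordinate with the same `q`-expansion. -/
theorem s34_lc_incl_coord (t' : modularFunctionFieldFull (N * q))
    (ht : (t' : LaurentSeries ℚ) = (t : LaurentSeries ℚ)) :
    heckeAlphaBar K N q (s18_coord K t) = s18_coord K t' := by
  apply Subtype.ext
  rw [coe_heckeAlphaBar]
  show coeffEmb K (t : LaurentSeries ℚ) = coeffEmb K (t' : LaurentSeries ℚ)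
  rw [ht]

/-- The image of the smooth chart lies in the integral-closure chart of the bigger level. -/
theorem s34_lc_incl_mem_ic [IsDiscreteValuationRing A] {π : A}
    (hsm : s18_SmHyp π (s18_coord K t) (s18_chAlg N ℓ A t))
    (x : laurentBaseChange K (modularFunctionFieldFull N)) (hx : x ∈ s18_chAlg N ℓ A t) :
    heckeAlphaBar K N q x ∈ s34_ic_chart A (heckeAlphaBar K N q (s18_coord K t)) := by
  have h1 := s34_lc_integral hsm x hx
  rw [s34_ic_mem_iff] at h1 ⊢
  obtain ⟨p, hp, hpx⟩ := h1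
  refine ⟨p, hp, ?_⟩
  have hcomp : ((heckeAlphaBar K N q : laurentBaseChange K (modularFunctionFieldFull N) →ₐ[K]
        laurentBaseChange K (modularFunctionFieldFull (N * q))) :
        laurentBaseChange K (modularFunctionFieldFull N) →+*
        laurentBaseChange K (modularFunctionFieldFull (N * q))).comp
      ((aeval (s18_coord K t) : A[X] →ₐ[A] laurentBaseChange K (modularFunctionFieldFull N)) :
        A[X] →+* laurentBaseChange K (modularFunctionFieldFull N)) =
      ((aeval (heckeAlphaBar K N q (s18_coord K t)) :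
        A[X] →ₐ[A] laurentBaseChange K (modularFunctionFieldFull (N * q))) :
        A[X] →+* laurentBaseChange K (modularFunctionFieldFull (N * q))) := by
    apply Polynomial.ringHom_ext
    · intro a
      simp only [RingHom.comp_apply, RingHom.coe_coe, aeval_C]
      exact s34_lc_incl_algebraMap q a
    · simp only [RingHom.comp_apply, RingHom.coe_coe, aeval_X]
  have h3 := Polynomial.hom_eval₂ p
    ((aeval (s18_coord K t) : A[X] →ₐ[A] laurentBaseChange K (modularFunctionFieldFull N)) :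
      A[X] →+* laurentBaseChange K (modularFunctionFieldFull N))
    ((heckeAlphaBar K N q : laurentBaseChange K (modularFunctionFieldFull N) →ₐ[K]
      laurentBaseChange K (modularFunctionFieldFull (N * q))) :
      laurentBaseChange K (modularFunctionFieldFull N) →+*
      laurentBaseChange K (modularFunctionFieldFull (N * q))) x
  rw [hpx, map_zero] at h3
  rw [← hcomp]
  exact h3.symm

end Incl

/-! ### The two-chart structure for the Hauptmoduln -/

section Haupt

variable (N : ℕ) [NeZero N] {ℓ : ℕ} [Fact ℓ.Prime]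
  (A : ValuationSubring (AlgebraicClosure ℚ)) (hA : A.LiesOverPrime ℓ)
  (K₁ : IntermediateField ℚ (AlgebraicClosure ℚ)) [NumberField K₁] [IsGalois ℚ K₁]

include hA in
/-- The S18 two-chart structure for the Hauptmodul `t₂` over `A₁ = A ∩ K₁`. -/
theorem s34_lc_twoChart_t2 (hℓN : ¬ ℓ ∣ N) (h2 : 2 ∣ N) [IsDiscreteValuationRing (s18_A1 A K₁)]
    (π : s18_A1 A K₁) (hπ : Irreducible π) :
    s18_TwoChart π (s18_coord K₁ (s18_cz_t2 N h2))
      (s18_chAlg N ℓ (s18_A1 A K₁) (s18_cz_t2 N h2))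
      (s18_chAlg N ℓ (s18_A1 A K₁) (s18_cz_t2 N h2)⁻¹) := by
  have hℓ : ((ℓ : K₁))⁻¹ ∉ s18_A1 A K₁ := s18_a1_ell A hA K₁
  haveI : CharZero (s18_A1 A K₁) := s18_a1_charZero A K₁
  have hℓ2 : ℓ ≠ 2 := fun h => hℓN (h ▸ h2)
  have hP := s18_ch_pkg_t2 (K := K₁) (A := s18_A1 A K₁) hℓ hℓN h2 π hπ
  exact s18_twoChart_of_pkg hπ hP
    (s18_branch_two N h2 hℓ2 A K₁ hℓ hπ _ (s18_coord_mem _))
    (s18_branch_two_inv N h2 hℓ2 A K₁ hℓ hπ _ hP.smInf.t_mem)

include hA in
/-- The S18 two-chart structure for the Hauptmodul `t₃` over `A₁ = A ∩ K₁`. -/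
theorem s34_lc_twoChart_t3 (hℓN : ¬ ℓ ∣ N) (h3 : 3 ∣ N) [IsDiscreteValuationRing (s18_A1 A K₁)]
    (π : s18_A1 A K₁) (hπ : Irreducible π) :
    s18_TwoChart π (s18_coord K₁ (s18_cz_t3 N h3))
      (s18_chAlg N ℓ (s18_A1 A K₁) (s18_cz_t3 N h3))
      (s18_chAlg N ℓ (s18_A1 A K₁) (s18_cz_t3 N h3)⁻¹) := by
  have hℓ : ((ℓ : K₁))⁻¹ ∉ s18_A1 A K₁ := s18_a1_ell A hA K₁
  haveI : CharZero (s18_A1 A K₁) := s18_a1_charZero A K₁
  have hℓ3 : ℓ ≠ 3 := fun h => hℓN (h ▸ h3)
  have hP := s18_ch_pkg_t3 (K := K₁) (A := s18_A1 A K₁) hℓ hℓN h3 π hπ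
  exact s18_twoChart_of_pkg hπ hP
    (s18_branch_three N h3 hℓ3 A K₁ hℓ hπ _ (s18_coord_mem _))
    (s18_branch_three_inv N h3 hℓ3 A K₁ hℓ hπ _ hP.smInf.t_mem)

end Haupt

end Fermat.Agent.S34
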