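import Mathlib
import Fermat.Agent.S34.LevelChart
import Fermat.Agent.S34.IcUnif
import Fermat.Agent.S34.GaussLevel
import Fermat.Agent.S34.ExtCap

/-!
# S34 (NODE), model wiring (CAP-inst): the `(B1)`-side inputs of the cap statement

Setting: `K` a field over `ℚ`, `A` a valuation subring of `K` which is a DVR with uniformizer `π`,
`ℓ` the residue characteristic, `N` a level prime to `ℓ`, `t` a coordinate of level `N`,
`F'' = K · F_N`, `F = K · F_{N q}`, `ι = heckeAlphaBar K N q : F'' → F` the inclusion,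
`B₁ = s18_chAlg N ℓ A t ⊆ F''` the smooth S18 chart, `V' = s34_gi_V A N` the `q`-expansion Gauss
ring of `F''`, `B = s34_ic_chart A (ι t) ⊆ F` the integral-closure chart.

The file provides the inputs of the abstract cap statement `s34_ext_cap` in the two-field form
(and then `hcap0` / `hcapi` of `s34_pow_of_model` for the Hauptmodul charts, `s34_ci_hcap0_t2`,
`s34_ci_hcapi_t2`, `s34_ci_hcap0_t3`, `s34_ci_hcapi_t3`, from the single hypothesis `ha`: every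
element of `V₁ ∩ V₂` is integral over `ι V'`):

* `s34_ci_le_V` : `B₁ ≤ V'`;
* `s34_ci_V_normal` : `V'` is integrally closed in `F''`;
* `s34_ci_normal` : `B₁` is integrally closed in `F''`;
* `s34_ci_gauss` : `b ∈ B₁`, `ϖ⁻¹ b ∈ V'` implies `ϖ⁻¹ b ∈ B₁`;
* `s34_ci_int` : every element of `B` is a root of a monic polynomial over `B₁` (through `ι`);
* `s34_ci_closed` : every root in `F` of a monic polynomial over `B₁` lies in `B`.
-/

set_option autoImplicit false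
set_option synthInstance.maxHeartbeats 400000

open ModularCurve ModularCurve.IgusaScheme AlgebraicCurve Fermat.Agent.S28 Polynomial
open Fermat.Agent.S18

noncomputable section

namespace Fermat.Agent.S34

/-- A subring of a field containing `x` or `x⁻¹` for every `x` is integrally closed. -/
theorem s34_ci_mem_of_isIntegral {F : Type*} [Field F] (V : Subring F)
    (hV : ∀ x : F, x ∈ V ∨ x⁻¹ ∈ V) (z : F) (hz : IsIntegral V z) : z ∈ V := by
  let W : ValuationSubring F := { V with mem_or_inv_mem' := hV }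
  have hz' : IsIntegral W z := hz
  obtain ⟨y, hy⟩ := IsIntegrallyClosed.isIntegral_iff.mp hz'
  rw [← hy]
  exact y.2

section Generic

variable {N : ℕ} [NeZero N] {ℓ : ℕ} [Fact ℓ.Prime]
variable {K : Type*} [Field K] [Algebra ℚ K] {A : ValuationSubring K}
variable {t : modularFunctionFieldFull N}

local notation "FK" => laurentBaseChange K (modularFunctionFieldFull N)

omit [NeZero N] in
/-- The two spellings of the `q`-expansion Gauss ring agree. -/
theorem s34_ci_gi_iff (x : FK) : x ∈ s34_gi_V A N ↔ x ∈ s34_lc_V N A := Iff.rfl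

variable [IsDiscreteValuationRing A] {π : A}

/-- `B₁ ≤ V'`. -/
theorem s34_ci_le_V (hR : s18_ResBasis ℓ A π) (h : s18_cz_Coord N ℓ t)
    {B : Subring (LaurentSeries ℚ)} (hB : CoreData N ℓ B)
    (hchart : s18_Chart (algebraMap A FK π) (s18_chAlg N ℓ A t).toSubring) :
    (s18_chAlg N ℓ A t).toSubring ≤ s34_gi_V A N := fun x hx =>
  s34_lc_gauss_le_V hR h hB x (s18_le_gaussRing hchart hx)

omit [NeZero N] in
/-- `V'` is integrally closed in `F''`. -/
theorem s34_ci_V_normal (hπ : Irreducible π) (z : FK) (hz : IsIntegral (s34_gi_V A N) z) :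
    z ∈ s34_gi_V A N :=
  s34_ci_mem_of_isIntegral _ (s34_unif_mem_or_inv (s34_gi_unif (N := N) hπ)) z hz

/-- `b ∈ B₁`, `ϖ⁻¹ b ∈ V'` implies `ϖ⁻¹ b ∈ B₁`. -/
theorem s34_ci_gauss (hR : s18_ResBasis ℓ A π) (h : s18_cz_Coord N ℓ t)
    {B : Subring (LaurentSeries ℚ)} (hB : CoreData N ℓ B)
    (hchart : s18_Chart (algebraMap A FK π) (s18_chAlg N ℓ A t).toSubring) :
    ∀ b ∈ (s18_chAlg N ℓ A t).toSubring, (algebraMap A FK π)⁻¹ * b ∈ s34_gi_V A N →
      (algebraMap A FK π)⁻¹ * b ∈ (s18_chAlg N ℓ A t).toSubring := by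
  intro b hb hV
  refine s34_lc_cap hR h hB hchart _ hV 1 ?_
  rw [pow_one, ← mul_assoc, mul_inv_cancel₀ hchart.ϖ_ne, one_mul]
  exact hb

/-- `B₁` is integrally closed in `F''`. -/
theorem s34_ci_normal (hR : s18_ResBasis ℓ A π) (h : s18_cz_Coord N ℓ t)
    {B : Subring (LaurentSeries ℚ)} (hB : CoreData N ℓ B)
    (hchart : s18_Chart (algebraMap A FK π) (s18_chAlg N ℓ A t).toSubring)
    (hsm : s18_SmHyp π (s18_coord K t) (s18_chAlg N ℓ A t)) (z : FK)
    (hz : IsIntegral (s18_chAlg N ℓ A t).toSubring z) :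
    z ∈ (s18_chAlg N ℓ A t).toSubring := by
  have hz1 : IsIntegral (s18_chAlg N ℓ A t) z := hz
  obtain ⟨j, hj⟩ := hsm.normal z hz1
  have hzV : z ∈ s34_gi_V A N := by
    apply s34_ci_V_normal hR.irr
    obtain ⟨p, hp, hpz⟩ := hz
    let κ : (s18_chAlg N ℓ A t).toSubring →+* s34_gi_V A N :=
      ((s18_chAlg N ℓ A t).toSubring.subtype).codRestrict (s34_gi_V A N)
        (fun x => s34_ci_le_V hR h hB hchart x.2)
    refine ⟨p.map κ, hp.map κ, ?_⟩
    rw [eval₂_map]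
    exact hpz
  exact s34_lc_cap hR h hB hchart z hzV j hj

end Generic

section Incl

variable {N : ℕ} [NeZero N] (q : ℕ) [NeZero q] {ℓ : ℕ} [Fact ℓ.Prime]
variable {K : Type*} [Field K] [Algebra ℚ K] {A : ValuationSubring K}
variable {t : modularFunctionFieldFull N}
variable [IsDiscreteValuationRing A] {π : A}

local notation "FK" => laurentBaseChange K (modularFunctionFieldFull N)
local notation "FK'" => laurentBaseChange K (modularFunctionFieldFull (N * q))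

omit [IsDiscreteValuationRing A] in
/-- Every element of the integral-closure chart `B` is a root of a monic polynomial over `B₁`
(through `ι`). -/
theorem s34_ci_int (x : FK')
    (hx : x ∈ (s34_ic_chart A (heckeAlphaBar K N q (s18_coord K t))).toSubring) :
    ∃ P : Polynomial (s18_chAlg N ℓ A t).toSubring, P.Monic ∧
      P.eval₂ ((heckeAlphaBar K N q).toRingHom.comp
        (s18_chAlg N ℓ A t).toSubring.subtype) x = 0 := by
  have hx1 : x ∈ s34_ic_chart A (heckeAlphaBar K N q (s18_coord K t)) := hx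
  rw [s34_ic_mem_iff] at hx1
  obtain ⟨p, hp, hpx⟩ := hx1
  -- `A[X] → B₁`, `X ↦ t`
  have hmem : ∀ P : A[X], aeval (s18_coord K t) P ∈ (s18_chAlg N ℓ A t).toSubring := by
    intro P
    have h1 : Algebra.adjoin A ({s18_coord K t} : Set FK) ≤ s18_chAlg N ℓ A t :=
      Algebra.adjoin_le (Set.singleton_subset_iff.mpr (s18_coord_mem t))
    exact h1 (aeval_mem_adjoin_singleton A (s18_coord K t))
  let φ : A[X] →+* (s18_chAlg N ℓ A t).toSubring :=
    ((aeval (s18_coord K t) : A[X] →ₐ[A] FK) : A[X] →+* FK).codRestrict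
      (s18_chAlg N ℓ A t).toSubring hmem
  have hcomp : (((heckeAlphaBar K N q).toRingHom.comp
      (s18_chAlg N ℓ A t).toSubring.subtype).comp φ) =
      ((aeval (heckeAlphaBar K N q (s18_coord K t)) : A[X] →ₐ[A] FK') : A[X] →+* FK') := by
    apply Polynomial.ringHom_ext
    · intro a
      simp only [RingHom.comp_apply, RingHom.coe_coe, aeval_C]
      show heckeAlphaBar K N q (aeval (s18_coord K t) (C a)) = _
      rw [aeval_C]
      exact s34_lc_incl_algebraMap q a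
    · simp only [RingHom.comp_apply, RingHom.coe_coe, aeval_X]
      show heckeAlphaBar K N q (aeval (s18_coord K t) X) = _
      rw [aeval_X]
  refine ⟨p.map φ, hp.map φ, ?_⟩
  rw [eval₂_map, hcomp]
  exact hpx

/-- Every root in `F` of a monic polynomial over `B₁` lies in the integral-closure chart `B`. -/
theorem s34_ci_closed (hsm : s18_SmHyp π (s18_coord K t) (s18_chAlg N ℓ A t)) (x : FK')
    (hx : ∃ P : Polynomial (s18_chAlg N ℓ A t).toSubring, P.Monic ∧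
      P.eval₂ ((heckeAlphaBar K N q).toRingHom.comp
        (s18_chAlg N ℓ A t).toSubring.subtype) x = 0) :
    x ∈ (s34_ic_chart A (heckeAlphaBar K N q (s18_coord K t))).toSubring := by
  obtain ⟨P, hP, hPx⟩ := hx
  let κ : (s18_chAlg N ℓ A t).toSubring →+*
      s34_ic_chart A (heckeAlphaBar K N q (s18_coord K t)) :=
    (((heckeAlphaBar K N q).toRingHom.comp
      (s18_chAlg N ℓ A t).toSubring.subtype)).codRestrict
      (s34_ic_chart A (heckeAlphaBar K N q (s18_coord K t))).toSubring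
      (fun b => s34_lc_incl_mem_ic q hsm b b.2)
  have h1 : IsIntegral (s34_ic_chart A (heckeAlphaBar K N q (s18_coord K t))) x := by
    refine ⟨P.map κ, hP.map κ, ?_⟩
    rw [eval₂_map]
    exact hPx
  exact s34_ic_normal h1

/-- **(CAP-inst), generic form.**  The cap property of the integral-closure chart
`B = s34_ic_chart A (ι t)` of level `N q` with respect to two subrings `V₁`, `V₂` of `K · F_{N q}`
such that every element of `V₁ ∩ V₂` is integral over the Gauss ring `V'` of level `N`. -/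
theorem s34_ci_cap (hR : s18_ResBasis ℓ A π) (h : s18_cz_Coord N ℓ t)
    {B : Subring (LaurentSeries ℚ)} (hB : CoreData N ℓ B)
    (hchart : s18_Chart (algebraMap A FK π) (s18_chAlg N ℓ A t).toSubring)
    (hsm : s18_SmHyp π (s18_coord K t) (s18_chAlg N ℓ A t))
    (V₁ V₂ : Subring FK')
    (ha : ∀ y ∈ V₁, y ∈ V₂ → ∃ P : Polynomial (s34_gi_V A N), P.Monic ∧
      P.eval₂ ((heckeAlphaBar K N q).toRingHom.comp (s34_gi_V A N).subtype) y = 0) :
    ∀ x ∈ (s34_ic_chart A (heckeAlphaBar K N q (s18_coord K t))).toSubring,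
      (algebraMap A FK' π)⁻¹ * x ∈ V₁ → (algebraMap A FK' π)⁻¹ * x ∈ V₂ →
      (algebraMap A FK' π)⁻¹ * x ∈
        (s34_ic_chart A (heckeAlphaBar K N q (s18_coord K t))).toSubring := by
  have key := s34_ext_cap (heckeAlphaBar K N q).toRingHom (ϖ'' := algebraMap A FK π)
    hchart.ϖ_ne (s18_chAlg N ℓ A t).toSubring (s34_gi_V A N)
    (s34_ic_chart A (heckeAlphaBar K N q (s18_coord K t))).toSubring V₁ V₂
    hchart.ϖ_mem (s34_ci_le_V hR h hB hchart) hchart.frac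
    (s34_ci_normal hR h hB hchart hsm) (s34_ci_V_normal hR.irr)
    (s34_ci_gauss hR h hB hchart) (s34_ci_int q) (s34_ci_closed q hsm) ha
  have e : (heckeAlphaBar K N q).toRingHom (algebraMap A FK π) = algebraMap A FK' π :=
    s34_lc_incl_algebraMap q π
  rw [e] at key
  exact key

end Incl

/-! ### The model: the Hauptmoduln over `A₁ = A ∩ K₁` -/

section Model

variable (L' q : ℕ) [NeZero L'] [NeZero q] [Fact q.Prime]
  (A : ValuationSubring (AlgebraicClosure ℚ)) (hA : A.LiesOverPrime q)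
  (K₁ : IntermediateField ℚ (AlgebraicClosure ℚ)) [NumberField K₁] [IsGalois ℚ K₁]

include hA in
/-- **`hcap0` of `s34_pow_of_model`** for the chart of `t₂` at level `L' q`. -/
theorem s34_ci_hcap0_t2 (hqL : ¬ q ∣ L') (h2 : 2 ∣ L') (h2' : 2 ∣ L' * q)
    [IsDiscreteValuationRing (s18_A1 A K₁)] (π : s18_A1 A K₁) (hπ : Irreducible π)
    (V₁ V₂ : Subring (s18_F1 K₁ (L' * q)))
    (ha : ∀ y ∈ V₁, y ∈ V₂ → ∃ P : Polynomial (s34_gi_V (s18_A1 A K₁) L'), P.Monic ∧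
      P.eval₂ ((heckeAlphaBar K₁ L' q).toRingHom.comp
        (s34_gi_V (s18_A1 A K₁) L').subtype) y = 0) :
    ∀ x ∈ (s34_ic_chart (s18_A1 A K₁) (s18_coord K₁ (s18_cz_t2 (L' * q) h2'))).toSubring,
      (algebraMap (s18_A1 A K₁) (s18_F1 K₁ (L' * q)) π)⁻¹ * x ∈ V₁ →
      (algebraMap (s18_A1 A K₁) (s18_F1 K₁ (L' * q)) π)⁻¹ * x ∈ V₂ →
      (algebraMap (s18_A1 A K₁) (s18_F1 K₁ (L' * q)) π)⁻¹ * x ∈
        (s34_ic_chart (s18_A1 A K₁) (s18_coord K₁ (s18_cz_t2 (L' * q) h2'))).toSubring := by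
  have hℓ : ((q : K₁))⁻¹ ∉ s18_A1 A K₁ := s18_a1_ell A hA K₁
  have hq2 : q ≠ 2 := fun h => hqL (h ▸ h2)
  have hP := s18_ch_pkg_t2 (K := K₁) (A := s18_A1 A K₁) hℓ hqL h2 π hπ
  obtain ⟨B, hB⟩ := core L' q hqL
  have hR : s18_ResBasis q (s18_A1 A K₁) π := ⟨hℓ, hπ, s18_ch_resbasis (s18_A1 A K₁) q hℓ π hπ⟩
  have key := s34_ci_cap q hR (s18_cz_coord_t2 L' q h2 hq2) hB
    (s34_lc_twoChart_t2 L' A hA K₁ hqL h2 π hπ).chart0 hP.sm0 V₁ V₂ ha
  rw [s34_lc_incl_coord q (s18_cz_t2 (L' * q) h2') rfl] at key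
  exact key

include hA in
/-- **`hcapi` of `s34_pow_of_model`** for the chart of `t₂⁻¹` at level `L' q`. -/
theorem s34_ci_hcapi_t2 (hqL : ¬ q ∣ L') (h2 : 2 ∣ L') (h2' : 2 ∣ L' * q)
    [IsDiscreteValuationRing (s18_A1 A K₁)] (π : s18_A1 A K₁) (hπ : Irreducible π)
    (V₁ V₂ : Subring (s18_F1 K₁ (L' * q)))
    (ha : ∀ y ∈ V₁, y ∈ V₂ → ∃ P : Polynomial (s34_gi_V (s18_A1 A K₁) L'), P.Monic ∧
      P.eval₂ ((heckeAlphaBar K₁ L' q).toRingHom.comp
        (s34_gi_V (s18_A1 A K₁) L').subtype) y = 0) :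
    ∀ x ∈ (s34_ic_chart (s18_A1 A K₁) (s18_coord K₁ (s18_cz_t2 (L' * q) h2'))⁻¹).toSubring,
      (algebraMap (s18_A1 A K₁) (s18_F1 K₁ (L' * q)) π)⁻¹ * x ∈ V₁ →
      (algebraMap (s18_A1 A K₁) (s18_F1 K₁ (L' * q)) π)⁻¹ * x ∈ V₂ →
      (algebraMap (s18_A1 A K₁) (s18_F1 K₁ (L' * q)) π)⁻¹ * x ∈
        (s34_ic_chart (s18_A1 A K₁) (s18_coord K₁ (s18_cz_t2 (L' * q) h2'))⁻¹).toSubring := by
  have hℓ : ((q : K₁))⁻¹ ∉ s18_A1 A K₁ := s18_a1_ell A hA K₁
  have hq2 : q ≠ 2 := fun h => hqL (h ▸ h2)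
  have hP := s18_ch_pkg_t2 (K := K₁) (A := s18_A1 A K₁) hℓ hqL h2 π hπ
  obtain ⟨B, hB⟩ := core L' q hqL
  have hR : s18_ResBasis q (s18_A1 A K₁) π := ⟨hℓ, hπ, s18_ch_resbasis (s18_A1 A K₁) q hℓ π hπ⟩
  have hsm : s18_SmHyp π (s18_coord K₁ (s18_cz_t2 L' h2)⁻¹)
      (s18_chAlg L' q (s18_A1 A K₁) (s18_cz_t2 L' h2)⁻¹) := by
    rw [s18_coord_inv]
    exact hP.smInf
  have key := s34_ci_cap q hR (s18_cz_coord_t2 L' q h2 hq2).inv hB
    (s34_lc_twoChart_t2 L' A hA K₁ hqL h2 π hπ).chartInf hsm V₁ V₂ ha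
  rw [s18_coord_inv, map_inv₀, s34_lc_incl_coord q (s18_cz_t2 (L' * q) h2') rfl] at key
  exact key

include hA in
/-- **`hcap0` of `s34_pow_of_model`** for the chart of `t₃` at level `L' q`. -/
theorem s34_ci_hcap0_t3 (hqL : ¬ q ∣ L') (h3 : 3 ∣ L') (h3' : 3 ∣ L' * q)
    [IsDiscreteValuationRing (s18_A1 A K₁)] (π : s18_A1 A K₁) (hπ : Irreducible π)
    (V₁ V₂ : Subring (s18_F1 K₁ (L' * q)))
    (ha : ∀ y ∈ V₁, y ∈ V₂ → ∃ P : Polynomial (s34_gi_V (s18_A1 A K₁) L'), P.Monic ∧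
      P.eval₂ ((heckeAlphaBar K₁ L' q).toRingHom.comp
        (s34_gi_V (s18_A1 A K₁) L').subtype) y = 0) :
    ∀ x ∈ (s34_ic_chart (s18_A1 A K₁) (s18_coord K₁ (s18_cz_t3 (L' * q) h3'))).toSubring,
      (algebraMap (s18_A1 A K₁) (s18_F1 K₁ (L' * q)) π)⁻¹ * x ∈ V₁ →
      (algebraMap (s18_A1 A K₁) (s18_F1 K₁ (L' * q)) π)⁻¹ * x ∈ V₂ →
      (algebraMap (s18_A1 A K₁) (s18_F1 K₁ (L' * q)) π)⁻¹ * x ∈
        (s34_ic_chart (s18_A1 A K₁) (s18_coord K₁ (s18_cz_t3 (L' * q) h3'))).toSubring := by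
  have hℓ : ((q : K₁))⁻¹ ∉ s18_A1 A K₁ := s18_a1_ell A hA K₁
  have hq3 : q ≠ 3 := fun h => hqL (h ▸ h3)
  have hP := s18_ch_pkg_t3 (K := K₁) (A := s18_A1 A K₁) hℓ hqL h3 π hπ
  obtain ⟨B, hB⟩ := core L' q hqL
  have hR : s18_ResBasis q (s18_A1 A K₁) π := ⟨hℓ, hπ, s18_ch_resbasis (s18_A1 A K₁) q hℓ π hπ⟩
  have key := s34_ci_cap q hR (s18_cz_coord_t3 L' q h3 hq3) hB
    (s34_lc_twoChart_t3 L' A hA K₁ hqL h3 π hπ).chart0 hP.sm0 V₁ V₂ ha
  rw [s34_lc_incl_coord q (s18_cz_t3 (L' * q) h3') rfl] at key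
  exact key

include hA in
/-- **`hcapi` of `s34_pow_of_model`** for the chart of `t₃⁻¹` at level `L' q`. -/
theorem s34_ci_hcapi_t3 (hqL : ¬ q ∣ L') (h3 : 3 ∣ L') (h3' : 3 ∣ L' * q)
    [IsDiscreteValuationRing (s18_A1 A K₁)] (π : s18_A1 A K₁) (hπ : Irreducible π)
    (V₁ V₂ : Subring (s18_F1 K₁ (L' * q)))
    (ha : ∀ y ∈ V₁, y ∈ V₂ → ∃ P : Polynomial (s34_gi_V (s18_A1 A K₁) L'), P.Monic ∧
      P.eval₂ ((heckeAlphaBar K₁ L' q).toRingHom.comp
        (s34_gi_V (s18_A1 A K₁) L').subtype) y = 0) :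
    ∀ x ∈ (s34_ic_chart (s18_A1 A K₁) (s18_coord K₁ (s18_cz_t3 (L' * q) h3'))⁻¹).toSubring,
      (algebraMap (s18_A1 A K₁) (s18_F1 K₁ (L' * q)) π)⁻¹ * x ∈ V₁ →
      (algebraMap (s18_A1 A K₁) (s18_F1 K₁ (L' * q)) π)⁻¹ * x ∈ V₂ →
      (algebraMap (s18_A1 A K₁) (s18_F1 K₁ (L' * q)) π)⁻¹ * x ∈
        (s34_ic_chart (s18_A1 A K₁) (s18_coord K₁ (s18_cz_t3 (L' * q) h3'))⁻¹).toSubring := by
  have hℓ : ((q : K₁))⁻¹ ∉ s18_A1 A K₁ := s18_a1_ell A hA K₁
  have hq3 : q ≠ 3 := fun h => hqL (h ▸ h3)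
  have hP := s18_ch_pkg_t3 (K := K₁) (A := s18_A1 A K₁) hℓ hqL h3 π hπ
  obtain ⟨B, hB⟩ := core L' q hqL
  have hR : s18_ResBasis q (s18_A1 A K₁) π := ⟨hℓ, hπ, s18_ch_resbasis (s18_A1 A K₁) q hℓ π hπ⟩
  have hsm : s18_SmHyp π (s18_coord K₁ (s18_cz_t3 L' h3)⁻¹)
      (s18_chAlg L' q (s18_A1 A K₁) (s18_cz_t3 L' h3)⁻¹) := by
    rw [s18_coord_inv]
    exact hP.smInf
  have key := s34_ci_cap q hR (s18_cz_coord_t3 L' q h3 hq3).inv hB
    (s34_lc_twoChart_t3 L' A hA K₁ hqL h3 π hπ).chartInf hsm V₁ V₂ ha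
  rw [s18_coord_inv, map_inv₀, s34_lc_incl_coord q (s18_cz_t3 (L' * q) h3') rfl] at key
  exact key

end Model

end Fermat.Agent.S34
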