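import Mathlib
import Fermat.Agent.S18.NormDescent
import Fermat.Agent.S18.UnramMod

/-!
# S34 (NODE), leaf (DEG): the degree of `K · F(N ℓ)` over `K · F(N)` is at most `ℓ + 1`

The frozen S18/S37 degree statements live over `Q̄`.  Here they are descended to an arbitrary field
of constants `K ⊆ Q̄` (a number field `K₁` in the application) by linear disjointness:

* `s34_dg_proj`, `s34_dg_proj_mul` : coefficientwise application of a `K`-linear form `Ω → K` is
  `K((q))`-linear;
* `s34_dg_dep_gen` : a family of `K((q))` satisfying a nontrivial linear relation in `Ω((q))` with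
  coefficients in the field generated by `Ω` and the image of a subfield `E'` satisfies a
  nontrivial relation with coefficients in `E'`;
* `s34_dg_le` : `K · F(N) ≤ K · F(N')` for `N ∣ N'`;
* `s34_dg_dep` : any `M + 2` elements of `K · F(N M)` are linearly dependent over `K · F(N)`
  (`M` prime, `M ∤ N`);
* `s34_dg_rank_le`, `s34_dg_finite`, `s34_dg_finrank_le`, `s34_dg_relfinrank_le` : the same as
  rank statements for the extension `K · F(N M) / K · F(N)`;
(`s18_F1 K₁ N` is by definition `laurentBaseChange ↥K₁ (modularFunctionFieldFull N)`, so all statements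
apply verbatim with `K := ↥K₁`.)
-/

set_option autoImplicit false
set_option synthInstance.maxHeartbeats 400000
set_option linter.unusedSectionVars false
set_option linter.style.haveILetI false

open ModularCurve

noncomputable section

namespace Fermat.Agent.S34

section Generic

variable {K Ω : Type*} [Field K] [Field Ω] [Algebra K Ω]

/-- Coefficientwise application of a `K`-linear form `Ω → K` to a Laurent series. -/
noncomputable def s34_dg_proj (lam : Ω →ₗ[K] K) : LaurentSeries Ω →+ LaurentSeries K where
  toFun w := w.map lam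
  map_zero' := by
    ext k
    simp
  map_add' x y := by
    ext k
    simp

@[simp]
theorem s34_dg_proj_coeff (lam : Ω →ₗ[K] K) (w : LaurentSeries Ω) (k : ℤ) :
    (s34_dg_proj lam w).coeff k = lam (w.coeff k) := rfl

/-- The coefficientwise projection is linear over `K((q))`. -/
theorem s34_dg_proj_mul (lam : Ω →ₗ[K] K) (z : LaurentSeries K) (w : LaurentSeries Ω) :
    s34_dg_proj lam (coeffMap (algebraMap K Ω) z * w) = z * s34_dg_proj lam w := by
  ext n
  have hs1 : (coeffMap (algebraMap K Ω) z).support ⊆ z.support := by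
    intro k hk
    rw [HahnSeries.mem_support] at hk ⊢
    intro h0
    apply hk
    rw [coeffMap_coeff, h0, map_zero]
  have hs2 : (s34_dg_proj lam w).support ⊆ w.support := by
    intro k hk
    rw [HahnSeries.mem_support] at hk ⊢
    intro h0
    apply hk
    rw [s34_dg_proj_coeff, h0, map_zero]
  rw [s34_dg_proj_coeff, HahnSeries.coeff_mul_left' z.isPWO_support hs1,
    HahnSeries.coeff_mul_right' w.isPWO_support hs2, map_sum]
  refine Finset.sum_congr rfl fun ij _ => ?_
  rw [coeffMap_coeff, s34_dg_proj_coeff, ← Algebra.smul_def, map_smul, smul_eq_mul]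

/-- The projection of a constant. -/
theorem s34_dg_proj_single (lam : Ω →ₗ[K] K) (ω : Ω) :
    s34_dg_proj lam (HahnSeries.single 0 ω) = algebraMap K (LaurentSeries K) (lam ω) := by
  rw [algebraMap_laurentSeries_eq_single]
  ext k
  rw [s34_dg_proj_coeff]
  rcases eq_or_ne k 0 with rfl | hk
  · rw [HahnSeries.coeff_single_same, HahnSeries.coeff_single_same]
  · rw [HahnSeries.coeff_single_of_ne hk, HahnSeries.coeff_single_of_ne hk, map_zero]

/-- The `Ω`-span of the image of a subfield of `K((q))` in `Ω((q))`. -/
noncomputable def s34_dg_span (E' : IntermediateField K (LaurentSeries K)) :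
    Submodule Ω (LaurentSeries Ω) :=
  Submodule.span Ω (⇑(coeffMap (algebraMap K Ω)) '' (E' : Set (LaurentSeries K)))

theorem s34_dg_span_mul (E' : IntermediateField K (LaurentSeries K)) {a b : LaurentSeries Ω}
    (ha : a ∈ s34_dg_span (Ω := Ω) E') (hb : b ∈ s34_dg_span (Ω := Ω) E') :
    a * b ∈ s34_dg_span (Ω := Ω) E' := by
  induction ha using Submodule.span_induction with
  | mem a ha =>
    obtain ⟨x, hx, rfl⟩ := ha
    induction hb using Submodule.span_induction with
    | mem b hb =>
      obtain ⟨y, hy, rfl⟩ := hb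
      exact Submodule.subset_span ⟨x * y, E'.mul_mem hx hy, map_mul _ _ _⟩
    | zero => rw [mul_zero]; exact Submodule.zero_mem _
    | add y z _ _ hy hz => rw [mul_add]; exact Submodule.add_mem _ hy hz
    | smul r y _ hy =>
      have e : coeffMap (algebraMap K Ω) x * (r • y) = r • (coeffMap (algebraMap K Ω) x * y) := by
        rw [← HahnSeries.C_mul_eq_smul, ← HahnSeries.C_mul_eq_smul]; ring
      rw [e]
      exact Submodule.smul_mem _ r hy
  | zero => rw [zero_mul]; exact Submodule.zero_mem _
  | add y z _ _ hy hz => rw [add_mul]; exact Submodule.add_mem _ hy hz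
  | smul r y _ hy =>
    have e : (r • y) * b = r • (y * b) := by
      rw [← HahnSeries.C_mul_eq_smul, ← HahnSeries.C_mul_eq_smul]; ring
    rw [e]
    exact Submodule.smul_mem _ r hy

theorem s34_dg_span_one (E' : IntermediateField K (LaurentSeries K)) :
    (1 : LaurentSeries Ω) ∈ s34_dg_span (Ω := Ω) E' :=
  Submodule.subset_span ⟨1, E'.one_mem, map_one _⟩

theorem s34_dg_span_prod (E' : IntermediateField K (LaurentSeries K)) {ι : Type*}
    (s : Finset ι) (b : ι → LaurentSeries Ω) (hb : ∀ i ∈ s, b i ∈ s34_dg_span (Ω := Ω) E') :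
    ∏ i ∈ s, b i ∈ s34_dg_span (Ω := Ω) E' := by
  classical
  induction s using Finset.induction_on with
  | empty => rw [Finset.prod_empty]; exact s34_dg_span_one E'
  | insert i s hi ih =>
    rw [Finset.prod_insert hi]
    exact s34_dg_span_mul E' (hb i (Finset.mem_insert_self i s))
      (ih fun j hj => hb j (Finset.mem_insert_of_mem hj))

/-- Projections of elements of the span lie in `E'`. -/
theorem s34_dg_proj_mem (lam : Ω →ₗ[K] K) (E' : IntermediateField K (LaurentSeries K))
    {w : LaurentSeries Ω} (hw : w ∈ s34_dg_span (Ω := Ω) E') (ω : Ω) :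
    s34_dg_proj lam (HahnSeries.single 0 ω * w) ∈ E' := by
  induction hw using Submodule.span_induction generalizing ω with
  | mem w hw =>
    obtain ⟨a, ha, rfl⟩ := hw
    rw [mul_comm, s34_dg_proj_mul, s34_dg_proj_single]
    exact E'.mul_mem ha (E'.algebraMap_mem _)
  | zero => rw [mul_zero, map_zero]; exact E'.zero_mem
  | add x y _ _ hx hy => rw [mul_add, map_add]; exact E'.add_mem (hx ω) (hy ω)
  | smul r x _ hx =>
    have e : HahnSeries.single 0 ω * (r • x) = HahnSeries.single 0 (ω * r) * x := by
      rw [← HahnSeries.C_apply, ← HahnSeries.C_apply, HahnSeries.C_mul_eq_smul,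
        HahnSeries.C_mul_eq_smul, smul_smul]
    rw [e]
    exact hx (ω * r)

/-- **Linear disjointness, elementwise form.**  If a family `x` of elements of `K((q))` satisfies a
nontrivial linear relation in `Ω((q))` whose coefficients are quotients of elements of the
`Ω`-span of the image of the subfield `E'`, then it satisfies a nontrivial linear relation with
coefficients in `E'`. -/
theorem s34_dg_dep_gen (E' : IntermediateField K (LaurentSeries K)) {ι : Type*} [Fintype ι]
    (x : ι → LaurentSeries K) (c : ι → LaurentSeries Ω)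
    (hc : ∀ i, ∃ a b : LaurentSeries Ω, a ∈ s34_dg_span (Ω := Ω) E' ∧
      b ∈ s34_dg_span (Ω := Ω) E' ∧ b ≠ 0 ∧ c i = a / b)
    (hne : ∃ i, c i ≠ 0)
    (hrel : ∑ i, c i * coeffMap (algebraMap K Ω) (x i) = 0) :
    ∃ d : ι → LaurentSeries K, (∀ i, d i ∈ E') ∧ (∃ i, d i ≠ 0) ∧ ∑ i, d i * x i = 0 := by
  classical
  choose a b ha hb hb0 hcab using hc
  -- clear denominators
  set c' : ι → LaurentSeries Ω := fun i => a i * ∏ j ∈ Finset.univ.erase i, b j with hc'
  have hc'mem : ∀ i, c' i ∈ s34_dg_span (Ω := Ω) E' := fun i =>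
    s34_dg_span_mul E' (ha i) (s34_dg_span_prod E' _ b fun j _ => hb j)
  have hc'eq : ∀ i, c' i = c i * ∏ j, b j := by
    intro i
    rw [hc', hcab i, ← Finset.mul_prod_erase Finset.univ b (Finset.mem_univ i)]
    field_simp [hb0 i]
  have hprod0 : ∏ j, b j ≠ 0 := Finset.prod_ne_zero_iff.mpr fun j _ => hb0 j
  have hrel' : ∑ i, c' i * coeffMap (algebraMap K Ω) (x i) = 0 := by
    have e : ∑ i, c' i * coeffMap (algebraMap K Ω) (x i) =
        (∑ i, c i * coeffMap (algebraMap K Ω) (x i)) * ∏ j, b j := by
      rw [Finset.sum_mul]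
      refine Finset.sum_congr rfl fun i _ => ?_
      rw [hc'eq i]; ring
    rw [e, hrel, zero_mul]
  obtain ⟨i₀, hi₀⟩ := hne
  have hc'i₀ : c' i₀ ≠ 0 := by rw [hc'eq]; exact mul_ne_zero hi₀ hprod0
  obtain ⟨n, hn⟩ : ∃ n : ℤ, (c' i₀).coeff n ≠ 0 := by
    by_contra hcon
    push Not at hcon
    exact hc'i₀ (HahnSeries.ext (funext fun n => by simpa using hcon n))
  -- a `K`-linear retraction `Ω → K`
  obtain ⟨lam, hlam⟩ := (Algebra.linearMap K Ω).exists_leftInverse_of_injective
    (LinearMap.ker_eq_bot.mpr (algebraMap K Ω).injective)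
  have hlam1 : lam 1 = 1 := by
    have := congrArg (fun f => f (1 : K)) hlam
    simpa using this
  set ω : Ω := ((c' i₀).coeff n)⁻¹ with hω
  refine ⟨fun i => s34_dg_proj lam (HahnSeries.single 0 ω * c' i),
    fun i => s34_dg_proj_mem lam E' (hc'mem i) ω, ⟨i₀, ?_⟩, ?_⟩
  · intro h0
    have h1 := congrArg (fun z => z.coeff n) h0
    simp only [s34_dg_proj_coeff, HahnSeries.coeff_zero] at h1
    rw [← HahnSeries.C_apply, HahnSeries.C_mul_eq_smul, HahnSeries.coeff_smul, smul_eq_mul, hω,
      inv_mul_cancel₀ hn, hlam1] at h1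
    exact one_ne_zero h1
  · have e : ∀ i, s34_dg_proj lam (HahnSeries.single 0 ω * c' i) * x i =
        s34_dg_proj lam (HahnSeries.single 0 ω * (c' i * coeffMap (algebraMap K Ω) (x i))) := by
      intro i
      rw [mul_comm _ (x i), ← s34_dg_proj_mul]
      congr 1
      ring
    rw [Finset.sum_congr rfl fun i _ => e i, ← map_sum, ← Finset.mul_sum, hrel', mul_zero,
      map_zero]

end Generic


section Modular

open Fermat.Agent.S18

local notation "Qb" => AlgebraicClosure ℚ

variable (K : Type*) [Field K] [Algebra ℚ K] [Algebra K (AlgebraicClosure ℚ)]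

/-- `K · F(N) ≤ K · F(N')` for `N ∣ N'`. -/
theorem s34_dg_le {N N' : ℕ} [NeZero N] [NeZero N'] (hdvd : N ∣ N') :
    laurentBaseChange K (modularFunctionFieldFull N) ≤
      laurentBaseChange K (modularFunctionFieldFull N') := by
  apply IntermediateField.adjoin.mono
  exact Set.image_mono (full_degeneracy_le hdvd)

/-- **(DEG), elementary form**: any `M + 2` elements of `K · F(N M)` are linearly dependent over
`K · F(N)` (`M` a prime not dividing `N`). -/
theorem s34_dg_dep (N M : ℕ) [NeZero N] (hM : M.Prime) (hMN : ¬ M ∣ N)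
    (x : Fin (M + 2) → LaurentSeries K)
    (hx : ∀ i, x i ∈ laurentBaseChange K (modularFunctionFieldFull (N * M))) :
    ∃ d : Fin (M + 2) → LaurentSeries K,
      (∀ i, d i ∈ laurentBaseChange K (modularFunctionFieldFull N)) ∧ (∃ i, d i ≠ 0) ∧
        ∑ i, d i * x i = 0 := by
  classical
  have : NeZero (N * M) := ⟨Nat.mul_ne_zero (NeZero.ne N) hM.ne_zero⟩
  have hle : modularFunctionFieldBar N ≤ modularFunctionFieldBar (N * M) :=
    s18_d5_le (Dvd.intro M rfl)
  have hrank := s18_d5_relfinrank_mul_prime N M hM hMN
  rw [IntermediateField.relfinrank_eq_finrank_of_le hle] at hrank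
  have : Module.Finite ↥(modularFunctionFieldBar N) ↥(IntermediateField.extendScalars hle) := by
    apply Module.finite_of_finrank_pos
    rw [hrank]
    exact Nat.succ_pos M
  -- the images of the `x i`
  let y : Fin (M + 2) → ↥(IntermediateField.extendScalars hle) := fun i =>
    ⟨coeffMap (algebraMap K Qb) (x i), s18_coeffMap_mem_bar K (N * M) (hx i)⟩
  have hnli : ¬ LinearIndependent ↥(modularFunctionFieldBar N) y := by
    intro hli
    have h1 := hli.fintype_card_le_finrank
    rw [hrank, Fintype.card_fin] at h1
    omega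
  obtain ⟨g, hg, i₀, hi₀⟩ := Fintype.not_linearIndependent_iff.mp hnli
  refine s34_dg_dep_gen (K := K) (Ω := Qb) (laurentBaseChange K (modularFunctionFieldFull N)) x
    (fun i => ((g i : modularFunctionFieldBar N) : LaurentSeries Qb)) (fun i => ?_) ⟨i₀, ?_⟩ ?_
  · obtain ⟨a, b, ha, hb, hb0, hab⟩ := s18_baseIncl_gen K N (g i)
    have hmap : ∀ z : modularFunctionFieldBar N,
        z ∈ Submodule.span Qb (Set.range (s18_baseIncl K N)) →
        (z : LaurentSeries Qb) ∈
          s34_dg_span (Ω := Qb) (laurentBaseChange K (modularFunctionFieldFull N)) := by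
      intro z hz
      induction hz using Submodule.span_induction with
      | mem z hz =>
        obtain ⟨w, rfl⟩ := hz
        exact Submodule.subset_span ⟨(w : LaurentSeries K), w.2, rfl⟩
      | zero => exact Submodule.zero_mem _
      | add z₁ z₂ _ _ h₁ h₂ => exact Submodule.add_mem _ h₁ h₂
      | smul r z _ hz =>
        have e : ((r • z : modularFunctionFieldBar N) : LaurentSeries Qb) =
            r • (z : LaurentSeries Qb) := by
          rw [← HahnSeries.C_mul_eq_smul, Algebra.smul_def]
          show algebraMap Qb (LaurentSeries Qb) r * (z : LaurentSeries Qb) = _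
          rw [algebraMap_laurentSeries_eq_single]
          rfl
        rw [e]
        exact Submodule.smul_mem _ r hz
    refine ⟨(a : LaurentSeries Qb), (b : LaurentSeries Qb), hmap a ha, hmap b hb, ?_, ?_⟩
    · intro h0
      exact hb0 (Subtype.ext h0)
    · rw [hab]
      rfl
  · intro h0
    exact hi₀ (Subtype.ext h0)
  · have h1 := congrArg (fun z : ↥(IntermediateField.extendScalars hle) =>
      (z : LaurentSeries Qb)) hg
    simp only [AddSubmonoidClass.coe_finsetSum] at h1
    exact h1

variable (N M : ℕ) [NeZero N] [NeZero (N * M)]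

/-- **(DEG), rank form.** -/
theorem s34_dg_rank_le (hM : M.Prime) (hMN : ¬ M ∣ N) :
    Module.rank ↥(laurentBaseChange K (modularFunctionFieldFull N))
      ↥(IntermediateField.extendScalars (s34_dg_le K (N := N) (N' := N * M) (Dvd.intro M rfl))) ≤
        ((M + 1 : ℕ) : Cardinal) := by
  classical
  set hle := s34_dg_le K (N := N) (N' := N * M) (Dvd.intro M rfl) with hhle
  apply rank_le
  intro s hli
  by_contra hcard
  push Not at hcard
  have hcard' : M + 2 ≤ s.card := hcard
  -- an injection `Fin (M + 2) → s`
  let e : Fin (M + 2) → s := fun i => s.equivFin.symm (Fin.castLE hcard' i)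
  have he : Function.Injective e := fun i j h =>
    Fin.castLE_injective hcard' (s.equivFin.symm.injective h)
  have hli' : LinearIndependent ↥(laurentBaseChange K (modularFunctionFieldFull N))
      (fun i : Fin (M + 2) => ((e i : s) : ↥(IntermediateField.extendScalars hle))) :=
    hli.comp e he
  obtain ⟨d, hd, ⟨i₀, hi₀⟩, hrel⟩ := s34_dg_dep K N M hM hMN
    (fun i => (((e i : s) : ↥(IntermediateField.extendScalars hle)) : LaurentSeries K))
    (fun i => ((e i : s) : ↥(IntermediateField.extendScalars hle)).2)
  have h1 := Fintype.linearIndependent_iff.mp hli' (fun i => ⟨d i, hd i⟩) (by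
    apply Subtype.ext
    simp only [AddSubmonoidClass.coe_finsetSum]
    exact hrel) i₀
  exact hi₀ (congrArg Subtype.val h1)

/-- `K · F(N M)` is finite-dimensional over `K · F(N)`. -/
theorem s34_dg_finite (hM : M.Prime) (hMN : ¬ M ∣ N) :
    Module.Finite ↥(laurentBaseChange K (modularFunctionFieldFull N))
      ↥(IntermediateField.extendScalars (s34_dg_le K (N := N) (N' := N * M) (Dvd.intro M rfl))) := by
  rw [← Module.rank_lt_aleph0_iff]
  exact lt_of_le_of_lt (s34_dg_rank_le K N M hM hMN) Cardinal.natCast_lt_aleph0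

/-- **(DEG), finrank form.** -/
theorem s34_dg_finrank_le (hM : M.Prime) (hMN : ¬ M ∣ N) :
    Module.finrank ↥(laurentBaseChange K (modularFunctionFieldFull N))
      ↥(IntermediateField.extendScalars (s34_dg_le K (N := N) (N' := N * M) (Dvd.intro M rfl))) ≤
        M + 1 :=
  Module.finrank_le_of_rank_le (s34_dg_rank_le K N M hM hMN)

/-- **(DEG), relative finrank form.** -/
theorem s34_dg_relfinrank_le (hM : M.Prime) (hMN : ¬ M ∣ N) :
    (laurentBaseChange K (modularFunctionFieldFull N)).relfinrank
      (laurentBaseChange K (modularFunctionFieldFull (N * M))) ≤ M + 1 := by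
  rw [IntermediateField.relfinrank_eq_finrank_of_le
    (s34_dg_le K (N := N) (N' := N * M) (Dvd.intro M rfl))]
  exact s34_dg_finrank_le K N M hM hMN

/-- **(DEG), for the algebra structure given by the inclusion** `K · F(N) → K · F(N M)`:
the extension is finite of degree at most `M + 1`. -/
theorem s34_dg_incl (hM : M.Prime) (hMN : ¬ M ∣ N) :
    letI := (IntermediateField.inclusion
      (s34_dg_le K (N := N) (N' := N * M) (Dvd.intro M rfl))).toRingHom.toAlgebra
    Module.Finite ↥(laurentBaseChange K (modularFunctionFieldFull N))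
        ↥(laurentBaseChange K (modularFunctionFieldFull (N * M))) ∧
      Module.finrank ↥(laurentBaseChange K (modularFunctionFieldFull N))
        ↥(laurentBaseChange K (modularFunctionFieldFull (N * M))) ≤ M + 1 := by
  letI := (IntermediateField.inclusion
    (s34_dg_le K (N := N) (N' := N * M) (Dvd.intro M rfl))).toRingHom.toAlgebra
  let e : ↥(IntermediateField.extendScalars
      (s34_dg_le K (N := N) (N' := N * M) (Dvd.intro M rfl))) ≃ₗ[
      ↥(laurentBaseChange K (modularFunctionFieldFull N))]
      ↥(laurentBaseChange K (modularFunctionFieldFull (N * M))) :=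
    { toFun := fun x => ⟨x.1, x.2⟩
      invFun := fun x => ⟨x.1, x.2⟩
      map_add' := fun _ _ => rfl
      map_smul' := fun _ _ => rfl
      left_inv := fun _ => rfl
      right_inv := fun _ => rfl }
  have hfin := s34_dg_finite K N M hM hMN
  exact ⟨Module.Finite.equiv e, by rw [← e.finrank_eq]; exact s34_dg_finrank_le K N M hM hMN⟩

end Modular

end Fermat.Agent.S34
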