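import Mathlib

/-!
# S34 (NODE), leaf (EXT): exactly two extensions of a discrete valuation

Abstract setting: `R` a discrete valuation ring with fraction field `F'`, `F / F'` a finite
separable extension of degree `≤ q + 1` (`q` prime), and two distinct valuation subrings
`Vinf`, `V0` of `F` dominating `R`, such that the residue field of `V0` contains a `q`-th root of
an element which is not a `q`-th power in the residue field of `R`.

Then `Vinf` and `V0` are the only valuation rings of `F` above `R`: the integral closure of `R` in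
`F` is `Vinf ∩ V0`, a uniformizer of `R` stays a uniformizer in `Vinf` and in `V0`, and the residue
field of `Vinf` is that of `R`.
-/

set_option autoImplicit false

namespace Fermat.Agent.S34

open IsDedekindDomain

/-- A valuation subring containing `R` contains every element integral over `R`. -/
theorem s34_ext_mem_of_integral {R F : Type*} [CommRing R] [Field F] [Algebra R F]
    (V : ValuationSubring F) (hRV : ∀ r : R, algebraMap R F r ∈ V)
    {x : F} (hx : IsIntegral R x) : x ∈ V := by
  let φ : R →+* V := (algebraMap R F).codRestrict V hRV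
  let _ : Algebra R V := φ.toAlgebra
  have : IsScalarTower R V F := IsScalarTower.of_algebraMap_eq (fun _ => rfl)
  have h1 : IsIntegral V x := hx.tower_top
  obtain ⟨y, rfl⟩ := IsIntegrallyClosed.isIntegral_iff.mp h1
  exact y.2

/-- A valuation subring of the fraction field of a Dedekind domain `S` which contains `S` and is
not the whole field is the valuation ring of a height one prime of `S`. -/
theorem s34_ext_dedekind_val {S F : Type*} [CommRing S] [IsDedekindDomain S] [Field F]
    [Algebra S F] [IsFractionRing S F] (V : ValuationSubring F)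
    (hSV : ∀ s : S, algebraMap S F s ∈ V)
    (hne : ∃ s : S, s ≠ 0 ∧ V.valuation (algebraMap S F s) < 1) :
    ∃ v : HeightOneSpectrum S,
      (∀ s : S, s ∈ v.asIdeal ↔ V.valuation (algebraMap S F s) < 1) ∧
      (∀ x : F, x ∈ V ↔ v.valuation F x ≤ 1) ∧
      (∀ x : F, V.valuation x < 1 ↔ v.valuation F x < 1) := by
  let φ : S →+* V := (algebraMap S F).codRestrict V hSV
  let P : Ideal S := (IsLocalRing.maximalIdeal V).comap φ
  have hP : ∀ s : S, s ∈ P ↔ V.valuation (algebraMap S F s) < 1 := fun s => by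
    rw [Ideal.mem_comap, ValuationSubring.valuation_lt_one_iff]; rfl
  have hP0 : P ≠ ⊥ := by
    obtain ⟨s, hs0, hs⟩ := hne
    intro h
    have h1 : s ∈ P := (hP s).2 hs
    rw [h, Ideal.mem_bot] at h1
    exact hs0 h1
  let v : HeightOneSpectrum S := ⟨P, Ideal.comap_isPrime _ _, hP0⟩
  have hmem : ∀ x : F, x ∈ V ↔ v.valuation F x ≤ 1 := by
    intro x
    constructor
    · intro hx
      by_contra hlt
      rw [not_le] at hlt
      have hx0 : x ≠ 0 := by
        rintro rfl
        simp at hlt
      have hvx0 : v.valuation F x ≠ 0 := (Valuation.ne_zero_iff _).2 hx0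
      have h1 : v.valuation F x⁻¹ < 1 := by
        rw [map_inv₀]
        exact inv_lt_one_of_one_lt₀ hlt
      obtain ⟨n, d, hnd⟩ := v.exists_primeCompl_mul_eq_of_integer x⁻¹ h1.le
      have hd : v.valuation F (algebraMap S F d) = 1 :=
        (HeightOneSpectrum.valuation_eq_one_iff_notMem v).2 d.2
      have hn : v.valuation F (algebraMap S F n) < 1 := by
        rw [← hnd, map_mul, hd, mul_one]
        exact h1
      have hnP : n ∈ P := (v.valuation_lt_one_iff_mem n).1 hn
      have hnV := (hP n).1 hnP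
      have hxn : algebraMap S F d = x * algebraMap S F n := by
        rw [← hnd, ← mul_assoc, mul_inv_cancel₀ hx0, one_mul]
      have hdV : V.valuation (algebraMap S F d) < 1 := by
        rw [hxn, map_mul]
        calc V.valuation x * V.valuation (algebraMap S F n)
            ≤ 1 * V.valuation (algebraMap S F n) :=
              mul_le_mul_left ((V.valuation_le_one_iff x).2 hx) _
          _ < 1 := by rw [one_mul]; exact hnV
      exact d.2 ((hP d).2 hdV)
    · intro hx
      obtain ⟨n, d, hnd⟩ := v.exists_primeCompl_mul_eq_of_integer x hx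
      have hd1 : V.valuation (algebraMap S F d) = 1 := by
        rcases lt_or_eq_of_le ((V.valuation_le_one_iff _).2 (hSV d)) with h | h
        · exact absurd ((hP d).2 h) d.2
        · exact h
      rw [← V.valuation_le_one_iff]
      have h2 : V.valuation x = V.valuation (algebraMap S F n) := by
        rw [← hnd, map_mul, hd1, mul_one]
      rw [h2]
      exact (V.valuation_le_one_iff _).2 (hSV n)
  refine ⟨v, hP, hmem, fun x => ?_⟩
  by_cases hx0 : x = 0
  · subst hx0
    simp
  · have e1 : V.valuation x < 1 ↔ ¬ V.valuation x⁻¹ ≤ 1 := by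
      rw [map_inv₀, not_le, one_lt_inv₀ (zero_lt_iff.2 ((Valuation.ne_zero_iff _).2 hx0))]
    have e2 : v.valuation F x < 1 ↔ ¬ v.valuation F x⁻¹ ≤ 1 := by
      rw [map_inv₀, not_le, one_lt_inv₀ (zero_lt_iff.2 ((Valuation.ne_zero_iff _).2 hx0))]
    rw [e1, e2, V.valuation_le_one_iff, hmem]

/-- The counting step: if `∑ e f ≤ q + 1` over a finite set containing `a ≠ b`, all `e, f ≥ 1`,
and `f b ≥ q`, then `e a = f a = e b = 1` and there is no third element. -/
theorem s34_ext_count {ι : Type*} [DecidableEq ι] (T : Finset ι) (e f : ι → ℕ) (q : ℕ) (a b : ι)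
    (ha : a ∈ T) (hb : b ∈ T) (hab : a ≠ b) (he : ∀ i ∈ T, 1 ≤ e i) (hf : ∀ i ∈ T, 1 ≤ f i)
    (hq : 1 ≤ q) (hfb : q ≤ f b) (hsum : ∑ i ∈ T, e i * f i ≤ q + 1) :
    e a = 1 ∧ f a = 1 ∧ e b = 1 ∧ ∀ i ∈ T, i = a ∨ i = b := by
  have hb' : b ∈ T.erase a := Finset.mem_erase.2 ⟨hab.symm, hb⟩
  rw [← Finset.add_sum_erase T _ ha, ← Finset.add_sum_erase (T.erase a) _ hb'] at hsum
  have h1 : 1 ≤ e a * f a := Nat.mul_pos (he a ha) (hf a ha)
  have h2 : q * e b ≤ e b * f b := by
    rw [mul_comm]
    exact Nat.mul_le_mul_left _ hfb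
  have h3 : q ≤ q * e b := Nat.le_mul_of_pos_right _ (he b hb)
  have hr0 : ∑ i ∈ (T.erase a).erase b, e i * f i = 0 := by omega
  have h4 : e a * f a = 1 := by omega
  have h5 : q * e b ≤ q := by omega
  have h6 : e b ≤ 1 := by
    by_contra h
    have : q * 2 ≤ q * e b := Nat.mul_le_mul_left _ (by omega)
    omega
  have h9 : e a = 1 ∧ f a = 1 := by
    have hea := he a ha
    have hfa := hf a ha
    rcases Nat.lt_or_ge 1 (e a) with h | h
    · have : 2 * 1 ≤ e a * f a := Nat.mul_le_mul h hfa
      omega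
    · have hea1 : e a = 1 := le_antisymm h hea
      rw [hea1, one_mul] at h4
      exact ⟨hea1, h4⟩
  refine ⟨h9.1, h9.2, le_antisymm h6 (he b hb), ?_⟩
  intro i hi
  by_contra hcon
  rw [not_or] at hcon
  have hi' : i ∈ (T.erase a).erase b :=
    Finset.mem_erase.2 ⟨hcon.2, Finset.mem_erase.2 ⟨hcon.1, hi⟩⟩
  have h7 := (Finset.sum_eq_zero_iff.1 hr0) i hi'
  have h8 : 1 ≤ e i * f i := Nat.mul_pos (he i hi) (hf i hi)
  omega

/-- `ϖ⁻¹ ∉ V` means `ϖ` has valuation `< 1`. -/
theorem s34_ext_val_lt_one {F : Type*} [Field F] (V : ValuationSubring F) {x : F}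
    (hx : x⁻¹ ∉ V) : V.valuation x < 1 := by
  by_contra h
  rw [not_lt] at h
  apply hx
  rw [← V.valuation_le_one_iff, map_inv₀]
  exact inv_le_one_of_one_le₀ h

/-- The prime of the integral closure attached to a valuation subring dominating the discrete
valuation ring `R`, with its basic properties. -/
theorem s34_ext_prime {R F : Type*} [CommRing R] [IsDomain R] [IsDiscreteValuationRing R]
    [Field F] [Algebra R F] [FaithfulSMul R F] [IsDedekindDomain (integralClosure R F)]
    [IsFractionRing (integralClosure R F) F]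
    {ϖ : R} (hϖ : Irreducible ϖ) (V : ValuationSubring F)
    (hRV : ∀ r : R, algebraMap R F r ∈ V) (hϖV : (algebraMap R F ϖ)⁻¹ ∉ V) :
    ∃ v : HeightOneSpectrum (integralClosure R F),
      (∀ s : integralClosure R F, s ∈ v.asIdeal ↔ V.valuation (s : F) < 1) ∧
      (∀ x : F, x ∈ V ↔ v.valuation F x ≤ 1) ∧
      (∀ x : F, V.valuation x < 1 ↔ v.valuation F x < 1) ∧
      v.asIdeal.LiesOver (IsLocalRing.maximalIdeal R) := by
  have hinj : Function.Injective (algebraMap R F) := FaithfulSMul.algebraMap_injective R F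
  have hSV : ∀ s : integralClosure R F, algebraMap (integralClosure R F) F s ∈ V :=
    fun s => s34_ext_mem_of_integral V hRV s.2
  have hϖlt := s34_ext_val_lt_one V hϖV
  obtain ⟨v, hv1, hv2, hv3⟩ := s34_ext_dedekind_val V hSV
    ⟨algebraMap R (integralClosure R F) ϖ, fun h => hϖ.ne_zero (hinj (by
      have := congrArg (algebraMap (integralClosure R F) F) h
      rwa [← IsScalarTower.algebraMap_apply, map_zero, ← map_zero (algebraMap R F)] at this)),
      by rw [← IsScalarTower.algebraMap_apply]; exact hϖlt⟩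
  refine ⟨v, hv1, hv2, hv3, ⟨?_⟩⟩
  ext r
  rw [Ideal.under_def, Ideal.mem_comap, hv1]
  change _ ↔ V.valuation (algebraMap R F r) < 1
  constructor
  · intro hr
    rw [hϖ.maximalIdeal_eq, Ideal.mem_span_singleton'] at hr
    obtain ⟨a, rfl⟩ := hr
    rw [map_mul, map_mul]
    calc V.valuation (algebraMap R F a) * V.valuation (algebraMap R F ϖ)
        ≤ 1 * V.valuation (algebraMap R F ϖ) :=
          mul_le_mul_left ((V.valuation_le_one_iff _).2 (hRV a)) _
      _ < 1 := by rw [one_mul]; exact hϖlt
  · intro hr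
    by_contra hnot
    have hu : IsUnit r := by
      by_contra hnu
      exact hnot ((IsLocalRing.mem_maximalIdeal r).2 hnu)
    obtain ⟨u, rfl⟩ := hu
    have h1 : V.valuation (algebraMap R F (u : R)) * V.valuation (algebraMap R F ((u⁻¹ : Rˣ) : R))
        = 1 := by
      rw [← map_mul, ← map_mul, Units.mul_inv, map_one, map_one]
    have h2 : V.valuation (algebraMap R F ((u⁻¹ : Rˣ) : R)) ≤ 1 :=
      (V.valuation_le_one_iff _).2 (hRV _)
    have h3 : V.valuation (algebraMap R F (u : R)) * V.valuation (algebraMap R F ((u⁻¹ : Rˣ) : R))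
        < 1 := by
      calc V.valuation (algebraMap R F (u : R)) * V.valuation (algebraMap R F ((u⁻¹ : Rˣ) : R))
          ≤ V.valuation (algebraMap R F (u : R)) * 1 := mul_le_mul_right h2 _
        _ < 1 := by rw [mul_one]; exact hr
    exact absurd h1 (ne_of_lt h3)

/-- Lower bound for a residue degree: a root of `X ^ q - c` with `c` not a `q`-th power. -/
theorem s34_ext_inertia_ge {R S : Type*} [CommRing R] [CommRing S] [Algebra R S]
    [Module.Finite R S] (p : Ideal R) [p.IsMaximal] (P : Ideal S) [P.IsPrime] [P.LiesOver p]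
    (q : ℕ) (hq : q.Prime) (c : R) (s : S) (hs : s ^ q - algebraMap R S c ∈ P)
    (hc : ∀ d : R, d ^ q - c ∉ p) :
    q ≤ Module.finrank (R ⧸ p) (S ⧸ P) := by
  let _ := Ideal.Quotient.field p
  have hirr : Irreducible
      (Polynomial.X ^ q - Polynomial.C (Ideal.Quotient.mk p c) : Polynomial (R ⧸ p)) := by
    apply X_pow_sub_C_irreducible_of_prime hq
    intro b hb
    obtain ⟨d, rfl⟩ := Ideal.Quotient.mk_surjective b
    rw [← map_pow, Ideal.Quotient.eq] at hb
    exact hc d hb
  have hroot : Polynomial.aeval (Ideal.Quotient.mk P s)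
      (Polynomial.X ^ q - Polynomial.C (Ideal.Quotient.mk p c) : Polynomial (R ⧸ p)) = 0 := by
    rw [map_sub, map_pow, Polynomial.aeval_X, Polynomial.aeval_C,
      Ideal.Quotient.algebraMap_mk_of_liesOver, ← map_pow, ← map_sub,
      Ideal.Quotient.eq_zero_iff_mem]
    exact hs
  have hmonic : (Polynomial.X ^ q - Polynomial.C (Ideal.Quotient.mk p c) :
      Polynomial (R ⧸ p)).Monic := Polynomial.monic_X_pow_sub_C _ hq.ne_zero
  have hmin := minpoly.eq_of_irreducible_of_monic hirr hroot hmonic
  have hdeg : (minpoly (R ⧸ p) (Ideal.Quotient.mk P s)).natDegree = q := by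
    rw [← hmin, Polynomial.natDegree_X_pow_sub_C]
  rw [← hdeg]
  exact minpoly.natDegree_le _

/-- Residue degree one: every element is congruent to an element of the base. -/
theorem s34_ext_inertia_one {R S : Type*} [CommRing R] [CommRing S] [Algebra R S]
    (p : Ideal R) [p.IsMaximal] (P : Ideal S) [P.IsPrime] [P.LiesOver p]
    (h : Module.finrank (R ⧸ p) (S ⧸ P) = 1) (s : S) :
    ∃ r : R, s - algebraMap R S r ∈ P := by
  let _ := Ideal.Quotient.field p
  have h1 : (⊥ : Subalgebra (R ⧸ p) (S ⧸ P)) = ⊤ := Subalgebra.bot_eq_top_of_finrank_eq_one h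
  have h2 : Ideal.Quotient.mk P s ∈ (⊥ : Subalgebra (R ⧸ p) (S ⧸ P)) := by
    rw [h1]; exact Algebra.mem_top
  obtain ⟨y, hy⟩ := Algebra.mem_bot.1 h2
  obtain ⟨r, rfl⟩ := Ideal.Quotient.mk_surjective y
  refine ⟨r, ?_⟩
  rw [Ideal.Quotient.algebraMap_mk_of_liesOver] at hy
  exact Ideal.Quotient.eq.1 hy.symm

/-- If `v ϖ = exp (-1)` then `ϖ` divides every element of valuation `< 1`. -/
theorem s34_ext_unif {S F : Type*} [CommRing S] [IsDedekindDomain S] [Field F]
    [Algebra S F] [IsFractionRing S F] (v : HeightOneSpectrum S) (ϖ : S)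
    (hϖ : v.intValuation ϖ = WithZero.exp (-1 : ℤ)) (y : F) (hy : v.valuation F y < 1) :
    v.valuation F ((algebraMap S F ϖ)⁻¹ * y) ≤ 1 := by
  have hvϖ : v.valuation F (algebraMap S F ϖ) = WithZero.exp (-1 : ℤ) := by
    rw [HeightOneSpectrum.valuation_of_algebraMap, hϖ]
  have hyle : v.valuation F y ≤ WithZero.exp (-1 : ℤ) := by
    obtain ⟨n, d, hnd⟩ := v.exists_primeCompl_mul_eq_of_integer y hy.le
    have hd : v.valuation F (algebraMap S F (d : S)) = 1 :=
      (HeightOneSpectrum.valuation_eq_one_iff_notMem v).2 d.2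
    have h4 : v.valuation F y = v.valuation F (algebraMap S F n) := by
      rw [← hnd, map_mul, hd, mul_one]
    have hn : n ∈ v.asIdeal := by
      rw [← v.valuation_lt_one_iff_mem (K := F), ← h4]
      exact hy
    rw [h4, HeightOneSpectrum.valuation_of_algebraMap]
    have h5 := (v.intValuation_le_pow_iff_mem n 1).2 (by rwa [pow_one])
    simpa using h5
  have h0 : v.valuation F (algebraMap S F ϖ) ≠ 0 := by
    rw [hvϖ]
    exact WithZero.exp_ne_zero
  rw [map_mul, map_inv₀]
  calc (v.valuation F (algebraMap S F ϖ))⁻¹ * v.valuation F y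
      ≤ (v.valuation F (algebraMap S F ϖ))⁻¹ * v.valuation F (algebraMap S F ϖ) :=
        mul_le_mul_right (hvϖ ▸ hyle) _
    _ = 1 := inv_mul_cancel₀ h0

set_option linter.deprecated false in
/-- Ramification index one: the uniformizer downstairs has valuation `exp (-1)` upstairs. -/
theorem s34_ext_val_unif {R S : Type*} [CommRing R] [CommRing S] [IsDedekindDomain S]
    [Algebra R S] (p : Ideal R) (ϖ : R) (hp : p = Ideal.span {ϖ})
    (hϖ : algebraMap R S ϖ ≠ 0) (v : HeightOneSpectrum S)
    (he : Ideal.ramificationIdx' p v.asIdeal = 1) :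
    v.intValuation (algebraMap R S ϖ) = WithZero.exp (-1 : ℤ) := by
  have hmap : Ideal.map (algebraMap R S) p = Ideal.span {algebraMap R S ϖ} := by
    rw [hp, Ideal.map_span, Set.image_singleton]
  have hmap0 : Ideal.map (algebraMap R S) p ≠ ⊥ := by
    rw [hmap, Ne, Ideal.span_singleton_eq_bot]
    exact hϖ
  rw [HeightOneSpectrum.intValuation_eq_exp_neg_multiplicity _ hϖ, ← hmap,
    ← Ideal.IsDedekindDomain.ramificationIdx'_eq_multiplicity hmap0 v.isPrime, he]
  simp

set_option linter.deprecated false in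
/-- **Two extensions.**  `R` a discrete valuation ring with uniformizer `ϖ` and fraction field
`F'`, `F / F'` finite separable of degree `≤ q + 1`, `Vinf ≠ V0` two valuation subrings of `F`
dominating `R`, and `θ ∈ V0`, `c ∈ R` with `θ ^ q ≡ c` modulo the maximal ideal of `V0` while `c`
is not a `q`-th power modulo `ϖ`.  Then:

* an element of `Vinf ∩ V0` is integral over `R`;
* `ϖ` is a uniformizer of `Vinf` and of `V0`;
* the residue field of `Vinf` is that of `R`. -/
theorem s34_ext_main {R F' F : Type*} [CommRing R] [IsDomain R] [IsDiscreteValuationRing R]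
    [Field F'] [Field F] [Algebra R F'] [IsFractionRing R F'] [Algebra F' F] [Algebra R F]
    [IsScalarTower R F' F] [FiniteDimensional F' F] [Algebra.IsSeparable F' F]
    (q : ℕ) (hq : q.Prime) (hdeg : Module.finrank F' F ≤ q + 1)
    {ϖ : R} (hϖ : Irreducible ϖ)
    (Vinf V0 : ValuationSubring F) (hne : Vinf ≠ V0)
    (hRinf : ∀ r : R, algebraMap R F r ∈ Vinf) (hϖinf : (algebraMap R F ϖ)⁻¹ ∉ Vinf)
    (hR0 : ∀ r : R, algebraMap R F r ∈ V0) (hϖ0 : (algebraMap R F ϖ)⁻¹ ∉ V0)
    (θ : F) (c : R) (hθ : θ ∈ V0) (hθc : V0.valuation (θ ^ q - algebraMap R F c) < 1)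
    (hc : ∀ d : R, IsUnit (d ^ q - c)) :
    (∀ x : F, x ∈ Vinf → x ∈ V0 → IsIntegral R x) ∧
    (∀ y : F, Vinf.valuation y < 1 → (algebraMap R F ϖ)⁻¹ * y ∈ Vinf) ∧
    (∀ y : F, V0.valuation y < 1 → (algebraMap R F ϖ)⁻¹ * y ∈ V0) ∧
    (∀ y ∈ Vinf, ∃ r : R, (algebraMap R F ϖ)⁻¹ * (y - algebraMap R F r) ∈ Vinf) := by
  classical
  have : IsDedekindDomain (integralClosure R F) := integralClosure.isDedekindDomain R F' F
  have : IsFractionRing (integralClosure R F) F :=
    integralClosure.isFractionRing_of_finite_extension F' F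
  have : Module.Finite R (integralClosure R F) := IsIntegralClosure.finite R F' F _
  have hinj : Function.Injective (algebraMap R F) := by
    rw [IsScalarTower.algebraMap_eq R F' F]
    exact (algebraMap F' F).injective.comp (IsFractionRing.injective R F')
  have : FaithfulSMul R F := (faithfulSMul_iff_algebraMap_injective R F).2 hinj
  set p := IsLocalRing.maximalIdeal R with hp
  have hp0 : p ≠ ⊥ := IsDiscreteValuationRing.not_a_field R
  obtain ⟨vinf, hi1, hi2, hi3, hi4⟩ := s34_ext_prime hϖ Vinf hRinf hϖinf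
  obtain ⟨v0, hz1, hz2, hz3, hz4⟩ := s34_ext_prime hϖ V0 hR0 hϖ0
  have hvne : vinf.asIdeal ≠ v0.asIdeal := by
    intro h
    have h' : vinf = v0 := HeightOneSpectrum.ext h
    apply hne
    ext x
    rw [hi2, hz2, h']
  have hTinf : vinf.asIdeal ∈ IsDedekindDomain.primesOverFinset p (integralClosure R F) :=
    (IsDedekindDomain.mem_primesOverFinset_iff hp0 _).2 ⟨vinf.isPrime, hi4⟩
  have hT0 : v0.asIdeal ∈ IsDedekindDomain.primesOverFinset p (integralClosure R F) :=
    (IsDedekindDomain.mem_primesOverFinset_iff hp0 _).2 ⟨v0.isPrime, hz4⟩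
  have hsum := Ideal.sum_ramification_inertia (integralClosure R F) F' F hp0
  have he : ∀ P ∈ IsDedekindDomain.primesOverFinset p (integralClosure R F),
      1 ≤ Ideal.ramificationIdx' p P := by
    intro P hP
    obtain ⟨hP1, hP2⟩ := (IsDedekindDomain.mem_primesOverFinset_iff hp0 _).1 hP
    exact Nat.one_le_iff_ne_zero.2 (Ideal.IsDedekindDomain.ramificationIdx'_ne_zero_of_liesOver P hp0)
  have hf : ∀ P ∈ IsDedekindDomain.primesOverFinset p (integralClosure R F),
      1 ≤ Ideal.inertiaDeg' p P := by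
    intro P hP
    obtain ⟨hP1, hP2⟩ := (IsDedekindDomain.mem_primesOverFinset_iff hp0 _).1 hP
    exact Ideal.inertiaDeg'_pos p P
  have hf0 : q ≤ Ideal.inertiaDeg' p v0.asIdeal := by
    rw [Ideal.inertiaDeg'_algebraMap]
    obtain ⟨s0, hs0⟩ := v0.exists_valuation_sub_lt_of_integer ((hz2 θ).1 hθ) 1
    refine s34_ext_inertia_ge p v0.asIdeal q hq c s0 ?_ ?_
    · rw [hz1]
      have hs0V : (s0 : F) ∈ V0 := s34_ext_mem_of_integral V0 hR0 s0.2
      let a : V0 := ⟨(s0 : F), hs0V⟩
      let b : V0 := ⟨θ, hθ⟩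
      let c' : V0 := ⟨algebraMap R F c, hR0 c⟩
      have hab : a - b ∈ IsLocalRing.maximalIdeal V0 := by
        rw [ValuationSubring.valuation_lt_one_iff, hz3]
        simpa using hs0
      have hbc : b ^ q - c' ∈ IsLocalRing.maximalIdeal V0 := by
        rw [ValuationSubring.valuation_lt_one_iff]
        exact hθc
      have hac : a ^ q - c' ∈ IsLocalRing.maximalIdeal V0 := by
        have h1 : a ^ q - c' = (a ^ q - b ^ q) + (b ^ q - c') := by ring
        rw [h1]
        exact Ideal.add_mem _ (Ideal.mem_of_dvd _ (sub_dvd_pow_sub_pow a b q) hab) hbc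
      rw [ValuationSubring.valuation_lt_one_iff] at hac
      exact hac
    · intro d hd
      exact (IsLocalRing.mem_maximalIdeal _).1 hd (hc d)
  obtain ⟨hei, hfi, he0, hall⟩ := s34_ext_count
    (IsDedekindDomain.primesOverFinset p (integralClosure R F))
    (fun P => Ideal.ramificationIdx' p P) (fun P => Ideal.inertiaDeg' p P) q
    vinf.asIdeal v0.asIdeal hTinf hT0 hvne he hf hq.one_le hf0 (hsum.trans_le hdeg)
  have hϖS0 : algebraMap R (integralClosure R F) ϖ ≠ 0 := by
    intro h
    have h2 := congrArg (algebraMap (integralClosure R F) F) h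
    rw [← IsScalarTower.algebraMap_apply, map_zero, ← map_zero (algebraMap R F)] at h2
    exact hϖ.ne_zero (hinj h2)
  have huni : ∀ (V : ValuationSubring F) (v : HeightOneSpectrum (integralClosure R F)),
      (∀ x : F, x ∈ V ↔ v.valuation F x ≤ 1) →
      (∀ x : F, V.valuation x < 1 ↔ v.valuation F x < 1) →
      Ideal.ramificationIdx' p v.asIdeal = 1 →
      ∀ y : F, V.valuation y < 1 → (algebraMap R F ϖ)⁻¹ * y ∈ V := by
    intro V v h2 h3 he1 y hy
    rw [h2, IsScalarTower.algebraMap_apply R (integralClosure R F) F]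
    exact s34_ext_unif v _ (s34_ext_val_unif p ϖ hϖ.maximalIdeal_eq hϖS0 v he1) y ((h3 y).1 hy)
  refine ⟨?_, huni Vinf vinf hi2 hi3 hei, huni V0 v0 hz2 hz3 he0, ?_⟩
  · intro x hxi hx0
    have hmem : x ∈ (algebraMap (integralClosure R F) F).range := by
      apply HeightOneSpectrum.mem_integers_of_valuation_le_one
      intro v
      have hvT : v.asIdeal ∈ IsDedekindDomain.primesOverFinset p (integralClosure R F) := by
        rw [IsDedekindDomain.mem_primesOverFinset_iff hp0]
        refine ⟨v.isPrime, ⟨?_⟩⟩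
        have hmax : (v.asIdeal.under R).IsMaximal :=
          Ideal.isMaximal_comap_of_isIntegral_of_isMaximal v.asIdeal
        exact (IsLocalRing.eq_maximalIdeal hmax).symm
      rcases hall _ hvT with h | h
      · have h' : v = vinf := HeightOneSpectrum.ext h
        rw [h']
        exact (hi2 x).1 hxi
      · have h' : v = v0 := HeightOneSpectrum.ext h
        rw [h']
        exact (hz2 x).1 hx0
    obtain ⟨s, rfl⟩ := hmem
    exact s.2
  · intro y hy
    obtain ⟨a, ha⟩ := vinf.exists_valuation_sub_lt_of_integer ((hi2 y).1 hy) 1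
    obtain ⟨r, hr⟩ := s34_ext_inertia_one p vinf.asIdeal
      (by rw [← Ideal.inertiaDeg'_algebraMap]; exact hfi) a
    refine ⟨r, huni Vinf vinf hi2 hi3 hei _ ?_⟩
    rw [hi3]
    have e1 : y - algebraMap R F r
        = algebraMap (integralClosure R F) F (a - algebraMap R (integralClosure R F) r)
          - (algebraMap (integralClosure R F) F a - y) := by
      rw [map_sub, ← IsScalarTower.algebraMap_apply]
      ring
    rw [e1]
    refine lt_of_le_of_lt (Valuation.map_sub _ _ _) (max_lt ?_ ?_)
    · exact (vinf.valuation_lt_one_iff_mem _).2 hr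
    · simpa using ha

end Fermat.Agent.S34
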