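import Mathlib
import Fermat.Agent.S34.SmoothPoint

/-!
# S34, block (M), leaf (V0): the second Gauss ring `V0 = V∞.comap W`

Abstract core.  `F` a field, `ϖ : F`, `V∞ : Subring F` a discrete valuation ring with uniformizer
`ϖ` (`s34_Unif ϖ V∞`), `W : F ≃+* F` a field automorphism fixing `ϖ` (the Atkin–Lehner swap),
`V0 := V∞.comap W`.

* `s34_Unif.comap` : `V0` is again a discrete valuation ring with uniformizer `ϖ`;
* `s34_gz_T1`, `s34_gz_T2` (and the `inf` versions) : the `τ`-conditions (T1), (T2) of `NodeTau`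
  pass from `V∞` to `V0` and to `V∞ ⊓ V0` when `τ` commutes with `W`;
* `s34_gz_theta` : `θ := W t` lies in `V0` and `θ^q ≡ t mod ϖ V0` (from the Frobenius congruence
  `t^q ≡ W t mod ϖ V∞`);
* `s34_gz_ne` : `V∞ ≠ V0` (a witness in `V∞ \ V0`) from a residue map;
* `s34_gz_not_pow` : a Laurent series whose order is not divisible by `q` is not a `q`-th power.
-/

set_option autoImplicit false

namespace Fermat.Agent.S34

variable {F : Type*} [Field F] {ϖ : F}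

/-- The comap of a uniformized discrete valuation ring under a field automorphism fixing `ϖ`. -/
theorem s34_Unif.comap {V : Subring F} (hV : s34_Unif ϖ V) (W : F ≃+* F) (hW : W ϖ = ϖ) :
    s34_Unif ϖ (V.comap (W : F →+* F)) where
  mem := by
    show W ϖ ∈ V
    rw [hW]; exact hV.mem
  inv_not_mem := by
    intro h
    have h1 : W ϖ⁻¹ ∈ V := h
    rw [map_inv₀, hW] at h1
    exact hV.inv_not_mem h1
  decomp := by
    intro x hx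
    have hWx : W x ≠ 0 := fun h0 => hx (by simpa using h0)
    obtain ⟨j, u, hu, hu', hxu⟩ := hV.decomp (W x) hWx
    refine ⟨j, W.symm u, ?_, ?_, ?_⟩
    · show W (W.symm u) ∈ V
      rw [RingEquiv.apply_symm_apply]; exact hu
    · show W (W.symm u)⁻¹ ∈ V
      rw [map_inv₀, RingEquiv.apply_symm_apply]; exact hu'
    · apply W.injective
      rw [map_mul, map_zpow₀, hW, RingEquiv.apply_symm_apply]
      exact hxu

section Tau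

variable {V : Subring F} (W τ : F ≃+* F)

/-- (T1) for `V.comap W`. -/
theorem s34_gz_T1 (hWτ : ∀ x : F, W (τ x) = τ (W x))
    (hT1 : ∀ x : F, x ≠ 0 → τ x / x ∈ V ∧ x / τ x ∈ V) (x : F) (hx : x ≠ 0) :
    τ x / x ∈ V.comap (W : F →+* F) ∧ x / τ x ∈ V.comap (W : F →+* F) := by
  have hWx : W x ≠ 0 := fun h0 => hx (by simpa using h0)
  obtain ⟨h1, h2⟩ := hT1 (W x) hWx
  refine ⟨?_, ?_⟩
  · show W (τ x / x) ∈ V
    rw [map_div₀, hWτ]; exact h1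
  · show W (x / τ x) ∈ V
    rw [map_div₀, hWτ]; exact h2

/-- (T2) for `V.comap W`. -/
theorem s34_gz_T2 (hW : W ϖ = ϖ) (hWτ : ∀ x : F, W (τ x) = τ (W x))
    (hT2 : ∀ x ∈ V, ϖ⁻¹ * (τ x - x) ∈ V) (x : F) (hx : x ∈ V.comap (W : F →+* F)) :
    ϖ⁻¹ * (τ x - x) ∈ V.comap (W : F →+* F) := by
  show W (ϖ⁻¹ * (τ x - x)) ∈ V
  rw [map_mul, map_inv₀, hW, map_sub, hWτ]
  exact hT2 (W x) hx

/-- (T1) for `V ⊓ V.comap W`. -/
theorem s34_gz_T1_inf (hWτ : ∀ x : F, W (τ x) = τ (W x))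
    (hT1 : ∀ x : F, x ≠ 0 → τ x / x ∈ V ∧ x / τ x ∈ V) (x : F) (hx : x ≠ 0) :
    τ x / x ∈ V ⊓ V.comap (W : F →+* F) ∧ x / τ x ∈ V ⊓ V.comap (W : F →+* F) :=
  ⟨⟨(hT1 x hx).1, (s34_gz_T1 W τ hWτ hT1 x hx).1⟩, ⟨(hT1 x hx).2, (s34_gz_T1 W τ hWτ hT1 x hx).2⟩⟩

/-- (T2) for `V ⊓ V.comap W`. -/
theorem s34_gz_T2_inf (hW : W ϖ = ϖ) (hWτ : ∀ x : F, W (τ x) = τ (W x))
    (hT2 : ∀ x ∈ V, ϖ⁻¹ * (τ x - x) ∈ V) (x : F) (hx : x ∈ V ⊓ V.comap (W : F →+* F)) :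
    ϖ⁻¹ * (τ x - x) ∈ V ⊓ V.comap (W : F →+* F) :=
  ⟨hT2 x hx.1, s34_gz_T2 W τ hW hWτ hT2 x hx.2⟩

end Tau

section Theta

variable {V : Subring F} (W : F ≃+* F)

/-- `θ := W t` lies in `V0 = V.comap W` and satisfies `θ^q ≡ t mod ϖ V0`, given the Frobenius
congruence `t^q ≡ W t mod ϖ V` at infinity. -/
theorem s34_gz_theta (hW : W ϖ = ϖ) (t : F) (ht : t ∈ V) (hWW : W (W t) = t) (q : ℕ)
    (hfrob : ϖ⁻¹ * (t ^ q - W t) ∈ V) :
    W t ∈ V.comap (W : F →+* F) ∧ ϖ⁻¹ * ((W t) ^ q - t) ∈ V.comap (W : F →+* F) := by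
  refine ⟨?_, ?_⟩
  · show W (W t) ∈ V
    rw [hWW]; exact ht
  · show W (ϖ⁻¹ * ((W t) ^ q - t)) ∈ V
    rw [map_mul, map_inv₀, hW, map_sub, map_pow, hWW]
    exact hfrob

/-- `V ≠ V.comap W`: the element `ϖ⁻¹ (t^q - W t)` lies in `V` but not in `V.comap W`, as soon as
the residue `ρ t` of `t` satisfies `ρ(t)^(q²) ≠ ρ(t)`. -/
theorem s34_gz_ne (hW : W ϖ = ϖ) (t : F) (ht : t ∈ V)
    (hWt : W t ∈ V) (hWW : W (W t) = t) (q : ℕ)
    (hfrob : ϖ⁻¹ * (t ^ q - W t) ∈ V)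
    {κ : Type*} [CommRing κ] (ρ : V →+* κ)
    (hρ : ∀ x : V, ϖ⁻¹ * (x : F) ∈ V → ρ x = 0)
    (hρt : ρ ⟨t, ht⟩ ^ (q ^ 2) ≠ ρ ⟨t, ht⟩) :
    ϖ⁻¹ * (t ^ q - W t) ∈ V ∧ ϖ⁻¹ * (t ^ q - W t) ∉ V.comap (W : F →+* F) := by
  refine ⟨hfrob, fun hcon => ?_⟩
  have h1 : W (ϖ⁻¹ * (t ^ q - W t)) ∈ V := hcon
  rw [map_mul, map_inv₀, hW, map_sub, map_pow, hWW] at h1
  -- `ρ (W t) = ρ t ^ q` and `ρ t = ρ (W t) ^ q`
  have e1 : ρ ⟨t, ht⟩ ^ q - ρ ⟨W t, hWt⟩ = 0 := by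
    have := hρ (⟨t, ht⟩ ^ q - ⟨W t, hWt⟩) (by
      simpa only [AddSubgroupClass.coe_sub, Subring.coe_pow] using hfrob)
    rwa [map_sub, map_pow] at this
  have e2 : ρ ⟨W t, hWt⟩ ^ q - ρ ⟨t, ht⟩ = 0 := by
    have := hρ (⟨W t, hWt⟩ ^ q - ⟨t, ht⟩) (by
      simpa only [AddSubgroupClass.coe_sub, Subring.coe_pow] using h1)
    rwa [map_sub, map_pow] at this
  apply hρt
  rw [sub_eq_zero] at e1 e2
  rw [pow_two, pow_mul, e1, e2]

end Theta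

end Fermat.Agent.S34
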