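import Mathlib
import Fermat.Agent.S37.EsFrob
import Fermat.Prelude.Thm_ModularCurve_coeffMap_qExpand

/-!
# S34, block (M), leaf (V0): Laurent series input

* `s34_gz_frob_int` : the Frobenius congruence `T(q)^ℓ ≡ T(q^ℓ) mod ℓ` for an integral `q`-series;
* `s34_gz_frob_ring` : the same after a base change `ℤ → R` with `ℓ = π * c` in `R`:
  `T^ℓ - T(q^ℓ) = C π * Y` in `R((q))`;
* `s34_gz_not_pow` : a Laurent series over a domain whose order is not divisible by `ℓ` is not an
  `ℓ`-th power;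
* `s34_gz_pow_ne` : a Laurent series of nonzero order `e` over a domain satisfies `x ^ n ≠ x` for
  `n ≥ 2`;
* `s34_gz_order_leading` : the order of a series with leading term `q^e`.
-/

set_option autoImplicit false

open ModularCurve

noncomputable section

namespace Fermat.Agent.S34

open Fermat.Agent.S37

/-- The Frobenius congruence for integral `q`-series: all coefficients of `T^ℓ - T(q^ℓ)` are
divisible by `ℓ`. -/
theorem s34_gz_frob_coeff (ℓ : ℕ) [Fact ℓ.Prime] (T : LaurentSeries ℤ) (n : ℤ) :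
    (ℓ : ℤ) ∣ (T ^ ℓ - qExpand ℤ ℓ T).coeff n := by
  haveI : NeZero ℓ := ⟨(Fact.out : ℓ.Prime).ne_zero⟩
  have h1 : coeffMap (Int.castRingHom (ZMod ℓ)) (T ^ ℓ - qExpand ℤ ℓ T) = 0 := by
    rw [map_sub, map_pow, coeffMap_qExpand, s37_ec_pow_char ℓ, sub_eq_zero]
    congr 1
    ext k
    simp only [coeffMap_coeff]
    rw [frobenius_def, ZMod.pow_card]
  have h2 := congrArg (fun z : LaurentSeries (ZMod ℓ) => z.coeff n) h1
  simp only [coeffMap_coeff, HahnSeries.coeff_zero] at h2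
  exact (ZMod.intCast_zmod_eq_zero_iff_dvd _ _).mp h2

/-- The Frobenius congruence for integral `q`-series, with the quotient. -/
theorem s34_gz_frob_int (ℓ : ℕ) [Fact ℓ.Prime] (T : LaurentSeries ℤ) :
    ∃ Y : LaurentSeries ℤ, T ^ ℓ - qExpand ℤ ℓ T = HahnSeries.C (ℓ : ℤ) * Y := by
  haveI : NeZero ℓ := ⟨(Fact.out : ℓ.Prime).ne_zero⟩
  have hℓ0 : (ℓ : ℤ) ≠ 0 := by exact_mod_cast (Fact.out : ℓ.Prime).ne_zero
  set D := T ^ ℓ - qExpand ℤ ℓ T with hD
  refine ⟨⟨fun n => D.coeff n / (ℓ : ℤ), D.isPWO_support.mono fun n hn => ?_⟩, ?_⟩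
  · simp only [Function.mem_support, ne_eq, HahnSeries.mem_support] at hn ⊢
    intro h0
    apply hn
    rw [h0, Int.zero_ediv]
  · ext n
    rw [HahnSeries.C_mul_eq_smul, HahnSeries.coeff_smul, smul_eq_mul]
    exact (Int.mul_ediv_cancel' (s34_gz_frob_coeff ℓ T n)).symm

/-- The Frobenius congruence after base change to a ring `R` in which `ℓ = π * c`. -/
theorem s34_gz_frob_ring (ℓ : ℕ) [Fact ℓ.Prime] {R : Type*} [CommRing R] (π c : R)
    (hπ : (ℓ : R) = π * c) (T : LaurentSeries ℤ) :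
    haveI : NeZero ℓ := ⟨(Fact.out : ℓ.Prime).ne_zero⟩
    ∃ Y : LaurentSeries R, coeffMap (Int.castRingHom R) T ^ ℓ -
      qExpand R ℓ (coeffMap (Int.castRingHom R) T) = HahnSeries.C π * Y := by
  haveI : NeZero ℓ := ⟨(Fact.out : ℓ.Prime).ne_zero⟩
  obtain ⟨Y, hY⟩ := s34_gz_frob_int ℓ T
  refine ⟨HahnSeries.C c * coeffMap (Int.castRingHom R) Y, ?_⟩
  have h1 := congrArg (coeffMap (Int.castRingHom R)) hY
  rw [map_sub, map_pow, coeffMap_qExpand, map_mul] at h1
  have hC : coeffMap (Int.castRingHom R) (HahnSeries.C (ℓ : ℤ)) = HahnSeries.C (ℓ : R) := by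
    rw [HahnSeries.C_apply, coeffMap_single, HahnSeries.C_apply]
    simp
  rw [h1, hC, ← mul_assoc, ← (HahnSeries.C : R →+* LaurentSeries R).map_mul, ← hπ]

/-- A Laurent series over a domain whose order is not divisible by `ℓ` is not an `ℓ`-th power. -/
theorem s34_gz_not_pow {k : Type*} [CommRing k] [IsDomain k] (ℓ : ℕ) (x z : LaurentSeries k)
    (hℓ : ¬ (ℓ : ℤ) ∣ x.order) : z ^ ℓ ≠ x := by
  intro h
  apply hℓ
  rw [← h, HahnSeries.order_pow]
  exact ⟨z.order, by rw [nsmul_eq_mul]⟩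

/-- A Laurent series of nonzero order over a domain is not equal to its `n`-th power, `n ≥ 2`. -/
theorem s34_gz_pow_ne {k : Type*} [CommRing k] [IsDomain k] (n : ℕ) (hn : 2 ≤ n)
    (x : LaurentSeries k) (hx : x.order ≠ 0) : x ^ n ≠ x := by
  intro h
  have h1 := congrArg HahnSeries.order h
  rw [HahnSeries.order_pow, nsmul_eq_mul] at h1
  have h2 : ((n : ℤ) - 1) * x.order = 0 := by linarith
  rcases mul_eq_zero.mp h2 with h3 | h3
  · have : (n : ℤ) = 1 := by linarith
    have : n = 1 := by exact_mod_cast this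
    omega
  · exact hx h3

/-- The order of a series with leading term `c q^e`, `c ≠ 0`. -/
theorem s34_gz_order_leading {k : Type*} [CommRing k] (x : LaurentSeries k) (e : ℤ)
    (he : x.coeff e ≠ 0) (hlow : ∀ n < e, x.coeff n = 0) : x.order = e := by
  have hx0 : x ≠ 0 := HahnSeries.ne_zero_of_coeff_ne_zero he
  apply le_antisymm
  · exact HahnSeries.order_le_of_coeff_ne_zero he
  · by_contra hlt
    push Not at hlt
    exact hx0 (HahnSeries.coeff_order_eq_zero.mp (hlow _ hlt))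

end Fermat.Agent.S34
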