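import Mathlib
import Fermat.Prelude.Def_ModularCurve_HeckeOperator
import Fermat.Agent.S34.GaussInf
import Fermat.Agent.S34.GaussZero
import Fermat.Agent.S34.GaussZeroSeries

/-!
# S34, block (M), leaf (V0): the second Gauss ring in the model

`K` a field of characteristic zero, `A₁` a discrete valuation ring of `K` with uniformizer `π`,
`ℓ` a prime with `ℓ ∈ π A₁`, `N` a level, `F' = K · F_N`, `F = K · F_(N ℓ)`, `α, β : F' → F` the
two degeneracy maps (`α` the inclusion, `β = V_ℓ : f(q) ↦ f(q^ℓ)`), `V' = s34_gi_V A₁ N`,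
`V∞ = s34_gi_V A₁ (N ℓ)` (helper14's `q`-expansion Gauss rings), `ϖ = π ∈ F`.

* `s34_gz_alpha_mem_iff` : `α x ∈ V∞ ↔ x ∈ V'`   (`V∞ ∩ F' = V'`);
* `s34_gz_beta_mem_iff`  : `β x ∈ V∞ ↔ x ∈ V'`;
* `s34_gz_frob` : the Frobenius congruence `ϖ⁻¹ ((α x)^ℓ - β x) ∈ V∞` for `x` with an integral
  `q`-expansion (coefficients in `ℤ`);
* `s34_gz_not_pow_model` : such an `x` with leading term `q^e`, `ℓ ∤ e`, is not an `ℓ`-th power
  modulo `ϖ V'`: `∀ y ∈ V', ϖ⁻¹ (y^ℓ - x) ∉ V'`.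

For an automorphism `W` of `F` with `W ∘ α = β`, `W ∘ β = α`, `W ϖ = ϖ` (the Atkin–Lehner swap),
`V0 := V∞.comap W`:

* `s34_gz_V0_unif` : `V0` is a discrete valuation ring with uniformizer `ϖ`;
* `s34_gz_alpha_mem_V0_iff` : `α x ∈ V0 ↔ x ∈ V'`   (`V0 ∩ F' = V'`);
* `s34_gz_theta_model` : `θ := β x ∈ V0` and `ϖ⁻¹ (θ^ℓ - α x) ∈ V0`;
* `s34_gz_ne_model` : `V∞ ≠ V0` (an element of `V∞ \ V0`).
-/

set_option autoImplicit false
set_option linter.unusedSectionVars false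

open ModularCurve

noncomputable section

namespace Fermat.Agent.S34

open Fermat.Agent.S18

variable {K : Type*} [Field K] [Algebra ℚ K] {A₁ : ValuationSubring K}
variable {N ℓ : ℕ} [NeZero N] [NeZero ℓ]

local notation "F'" => laurentBaseChange K (modularFunctionFieldFull N)
local notation "FF" => laurentBaseChange K (modularFunctionFieldFull (N * ℓ))

/-- `V∞ ∩ F' = V'`. -/
theorem s34_gz_alpha_mem_iff (x : F') :
    heckeAlphaBar K N ℓ x ∈ s34_gi_V A₁ (N * ℓ) ↔ x ∈ s34_gi_V A₁ N := by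
  rw [s34_gi_mem_V, s34_gi_mem_V, coe_heckeAlphaBar]

/-- `β` maps `V'` into `V∞`. -/
theorem s34_gz_beta_mem {x : F'} (hx : x ∈ s34_gi_V A₁ N) :
    heckeBetaBar K N ℓ x ∈ s34_gi_V A₁ (N * ℓ) := by
  obtain ⟨s, y, hs, h⟩ := s34_gi_mem_V.mp hx
  rw [s34_gi_mem_V, coe_heckeBetaBar]
  refine ⟨qExpand A₁ ℓ s, qExpand A₁ ℓ y, ?_, ?_⟩
  · rw [coeffMap_qExpand]
    intro h0
    apply hs
    have hinj : Function.Injective (qExpand (IsLocalRing.ResidueField A₁) ℓ) := by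
      intro a b hab
      ext k
      have := congrArg (fun z : LaurentSeries (IsLocalRing.ResidueField A₁) =>
        z.coeff ((ℓ : ℤ) * k)) hab
      simpa only [qExpand_coeff_mul] using this
    exact hinj (by rw [h0, map_zero])
  · rw [coeffMap_qExpand, coeffMap_qExpand, ← map_mul, h]

variable [IsDiscreteValuationRing A₁] {π : A₁}

/-- `β x ∈ V∞ ↔ x ∈ V'`. -/
theorem s34_gz_beta_mem_iff (hπ : Irreducible π) (x : F') :
    heckeBetaBar K N ℓ x ∈ s34_gi_V A₁ (N * ℓ) ↔ x ∈ s34_gi_V A₁ N := by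
  refine ⟨fun h => ?_, s34_gz_beta_mem⟩
  by_cases hx0 : x = 0
  · rw [hx0]; exact (s34_gi_V A₁ N).zero_mem
  have hU' := s34_gi_unif (A₁ := A₁) (N := N) hπ
  have hU := s34_gi_unif (A₁ := A₁) (N := N * ℓ) hπ
  obtain ⟨j, u, hu, hu', rfl⟩ := hU'.decomp x hx0
  have hu0 : u ≠ 0 := by rintro rfl; simp at hx0
  have hβu0 : heckeBetaBar K N ℓ u ≠ 0 := by
    rw [Ne, map_eq_zero]; exact hu0
  have e : heckeBetaBar K N ℓ (algebraMap K F' (π : K) ^ j * u) =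
      algebraMap K FF (π : K) ^ j * heckeBetaBar K N ℓ u := by
    rw [map_mul, map_zpow₀, AlgHom.commutes]
  rw [e] at h
  have hj := (hU.mem_iff hβu0 (s34_gz_beta_mem hu) (by
    rw [← map_inv₀]; exact s34_gz_beta_mem hu')).mp h
  exact (hU'.mem_iff hu0 hu hu').mpr hj

/-- An integral series over `ℤ`, viewed over `A₁` and over `K`. -/
theorem s34_gz_int_coe (T : LaurentSeries ℤ) :
    coeffMap A₁.subtype (coeffMap (Int.castRingHom A₁) T) = coeffMap (Int.castRingHom K) T := by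
  rw [coeffMap_coeffMap]
  exact coeffMap_congr (RingHom.ext_int _ _) T

/-- The Frobenius congruence at infinity: `ϖ⁻¹ ((α x)^ℓ - β x) ∈ V∞` for `x` with an integral
`q`-expansion. -/
theorem s34_gz_frob [Fact ℓ.Prime] (hπ : Irreducible π) (c : A₁) (hℓ : (ℓ : A₁) = π * c) (x : F')
    (T : LaurentSeries ℤ) (hT : (x : LaurentSeries K) = coeffMap (Int.castRingHom K) T) :
    (algebraMap K FF (π : K))⁻¹ * ((heckeAlphaBar K N ℓ x) ^ ℓ - heckeBetaBar K N ℓ x) ∈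
      s34_gi_V A₁ (N * ℓ) := by
  obtain ⟨Y, hY⟩ := s34_gz_frob_ring ℓ π c hℓ T
  rw [s34_gi_pi_inv_mul_mem_iff hπ]
  refine ⟨1, Y, by rw [map_one]; exact one_ne_zero, ?_⟩
  rw [map_one, one_mul, ← hY, map_sub, map_pow, coeffMap_qExpand, s34_gz_int_coe]
  show (heckeAlphaBar K N ℓ x : LaurentSeries K) ^ ℓ - (heckeBetaBar K N ℓ x : LaurentSeries K) = _
  rw [coe_heckeAlphaBar, coe_heckeBetaBar, hT]

/-- The reduction of a function with an integral `q`-expansion over `ℤ`. -/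
theorem s34_gz_red_int (x : F') (hx : x ∈ s34_gi_V A₁ N) (T : LaurentSeries ℤ)
    (hT : (x : LaurentSeries K) = coeffMap (Int.castRingHom K) T) :
    s34_gi_red A₁ N ⟨x, hx⟩ = coeffMap (Int.castRingHom (IsLocalRing.ResidueField A₁)) T := by
  rw [s34_gi_red_integral ⟨x, hx⟩ (coeffMap (Int.castRingHom A₁) T)
    (by rw [s34_gz_int_coe]; exact hT), coeffMap_coeffMap]
  exact coeffMap_congr (RingHom.ext_int _ _) T

/-- A function with an integral `q`-expansion lies in the Gauss ring. -/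
theorem s34_gz_mem_int (x : F') (T : LaurentSeries ℤ)
    (hT : (x : LaurentSeries K) = coeffMap (Int.castRingHom K) T) : x ∈ s34_gi_V A₁ N :=
  s34_gi_mem_of_integral (coeffMap (Int.castRingHom A₁) T) (by rw [s34_gz_int_coe]; exact hT)

/-- The order of the reduction of an integral series with leading term `q^e`. -/
theorem s34_gz_order_red (T : LaurentSeries ℤ) (e : ℤ) (hlead : T.coeff e = 1)
    (hlow : ∀ n < e, T.coeff n = 0) :
    (coeffMap (Int.castRingHom (IsLocalRing.ResidueField A₁)) T).order = e := by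
  apply s34_gz_order_leading
  · rw [coeffMap_coeff, hlead, map_one]; exact one_ne_zero
  · intro n hn
    rw [coeffMap_coeff, hlow n hn, map_zero]

/-- **`x` is not an `ℓ`-th power modulo `ϖ V'`** when its integral `q`-expansion has leading term
`q^e` with `ℓ ∤ e`. -/
theorem s34_gz_not_pow_model (hπ : Irreducible π) (x : F') (T : LaurentSeries ℤ)
    (hT : (x : LaurentSeries K) = coeffMap (Int.castRingHom K) T) (e : ℤ) (hlead : T.coeff e = 1)
    (hlow : ∀ n < e, T.coeff n = 0) (he : ¬ (ℓ : ℤ) ∣ e) (y : F') (hy : y ∈ s34_gi_V A₁ N) :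
    (algebraMap K F' (π : K))⁻¹ * (y ^ ℓ - x) ∉ s34_gi_V A₁ N := by
  intro hcon
  have hx : x ∈ s34_gi_V A₁ N := s34_gz_mem_int x T hT
  have h1 := (s34_gi_red_eq_zero_iff hπ
    (⟨y, hy⟩ ^ ℓ - ⟨x, hx⟩ : s34_gi_V A₁ N)).mpr (by
      simpa only [AddSubgroupClass.coe_sub, Subring.coe_pow] using hcon)
  rw [map_sub, map_pow, sub_eq_zero, s34_gz_red_int x hx T hT] at h1
  refine s34_gz_not_pow ℓ _ _ ?_ h1
  rw [s34_gz_order_red T e hlead hlow]
  exact he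

section Swap

/-- `V0 := V∞.comap W` is a discrete valuation ring with uniformizer `ϖ`. -/
theorem s34_gz_V0_unif (W : FF ≃+* FF) (hπ : Irreducible π)
    (hWϖ : W (algebraMap K FF (π : K)) = algebraMap K FF (π : K)) :
    s34_Unif (algebraMap K FF (π : K)) ((s34_gi_V A₁ (N * ℓ)).comap (W : FF →+* FF)) :=
  (s34_gi_unif (A₁ := A₁) (N := N * ℓ) hπ).comap W hWϖ

/-- `V0 ∩ F' = V'`. -/
theorem s34_gz_alpha_mem_V0_iff (W : FF ≃+* FF) (hπ : Irreducible π)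
    (hWα : ∀ x : F', W (heckeAlphaBar K N ℓ x) = heckeBetaBar K N ℓ x) (x : F') :
    heckeAlphaBar K N ℓ x ∈ (s34_gi_V A₁ (N * ℓ)).comap (W : FF →+* FF) ↔ x ∈ s34_gi_V A₁ N := by
  show W (heckeAlphaBar K N ℓ x) ∈ s34_gi_V A₁ (N * ℓ) ↔ _
  rw [hWα, s34_gz_beta_mem_iff hπ]

/-- `θ := β x ∈ V0` and `θ^ℓ ≡ α x mod ϖ V0`. -/
theorem s34_gz_theta_model [Fact ℓ.Prime] (W : FF ≃+* FF) (hπ : Irreducible π) (c : A₁)
    (hℓ : (ℓ : A₁) = π * c)
    (hWϖ : W (algebraMap K FF (π : K)) = algebraMap K FF (π : K))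
    (hWα : ∀ x : F', W (heckeAlphaBar K N ℓ x) = heckeBetaBar K N ℓ x)
    (hWβ : ∀ x : F', W (heckeBetaBar K N ℓ x) = heckeAlphaBar K N ℓ x)
    (x : F') (T : LaurentSeries ℤ) (hT : (x : LaurentSeries K) = coeffMap (Int.castRingHom K) T) :
    heckeBetaBar K N ℓ x ∈ (s34_gi_V A₁ (N * ℓ)).comap (W : FF →+* FF) ∧
      (algebraMap K FF (π : K))⁻¹ * ((heckeBetaBar K N ℓ x) ^ ℓ - heckeAlphaBar K N ℓ x) ∈
        (s34_gi_V A₁ (N * ℓ)).comap (W : FF →+* FF) := by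
  have hx : x ∈ s34_gi_V A₁ N := s34_gz_mem_int x T hT
  have h := s34_gz_theta (V := s34_gi_V A₁ (N * ℓ)) W hWϖ (heckeAlphaBar K N ℓ x)
    ((s34_gz_alpha_mem_iff x).mpr hx) (by rw [hWα, hWβ]) ℓ
    (by rw [hWα]; exact s34_gz_frob hπ c hℓ x T hT)
  rw [hWα] at h
  exact h

/-- **`V∞ ≠ V0`**: an element of `V∞` which is not in `V0`. -/
theorem s34_gz_ne_model [Fact ℓ.Prime] (W : FF ≃+* FF) (hπ : Irreducible π) (c : A₁)
    (hℓ : (ℓ : A₁) = π * c)
    (hWϖ : W (algebraMap K FF (π : K)) = algebraMap K FF (π : K))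
    (hWα : ∀ x : F', W (heckeAlphaBar K N ℓ x) = heckeBetaBar K N ℓ x)
    (hWβ : ∀ x : F', W (heckeBetaBar K N ℓ x) = heckeAlphaBar K N ℓ x)
    (x : F') (T : LaurentSeries ℤ) (hT : (x : LaurentSeries K) = coeffMap (Int.castRingHom K) T)
    (e : ℤ) (he : e ≠ 0) (hlead : T.coeff e = 1) (hlow : ∀ n < e, T.coeff n = 0) :
    ∃ z : FF, z ∈ s34_gi_V A₁ (N * ℓ) ∧ z ∉ (s34_gi_V A₁ (N * ℓ)).comap (W : FF →+* FF) := by
  have hx : x ∈ s34_gi_V A₁ N := s34_gz_mem_int x T hT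
  have hαx : heckeAlphaBar K N ℓ x ∈ s34_gi_V A₁ (N * ℓ) := (s34_gz_alpha_mem_iff x).mpr hx
  have hTα : ((heckeAlphaBar K N ℓ x : FF) : LaurentSeries K) = coeffMap (Int.castRingHom K) T := by
    rw [coe_heckeAlphaBar, hT]
  have hℓ2 : 2 ≤ ℓ ^ 2 := by
    have := (Fact.out : ℓ.Prime).two_le
    nlinarith
  have h := s34_gz_ne (V := s34_gi_V A₁ (N * ℓ)) W hWϖ (heckeAlphaBar K N ℓ x) hαx
    (by rw [hWα]; exact s34_gz_beta_mem hx) (by rw [hWα, hWβ]) ℓ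
    (by rw [hWα]; exact s34_gz_frob hπ c hℓ x T hT)
    (s34_gi_red A₁ (N * ℓ))
    (fun z hz => (s34_gi_red_eq_zero_iff hπ z).mpr hz)
    (by
      rw [s34_gz_red_int (N := N * ℓ) (heckeAlphaBar K N ℓ x) hαx T hTα]
      exact s34_gz_pow_ne (ℓ ^ 2) hℓ2 _ (by rw [s34_gz_order_red T e hlead hlow]; exact he))
  exact ⟨_, h.1, h.2⟩

end Swap

end Fermat.Agent.S34
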