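import Mathlib
import Fermat.Agent.S18.ChartDefs

/-!
# S34 (NODE), block (M), abstract leaf (CQ): the special fibre of an S18 chart

For a chart `s18_Chart ϖ B` the ring `D = B ⧸ ϖ B` is a noetherian domain all of whose local rings
at maximal ideals have a principal maximal ideal (`reg`).  Hence (Mathlib's TFAE for noetherian
local domains) `D` is integrally closed and of dimension `≤ 1`.

* `s34_cq_mem_iff` : `x ∈ ϖ B ↔ ϖ⁻¹ x ∈ B`;
* `s34_cq_isPrime`, `s34_cq_isDomain` : `ϖ B` is a prime ideal;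
* `s34_cq_loc_principal` : the maximal ideal of `D_M` is principal;
* `s34_cq_integrallyClosed` : `D` is integrally closed;
* `s34_cq_dim` : every nonzero prime of `D` is maximal;
* `s34_cq_prime_max` : a prime of `B` containing `ϖ` is `ϖ B` or maximal;
* `s34_cq_prime_reg` : `reg` at every prime of `B` containing `ϖ`.
-/

set_option autoImplicit false
set_option linter.style.haveILetI false

namespace Fermat.Agent.S34

open IsLocalRing Fermat.Agent.S18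

variable {F : Type*} [Field F] {ϖ : F} {B : Subring F}

/-- Membership in `ϖ B`. -/
theorem s34_cq_mem_iff (hϖ0 : ϖ ≠ 0) (hϖB : ϖ ∈ B) (x : B) :
    x ∈ Ideal.span {(⟨ϖ, hϖB⟩ : B)} ↔ ϖ⁻¹ * (x : F) ∈ B := by
  rw [Ideal.mem_span_singleton']
  constructor
  · rintro ⟨c, rfl⟩
    have e : ϖ⁻¹ * ((c * (⟨ϖ, hϖB⟩ : B) : B) : F) = (c : F) := by
      simp only [Subring.coe_mul]
      field_simp
    rw [e]
    exact c.2
  · intro h
    refine ⟨⟨_, h⟩, Subtype.ext ?_⟩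
    simp only [Subring.coe_mul]
    field_simp

/-- `ϖ B` is a prime ideal of the chart. -/
theorem s34_cq_isPrime (hB : s18_Chart ϖ B) : (Ideal.span {(⟨ϖ, hB.ϖ_mem⟩ : B)}).IsPrime := by
  constructor
  · intro htop
    have h1 : (1 : B) ∈ Ideal.span {(⟨ϖ, hB.ϖ_mem⟩ : B)} := by rw [htop]; trivial
    rw [s34_cq_mem_iff hB.ϖ_ne] at h1
    apply hB.nonunit
    simpa using h1
  · intro x y hxy
    rw [s34_cq_mem_iff hB.ϖ_ne] at hxy ⊢
    rw [s34_cq_mem_iff hB.ϖ_ne]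
    exact hB.prime x x.2 y y.2 (by simpa using hxy)

/-- The special fibre is a domain. -/
theorem s34_cq_isDomain (hB : s18_Chart ϖ B) :
    IsDomain (B ⧸ Ideal.span {(⟨ϖ, hB.ϖ_mem⟩ : B)}) :=
  (Ideal.Quotient.isDomain_iff_prime _).mpr (s34_cq_isPrime hB)

/-- The special fibre is noetherian. -/
theorem s34_cq_noeth (hB : s18_Chart ϖ B) :
    IsNoetherianRing (B ⧸ Ideal.span {(⟨ϖ, hB.ϖ_mem⟩ : B)}) := by
  haveI := hB.noeth
  infer_instance

/-- The local rings of the special fibre at maximal ideals have a principal maximal ideal. -/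
theorem s34_cq_loc_principal (hB : s18_Chart ϖ B)
    (M : Ideal (B ⧸ Ideal.span {(⟨ϖ, hB.ϖ_mem⟩ : B)})) [hM : M.IsMaximal] :
    (maximalIdeal (Localization.AtPrime M)).IsPrincipal := by
  classical
  have hmk : Function.Surjective (Ideal.Quotient.mk (Ideal.span {(⟨ϖ, hB.ϖ_mem⟩ : B)})) :=
    Ideal.Quotient.mk_surjective
  have h𝔪 : (M.comap (Ideal.Quotient.mk (Ideal.span {(⟨ϖ, hB.ϖ_mem⟩ : B)}))).IsMaximal :=
    Ideal.comap_isMaximal_of_surjective _ hmk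
  have hmkϖ : Ideal.Quotient.mk (Ideal.span {(⟨ϖ, hB.ϖ_mem⟩ : B)}) ⟨ϖ, hB.ϖ_mem⟩ = 0 :=
    Ideal.Quotient.eq_zero_iff_mem.mpr (Ideal.subset_span rfl)
  have hϖ𝔪 : (⟨ϖ, hB.ϖ_mem⟩ : B) ∈
      M.comap (Ideal.Quotient.mk (Ideal.span {(⟨ϖ, hB.ϖ_mem⟩ : B)})) := by
    rw [Ideal.mem_comap, hmkϖ]
    exact M.zero_mem
  obtain ⟨s, hs, hreg⟩ := hB.reg _ h𝔪 hϖ𝔪
  refine ⟨⟨algebraMap _ (Localization.AtPrime M)
    (Ideal.Quotient.mk (Ideal.span {(⟨ϖ, hB.ϖ_mem⟩ : B)}) s), ?_⟩⟩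
  rw [← Localization.AtPrime.map_eq_maximalIdeal]
  apply le_antisymm
  · rw [Ideal.map_le_iff_le_comap]
    intro y hy
    obtain ⟨x, rfl⟩ := hmk y
    have hx : x ∈ M.comap (Ideal.Quotient.mk (Ideal.span {(⟨ϖ, hB.ϖ_mem⟩ : B)})) := hy
    obtain ⟨u, hu, hux⟩ := hreg x hx
    rw [Ideal.mem_span_pair] at hux
    obtain ⟨a, b, hab⟩ := hux
    have h1 : Ideal.Quotient.mk (Ideal.span {(⟨ϖ, hB.ϖ_mem⟩ : B)}) u *
        Ideal.Quotient.mk (Ideal.span {(⟨ϖ, hB.ϖ_mem⟩ : B)}) x =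
        Ideal.Quotient.mk (Ideal.span {(⟨ϖ, hB.ϖ_mem⟩ : B)}) b *
          Ideal.Quotient.mk (Ideal.span {(⟨ϖ, hB.ϖ_mem⟩ : B)}) s := by
      rw [← map_mul, ← map_mul, ← hab, map_add, map_mul, map_mul, hmkϖ, mul_zero, zero_add]
    have huM : Ideal.Quotient.mk (Ideal.span {(⟨ϖ, hB.ϖ_mem⟩ : B)}) u ∈ M.primeCompl := hu
    have hunit : IsUnit (algebraMap _ (Localization.AtPrime M)
        (Ideal.Quotient.mk (Ideal.span {(⟨ϖ, hB.ϖ_mem⟩ : B)}) u)) :=
      IsLocalization.map_units (Localization.AtPrime M)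
        (⟨Ideal.Quotient.mk (Ideal.span {(⟨ϖ, hB.ϖ_mem⟩ : B)}) u, huM⟩ : M.primeCompl)
    obtain ⟨v, hv⟩ := hunit.exists_left_inv
    rw [Ideal.mem_comap]
    have h3 := congrArg (algebraMap _ (Localization.AtPrime M)) h1
    rw [map_mul, map_mul] at h3
    have h2 : algebraMap _ (Localization.AtPrime M)
        (Ideal.Quotient.mk (Ideal.span {(⟨ϖ, hB.ϖ_mem⟩ : B)}) x) =
        (v * algebraMap _ (Localization.AtPrime M)
          (Ideal.Quotient.mk (Ideal.span {(⟨ϖ, hB.ϖ_mem⟩ : B)}) b)) *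
          algebraMap _ (Localization.AtPrime M)
            (Ideal.Quotient.mk (Ideal.span {(⟨ϖ, hB.ϖ_mem⟩ : B)}) s) := by
      rw [mul_assoc, ← h3, ← mul_assoc, hv, one_mul]
    rw [h2]
    exact Ideal.mul_mem_left _ _ (Ideal.subset_span rfl)
  · rw [Ideal.span_le, Set.singleton_subset_iff]
    exact Ideal.mem_map_of_mem _ hs

/-- The TFAE consequence at a maximal ideal: the local ring is integrally closed and its only
nonzero prime is the maximal ideal. -/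
theorem s34_cq_loc_dvr (hB : s18_Chart ϖ B)
    (M : Ideal (B ⧸ Ideal.span {(⟨ϖ, hB.ϖ_mem⟩ : B)})) [hM : M.IsMaximal] :
    haveI := s34_cq_isDomain hB
    IsIntegrallyClosed (Localization.AtPrime M) ∧
      ∀ P : Ideal (Localization.AtPrime M), P ≠ ⊥ → P.IsPrime →
        P = maximalIdeal (Localization.AtPrime M) := by
  haveI := s34_cq_isDomain hB
  haveI := s34_cq_noeth hB
  haveI : IsNoetherianRing (Localization.AtPrime M) :=
    IsLocalization.isNoetherianRing M.primeCompl _ inferInstance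
  exact ((tfae_of_isNoetherianRing_of_isLocalRing_of_isDomain (Localization.AtPrime M)).out 4 3).mp
    (s34_cq_loc_principal hB M)

/-- The special fibre of a chart is integrally closed. -/
theorem s34_cq_integrallyClosed (hB : s18_Chart ϖ B) :
    haveI := s34_cq_isDomain hB
    IsIntegrallyClosed (B ⧸ Ideal.span {(⟨ϖ, hB.ϖ_mem⟩ : B)}) := by
  haveI := s34_cq_isDomain hB
  exact IsIntegrallyClosed.of_localization_maximal fun M _ _ => (s34_cq_loc_dvr hB M).1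

/-- Every nonzero prime ideal of the special fibre is maximal. -/
theorem s34_cq_dim (hB : s18_Chart ϖ B)
    (P : Ideal (B ⧸ Ideal.span {(⟨ϖ, hB.ϖ_mem⟩ : B)})) (hP : P.IsPrime) (hP0 : P ≠ ⊥) :
    P.IsMaximal := by
  haveI := s34_cq_isDomain hB
  obtain ⟨M, hM, hPM⟩ := Ideal.exists_le_maximal P hP.ne_top
  have hdisj : Disjoint (M.primeCompl : Set (B ⧸ Ideal.span {(⟨ϖ, hB.ϖ_mem⟩ : B)}))
      (P : Set (B ⧸ Ideal.span {(⟨ϖ, hB.ϖ_mem⟩ : B)})) := by
    rw [Set.disjoint_left]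
    intro x hx hxP
    exact hx (hPM hxP)
  have hP' : (P.map (algebraMap _ (Localization.AtPrime M))).IsPrime :=
    IsLocalization.isPrime_of_isPrime_disjoint M.primeCompl _ P hP hdisj
  have hinj : Function.Injective (algebraMap (B ⧸ Ideal.span {(⟨ϖ, hB.ϖ_mem⟩ : B)})
      (Localization.AtPrime M)) :=
    IsLocalization.injective (M := M.primeCompl) (Localization.AtPrime M)
      (Ideal.primeCompl_le_nonZeroDivisors M)
  have hP'0 : P.map (algebraMap _ (Localization.AtPrime M)) ≠ ⊥ := by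
    intro h0
    apply hP0
    rw [Ideal.map_eq_bot_iff_le_ker, (RingHom.injective_iff_ker_eq_bot _).mp hinj] at h0
    exact le_bot_iff.mp h0
  have h1 := (s34_cq_loc_dvr hB M).2 _ hP'0 hP'
  have h2 : P = M := by
    have e1 := IsLocalization.under_map_of_isPrime_disjoint M.primeCompl
      (Localization.AtPrime M) hP hdisj
    have e2 := IsLocalization.AtPrime.under_maximalIdeal (Localization.AtPrime M) M
    rw [← e1, h1, e2]
  rw [h2]
  exact hM

/-- A prime ideal of the chart containing `ϖ` is `ϖ B` or maximal. -/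
theorem s34_cq_prime_max (hB : s18_Chart ϖ B) (𝔮 : Ideal B) (h𝔮 : 𝔮.IsPrime)
    (hϖ𝔮 : (⟨ϖ, hB.ϖ_mem⟩ : B) ∈ 𝔮) :
    𝔮 = Ideal.span {(⟨ϖ, hB.ϖ_mem⟩ : B)} ∨ 𝔮.IsMaximal := by
  set I : Ideal B := Ideal.span {(⟨ϖ, hB.ϖ_mem⟩ : B)} with hI
  have hI𝔮 : I ≤ 𝔮 := by
    rw [hI, Ideal.span_le, Set.singleton_subset_iff]
    exact hϖ𝔮
  have hmk : Function.Surjective (Ideal.Quotient.mk I) := Ideal.Quotient.mk_surjective
  have hker : RingHom.ker (Ideal.Quotient.mk I) ≤ 𝔮 := by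
    rw [Ideal.mk_ker]
    exact hI𝔮
  have hQ : (𝔮.map (Ideal.Quotient.mk I)).IsPrime := Ideal.map_isPrime_of_surjective hmk hker
  have hcomap : (𝔮.map (Ideal.Quotient.mk I)).comap (Ideal.Quotient.mk I) = 𝔮 := by
    rw [Ideal.comap_map_of_surjective _ hmk, ← RingHom.ker_eq_comap_bot]
    exact sup_eq_left.mpr hker
  by_cases h0 : 𝔮.map (Ideal.Quotient.mk I) = ⊥
  · left
    apply le_antisymm _ hI𝔮
    rw [Ideal.map_eq_bot_iff_le_ker, Ideal.mk_ker] at h0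
    exact h0
  · right
    haveI := s34_cq_dim hB _ hQ h0
    rw [← hcomap]
    exact Ideal.comap_isMaximal_of_surjective _ hmk

/-- `reg` at every prime ideal of the chart containing `ϖ`. -/
theorem s34_cq_prime_reg (hB : s18_Chart ϖ B) (𝔮 : Ideal B) (h𝔮 : 𝔮.IsPrime)
    (hϖ𝔮 : (⟨ϖ, hB.ϖ_mem⟩ : B) ∈ 𝔮) :
    ∃ s ∈ 𝔮, ∀ x ∈ 𝔮, ∃ u, u ∉ 𝔮 ∧ u * x ∈ Ideal.span {(⟨ϖ, hB.ϖ_mem⟩ : B), s} := by
  rcases s34_cq_prime_max hB 𝔮 h𝔮 hϖ𝔮 with h | h
  · refine ⟨⟨ϖ, hB.ϖ_mem⟩, hϖ𝔮, fun x hx => ⟨1, fun h1 => h𝔮.ne_top ((Ideal.eq_top_iff_one _).mpr h1),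
      ?_⟩⟩
    rw [one_mul]
    rw [h] at hx
    exact Ideal.span_mono (by simp) hx
  · exact hB.reg 𝔮 h hϖ𝔮

end Fermat.Agent.S34
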