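import Mathlib
import Fermat.Agent.S18.ChartDefs
import Fermat.Agent.S34.ChartQuot

/-!
# S34 (NODE), block (M), abstract leaf (RES): the branch is the level-`N'` special fibre

Let `B₁ ≤ B` be subrings of a field `F`, `B₁` an S18 chart for `ϖ` (the chart of level `N'`), `B`
integral over `B₁`, and `V∞` a valuation subring of `F` containing `B` whose maximal ideal is
`ϖ V∞`, with `B₁ ∩ ϖ V∞ = ϖ B₁`.  If the residue field of `V∞` is that of the Gauss ring of `B₁`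
(every `y ∈ B` is congruent modulo `ϖ V∞` to an element of `s18_gauss ϖ B₁`), then
`B = B₁ + (B ∩ ϖ V∞)`: every `x ∈ B` is congruent modulo `ϖ V∞` to an element of `B₁`.

(Proof: the residue class of `x` lies in the fraction field of `D = B₁ ⧸ ϖ B₁` and is integral
over `D`, which is integrally closed by `s34_cq_integrallyClosed`.)
-/

set_option autoImplicit false
set_option linter.style.haveILetI false

namespace Fermat.Agent.S34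

open IsLocalRing Fermat.Agent.S18 Polynomial

variable {F : Type*} [Field F] {ϖ : F}

/-- The maximal ideal of a valuation subring with uniformizer `ϖ`. -/
theorem s34_res_mem_max (Vinf : ValuationSubring F) (hϖn : ϖ⁻¹ ∉ Vinf)
    (hunif : ∀ x ∈ Vinf, x⁻¹ ∈ Vinf ∨ ϖ⁻¹ * x ∈ Vinf) (x : Vinf) :
    x ∈ maximalIdeal Vinf ↔ ϖ⁻¹ * (x : F) ∈ Vinf := by
  rw [mem_maximalIdeal, mem_nonunits_iff]
  constructor
  · intro hx
    rcases hunif x x.2 with h | h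
    · by_cases hx0 : (x : F) = 0
      · rw [hx0, mul_zero]; exact Vinf.zero_mem
      · exfalso
        apply hx
        exact IsUnit.of_mul_eq_one (⟨_, h⟩ : Vinf) (Subtype.ext (mul_inv_cancel₀ hx0))
    · exact h
  · intro h hu
    obtain ⟨y, hy⟩ := hu.exists_right_inv
    apply hϖn
    have hy' : (x : F) * (y : F) = 1 := congrArg Subtype.val hy
    have e : ϖ⁻¹ = ϖ⁻¹ * (x : F) * (y : F) := by rw [mul_assoc, hy', mul_one]
    rw [e]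
    exact mul_mem h y.2

/-- **(RES)** the branch through `V∞` is the special fibre of the chart `B₁`:
`B = B₁ + (B ∩ ϖ V∞)`. -/
theorem s34_res_chart (B₁ B : Subring F) (Vinf : ValuationSubring F) (hB₁ : s18_Chart ϖ B₁)
    (hB₁B : B₁ ≤ B) (hBV : ∀ x ∈ B, x ∈ Vinf) (hϖn : ϖ⁻¹ ∉ Vinf)
    (hunif : ∀ x ∈ Vinf, x⁻¹ ∈ Vinf ∨ ϖ⁻¹ * x ∈ Vinf)
    (hgauss : ∀ b ∈ B₁, ϖ⁻¹ * b ∈ Vinf → ϖ⁻¹ * b ∈ B₁)
    (hint : ∀ x ∈ B, IsIntegral B₁ x)
    (hres : ∀ y ∈ B, ∃ y' ∈ s18_gauss ϖ B₁, ϖ⁻¹ * (y - y') ∈ Vinf) :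
    ∀ x ∈ B, ∃ x' ∈ B₁, ϖ⁻¹ * (x - x') ∈ Vinf := by
  classical
  haveI := s34_cq_isDomain hB₁
  haveI := s34_cq_integrallyClosed hB₁
  have hB₁V : ∀ x ∈ B₁, x ∈ Vinf := fun x hx => hBV x (hB₁B hx)
  -- the residue map on `B₁`
  let j : B₁ →+* Vinf := RingHom.codRestrict B₁.subtype Vinf (fun x => hB₁V _ x.2)
  let ρ₁ : B₁ →+* ResidueField Vinf := (residue Vinf).comp j
  have hρ₁ : ∀ x : B₁, ρ₁ x = 0 ↔ x ∈ Ideal.span {(⟨ϖ, hB₁.ϖ_mem⟩ : B₁)} := by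
    intro x
    rw [s34_cq_mem_iff hB₁.ϖ_ne]
    show residue Vinf (j x) = 0 ↔ _
    rw [residue_eq_zero_iff, s34_res_mem_max Vinf hϖn hunif]
    exact ⟨fun h => hgauss _ x.2 h, fun h => hB₁V _ h⟩
  let ι : B₁ ⧸ Ideal.span {(⟨ϖ, hB₁.ϖ_mem⟩ : B₁)} →+* ResidueField Vinf :=
    Ideal.Quotient.lift _ ρ₁ (fun a ha => (hρ₁ a).mpr ha)
  have hι : Function.Injective ι := by
    rw [Ideal.injective_lift_iff]
    ext x
    rw [RingHom.mem_ker, hρ₁]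
  let ι' : FractionRing (B₁ ⧸ Ideal.span {(⟨ϖ, hB₁.ϖ_mem⟩ : B₁)}) →+* ResidueField Vinf :=
    IsFractionRing.lift hι
  have hι' : ∀ d, ι' (algebraMap _ _ d) = ι d := fun d => IsFractionRing.lift_algebraMap hι d
  have hι'inj : Function.Injective ι' := ι'.injective
  intro x hx
  obtain ⟨y', ⟨a, ha, b, hb, hbn, rfl⟩, hy'⟩ := hres x hx
  have hxV : x ∈ Vinf := hBV x hx
  -- `b` is a unit of `V∞`
  have hbn' : ϖ⁻¹ * b ∉ Vinf := fun h => hbn (hgauss b hb h)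
  have hb0 : b ≠ 0 := by
    rintro rfl
    apply hbn
    rw [mul_zero]; exact B₁.zero_mem
  have hbI : (⟨b, hb⟩ : B₁) ∉ Ideal.span {(⟨ϖ, hB₁.ϖ_mem⟩ : B₁)} := by
    rw [s34_cq_mem_iff hB₁.ϖ_ne]
    exact hbn
  have hρb : ρ₁ ⟨b, hb⟩ ≠ 0 := fun h => hbI ((hρ₁ _).mp h)
  -- `res x * res b = res a`
  have hxab : residue Vinf ⟨x, hxV⟩ * ρ₁ ⟨b, hb⟩ = ρ₁ ⟨a, ha⟩ := by
    have h1 : (⟨x, hxV⟩ * j ⟨b, hb⟩ - j ⟨a, ha⟩ : Vinf) ∈ maximalIdeal Vinf := by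
      rw [s34_res_mem_max Vinf hϖn hunif]
      have e : ϖ⁻¹ * ((⟨x, hxV⟩ * j ⟨b, hb⟩ - j ⟨a, ha⟩ : Vinf) : F) =
          ϖ⁻¹ * (x - a / b) * b := by
        show ϖ⁻¹ * (x * b - a) = _
        field_simp
      rw [e]
      exact mul_mem hy' (hB₁V b hb)
    have h2 := (residue_eq_zero_iff _).mpr h1
    rw [map_sub, map_mul, sub_eq_zero] at h2
    exact h2
  -- the class of `a / b` in the fraction field of the special fibre
  set z : FractionRing (B₁ ⧸ Ideal.span {(⟨ϖ, hB₁.ϖ_mem⟩ : B₁)}) :=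
    algebraMap _ _ (Ideal.Quotient.mk (Ideal.span {(⟨ϖ, hB₁.ϖ_mem⟩ : B₁)}) ⟨a, ha⟩) /
      algebraMap _ _ (Ideal.Quotient.mk (Ideal.span {(⟨ϖ, hB₁.ϖ_mem⟩ : B₁)}) ⟨b, hb⟩) with hz
  have hιz : ι' z = residue Vinf ⟨x, hxV⟩ := by
    rw [hz, map_div₀, hι', hι']
    show ρ₁ ⟨a, ha⟩ / ρ₁ ⟨b, hb⟩ = _
    rw [← hxab, mul_div_cancel_right₀ _ hρb]
  -- integrality
  obtain ⟨P, hPm, hP⟩ := hint x hx
  have hP1 : eval₂ j (⟨x, hxV⟩ : Vinf) P = 0 := by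
    apply Subtype.ext
    have h1 := Polynomial.hom_eval₂ P j Vinf.subtype ⟨x, hxV⟩
    have h2 : (Vinf.subtype : Vinf →+* F).comp j = algebraMap B₁ F := rfl
    rw [h2] at h1
    exact h1.trans hP
  have hP2 : eval₂ ρ₁ (residue Vinf ⟨x, hxV⟩) P = 0 := by
    have h1 := Polynomial.hom_eval₂ P j (residue Vinf) ⟨x, hxV⟩
    rw [hP1, map_zero] at h1
    exact h1.symm
  have hzint : IsIntegral (B₁ ⧸ Ideal.span {(⟨ϖ, hB₁.ϖ_mem⟩ : B₁)}) z := by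
    refine ⟨P.map (Ideal.Quotient.mk _), hPm.map _, ?_⟩
    apply hι'inj
    rw [map_zero, Polynomial.hom_eval₂, hιz, Polynomial.eval₂_map]
    have h3 : (ι'.comp (algebraMap (B₁ ⧸ Ideal.span {(⟨ϖ, hB₁.ϖ_mem⟩ : B₁)})
        (FractionRing (B₁ ⧸ Ideal.span {(⟨ϖ, hB₁.ϖ_mem⟩ : B₁)})))).comp
          (Ideal.Quotient.mk (Ideal.span {(⟨ϖ, hB₁.ϖ_mem⟩ : B₁)})) = ρ₁ := by
      ext c
      show ι' (algebraMap _ _ (Ideal.Quotient.mk _ c)) = ρ₁ c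
      rw [hι']
      rfl
    rw [h3]
    exact hP2
  obtain ⟨d, hd⟩ := IsIntegrallyClosed.isIntegral_iff.mp hzint
  obtain ⟨x', rfl⟩ := Ideal.Quotient.mk_surjective d
  refine ⟨x', x'.2, ?_⟩
  have h4 : residue Vinf ⟨x, hxV⟩ = residue Vinf (j x') := by
    rw [← hιz, ← hd, hι']
    rfl
  have h5 : (⟨x, hxV⟩ - j x' : Vinf) ∈ maximalIdeal Vinf := by
    rw [← residue_eq_zero_iff, map_sub, h4, sub_self]
  rw [s34_res_mem_max Vinf hϖn hunif] at h5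
  exact h5

end Fermat.Agent.S34
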