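import Mathlib
import Fermat.Agent.S18.ChartDefs
import Fermat.Agent.S34.ChartQuot
import Fermat.Agent.S34.ResChart
import Fermat.Agent.S34.SmoothPoint

/-!
# S34 (NODE), block (M), abstract leaf (RES), two-field form

The level-`N'` chart `B₁` lives in its own field `F''` (an `s18_Chart ϖ'' B₁` has fraction field
`F''`), and is mapped to the big field `F` by a field embedding `ι : F'' →+* F`
(the inclusion of `q`-series fields for the component `C∞`, its composite with the Atkin–Lehner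
swap for the component `C₀`).

`s34_res_two` : let `B` be a subring of `F` containing `ι B₁` and integral over it, and `V` a
discrete valuation ring of `F` with uniformizer `ϖ = ι ϖ''` (`s34_Unif`) containing `B`, with
`ι B₁ ∩ ϖ V = ι (ϖ'' B₁)`.  If every `y ∈ B` is congruent modulo `ϖ V` to an element of
`ι (s18_gauss ϖ'' B₁)` (the residue field of `V` is that of the Gauss ring of `B₁`), then every
`x ∈ B` is congruent modulo `ϖ V` to an element of `ι B₁`:  `B = ι B₁ + (B ∩ ϖ V)`.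
-/

set_option autoImplicit false
set_option linter.style.haveILetI false

namespace Fermat.Agent.S34

open IsLocalRing Fermat.Agent.S18 Polynomial

variable {F'' F : Type*} [Field F''] [Field F]

/-- Two-field form of `s34_res_chart` for a valuation subring. -/
theorem s34_res_two_vs (ι : F'' →+* F) {ϖ'' : F''} (B₁ : Subring F'')
    (hB₁ : s18_Chart ϖ'' B₁) (B : Subring F) (Vinf : ValuationSubring F)
    (hB₁B : ∀ x ∈ B₁, ι x ∈ B) (hBV : ∀ x ∈ B, x ∈ Vinf) (hϖn : (ι ϖ'')⁻¹ ∉ Vinf)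
    (hunif : ∀ x ∈ Vinf, x⁻¹ ∈ Vinf ∨ (ι ϖ'')⁻¹ * x ∈ Vinf)
    (hgauss : ∀ b ∈ B₁, (ι ϖ'')⁻¹ * ι b ∈ Vinf → ϖ''⁻¹ * b ∈ B₁)
    (hint : ∀ x ∈ B, ∃ P : Polynomial B₁, P.Monic ∧ P.eval₂ (ι.comp B₁.subtype) x = 0)
    (hres : ∀ y ∈ B, ∃ y' ∈ s18_gauss ϖ'' B₁, (ι ϖ'')⁻¹ * (y - ι y') ∈ Vinf) :
    ∀ x ∈ B, ∃ x' ∈ B₁, (ι ϖ'')⁻¹ * (x - ι x') ∈ Vinf := by
  classical
  haveI := s34_cq_isDomain hB₁
  haveI := s34_cq_integrallyClosed hB₁
  have hB₁V : ∀ x ∈ B₁, ι x ∈ Vinf := fun x hx => hBV _ (hB₁B x hx)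
  -- the residue map on `B₁`
  let j : B₁ →+* Vinf := RingHom.codRestrict (ι.comp B₁.subtype) Vinf (fun x => hB₁V _ x.2)
  let ρ₁ : B₁ →+* ResidueField Vinf := (residue Vinf).comp j
  have hρ₁ : ∀ x : B₁, ρ₁ x = 0 ↔ x ∈ Ideal.span {(⟨ϖ'', hB₁.ϖ_mem⟩ : B₁)} := by
    intro x
    rw [s34_cq_mem_iff hB₁.ϖ_ne]
    show residue Vinf (j x) = 0 ↔ _
    rw [residue_eq_zero_iff, s34_res_mem_max Vinf hϖn hunif]
    refine ⟨fun h => hgauss _ x.2 h, fun h => ?_⟩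
    have h1 := hB₁V _ h
    rw [map_mul, map_inv₀] at h1
    exact h1
  let ι₁ : B₁ ⧸ Ideal.span {(⟨ϖ'', hB₁.ϖ_mem⟩ : B₁)} →+* ResidueField Vinf :=
    Ideal.Quotient.lift _ ρ₁ (fun a ha => (hρ₁ a).mpr ha)
  have hι₁ : Function.Injective ι₁ := by
    rw [Ideal.injective_lift_iff]
    ext x
    rw [RingHom.mem_ker, hρ₁]
  let ι' : FractionRing (B₁ ⧸ Ideal.span {(⟨ϖ'', hB₁.ϖ_mem⟩ : B₁)}) →+* ResidueField Vinf :=
    IsFractionRing.lift hι₁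
  have hι' : ∀ d, ι' (algebraMap _ _ d) = ι₁ d := fun d => IsFractionRing.lift_algebraMap hι₁ d
  have hι'inj : Function.Injective ι' := ι'.injective
  intro x hx
  obtain ⟨y', ⟨a, ha, b, hb, hbn, rfl⟩, hy'⟩ := hres x hx
  have hxV : x ∈ Vinf := hBV x hx
  have hb0 : b ≠ 0 := by
    rintro rfl
    apply hbn
    rw [mul_zero]; exact B₁.zero_mem
  have hιb0 : ι b ≠ 0 := (map_ne_zero ι).mpr hb0
  have hbI : (⟨b, hb⟩ : B₁) ∉ Ideal.span {(⟨ϖ'', hB₁.ϖ_mem⟩ : B₁)} := by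
    rw [s34_cq_mem_iff hB₁.ϖ_ne]
    exact hbn
  have hρb : ρ₁ ⟨b, hb⟩ ≠ 0 := fun h => hbI ((hρ₁ _).mp h)
  -- `res x * res b = res a`
  have hxab : residue Vinf ⟨x, hxV⟩ * ρ₁ ⟨b, hb⟩ = ρ₁ ⟨a, ha⟩ := by
    have h1 : (⟨x, hxV⟩ * j ⟨b, hb⟩ - j ⟨a, ha⟩ : Vinf) ∈ maximalIdeal Vinf := by
      rw [s34_res_mem_max Vinf hϖn hunif]
      have e : (ι ϖ'')⁻¹ * ((⟨x, hxV⟩ * j ⟨b, hb⟩ - j ⟨a, ha⟩ : Vinf) : F) =
          (ι ϖ'')⁻¹ * (x - ι (a / b)) * ι b := by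
        show (ι ϖ'')⁻¹ * (x * ι b - ι a) = _
        rw [map_div₀, mul_assoc, sub_mul, div_mul_cancel₀ _ hιb0]
      rw [e]
      exact mul_mem hy' (hB₁V b hb)
    have h2 := (residue_eq_zero_iff _).mpr h1
    rw [map_sub, map_mul, sub_eq_zero] at h2
    exact h2
  -- the class of `a / b` in the fraction field of the special fibre
  set z : FractionRing (B₁ ⧸ Ideal.span {(⟨ϖ'', hB₁.ϖ_mem⟩ : B₁)}) :=
    algebraMap _ _ (Ideal.Quotient.mk (Ideal.span {(⟨ϖ'', hB₁.ϖ_mem⟩ : B₁)}) ⟨a, ha⟩) /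
      algebraMap _ _ (Ideal.Quotient.mk (Ideal.span {(⟨ϖ'', hB₁.ϖ_mem⟩ : B₁)}) ⟨b, hb⟩) with hz
  have hιz : ι' z = residue Vinf ⟨x, hxV⟩ := by
    rw [hz, map_div₀, hι', hι']
    show ρ₁ ⟨a, ha⟩ / ρ₁ ⟨b, hb⟩ = _
    rw [← hxab, mul_div_cancel_right₀ _ hρb]
  -- integrality
  obtain ⟨P, hPm, hP⟩ := hint x hx
  have hP1 : eval₂ j (⟨x, hxV⟩ : Vinf) P = 0 := by
    apply Subtype.ext
    have h1 := Polynomial.hom_eval₂ P j Vinf.subtype ⟨x, hxV⟩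
    have h2 : (Vinf.subtype : Vinf →+* F).comp j = ι.comp B₁.subtype := rfl
    rw [h2] at h1
    exact h1.trans hP
  have hP2 : eval₂ ρ₁ (residue Vinf ⟨x, hxV⟩) P = 0 := by
    have h1 := Polynomial.hom_eval₂ P j (residue Vinf) ⟨x, hxV⟩
    rw [hP1, map_zero] at h1
    exact h1.symm
  have hzint : IsIntegral (B₁ ⧸ Ideal.span {(⟨ϖ'', hB₁.ϖ_mem⟩ : B₁)}) z := by
    refine ⟨P.map (Ideal.Quotient.mk _), hPm.map _, ?_⟩
    apply hι'inj
    rw [map_zero, Polynomial.hom_eval₂, hιz, Polynomial.eval₂_map]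
    have h3 : (ι'.comp (algebraMap (B₁ ⧸ Ideal.span {(⟨ϖ'', hB₁.ϖ_mem⟩ : B₁)})
        (FractionRing (B₁ ⧸ Ideal.span {(⟨ϖ'', hB₁.ϖ_mem⟩ : B₁)})))).comp
          (Ideal.Quotient.mk (Ideal.span {(⟨ϖ'', hB₁.ϖ_mem⟩ : B₁)})) = ρ₁ := by
      ext c
      show ι' (algebraMap _ _ (Ideal.Quotient.mk _ c)) = ρ₁ c
      rw [hι']
      rfl
    rw [h3]
    exact hP2
  obtain ⟨d, hd⟩ := IsIntegrallyClosed.isIntegral_iff.mp hzint
  obtain ⟨x', rfl⟩ := Ideal.Quotient.mk_surjective d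
  refine ⟨x', x'.2, ?_⟩
  have h4 : residue Vinf ⟨x, hxV⟩ = residue Vinf (j x') := by
    rw [← hιz, ← hd, hι']
    rfl
  have h5 : (⟨x, hxV⟩ - j x' : Vinf) ∈ maximalIdeal Vinf := by
    rw [← residue_eq_zero_iff, map_sub, h4, sub_self]
  rw [s34_res_mem_max Vinf hϖn hunif] at h5
  exact h5

/-- The valuation subring underlying a uniformized ring. -/
def s34_res_vs {ϖ : F} (V : Subring F) (hV : s34_Unif ϖ V) : ValuationSubring F :=
  { V with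
    mem_or_inv_mem' := fun x => by
      by_cases hx0 : x = 0
      · left; rw [hx0]; exact V.zero_mem
      · obtain ⟨j, u, hu, hu', rfl⟩ := hV.decomp x hx0
        have hu0 : u ≠ 0 := by rintro rfl; simp at hx0
        by_cases hj : 0 ≤ j
        · left; exact V.mul_mem (hV.zpow_mem hj) hu
        · right
          have e : (ϖ ^ j * u)⁻¹ = ϖ ^ (-j) * u⁻¹ := by rw [mul_inv, zpow_neg]
          show (ϖ ^ j * u)⁻¹ ∈ V
          rw [e]
          exact V.mul_mem (hV.zpow_mem (by omega)) hu' }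

theorem s34_res_mem_vs {ϖ : F} (V : Subring F) (hV : s34_Unif ϖ V) (x : F) :
    x ∈ s34_res_vs V hV ↔ x ∈ V := Iff.rfl

/-- **(RES), two-field form.**  `B = ι B₁ + (B ∩ ϖ V)` for the S18 chart `B₁ ⊆ F''`, a field
embedding `ι : F'' →+* F`, and a discrete valuation ring `V ⊇ B` of `F` with uniformizer
`ι ϖ''` whose residue field is that of the Gauss ring of `B₁`. -/
theorem s34_res_two (ι : F'' →+* F) {ϖ'' : F''} (B₁ : Subring F'')
    (hB₁ : s18_Chart ϖ'' B₁) (B V : Subring F) (hV : s34_Unif (ι ϖ'') V)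
    (hB₁B : ∀ x ∈ B₁, ι x ∈ B) (hBV : B ≤ V)
    (hgauss : ∀ b ∈ B₁, (ι ϖ'')⁻¹ * ι b ∈ V → ϖ''⁻¹ * b ∈ B₁)
    (hint : ∀ x ∈ B, ∃ P : Polynomial B₁, P.Monic ∧ P.eval₂ (ι.comp B₁.subtype) x = 0)
    (hres : ∀ y ∈ B, ∃ y' ∈ s18_gauss ϖ'' B₁, (ι ϖ'')⁻¹ * (y - ι y') ∈ V) :
    ∀ x ∈ B, ∃ x' ∈ B₁, (ι ϖ'')⁻¹ * (x - ι x') ∈ V :=
  s34_res_two_vs ι B₁ hB₁ B (s34_res_vs V hV) hB₁B (fun x hx => hBV hx) hV.inv_not_mem
    (fun x hx => by
      by_cases h : (ι ϖ'')⁻¹ * x ∈ V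
      · exact Or.inr h
      · exact Or.inl (hV.inv_mem_of_not_dvd hx h))
    hgauss hint hres

/-- Integrality over the image `B₁.map ι` gives the polynomial form of `hint`. -/
theorem s34_res_hint_of_isIntegral (ι : F'' →+* F) (B₁ : Subring F'') (x : F)
    (hx : IsIntegral (B₁.map ι) x) :
    ∃ P : Polynomial B₁, P.Monic ∧ P.eval₂ (ι.comp B₁.subtype) x = 0 := by
  obtain ⟨Q, hQm, hQ⟩ := hx
  let e : B₁ →+* B₁.map ι :=
    RingHom.codRestrict (ι.comp B₁.subtype) (B₁.map ι) (fun y => ⟨y, y.2, rfl⟩)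
  have he : Function.Surjective e := by
    rintro ⟨_, y, hy, rfl⟩
    exact ⟨⟨y, hy⟩, rfl⟩
  have hlift : Q ∈ Polynomial.lifts e := by
    rw [Polynomial.mem_lifts]
    exact Polynomial.map_surjective e he Q
  obtain ⟨P, hP, -, hPm⟩ := Polynomial.lifts_and_natDegree_eq_and_monic hlift hQm
  refine ⟨P, hPm, ?_⟩
  have h1 : (algebraMap (B₁.map ι) F).comp e = ι.comp B₁.subtype := rfl
  rw [← h1, ← Polynomial.eval₂_map, hP]
  exact hQ

end Fermat.Agent.S34
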