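import Mathlib
import Fermat.Prelude.Def_ModularCurve_HeckeOperator
import Fermat.Agent.S18.ChartZLead
import Fermat.Agent.S18.ChAlg
import Fermat.Agent.S34.GaussInf
import Fermat.Agent.S34.GaussZeroModel
import Fermat.Agent.S34.DegK
import Fermat.Agent.S34.ExtTwo
import Fermat.Agent.S34.ResTwo

/-!
# S34 (NODE), leaf (EXT-inst): the two extensions of the Gauss valuation in the model

* Abstract bridge (`s34_ei_dvr`, `s34_ei_frac`, `s34_ei_two`): the subring / two-field form of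
  `s34_ext_main`, for rings uniformized in the sense of `s34_Unif` and a field embedding
  `ι : F'' →+* F`.
* Model (`s34_ei_model`, `s34_ei_model_haupt`): `K` a field of characteristic zero, `A₁` a discrete
  valuation ring of `K` with uniformizer `π`, `ℓ ∈ π A₁` a prime not dividing `N`,
  `F' = K · F_N`, `F = K · F_(N ℓ)`, `α = heckeAlphaBar K N ℓ`, `V' = s34_gi_V A₁ N`,
  `V∞ = s34_gi_V A₁ (N ℓ)`, `W` the swap, `V0 = V∞.comap W`.  Then

  (a') every element of `V∞ ∩ V0` is integral over `α V'`;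
  (c') `κ(V∞) = κ(V')`: every `y ∈ V∞` is congruent modulo `π V∞` to some `α y'`, `y' ∈ V'`.
-/

set_option autoImplicit false
set_option linter.unusedSectionVars false
set_option linter.style.haveILetI false

open ModularCurve

noncomputable section

namespace Fermat.Agent.S34

open Fermat.Agent.S18

section Abstract

variable {F : Type*} [Field F] {ϖ : F} {V : Subring F}

/-- An element of a uniformized ring which is not divisible by the uniformizer is a unit. -/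
theorem s34_ei_isUnit (hV : s34_Unif ϖ V) (x : V) (hx : ϖ⁻¹ * (x : F) ∉ V) : IsUnit x := by
  have h := hV.inv_mem_of_not_dvd x.2 hx
  have hx0 : (x : F) ≠ 0 := by
    intro h0
    apply hx
    rw [h0, mul_zero]
    exact V.zero_mem
  exact isUnit_iff_exists_inv.mpr ⟨⟨(x : F)⁻¹, h⟩, Subtype.ext (mul_inv_cancel₀ hx0)⟩

/-- The uniformizer is not a unit. -/
theorem s34_ei_not_isUnit (hV : s34_Unif ϖ V) : ¬ IsUnit (⟨ϖ, hV.mem⟩ : V) := by
  intro h
  obtain ⟨b, hb⟩ := isUnit_iff_exists_inv.mp h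
  apply hV.inv_not_mem
  have h1 : ϖ * (b : F) = 1 := congrArg Subtype.val hb
  have h2 : ϖ⁻¹ = (b : F) := by
    rw [eq_comm, ← mul_right_inj' hV.ne_zero, h1, mul_inv_cancel₀ hV.ne_zero]
  rw [h2]
  exact b.2

/-- The uniformizer is irreducible. -/
theorem s34_ei_irreducible (hV : s34_Unif ϖ V) : Irreducible (⟨ϖ, hV.mem⟩ : V) := by
  rw [irreducible_iff]
  refine ⟨s34_ei_not_isUnit hV, ?_⟩
  intro a b hab
  by_contra hcon
  push Not at hcon
  have ha : ϖ⁻¹ * (a : F) ∈ V := by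
    by_contra h
    exact hcon.1 (s34_ei_isUnit hV a h)
  have hb : ϖ⁻¹ * (b : F) ∈ V := by
    by_contra h
    exact hcon.2 (s34_ei_isUnit hV b h)
  apply hV.inv_not_mem
  have h1 : ϖ = (a : F) * (b : F) := congrArg Subtype.val hab
  have h0 := hV.ne_zero
  have e : ϖ⁻¹ = (ϖ⁻¹ * (a : F)) * (ϖ⁻¹ * (b : F)) := by
    have e1 : (ϖ⁻¹ * (a : F)) * (ϖ⁻¹ * (b : F)) = ϖ⁻¹ * ϖ⁻¹ * ((a : F) * (b : F)) := by ring
    rw [e1, ← h1, mul_assoc, inv_mul_cancel₀ h0, mul_one]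
  rw [e]
  exact V.mul_mem ha hb

/-- A uniformized ring is a discrete valuation ring. -/
theorem s34_ei_dvr (hV : s34_Unif ϖ V) : IsDiscreteValuationRing V := by
  apply IsDiscreteValuationRing.ofHasUnitMulPowIrreducibleFactorization
  refine ⟨⟨ϖ, hV.mem⟩, s34_ei_irreducible hV, ?_⟩
  intro x hx
  have hx0 : (x : F) ≠ 0 := fun h => hx (Subtype.ext h)
  obtain ⟨k, hk, hk'⟩ := hV.exists_pow x.2 hx0
  refine ⟨k, ?_⟩
  have hu0 : ϖ⁻¹ ^ k * (x : F) ≠ 0 := mul_ne_zero (pow_ne_zero _ (inv_ne_zero hV.ne_zero)) hx0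
  let u : Vˣ := ⟨⟨ϖ⁻¹ ^ k * (x : F), hk⟩, ⟨(ϖ⁻¹ ^ k * (x : F))⁻¹, hk'⟩,
    Subtype.ext (mul_inv_cancel₀ hu0), Subtype.ext (inv_mul_cancel₀ hu0)⟩
  refine ⟨u, Subtype.ext ?_⟩
  show ϖ ^ k * (ϖ⁻¹ ^ k * (x : F)) = x
  rw [← mul_assoc, ← mul_pow, mul_inv_cancel₀ hV.ne_zero, one_pow, one_mul]

/-- The fraction field of a uniformized ring of `F` is `F`. -/
theorem s34_ei_frac (hV : s34_Unif ϖ V) : IsFractionRing V F where
  map_units := fun ⟨y, hy⟩ =>
    (Units.mk0 (y : F) fun c => nonZeroDivisors.ne_zero hy <| Subtype.ext c).isUnit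
  surj z := by
    obtain ⟨k, hk⟩ := hV.exists_pow_mul_mem z
    have hϖk : (⟨ϖ, hV.mem⟩ : V) ^ k ∈ nonZeroDivisors V := by
      apply mem_nonZeroDivisors_of_ne_zero
      intro h
      have h1 : ϖ ^ k = 0 := congrArg Subtype.val h
      exact pow_ne_zero k hV.ne_zero h1
    refine ⟨(⟨ϖ ^ k * z, hk⟩, ⟨(⟨ϖ, hV.mem⟩ : V) ^ k, hϖk⟩), ?_⟩
    show z * ϖ ^ k = ϖ ^ k * z
    ring
  exists_of_eq {a b} h := ⟨1, by
    have h1 : (a : F) = (b : F) := h
    rw [Subtype.ext h1]⟩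

/-- Divisibility by the uniformizer in terms of the valuation. -/
theorem s34_ei_val_lt (hV : s34_Unif ϖ V) (x : F) (hx : ϖ⁻¹ * x ∈ V) :
    (s34_res_vs V hV).valuation x < 1 := by
  by_cases hx0 : x = 0
  · rw [hx0, map_zero]
    exact zero_lt_one
  · rw [← not_le]
    intro hle
    have h1 : (s34_res_vs V hV).valuation x⁻¹ ≤ 1 := by
      rw [map_inv₀]
      exact inv_le_one_of_one_le₀ hle
    rw [ValuationSubring.valuation_le_one_iff] at h1
    exact hV.not_dvd_of_inv_mem hx0 h1 hx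

/-- **(EXT), subring / two-field form.**  `V'` a discrete valuation ring of `F''` with uniformizer
`ϖ''`, `ι : F'' →+* F` a finite extension of degree `≤ q + 1` in characteristic zero, `V₁ ≠ V₂`
two discrete valuation rings of `F` with uniformizer `ι ϖ''` containing `ι V'`, and `θ ∈ V₂`,
`c ∈ V'` with `θ ^ q ≡ ι c` modulo `ϖ V₂` while `c` is not a `q`-th power modulo `ϖ'' V'`.  Then
every element of `V₁ ∩ V₂` is integral over `ι V'`, and the residue field of `V₁` is that of `V'`. -/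
theorem s34_ei_two {F'' F : Type*} [Field F''] [Field F] [CharZero F''] (ι : F'' →+* F)
    (hfin : letI := ι.toAlgebra; Module.Finite F'' F)
    (q : ℕ) (hq : q.Prime)
    (hdeg : letI := ι.toAlgebra; Module.finrank F'' F ≤ q + 1)
    {ϖ'' : F''} (V' : Subring F'') (hV' : s34_Unif ϖ'' V')
    (V₁ V₂ : Subring F) (hV₁ : s34_Unif (ι ϖ'') V₁) (hV₂ : s34_Unif (ι ϖ'') V₂)
    (h₁ : ∀ x ∈ V', ι x ∈ V₁) (h₂ : ∀ x ∈ V', ι x ∈ V₂)
    (hne : ∃ z ∈ V₁, z ∉ V₂)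
    (θ : F) (c : F'') (hc : c ∈ V') (hθ : θ ∈ V₂) (hθc : (ι ϖ'')⁻¹ * (θ ^ q - ι c) ∈ V₂)
    (hpow : ∀ d ∈ V', ϖ''⁻¹ * (d ^ q - c) ∉ V') :
    (∀ y ∈ V₁, y ∈ V₂ → ∃ P : Polynomial V', P.Monic ∧ P.eval₂ (ι.comp V'.subtype) y = 0) ∧
    (∀ y ∈ V₁, ∃ y' ∈ V', (ι ϖ'')⁻¹ * (y - ι y') ∈ V₁) := by
  letI : Algebra F'' F := ι.toAlgebra
  letI : Algebra V' F := (ι.comp V'.subtype).toAlgebra
  haveI : IsScalarTower V' F'' F := IsScalarTower.of_algebraMap_eq (fun _ => rfl)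
  haveI : IsDiscreteValuationRing V' := s34_ei_dvr hV'
  haveI : IsFractionRing V' F'' := s34_ei_frac hV'
  haveI : FiniteDimensional F'' F := hfin
  haveI : Algebra.IsSeparable F'' F := inferInstance
  obtain ⟨ha, -, -, hc'⟩ := s34_ext_main (R := V') (F' := F'') (F := F) q hq hdeg
    (ϖ := ⟨ϖ'', hV'.mem⟩) (s34_ei_irreducible hV')
    (s34_res_vs V₁ hV₁) (s34_res_vs V₂ hV₂)
    (by
      obtain ⟨z, hz1, hz2⟩ := hne
      intro h
      apply hz2
      have h3 : z ∈ s34_res_vs V₁ hV₁ := hz1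
      rw [h] at h3
      exact h3)
    (fun r => h₁ r r.2) hV₁.inv_not_mem (fun r => h₂ r r.2) hV₂.inv_not_mem
    θ ⟨c, hc⟩ hθ (s34_ei_val_lt hV₂ _ hθc)
    (fun d => s34_ei_isUnit hV' _ (hpow d d.2))
  refine ⟨fun y hy1 hy2 => ?_, fun y hy => ?_⟩
  · obtain ⟨P, hP, hPy⟩ := ha y hy1 hy2
    exact ⟨P, hP, hPy⟩
  · obtain ⟨r, hr⟩ := hc' y hy
    exact ⟨r, r.2, hr⟩

end Abstract

section Model

variable {K : Type*} [Field K] [Algebra ℚ K] [Algebra K (AlgebraicClosure ℚ)]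
variable {A₁ : ValuationSubring K}
variable {N ℓ : ℕ} [NeZero N] [NeZero ℓ] [NeZero (N * ℓ)]
variable [IsDiscreteValuationRing A₁] {π : A₁}

local notation "F'" => laurentBaseChange K (modularFunctionFieldFull N)
local notation "FF" => laurentBaseChange K (modularFunctionFieldFull (N * ℓ))

/-- **(EXT-inst), generic coordinate.**  In the model, for a function `x` of level `N` with an
integral `q`-expansion of leading term `q⁻¹`:

* (a') every element of `V∞ ∩ V0` is integral over `α V'`  (the hypothesis `ha` of `s34_ext_cap`);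
* (c') `κ(V∞) = κ(V')`  (the hypothesis `hκ` of `s34_rg_reg`). -/
theorem s34_ei_model [Fact ℓ.Prime] (hℓN : ¬ ℓ ∣ N) (hπ : Irreducible π) (c : A₁)
    (hℓ : (ℓ : A₁) = π * c) (W : FF ≃+* FF)
    (hWϖ : W (algebraMap K FF (π : K)) = algebraMap K FF (π : K))
    (hWα : ∀ x : F', W (heckeAlphaBar K N ℓ x) = heckeBetaBar K N ℓ x)
    (hWβ : ∀ x : F', W (heckeBetaBar K N ℓ x) = heckeAlphaBar K N ℓ x)
    (x : F') (T : LaurentSeries ℤ) (hT : (x : LaurentSeries K) = coeffMap (Int.castRingHom K) T)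
    (hlead : T.coeff (-1) = 1) (hlow : ∀ n < (-1 : ℤ), T.coeff n = 0) :
    (∀ y ∈ s34_gi_V A₁ (N * ℓ), y ∈ (s34_gi_V A₁ (N * ℓ)).comap (W : FF →+* FF) →
      ∃ P : Polynomial (s34_gi_V A₁ N), P.Monic ∧
        P.eval₂ ((heckeAlphaBar K N ℓ).toRingHom.comp (s34_gi_V A₁ N).subtype) y = 0) ∧
    (∀ y ∈ s34_gi_V A₁ (N * ℓ), ∃ y' ∈ s34_gi_V A₁ N,
      (algebraMap K FF (π : K))⁻¹ * (y - (heckeAlphaBar K N ℓ).toRingHom y') ∈
        s34_gi_V A₁ (N * ℓ)) := by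
  have hℓp : ℓ.Prime := Fact.out
  haveI : CharZero K := algebraRat.charZero K
  haveI : CharZero F' := charZero_of_injective_algebraMap (algebraMap K F').injective
  have hιϖ : (heckeAlphaBar K N ℓ).toRingHom (algebraMap K F' (π : K)) =
      algebraMap K FF (π : K) := (heckeAlphaBar K N ℓ).commutes (π : K)
  have hdeg := s34_dg_incl K N ℓ hℓp hℓN
  have hV' := s34_gi_unif (A₁ := A₁) (N := N) hπ
  have hV₁ : s34_Unif ((heckeAlphaBar K N ℓ).toRingHom (algebraMap K F' (π : K)))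
      (s34_gi_V A₁ (N * ℓ)) := by
    rw [hιϖ]
    exact s34_gi_unif hπ
  have hV₂ : s34_Unif ((heckeAlphaBar K N ℓ).toRingHom (algebraMap K F' (π : K)))
      ((s34_gi_V A₁ (N * ℓ)).comap (W : FF →+* FF)) := by
    rw [hιϖ]
    exact s34_gz_V0_unif W hπ hWϖ
  have hθ := s34_gz_theta_model W hπ c hℓ hWϖ hWα hWβ x T hT
  have hnd : ¬ ((ℓ : ℤ) ∣ (-1 : ℤ)) := by
    intro h
    have h1 : (ℓ : ℤ) ∣ 1 := (dvd_neg).mp h
    have h2 : ℓ ∣ 1 := by exact_mod_cast h1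
    exact hℓp.one_lt.ne' (Nat.dvd_one.mp h2)
  have hmain := s34_ei_two (heckeAlphaBar K N ℓ).toRingHom hdeg.1 ℓ hℓp hdeg.2
    (s34_gi_V A₁ N) hV' (s34_gi_V A₁ (N * ℓ)) ((s34_gi_V A₁ (N * ℓ)).comap (W : FF →+* FF))
    hV₁ hV₂
    (fun y hy => (s34_gz_alpha_mem_iff y).mpr hy)
    (fun y hy => (s34_gz_alpha_mem_V0_iff W hπ hWα y).mpr hy)
    (s34_gz_ne_model W hπ c hℓ hWϖ hWα hWβ x T hT (-1) (by norm_num) hlead hlow)
    (heckeBetaBar K N ℓ x) x (s34_gz_mem_int x T hT) hθ.1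
    (by rw [hιϖ]; exact hθ.2)
    (fun d hd => s34_gz_not_pow_model hπ x T hT (-1) hlead hlow hnd d hd)
  rw [hιϖ] at hmain
  exact hmain

/-- The `q`-expansion of the base-changed coordinate of a function with integral `q`-expansion. -/
theorem s34_ei_coord_coe (t : modularFunctionFieldFull N) (T : LaurentSeries ℤ)
    (hT : (t : LaurentSeries ℚ) = coeffMap (Int.castRingHom ℚ) T) :
    ((s18_coord K t : F') : LaurentSeries K) = coeffMap (Int.castRingHom K) T := by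
  show coeffEmb K (t : LaurentSeries ℚ) = _
  rw [hT]
  show coeffMap (algebraMap ℚ K) (coeffMap (Int.castRingHom ℚ) T) = _
  rw [coeffMap_coeffMap]
  exact coeffMap_congr (RingHom.ext_int _ _) T

/-- **(EXT-inst) at the model levels**: `M ∣ N` for `M = 2` or `M = 3` (so that the Hauptmodul
`t_M` of level `N` is available). -/
theorem s34_ei_model_haupt [Fact ℓ.Prime] (hM : 2 ∣ N ∨ 3 ∣ N) (hℓN : ¬ ℓ ∣ N)
    (hπ : Irreducible π) (c : A₁)
    (hℓ : (ℓ : A₁) = π * c) (W : FF ≃+* FF)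
    (hWϖ : W (algebraMap K FF (π : K)) = algebraMap K FF (π : K))
    (hWα : ∀ x : F', W (heckeAlphaBar K N ℓ x) = heckeBetaBar K N ℓ x)
    (hWβ : ∀ x : F', W (heckeBetaBar K N ℓ x) = heckeAlphaBar K N ℓ x) :
    (∀ y ∈ s34_gi_V A₁ (N * ℓ), y ∈ (s34_gi_V A₁ (N * ℓ)).comap (W : FF →+* FF) →
      ∃ P : Polynomial (s34_gi_V A₁ N), P.Monic ∧
        P.eval₂ ((heckeAlphaBar K N ℓ).toRingHom.comp (s34_gi_V A₁ N).subtype) y = 0) ∧
    (∀ y ∈ s34_gi_V A₁ (N * ℓ), ∃ y' ∈ s34_gi_V A₁ N,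
      (algebraMap K FF (π : K))⁻¹ * (y - (heckeAlphaBar K N ℓ).toRingHom y') ∈
        s34_gi_V A₁ (N * ℓ)) := by
  rcases hM with h2 | h3
  · exact s34_ei_model hℓN hπ c hℓ W hWϖ hWα hWβ (s18_coord K (s18_cz_t2 N h2)) s18_t2
      (s34_ei_coord_coe _ _ (s18_cz_hT_t2 N h2)) s18_cz_isLeading_t2.1 s18_cz_isLeading_t2.2
  · exact s34_ei_model hℓN hπ c hℓ W hWϖ hWα hWβ (s18_coord K (s18_cz_t3 N h3)) s18_t3
      (s34_ei_coord_coe _ _ (s18_cz_hT_t3 N h3)) s18_cz_isLeading_t3.1 s18_cz_isLeading_t3.2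

end Model

end Fermat.Agent.S34
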