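import Mathlib

/-!
# S34 (project NODE): the abstract node lemma (CG)

`A` a discrete valuation ring with uniformizer `π`, `R` a noetherian local domain over `A` with
residue field `A / π` ("the local ring of the two-component chart at a crossing point"), and two
primes `𝔓∞`, `𝔓0` of `R` with

* (N1) `π R = 𝔓∞ ∩ 𝔓0`,
* (N2/N3) the maximal ideal is generated modulo `𝔓∞` by one element `x ∈ 𝔓0` and modulo `𝔓0` by one
  element `y ∈ 𝔓∞` (the two branches are regular and cross transversally).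

Let `s : R →ₐ[A] A` be a section (an `A`-point through the node) whose kernel `𝔭` is locally
principal at `𝔭` (witnessed by `T`, `t0` outside `𝔓∞ ∪ 𝔓0`).  Then there is `ψ ∈ 𝔭` which
generates `𝔭` locally at `𝔭`, and such that every prime `𝔮 ∌ π` containing `ψ` contains `𝔭`:
the divisor of `ψ` on `Spec R` is `𝔭` plus vertical components.

The proof is elementary: the approximate normal form `x_n y_n = π c_n + π^(n+1) d_n`
(`s34_cg_normal_form`), the identity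
`(x_n - π^(n+1) β) (y_n - b) = (π^(n+1) α - b) (x_n - a)`, and a finite-level argument showing
that for `n` at least the valuation of `s t0` one of `s x_n`, `s y_n` is not divisible by `π^(n+1)`.
-/

set_option autoImplicit false

namespace Fermat.Agent.S34

open IsLocalRing

section Cancel

variable {R : Type*} [CommRing R] [IsDomain R]

/-- Cancellation: if `ϖ R = 𝔓∞ ∩ 𝔓0` with both ideals prime and `c` lies in neither, then
`c z ∈ ϖ^j R` implies `z ∈ ϖ^j R`. -/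
theorem s34_cg_cancel (ϖ : R) (hϖne : ϖ ≠ 0) (Pinf P0 : Ideal R) [hPi : Pinf.IsPrime]
    [hP0 : P0.IsPrime] (hϖinf : ϖ ∈ Pinf) (hϖ0 : ϖ ∈ P0)
    (hN1 : ∀ z ∈ Pinf, z ∈ P0 → ∃ r, z = ϖ * r)
    (c : R) (hcinf : c ∉ Pinf) (hc0 : c ∉ P0) :
    ∀ (j : ℕ) (z : R), (∃ r, c * z = ϖ ^ j * r) → ∃ r, z = ϖ ^ j * r := by
  intro j
  induction j with
  | zero => intro z _; exact ⟨z, by simp⟩
  | succ j ih =>
    rintro z ⟨r, hr⟩
    have h1 : c * z ∈ Pinf := by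
      rw [hr, pow_succ, mul_assoc]
      exact Ideal.mul_mem_left _ _ (Ideal.mul_mem_right _ _ hϖinf)
    have h2 : c * z ∈ P0 := by
      rw [hr, pow_succ, mul_assoc]
      exact Ideal.mul_mem_left _ _ (Ideal.mul_mem_right _ _ hϖ0)
    have hz1 : z ∈ Pinf := (hPi.mem_or_mem h1).resolve_left hcinf
    have hz2 : z ∈ P0 := (hP0.mem_or_mem h2).resolve_left hc0
    obtain ⟨z', rfl⟩ := hN1 z hz1 hz2
    have h3 : c * z' = ϖ ^ j * r := by
      apply mul_left_cancel₀ hϖne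
      rw [pow_succ] at hr
      linear_combination hr
    obtain ⟨r', hr'⟩ := ih z' ⟨r, h3⟩
    exact ⟨r', by rw [hr', pow_succ]; ring⟩

/-- The iteration lemma: if `𝔓0 = (x, ϖ)`, `y ∉ 𝔓0` and `x y ∈ ϖ^N R`, then for `j ≤ N`,
`z y ∈ ϖ^j R` implies `z ∈ x R + ϖ^j R`. -/
theorem s34_cg_iter (ϖ : R) (hϖne : ϖ ≠ 0) (P0 : Ideal R) [hP0 : P0.IsPrime] (hϖ0 : ϖ ∈ P0)
    (x y : R) (hP0gen : ∀ z ∈ P0, ∃ r₁ r₂, z = x * r₁ + ϖ * r₂) (hy : y ∉ P0)
    (N : ℕ) (hxy : ∃ r, x * y = ϖ ^ N * r) :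
    ∀ (j : ℕ), j ≤ N → ∀ z : R, (∃ r, z * y = ϖ ^ j * r) → ∃ r₁ r₂, z = x * r₁ + ϖ ^ j * r₂ := by
  intro j
  induction j with
  | zero => intro _ z _; exact ⟨0, z, by simp⟩
  | succ j ih =>
    rintro hj z ⟨r, hr⟩
    have h1 : z * y ∈ P0 := by
      rw [hr, pow_succ, mul_assoc]
      exact Ideal.mul_mem_left _ _ (Ideal.mul_mem_right _ _ hϖ0)
    have hz : z ∈ P0 := (hP0.mem_or_mem h1).resolve_right hy
    obtain ⟨z₁, z₂, rfl⟩ := hP0gen z hz
    obtain ⟨e, he⟩ := hxy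
    obtain ⟨k, hk⟩ : ∃ k, N = j + 1 + k := ⟨N - (j + 1), by omega⟩
    have h2 : z₂ * y = ϖ ^ j * (r - z₁ * ϖ ^ k * e) := by
      apply mul_left_cancel₀ hϖne
      rw [hk] at he
      rw [pow_succ] at hr
      rw [pow_add, pow_succ] at he
      linear_combination hr - z₁ * he
    obtain ⟨w₁, w₂, hw⟩ := ih (by omega) z₂ ⟨_, h2⟩
    exact ⟨z₁ + ϖ * w₁, w₂, by rw [hw, pow_succ]; ring⟩

end Cancel

section NormalForm

variable {A R : Type*} [CommRing A] [CommRing R] [IsLocalRing R] [Algebra A R]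

/-- The approximate normal form at a node: if `x y ∈ π R`, the maximal ideal is `(x, y, π)` and
the residue field is covered by `A`, then for every `n` there are `x_n ≡ x`, `y_n ≡ y` modulo `π`
with `x_n y_n = π c_n + π^(n+1) d_n`, `c_n ∈ A`. -/
theorem s34_cg_normal_form (π : A) (ϖ : R) (hϖπ : algebraMap A R π = ϖ) (x y : R)
    (hxy : ∃ r, x * y = ϖ * r)
    (hmgen : ∀ m ∈ maximalIdeal R, ∃ r₁ r₂ r₃, m = x * r₁ + y * r₂ + ϖ * r₃)
    (hres : ∀ r : R, ∃ a : A, r - algebraMap A R a ∈ maximalIdeal R) (n : ℕ) :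
    ∃ (xn yn : R) (c : A) (d : R), (∃ r, xn = x + ϖ * r) ∧ (∃ r, yn = y + ϖ * r) ∧
      xn * yn = ϖ * algebraMap A R c + ϖ ^ (n + 1) * d := by
  induction n with
  | zero =>
    obtain ⟨r, hr⟩ := hxy
    exact ⟨x, y, 0, r, ⟨0, by simp⟩, ⟨0, by simp⟩, by rw [hr]; simp⟩
  | succ n ih =>
    obtain ⟨xn, yn, c, d, ⟨rx, hrx⟩, ⟨ry, hry⟩, hnf⟩ := ih
    obtain ⟨γ, hγ⟩ := hres d
    obtain ⟨a', b', d', hm⟩ := hmgen _ hγ
    have hd : d = algebraMap A R γ + xn * a' + yn * b' + ϖ * (d' - rx * a' - ry * b') := by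
      rw [hrx, hry]; linear_combination hm
    refine ⟨xn - ϖ ^ (n + 1) * b', yn - ϖ ^ (n + 1) * a',
      c + π ^ n * γ, (d' - rx * a' - ry * b') + ϖ ^ n * a' * b',
      ⟨rx - ϖ ^ n * b', ?_⟩, ⟨ry - ϖ ^ n * a', ?_⟩, ?_⟩
    · rw [hrx, pow_succ]; ring
    · rw [hry, pow_succ]; ring
    · rw [map_add, map_mul, map_pow, hϖπ]
      linear_combination hnf + ϖ ^ (n + 1) * hd

end NormalForm

section Main

variable {A R : Type*} [CommRing A] [IsDomain A] [IsDiscreteValuationRing A]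
  [CommRing R] [IsDomain R] [IsLocalRing R] [IsNoetherianRing R] [Algebra A R]

/-- The node lemma (CG), with the image `ϖ` of the uniformizer as a variable. -/
theorem s34_node_cg_aux (π : A) (hπ : Irreducible π) (ϖ : R) (hϖπ : algebraMap A R π = ϖ)
    (Pinf P0 : Ideal R) [hPi : Pinf.IsPrime] [hP0 : P0.IsPrime]
    (hϖinf : ϖ ∈ Pinf) (hϖ0 : ϖ ∈ P0)
    (hN1 : ∀ z ∈ Pinf, z ∈ P0 → ∃ r, z = ϖ * r)
    (x : R) (hx0 : x ∈ P0) (hx : ∀ m ∈ maximalIdeal R, ∃ r, m - x * r ∈ Pinf)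
    (y : R) (hyinf : y ∈ Pinf) (hy : ∀ m ∈ maximalIdeal R, ∃ r, m - y * r ∈ P0)
    (hres : ∀ r : R, ∃ a : A, r - algebraMap A R a ∈ maximalIdeal R)
    (s : R →ₐ[A] A)
    (T t0 : R) (hT : s T = 0) (hTinf : T ∉ Pinf) (hT0 : T ∉ P0)
    (ht0 : s t0 ≠ 0) (ht0inf : t0 ∉ Pinf) (ht00 : t0 ∉ P0)
    (hprinc : ∀ z : R, s z = 0 → ∃ r, t0 * z = T * r) :
    ∃ ψ t : R, s ψ = 0 ∧ s t ≠ 0 ∧ (∀ z : R, s z = 0 → ∃ r, t * z = ψ * r) ∧
      ∀ 𝔮 : Ideal R, 𝔮.IsPrime → ψ ∈ 𝔮 → ϖ ∉ 𝔮 → ∀ z : R, s z = 0 → z ∈ 𝔮 := by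
  classical
  have hπne : π ≠ 0 := hπ.ne_zero
  have hsalg : ∀ a : A, s (algebraMap A R a) = a := fun a => s.commutes a
  have hsϖ : s ϖ = π := by rw [← hϖπ]; exact hsalg π
  have hmapπ : ∀ k : ℕ, algebraMap A R (π ^ k) = ϖ ^ k := fun k => by rw [map_pow, hϖπ]
  have hϖne : ϖ ≠ 0 := by
    intro h
    rw [h, map_zero] at hsϖ
    exact hπne hsϖ.symm
  have hPinf_le : Pinf ≤ maximalIdeal R := le_maximalIdeal hPi.ne_top
  have hP0_le : P0 ≤ maximalIdeal R := le_maximalIdeal hP0.ne_top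
  have hϖm : ϖ ∈ maximalIdeal R := hPinf_le hϖinf
  -- the kernel of `s` is a proper ideal
  have hker_le : ∀ z : R, s z = 0 → z ∈ maximalIdeal R := by
    intro z hz
    have hne : RingHom.ker (s : R →+* A) ≠ ⊤ := by
      intro h
      have h1 : (1 : R) ∈ RingHom.ker (s : R →+* A) := by rw [h]; trivial
      rw [RingHom.mem_ker] at h1
      simp at h1
    exact le_maximalIdeal hne (by rw [RingHom.mem_ker]; exact hz)
  -- `s` is a local homomorphism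
  have hsm : ∀ m ∈ maximalIdeal R, π ∣ s m := by
    intro m hm
    by_contra hnd
    have hu : IsUnit (s m) := by
      by_contra hnu
      have h1 : s m ∈ maximalIdeal A := (mem_maximalIdeal _).mpr hnu
      rw [hπ.maximalIdeal_eq, Ideal.mem_span_singleton] at h1
      exact hnd h1
    have h2 : s (m - algebraMap A R (s m)) = 0 := by rw [map_sub, hsalg, sub_self]
    have h3 := hker_le _ h2
    have h4 : algebraMap A R (s m) ∈ maximalIdeal R := by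
      have := (maximalIdeal R).sub_mem hm h3
      simpa using this
    exact (mem_maximalIdeal _).mp h4 (hu.map (algebraMap A R))
  have hTm : T ∈ maximalIdeal R := hker_le T hT
  have hTne : T ≠ 0 := fun h => hTinf (h ▸ Pinf.zero_mem)
  have hy_not0 : y ∉ P0 := by
    intro hy0
    obtain ⟨r, hr⟩ := hy T hTm
    apply hT0
    have := P0.add_mem hr (P0.mul_mem_right r hy0)
    simpa using this
  have hx_notinf : x ∉ Pinf := by
    intro hxi
    obtain ⟨r, hr⟩ := hx T hTm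
    apply hTinf
    have := Pinf.add_mem hr (Pinf.mul_mem_right r hxi)
    simpa using this
  -- generators
  have hP0gen : ∀ z ∈ P0, ∃ r₁ r₂, z = x * r₁ + ϖ * r₂ := by
    intro z hz
    obtain ⟨r, hr⟩ := hx z (hP0_le hz)
    obtain ⟨r₂, hr₂⟩ := hN1 _ hr (P0.sub_mem hz (P0.mul_mem_right r hx0))
    exact ⟨r, r₂, by linear_combination hr₂⟩
  have hPinfgen : ∀ z ∈ Pinf, ∃ r₁ r₂, z = y * r₁ + ϖ * r₂ := by
    intro z hz
    obtain ⟨r, hr⟩ := hy z (hPinf_le hz)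
    obtain ⟨r₂, hr₂⟩ := hN1 _ (Pinf.sub_mem hz (Pinf.mul_mem_right r hyinf)) hr
    exact ⟨r, r₂, by linear_combination hr₂⟩
  have hmgen : ∀ m ∈ maximalIdeal R, ∃ r₁ r₂ r₃, m = x * r₁ + y * r₂ + ϖ * r₃ := by
    intro m hm
    obtain ⟨r, hr⟩ := hx m hm
    obtain ⟨r₂, r₃, h⟩ := hPinfgen _ hr
    exact ⟨r, r₂, r₃, by linear_combination h⟩
  have hxy : ∃ r, x * y = ϖ * r :=
    hN1 _ (Pinf.mul_mem_left x hyinf) (P0.mul_mem_right y hx0)
  -- choice of the level `n`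
  obtain ⟨n, u, hnu⟩ := IsDiscreteValuationRing.eq_unit_mul_pow_irreducible ht0 hπ
  have hnot : ¬ π ^ (n + 1) ∣ s t0 := by
    rintro ⟨w, hw⟩
    rw [hnu, pow_succ, mul_assoc] at hw
    have h1 : (u : A) = π * w := by
      apply mul_left_cancel₀ (pow_ne_zero n hπne)
      linear_combination hw
    exact hπ.not_isUnit (isUnit_of_dvd_unit ⟨w, h1⟩ u.isUnit)
  obtain ⟨xn, yn, c, d, ⟨rx, hrx⟩, ⟨ry, hry⟩, hnf⟩ := s34_cg_normal_form π ϖ hϖπ x y hxy hmgen hres n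
  have hxn0 : xn ∈ P0 := by rw [hrx]; exact P0.add_mem hx0 (P0.mul_mem_right _ hϖ0)
  have hyninf : yn ∈ Pinf := by rw [hry]; exact Pinf.add_mem hyinf (Pinf.mul_mem_right _ hϖinf)
  have hxnm : xn ∈ maximalIdeal R := hP0_le hxn0
  have hynm : yn ∈ maximalIdeal R := hPinf_le hyninf
  have hyn_not0 : yn ∉ P0 := by
    intro h
    apply hy_not0
    have : y = yn - ϖ * ry := by rw [hry]; ring
    rw [this]
    exact P0.sub_mem h (P0.mul_mem_right _ hϖ0)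
  have hxn_notinf : xn ∉ Pinf := by
    intro h
    apply hx_notinf
    have : x = xn - ϖ * rx := by rw [hrx]; ring
    rw [this]
    exact Pinf.sub_mem h (Pinf.mul_mem_right _ hϖinf)
  have hP0gen' : ∀ z ∈ P0, ∃ r₁ r₂, z = xn * r₁ + ϖ * r₂ := by
    intro z hz
    obtain ⟨r₁, r₂, h⟩ := hP0gen z hz
    exact ⟨r₁, r₂ - rx * r₁, by rw [h, hrx]; ring⟩
  have hPinfgen' : ∀ z ∈ Pinf, ∃ r₁ r₂, z = yn * r₁ + ϖ * r₂ := by
    intro z hz
    obtain ⟨r₁, r₂, h⟩ := hPinfgen z hz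
    exact ⟨r₁, r₂ - ry * r₁, by rw [h, hry]; ring⟩
  have hmgen' : ∀ m ∈ maximalIdeal R, ∃ r₁ r₂ r₃, m = xn * r₁ + yn * r₂ + ϖ * r₃ := by
    intro m hm
    obtain ⟨r₁, r₂, r₃, h⟩ := hmgen m hm
    exact ⟨r₁, r₂, r₃ - rx * r₁ - ry * r₂, by rw [h, hrx, hry]; ring⟩
  -- the point
  obtain ⟨a, ha⟩ : ∃ a : A, a = s xn := ⟨_, rfl⟩
  obtain ⟨b, hb⟩ : ∃ b : A, b = s yn := ⟨_, rfl⟩
  obtain ⟨a₁, ha₁⟩ := hsm xn hxnm
  obtain ⟨b₁, hb₁⟩ := hsm yn hynm
  rw [← ha] at ha₁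
  rw [← hb] at hb₁
  obtain ⟨X, hX⟩ : ∃ X : R, X = xn - algebraMap A R a := ⟨_, rfl⟩
  obtain ⟨Y, hY⟩ : ∃ Y : R, Y = yn - algebraMap A R b := ⟨_, rfl⟩
  have hsX : s X = 0 := by rw [hX, map_sub, hsalg, ha, sub_self]
  have hsY : s Y = 0 := by rw [hY, map_sub, hsalg, hb, sub_self]
  -- the kernel is generated by `X`, `Y` (Nakayama)
  have hgen : ∀ z : R, s z = 0 → ∃ r₁ r₂, z = X * r₁ + Y * r₂ := by
    have hle : RingHom.ker (s : R →+* A) ≤ Ideal.span {X, Y} := by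
      apply Submodule.le_of_le_smul_of_le_jacobson_bot (I := Ideal.span {ϖ})
        (IsNoetherian.noetherian _)
      · rw [IsLocalRing.jacobson_eq_maximalIdeal _ bot_ne_top, Ideal.span_singleton_le_iff_mem]
        exact hϖm
      · intro z hz
        rw [RingHom.mem_ker] at hz
        have hz' : s z = 0 := hz
        obtain ⟨r₁, r₂, r₃, h⟩ := hmgen' z (hker_le z hz')
        obtain ⟨δ, hδ⟩ : ∃ δ : R, δ = algebraMap A R a₁ * r₁ + algebraMap A R b₁ * r₂ + r₃ :=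
          ⟨_, rfl⟩
        have hzδ : z = X * r₁ + Y * r₂ + ϖ * δ := by
          rw [h, hX, hY, ha₁, hb₁, hδ, map_mul, map_mul, hϖπ]; ring
        have hsδ : s δ = 0 := by
          have h1 : s z = π * s δ := by
            rw [hzδ, map_add, map_add, map_mul, map_mul, map_mul, hsX, hsY, hsϖ]; ring
          rw [hz'] at h1
          exact (mul_eq_zero.mp h1.symm).resolve_left hπne
        rw [hzδ]
        refine Submodule.add_mem_sup ?_ ?_
        · exact Ideal.add_mem _ (Ideal.mul_mem_right _ _ (Ideal.subset_span (by simp)))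
            (Ideal.mul_mem_right _ _ (Ideal.subset_span (by simp)))
        · rw [Ideal.smul_eq_mul]
          exact Ideal.mul_mem_mul (Ideal.mem_span_singleton_self ϖ)
            (by rw [RingHom.mem_ker]; exact hsδ)
    intro z hz
    have := hle (by rw [RingHom.mem_ker]; exact hz : z ∈ RingHom.ker (s : R →+* A))
    rw [Ideal.mem_span_pair] at this
    obtain ⟨r₁, r₂, h⟩ := this
    exact ⟨r₁, r₂, by rw [← h]; ring⟩
  -- the relation
  have hab : a * b = π * c + π ^ (n + 1) * s d := by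
    rw [ha, hb, ← map_mul, hnf, map_add, map_mul, map_mul, map_pow, hsϖ, hsalg]
  have hab' : algebraMap A R a * algebraMap A R b =
      ϖ * algebraMap A R c + ϖ ^ (n + 1) * algebraMap A R (s d) := by
    rw [← map_mul, hab, map_add, map_mul, map_mul, map_pow, hϖπ]
  obtain ⟨α, β, hαβ⟩ := hgen (d - algebraMap A R (s d)) (by rw [map_sub, hsalg, sub_self])
  have hstar : (xn - ϖ ^ (n + 1) * β) * Y = (ϖ ^ (n + 1) * α - algebraMap A R b) * X := by
    rw [hX, hY] at hαβ ⊢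
    linear_combination hnf - hab' + ϖ ^ (n + 1) * hαβ
  have hstar' : (yn - ϖ ^ (n + 1) * α) * X = (ϖ ^ (n + 1) * β - algebraMap A R a) * Y := by
    rw [hX, hY] at hαβ ⊢
    linear_combination hnf - hab' + ϖ ^ (n + 1) * hαβ
  -- a unit lemma
  have hunit : ∀ (e : A) (w : R) (k : ℕ), e ≠ 0 → ¬ π ^ (n + 1) ∣ e →
      ∀ 𝔮 : Ideal R, 𝔮.IsPrime → algebraMap A R e - ϖ ^ (n + 1) * w ∈ 𝔮 → ϖ ∈ 𝔮 := by
    intro e w _ he0 hend 𝔮 h𝔮 hmem
    obtain ⟨j, v, hjv⟩ := IsDiscreteValuationRing.eq_unit_mul_pow_irreducible he0 hπ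
    have hjn : j ≤ n := by
      by_contra hlt
      apply hend
      rw [hjv]
      exact Dvd.dvd.mul_left (pow_dvd_pow π (by omega)) _
    obtain ⟨k, hk⟩ : ∃ k, n + 1 = j + (k + 1) := ⟨n - j, by omega⟩
    have hfac : algebraMap A R e - ϖ ^ (n + 1) * w =
        ϖ ^ j * (algebraMap A R (v : A) - ϖ ^ (k + 1) * w) := by
      rw [hjv, map_mul, map_pow, hϖπ, hk, pow_add]; ring
    have hu : IsUnit (algebraMap A R (v : A) - ϖ ^ (k + 1) * w) := by
      by_contra hnu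
      have h1 : algebraMap A R (v : A) - ϖ ^ (k + 1) * w ∈ maximalIdeal R :=
        (mem_maximalIdeal _).mpr hnu
      have h2 : ϖ ^ (k + 1) * w ∈ maximalIdeal R := by
        rw [pow_succ, mul_assoc, mul_comm (ϖ ^ k), mul_assoc]
        exact Ideal.mul_mem_right _ _ hϖm
      have h3 : algebraMap A R (v : A) ∈ maximalIdeal R := by
        have := (maximalIdeal R).add_mem h1 h2
        simpa using this
      exact (mem_maximalIdeal _).mp h3 (v.isUnit.map (algebraMap A R))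
    rw [hfac] at hmem
    have h4 : ϖ ^ j ∈ 𝔮 := (h𝔮.mem_or_mem hmem).resolve_right
      (fun h => h𝔮.ne_top (Ideal.eq_top_of_isUnit_mem _ h hu))
    exact h𝔮.mem_of_pow_mem j h4
  by_cases hA : π ^ (n + 1) ∣ a
  · by_cases hB : π ^ (n + 1) ∣ b
    · -- the bad case is impossible
      exfalso
      apply hnot
      obtain ⟨a₂, ha₂⟩ := hA
      obtain ⟨b₂, hb₂⟩ := hB
      -- `x_n y_n ∈ π^(n+1) R`
      have hc : π * c = π ^ (n + 1) * (π ^ (n + 1) * a₂ * b₂ - s d) := by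
        rw [ha₂, hb₂] at hab
        linear_combination -hab
      have hc' : ϖ * algebraMap A R c =
          ϖ ^ (n + 1) * algebraMap A R (π ^ (n + 1) * a₂ * b₂ - s d) := by
        rw [← hϖπ, ← map_pow, ← map_mul, ← map_mul, hc]
      have hxyn : ∃ r, xn * yn = ϖ ^ (n + 1) * r :=
        ⟨algebraMap A R (π ^ (n + 1) * a₂ * b₂ - s d) + d, by rw [hnf, hc']; ring⟩
      have hxyn' : ∃ r, yn * xn = ϖ ^ (n + 1) * r := by
        obtain ⟨r, hr⟩ := hxyn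
        exact ⟨r, by rw [mul_comm, hr]⟩
      have haR : algebraMap A R a = ϖ ^ (n + 1) * algebraMap A R a₂ := by
        rw [ha₂, map_mul, map_pow, hϖπ]
      have hbR : algebraMap A R b = ϖ ^ (n + 1) * algebraMap A R b₂ := by
        rw [hb₂, map_mul, map_pow, hϖπ]
      have hXY : ∃ r, X * Y = ϖ ^ (n + 1) * r := by
        obtain ⟨r, hr⟩ := hxyn
        refine ⟨r - algebraMap A R a₂ * yn - algebraMap A R b₂ * xn +
          algebraMap A R a₂ * algebraMap A R b, ?_⟩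
        rw [hX, hY]
        linear_combination hr - (yn - algebraMap A R b) * haR - xn * hbR
      obtain ⟨f, hf⟩ := hprinc X hsX
      obtain ⟨g, hg⟩ := hprinc Y hsY
      obtain ⟨σ, ρ, hσρ⟩ := hgen T hT
      have ht0eq : t0 = σ * f + ρ * g := by
        apply mul_left_cancel₀ hTne
        linear_combination t0 * hσρ + σ * hf + ρ * hg
      have hTT_inf : T * T ∉ Pinf := fun h => hTinf ((hPi.mem_or_mem h).elim id id)
      have hTT_0 : T * T ∉ P0 := fun h => hT0 ((hP0.mem_or_mem h).elim id id)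
      have hfg : ∃ r, f * g = ϖ ^ (n + 1) * r := by
        obtain ⟨r, hr⟩ := hXY
        refine s34_cg_cancel ϖ hϖne Pinf P0 hϖinf hϖ0 hN1 (T * T) hTT_inf hTT_0 (n + 1) (f * g)
          ⟨t0 * t0 * r, ?_⟩
        linear_combination (-(T * g)) * hf - (t0 * X) * hg + t0 * t0 * hr
      have hfy : ∃ r, f * yn = ϖ ^ (n + 1) * r := by
        obtain ⟨r, hr⟩ := hfg
        refine s34_cg_cancel ϖ hϖne Pinf P0 hϖinf hϖ0 hN1 t0 ht0inf ht00 (n + 1) (f * yn)
          ⟨T * r + f * t0 * algebraMap A R b₂, ?_⟩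
        rw [hY] at hg
        linear_combination f * hg + T * hr + f * t0 * hbR
      have hgx : ∃ r, g * xn = ϖ ^ (n + 1) * r := by
        obtain ⟨r, hr⟩ := hfg
        refine s34_cg_cancel ϖ hϖne Pinf P0 hϖinf hϖ0 hN1 t0 ht0inf ht00 (n + 1) (g * xn)
          ⟨T * r + g * t0 * algebraMap A R a₂, ?_⟩
        rw [hX] at hf
        linear_combination g * hf + T * hr + g * t0 * haR
      obtain ⟨f₁, f₂, hf12⟩ := s34_cg_iter ϖ hϖne P0 hϖ0 xn yn hP0gen' hyn_not0 (n + 1) hxyn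
        (n + 1) le_rfl f hfy
      obtain ⟨g₁, g₂, hg12⟩ := s34_cg_iter ϖ hϖne Pinf hϖinf yn xn hPinfgen' hxn_notinf (n + 1)
        hxyn' (n + 1) le_rfl g hgx
      have hsf : s f = π ^ (n + 1) * (a₂ * s f₁ + s f₂) := by
        rw [hf12, map_add, map_mul, map_mul, map_pow, hsϖ, ← ha, ha₂]; ring
      have hsg : s g = π ^ (n + 1) * (b₂ * s g₁ + s g₂) := by
        rw [hg12, map_add, map_mul, map_mul, map_pow, hsϖ, ← hb, hb₂]; ring
      refine ⟨s σ * (a₂ * s f₁ + s f₂) + s ρ * (b₂ * s g₁ + s g₂), ?_⟩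
      rw [ht0eq, map_add, map_mul, map_mul, hsf, hsg]; ring
    · -- `ψ = Y`
      have hb0 : b ≠ 0 := fun h => hB (h ▸ dvd_zero _)
      refine ⟨Y, yn - ϖ ^ (n + 1) * α, hsY, ?_, ?_, ?_⟩
      · intro h
        apply hB
        rw [map_sub, map_mul, map_pow, hsϖ, ← hb, sub_eq_zero] at h
        exact ⟨s α, h⟩
      · intro z hz
        obtain ⟨r₁, r₂, h⟩ := hgen z hz
        refine ⟨(ϖ ^ (n + 1) * β - algebraMap A R a) * r₁ + (yn - ϖ ^ (n + 1) * α) * r₂, ?_⟩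
        rw [h]
        linear_combination r₁ * hstar'
      · intro 𝔮 h𝔮 hψ hϖ𝔮 z hz
        obtain ⟨r₁, r₂, h⟩ := hgen z hz
        have h1 : (yn - ϖ ^ (n + 1) * α) * X ∈ 𝔮 := by
          rw [hstar']; exact 𝔮.mul_mem_left _ hψ
        rcases h𝔮.mem_or_mem h1 with h2 | h2
        · exfalso
          apply hϖ𝔮
          apply hunit b α 0 hb0 hB 𝔮 h𝔮
          have : algebraMap A R b - ϖ ^ (n + 1) * α = (yn - ϖ ^ (n + 1) * α) - Y := by
            rw [hY]; ring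
          rw [this]
          exact 𝔮.sub_mem h2 hψ
        · rw [h]
          exact 𝔮.add_mem (𝔮.mul_mem_right _ h2) (𝔮.mul_mem_right _ hψ)
  · -- `ψ = X`
    have ha0 : a ≠ 0 := fun h => hA (h ▸ dvd_zero _)
    refine ⟨X, xn - ϖ ^ (n + 1) * β, hsX, ?_, ?_, ?_⟩
    · intro h
      apply hA
      rw [map_sub, map_mul, map_pow, hsϖ, ← ha, sub_eq_zero] at h
      exact ⟨s β, h⟩
    · intro z hz
      obtain ⟨r₁, r₂, h⟩ := hgen z hz
      refine ⟨(xn - ϖ ^ (n + 1) * β) * r₁ + (ϖ ^ (n + 1) * α - algebraMap A R b) * r₂, ?_⟩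
      rw [h]
      linear_combination r₂ * hstar
    · intro 𝔮 h𝔮 hψ hϖ𝔮 z hz
      obtain ⟨r₁, r₂, h⟩ := hgen z hz
      have h1 : (xn - ϖ ^ (n + 1) * β) * Y ∈ 𝔮 := by
        rw [hstar]; exact 𝔮.mul_mem_left _ hψ
      rcases h𝔮.mem_or_mem h1 with h2 | h2
      · exfalso
        apply hϖ𝔮
        apply hunit a β 0 ha0 hA 𝔮 h𝔮
        have : algebraMap A R a - ϖ ^ (n + 1) * β = (xn - ϖ ^ (n + 1) * β) - X := by
          rw [hX]; ring
        rw [this]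
        exact 𝔮.sub_mem h2 hψ
      · rw [h]
        exact 𝔮.add_mem (𝔮.mul_mem_right _ hψ) (𝔮.mul_mem_right _ h2)

/-- **The node lemma (CG).**  See the module docstring. -/
theorem s34_node_cg (π : A) (hπ : Irreducible π) (Pinf P0 : Ideal R) [hPi : Pinf.IsPrime]
    [hP0 : P0.IsPrime]
    (hϖinf : algebraMap A R π ∈ Pinf) (hϖ0 : algebraMap A R π ∈ P0)
    (hN1 : ∀ z ∈ Pinf, z ∈ P0 → ∃ r, z = algebraMap A R π * r)
    (x : R) (hx0 : x ∈ P0) (hx : ∀ m ∈ maximalIdeal R, ∃ r, m - x * r ∈ Pinf)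
    (y : R) (hyinf : y ∈ Pinf) (hy : ∀ m ∈ maximalIdeal R, ∃ r, m - y * r ∈ P0)
    (hres : ∀ r : R, ∃ a : A, r - algebraMap A R a ∈ maximalIdeal R)
    (s : R →ₐ[A] A)
    (T t0 : R) (hT : s T = 0) (hTinf : T ∉ Pinf) (hT0 : T ∉ P0)
    (ht0 : s t0 ≠ 0) (ht0inf : t0 ∉ Pinf) (ht00 : t0 ∉ P0)
    (hprinc : ∀ z : R, s z = 0 → ∃ r, t0 * z = T * r) :
    ∃ ψ t : R, s ψ = 0 ∧ s t ≠ 0 ∧ (∀ z : R, s z = 0 → ∃ r, t * z = ψ * r) ∧
      ∀ 𝔮 : Ideal R, 𝔮.IsPrime → ψ ∈ 𝔮 → algebraMap A R π ∉ 𝔮 → ∀ z : R, s z = 0 → z ∈ 𝔮 :=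
  s34_node_cg_aux π hπ (algebraMap A R π) rfl Pinf P0 hϖinf hϖ0 hN1 x hx0 hx y hyinf hy hres s
    T t0 hT hTinf hT0 ht0 ht0inf ht00 hprinc

end Main

end Fermat.Agent.S34
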