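import Mathlib
import Fermat.Agent.S18.ChartDefs
import Fermat.Agent.S18.Gauss
import Fermat.Agent.S34.NodeCG

/-!
# S34 (project NODE), leaf (NG): the function `G` at a node

* `s34_node_cg'` : the node lemma (CG) of `NodeCG.lean` with the hypothesis "the kernel of the
  section is locally principal" in its plain form (no conditions on the witnesses): the witnesses
  outside `𝔓∞ ∪ 𝔓0` required by `s34_node_cg` are produced by a hand-made prime avoidance.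
* `s34_node_G` : chart language.  `B` a noetherian subring of the field `F` (a chart over the
  discrete valuation ring `A₀`), `𝔪` a maximal ideal which is a transversal crossing point of the
  two components `𝔓∞`, `𝔓0` of the special fibre, rational over the residue field of `A₀`.  Let
  `g ≠ 0` be a function all of whose orders at the horizontal primes through `𝔪` are divisible by
  `p` and such that every horizontal prime through `𝔪` at which `g` is not a unit is an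
  `A₀`-point.  Then there is `G ≠ 0` with `g / G ^ p` a unit at every horizontal prime through
  `𝔪`.
-/

set_option autoImplicit false

namespace Fermat.Agent.S34

open IsLocalRing Fermat.Agent.S18

section Abstract

variable {A R : Type*} [CommRing A] [IsDomain A] [IsDiscreteValuationRing A]
  [CommRing R] [IsDomain R] [IsLocalRing R] [IsNoetherianRing R] [Algebra A R]

/-- The node lemma (CG) with plain local principality of the kernel of the section. -/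
theorem s34_node_cg' (π : A) (hπ : Irreducible π) (Pinf P0 : Ideal R) [hPi : Pinf.IsPrime]
    [hP0 : P0.IsPrime]
    (hϖinf : algebraMap A R π ∈ Pinf) (hϖ0 : algebraMap A R π ∈ P0)
    (hN1 : ∀ z ∈ Pinf, z ∈ P0 → ∃ r, z = algebraMap A R π * r)
    (x : R) (hx0 : x ∈ P0) (hxinf : x ∉ Pinf)
    (hx : ∀ m ∈ maximalIdeal R, ∃ r, m - x * r ∈ Pinf)
    (y : R) (hyinf : y ∈ Pinf) (hy0 : y ∉ P0)
    (hy : ∀ m ∈ maximalIdeal R, ∃ r, m - y * r ∈ P0)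
    (hres : ∀ r : R, ∃ a : A, r - algebraMap A R a ∈ maximalIdeal R)
    (s : R →ₐ[A] A)
    (T' t' : R) (hT' : s T' = 0) (ht' : s t' ≠ 0)
    (hprinc' : ∀ z : R, s z = 0 → ∃ r, t' * z = T' * r) :
    ∃ ψ t : R, s ψ = 0 ∧ s t ≠ 0 ∧ (∀ z : R, s z = 0 → ∃ r, t * z = ψ * r) ∧
      ∀ 𝔮 : Ideal R, 𝔮.IsPrime → ψ ∈ 𝔮 → algebraMap A R π ∉ 𝔮 → ∀ z : R, s z = 0 → z ∈ 𝔮 := by
  classical
  obtain ⟨ϖ, hϖπ⟩ : ∃ ϖ : R, algebraMap A R π = ϖ := ⟨_, rfl⟩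
  rw [hϖπ] at hϖinf hϖ0 hN1
  have hπne : π ≠ 0 := hπ.ne_zero
  have hsalg : ∀ a : A, s (algebraMap A R a) = a := fun a => s.commutes a
  have hsϖ : s ϖ = π := by rw [← hϖπ]; exact hsalg π
  have hPinf_le : Pinf ≤ maximalIdeal R := le_maximalIdeal hPi.ne_top
  have hP0_le : P0 ≤ maximalIdeal R := le_maximalIdeal hP0.ne_top
  have hϖm : ϖ ∈ maximalIdeal R := hPinf_le hϖinf
  have hker_le : ∀ z : R, s z = 0 → z ∈ maximalIdeal R := by
    intro z hz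
    have hne : RingHom.ker (s : R →+* A) ≠ ⊤ := by
      intro h
      have h1 : (1 : R) ∈ RingHom.ker (s : R →+* A) := by rw [h]; trivial
      rw [RingHom.mem_ker] at h1
      simp at h1
    exact le_maximalIdeal hne (by rw [RingHom.mem_ker]; exact hz)
  have hsm : ∀ m ∈ maximalIdeal R, π ∣ s m := by
    intro m hm
    by_contra hnd
    have hu : IsUnit (s m) := by
      by_contra hnu
      have h1 : s m ∈ maximalIdeal A := (mem_maximalIdeal _).mpr hnu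
      rw [hπ.maximalIdeal_eq, Ideal.mem_span_singleton] at h1
      exact hnd h1
    have h2 : s (m - algebraMap A R (s m)) = 0 := by rw [map_sub, hsalg, sub_self]
    have h3 := hker_le _ h2
    have h4 : algebraMap A R (s m) ∈ maximalIdeal R := by
      have := (maximalIdeal R).sub_mem hm h3
      simpa using this
    exact (mem_maximalIdeal _).mp h4 (hu.map (algebraMap A R))
  have hPinfgen : ∀ z ∈ Pinf, ∃ r₁ r₂, z = y * r₁ + ϖ * r₂ := by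
    intro z hz
    obtain ⟨r, hr⟩ := hy z (hPinf_le hz)
    obtain ⟨r₂, hr₂⟩ := hN1 _ (Pinf.sub_mem hz (Pinf.mul_mem_right r hyinf)) hr
    exact ⟨r, r₂, by linear_combination hr₂⟩
  have hmgen : ∀ m ∈ maximalIdeal R, ∃ r₁ r₂ r₃, m = x * r₁ + y * r₂ + ϖ * r₃ := by
    intro m hm
    obtain ⟨r, hr⟩ := hx m hm
    obtain ⟨r₂, r₃, h⟩ := hPinfgen _ hr
    exact ⟨r, r₂, r₃, by linear_combination h⟩
  have hxm : x ∈ maximalIdeal R := hP0_le hx0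
  have hym : y ∈ maximalIdeal R := hPinf_le hyinf
  obtain ⟨a₁, ha₁⟩ := hsm x hxm
  obtain ⟨b₁, hb₁⟩ := hsm y hym
  obtain ⟨X, hX⟩ : ∃ X : R, X = x - algebraMap A R (s x) := ⟨_, rfl⟩
  obtain ⟨Y, hY⟩ : ∃ Y : R, Y = y - algebraMap A R (s y) := ⟨_, rfl⟩
  have hsX : s X = 0 := by rw [hX, map_sub, hsalg, sub_self]
  have hsY : s Y = 0 := by rw [hY, map_sub, hsalg, sub_self]
  have haR : algebraMap A R (s x) = ϖ * algebraMap A R a₁ := by rw [ha₁, map_mul, hϖπ]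
  have hbR : algebraMap A R (s y) = ϖ * algebraMap A R b₁ := by rw [hb₁, map_mul, hϖπ]
  have hXinf : X ∉ Pinf := by
    intro h
    apply hxinf
    have : x = X + ϖ * algebraMap A R a₁ := by rw [hX, haR]; ring
    rw [this]
    exact Pinf.add_mem h (Pinf.mul_mem_right _ hϖinf)
  have hX0 : X ∈ P0 := by
    rw [hX, haR]
    exact P0.sub_mem hx0 (P0.mul_mem_right _ hϖ0)
  have hYinf : Y ∈ Pinf := by
    rw [hY, hbR]
    exact Pinf.sub_mem hyinf (Pinf.mul_mem_right _ hϖinf)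
  have hY0 : Y ∉ P0 := by
    intro h
    apply hy0
    have : y = Y + ϖ * algebraMap A R b₁ := by rw [hY, hbR]; ring
    rw [this]
    exact P0.add_mem h (P0.mul_mem_right _ hϖ0)
  -- the kernel is generated by `X`, `Y`
  have hgen : ∀ z : R, s z = 0 → ∃ r₁ r₂, z = X * r₁ + Y * r₂ := by
    have hle : RingHom.ker (s : R →+* A) ≤ Ideal.span {X, Y} := by
      apply Submodule.le_of_le_smul_of_le_jacobson_bot (I := Ideal.span {ϖ})
        (IsNoetherian.noetherian _)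
      · rw [IsLocalRing.jacobson_eq_maximalIdeal _ bot_ne_top, Ideal.span_singleton_le_iff_mem]
        exact hϖm
      · intro z hz
        rw [RingHom.mem_ker] at hz
        have hz' : s z = 0 := hz
        obtain ⟨r₁, r₂, r₃, h⟩ := hmgen z (hker_le z hz')
        obtain ⟨δ, hδ⟩ : ∃ δ : R, δ = algebraMap A R a₁ * r₁ + algebraMap A R b₁ * r₂ + r₃ :=
          ⟨_, rfl⟩
        have hzδ : z = X * r₁ + Y * r₂ + ϖ * δ := by
          rw [h, hX, hY, haR, hbR, hδ]; ring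
        have hsδ : s δ = 0 := by
          have h1 : s z = π * s δ := by
            rw [hzδ, map_add, map_add, map_mul, map_mul, map_mul, hsX, hsY, hsϖ]; ring
          rw [hz'] at h1
          exact (mul_eq_zero.mp h1.symm).resolve_left hπne
        rw [hzδ]
        refine Submodule.add_mem_sup ?_ ?_
        · exact Ideal.add_mem _ (Ideal.mul_mem_right _ _ (Ideal.subset_span (by simp)))
            (Ideal.mul_mem_right _ _ (Ideal.subset_span (by simp)))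
        · rw [Ideal.smul_eq_mul]
          exact Ideal.mul_mem_mul (Ideal.mem_span_singleton_self ϖ)
            (by rw [RingHom.mem_ker]; exact hsδ)
    intro z hz
    have := hle (by rw [RingHom.mem_ker]; exact hz : z ∈ RingHom.ker (s : R →+* A))
    rw [Ideal.mem_span_pair] at this
    obtain ⟨r₁, r₂, h⟩ := this
    exact ⟨r₁, r₂, by rw [← h]; ring⟩
  have ht'ne : t' ≠ 0 := fun h => ht' (by rw [h, map_zero])
  have hXne : X ≠ 0 := fun h => hXinf (h ▸ Pinf.zero_mem)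
  have hT'ne : T' ≠ 0 := by
    intro h
    obtain ⟨r, hr⟩ := hprinc' X hsX
    rw [h, zero_mul] at hr
    exact hXne ((mul_eq_zero.mp hr).resolve_left ht'ne)
  obtain ⟨fX, hfX⟩ := hprinc' X hsX
  obtain ⟨fY, hfY⟩ := hprinc' Y hsY
  obtain ⟨σ, ρ, hσρ⟩ := hgen T' hT'
  have ht'eq : t' = σ * fX + ρ * fY := by
    apply mul_left_cancel₀ hT'ne
    linear_combination t' * hσρ + σ * hfX + ρ * hfY
  -- the constant `c`
  have hc : ∃ c : R, c ∉ P0 ∧ s (fX + c * fY) ≠ 0 := by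
    by_cases h1 : s (fX + 1 * fY) = 0
    · refine ⟨1 + ϖ, ?_, ?_⟩
      · intro h
        apply hP0.ne_top
        rw [Ideal.eq_top_iff_one]
        have := P0.sub_mem h hϖ0
        simpa using this
      · intro h2
        apply ht'
        have e1 : s fX + s fY = 0 := by simpa using h1
        have e2 : s fX + (1 + π) * s fY = 0 := by
          rw [map_add, map_mul, map_add, map_one, hsϖ] at h2
          exact h2
        have e3 : π * s fY = 0 := by linear_combination e2 - e1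
        have e4 : s fY = 0 := (mul_eq_zero.mp e3).resolve_left hπne
        have e5 : s fX = 0 := by rw [e4, add_zero] at e1; exact e1
        rw [ht'eq, map_add, map_mul, map_mul, e4, e5]; ring
    · exact ⟨1, fun h => hP0.ne_top ((Ideal.eq_top_iff_one _).mpr h), h1⟩
  obtain ⟨c, hc0, hcs⟩ := hc
  obtain ⟨T, hTdef⟩ : ∃ T : R, T = X + c * Y := ⟨_, rfl⟩
  obtain ⟨f, hfdef⟩ : ∃ f : R, f = fX + c * fY := ⟨_, rfl⟩
  have hsT : s T = 0 := by rw [hTdef, map_add, map_mul, hsX, hsY]; ring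
  have hTinf : T ∉ Pinf := by
    intro h
    apply hXinf
    have : X = T - c * Y := by rw [hTdef]; ring
    rw [this]
    exact Pinf.sub_mem h (Pinf.mul_mem_left _ hYinf)
  have hT0 : T ∉ P0 := by
    intro h
    have h1 : c * Y ∈ P0 := by
      have : c * Y = T - X := by rw [hTdef]; ring
      rw [this]
      exact P0.sub_mem h hX0
    exact (hP0.mem_or_mem h1).elim hc0 hY0
  have hfT : t' * T = T' * f := by
    rw [hTdef, hfdef]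
    linear_combination hfX + c * hfY
  have hfprinc : ∀ z : R, s z = 0 → ∃ r, f * z = T * r := by
    intro z hz
    obtain ⟨r, hr⟩ := hprinc' z hz
    refine ⟨r, ?_⟩
    apply mul_left_cancel₀ ht'ne
    apply mul_left_cancel₀ hT'ne
    linear_combination (T' * f) * hr - (T' * r) * hfT
  -- the witness `t0`
  have he : ∃ e : R, f + T * e ∉ Pinf ∧ f + T * e ∉ P0 := by
    by_cases h1 : f ∈ Pinf
    · by_cases h2 : f ∈ P0
      · refine ⟨1, ?_, ?_⟩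
        · intro h
          apply hTinf
          have := Pinf.sub_mem h h1
          simpa using this
        · intro h
          apply hT0
          have := P0.sub_mem h h2
          simpa using this
      · refine ⟨x, ?_, ?_⟩
        · intro h
          have h3 : T * x ∈ Pinf := by
            have := Pinf.sub_mem h h1
            simpa using this
          exact (hPi.mem_or_mem h3).elim hTinf hxinf
        · intro h
          apply h2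
          have := P0.sub_mem h (P0.mul_mem_left T hx0)
          simpa using this
    · by_cases h2 : f ∈ P0
      · refine ⟨y, ?_, ?_⟩
        · intro h
          apply h1
          have := Pinf.sub_mem h (Pinf.mul_mem_left T hyinf)
          simpa using this
        · intro h
          have h3 : T * y ∈ P0 := by
            have := P0.sub_mem h h2
            simpa using this
          exact (hP0.mem_or_mem h3).elim hT0 hy0
      · exact ⟨0, by simpa using h1, by simpa using h2⟩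
  obtain ⟨e, he1, he2⟩ := he
  have hst0 : s (f + T * e) ≠ 0 := by
    rw [map_add, map_mul, hsT, zero_mul, add_zero, hfdef]
    exact hcs
  have ht0princ : ∀ z : R, s z = 0 → ∃ r, (f + T * e) * z = T * r := by
    intro z hz
    obtain ⟨r, hr⟩ := hfprinc z hz
    exact ⟨r + e * z, by linear_combination hr⟩
  rw [← hϖπ] at hϖinf hϖ0 hN1
  exact s34_node_cg π hπ Pinf P0 hϖinf hϖ0 hN1 x hx0 hx y hyinf hy hres s T (f + T * e)
    hsT hTinf hT0 hst0 he1 he2 ht0princ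

end Abstract

section LocalEq

variable {A B : Type*} [CommRing A] [IsDomain A] [IsDiscreteValuationRing A]
  [CommRing B] [IsDomain B] [IsNoetherianRing B] [Algebra A B]

omit [IsDomain B] [Algebra A B] in
/-- A uniform denominator: if every element of the kernel of `s` is a multiple of `T` up to a
factor outside the kernel, then one factor works for all elements. -/
theorem s34_ng_uniform (s : B →+* A) (T : B)
    (hTgen : ∀ z : B, s z = 0 → ∃ c r : B, s c ≠ 0 ∧ c * z = T * r) :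
    ∃ t : B, s t ≠ 0 ∧ ∀ z : B, s z = 0 → ∃ r, t * z = T * r := by
  classical
  obtain ⟨S, hS⟩ := (IsNoetherian.noetherian (RingHom.ker s) : (RingHom.ker s).FG)
  have key : ∀ S' : Finset B, (∀ z ∈ S', s z = 0) →
      ∃ t : B, s t ≠ 0 ∧ ∀ z ∈ Ideal.span (S' : Set B), ∃ r, t * z = T * r := by
    intro S'
    induction S' using Finset.induction_on with
    | empty =>
      intro _
      refine ⟨1, by simp, ?_⟩
      intro z hz
      have hz0 : z = 0 := by simpa using hz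
      exact ⟨0, by rw [hz0]; ring⟩
    | insert a S' ha ih =>
      intro h
      obtain ⟨t, ht, htz⟩ := ih (fun z hz => h z (Finset.mem_insert_of_mem hz))
      obtain ⟨c, r, hc, hcr⟩ := hTgen a (h a (Finset.mem_insert_self a S'))
      refine ⟨t * c, by rw [map_mul]; exact mul_ne_zero ht hc, ?_⟩
      intro z hz
      rw [Finset.coe_insert, Ideal.mem_span_insert] at hz
      obtain ⟨k, z', hz', rfl⟩ := hz
      obtain ⟨r', hr'⟩ := htz z' hz'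
      exact ⟨t * k * r + c * r', by linear_combination (t * k) * hcr + c * hr'⟩
  obtain ⟨t, ht, htz⟩ := key S (fun z hz => by
    have h1 : z ∈ RingHom.ker s := by
      rw [← hS]
      exact Submodule.subset_span hz
    exact h1)
  refine ⟨t, ht, fun z hz => htz z ?_⟩
  have h1 : z ∈ RingHom.ker s := hz
  rw [← hS] at h1
  exact h1

/-- The local equation at a node, for an arbitrary localisation `R` of `B` at `𝔪`. -/
theorem s34_ng_local_eq_aux (R : Type*) [CommRing R] [Algebra B R] [Algebra A R]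
    [IsScalarTower A B R]
    (π : A) (hπ : Irreducible π) (𝔪 : Ideal B) [h𝔪 : 𝔪.IsPrime] [IsLocalization.AtPrime R 𝔪]
    (Pinf P0 : Ideal B) [hPi : Pinf.IsPrime] [hP0' : P0.IsPrime] (hPinf : Pinf ≤ 𝔪) (hP0 : P0 ≤ 𝔪)
    (hϖinf : algebraMap A B π ∈ Pinf) (hϖ0 : algebraMap A B π ∈ P0)
    (hN1 : ∀ z ∈ Pinf, z ∈ P0 → ∃ r : B, z = algebraMap A B π * r)
    (x : B) (hx0 : x ∈ P0) (hxinf : x ∉ Pinf)
    (hx : ∀ m ∈ 𝔪, ∃ r u : B, u ∉ 𝔪 ∧ u * m - x * r ∈ Pinf)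
    (y : B) (hyinf : y ∈ Pinf) (hy0 : y ∉ P0)
    (hy : ∀ m ∈ 𝔪, ∃ r u : B, u ∉ 𝔪 ∧ u * m - y * r ∈ P0)
    (s : B →ₐ[A] A) (hker : ∀ z : B, s z = 0 → z ∈ 𝔪)
    (T : B) (hT : s T = 0) (hTgen : ∀ z : B, s z = 0 → ∃ c r : B, s c ≠ 0 ∧ c * z = T * r) :
    ∃ ψ : B, s ψ = 0 ∧ (∀ z : B, s z = 0 → ∃ c r : B, s c ≠ 0 ∧ c * z = ψ * r) ∧
      ∀ 𝔮 : Ideal B, 𝔮.IsPrime → 𝔮 ≤ 𝔪 → ψ ∈ 𝔮 → algebraMap A B π ∉ 𝔮 →
        ∀ z : B, s z = 0 → z ∈ 𝔮 := by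
  classical
  obtain ⟨t, ht, htz⟩ := s34_ng_uniform (s : B →+* A) T hTgen
  have hsalg : ∀ a : A, s (algebraMap A B a) = a := fun a => s.commutes a
  have hϖ𝔪 : algebraMap A B π ∈ 𝔪 := hPinf hϖinf
  have hsu : ∀ u : B, u ∉ 𝔪 → IsUnit (s u) := by
    intro u hu
    by_contra hnu
    have h1 : s u ∈ IsLocalRing.maximalIdeal A := (IsLocalRing.mem_maximalIdeal _).mpr hnu
    rw [hπ.maximalIdeal_eq, Ideal.mem_span_singleton] at h1
    obtain ⟨a, ha⟩ := h1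
    have h2 : s (u - algebraMap A B π * algebraMap A B a) = 0 := by
      rw [map_sub, map_mul, hsalg, hsalg, ha, sub_self]
    have h3 := hker _ h2
    apply hu
    have := 𝔪.add_mem h3 (𝔪.mul_mem_right (algebraMap A B a) hϖ𝔪)
    simpa using this
  have hsne : ∀ u : B, u ∉ 𝔪 → s u ≠ 0 := fun u hu h => hu (hker u h)
  -- the localisation
  have hle : 𝔪.primeCompl ≤ nonZeroDivisors B := by
    intro u hu
    exact mem_nonZeroDivisors_of_ne_zero (fun h => hu (h ▸ 𝔪.zero_mem))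
  have : IsDomain R := IsLocalization.isDomain_of_le_nonZeroDivisors R hle
  have : IsNoetherianRing R := IsLocalization.isNoetherianRing 𝔪.primeCompl R inferInstance
  have : IsLocalRing R := IsLocalization.AtPrime.isLocalRing R 𝔪
  have hinj : Function.Injective (algebraMap B R) := IsLocalization.injective R hle
  have hunit : ∀ u : B, u ∉ 𝔪 → ∃ v : R, algebraMap B R u * v = 1 := by
    intro u hu
    exact (IsLocalization.map_units R (⟨u, hu⟩ : 𝔪.primeCompl)).exists_right_inv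
  have hsurj : ∀ z : R, ∃ (b u : B) (v : R), u ∉ 𝔪 ∧ algebraMap B R u * v = 1 ∧
      z = algebraMap B R b * v := by
    intro z
    obtain ⟨⟨b, u⟩, hbu⟩ := IsLocalization.surj 𝔪.primeCompl z
    obtain ⟨v, hv⟩ := hunit u u.2
    refine ⟨b, u, v, u.2, hv, ?_⟩
    have hbu' : z * algebraMap B R (u : B) = algebraMap B R b := hbu
    calc z = z * (algebraMap B R u * v) := by rw [hv, mul_one]
      _ = algebraMap B R b * v := by rw [← mul_assoc, hbu']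
  have hmax : ∀ b : B, algebraMap B R b ∈ IsLocalRing.maximalIdeal R ↔ b ∈ 𝔪 :=
    fun b => IsLocalization.AtPrime.to_map_mem_maximal_iff R 𝔪 b
  have hmemI : ∀ (I : Ideal B), I.IsPrime → I ≤ 𝔪 → ∀ b : B,
      algebraMap B R b ∈ I.map (algebraMap B R) ↔ b ∈ I := by
    intro I hI hI𝔪 b
    have hdisj : Disjoint (𝔪.primeCompl : Set B) (I : Set B) :=
      Set.disjoint_left.mpr fun u hu hu' => hu (hI𝔪 hu')
    have hcm : (Ideal.map (algebraMap B R) I).comap (algebraMap B R) = I :=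
      IsLocalization.under_map_of_isPrime_disjoint 𝔪.primeCompl R hI hdisj
    constructor
    · intro h
      rw [← hcm]
      exact Ideal.mem_comap.mpr h
    · exact Ideal.mem_map_of_mem _
  have hprimeI : ∀ (I : Ideal B), I.IsPrime → I ≤ 𝔪 → (I.map (algebraMap B R)).IsPrime := by
    intro I hI hI𝔪
    exact IsLocalization.isPrime_of_isPrime_disjoint 𝔪.primeCompl R I hI
      (Set.disjoint_left.mpr fun u hu hu' => hu (hI𝔪 hu'))
  -- the section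
  obtain ⟨sR, hsR⟩ : ∃ sR : R →+* A, ∀ b : B, sR (algebraMap B R b) = s b :=
    ⟨IsLocalization.lift (M := 𝔪.primeCompl) (g := (s : B →+* A)) (fun u => hsu u u.2),
      fun b => IsLocalization.lift_eq _ b⟩
  have hπR : algebraMap A R π = algebraMap B R (algebraMap A B π) :=
    IsScalarTower.algebraMap_apply A B R π
  obtain ⟨sA, hsA⟩ : ∃ sA : R →ₐ[A] A, ∀ b : B, sA (algebraMap B R b) = s b :=
    ⟨{ sR with
        commutes' := fun a => by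
          show sR (algebraMap A R a) = a
          rw [IsScalarTower.algebraMap_apply A B R, hsR, hsalg] }, hsR⟩
  have hsAalg : ∀ a : A, sA (algebraMap A R a) = a := fun a => by
    rw [IsScalarTower.algebraMap_apply A B R, hsA, hsalg]
  have hsv0 : ∀ (u : B) (v : R), algebraMap B R u * v = 1 → sA v ≠ 0 := by
    intro u v h h0
    have h1 := congrArg sA h
    rw [map_mul, h0, mul_zero, map_one] at h1
    exact zero_ne_one h1
  have hkerR : ∀ z : R, sA z = 0 → z ∈ IsLocalRing.maximalIdeal R := by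
    intro z hz
    have hne : RingHom.ker (sA : R →+* A) ≠ ⊤ := by
      intro h
      have h1 : (1 : R) ∈ RingHom.ker (sA : R →+* A) := by rw [h]; trivial
      rw [RingHom.mem_ker] at h1
      simp at h1
    exact IsLocalRing.le_maximalIdeal hne (by rw [RingHom.mem_ker]; exact hz)
  have hPiR : (Pinf.map (algebraMap B R)).IsPrime := hprimeI Pinf hPi hPinf
  have hP0R : (P0.map (algebraMap B R)).IsPrime := hprimeI P0 hP0' hP0
  have hN1R : ∀ z ∈ Pinf.map (algebraMap B R), z ∈ P0.map (algebraMap B R) →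
      ∃ r, z = algebraMap A R π * r := by
    intro z hz1 hz2
    obtain ⟨b, u, v, hu, huv, rfl⟩ := hsurj z
    have hb : algebraMap B R b = algebraMap B R b * v * algebraMap B R u := by
      rw [mul_assoc, mul_comm v, huv, mul_one]
    have hb1 : b ∈ Pinf := (hmemI Pinf hPi hPinf b).mp (by
      rw [hb]; exact Ideal.mul_mem_right _ _ hz1)
    have hb2 : b ∈ P0 := (hmemI P0 hP0' hP0 b).mp (by
      rw [hb]; exact Ideal.mul_mem_right _ _ hz2)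
    obtain ⟨r, hr⟩ := hN1 b hb1 hb2
    exact ⟨algebraMap B R r * v, by rw [hr, map_mul, hπR]; ring⟩
  have hparam : ∀ (I : Ideal B) (w : B),
      (∀ m ∈ 𝔪, ∃ r u : B, u ∉ 𝔪 ∧ u * m - w * r ∈ I) →
      ∀ m ∈ IsLocalRing.maximalIdeal R, ∃ r, m - algebraMap B R w * r ∈ I.map (algebraMap B R) := by
    intro I w hw m hm
    obtain ⟨b, u, v, hu, huv, rfl⟩ := hsurj m
    have hb : algebraMap B R b = algebraMap B R b * v * algebraMap B R u := by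
      rw [mul_assoc, mul_comm v, huv, mul_one]
    have hb𝔪 : b ∈ 𝔪 := (hmax b).mp (by rw [hb]; exact Ideal.mul_mem_right _ _ hm)
    obtain ⟨r, u', hu', h⟩ := hw b hb𝔪
    obtain ⟨v', huv'⟩ := hunit u' hu'
    refine ⟨algebraMap B R r * v' * v, ?_⟩
    have e : algebraMap B R b * v - algebraMap B R w * (algebraMap B R r * v' * v)
        = algebraMap B R (u' * b - w * r) * (v' * v) := by
      rw [map_sub, map_mul, map_mul]
      linear_combination (-(algebraMap B R b * v)) * huv'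
    rw [e]
    exact Ideal.mul_mem_right _ _ (Ideal.mem_map_of_mem _ h)
  have hresR : ∀ r : R, ∃ a : A, r - algebraMap A R a ∈ IsLocalRing.maximalIdeal R := by
    intro r
    refine ⟨sA r, hkerR _ ?_⟩
    rw [map_sub, hsAalg, sub_self]
  have hprincR : ∀ z : R, sA z = 0 → ∃ r, algebraMap B R t * z = algebraMap B R T * r := by
    intro z hz
    obtain ⟨b, u, v, hu, huv, rfl⟩ := hsurj z
    have hsb : s b = 0 := by
      rw [map_mul, hsA] at hz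
      exact (mul_eq_zero.mp hz).resolve_right (hsv0 u v huv)
    obtain ⟨r, hr⟩ := htz b hsb
    exact ⟨algebraMap B R r * v, by rw [← mul_assoc, ← map_mul, hr, map_mul, mul_assoc]⟩
  obtain ⟨ψR, tR, hψR, htR, hgenR, hexclR⟩ := s34_node_cg' π hπ (Pinf.map (algebraMap B R))
    (P0.map (algebraMap B R))
    (by rw [hπR]; exact Ideal.mem_map_of_mem _ hϖinf)
    (by rw [hπR]; exact Ideal.mem_map_of_mem _ hϖ0)
    hN1R (algebraMap B R x) ((hmemI P0 hP0' hP0 x).mpr hx0)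
    (fun h => hxinf ((hmemI Pinf hPi hPinf x).mp h)) (hparam Pinf x hx)
    (algebraMap B R y) ((hmemI Pinf hPi hPinf y).mpr hyinf)
    (fun h => hy0 ((hmemI P0 hP0' hP0 y).mp h)) (hparam P0 y hy)
    hresR sA (algebraMap B R T) (algebraMap B R t) (by rw [hsA]; exact hT)
    (by rw [hsA]; exact ht) hprincR
  obtain ⟨ψ, uψ, vψ, huψ, huvψ, rfl⟩ := hsurj ψR
  have hsψ : s ψ = 0 := by
    rw [map_mul, hsA] at hψR
    exact (mul_eq_zero.mp hψR).resolve_right (hsv0 uψ vψ huvψ)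
  obtain ⟨tb, ut, vt, hut, huvt, rfl⟩ := hsurj tR
  have hstb : s tb ≠ 0 := by
    intro h
    apply htR
    rw [map_mul, hsA, h, zero_mul]
  refine ⟨ψ, hsψ, ?_, ?_⟩
  · intro z hz
    obtain ⟨rR, hrR⟩ := hgenR (algebraMap B R z) (by rw [hsA]; exact hz)
    obtain ⟨rb, ur, vr, hur, huvr, rfl⟩ := hsurj rR
    refine ⟨tb * uψ * ur, rb * ut,
      by
        rw [map_mul, map_mul]
        exact mul_ne_zero (mul_ne_zero hstb (hsne uψ huψ)) (hsne ur hur), ?_⟩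
    apply hinj
    simp only [map_mul]
    linear_combination (algebraMap B R ut * algebraMap B R uψ * algebraMap B R ur) * hrR
      - (algebraMap B R tb * algebraMap B R z * algebraMap B R uψ * algebraMap B R ur) * huvt
      + (algebraMap B R ψ * algebraMap B R rb * algebraMap B R ut) * huvψ
      + (algebraMap B R ψ * algebraMap B R rb * algebraMap B R ut * algebraMap B R uψ * vψ) * huvr
  · intro 𝔮 h𝔮 h𝔮𝔪 hψ𝔮 hπ𝔮 z hz
    have h1 := hexclR (𝔮.map (algebraMap B R)) (hprimeI 𝔮 h𝔮 h𝔮𝔪)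
      (Ideal.mul_mem_right _ _ (Ideal.mem_map_of_mem _ hψ𝔮))
      (by rw [hπR]; exact fun h => hπ𝔮 ((hmemI 𝔮 h𝔮 h𝔮𝔪 _).mp h))
      (algebraMap B R z) (by rw [hsA]; exact hz)
    exact (hmemI 𝔮 h𝔮 h𝔮𝔪 z).mp h1

/-- **The local equation at a node.**  `B` a noetherian domain over the discrete valuation ring
`A`, `𝔪` a prime which is a transversal crossing point of `𝔓∞`, `𝔓0`, and `s : B → A` a section
whose kernel `𝔮 ≤ 𝔪` is locally principal at `𝔮`.  Then `𝔮` has a local generator `ψ` at `𝔮`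
which lies in no other horizontal prime through `𝔪`. -/
theorem s34_ng_local_eq
    (π : A) (hπ : Irreducible π) (𝔪 : Ideal B) [h𝔪 : 𝔪.IsPrime]
    (Pinf P0 : Ideal B) [hPi : Pinf.IsPrime] [hP0' : P0.IsPrime] (hPinf : Pinf ≤ 𝔪) (hP0 : P0 ≤ 𝔪)
    (hϖinf : algebraMap A B π ∈ Pinf) (hϖ0 : algebraMap A B π ∈ P0)
    (hN1 : ∀ z ∈ Pinf, z ∈ P0 → ∃ r : B, z = algebraMap A B π * r)
    (x : B) (hx0 : x ∈ P0) (hxinf : x ∉ Pinf)
    (hx : ∀ m ∈ 𝔪, ∃ r u : B, u ∉ 𝔪 ∧ u * m - x * r ∈ Pinf)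
    (y : B) (hyinf : y ∈ Pinf) (hy0 : y ∉ P0)
    (hy : ∀ m ∈ 𝔪, ∃ r u : B, u ∉ 𝔪 ∧ u * m - y * r ∈ P0)
    (s : B →ₐ[A] A) (hker : ∀ z : B, s z = 0 → z ∈ 𝔪)
    (T : B) (hT : s T = 0) (hTgen : ∀ z : B, s z = 0 → ∃ c r : B, s c ≠ 0 ∧ c * z = T * r) :
    ∃ ψ : B, s ψ = 0 ∧ (∀ z : B, s z = 0 → ∃ c r : B, s c ≠ 0 ∧ c * z = ψ * r) ∧
      ∀ 𝔮 : Ideal B, 𝔮.IsPrime → 𝔮 ≤ 𝔪 → ψ ∈ 𝔮 → algebraMap A B π ∉ 𝔮 →
        ∀ z : B, s z = 0 → z ∈ 𝔮 :=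
  s34_ng_local_eq_aux (Localization.AtPrime 𝔪) π hπ 𝔪 Pinf P0 hPinf hP0 hϖinf hϖ0 hN1
    x hx0 hxinf hx y hyinf hy0 hy s hker T hT hTgen

end LocalEq

section Chart

variable {F : Type*} [Field F]

/-- Unit of a subring of a field. -/
def s34_ng_U (L : Subring F) (z : F) : Prop := z ∈ L ∧ z⁻¹ ∈ L

theorem s34_ng_U_one (L : Subring F) : s34_ng_U L 1 :=
  ⟨L.one_mem, by rw [inv_one]; exact L.one_mem⟩

theorem s34_ng_U_mul {L : Subring F} {x y : F} (hx : s34_ng_U L x) (hy : s34_ng_U L y) :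
    s34_ng_U L (x * y) :=
  ⟨L.mul_mem hx.1 hy.1, by rw [mul_inv]; exact L.mul_mem hx.2 hy.2⟩

theorem s34_ng_U_inv {L : Subring F} {x : F} (hx : s34_ng_U L x) : s34_ng_U L x⁻¹ :=
  ⟨hx.2, by rw [inv_inv]; exact hx.1⟩

theorem s34_ng_U_pow {L : Subring F} {x : F} (hx : s34_ng_U L x) (n : ℕ) :
    s34_ng_U L (x ^ n) :=
  ⟨L.pow_mem hx.1 n, by rw [← inv_pow]; exact L.pow_mem hx.2 n⟩

theorem s34_ng_U_zpow {L : Subring F} {x : F} (hx : s34_ng_U L x) (n : ℤ) :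
    s34_ng_U L (x ^ n) := by
  cases n with
  | ofNat k =>
    have := s34_ng_U_pow hx k
    simpa using this
  | negSucc k =>
    rw [zpow_negSucc]
    exact s34_ng_U_inv (s34_ng_U_pow hx (k + 1))

theorem s34_ng_U_prod {ι : Type*} {L : Subring F} (S : Finset ι) (f : ι → F)
    (h : ∀ i ∈ S, s34_ng_U L (f i)) : s34_ng_U L (∏ i ∈ S, f i) := by
  classical
  induction S using Finset.induction_on with
  | empty =>
    rw [Finset.prod_empty]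
    exact s34_ng_U_one L
  | insert a S ha ih =>
    rw [Finset.prod_insert ha]
    exact s34_ng_U_mul (h a (Finset.mem_insert_self a S))
      (ih fun i hi => h i (Finset.mem_insert_of_mem hi))

/-- An element outside the prime is a unit of the local ring. -/
theorem s34_ng_U_of_not_mem (B : Subring F) (𝔮 : Ideal B) [h𝔮 : 𝔮.IsPrime] (b : B)
    (hb : b ∉ 𝔮) : s34_ng_U (s18_locRing B 𝔮) (b : F) := by
  refine ⟨s18_le_locRing B 𝔮 b.2, ?_⟩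
  exact ⟨1, b, hb, by simp⟩

/-- A discrete valuation ring inside a field: uniformizer and decomposition. -/
theorem s34_ng_dvr_unif (W : ValuationSubring F) [IsDiscreteValuationRing W] :
    ∃ ϖW : F, ϖW ∈ W ∧ ϖW⁻¹ ∉ W ∧ ϖW ≠ 0 ∧
      ∀ x : F, x ∈ W → x ≠ 0 → ∃ (n : ℕ) (u : F), u ∈ W ∧ u⁻¹ ∈ W ∧ x = u * ϖW ^ n := by
  obtain ⟨ϖ, hϖ⟩ := IsDiscreteValuationRing.exists_irreducible W
  have hϖ0 : (ϖ : F) ≠ 0 := fun h => hϖ.ne_zero (Subtype.ext h)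
  refine ⟨(ϖ : F), ϖ.2, ?_, hϖ0, ?_⟩
  · intro h
    apply hϖ.not_isUnit
    refine IsUnit.of_mul_eq_one (⟨_, h⟩ : W) (Subtype.ext ?_)
    show (ϖ : F) * (ϖ : F)⁻¹ = 1
    exact mul_inv_cancel₀ hϖ0
  · intro x hx hx0
    obtain ⟨n, u, hu⟩ := IsDiscreteValuationRing.eq_unit_mul_pow_irreducible
      (x := (⟨x, hx⟩ : W)) (fun h => hx0 (congrArg Subtype.val h)) hϖ
    have h1 : ((u : W) : F) * (((u⁻¹ : Wˣ) : W) : F) = 1 :=
      congrArg Subtype.val (u.mul_inv)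
    refine ⟨n, ((u : W) : F), (u : W).2, ?_, ?_⟩
    · rw [← eq_inv_of_mul_eq_one_right h1]
      exact ((u⁻¹ : Wˣ) : W).2
    · have := congrArg Subtype.val hu
      simpa using this

/-- Consequences of `B_𝔮` being a discrete valuation ring: a local generator `T` of `𝔮`, the
order of an arbitrary function in terms of `T`, and the height one property. -/
theorem s34_ng_of_dvr (B : Subring F) (𝔮 : Ideal B) [h𝔮 : 𝔮.IsPrime]
    (W : ValuationSubring F) [IsDiscreteValuationRing W]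
    (hW : ∀ z : F, z ∈ W ↔ ∃ a s : B, s ∉ 𝔮 ∧ z = (a : F) / (s : F)) :
    (∃ T : B, T ∈ 𝔮 ∧ T ≠ 0 ∧ (∀ z ∈ 𝔮, ∃ c r : B, c ∉ 𝔮 ∧ c * z = T * r) ∧
       ∀ x : F, x ≠ 0 → ∃ n : ℤ, s34_ng_U (s18_locRing B 𝔮) (x * ((T : F) ^ n)⁻¹)) ∧
    (∀ 𝔭 : Ideal B, 𝔭.IsPrime → 𝔭 ≤ 𝔮 → 𝔭 ≠ ⊥ → 𝔮 ≤ 𝔭) := by
  obtain ⟨ϖW, hϖW, hϖWinv, hϖW0, hdec⟩ := s34_ng_dvr_unif W
  have hWloc : ∀ z : F, z ∈ W ↔ z ∈ s18_locRing B 𝔮 := hW
  have hBW : ∀ b : B, (b : F) ∈ W := fun b => (hWloc _).mpr (s18_le_locRing B 𝔮 b.2)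
  have hone : (1 : B) ∉ 𝔮 := fun h => h𝔮.ne_top ((Ideal.eq_top_iff_one _).mpr h)
  have hninv : ∀ z : B, z ∈ 𝔮 → z ≠ 0 → ((z : F))⁻¹ ∉ W := by
    intro z hz hz0 h
    obtain ⟨a, s, hs, e⟩ := (hW _).mp h
    have hz0' : (z : F) ≠ 0 := fun h0 => hz0 (Subtype.ext h0)
    have hs0 : (s : F) ≠ 0 := fun h0 => hs (by
      have : s = 0 := Subtype.ext h0
      rw [this]; exact 𝔮.zero_mem)
    apply hs
    have e2 : s = z * a := by
      apply Subtype.ext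
      push_cast
      field_simp at e
      linear_combination e
    rw [e2]
    exact 𝔮.mul_mem_right _ hz
  have hdec1 : ∀ z : B, z ∈ 𝔮 → z ≠ 0 → ∃ (n : ℕ) (u : F), u ∈ W ∧ u⁻¹ ∈ W ∧ u ≠ 0 ∧
      (z : F) = u * ϖW ^ (n + 1) := by
    intro z hz hz0
    have hz0' : (z : F) ≠ 0 := fun h0 => hz0 (Subtype.ext h0)
    obtain ⟨n, u, hu, hu', e⟩ := hdec (z : F) (hBW z) hz0'
    have hu0 : u ≠ 0 := by
      rintro rfl
      rw [zero_mul] at e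
      exact hz0' e
    cases n with
    | zero =>
      exfalso
      apply hninv z hz hz0
      rw [e, pow_zero, mul_one]
      exact hu'
    | succ n => exact ⟨n, u, hu, hu', hu0, e⟩
  -- the generator
  obtain ⟨T, sT, hsT, eT⟩ := (hW _).mp hϖW
  have hsT0 : (sT : F) ≠ 0 := fun h0 => hsT (by
    have : sT = 0 := Subtype.ext h0
    rw [this]; exact 𝔮.zero_mem)
  have hTF : (T : F) = ϖW * (sT : F) := by rw [eT]; field_simp
  have hTF0 : (T : F) ≠ 0 := by rw [hTF]; exact mul_ne_zero hϖW0 hsT0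
  have hT0 : T ≠ 0 := fun h => hTF0 (by rw [h]; rfl)
  have hT𝔮 : T ∈ 𝔮 := by
    by_contra hT
    apply hϖWinv
    rw [hW]
    exact ⟨sT, T, hT, by rw [eT, inv_div]⟩
  have hsTU : s34_ng_U (s18_locRing B 𝔮) (sT : F) := s34_ng_U_of_not_mem B 𝔮 sT hsT
  refine ⟨⟨T, hT𝔮, hT0, ?_, ?_⟩, ?_⟩
  · intro z hz
    by_cases hz0 : z = 0
    · exact ⟨1, 0, hone, by rw [hz0]; ring⟩
    obtain ⟨n, u, hu, -, -, e⟩ := hdec1 z hz hz0
    obtain ⟨a, s, hs, e2⟩ := (hW _).mp (W.mul_mem _ _ hu (pow_mem hϖW n))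
    have hs0 : (s : F) ≠ 0 := fun h0 => hs (by
      have : s = 0 := Subtype.ext h0
      rw [this]; exact 𝔮.zero_mem)
    refine ⟨s * sT, a, fun h => (h𝔮.mem_or_mem h).elim hs hsT, ?_⟩
    have e5 : (z : F) = (a : F) / (s : F) * ϖW := by rw [e, pow_succ, ← mul_assoc, e2]
    apply Subtype.ext
    push_cast
    rw [e5, hTF]
    field_simp
  · intro x hx0
    rcases W.mem_or_inv_mem x with hx | hx
    · obtain ⟨n, u, hu, hu', e⟩ := hdec x hx hx0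
      refine ⟨(n : ℤ), ?_⟩
      have e3 : x * ((T : F) ^ (n : ℤ))⁻¹ = u * (((sT : F)) ^ n)⁻¹ := by
        rw [zpow_natCast, e, hTF, mul_pow]
        field_simp
      rw [e3]
      exact s34_ng_U_mul ⟨(hWloc _).mp hu, (hWloc _).mp hu'⟩
        (s34_ng_U_inv (s34_ng_U_pow hsTU n))
    · obtain ⟨n, u, hu, hu', e⟩ := hdec x⁻¹ hx (inv_ne_zero hx0)
      have hu0 : u ≠ 0 := by
        rintro rfl
        rw [zero_mul] at e
        exact inv_ne_zero hx0 e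
      refine ⟨-(n : ℤ), ?_⟩
      have e3 : x * ((T : F) ^ (-(n : ℤ)))⁻¹ = u⁻¹ * ((sT : F)) ^ n := by
        rw [zpow_neg, inv_inv, zpow_natCast, hTF, mul_pow]
        have ex : x = (u * ϖW ^ n)⁻¹ := by rw [← e, inv_inv]
        rw [ex]
        field_simp
      rw [e3]
      exact s34_ng_U_mul (s34_ng_U_inv ⟨(hWloc _).mp hu, (hWloc _).mp hu'⟩)
        (s34_ng_U_pow hsTU n)
  · intro 𝔭 h𝔭 h𝔭𝔮 h𝔭0 w hw
    by_cases hw0 : w = 0
    · rw [hw0]; exact 𝔭.zero_mem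
    obtain ⟨z, hz, hz0⟩ := Submodule.exists_mem_ne_zero_of_ne_bot h𝔭0
    obtain ⟨n, u, hu, hu', hu0, e⟩ := hdec1 z (h𝔭𝔮 hz) hz0
    obtain ⟨k, u', hu'1, -, -, e'⟩ := hdec1 w hw hw0
    obtain ⟨a, s, hs, e2⟩ := (hW _).mp
      (W.mul_mem _ _ (pow_mem hu'1 (n + 1)) (pow_mem hu' (k + 1)))
    have hs0 : (s : F) ≠ 0 := fun h0 => hs (by
      have : s = 0 := Subtype.ext h0
      rw [this]; exact 𝔮.zero_mem)
    have key : s * w ^ (n + 1) = a * z ^ (k + 1) := by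
      apply Subtype.ext
      push_cast
      have hu1 : u⁻¹ * u = 1 := inv_mul_cancel₀ hu0
      have e4 : (w : F) ^ (n + 1) = (u' ^ (n + 1) * u⁻¹ ^ (k + 1)) * (z : F) ^ (k + 1) := by
        rw [e, e']
        calc (u' * ϖW ^ (k + 1)) ^ (n + 1) = u' ^ (n + 1) * ϖW ^ ((k + 1) * (n + 1)) := by
              rw [mul_pow, ← pow_mul]
          _ = u' ^ (n + 1) * (u⁻¹ * u) ^ (k + 1) * ϖW ^ ((n + 1) * (k + 1)) := by
              rw [hu1, one_pow, mul_one, mul_comm (k + 1)]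
          _ = (u' ^ (n + 1) * u⁻¹ ^ (k + 1)) * (u * ϖW ^ (n + 1)) ^ (k + 1) := by
              rw [mul_pow, mul_pow, ← pow_mul]; ring
      rw [e4, e2]
      field_simp
    have h1 : s * w ^ (n + 1) ∈ 𝔭 := by
      rw [key]
      exact 𝔭.mul_mem_left _ (𝔭.pow_mem_of_mem hz (k + 1) (Nat.succ_pos k))
    have h2 : w ^ (n + 1) ∈ 𝔭 := (h𝔭.mem_or_mem h1).resolve_left (fun h => hs (h𝔭𝔮 h))
    exact h𝔭.mem_of_pow_mem _ h2

/-- The primes at which `g` is not a unit are finite in number (among primes of height one). -/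
theorem s34_ng_bad_finite (B : Subring F) (hnoeth : IsNoetherianRing B) (g : F) (hg : g ≠ 0)
    (hfrac : ∀ x : F, ∃ a ∈ B, ∃ b ∈ B, b ≠ 0 ∧ x = a / b)
    (S : Set (Ideal B))
    (hS : ∀ 𝔮 ∈ S, 𝔮.IsPrime ∧ ¬ (g ∈ s18_loc B 𝔮 ∧ g⁻¹ ∈ s18_loc B 𝔮) ∧
      ∀ 𝔭 : Ideal B, 𝔭.IsPrime → 𝔭 ≤ 𝔮 → 𝔭 ≠ ⊥ → 𝔮 ≤ 𝔭) : S.Finite := by
  obtain ⟨a, ha, b, hb, hb0, hgab⟩ := hfrac g
  have ha0 : a ≠ 0 := by
    rintro rfl
    apply hg
    rw [hgab, zero_div]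
  apply (Ideal.finite_minimalPrimes_of_isNoetherianRing B
    (Ideal.span {((⟨a, ha⟩ : B) * ⟨b, hb⟩ : B)})).subset
  intro 𝔮 h𝔮
  obtain ⟨h𝔮p, hbad, hht⟩ := hS 𝔮 h𝔮
  have hab : ((⟨a, ha⟩ : B) * ⟨b, hb⟩ : B) ∈ 𝔮 := by
    by_contra hab
    apply hbad
    have ha' : (⟨a, ha⟩ : B) ∉ 𝔮 := fun h => hab (𝔮.mul_mem_right _ h)
    have hb' : (⟨b, hb⟩ : B) ∉ 𝔮 := fun h => hab (𝔮.mul_mem_left _ h)
    exact ⟨⟨⟨a, ha⟩, ⟨b, hb⟩, hb', hgab⟩, ⟨⟨b, hb⟩, ⟨a, ha⟩, ha', by rw [hgab, inv_div]⟩⟩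
  obtain ⟨𝔭, h𝔭, h𝔭𝔮⟩ := Ideal.exists_minimalPrimes_le
    (I := Ideal.span {((⟨a, ha⟩ : B) * ⟨b, hb⟩ : B)}) (J := 𝔮)
    (by rw [Ideal.span_singleton_le_iff_mem]; exact hab)
  have h𝔭0 : 𝔭 ≠ ⊥ := by
    intro h
    have h1 : ((⟨a, ha⟩ : B) * ⟨b, hb⟩ : B) ∈ 𝔭 := h𝔭.1.2 (Ideal.mem_span_singleton_self _)
    rw [h, Ideal.mem_bot] at h1
    have h2 : a * b = 0 := congrArg Subtype.val h1
    exact (mul_eq_zero.mp h2).elim ha0 hb0
  have h3 : 𝔭 = 𝔮 := le_antisymm h𝔭𝔮 (hht 𝔭 h𝔭.1.1 h𝔭𝔮 h𝔭0)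
  rw [← h3]
  exact h𝔭

end Chart

section Main

variable {A₀ F : Type*} [CommRing A₀] [IsDomain A₀] [IsDiscreteValuationRing A₀] [Field F]
  [Algebra A₀ F]

/-- The contribution of one horizontal prime `𝔮` through the node `𝔪` which is an `A₀`-point and
at which `B` is a discrete valuation ring: a function `ψ ∈ B` and an exponent `n` such that
`g / ψ^(n p)` is a unit at `𝔮`, and `ψ` lies in no other horizontal prime through `𝔪`. -/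
theorem s34_ng_one_prime (π : A₀) (hπ : Irreducible π) (B : Subring F)
    (hAB : ∀ a : A₀, algebraMap A₀ F a ∈ B) (hnoeth : IsNoetherianRing B)
    (𝔪 : Ideal B) [h𝔪 : 𝔪.IsPrime] (Pinf P0 : Ideal B) [hPi : Pinf.IsPrime] [hP0' : P0.IsPrime]
    (hPinf : Pinf ≤ 𝔪) (hP0 : P0 ≤ 𝔪)
    (hϖinf : (⟨algebraMap A₀ F π, hAB π⟩ : B) ∈ Pinf)
    (hϖ0 : (⟨algebraMap A₀ F π, hAB π⟩ : B) ∈ P0)
    (hN1 : ∀ z ∈ Pinf, z ∈ P0 → ∃ r : B, z = ⟨algebraMap A₀ F π, hAB π⟩ * r)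
    (hx : (∀ b : B, ∃ a : A₀, b - ⟨algebraMap A₀ F a, hAB a⟩ ∈ 𝔪) →
      (∀ a : A₀, (⟨algebraMap A₀ F a, hAB a⟩ : B) ∈ 𝔪 → ∃ a', a = π * a') →
      ∃ x : B, x ∈ P0 ∧ x ∉ Pinf ∧ ∀ m ∈ 𝔪, ∃ r u : B, u ∉ 𝔪 ∧ u * m - x * r ∈ Pinf)
    (hy : (∀ b : B, ∃ a : A₀, b - ⟨algebraMap A₀ F a, hAB a⟩ ∈ 𝔪) →
      (∀ a : A₀, (⟨algebraMap A₀ F a, hAB a⟩ : B) ∈ 𝔪 → ∃ a', a = π * a') →
      ∃ y : B, y ∈ Pinf ∧ y ∉ P0 ∧ ∀ m ∈ 𝔪, ∃ r u : B, u ∉ 𝔪 ∧ u * m - y * r ∈ P0)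
    (p : ℕ) (g : F) (hg : g ≠ 0)
    (hdiv : ∀ W : ValuationSubring F, IsDiscreteValuationRing W →
      (∀ a : A₀, algebraMap A₀ F a ∈ W) → (algebraMap A₀ F π)⁻¹ ∈ W →
      ∃ g' u : F, u ∈ W ∧ u⁻¹ ∈ W ∧ g = u * g' ^ p)
    (𝔮 : Ideal B) [h𝔮 : 𝔮.IsPrime] (h𝔮𝔪 : 𝔮 ≤ 𝔪)
    (hϖ𝔮 : (⟨algebraMap A₀ F π, hAB π⟩ : B) ∉ 𝔮) (h𝔮0 : 𝔮 ≠ ⊥)
    (W : ValuationSubring F) [hWdvr : IsDiscreteValuationRing W]
    (hW : ∀ z : F, z ∈ W ↔ ∃ a s : B, s ∉ 𝔮 ∧ z = (a : F) / (s : F))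
    (s : B →+* A₀) (hs : ∀ a : A₀, s ⟨algebraMap A₀ F a, hAB a⟩ = a)
    (hkers : RingHom.ker s = 𝔮) :
    ∃ (ψ : B) (n : ℤ), ψ ≠ 0 ∧ s34_ng_U (s18_locRing B 𝔮) (g * (((ψ : F) ^ n)⁻¹) ^ p) ∧
      ∀ 𝔮' : Ideal B, 𝔮'.IsPrime → 𝔮' ≤ 𝔪 → (⟨algebraMap A₀ F π, hAB π⟩ : B) ∉ 𝔮' →
        ψ ∈ 𝔮' → 𝔮' = 𝔮 := by
  classical
  letI : Algebra A₀ B := ((algebraMap A₀ F).codRestrict B hAB).toAlgebra
  have hmem : ∀ z : B, z ∈ 𝔮 ↔ s z = 0 := fun z => by rw [← hkers, RingHom.mem_ker]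
  obtain ⟨⟨T, hT𝔮, hT0, hTgen, hTord⟩, -⟩ := s34_ng_of_dvr B 𝔮 W hW
  have hTF0 : (T : F) ≠ 0 := fun h0 => hT0 (Subtype.ext h0)
  have hone : (1 : B) ∉ 𝔮 := fun h => h𝔮.ne_top ((Ideal.eq_top_iff_one _).mpr h)
  -- the node is rational
  have hres : ∀ b : B, ∃ a : A₀, b - ⟨algebraMap A₀ F a, hAB a⟩ ∈ 𝔪 := by
    intro b
    refine ⟨s b, h𝔮𝔪 ((hmem _).mpr ?_)⟩
    rw [map_sub, hs, sub_self]
  have hkerA : ∀ a : A₀, (⟨algebraMap A₀ F a, hAB a⟩ : B) ∈ 𝔪 → ∃ a', a = π * a' := by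
    intro a ha
    by_contra hnd
    have hu : IsUnit a := by
      by_contra hnu
      have h1 : a ∈ IsLocalRing.maximalIdeal A₀ := (IsLocalRing.mem_maximalIdeal _).mpr hnu
      rw [hπ.maximalIdeal_eq, Ideal.mem_span_singleton] at h1
      exact hnd h1
    obtain ⟨a', ha'⟩ := hu.exists_right_inv
    apply h𝔪.ne_top
    rw [Ideal.eq_top_iff_one]
    have e : (1 : B) = ⟨algebraMap A₀ F a, hAB a⟩ * ⟨algebraMap A₀ F a', hAB a'⟩ := by
      apply Subtype.ext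
      show (1 : F) = algebraMap A₀ F a * algebraMap A₀ F a'
      rw [← map_mul, ha', map_one]
    rw [e]
    exact 𝔪.mul_mem_right _ ha
  obtain ⟨x, hx0, hxinf, hxm⟩ := hx hres hkerA
  obtain ⟨y, hyinf, hy0, hym⟩ := hy hres hkerA
  obtain ⟨sA, hsA⟩ : ∃ sA : B →ₐ[A₀] A₀, ∀ z : B, sA z = s z :=
    ⟨{ s with commutes' := fun a => hs a }, fun z => rfl⟩
  obtain ⟨ψ, hsψ, hψgen, hψexcl⟩ := s34_ng_local_eq π hπ 𝔪 Pinf P0 hPinf hP0 hϖinf hϖ0 hN1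
    x hx0 hxinf hxm y hyinf hy0 hym sA
    (fun z hz => h𝔮𝔪 ((hmem z).mpr (by rw [← hsA]; exact hz))) T
    (by rw [hsA]; exact (hmem T).mp hT𝔮)
    (fun z hz => by
      obtain ⟨c, r, hc, hcr⟩ := hTgen z ((hmem z).mpr (by rw [← hsA]; exact hz))
      exact ⟨c, r, fun h => hc ((hmem c).mpr (by rw [← hsA]; exact h)), hcr⟩)
  rw [hsA] at hsψ
  have hψ𝔮 : ψ ∈ 𝔮 := (hmem ψ).mpr hsψ
  have hψ0 : ψ ≠ 0 := by
    rintro rfl
    apply h𝔮0
    rw [eq_bot_iff]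
    intro z hz
    obtain ⟨c, r, hc, hcr⟩ := hψgen z (by rw [hsA]; exact (hmem z).mp hz)
    rw [zero_mul] at hcr
    have hc0 : c ≠ 0 := by
      rintro rfl
      exact hc (map_zero _)
    exact (Ideal.mem_bot).mpr ((mul_eq_zero.mp hcr).resolve_left hc0)
  have hψF0 : (ψ : F) ≠ 0 := fun h0 => hψ0 (Subtype.ext h0)
  -- `ψ / T` is a unit at `𝔮`
  have hψT : s34_ng_U (s18_locRing B 𝔮) ((ψ : F) * ((T : F))⁻¹) := by
    obtain ⟨c, r, hc, hcr⟩ := hψgen T (by rw [hsA]; exact (hmem T).mp hT𝔮)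
    obtain ⟨c', r', hc', hcr'⟩ := hTgen ψ hψ𝔮
    have hc𝔮 : c ∉ 𝔮 := fun h => hc (by rw [hsA]; exact (hmem c).mp h)
    have hrr : c * c' = r * r' := by
      have h1 : ψ * (c * c') = ψ * (r * r') := by linear_combination c * hcr' + r' * hcr
      exact mul_left_cancel₀ hψ0 h1
    have hr : r ∉ 𝔮 := fun h =>
      (h𝔮.mem_or_mem (show c * c' ∈ 𝔮 by rw [hrr]; exact 𝔮.mul_mem_right _ h)).elim hc𝔮 hc'
    have hr0 : (r : F) ≠ 0 := fun h0 => hr (by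
      have : r = 0 := Subtype.ext h0
      rw [this]; exact 𝔮.zero_mem)
    have hcrF : (c : F) * (T : F) = (ψ : F) * (r : F) := congrArg Subtype.val hcr
    have e : (ψ : F) * ((T : F))⁻¹ = (c : F) * ((r : F))⁻¹ := by
      field_simp
      linear_combination -hcrF
    rw [e]
    exact s34_ng_U_mul (s34_ng_U_of_not_mem B 𝔮 c hc𝔮)
      (s34_ng_U_inv (s34_ng_U_of_not_mem B 𝔮 r hr))
  -- exclusivity
  have hexcl : ∀ 𝔮' : Ideal B, 𝔮'.IsPrime → 𝔮' ≤ 𝔪 → (⟨algebraMap A₀ F π, hAB π⟩ : B) ∉ 𝔮' →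
      ψ ∈ 𝔮' → 𝔮' = 𝔮 := by
    intro 𝔮' h𝔮' h𝔮'𝔪 hϖ𝔮' hψ𝔮'
    have hle : 𝔮 ≤ 𝔮' := fun z hz =>
      hψexcl 𝔮' h𝔮' h𝔮'𝔪 hψ𝔮' hϖ𝔮' z (by rw [hsA]; exact (hmem z).mp hz)
    refine le_antisymm ?_ hle
    intro b hb
    rw [hmem]
    by_contra hsb
    have h1 : (⟨algebraMap A₀ F (s b), hAB (s b)⟩ : B) ∈ 𝔮' := by
      have h2 : b - ⟨algebraMap A₀ F (s b), hAB (s b)⟩ ∈ 𝔮 := by
        rw [hmem, map_sub, hs, sub_self]
      have := 𝔮'.sub_mem hb (hle h2)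
      simpa using this
    obtain ⟨k, u, hu⟩ := IsDiscreteValuationRing.eq_unit_mul_pow_irreducible hsb hπ
    have h3 : (⟨algebraMap A₀ F π, hAB π⟩ : B) ^ k ∈ 𝔮' := by
      have e : (⟨algebraMap A₀ F π, hAB π⟩ : B) ^ k
          = ⟨algebraMap A₀ F (↑u⁻¹ : A₀), hAB _⟩ * ⟨algebraMap A₀ F (s b), hAB (s b)⟩ := by
        apply Subtype.ext
        show (algebraMap A₀ F π) ^ k = algebraMap A₀ F (↑u⁻¹ : A₀) * algebraMap A₀ F (s b)
        rw [← map_pow, ← map_mul, hu, ← mul_assoc, Units.inv_mul, one_mul]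
      rw [e]
      exact 𝔮'.mul_mem_left _ h1
    exact hϖ𝔮' (h𝔮'.mem_of_pow_mem _ h3)
  -- the order of `g`
  have hAW : ∀ a : A₀, algebraMap A₀ F a ∈ W := fun a =>
    (hW _).mpr ⟨⟨_, hAB a⟩, 1, hone, by simp⟩
  have hϖW : (algebraMap A₀ F π)⁻¹ ∈ W := (hW _).mpr ⟨1, ⟨_, hAB π⟩, hϖ𝔮, by simp⟩
  obtain ⟨g', u, hu, hu', hgu⟩ := hdiv W hWdvr hAW hϖW
  have huU : s34_ng_U (s18_locRing B 𝔮) u := ⟨(hW u).mp hu, (hW _).mp hu'⟩
  by_cases hp : p = 0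
  · refine ⟨ψ, 0, hψ0, ?_, hexcl⟩
    rw [hp, pow_zero, mul_one, hgu, hp, pow_zero, mul_one]
    exact huU
  · have hg'0 : g' ≠ 0 := by
      rintro rfl
      apply hg
      rw [hgu, zero_pow hp, mul_zero]
    obtain ⟨n, hn⟩ := hTord g' hg'0
    refine ⟨ψ, n, hψ0, ?_, hexcl⟩
    have hTn : (T : F) ^ n ≠ 0 := zpow_ne_zero n hTF0
    have hψn : (ψ : F) ^ n ≠ 0 := zpow_ne_zero n hψF0
    have e1 : g' * ((T : F) ^ n)⁻¹ * (((ψ : F) * (T : F)⁻¹) ^ n)⁻¹ = g' * ((ψ : F) ^ n)⁻¹ := by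
      rw [mul_zpow, inv_zpow, mul_inv, inv_inv]
      field_simp
    have e : g * (((ψ : F) ^ n)⁻¹) ^ p
        = u * (g' * ((T : F) ^ n)⁻¹ * (((ψ : F) * (T : F)⁻¹) ^ n)⁻¹) ^ p := by
      rw [e1, hgu, mul_pow]
      ring
    rw [e]
    exact s34_ng_U_mul huU
      (s34_ng_U_pow (s34_ng_U_mul hn (s34_ng_U_inv (s34_ng_U_zpow hψT n))) p)

/-- **(NG): the function `G` at a node.**  `B` a noetherian subring of the field `F` with
fraction field `F`, containing the discrete valuation ring `A₀`; `𝔪` a prime of `B` containing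
the two primes `𝔓∞`, `𝔓0` with `𝔓∞ ∩ 𝔓0 = ϖ B`.  Let `g ≠ 0` be a function with all orders
divisible by `p` (`hdiv`), such that every horizontal prime `𝔮 ≤ 𝔪` at which `g` is not a unit is
an `A₀`-point (`hrat`) at which `B` is a discrete valuation ring (`hdvr`).  Assume that, whenever
`𝔪` is rational over the residue field of `A₀`, the two branches have local parameters `x`, `y`
at `𝔪` (`hx`, `hy`).  Then there is `G ≠ 0` such that `g / G ^ p` is a unit at every horizontal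
prime through `𝔪`. -/
theorem s34_node_G (π : A₀) (hπ : Irreducible π) (B : Subring F)
    (hAB : ∀ a : A₀, algebraMap A₀ F a ∈ B) (hnoeth : IsNoetherianRing B)
    (hfrac : ∀ x : F, ∃ a ∈ B, ∃ b ∈ B, b ≠ 0 ∧ x = a / b)
    (𝔪 : Ideal B) [h𝔪 : 𝔪.IsPrime] (Pinf P0 : Ideal B) [hPi : Pinf.IsPrime] [hP0' : P0.IsPrime]
    (hPinf : Pinf ≤ 𝔪) (hP0 : P0 ≤ 𝔪)
    (hϖinf : (⟨algebraMap A₀ F π, hAB π⟩ : B) ∈ Pinf)
    (hϖ0 : (⟨algebraMap A₀ F π, hAB π⟩ : B) ∈ P0)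
    (hN1 : ∀ z ∈ Pinf, z ∈ P0 → ∃ r : B, z = ⟨algebraMap A₀ F π, hAB π⟩ * r)
    (hx : (∀ b : B, ∃ a : A₀, b - ⟨algebraMap A₀ F a, hAB a⟩ ∈ 𝔪) →
      (∀ a : A₀, (⟨algebraMap A₀ F a, hAB a⟩ : B) ∈ 𝔪 → ∃ a', a = π * a') →
      ∃ x : B, x ∈ P0 ∧ x ∉ Pinf ∧ ∀ m ∈ 𝔪, ∃ r u : B, u ∉ 𝔪 ∧ u * m - x * r ∈ Pinf)
    (hy : (∀ b : B, ∃ a : A₀, b - ⟨algebraMap A₀ F a, hAB a⟩ ∈ 𝔪) →
      (∀ a : A₀, (⟨algebraMap A₀ F a, hAB a⟩ : B) ∈ 𝔪 → ∃ a', a = π * a') →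
      ∃ y : B, y ∈ Pinf ∧ y ∉ P0 ∧ ∀ m ∈ 𝔪, ∃ r u : B, u ∉ 𝔪 ∧ u * m - y * r ∈ P0)
    (p : ℕ) (g : F) (hg : g ≠ 0)
    (hdvr : ∀ 𝔮 : Ideal B, 𝔮.IsPrime → 𝔮 ≤ 𝔪 → (⟨algebraMap A₀ F π, hAB π⟩ : B) ∉ 𝔮 → 𝔮 ≠ ⊥ →
      ¬ (g ∈ s18_loc B 𝔮 ∧ g⁻¹ ∈ s18_loc B 𝔮) →
      ∃ W : ValuationSubring F, IsDiscreteValuationRing W ∧
        ∀ z : F, z ∈ W ↔ ∃ a s : B, s ∉ 𝔮 ∧ z = (a : F) / (s : F))
    (hdiv : ∀ W : ValuationSubring F, IsDiscreteValuationRing W →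
      (∀ a : A₀, algebraMap A₀ F a ∈ W) → (algebraMap A₀ F π)⁻¹ ∈ W →
      ∃ g' u : F, u ∈ W ∧ u⁻¹ ∈ W ∧ g = u * g' ^ p)
    (hrat : ∀ 𝔮 : Ideal B, 𝔮.IsPrime → 𝔮 ≤ 𝔪 → (⟨algebraMap A₀ F π, hAB π⟩ : B) ∉ 𝔮 → 𝔮 ≠ ⊥ →
      ¬ (g ∈ s18_loc B 𝔮 ∧ g⁻¹ ∈ s18_loc B 𝔮) →
      ∃ s : B →+* A₀, (∀ a : A₀, s ⟨algebraMap A₀ F a, hAB a⟩ = a) ∧ RingHom.ker s = 𝔮) :
    ∃ G : F, G ≠ 0 ∧ ∀ 𝔮 : Ideal B, 𝔮.IsPrime → 𝔮 ≤ 𝔪 →
      (⟨algebraMap A₀ F π, hAB π⟩ : B) ∉ 𝔮 →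
      g * (G⁻¹) ^ p ∈ s18_loc B 𝔮 ∧ G ^ p * g⁻¹ ∈ s18_loc B 𝔮 := by
  classical
  obtain ⟨Bad, hBad⟩ : ∃ Bad : Set (Ideal B), ∀ 𝔮 : Ideal B, 𝔮 ∈ Bad ↔
      (𝔮.IsPrime ∧ 𝔮 ≤ 𝔪 ∧ (⟨algebraMap A₀ F π, hAB π⟩ : B) ∉ 𝔮 ∧ 𝔮 ≠ ⊥ ∧
        ¬ (g ∈ s18_loc B 𝔮 ∧ g⁻¹ ∈ s18_loc B 𝔮)) := ⟨{𝔮 | _}, fun 𝔮 => Iff.rfl⟩
  have hper : ∀ 𝔮 : Ideal B, ∃ (ψ : B) (n : ℤ), 𝔮 ∈ Bad → ψ ≠ 0 ∧
      (∀ h𝔮 : 𝔮.IsPrime, s34_ng_U (s18_locRing B 𝔮) (g * (((ψ : F) ^ n)⁻¹) ^ p)) ∧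
      (∀ 𝔮' : Ideal B, 𝔮'.IsPrime → 𝔮' ≤ 𝔪 → (⟨algebraMap A₀ F π, hAB π⟩ : B) ∉ 𝔮' →
        ψ ∈ 𝔮' → 𝔮' = 𝔮) ∧
      (∀ 𝔭 : Ideal B, 𝔭.IsPrime → 𝔭 ≤ 𝔮 → 𝔭 ≠ ⊥ → 𝔮 ≤ 𝔭) := by
    intro 𝔮
    by_cases h : 𝔮 ∈ Bad
    · obtain ⟨h𝔮, h𝔮𝔪, hϖ𝔮, h𝔮0, hbad⟩ := (hBad 𝔮).mp h
      obtain ⟨W, hWdvr, hW⟩ := hdvr 𝔮 h𝔮 h𝔮𝔪 hϖ𝔮 h𝔮0 hbad
      obtain ⟨s, hs, hkers⟩ := hrat 𝔮 h𝔮 h𝔮𝔪 hϖ𝔮 h𝔮0 hbad
      obtain ⟨ψ, n, hψ0, hU, hexcl⟩ := s34_ng_one_prime π hπ B hAB hnoeth 𝔪 Pinf P0 hPinf hP0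
        hϖinf hϖ0 hN1 hx hy p g hg hdiv 𝔮 h𝔮𝔪 hϖ𝔮 h𝔮0 W hW s hs hkers
      exact ⟨ψ, n, fun _ => ⟨hψ0, fun _ => hU, hexcl, (s34_ng_of_dvr B 𝔮 W hW).2⟩⟩
    · exact ⟨1, 0, fun h' => (h h').elim⟩
  choose ψ n hψn using hper
  have hfin : Bad.Finite := s34_ng_bad_finite B hnoeth g hg hfrac Bad
    (fun 𝔮 h𝔮 => ⟨((hBad 𝔮).mp h𝔮).1, ((hBad 𝔮).mp h𝔮).2.2.2.2, (hψn 𝔮 h𝔮).2.2.2⟩)
  obtain ⟨S, hS⟩ : ∃ S : Finset (Ideal B), ∀ 𝔮, 𝔮 ∈ S ↔ 𝔮 ∈ Bad :=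
    ⟨hfin.toFinset, fun 𝔮 => hfin.mem_toFinset⟩
  refine ⟨∏ 𝔮 ∈ S, ((ψ 𝔮 : B) : F) ^ (n 𝔮), ?_, ?_⟩
  · rw [Finset.prod_ne_zero_iff]
    intro 𝔮 h𝔮
    apply zpow_ne_zero
    intro h0
    exact (hψn 𝔮 ((hS 𝔮).mp h𝔮)).1 (Subtype.ext h0)
  · intro 𝔮' h𝔮' h𝔮'𝔪 hϖ𝔮'
    suffices hU : s34_ng_U (s18_locRing B 𝔮')
        (g * ((∏ 𝔮 ∈ S, ((ψ 𝔮 : B) : F) ^ (n 𝔮))⁻¹) ^ p) by
      refine ⟨hU.1, ?_⟩
      have e : (∏ 𝔮 ∈ S, ((ψ 𝔮 : B) : F) ^ (n 𝔮)) ^ p * g⁻¹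
          = (g * ((∏ 𝔮 ∈ S, ((ψ 𝔮 : B) : F) ^ (n 𝔮))⁻¹) ^ p)⁻¹ := by
        rw [mul_inv, inv_pow, inv_inv, mul_comm]
      rw [e]
      exact hU.2
    by_cases h𝔮'0 : 𝔮' = ⊥
    · have hall : ∀ z : F, z ∈ s18_locRing B 𝔮' := by
        intro z
        obtain ⟨a, ha, b, hb, hb0, e⟩ := hfrac z
        refine ⟨⟨a, ha⟩, ⟨b, hb⟩, ?_, e⟩
        rw [h𝔮'0, Ideal.mem_bot]
        intro h
        exact hb0 (congrArg Subtype.val h)
      exact ⟨hall _, hall _⟩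
    have eprod : g * ((∏ 𝔮 ∈ S, ((ψ 𝔮 : B) : F) ^ (n 𝔮))⁻¹) ^ p
        = g * ∏ 𝔮 ∈ S, ((((ψ 𝔮 : B) : F) ^ (n 𝔮))⁻¹) ^ p := by
      rw [← Finset.prod_inv_distrib, Finset.prod_pow]
    rw [eprod]
    have hother : ∀ 𝔮 ∈ S, 𝔮 ≠ 𝔮' →
        s34_ng_U (s18_locRing B 𝔮') ((((ψ 𝔮 : B) : F) ^ (n 𝔮))⁻¹ ^ p) := by
      intro 𝔮 h𝔮 hne
      have hψ : ψ 𝔮 ∉ 𝔮' := fun h =>
        hne ((hψn 𝔮 ((hS 𝔮).mp h𝔮)).2.2.1 𝔮' h𝔮' h𝔮'𝔪 hϖ𝔮' h).symm
      exact s34_ng_U_pow (s34_ng_U_inv (s34_ng_U_zpow (s34_ng_U_of_not_mem B 𝔮' _ hψ) _)) p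
    by_cases hbad : 𝔮' ∈ S
    · rw [← Finset.mul_prod_erase S _ hbad, ← mul_assoc]
      refine s34_ng_U_mul ((hψn 𝔮' ((hS 𝔮').mp hbad)).2.1 h𝔮') (s34_ng_U_prod _ _ ?_)
      intro 𝔮 h𝔮
      exact hother 𝔮 (Finset.mem_of_mem_erase h𝔮) (Finset.ne_of_mem_erase h𝔮)
    · have hgU : s34_ng_U (s18_locRing B 𝔮') g := by
        by_contra hng
        exact hbad ((hS 𝔮').mpr ((hBad 𝔮').mpr ⟨h𝔮', h𝔮'𝔪, hϖ𝔮', h𝔮'0, hng⟩))
      refine s34_ng_U_mul hgU (s34_ng_U_prod _ _ ?_)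
      intro 𝔮 h𝔮
      exact hother 𝔮 h𝔮 (fun h => hbad (h ▸ h𝔮))

end Main

end Fermat.Agent.S34
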