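import Mathlib
import Fermat.Agent.S18.ChartDefs
import Fermat.Agent.S18.Gauss
import Fermat.Agent.S34.SmoothPoint
import Fermat.Agent.S34.NodeG

/-!
# S34 (NODE), sub-assembly (INST-node), part 1: the crossing-point hypothesis of the model

`s34_ni_P ϖ B V hBV` : the ideal `B ∩ ϖ V` of a subring `B ≤ V` (a component of the special fibre
when `V` is a Gauss valuation ring with uniformizer `ϖ`); it is prime (`s34_ni_P_prime`).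

`s34_ni_hG` : the hypothesis `hG0` / `hGi` of `s34_pow_of_model` (the function `G` at a crossing
point `𝔪`) from the two valuation rings `V₁`, `V₂`, the cap property, and the inputs of
`s34_node_G` stated for the components `𝔓∞ = B ∩ ϖ V₁`, `𝔓0 = B ∩ ϖ V₂`.
-/

set_option autoImplicit false

namespace Fermat.Agent.S34

open Fermat.Agent.S18

section Comp

variable {F : Type*} [Field F]

/-- The ideal `B ∩ ϖ V` of a subring `B ≤ V`. -/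
def s34_ni_P (ϖ : F) (B V : Subring F) (hBV : B ≤ V) : Ideal B where
  carrier := {b | ϖ⁻¹ * (b : F) ∈ V}
  add_mem' := by
    intro a b ha hb
    show ϖ⁻¹ * ((a + b : B) : F) ∈ V
    rw [Subring.coe_add, mul_add]
    exact V.add_mem ha hb
  zero_mem' := by
    show ϖ⁻¹ * ((0 : B) : F) ∈ V
    rw [Subring.coe_zero, mul_zero]
    exact V.zero_mem
  smul_mem' := by
    intro c x hx
    show ϖ⁻¹ * ((c * x : B) : F) ∈ V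
    have e : ϖ⁻¹ * ((c * x : B) : F) = (c : F) * (ϖ⁻¹ * (x : F)) := by
      rw [Subring.coe_mul]; ring
    rw [e]
    exact V.mul_mem (hBV c.2) hx

theorem s34_ni_mem_P {ϖ : F} {B V : Subring F} {hBV : B ≤ V} {b : B} :
    b ∈ s34_ni_P ϖ B V hBV ↔ ϖ⁻¹ * (b : F) ∈ V := Iff.rfl

/-- `B ∩ ϖ V` is a prime ideal of `B` when `V` is a valuation ring with uniformizer `ϖ`. -/
theorem s34_ni_P_prime {ϖ : F} {B V : Subring F} (hV : s34_Unif ϖ V) (hBV : B ≤ V) :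
    (s34_ni_P ϖ B V hBV).IsPrime := by
  refine ⟨?_, ?_⟩
  · intro htop
    have h1 : (1 : B) ∈ s34_ni_P ϖ B V hBV := by rw [htop]; trivial
    rw [s34_ni_mem_P, Subring.coe_one, mul_one] at h1
    exact hV.inv_not_mem h1
  · intro x y hxy
    rw [s34_ni_mem_P, Subring.coe_mul] at hxy
    exact hV.prime (hBV x.2) (hBV y.2) hxy

/-- `ϖ ∈ B ∩ ϖ V`. -/
theorem s34_ni_ϖ_mem_P {ϖ : F} {B V : Subring F} (hV : s34_Unif ϖ V) (hBV : B ≤ V)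
    (hϖB : ϖ ∈ B) : (⟨ϖ, hϖB⟩ : B) ∈ s34_ni_P ϖ B V hBV := by
  rw [s34_ni_mem_P]
  show ϖ⁻¹ * ϖ ∈ V
  rw [inv_mul_cancel₀ hV.ne_zero]
  exact V.one_mem

end Comp

/-- **The crossing-point hypothesis `hG0` / `hGi` of `s34_pow_of_model`** at one maximal ideal,
from the inputs of `s34_node_G` stated for the two components `B ∩ ϖ V₁`, `B ∩ ϖ V₂`. -/
theorem s34_ni_hG {A₀ F : Type*} [CommRing A₀] [IsDomain A₀] [IsDiscreteValuationRing A₀]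
    [Field F] [Algebra A₀ F] (π : A₀) (hπ : Irreducible π) (B : Subring F)
    (hAB : ∀ a : A₀, algebraMap A₀ F a ∈ B) (hnoeth : IsNoetherianRing B)
    (hfrac : ∀ x : F, ∃ a ∈ B, ∃ b ∈ B, b ≠ 0 ∧ x = a / b)
    (V₁ V₂ : Subring F) (hV₁ : s34_Unif (algebraMap A₀ F π) V₁)
    (hV₂ : s34_Unif (algebraMap A₀ F π) V₂) (hB₁ : B ≤ V₁) (hB₂ : B ≤ V₂)
    (hcap : ∀ x ∈ B, (algebraMap A₀ F π)⁻¹ * x ∈ V₁ → (algebraMap A₀ F π)⁻¹ * x ∈ V₂ →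
      (algebraMap A₀ F π)⁻¹ * x ∈ B)
    (p : ℕ) (g : F) (hg : g ≠ 0)
    (𝔪 : Ideal B) (h𝔪 : 𝔪.IsMaximal)
    (hnode : ∀ s : B, s ∉ 𝔪 → (algebraMap A₀ F π)⁻¹ * (s : F) ∉ V₁ ∧
      (algebraMap A₀ F π)⁻¹ * (s : F) ∉ V₂)
    (hx : (∀ b : B, ∃ a : A₀, b - ⟨algebraMap A₀ F a, hAB a⟩ ∈ 𝔪) →
      (∀ a : A₀, (⟨algebraMap A₀ F a, hAB a⟩ : B) ∈ 𝔪 → ∃ a', a = π * a') →
      ∃ x : B, x ∈ s34_ni_P (algebraMap A₀ F π) B V₂ hB₂ ∧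
        x ∉ s34_ni_P (algebraMap A₀ F π) B V₁ hB₁ ∧
        ∀ m ∈ 𝔪, ∃ r u : B, u ∉ 𝔪 ∧ u * m - x * r ∈ s34_ni_P (algebraMap A₀ F π) B V₁ hB₁)
    (hy : (∀ b : B, ∃ a : A₀, b - ⟨algebraMap A₀ F a, hAB a⟩ ∈ 𝔪) →
      (∀ a : A₀, (⟨algebraMap A₀ F a, hAB a⟩ : B) ∈ 𝔪 → ∃ a', a = π * a') →
      ∃ y : B, y ∈ s34_ni_P (algebraMap A₀ F π) B V₁ hB₁ ∧
        y ∉ s34_ni_P (algebraMap A₀ F π) B V₂ hB₂ ∧
        ∀ m ∈ 𝔪, ∃ r u : B, u ∉ 𝔪 ∧ u * m - y * r ∈ s34_ni_P (algebraMap A₀ F π) B V₂ hB₂)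
    (hdvr : ∀ 𝔮 : Ideal B, 𝔮.IsPrime → 𝔮 ≤ 𝔪 → (⟨algebraMap A₀ F π, hAB π⟩ : B) ∉ 𝔮 → 𝔮 ≠ ⊥ →
      ¬ (g ∈ s18_loc B 𝔮 ∧ g⁻¹ ∈ s18_loc B 𝔮) →
      ∃ W : ValuationSubring F, IsDiscreteValuationRing W ∧
        ∀ z : F, z ∈ W ↔ ∃ a s : B, s ∉ 𝔮 ∧ z = (a : F) / (s : F))
    (hdiv : ∀ W : ValuationSubring F, IsDiscreteValuationRing W →
      (∀ a : A₀, algebraMap A₀ F a ∈ W) → (algebraMap A₀ F π)⁻¹ ∈ W →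
      ∃ g' u : F, u ∈ W ∧ u⁻¹ ∈ W ∧ g = u * g' ^ p)
    (hrat : ∀ 𝔮 : Ideal B, 𝔮.IsPrime → 𝔮 ≤ 𝔪 → (⟨algebraMap A₀ F π, hAB π⟩ : B) ∉ 𝔮 → 𝔮 ≠ ⊥ →
      ¬ (g ∈ s18_loc B 𝔮 ∧ g⁻¹ ∈ s18_loc B 𝔮) →
      ∃ s : B →+* A₀, (∀ a : A₀, s ⟨algebraMap A₀ F a, hAB a⟩ = a) ∧ RingHom.ker s = 𝔮) :
    ∃ G : F, G ≠ 0 ∧ ∀ 𝔮 : Ideal B, 𝔮.IsPrime → 𝔮 ≤ 𝔪 →
      (⟨algebraMap A₀ F π, hAB π⟩ : B) ∉ 𝔮 →
      g * (G⁻¹) ^ p ∈ s18_loc B 𝔮 ∧ G ^ p * g⁻¹ ∈ s18_loc B 𝔮 := by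
  have : 𝔪.IsPrime := h𝔪.isPrime
  have hP1 : (s34_ni_P (algebraMap A₀ F π) B V₁ hB₁).IsPrime := s34_ni_P_prime hV₁ hB₁
  have hP2 : (s34_ni_P (algebraMap A₀ F π) B V₂ hB₂).IsPrime := s34_ni_P_prime hV₂ hB₂
  have hle1 : s34_ni_P (algebraMap A₀ F π) B V₁ hB₁ ≤ 𝔪 := by
    intro b hb
    by_contra hb𝔪
    exact (hnode b hb𝔪).1 hb
  have hle2 : s34_ni_P (algebraMap A₀ F π) B V₂ hB₂ ≤ 𝔪 := by
    intro b hb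
    by_contra hb𝔪
    exact (hnode b hb𝔪).2 hb
  have hN1 : ∀ z ∈ s34_ni_P (algebraMap A₀ F π) B V₁ hB₁,
      z ∈ s34_ni_P (algebraMap A₀ F π) B V₂ hB₂ →
      ∃ r : B, z = ⟨algebraMap A₀ F π, hAB π⟩ * r := by
    intro z hz1 hz2
    refine ⟨⟨(algebraMap A₀ F π)⁻¹ * (z : F), hcap _ z.2 hz1 hz2⟩, ?_⟩
    apply Subtype.ext
    show (z : F) = algebraMap A₀ F π * ((algebraMap A₀ F π)⁻¹ * (z : F))
    rw [← mul_assoc, mul_inv_cancel₀ hV₁.ne_zero, one_mul]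
  exact s34_node_G π hπ B hAB hnoeth hfrac 𝔪 (s34_ni_P (algebraMap A₀ F π) B V₁ hB₁)
    (s34_ni_P (algebraMap A₀ F π) B V₂ hB₂) hle1 hle2
    (s34_ni_ϖ_mem_P hV₁ hB₁ (hAB π)) (s34_ni_ϖ_mem_P hV₂ hB₂ (hAB π)) hN1 hx hy p g hg hdvr hdiv
    hrat

end Fermat.Agent.S34
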