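import Mathlib
import Fermat.Agent.S18.InjCore
import Fermat.Agent.S34.GlueNodal

/-!
# S34, leaf (CORE): the core of (POW) at level `N` with nodal charts

`s34_core_nodal` : the analogue of `s18_inj_core` for the two-chart theorem with a reduced nodal
special fibre `s34_two_chart_nodal`: given two charts `B0`, `Binf` of `F1 = K₁ · F(N)` over
`A₁ = A ∩ K₁` with the semi-local Gauss ring `V` and the local data `s34_PointData` at the closed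
points of the special fibres, a function `f` of `F1` with `f ≡ 1` on the special fibre all of whose
orders at the places of `Q̄ · F(N)` are divisible by `m` (a unit of `A₁`) is an `m`-th power in
`Q̄ · F(N)`.
-/

set_option autoImplicit false
set_option synthInstance.maxHeartbeats 400000

open ModularCurve AlgebraicCurve

noncomputable section

namespace Fermat.Agent.S34

open Fermat.Agent.S18

/-- (CORE) the core of (POW) at level `N` with nodal charts. -/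
theorem s34_core_nodal (N : ℕ) [NeZero N] (A : ValuationSubring (AlgebraicClosure ℚ))
    (K₁ : IntermediateField ℚ (AlgebraicClosure ℚ)) [IsDiscreteValuationRing (s18_A1 A K₁)]
    {π : s18_A1 A K₁} (hπ : Irreducible π)
    {t : s18_F1 K₁ N} {B0 Binf : Subalgebra (s18_A1 A K₁) (s18_F1 K₁ N)}
    (V : Subring (s18_F1 K₁ N))
    (hB0V : ∀ x ∈ B0, x ∈ V) (hBiV : ∀ x ∈ Binf, x ∈ V)
    (hcap0 : ∀ x ∈ B0, (algebraMap (s18_A1 A K₁) (s18_F1 K₁ N) π)⁻¹ * x ∈ V →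
      (algebraMap (s18_A1 A K₁) (s18_F1 K₁ N) π)⁻¹ * x ∈ B0)
    (hcapi : ∀ x ∈ Binf, (algebraMap (s18_A1 A K₁) (s18_F1 K₁ N) π)⁻¹ * x ∈ V →
      (algebraMap (s18_A1 A K₁) (s18_F1 K₁ N) π)⁻¹ * x ∈ Binf)
    (hVu : ∀ x ∈ V, (1 + algebraMap (s18_A1 A K₁) (s18_F1 K₁ N) π * x)⁻¹ ∈ V)
    (t_ne : t ≠ 0) (t_mem : t ∈ B0) (tinv_mem : t⁻¹ ∈ Binf)
    (glue0 : ∀ x ∈ B0, ∃ k : ℕ, t⁻¹ ^ k * x ∈ Binf)
    (glueInf : ∀ x ∈ Binf, ∃ k : ℕ, t ^ k * x ∈ B0)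
    (h1 : ∃ c₁ : ℕ, ∀ c, c₁ ≤ c → ∀ x ∈ B0, ∀ k : ℕ,
      ∃ a ∈ B0, ∃ b ∈ Binf, t⁻¹ ^ k * x = a + t ^ c * b)
    (fin : ∀ c : ℕ, ∃ s : Finset (s18_F1 K₁ N), ∀ x ∈ B0, t⁻¹ ^ c * x ∈ Binf →
      x ∈ Submodule.span (s18_A1 A K₁) (s : Set (s18_F1 K₁ N)))
    (m : ℕ) (hm0 : 0 < m) (hmu : IsUnit ((m : ℕ) : s18_A1 A K₁))
    (f b : s18_F1 K₁ N) (hf0 : f ≠ 0)
    (hh1 : (algebraMap (s18_A1 A K₁) (s18_F1 K₁ N) π)⁻¹ * (f - 1) ∈ V)
    (hb0 : b ≠ 0) (hb : b ∈ B0) (hbf : b * f ∈ B0)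
    (hdiv : ∀ P : Place (AlgebraicClosure ℚ) (modularFunctionFieldBar N),
      (m : ℤ) ∣ P.ord (s18_baseIncl K₁ N f))
    (hpts0 : ∀ 𝔪 : Ideal B0.toSubring, 𝔪.IsMaximal →
      (⟨algebraMap (s18_A1 A K₁) (s18_F1 K₁ N) π, B0.algebraMap_mem π⟩ : B0.toSubring) ∈ 𝔪 →
      s34_PointData (algebraMap (s18_A1 A K₁) (s18_F1 K₁ N) π) B0.toSubring V m f 𝔪)
    (hptsi : ∀ 𝔪 : Ideal Binf.toSubring, 𝔪.IsMaximal →
      (⟨algebraMap (s18_A1 A K₁) (s18_F1 K₁ N) π, Binf.algebraMap_mem π⟩ : Binf.toSubring) ∈ 𝔪 →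
      s34_PointData (algebraMap (s18_A1 A K₁) (s18_F1 K₁ N) π) Binf.toSubring V m f 𝔪) :
    ∃ x : modularFunctionFieldBar N, x ^ m = s18_baseIncl K₁ N f := by
  have hinj : Function.Injective (algebraMap (s18_A1 A K₁) (s18_F1 K₁ N)) := fun x y h =>
    Subtype.ext ((algebraMap K₁ (s18_F1 K₁ N)).injective h)
  -- the hypothesis `hdiv` of the two-chart theorem
  have hdiv' : ∀ W : ValuationSubring (s18_F1 K₁ N), IsDiscreteValuationRing W →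
      (∀ x : s18_A1 A K₁, algebraMap (s18_A1 A K₁) (s18_F1 K₁ N) x ∈ W) →
      (algebraMap (s18_A1 A K₁) (s18_F1 K₁ N) π)⁻¹ ∈ W →
      ∃ g u : s18_F1 K₁ N, u ∈ W ∧ u⁻¹ ∈ W ∧ f = u * g ^ m := fun W hW hA hπW =>
    s18_d3_hdiv K₁ N m f hf0 hdiv W hW (s18_K_mem_of_A1 N A K₁ hπ W hA hπW)
  let φ : s18_A1 A K₁ →+* AlgebraicClosure ℚ :=
    (algebraMap K₁ (AlgebraicClosure ℚ)).comp (s18_A1 A K₁).subtype
  have hφ : Function.Injective φ := fun x y h =>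
    Subtype.ext ((algebraMap K₁ (AlgebraicClosure ℚ)).injective h)
  obtain ⟨n, ω, e, M, hM, hroot⟩ := s34_two_chart_nodal hinj hπ V hB0V hBiV hcap0 hcapi hVu
    t_ne t_mem tinv_mem glue0 glueInf h1 fin m hm0 hmu f b hh1 hb0 hb hbf hdiv' hpts0 hptsi
    φ hφ (s18_baseIncl K₁ N) (algebraMap (AlgebraicClosure ℚ) (modularFunctionFieldBar N))
    (fun x => (s18_baseIncl_algebraMap K₁ N (x : K₁)).symm)
  have hM' : s18_baseIncl K₁ N M ≠ 0 := (map_ne_zero _).mpr hM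
  refine ⟨(∑ i, algebraMap (AlgebraicClosure ℚ) (modularFunctionFieldBar N) (ω i) *
    s18_baseIncl K₁ N (e i)) / s18_baseIncl K₁ N M, ?_⟩
  rw [div_pow, hroot, map_mul, map_pow]
  field_simp

end Fermat.Agent.S34
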