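import Fermat.Prelude.Def_ModularCurve_ArithmeticGalois
import Fermat.Prelude.Def_FLTPrelim_Ramification

/-!
# S34: the interface statement (U)

`s34_U N p q` : for every place `P` of `ℚ̄` over `q` and every `τ` in the inertia group at `P`,
`(τ - 1)² = 0` on the `p`-power torsion of `J₀(N)(ℚ̄)`.

This is the only input of the reduction `s34_of_U` (unipotent inertia of the Hecke–Galois
representation at a prime `q ∥ N`, `q ≠ p`).
-/

set_option autoImplicit false

namespace Fermat.Agent.S34

open ModularCurve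

/-- **(U)** unipotent inertia on the `p`-power torsion of `J₀(N)` at `q`:
`(τ - 1)² = 0` on `J₀(N)[p ^ n]` for every `τ` in an inertia group at `q`. -/
def s34_U (N : ℕ) (p q : ℕ) : Prop :=
  ∀ P : ValuationSubring (AlgebraicClosure ℚ), P.LiesOverPrime q →
    ∀ τ ∈ P.inertiaSubgroupIn ℚ, ∀ (n : ℕ) (x : JZero N), (p ^ n) • x = 0 →
      τ • τ • x - 2 • (τ • x) + x = 0

/-- (U) for `p`-power torsion follows from the statement for all torsion of order prime to
`q`. -/
theorem s34_U_of_coprime (N : ℕ) (p q : ℕ) (hp : p.Prime) (hq : q.Prime) (hqp : q ≠ p)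
    (h : ∀ P : ValuationSubring (AlgebraicClosure ℚ), P.LiesOverPrime q →
      ∀ τ ∈ P.inertiaSubgroupIn ℚ, ∀ (m : ℕ) (x : JZero N), ¬ q ∣ m → m • x = 0 →
        τ • τ • x - 2 • (τ • x) + x = 0) : s34_U N p q :=
  fun P hP τ hτ n x hx => h P hP τ hτ (p ^ n) x
    (fun hd => hqp ((Nat.prime_dvd_prime_iff_eq hq hp).mp (hq.dvd_of_dvd_pow hd))) hx

end Fermat.Agent.S34
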