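import Mathlib
import Fermat.Prelude.Def_ModularCurve_ArithmeticGalois
import Fermat.Agent.S34.UDef

/-!
# S34: Galois bookkeeping (GB)

Reduction of the statement (U) — `(τ - 1)² = 0` on the `m`-torsion of `Pic⁰` — to an `m`-th power
statement in the function field.

For a semilinear automorphism `g` of a function field `F / K`, a divisor `D` and a function
`f ≠ 0` with `div f = m D`, the function `h = g²f · f / (g f)²` has divisor
`m (g²D - 2 gD + D)` (`s34_gb_ord`).  Hence if `h` is an `m`-th power, the class of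
`g²D - 2 gD + D` vanishes (`s34_gb_principal`, `s34_gb_reduce`).

`s34_gb_U_of_pow` is the specialisation to `J₀(N)` and the arithmetic Galois action.
-/

set_option autoImplicit false

open AlgebraicCurve ModularCurve

namespace Fermat.Agent.S34

section Generic

variable {K F : Type*} [Field K] [Field F] [Algebra K F]

/-- The order of `g • f` at `w` is the order of `f` at `g⁻¹ • w`. -/
theorem s34_gb_ord_smul (g : SemilinearAut K F) (f : F) (w : Place K F) :
    w.ord (g • f) = (g⁻¹ • w).ord f := by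
  have h := SemilinearAut.ord_smul g (g⁻¹ • w) f
  rwa [smul_inv_smul] at h

/-- If `div f = m D` then `div (g • f) = m (g • D)`. -/
theorem s34_gb_div_smul (g : SemilinearAut K F) (m : ℤ) (D : Divisor K F) (f : F)
    (hD : ∀ v : Place K F, m * D v = v.ord f) (w : Place K F) :
    m * (g • D) w = w.ord (g • f) := by
  rw [s34_gb_ord_smul, SemilinearAut.divisor_smul_apply, hD]

/-- **(GB-ord)** if `div f = m D` then `div (g²f · f / (g f)²) = m (g²D - 2 gD + D)`. -/
theorem s34_gb_ord (g : SemilinearAut K F) (m : ℤ) (D : Divisor K F) (f : F) (hf : f ≠ 0)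
    (hD : ∀ v : Place K F, m * D v = v.ord f) (w : Place K F) :
    w.ord (g • g • f * f / (g • f) ^ 2) = m * (g • g • D - 2 • (g • D) + D) w := by
  have hgf : g • f ≠ 0 := (smul_ne_zero_iff_ne g).mpr hf
  have hggf : g • g • f ≠ 0 := (smul_ne_zero_iff_ne g).mpr hgf
  have h1 := s34_gb_div_smul g m D f hD
  have h2 := s34_gb_div_smul g m (g • D) (g • f) h1
  rw [div_eq_mul_inv, w.ord_mul (mul_ne_zero hggf hf) (inv_ne_zero (pow_ne_zero 2 hgf)),
    w.ord_mul hggf hf, w.ord_inv, pow_two, w.ord_mul hgf hgf, ← h2 w, ← h1 w, ← hD w,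
    Finsupp.add_apply, Finsupp.sub_apply, Finsupp.smul_apply]
  simp only [nsmul_eq_mul, Nat.cast_ofNat]
  ring

/-- **(GB-principal)** if `div f = m D`, `m > 0`, and `g²f · f / (g f)²` is an `m`-th power,
then `g²D - 2 gD + D` is principal. -/
theorem s34_gb_principal (g : SemilinearAut K F) (m : ℕ) (hm : 0 < m) (D : Divisor K F) (f : F)
    (hf : f ≠ 0) (hD : ∀ v : Place K F, (m : ℤ) * D v = v.ord f)
    (hy : ∃ y : F, y ^ m = g • g • f * f / (g • f) ^ 2) :
    g • g • D - 2 • (g • D) + D ∈ Divisor.principal (K := K) (F := F) := by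
  obtain ⟨y, hy⟩ := hy
  have hgf : g • f ≠ 0 := (smul_ne_zero_iff_ne g).mpr hf
  have hggf : g • g • f ≠ 0 := (smul_ne_zero_iff_ne g).mpr hgf
  have hh0 : g • g • f * f / (g • f) ^ 2 ≠ 0 :=
    div_ne_zero (mul_ne_zero hggf hf) (pow_ne_zero 2 hgf)
  have hy0 : y ≠ 0 := by
    rintro rfl
    rw [zero_pow hm.ne'] at hy
    exact hh0 hy.symm
  refine ⟨y, hy0, fun w => ?_⟩
  have h1 := s34_gb_ord g (m : ℤ) D f hf hD w
  rw [← hy, ← zpow_natCast, w.ord_zpow] at h1
  have hm' : (m : ℤ) ≠ 0 := Int.natCast_ne_zero.mpr hm.ne'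
  exact (mul_left_cancel₀ hm' h1).symm

/-- **(GB)** reduction of `(g - 1)² x = 0` for an `m`-torsion class `x` to an `m`-th power
statement in the function field. -/
theorem s34_gb_reduce (g : SemilinearAut K F) (m : ℕ) (hm : 0 < m) (x : Pic0 K F)
    (hx : m • x = 0)
    (hpow : ∀ (D : Divisor K F) (f : F), f ≠ 0 → Divisor.degree D = 0 →
      (∀ v : Place K F, (m : ℤ) * D v = v.ord f) →
      ∃ y : F, y ^ m = g • g • f * f / (g • f) ^ 2) :
    g • g • x - 2 • (g • x) + x = 0 := by
  obtain ⟨D, rfl⟩ := Pic0.mk_surjective x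
  -- `m D` is principal
  have hmD : (m • D : Divisor.degZero (K := K) (F := F)) ∈
      (Divisor.principal (K := K) (F := F)).addSubgroupOf (Divisor.degZero (K := K) (F := F)) :=
    (QuotientAddGroup.eq_zero_iff _).mp hx
  rw [AddSubgroup.mem_addSubgroupOf] at hmD
  obtain ⟨f, hf, hDf⟩ := hmD
  have hD : ∀ v : Place K F, (m : ℤ) * (D : Divisor K F) v = v.ord f := by
    intro v
    rw [← hDf v, AddSubgroup.coe_nsmul, Finsupp.smul_apply, nsmul_eq_mul]
  have hprin := s34_gb_principal g m hm (D : Divisor K F) f hf hD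
    (hpow (D : Divisor K F) f hf (Divisor.mem_degZero.mp D.2) hD)
  rw [SemilinearAut.pic0_smul_mk, SemilinearAut.pic0_smul_mk]
  have e : Pic0.mk (SemilinearAut.degZeroSMulHom g (SemilinearAut.degZeroSMulHom g D))
        - 2 • Pic0.mk (SemilinearAut.degZeroSMulHom g D) + Pic0.mk D
      = Pic0.mk (SemilinearAut.degZeroSMulHom g (SemilinearAut.degZeroSMulHom g D)
          - 2 • SemilinearAut.degZeroSMulHom g D + D) := rfl
  rw [e]
  refine (QuotientAddGroup.eq_zero_iff _).mpr ?_
  rw [AddSubgroup.mem_addSubgroupOf]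
  exact hprin

end Generic

/-- **(GB) for `J₀(N)`**: the statement (U) follows from the `p ^ n`-th power statement for
`τ²f · f / (τ f)²`, `f` a function with `div f = p ^ n • D`. -/
theorem s34_gb_U_of_pow (N p q : ℕ) (hp : p.Prime)
    (h : ∀ P : ValuationSubring (AlgebraicClosure ℚ), P.LiesOverPrime q →
      ∀ τ ∈ P.inertiaSubgroupIn ℚ, ∀ (n : ℕ)
        (D : Divisor (AlgebraicClosure ℚ) (modularFunctionFieldBar N))
        (f : modularFunctionFieldBar N), f ≠ 0 → Divisor.degree D = 0 →
        (∀ v : Place (AlgebraicClosure ℚ) (modularFunctionFieldBar N),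
          ((p ^ n : ℕ) : ℤ) * D v = v.ord f) →
        ∃ y : modularFunctionFieldBar N,
          y ^ (p ^ n) = arithmeticGalois (modularFunctionFieldFull N) τ •
              arithmeticGalois (modularFunctionFieldFull N) τ • f * f
            / (arithmeticGalois (modularFunctionFieldFull N) τ • f) ^ 2) :
    s34_U N p q := by
  intro P hP τ hτ n x hx
  rw [galois_smul_pic0_def, galois_smul_pic0_def]
  exact s34_gb_reduce (arithmeticGalois (modularFunctionFieldFull N) τ) (p ^ n)
    (pow_pos hp.pos n) x hx (fun D f hf hdeg hD => h P hP τ hτ n D f hf hdeg hD)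

end Fermat.Agent.S34
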