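import Mathlib
import Fermat.Agent.S18.Gauss
import Fermat.Agent.S34.NodeUnit

/-!
# S34, block (L): the `τ`-side of the node case

Abstract setting: `F` a field, `ϖ ∈ F`, `B, V` subrings of `F` (`B` a chart, `V` the semi-local
Gauss ring), `τ` a ring automorphism of `F` (an inertia element acting on coefficients) with

* `(τB)`  `τ B ⊆ B` (and `τ⁻¹ B ⊆ B` where needed);
* `(τϖ)`  `τ ϖ = c ϖ` with `c, c⁻¹ ∈ B`;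
* `(T1)`  `τ x / x ∈ V` and `x / τ x ∈ V` for all `x ≠ 0` (`τ` preserves the Gauss valuations);
* `(T2)`  `ϖ⁻¹ (τ x - x) ∈ V` for `x ∈ V` (`τ` is trivial on `V / ϖ V`).

Results:

* `s34_tau_sq_one` : `τ(τ x) x / (τ x)² ≡ 1 mod ϖ V` for every `x ≠ 0`;
* `s34_tau_loc` : `τ` maps `B_{τ⁻¹ 𝔮}` into `B_𝔮`;
* `s34_tau_hor` : `τ⁻¹ 𝔮` is a horizontal prime below `𝔪` if `𝔮` is;
* `s34_node_of_G` : the node case of `s34_PointData` for `h = τ(τ g) g / (τ g)²`, given a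
  function `G` carrying the horizontal divisor of `g` through the point (`g / G^p` a unit at every
  horizontal prime below `𝔪`);
* `s34_tau_hdiv` : the hypothesis `hdiv` of the two-chart theorem for `τ(τ g) g / (τ g)²` from the
  one for `g`.
-/

set_option autoImplicit false

namespace Fermat.Agent.S34

open Fermat.Agent.S18

variable {F : Type*} [Field F] {ϖ : F}

/-- `τ(τ x) x / (τ x)² ≡ 1 mod ϖ V` for every `x ≠ 0`. -/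
theorem s34_tau_sq_one (V : Subring F) (τ : F ≃+* F)
    (hT1 : ∀ x : F, x ≠ 0 → τ x / x ∈ V ∧ x / τ x ∈ V)
    (hT2 : ∀ x ∈ V, ϖ⁻¹ * (τ x - x) ∈ V) (x : F) (hx : x ≠ 0) :
    ϖ⁻¹ * (τ (τ x) * x / (τ x) ^ 2 - 1) ∈ V := by
  have hτx : τ x ≠ 0 := (map_ne_zero τ).mpr hx
  obtain ⟨hu, hu'⟩ := hT1 x hx
  have h2 := hT2 _ hu
  have e : ϖ⁻¹ * (τ (τ x) * x / (τ x) ^ 2 - 1) =
      (x / τ x) * (ϖ⁻¹ * (τ (τ x / x) - τ x / x)) := by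
    rw [map_div₀]
    field_simp
  rw [e]
  exact V.mul_mem hu' h2

/-- `τ` maps the local ring at `τ⁻¹ 𝔮` into the local ring at `𝔮`. -/
theorem s34_tau_loc (B : Subring F) (τ : F ≃+* F) (hτB : ∀ x ∈ B, τ x ∈ B) (𝔮 : Ideal B)
    (x : F) (hx : x ∈ s18_loc B (𝔮.comap ((τ : F →+* F).restrict B B hτB))) :
    τ x ∈ s18_loc B 𝔮 := by
  obtain ⟨a, s, hs, rfl⟩ := hx
  refine ⟨(τ : F →+* F).restrict B B hτB a, (τ : F →+* F).restrict B B hτB s, hs, ?_⟩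
  rw [map_div₀]
  rfl

/-- The preimage under `τ` of a horizontal prime below `𝔪` is a horizontal prime below `𝔪`. -/
theorem s34_tau_hor (B V : Subring F) (hBV : B ≤ V) (hϖB : ϖ ∈ B)
    (hcap : ∀ x ∈ B, ϖ⁻¹ * x ∈ V → ϖ⁻¹ * x ∈ B)
    (𝔪 : Ideal B) (hϖ𝔪 : (⟨ϖ, hϖB⟩ : B) ∈ 𝔪)
    (τ : F ≃+* F) (hτB : ∀ x ∈ B, τ x ∈ B)
    (hτϖ : ∃ c ∈ B, c⁻¹ ∈ B ∧ τ ϖ = c * ϖ)
    (hT2 : ∀ x ∈ V, ϖ⁻¹ * (τ x - x) ∈ V)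
    (𝔮 : Ideal B) (h𝔮 : 𝔮.IsPrime) (h𝔮𝔪 : 𝔮 ≤ 𝔪) (hϖ𝔮 : (⟨ϖ, hϖB⟩ : B) ∉ 𝔮) :
    (𝔮.comap ((τ : F →+* F).restrict B B hτB)).IsPrime ∧
      𝔮.comap ((τ : F →+* F).restrict B B hτB) ≤ 𝔪 ∧
      (⟨ϖ, hϖB⟩ : B) ∉ 𝔮.comap ((τ : F →+* F).restrict B B hτB) := by
  by_cases hϖ0 : ϖ = 0
  · exfalso
    apply hϖ𝔮
    have : (⟨ϖ, hϖB⟩ : B) = 0 := Subtype.ext hϖ0
    rw [this]
    exact 𝔮.zero_mem
  set τB : B →+* B := (τ : F →+* F).restrict B B hτB with hτBdef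
  have hτBval : ∀ x : B, ((τB x : B) : F) = τ (x : F) := fun x => rfl
  have hT2B : ∀ x : B, ϖ⁻¹ * (τ (x : F) - x) ∈ B := fun x =>
    hcap _ (B.sub_mem (hτB _ x.2) x.2) (hT2 _ (hBV x.2))
  refine ⟨Ideal.IsPrime.comap τB, ?_, ?_⟩
  · intro x hx
    have hx' : τB x ∈ 𝔪 := h𝔮𝔪 hx
    have e : x = τB x - (⟨ϖ, hϖB⟩ : B) * ⟨_, hT2B x⟩ := by
      apply Subtype.ext
      show (x : F) = τ (x : F) - ϖ * (ϖ⁻¹ * (τ (x : F) - x))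
      field_simp
      ring
    rw [e]
    exact 𝔪.sub_mem hx' (𝔪.mul_mem_right _ hϖ𝔪)
  · intro hmem
    obtain ⟨c, hc, hc', hτϖc⟩ := hτϖ
    apply hϖ𝔮
    have hτϖ0 : τ ϖ ≠ 0 := (map_ne_zero τ).mpr hϖ0
    have hc0 : c ≠ 0 := by
      rintro rfl
      rw [zero_mul] at hτϖc
      exact hτϖ0 hτϖc
    have e : (⟨ϖ, hϖB⟩ : B) = ⟨c⁻¹, hc'⟩ * τB ⟨ϖ, hϖB⟩ := by
      apply Subtype.ext
      show ϖ = c⁻¹ * τ ϖ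
      rw [hτϖc]
      field_simp
    rw [e]
    exact 𝔮.mul_mem_left _ hmem

/-- **The node case of `s34_PointData` for `h = τ(τ g) g / (τ g)²`**, given a function `G` with
`g / G^p` a unit at every horizontal prime below `𝔪`; the local factor is
`g_loc = τ(τ G) G / (τ G)²`. -/
theorem s34_node_of_G (hϖ0 : ϖ ≠ 0) (B V : Subring F) (hBV : B ≤ V) (hϖB : ϖ ∈ B)
    (hcap : ∀ x ∈ B, ϖ⁻¹ * x ∈ V → ϖ⁻¹ * x ∈ B)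
    (hVu : ∀ x ∈ V, (1 + ϖ * x)⁻¹ ∈ V) (hϖV : ϖ⁻¹ ∉ V)
    (𝔪 : Ideal B) [h𝔪 : 𝔪.IsPrime] (hϖ𝔪 : (⟨ϖ, hϖB⟩ : B) ∈ 𝔪)
    (hlocV : ∀ s : B, s ∉ 𝔪 → ((s : F))⁻¹ ∈ V)
    (p : ℕ) (hp : 0 < p) (hroot : ∀ z : F, z ^ p ∈ B → z ∈ B)
    (τ : F ≃+* F) (hτB : ∀ x ∈ B, τ x ∈ B)
    (hτϖ : ∃ c ∈ B, c⁻¹ ∈ B ∧ τ ϖ = c * ϖ)
    (hT1 : ∀ x : F, x ≠ 0 → τ x / x ∈ V ∧ x / τ x ∈ V)
    (hT2 : ∀ x ∈ V, ϖ⁻¹ * (τ x - x) ∈ V)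
    (g G : F) (hg0 : g ≠ 0) (hG0 : G ≠ 0)
    (hG : ∀ 𝔮 : Ideal B, 𝔮.IsPrime → 𝔮 ≤ 𝔪 → (⟨ϖ, hϖB⟩ : B) ∉ 𝔮 →
      g * (G⁻¹) ^ p ∈ s18_loc B 𝔮 ∧ G ^ p * g⁻¹ ∈ s18_loc B 𝔮) :
    s34_PointData ϖ B V p (τ (τ g) * g / (τ g) ^ 2) 𝔪 := by
  have hτg : τ g ≠ 0 := (map_ne_zero τ).mpr hg0
  have hττg : τ (τ g) ≠ 0 := (map_ne_zero τ).mpr hτg
  have hτG : τ G ≠ 0 := (map_ne_zero τ).mpr hG0
  have hττG : τ (τ G) ≠ 0 := (map_ne_zero τ).mpr hτG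
  refine s34_pointData_node hϖ0 B V hBV hϖB hcap hVu hϖV 𝔪 hlocV p hp hroot _
    (s34_tau_sq_one V τ hT1 hT2 g hg0) (τ (τ G) * G / (τ G) ^ 2)
    (s34_tau_sq_one V τ hT1 hT2 G hG0) ?_
  intro 𝔮 h𝔮 h𝔮𝔪 hϖ𝔮
  haveI := h𝔮
  obtain ⟨h𝔮1, h𝔮1𝔪, hϖ𝔮1⟩ :=
    s34_tau_hor B V hBV hϖB hcap 𝔪 hϖ𝔪 τ hτB hτϖ hT2 𝔮 h𝔮 h𝔮𝔪 hϖ𝔮
  obtain ⟨h𝔮2, h𝔮2𝔪, hϖ𝔮2⟩ :=
    s34_tau_hor B V hBV hϖB hcap 𝔪 hϖ𝔪 τ hτB hτϖ hT2 _ h𝔮1 h𝔮1𝔪 hϖ𝔮1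
  obtain ⟨hω0, hω0'⟩ := hG 𝔮 h𝔮 h𝔮𝔪 hϖ𝔮
  obtain ⟨hω1, hω1'⟩ := hG _ h𝔮1 h𝔮1𝔪 hϖ𝔮1
  obtain ⟨hω2, hω2'⟩ := hG _ h𝔮2 h𝔮2𝔪 hϖ𝔮2
  have a1 := s34_tau_loc B τ hτB 𝔮 _ hω1
  have a1' := s34_tau_loc B τ hτB 𝔮 _ hω1'
  have a2 := s34_tau_loc B τ hτB 𝔮 _ (s34_tau_loc B τ hτB _ _ hω2)
  have a2' := s34_tau_loc B τ hτB 𝔮 _ (s34_tau_loc B τ hτB _ _ hω2')
  have e1 : τ (τ g) * g / (τ g) ^ 2 * ((τ (τ G) * G / (τ G) ^ 2)⁻¹) ^ p =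
      τ (τ (g * (G⁻¹) ^ p)) * (g * (G⁻¹) ^ p) * (τ (G ^ p * g⁻¹)) ^ 2 := by
    simp only [map_mul, map_pow, map_inv₀, div_eq_mul_inv, mul_inv, inv_inv]
    ring
  have e2 : (τ (τ G) * G / (τ G) ^ 2) ^ p * (τ (τ g) * g / (τ g) ^ 2)⁻¹ =
      τ (τ (G ^ p * g⁻¹)) * (G ^ p * g⁻¹) * (τ (g * (G⁻¹) ^ p)) ^ 2 := by
    simp only [map_mul, map_pow, map_inv₀, div_eq_mul_inv, mul_inv, inv_inv]
    ring
  constructor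
  · rw [e1]
    exact (s18_locRing B 𝔮).mul_mem ((s18_locRing B 𝔮).mul_mem a2 hω0)
      ((s18_locRing B 𝔮).pow_mem a1' 2)
  · rw [e2]
    exact (s18_locRing B 𝔮).mul_mem ((s18_locRing B 𝔮).mul_mem a2' hω0')
      ((s18_locRing B 𝔮).pow_mem a1 2)

/-- The hypothesis `hdiv` of the two-chart theorem for `τ(τ g) g / (τ g)²` from the one for `g`:
`τ` permutes the discrete valuation rings `W ⊇ A₀` with `π⁻¹ ∈ W`. -/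
theorem s34_tau_hdiv {A₀ : Type*} [CommRing A₀] [Algebra A₀ F] (π : A₀) (τ : F ≃+* F)
    (hτA : ∀ x : A₀, ∃ y : A₀, τ (algebraMap A₀ F x) = algebraMap A₀ F y)
    (hτπ : ∃ c : A₀, τ (algebraMap A₀ F c * algebraMap A₀ F π) = algebraMap A₀ F π)
    (p : ℕ) (g : F)
    (hdiv : ∀ W : ValuationSubring F, IsDiscreteValuationRing W →
      (∀ x : A₀, algebraMap A₀ F x ∈ W) → (algebraMap A₀ F π)⁻¹ ∈ W →
      ∃ g' u : F, u ∈ W ∧ u⁻¹ ∈ W ∧ g = u * g' ^ p)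
    (W : ValuationSubring F) (hW : IsDiscreteValuationRing W)
    (hA : ∀ x : A₀, algebraMap A₀ F x ∈ W) (hπW : (algebraMap A₀ F π)⁻¹ ∈ W) :
    ∃ g' u : F, u ∈ W ∧ u⁻¹ ∈ W ∧ τ (τ g) * g / (τ g) ^ 2 = u * g' ^ p := by
  -- the key step: pull `W` back along `τ`
  have key : ∀ W : ValuationSubring F, IsDiscreteValuationRing W →
      (∀ x : A₀, algebraMap A₀ F x ∈ W) → (algebraMap A₀ F π)⁻¹ ∈ W →
      IsDiscreteValuationRing (W.comap (τ : F →+* F)) ∧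
      (∀ x : A₀, algebraMap A₀ F x ∈ W.comap (τ : F →+* F)) ∧
      (algebraMap A₀ F π)⁻¹ ∈ W.comap (τ : F →+* F) := by
    intro W hW hA hπW
    refine ⟨?_, ?_, ?_⟩
    · haveI := hW
      let e : (W.comap (τ : F →+* F)) ≃+* W :=
        RingEquiv.restrict τ (W.comap (τ : F →+* F)) W (fun x => ValuationSubring.mem_comap)
      exact IsDiscreteValuationRing.RingEquivClass.isDiscreteValuationRing e.symm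
    · intro x
      rw [ValuationSubring.mem_comap]
      obtain ⟨y, hy⟩ := hτA x
      show τ (algebraMap A₀ F x) ∈ W
      rw [hy]
      exact hA y
    · rw [ValuationSubring.mem_comap]
      obtain ⟨c, hc⟩ := hτπ
      show τ ((algebraMap A₀ F π)⁻¹) ∈ W
      by_cases hπ0 : algebraMap A₀ F π = 0
      · rw [hπ0, inv_zero, map_zero]
        exact W.zero_mem
      -- `τ (π⁻¹) = τ c * π⁻¹`
      have h1 : τ ((algebraMap A₀ F π)⁻¹) = τ (algebraMap A₀ F c) * (algebraMap A₀ F π)⁻¹ := by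
        rw [map_mul] at hc
        have hτc0 : τ (algebraMap A₀ F c) ≠ 0 := by
          intro h0
          rw [h0, zero_mul] at hc
          exact hπ0 hc.symm
        rw [map_inv₀, inv_eq_iff_eq_inv, mul_inv, inv_inv, eq_inv_mul_iff_mul_eq₀ hτc0]
        exact hc
      rw [h1]
      obtain ⟨y, hy⟩ := hτA c
      rw [hy]
      exact W.mul_mem _ _ (hA y) hπW
  obtain ⟨hW1, hA1, hπ1⟩ := key W hW hA hπW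
  obtain ⟨hW2, hA2, hπ2⟩ := key _ hW1 hA1 hπ1
  obtain ⟨g0, u0, hu0, hu0', hg0⟩ := hdiv W hW hA hπW
  obtain ⟨g1, u1, hu1, hu1', hg1⟩ := hdiv _ hW1 hA1 hπ1
  obtain ⟨g2, u2, hu2, hu2', hg2⟩ := hdiv _ hW2 hA2 hπ2
  rw [ValuationSubring.mem_comap] at hu1 hu1'
  rw [ValuationSubring.mem_comap, ValuationSubring.mem_comap] at hu2 hu2'
  have hu1 : τ u1 ∈ W := hu1
  have hu1' : τ (u1⁻¹) ∈ W := hu1'
  have hu2 : τ (τ u2) ∈ W := hu2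
  have hu2' : τ (τ (u2⁻¹)) ∈ W := hu2'
  refine ⟨τ (τ g2) * g0 / (τ g1) ^ 2, τ (τ u2) * u0 * (τ (u1⁻¹)) ^ 2, ?_, ?_, ?_⟩
  · exact W.mul_mem _ _ (W.mul_mem _ _ hu2 hu0) (pow_mem hu1' 2)
  · have e : (τ (τ u2) * u0 * (τ (u1⁻¹)) ^ 2)⁻¹ = τ (τ (u2⁻¹)) * u0⁻¹ * (τ u1) ^ 2 := by
      simp only [map_inv₀, mul_inv, inv_pow, inv_inv]
    rw [e]
    exact W.mul_mem _ _ (W.mul_mem _ _ hu2' hu0') (pow_mem hu1 2)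
  · have h1 : τ (τ g) = τ (τ u2) * (τ (τ g2)) ^ p := by
      conv_lhs => rw [hg2]
      simp only [map_mul, map_pow]
    have h2 : τ g = τ u1 * (τ g1) ^ p := by
      conv_lhs => rw [hg1]
      simp only [map_mul, map_pow]
    rw [h1, h2]
    conv_lhs => rw [hg0]
    simp only [map_inv₀, div_eq_mul_inv]
    ring

end Fermat.Agent.S34
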