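import Mathlib
import Fermat.Agent.S34.CoreNodal
import Fermat.Agent.S34.NodeTau
import Fermat.Agent.S34.SmoothPoint
import Fermat.Agent.S34.GalBook

/-!
# S34, block (ASM): the power statement (POW) at a level from the nodal model

`s34_pow_of_model` : assumption-passing assembly.  Given, over a number field `K₁ ⊆ Q̄` with
`A₁ = A ∩ K₁` a DVR,

* two charts `B0`, `Binf` of `F = K₁ · F(L)` glued along `t`, two valuation rings `V₁`, `V₂`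
  (the two components) with the chart hypotheses of `s34_two_chart_components`,
* a ring automorphism `τ₁` of `F` (the coefficientwise action of an inertia element `τ`) with the
  hypotheses `(τB)`, `(τϖ)`, `(T1)`, `(T2)` of `NodeTau`,
* regularity at the smooth points (`hsm0`, `hsmi`),
* at every crossing point a function `G` carrying the horizontal divisor of `g₁` (`hG0`, `hGi`),

the function `τ²g · g / (τ g)²` (`g` the image of `g₁` in `Q̄ · F(L)`) is an `m`-th power in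
`Q̄ · F(L)` as soon as all orders of `g` are divisible by `m` (a unit of `A₁`).
-/

set_option autoImplicit false
set_option synthInstance.maxHeartbeats 400000

open ModularCurve AlgebraicCurve

noncomputable section

namespace Fermat.Agent.S34

open Fermat.Agent.S18

set_option maxHeartbeats 4000000 in
/-- **(ASM)** the power statement at level `L` from the nodal model over `K₁`. -/
theorem s34_pow_of_model (L : ℕ) [NeZero L] (A : ValuationSubring (AlgebraicClosure ℚ))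
    (K₁ : IntermediateField ℚ (AlgebraicClosure ℚ)) [IsDiscreteValuationRing (s18_A1 A K₁)]
    {π : s18_A1 A K₁} (hπ : Irreducible π)
    {t : s18_F1 K₁ L} {B0 Binf : Subalgebra (s18_A1 A K₁) (s18_F1 K₁ L)}
    (V₁ V₂ : Subring (s18_F1 K₁ L))
    (hV₁ : s34_Unif (algebraMap (s18_A1 A K₁) (s18_F1 K₁ L) π) V₁)
    (hV₂ : s34_Unif (algebraMap (s18_A1 A K₁) (s18_F1 K₁ L) π) V₂)
    (hB0₁ : B0.toSubring ≤ V₁) (hB0₂ : B0.toSubring ≤ V₂)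
    (hBi₁ : Binf.toSubring ≤ V₁) (hBi₂ : Binf.toSubring ≤ V₂)
    (hcap0 : ∀ x ∈ B0.toSubring, (algebraMap (s18_A1 A K₁) (s18_F1 K₁ L) π)⁻¹ * x ∈ V₁ →
      (algebraMap (s18_A1 A K₁) (s18_F1 K₁ L) π)⁻¹ * x ∈ V₂ →
      (algebraMap (s18_A1 A K₁) (s18_F1 K₁ L) π)⁻¹ * x ∈ B0.toSubring)
    (hcapi : ∀ x ∈ Binf.toSubring, (algebraMap (s18_A1 A K₁) (s18_F1 K₁ L) π)⁻¹ * x ∈ V₁ →
      (algebraMap (s18_A1 A K₁) (s18_F1 K₁ L) π)⁻¹ * x ∈ V₂ →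
      (algebraMap (s18_A1 A K₁) (s18_F1 K₁ L) π)⁻¹ * x ∈ Binf.toSubring)
    (noeth0 : IsNoetherianRing B0.toSubring) (noethi : IsNoetherianRing Binf.toSubring)
    (frac0 : ∀ x : s18_F1 K₁ L, ∃ a ∈ B0.toSubring, ∃ b ∈ B0.toSubring, b ≠ 0 ∧ x = a / b)
    (fraci : ∀ x : s18_F1 K₁ L, ∃ a ∈ Binf.toSubring, ∃ b ∈ Binf.toSubring, b ≠ 0 ∧ x = a / b)
    (t_ne : t ≠ 0) (t_mem : t ∈ B0) (tinv_mem : t⁻¹ ∈ Binf)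
    (glue0 : ∀ x ∈ B0, ∃ k : ℕ, t⁻¹ ^ k * x ∈ Binf)
    (glueInf : ∀ x ∈ Binf, ∃ k : ℕ, t ^ k * x ∈ B0)
    (h1 : ∃ c₁ : ℕ, ∀ c, c₁ ≤ c → ∀ x ∈ B0, ∀ k : ℕ,
      ∃ a ∈ B0, ∃ b ∈ Binf, t⁻¹ ^ k * x = a + t ^ c * b)
    (fin : ∀ c : ℕ, ∃ s : Finset (s18_F1 K₁ L), ∀ x ∈ B0, t⁻¹ ^ c * x ∈ Binf →
      x ∈ Submodule.span (s18_A1 A K₁) (s : Set (s18_F1 K₁ L)))
    (m : ℕ) (hm0 : 0 < m) (hmu : IsUnit ((m : ℕ) : s18_A1 A K₁))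
    (hroot0 : ∀ z : s18_F1 K₁ L, z ^ m ∈ B0.toSubring → z ∈ B0.toSubring)
    (hrooti : ∀ z : s18_F1 K₁ L, z ^ m ∈ Binf.toSubring → z ∈ Binf.toSubring)
    -- the inertia element and its coefficientwise action
    (τ : AlgebraicClosure ℚ ≃ₐ[ℚ] AlgebraicClosure ℚ)
    (τ₁ : s18_F1 K₁ L ≃+* s18_F1 K₁ L)
    (hτ₁ : ∀ x : s18_F1 K₁ L, s18_baseIncl K₁ L (τ₁ x) =
      arithmeticGalois (modularFunctionFieldFull L) τ • s18_baseIncl K₁ L x)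
    (hτB0 : ∀ x ∈ B0.toSubring, τ₁ x ∈ B0.toSubring)
    (hτBi : ∀ x ∈ Binf.toSubring, τ₁ x ∈ Binf.toSubring)
    (hτπ : ∃ c : s18_A1 A K₁, IsUnit c ∧
      τ₁ (algebraMap (s18_A1 A K₁) (s18_F1 K₁ L) π) =
        algebraMap (s18_A1 A K₁) (s18_F1 K₁ L) c * algebraMap (s18_A1 A K₁) (s18_F1 K₁ L) π)
    (hT1₁ : ∀ x : s18_F1 K₁ L, x ≠ 0 → τ₁ x / x ∈ V₁ ∧ x / τ₁ x ∈ V₁)
    (hT1₂ : ∀ x : s18_F1 K₁ L, x ≠ 0 → τ₁ x / x ∈ V₂ ∧ x / τ₁ x ∈ V₂)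
    (hT2₁ : ∀ x ∈ V₁, (algebraMap (s18_A1 A K₁) (s18_F1 K₁ L) π)⁻¹ * (τ₁ x - x) ∈ V₁)
    (hT2₂ : ∀ x ∈ V₂, (algebraMap (s18_A1 A K₁) (s18_F1 K₁ L) π)⁻¹ * (τ₁ x - x) ∈ V₂)
    -- the function
    (g₁ : s18_F1 K₁ L) (hg₁ : g₁ ≠ 0)
    (hdivg : ∀ P : Place (AlgebraicClosure ℚ) (modularFunctionFieldBar L),
      (m : ℤ) ∣ P.ord (s18_baseIncl K₁ L g₁))
    -- regularity at the smooth points
    (hsm0 : ∀ f : B0.toSubring,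
      ((algebraMap (s18_A1 A K₁) (s18_F1 K₁ L) π)⁻¹ * (f : s18_F1 K₁ L) ∈ V₁ ∨
        (algebraMap (s18_A1 A K₁) (s18_F1 K₁ L) π)⁻¹ * (f : s18_F1 K₁ L) ∈ V₂) →
      ∀ 𝔫 : Ideal (s34_away B0.toSubring (f : s18_F1 K₁ L) f.2), 𝔫.IsMaximal →
      (⟨algebraMap (s18_A1 A K₁) (s18_F1 K₁ L) π,
        s34_le_away B0.toSubring (f : s18_F1 K₁ L) f.2 (B0.algebraMap_mem π)⟩ :
        s34_away B0.toSubring (f : s18_F1 K₁ L) f.2) ∈ 𝔫 →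
      ∃ s ∈ 𝔫, ∀ x ∈ 𝔫, ∃ u, u ∉ 𝔫 ∧ u * x ∈ Ideal.span
        {(⟨algebraMap (s18_A1 A K₁) (s18_F1 K₁ L) π,
          s34_le_away B0.toSubring (f : s18_F1 K₁ L) f.2 (B0.algebraMap_mem π)⟩ :
          s34_away B0.toSubring (f : s18_F1 K₁ L) f.2), s})
    (hsmi : ∀ f : Binf.toSubring,
      ((algebraMap (s18_A1 A K₁) (s18_F1 K₁ L) π)⁻¹ * (f : s18_F1 K₁ L) ∈ V₁ ∨
        (algebraMap (s18_A1 A K₁) (s18_F1 K₁ L) π)⁻¹ * (f : s18_F1 K₁ L) ∈ V₂) →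
      ∀ 𝔫 : Ideal (s34_away Binf.toSubring (f : s18_F1 K₁ L) f.2), 𝔫.IsMaximal →
      (⟨algebraMap (s18_A1 A K₁) (s18_F1 K₁ L) π,
        s34_le_away Binf.toSubring (f : s18_F1 K₁ L) f.2 (Binf.algebraMap_mem π)⟩ :
        s34_away Binf.toSubring (f : s18_F1 K₁ L) f.2) ∈ 𝔫 →
      ∃ s ∈ 𝔫, ∀ x ∈ 𝔫, ∃ u, u ∉ 𝔫 ∧ u * x ∈ Ideal.span
        {(⟨algebraMap (s18_A1 A K₁) (s18_F1 K₁ L) π,
          s34_le_away Binf.toSubring (f : s18_F1 K₁ L) f.2 (Binf.algebraMap_mem π)⟩ :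
          s34_away Binf.toSubring (f : s18_F1 K₁ L) f.2), s})
    -- the crossing points: a function carrying the horizontal divisor of `g₁`
    (hG0 : ∀ 𝔪 : Ideal B0.toSubring, 𝔪.IsMaximal →
      (⟨algebraMap (s18_A1 A K₁) (s18_F1 K₁ L) π, B0.algebraMap_mem π⟩ : B0.toSubring) ∈ 𝔪 →
      (∀ s : B0.toSubring, s ∉ 𝔪 →
        (algebraMap (s18_A1 A K₁) (s18_F1 K₁ L) π)⁻¹ * (s : s18_F1 K₁ L) ∉ V₁ ∧
        (algebraMap (s18_A1 A K₁) (s18_F1 K₁ L) π)⁻¹ * (s : s18_F1 K₁ L) ∉ V₂) →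
      ∃ G : s18_F1 K₁ L, G ≠ 0 ∧
        ∀ 𝔮 : Ideal B0.toSubring, 𝔮.IsPrime → 𝔮 ≤ 𝔪 →
          (⟨algebraMap (s18_A1 A K₁) (s18_F1 K₁ L) π, B0.algebraMap_mem π⟩ : B0.toSubring) ∉ 𝔮 →
          g₁ * (G⁻¹) ^ m ∈ s18_loc B0.toSubring 𝔮 ∧ G ^ m * g₁⁻¹ ∈ s18_loc B0.toSubring 𝔮)
    (hGi : ∀ 𝔪 : Ideal Binf.toSubring, 𝔪.IsMaximal →
      (⟨algebraMap (s18_A1 A K₁) (s18_F1 K₁ L) π, Binf.algebraMap_mem π⟩ : Binf.toSubring) ∈ 𝔪 →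
      (∀ s : Binf.toSubring, s ∉ 𝔪 →
        (algebraMap (s18_A1 A K₁) (s18_F1 K₁ L) π)⁻¹ * (s : s18_F1 K₁ L) ∉ V₁ ∧
        (algebraMap (s18_A1 A K₁) (s18_F1 K₁ L) π)⁻¹ * (s : s18_F1 K₁ L) ∉ V₂) →
      ∃ G : s18_F1 K₁ L, G ≠ 0 ∧
        ∀ 𝔮 : Ideal Binf.toSubring, 𝔮.IsPrime → 𝔮 ≤ 𝔪 →
          (⟨algebraMap (s18_A1 A K₁) (s18_F1 K₁ L) π, Binf.algebraMap_mem π⟩ :
            Binf.toSubring) ∉ 𝔮 →
          g₁ * (G⁻¹) ^ m ∈ s18_loc Binf.toSubring 𝔮 ∧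
            G ^ m * g₁⁻¹ ∈ s18_loc Binf.toSubring 𝔮) :
    ∃ x : modularFunctionFieldBar L,
      x ^ m = arithmeticGalois (modularFunctionFieldFull L) τ •
          (arithmeticGalois (modularFunctionFieldFull L) τ • s18_baseIncl K₁ L g₁) *
            s18_baseIncl K₁ L g₁ /
          (arithmeticGalois (modularFunctionFieldFull L) τ • s18_baseIncl K₁ L g₁) ^ 2 := by
  classical
  have hϖ0 : (algebraMap (s18_A1 A K₁) (s18_F1 K₁ L) π) ≠ 0 := hV₁.ne_zero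
  have hVmem : ∀ x, x ∈ V₁ ⊓ V₂ ↔ x ∈ V₁ ∧ x ∈ V₂ := fun x => Iff.rfl
  -- the function `v`
  have hτg : τ₁ g₁ ≠ 0 := (map_ne_zero_iff τ₁ τ₁.injective).mpr hg₁
  have hττg : τ₁ (τ₁ g₁) ≠ 0 := (map_ne_zero_iff τ₁ τ₁.injective).mpr hτg
  have hv0 : τ₁ (τ₁ g₁) * g₁ / (τ₁ g₁) ^ 2 ≠ 0 :=
    div_ne_zero (mul_ne_zero hττg hg₁) (pow_ne_zero 2 hτg)
  -- its image in `Q̄ · F(L)`
  have hvbar : s18_baseIncl K₁ L (τ₁ (τ₁ g₁) * g₁ / (τ₁ g₁) ^ 2) =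
      arithmeticGalois (modularFunctionFieldFull L) τ • (arithmeticGalois (modularFunctionFieldFull L) τ • s18_baseIncl K₁ L g₁) * s18_baseIncl K₁ L g₁ /
        (arithmeticGalois (modularFunctionFieldFull L) τ • s18_baseIncl K₁ L g₁) ^ 2 := by
    have hne : s18_baseIncl K₁ L (τ₁ g₁) ≠ 0 :=
      (map_ne_zero_iff _ (s18_baseIncl K₁ L).injective).mpr hτg
    rw [← hτ₁, ← hτ₁, eq_div_iff (pow_ne_zero 2 hne)]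
    calc s18_baseIncl K₁ L (τ₁ (τ₁ g₁) * g₁ / (τ₁ g₁) ^ 2) * s18_baseIncl K₁ L (τ₁ g₁) ^ 2
        = s18_baseIncl K₁ L (τ₁ (τ₁ g₁) * g₁ / (τ₁ g₁) ^ 2 * (τ₁ g₁) ^ 2) := by
          rw [(s18_baseIncl K₁ L).map_mul, (s18_baseIncl K₁ L).map_pow]
      _ = s18_baseIncl K₁ L (τ₁ (τ₁ g₁) * g₁) := by
          rw [div_mul_cancel₀ _ (pow_ne_zero 2 hτg)]
      _ = _ := (s18_baseIncl K₁ L).map_mul _ _
  rw [← hvbar]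
  -- `(T1)`, `(T2)` for `V`
  have hT1 : ∀ x : s18_F1 K₁ L, x ≠ 0 → τ₁ x / x ∈ V₁ ⊓ V₂ ∧ x / τ₁ x ∈ V₁ ⊓ V₂ := fun x hx =>
    ⟨⟨(hT1₁ x hx).1, (hT1₂ x hx).1⟩, ⟨(hT1₁ x hx).2, (hT1₂ x hx).2⟩⟩
  have hT2 : ∀ x ∈ V₁ ⊓ V₂, (algebraMap (s18_A1 A K₁) (s18_F1 K₁ L) π)⁻¹ * (τ₁ x - x) ∈ V₁ ⊓ V₂ := fun x hx =>
    ⟨hT2₁ x hx.1, hT2₂ x hx.2⟩
  have hVu : ∀ x ∈ V₁ ⊓ V₂, (1 + (algebraMap (s18_A1 A K₁) (s18_F1 K₁ L) π) * x)⁻¹ ∈ V₁ ⊓ V₂ := fun x hx =>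
    s34_inf_one_add_inv hV₁ hV₂ x hx
  have hϖV : (algebraMap (s18_A1 A K₁) (s18_F1 K₁ L) π)⁻¹ ∉ V₁ ⊓ V₂ := fun h => hV₁.inv_not_mem h.1
  have hh1 : (algebraMap (s18_A1 A K₁) (s18_F1 K₁ L) π)⁻¹ * (τ₁ (τ₁ g₁) * g₁ / (τ₁ g₁) ^ 2 - 1) ∈ V₁ ⊓ V₂ :=
    s34_tau_sq_one (V₁ ⊓ V₂) τ₁ hT1 hT2 g₁ hg₁
  -- divisibility of the orders of `v`
  have hdiv : ∀ P : Place (AlgebraicClosure ℚ) (modularFunctionFieldBar L),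
      (m : ℤ) ∣ P.ord (s18_baseIncl K₁ L (τ₁ (τ₁ g₁) * g₁ / (τ₁ g₁) ^ 2)) := by
    intro P
    have hg0 : s18_baseIncl K₁ L g₁ ≠ 0 :=
      (map_ne_zero_iff _ (s18_baseIncl K₁ L).injective).mpr hg₁
    have hσg : arithmeticGalois (modularFunctionFieldFull L) τ • s18_baseIncl K₁ L g₁ ≠ 0 := (smul_ne_zero_iff_ne (arithmeticGalois (modularFunctionFieldFull L) τ)).mpr hg0
    have hσσg : arithmeticGalois (modularFunctionFieldFull L) τ • (arithmeticGalois (modularFunctionFieldFull L) τ • s18_baseIncl K₁ L g₁) ≠ 0 := (smul_ne_zero_iff_ne (arithmeticGalois (modularFunctionFieldFull L) τ)).mpr hσg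
    rw [hvbar, div_eq_mul_inv, P.ord_mul (mul_ne_zero hσσg hg0) (inv_ne_zero (pow_ne_zero 2 hσg)),
      P.ord_mul hσσg hg0, P.ord_inv, pow_two, P.ord_mul hσg hσg, s34_gb_ord_smul,
      s34_gb_ord_smul, s34_gb_ord_smul]
    exact dvd_add (dvd_add (hdivg _) (hdivg _)) (dvd_neg.mpr (dvd_add (hdivg _) (hdivg _)))
  -- the unit `c` with `τ ϖ = c ϖ`
  obtain ⟨c, hcu, hcτ⟩ := hτπ
  obtain ⟨c', hc'⟩ := hcu.exists_right_inv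
  have hcc' : algebraMap (s18_A1 A K₁) (s18_F1 K₁ L) c *
      algebraMap (s18_A1 A K₁) (s18_F1 K₁ L) c' = 1 := by
    rw [← map_mul, hc', map_one]
  have hcinv : (algebraMap (s18_A1 A K₁) (s18_F1 K₁ L) c)⁻¹ =
      algebraMap (s18_A1 A K₁) (s18_F1 K₁ L) c' := (eq_inv_of_mul_eq_one_right hcc').symm
  -- the multiplier `b`
  obtain ⟨a, ha, b, hb, hb0, hvab⟩ := frac0 (τ₁ (τ₁ g₁) * g₁ / (τ₁ g₁) ^ 2)
  have hbv : b * (τ₁ (τ₁ g₁) * g₁ / (τ₁ g₁) ^ 2) ∈ B0 := by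
    rw [hvab, mul_div_cancel₀ _ hb0]; exact ha
  -- point data in a chart
  have hpts : ∀ (B : Subalgebra (s18_A1 A K₁) (s18_F1 K₁ L)) (hB₁ : B.toSubring ≤ V₁)
      (hB₂ : B.toSubring ≤ V₂)
      (hcap : ∀ x ∈ B.toSubring, (algebraMap (s18_A1 A K₁) (s18_F1 K₁ L) π)⁻¹ * x ∈ V₁ → (algebraMap (s18_A1 A K₁) (s18_F1 K₁ L) π)⁻¹ * x ∈ V₂ → (algebraMap (s18_A1 A K₁) (s18_F1 K₁ L) π)⁻¹ * x ∈ B.toSubring)
      (noeth : IsNoetherianRing B.toSubring)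
      (frac : ∀ x : s18_F1 K₁ L, ∃ a ∈ B.toSubring, ∃ b ∈ B.toSubring, b ≠ 0 ∧ x = a / b)
      (hroot : ∀ z : s18_F1 K₁ L, z ^ m ∈ B.toSubring → z ∈ B.toSubring)
      (hτB : ∀ x ∈ B.toSubring, τ₁ x ∈ B.toSubring)
      (hsm : ∀ f : B.toSubring,
        ((algebraMap (s18_A1 A K₁) (s18_F1 K₁ L) π)⁻¹ * (f : s18_F1 K₁ L) ∈ V₁ ∨ (algebraMap (s18_A1 A K₁) (s18_F1 K₁ L) π)⁻¹ * (f : s18_F1 K₁ L) ∈ V₂) →
        ∀ 𝔫 : Ideal (s34_away B.toSubring (f : s18_F1 K₁ L) f.2), 𝔫.IsMaximal →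
        (⟨algebraMap (s18_A1 A K₁) (s18_F1 K₁ L) π, s34_le_away B.toSubring (f : s18_F1 K₁ L) f.2 (B.algebraMap_mem π)⟩ :
          s34_away B.toSubring (f : s18_F1 K₁ L) f.2) ∈ 𝔫 →
        ∃ s ∈ 𝔫, ∀ x ∈ 𝔫, ∃ u, u ∉ 𝔫 ∧ u * x ∈ Ideal.span
          {(⟨algebraMap (s18_A1 A K₁) (s18_F1 K₁ L) π, s34_le_away B.toSubring (f : s18_F1 K₁ L) f.2 (B.algebraMap_mem π)⟩ :
            s34_away B.toSubring (f : s18_F1 K₁ L) f.2), s})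
      (hG : ∀ 𝔪 : Ideal B.toSubring, 𝔪.IsMaximal →
        (⟨algebraMap (s18_A1 A K₁) (s18_F1 K₁ L) π, B.algebraMap_mem π⟩ : B.toSubring) ∈ 𝔪 →
        (∀ s : B.toSubring, s ∉ 𝔪 →
          (algebraMap (s18_A1 A K₁) (s18_F1 K₁ L) π)⁻¹ * (s : s18_F1 K₁ L) ∉ V₁ ∧ (algebraMap (s18_A1 A K₁) (s18_F1 K₁ L) π)⁻¹ * (s : s18_F1 K₁ L) ∉ V₂) →
        ∃ G : s18_F1 K₁ L, G ≠ 0 ∧
          ∀ 𝔮 : Ideal B.toSubring, 𝔮.IsPrime → 𝔮 ≤ 𝔪 →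
            (⟨algebraMap (s18_A1 A K₁) (s18_F1 K₁ L) π, B.algebraMap_mem π⟩ : B.toSubring) ∉ 𝔮 →
            g₁ * (G⁻¹) ^ m ∈ s18_loc B.toSubring 𝔮 ∧ G ^ m * g₁⁻¹ ∈ s18_loc B.toSubring 𝔮)
      (𝔪 : Ideal B.toSubring), 𝔪.IsMaximal →
      (⟨algebraMap (s18_A1 A K₁) (s18_F1 K₁ L) π, B.algebraMap_mem π⟩ : B.toSubring) ∈ 𝔪 →
      s34_PointData (algebraMap (s18_A1 A K₁) (s18_F1 K₁ L) π) B.toSubring (V₁ ⊓ V₂) m (τ₁ (τ₁ g₁) * g₁ / (τ₁ g₁) ^ 2) 𝔪 := by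
    intro B hB₁ hB₂ hcap noeth frac hroot hτB hsm hG 𝔪 h𝔪 hϖ𝔪
    have : 𝔪.IsPrime := h𝔪.isPrime
    by_cases hnode : ∀ s : B.toSubring, s ∉ 𝔪 →
        (algebraMap (s18_A1 A K₁) (s18_F1 K₁ L) π)⁻¹ * (s : s18_F1 K₁ L) ∉ V₁ ∧ (algebraMap (s18_A1 A K₁) (s18_F1 K₁ L) π)⁻¹ * (s : s18_F1 K₁ L) ∉ V₂
    · -- crossing point
      obtain ⟨G, hG0, hGq⟩ := hG 𝔪 h𝔪 hϖ𝔪 hnode
      exact s34_node_of_G hϖ0 B.toSubring (V₁ ⊓ V₂) (fun x hx => ⟨hB₁ hx, hB₂ hx⟩)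
        (B.algebraMap_mem π) (fun x hx hxV => hcap x hx hxV.1 hxV.2) hVu hϖV 𝔪 hϖ𝔪
        (fun s hs => ⟨hV₁.inv_mem_of_not_dvd (hB₁ s.2) (hnode s hs).1,
          hV₂.inv_mem_of_not_dvd (hB₂ s.2) (hnode s hs).2⟩) m hm0
        hroot τ₁ hτB ⟨algebraMap (s18_A1 A K₁) (s18_F1 K₁ L) c, B.algebraMap_mem c,
          by rw [hcinv]; exact B.algebraMap_mem c', hcτ⟩ hT1 hT2 g₁ G hg₁ hG0 hGq
    · -- a point on exactly one component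
      exact s34_pointData_of_cases hV₁ hV₂ hB₁ hB₂ (B.algebraMap_mem π) hcap noeth frac 𝔪 hϖ𝔪
        m hm0 hroot _ hh1 (fun f _ hf => hsm f hf) (fun h => absurd h hnode)
  exact s34_core_nodal L A K₁ hπ (V₁ ⊓ V₂) (fun x hx => ⟨hB0₁ hx, hB0₂ hx⟩)
    (fun x hx => ⟨hBi₁ hx, hBi₂ hx⟩) (fun x hx hxV => hcap0 x hx hxV.1 hxV.2)
    (fun x hx hxV => hcapi x hx hxV.1 hxV.2) hVu t_ne t_mem tinv_mem glue0 glueInf h1 fin m hm0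
    hmu _ b hv0 hh1 hb0 hb hbv hdiv
    (hpts B0 hB0₁ hB0₂ hcap0 noeth0 frac0 hroot0 hτB0 hsm0 hG0)
    (hpts Binf hBi₁ hBi₂ hcapi noethi fraci hrooti hτBi hsmi hGi)

end Fermat.Agent.S34
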