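import Fermat.Agent.S37.EsSwap
import Fermat.Prelude.Def_ModularCurve_ArithmeticGalois

/-!
# S34 (NODE), leaf (SW): the Atkin–Lehner swap over an arbitrary subfield of `ℚ̄`

For a field `K` with an embedding `ι : K →+* ℚ̄` and coprime `ℓ, N`, there is a `K`-automorphism
`W` of `K · F(N ℓ) = laurentBaseChange K (modularFunctionFieldFull (N * ℓ))` with
`W (j(q^(d m))) = j(q^(d ℓ/m))` (`d ∣ N`, `m ∣ ℓ`); it exchanges the two degeneracy maps
`α, β : K · F(N) → K · F(N ℓ)`, is an involution and commutes with the coefficientwise action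
of `Aut(K/ℚ)`.

The relation-stability is transported from the landed `s37_ew_rel` (over `ℚ̄`) along `ι`.
-/

set_option autoImplicit false
set_option linter.style.haveILetI false
set_option linter.unusedSectionVars false

open ModularCurve

noncomputable section

namespace Fermat.Agent.S34

open Fermat.Agent.S37 Fermat.Agent.S24

section General

variable (K : Type*) [Field K] [Algebra ℚ K]

/-- `j(q^e)` with coefficients in `K` (junk value `0` for `e = 0`). -/
def s34_sw_s (e : ℕ) : LaurentSeries K :=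
  if h : e = 0 then 0 else haveI : NeZero e := ⟨h⟩; coeffEmb K (qExpand ℚ e jq)

theorem s34_sw_s_eq (e : ℕ) [NeZero e] : s34_sw_s K e = coeffEmb K (qExpand ℚ e jq) := by
  unfold s34_sw_s
  rw [dif_neg (NeZero.ne e)]

variable {K}

/-- Coefficientwise maps along a field embedding are injective. -/
theorem s34_sw_coeffMap_injective {L : Type*} [Field L] (ι : K →+* L) :
    Function.Injective (coeffMap ι) := by
  intro x y h
  ext n
  have := congrArg (fun z : LaurentSeries L => z.coeff n) h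
  simp only [coeffMap_coeff] at this
  exact ι.injective this

/-- Transport of `j(q^e)` along an embedding into `ℚ̄`. -/
theorem s34_sw_coeffMap_s (ι : K →+* Kbar) (e : ℕ) :
    coeffMap ι (s34_sw_s K e) = s37_ew_s e := by
  unfold s34_sw_s s37_ew_s
  by_cases h : e = 0
  · rw [dif_pos h, dif_pos h, map_zero]
  · rw [dif_neg h, dif_neg h]
    show coeffMap ι (coeffMap (algebraMap ℚ K) _) = coeffMap (algebraMap ℚ Kbar) _
    rw [coeffMap_coeffMap]
    exact coeffMap_congr (Subsingleton.elim _ _) _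

/-- Evaluation of polynomials commutes with the transport along `ι`. -/
theorem s34_sw_coeffMap_aeval {L : Type*} [Field L] (ι : K →+* L) {σ : Type*}
    (x : σ → LaurentSeries K) (P : MvPolynomial σ K) :
    coeffMap ι (MvPolynomial.aeval x P) =
      MvPolynomial.aeval (fun i => coeffMap ι (x i)) (MvPolynomial.map ι P) := by
  have hc : (coeffMap ι).comp (algebraMap K (LaurentSeries K)) =
      (algebraMap L (LaurentSeries L)).comp ι := by
    ext c : 1
    simp only [RingHom.comp_apply]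
    rw [algebraMap_laurentSeries_eq_single, algebraMap_laurentSeries_eq_single, coeffMap_single]
  rw [MvPolynomial.aeval_def, MvPolynomial.aeval_def, MvPolynomial.eval₂_map,
    MvPolynomial.hom_eval₂, hc]

/-- The relations between the `j(q^(d m))`, `d ∣ N`, `m ∣ ℓ`, with coefficients in `K`, are
stable under the Atkin–Lehner swap `m ↦ ℓ / m`. -/
theorem s34_sw_rel (ι : K →+* Kbar) (N ℓ : ℕ) [NeZero N] [NeZero ℓ] (hcop : Nat.Coprime ℓ N)
    (P : MvPolynomial ({d : ℕ // d ∣ N} × {m : ℕ // m ∣ ℓ}) K)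
    (hP : MvPolynomial.aeval
      (fun p : {d : ℕ // d ∣ N} × {m : ℕ // m ∣ ℓ} => s34_sw_s K (p.1.1 * p.2.1)) P = 0) :
    MvPolynomial.aeval
      (fun p : {d : ℕ // d ∣ N} × {m : ℕ // m ∣ ℓ} => s34_sw_s K (p.1.1 * (ℓ / p.2.1))) P
        = 0 := by
  apply s34_sw_coeffMap_injective ι
  rw [map_zero, s34_sw_coeffMap_aeval]
  have h1 := congrArg (coeffMap ι) hP
  rw [map_zero, s34_sw_coeffMap_aeval] at h1
  simp only [s34_sw_coeffMap_s] at h1 ⊢
  exact s37_ew_rel N ℓ hcop _ h1

variable (K)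

/-- A subfield of `K((q))` containing the constants and the `j(q^e)`, `e ∣ M`, contains
`K · F(M)`. -/
theorem s34_sw_le (M : ℕ) (E : IntermediateField K (LaurentSeries K))
    (hE : ∀ (e : ℕ) [NeZero e], e ∣ M → coeffEmb K (qExpand ℚ e jq) ∈ E) :
    laurentBaseChange K (modularFunctionFieldFull M) ≤ E := by
  show IntermediateField.adjoin K
    (⇑(coeffEmb K) '' (modularFunctionFieldFull M : Set (LaurentSeries ℚ))) ≤ E
  rw [IntermediateField.adjoin_le_iff]
  rintro _ ⟨x, hx, rfl⟩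
  have hx' : x ∈ Subfield.closure
      (Set.range (algebraMap ℚ (LaurentSeries ℚ)) ∪ divisorExpansions M) := hx
  have hle : Subfield.closure
      (Set.range (algebraMap ℚ (LaurentSeries ℚ)) ∪ divisorExpansions M)
      ≤ E.toSubfield.comap (coeffEmb K) := by
    rw [Subfield.closure_le]
    rintro y (⟨r, rfl⟩ | ⟨d, hd, hdN, rfl⟩)
    · show coeffEmb K (algebraMap ℚ _ r) ∈ E
      rw [eq_ratCast, map_ratCast]
      exact SubfieldClass.ratCast_mem E r
    · exact @hE d hd hdN
  exact hle hx'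

/-- `j(q^e) ∈ K · F(M)` for `e ∣ M`. -/
theorem s34_sw_s_mem (M e : ℕ) [NeZero e] (he : e ∣ M) :
    coeffEmb K (qExpand ℚ e jq) ∈ laurentBaseChange K (modularFunctionFieldFull M) :=
  coeffEmb_mem_laurentBaseChange K (jqd_mem_full M he)

variable {K}

/-- Two ring homomorphisms on `K · F(M)` which agree on the constants and on the `j(q^d)`,
`d ∣ M`, are equal. -/
theorem s34_sw_ringHom_ext (M : ℕ) {E : Type*} [Field E]
    (φ₁ φ₂ : laurentBaseChange K (modularFunctionFieldFull M) →+* E)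
    (hc : ∀ c : K, φ₁ (algebraMap K _ c) = φ₂ (algebraMap K _ c))
    (h : ∀ (d : ℕ) [NeZero d] (hd : d ∣ M),
      φ₁ ⟨coeffEmb K (qExpand ℚ d jq), s34_sw_s_mem K M d hd⟩ =
        φ₂ ⟨coeffEmb K (qExpand ℚ d jq), s34_sw_s_mem K M d hd⟩) :
    φ₁ = φ₂ := by
  let Eq : IntermediateField K (laurentBaseChange K (modularFunctionFieldFull M)) :=
    (RingHom.eqLocusField φ₁ φ₂).toIntermediateField (fun c => hc c)
  have hle := s34_sw_le K M (Eq.map (laurentBaseChange K (modularFunctionFieldFull M)).val)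
    (fun d _ hd => by
      rw [IntermediateField.mem_map]
      exact ⟨⟨_, s34_sw_s_mem K M d hd⟩, h d hd, rfl⟩)
  refine RingHom.ext fun x => ?_
  have h1 := hle x.2
  rw [IntermediateField.mem_map] at h1
  obtain ⟨y, hy, hyx⟩ := h1
  have h2 : y = x := Subtype.ext hyx
  rw [← h2]
  exact hy

/-- `K · F(N ℓ)` is generated by the `j(q^(d m))`, `d ∣ N`, `m ∣ ℓ`. -/
theorem s34_sw_eq_adjoin (N ℓ : ℕ) [NeZero N] [NeZero ℓ] :
    laurentBaseChange K (modularFunctionFieldFull (N * ℓ)) = IntermediateField.adjoin K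
      (Set.range fun p : {d : ℕ // d ∣ N} × {m : ℕ // m ∣ ℓ} => s34_sw_s K (p.1.1 * p.2.1)) := by
  apply le_antisymm
  · apply s34_sw_le
    intro e _ he
    obtain ⟨d, m, hd, hm, rfl⟩ := (Nat.dvd_mul).mp he
    apply IntermediateField.subset_adjoin
    exact ⟨(⟨d, hd⟩, ⟨m, hm⟩), s34_sw_s_eq K (d * m)⟩
  · rw [IntermediateField.adjoin_le_iff]
    rintro _ ⟨p, rfl⟩
    have hdvd : p.1.1 * p.2.1 ∣ N * ℓ := Nat.mul_dvd_mul p.1.2 p.2.2
    haveI : NeZero (p.1.1 * p.2.1) :=
      ⟨ne_zero_of_dvd_ne_zero (Nat.mul_ne_zero (NeZero.ne N) (NeZero.ne ℓ)) hdvd⟩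
    show s34_sw_s K (p.1.1 * p.2.1) ∈ _
    rw [s34_sw_s_eq]
    exact s34_sw_s_mem K (N * ℓ) _ hdvd

/-- The Atkin–Lehner swap on `K · F(N ℓ)`: `j(q^(d m)) ↦ j(q^(d ℓ/m))`. -/
theorem s34_sw_swap_field (ι : K →+* Kbar) (N ℓ : ℕ) [NeZero N] [NeZero ℓ]
    (hcop : Nat.Coprime ℓ N) :
    ∃ W : laurentBaseChange K (modularFunctionFieldFull (N * ℓ)) ≃ₐ[K]
        laurentBaseChange K (modularFunctionFieldFull (N * ℓ)),
      ∀ (d m : ℕ) (_ : d ∣ N) (_ : m ∣ ℓ)
        (h1 : s34_sw_s K (d * m) ∈ laurentBaseChange K (modularFunctionFieldFull (N * ℓ))),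
        ((W ⟨s34_sw_s K (d * m), h1⟩ :
          laurentBaseChange K (modularFunctionFieldFull (N * ℓ))) : LaurentSeries K) =
          s34_sw_s K (d * (ℓ / m)) := by
  have key : ∀ (F : IntermediateField K (LaurentSeries K))
      (_ : F = IntermediateField.adjoin K
        (Set.range fun p : {d : ℕ // d ∣ N} × {m : ℕ // m ∣ ℓ} => s34_sw_s K (p.1.1 * p.2.1))),
      ∃ W : F ≃ₐ[K] F, ∀ (d m : ℕ) (_ : d ∣ N) (_ : m ∣ ℓ) (h1 : s34_sw_s K (d * m) ∈ F),
        ((W ⟨s34_sw_s K (d * m), h1⟩ : F) : LaurentSeries K) = s34_sw_s K (d * (ℓ / m)) := by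
    intro F hF
    subst hF
    obtain ⟨W, hW⟩ := s37_ew_swap_general (K := K)
      (fun p : {d : ℕ // d ∣ N} × {m : ℕ // m ∣ ℓ} => s34_sw_s K (p.1.1 * p.2.1))
      (fun p => (p.1, ⟨ℓ / p.2.1, Nat.div_dvd_of_dvd p.2.2⟩))
      (fun p => Prod.ext rfl (Subtype.ext (Nat.div_div_self p.2.2 (NeZero.ne ℓ))))
      (fun P hP => s34_sw_rel ι N ℓ hcop P hP)
    exact ⟨W, fun d m hd hm h1 => hW (⟨d, hd⟩, ⟨m, hm⟩) h1⟩
  exact key _ (s34_sw_eq_adjoin N ℓ)

/-- **(SW)** the Atkin–Lehner swap over `K`: a `K`-automorphism `W` of `K · F(N ℓ)` which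
exchanges the two degeneracy maps, is an involution, commutes with the coefficientwise action of
`Aut(K/ℚ)`, and sends `j(q^(d m))` to `j(q^(d ℓ/m))`. -/
theorem s34_sw_swap (ι : K →+* Kbar) (N ℓ : ℕ) [NeZero N] [NeZero ℓ] (hcop : Nat.Coprime ℓ N) :
    ∃ W : laurentBaseChange K (modularFunctionFieldFull (N * ℓ)) ≃ₐ[K]
        laurentBaseChange K (modularFunctionFieldFull (N * ℓ)),
      (∀ x, W (heckeAlphaBar K N ℓ x) = heckeBetaBar K N ℓ x) ∧
      (∀ x, W (heckeBetaBar K N ℓ x) = heckeAlphaBar K N ℓ x) ∧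
      (∀ x, W (W x) = x) ∧
      (∀ (σ : K ≃ₐ[ℚ] K) (x : laurentBaseChange K (modularFunctionFieldFull (N * ℓ))),
        W (arithmeticRingAut (modularFunctionFieldFull (N * ℓ)) σ x) =
          arithmeticRingAut (modularFunctionFieldFull (N * ℓ)) σ (W x)) ∧
      (∀ (d m : ℕ) (_ : d ∣ N) (_ : m ∣ ℓ)
        (h1 : s34_sw_s K (d * m) ∈ laurentBaseChange K (modularFunctionFieldFull (N * ℓ))),
        ((W ⟨s34_sw_s K (d * m), h1⟩ :
          laurentBaseChange K (modularFunctionFieldFull (N * ℓ))) : LaurentSeries K) =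
          s34_sw_s K (d * (ℓ / m))) := by
  obtain ⟨W, hW⟩ := s34_sw_swap_field ι N ℓ hcop
  have hℓ0 := NeZero.ne ℓ
  have hN0 := NeZero.ne N
  haveI : NeZero (N * ℓ) := ⟨Nat.mul_ne_zero hN0 hℓ0⟩
  -- membership of the generators
  have hmem : ∀ (d m : ℕ), d ∣ N → m ∣ ℓ →
      s34_sw_s K (d * m) ∈ laurentBaseChange K (modularFunctionFieldFull (N * ℓ)) := by
    intro d m hd hm
    have hdvd : d * m ∣ N * ℓ := Nat.mul_dvd_mul hd hm
    haveI : NeZero (d * m) := ⟨ne_zero_of_dvd_ne_zero (Nat.mul_ne_zero hN0 hℓ0) hdvd⟩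
    rw [s34_sw_s_eq]
    exact s34_sw_s_mem K (N * ℓ) _ hdvd
  -- the generators of level `N` under `α` and `β`
  have hgen : ∀ (d : ℕ) [NeZero d] (hd : d ∣ N),
      heckeAlphaBar K N ℓ ⟨coeffEmb K (qExpand ℚ d jq), s34_sw_s_mem K N d hd⟩ =
          ⟨s34_sw_s K (d * 1), hmem d 1 hd (one_dvd ℓ)⟩ ∧
        heckeBetaBar K N ℓ ⟨coeffEmb K (qExpand ℚ d jq), s34_sw_s_mem K N d hd⟩ =
          ⟨s34_sw_s K (d * ℓ), hmem d ℓ hd dvd_rfl⟩ := by
    intro d _ hd
    haveI : NeZero (d * ℓ) := ⟨Nat.mul_ne_zero (NeZero.ne d) hℓ0⟩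
    haveI : NeZero (ℓ * d) := ⟨Nat.mul_ne_zero hℓ0 (NeZero.ne d)⟩
    have hs1 : s34_sw_s K (d * 1) = coeffEmb K (qExpand ℚ d jq) := by
      rw [mul_one, s34_sw_s_eq]
    have hsℓ : s34_sw_s K (d * ℓ) = qExpand K ℓ (coeffEmb K (qExpand ℚ d jq)) := by
      rw [s34_sw_s_eq]
      show _ = qExpand K ℓ (coeffMap (algebraMap ℚ K) (qExpand ℚ d jq))
      rw [← coeffMap_qExpand, qExpand_qExpand, qExpand_congr (mul_comm ℓ d)]
      rfl
    refine ⟨Subtype.ext ?_, Subtype.ext ?_⟩
    · rw [coe_heckeAlphaBar]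
      exact hs1.symm
    · rw [coe_heckeBetaBar]
      exact hsℓ.symm
  have h1 : ∀ x, W (heckeAlphaBar K N ℓ x) = heckeBetaBar K N ℓ x := by
    have : (W : laurentBaseChange K (modularFunctionFieldFull (N * ℓ)) →+*
          laurentBaseChange K (modularFunctionFieldFull (N * ℓ))).comp
        (heckeAlphaBar K N ℓ : laurentBaseChange K (modularFunctionFieldFull N) →+*
          laurentBaseChange K (modularFunctionFieldFull (N * ℓ))) =
        (heckeBetaBar K N ℓ : laurentBaseChange K (modularFunctionFieldFull N) →+*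
          laurentBaseChange K (modularFunctionFieldFull (N * ℓ))) := by
      apply s34_sw_ringHom_ext
      · intro c
        show W (heckeAlphaBar K N ℓ (algebraMap K _ c)) = heckeBetaBar K N ℓ (algebraMap K _ c)
        rw [AlgHom.commutes, AlgHom.commutes, AlgEquiv.commutes]
      · intro d _ hd
        obtain ⟨hα, hβ⟩ := hgen d hd
        show W (heckeAlphaBar K N ℓ _) = heckeBetaBar K N ℓ _
        rw [hα, hβ]
        apply Subtype.ext
        rw [hW d 1 hd (one_dvd ℓ), Nat.div_one]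
    exact fun x => DFunLike.congr_fun this x
  have h2 : ∀ x, W (heckeBetaBar K N ℓ x) = heckeAlphaBar K N ℓ x := by
    have : (W : laurentBaseChange K (modularFunctionFieldFull (N * ℓ)) →+*
          laurentBaseChange K (modularFunctionFieldFull (N * ℓ))).comp
        (heckeBetaBar K N ℓ : laurentBaseChange K (modularFunctionFieldFull N) →+*
          laurentBaseChange K (modularFunctionFieldFull (N * ℓ))) =
        (heckeAlphaBar K N ℓ : laurentBaseChange K (modularFunctionFieldFull N) →+*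
          laurentBaseChange K (modularFunctionFieldFull (N * ℓ))) := by
      apply s34_sw_ringHom_ext
      · intro c
        show W (heckeBetaBar K N ℓ (algebraMap K _ c)) = heckeAlphaBar K N ℓ (algebraMap K _ c)
        rw [AlgHom.commutes, AlgHom.commutes, AlgEquiv.commutes]
      · intro d _ hd
        obtain ⟨hα, hβ⟩ := hgen d hd
        show W (heckeBetaBar K N ℓ _) = heckeAlphaBar K N ℓ _
        rw [hα, hβ]
        apply Subtype.ext
        rw [hW d ℓ hd dvd_rfl, Nat.div_self (Nat.pos_of_ne_zero hℓ0)]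
    exact fun x => DFunLike.congr_fun this x
  -- a generator of level `N ℓ` is some `s (d m)`
  have hgen' : ∀ (e : ℕ) [NeZero e] (he : e ∣ N * ℓ), ∃ (d m : ℕ) (hd : d ∣ N) (hm : m ∣ ℓ),
      (⟨coeffEmb K (qExpand ℚ e jq), s34_sw_s_mem K (N * ℓ) e he⟩ :
        laurentBaseChange K (modularFunctionFieldFull (N * ℓ))) =
        ⟨s34_sw_s K (d * m), hmem d m hd hm⟩ := by
    intro e _ he
    obtain ⟨d, m, hd, hm, rfl⟩ := (Nat.dvd_mul).mp he
    exact ⟨d, m, hd, hm, Subtype.ext (s34_sw_s_eq K (d * m)).symm⟩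
  have h3 : ∀ x, W (W x) = x := by
    have : (W : laurentBaseChange K (modularFunctionFieldFull (N * ℓ)) →+*
          laurentBaseChange K (modularFunctionFieldFull (N * ℓ))).comp
        (W : laurentBaseChange K (modularFunctionFieldFull (N * ℓ)) →+*
          laurentBaseChange K (modularFunctionFieldFull (N * ℓ))) = RingHom.id _ := by
      apply s34_sw_ringHom_ext
      · intro c
        show W (W (algebraMap K _ c)) = algebraMap K _ c
        rw [AlgEquiv.commutes, AlgEquiv.commutes]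
      · intro e _ he
        obtain ⟨d, m, hd, hm, heq⟩ := hgen' e he
        show W (W _) = _
        rw [heq]
        have hm' : ℓ / m ∣ ℓ := Nat.div_dvd_of_dvd hm
        have e1 : W ⟨s34_sw_s K (d * m), hmem d m hd hm⟩ =
            ⟨s34_sw_s K (d * (ℓ / m)), hmem d (ℓ / m) hd hm'⟩ :=
          Subtype.ext (hW d m hd hm _)
        rw [e1]
        apply Subtype.ext
        rw [hW d (ℓ / m) hd hm', Nat.div_div_self hm hℓ0]
        rfl
    exact fun x => DFunLike.congr_fun this x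
  have h4 : ∀ (σ : K ≃ₐ[ℚ] K) (x : laurentBaseChange K (modularFunctionFieldFull (N * ℓ))),
      W (arithmeticRingAut (modularFunctionFieldFull (N * ℓ)) σ x) =
        arithmeticRingAut (modularFunctionFieldFull (N * ℓ)) σ (W x) := by
    intro σ
    have hfix : ∀ (d m : ℕ) (hd : d ∣ N) (hm : m ∣ ℓ),
        arithmeticRingAut (modularFunctionFieldFull (N * ℓ)) σ
          ⟨s34_sw_s K (d * m), hmem d m hd hm⟩ = ⟨s34_sw_s K (d * m), hmem d m hd hm⟩ := by
      intro d m hd hm
      have hdvd : d * m ∣ N * ℓ := Nat.mul_dvd_mul hd hm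
      haveI : NeZero (d * m) := ⟨ne_zero_of_dvd_ne_zero (Nat.mul_ne_zero hN0 hℓ0) hdvd⟩
      apply Subtype.ext
      rw [coe_arithmeticRingAut_apply]
      show coeffMap (σ : K →+* K) (s34_sw_s K (d * m)) = s34_sw_s K (d * m)
      rw [s34_sw_s_eq, coeffMap_coeffEmb]
    have : (W : laurentBaseChange K (modularFunctionFieldFull (N * ℓ)) →+*
          laurentBaseChange K (modularFunctionFieldFull (N * ℓ))).comp
        (arithmeticRingAut (modularFunctionFieldFull (N * ℓ)) σ :
          laurentBaseChange K (modularFunctionFieldFull (N * ℓ)) →+*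
          laurentBaseChange K (modularFunctionFieldFull (N * ℓ))) =
        (arithmeticRingAut (modularFunctionFieldFull (N * ℓ)) σ :
          laurentBaseChange K (modularFunctionFieldFull (N * ℓ)) →+*
          laurentBaseChange K (modularFunctionFieldFull (N * ℓ))).comp
        (W : laurentBaseChange K (modularFunctionFieldFull (N * ℓ)) →+*
          laurentBaseChange K (modularFunctionFieldFull (N * ℓ))) := by
      apply s34_sw_ringHom_ext
      · intro c
        show W (arithmeticRingAut (modularFunctionFieldFull (N * ℓ)) σ (algebraMap K _ c)) =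
          arithmeticRingAut (modularFunctionFieldFull (N * ℓ)) σ (W (algebraMap K _ c))
        rw [arithmeticRingAut_algebraMap, AlgEquiv.commutes, AlgEquiv.commutes,
          arithmeticRingAut_algebraMap]
      · intro e _ he
        obtain ⟨d, m, hd, hm, heq⟩ := hgen' e he
        show W (arithmeticRingAut (modularFunctionFieldFull (N * ℓ)) σ _) =
          arithmeticRingAut (modularFunctionFieldFull (N * ℓ)) σ (W _)
        rw [heq, hfix d m hd hm]
        have hm' : ℓ / m ∣ ℓ := Nat.div_dvd_of_dvd hm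
        have e1 : W ⟨s34_sw_s K (d * m), hmem d m hd hm⟩ =
            ⟨s34_sw_s K (d * (ℓ / m)), hmem d (ℓ / m) hd hm'⟩ :=
          Subtype.ext (hW d m hd hm _)
        rw [e1, hfix d (ℓ / m) hd hm']
    exact fun x => DFunLike.congr_fun this x
  exact ⟨W, h1, h2, h3, h4, hW⟩

end General

/-- **(SW)** for a subfield `K₁` of `ℚ̄` (the setting of S18: `s18_F1 K₁ (N * ℓ)`). -/
theorem s34_sw_swap_K1 (K₁ : IntermediateField ℚ (AlgebraicClosure ℚ)) (N ℓ : ℕ) [NeZero N]
    [NeZero ℓ] (hcop : Nat.Coprime ℓ N) :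
    ∃ W : laurentBaseChange K₁ (modularFunctionFieldFull (N * ℓ)) ≃ₐ[K₁]
        laurentBaseChange K₁ (modularFunctionFieldFull (N * ℓ)),
      (∀ x, W (heckeAlphaBar K₁ N ℓ x) = heckeBetaBar K₁ N ℓ x) ∧
      (∀ x, W (heckeBetaBar K₁ N ℓ x) = heckeAlphaBar K₁ N ℓ x) ∧
      (∀ x, W (W x) = x) ∧
      (∀ (σ : K₁ ≃ₐ[ℚ] K₁) (x : laurentBaseChange K₁ (modularFunctionFieldFull (N * ℓ))),
        W (arithmeticRingAut (modularFunctionFieldFull (N * ℓ)) σ x) =
          arithmeticRingAut (modularFunctionFieldFull (N * ℓ)) σ (W x)) ∧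
      (∀ (d m : ℕ) (_ : d ∣ N) (_ : m ∣ ℓ)
        (h1 : s34_sw_s K₁ (d * m) ∈ laurentBaseChange K₁ (modularFunctionFieldFull (N * ℓ))),
        ((W ⟨s34_sw_s K₁ (d * m), h1⟩ :
          laurentBaseChange K₁ (modularFunctionFieldFull (N * ℓ))) : LaurentSeries K₁) =
          s34_sw_s K₁ (d * (ℓ / m))) :=
  s34_sw_swap (algebraMap K₁ (AlgebraicClosure ℚ)) N ℓ hcop

end Fermat.Agent.S34
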