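import Mathlib
import Fermat.Agent.S34.PowModel
import Fermat.Agent.S34.IcChart
import Fermat.Agent.S34.GaussInf
import Fermat.Agent.S34.SwapK
import Fermat.Agent.S34.NodeInst
import Fermat.Agent.S18.ChartZHaupt

/-!
# S34, block (INST): the contract of the concrete nodal model

The objects of the model over a Galois number field `K₁ ⊆ Q̄` at the level `N₁ * q`
(`q ∤ N₁`, `M ∣ N₁`, `M ∈ {2, 3}`):

* `tL` : the Hauptmodul `t_M` (`s34_md_IsT`), `t = s18_coord K₁ tL`;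
* `s34_md_B0`, `s34_md_Binf` : the integral closures of `A₁[t]`, `A₁[t⁻¹]` in `F = K₁ · F(N₁ q)`;
* `s34_md_V1` : the `q`-expansion Gauss ring of `F`; `s34_md_V2 = W⁻¹ (s34_md_V1)` for an
  Atkin–Lehner swap `W` (`s34_md_IsSwap`).

The propositions `s34_ct_*` are the facts about these objects which the assembly
`s34_inst_pow` (file `Inst.lean`) consumes; each is proved in its own file.
-/

set_option autoImplicit false
set_option synthInstance.maxHeartbeats 400000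

open ModularCurve AlgebraicCurve

noncomputable section

namespace Fermat.Agent.S34

open Fermat.Agent.S18

/-! ### The objects -/

/-- `tL` is the Hauptmodul `t₂` or `t₃` of a level dividing `N₁`, seen at level `N₁ * q`. -/
def s34_md_IsT (N₁ q : ℕ) [NeZero (N₁ * q)] (tL : modularFunctionFieldFull (N₁ * q)) : Prop :=
  ((tL : LaurentSeries ℚ) = s18_t2R ℚ ∧ 2 ∣ N₁) ∨ ((tL : LaurentSeries ℚ) = s18_t3R ℚ ∧ 3 ∣ N₁)

/-- The chart at `0` : the integral closure of `A₁[t]`. -/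
abbrev s34_md_B0 (P : ValuationSubring (AlgebraicClosure ℚ))
    (K₁ : IntermediateField ℚ (AlgebraicClosure ℚ)) (L : ℕ) [NeZero L]
    (tL : modularFunctionFieldFull L) : Subalgebra (s18_A1 P K₁) (s18_F1 K₁ L) :=
  s34_ic_chart (s18_A1 P K₁) (s18_coord K₁ tL)

/-- The chart at `∞` : the integral closure of `A₁[t⁻¹]`. -/
abbrev s34_md_Binf (P : ValuationSubring (AlgebraicClosure ℚ))
    (K₁ : IntermediateField ℚ (AlgebraicClosure ℚ)) (L : ℕ) [NeZero L]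
    (tL : modularFunctionFieldFull L) : Subalgebra (s18_A1 P K₁) (s18_F1 K₁ L) :=
  s34_ic_chart (s18_A1 P K₁) (s18_coord K₁ tL)⁻¹

/-- The component at `∞` : the `q`-expansion Gauss ring. -/
abbrev s34_md_V1 (P : ValuationSubring (AlgebraicClosure ℚ))
    (K₁ : IntermediateField ℚ (AlgebraicClosure ℚ)) (L : ℕ) : Subring (s18_F1 K₁ L) :=
  s34_gi_V (s18_A1 P K₁) L

/-- The component at `0` : the pull-back of the Gauss ring by the swap `W`. -/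
abbrev s34_md_V2 (P : ValuationSubring (AlgebraicClosure ℚ))
    (K₁ : IntermediateField ℚ (AlgebraicClosure ℚ)) (L : ℕ)
    (W : s18_F1 K₁ L ≃ₐ[K₁] s18_F1 K₁ L) : Subring (s18_F1 K₁ L) :=
  (s34_gi_V (s18_A1 P K₁) L).comap (W : s18_F1 K₁ L →+* s18_F1 K₁ L)

/-- `W` is an Atkin–Lehner swap of `K₁ · F(N₁ q)` (the conclusion of `s34_sw_swap_K1`). -/
def s34_md_IsSwap (K₁ : IntermediateField ℚ (AlgebraicClosure ℚ)) (N₁ q : ℕ) [NeZero N₁]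
    [NeZero q] (W : laurentBaseChange K₁ (modularFunctionFieldFull (N₁ * q)) ≃ₐ[K₁]
        laurentBaseChange K₁ (modularFunctionFieldFull (N₁ * q))) : Prop :=
  (∀ x, W (heckeAlphaBar K₁ N₁ q x) = heckeBetaBar K₁ N₁ q x) ∧
  (∀ x, W (heckeBetaBar K₁ N₁ q x) = heckeAlphaBar K₁ N₁ q x) ∧
  (∀ x, W (W x) = x) ∧
  (∀ (σ : K₁ ≃ₐ[ℚ] K₁) (x : laurentBaseChange K₁ (modularFunctionFieldFull (N₁ * q))),
    W (arithmeticRingAut (modularFunctionFieldFull (N₁ * q)) σ x) =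
      arithmeticRingAut (modularFunctionFieldFull (N₁ * q)) σ (W x)) ∧
  (∀ (d m : ℕ) (_ : d ∣ N₁) (_ : m ∣ q)
    (h1 : s34_sw_s K₁ (d * m) ∈ laurentBaseChange K₁ (modularFunctionFieldFull (N₁ * q))),
    ((W ⟨s34_sw_s K₁ (d * m), h1⟩ :
      laurentBaseChange K₁ (modularFunctionFieldFull (N₁ * q))) : LaurentSeries K₁) =
      s34_sw_s K₁ (d * (q / m)))

theorem s34_md_exists_swap (K₁ : IntermediateField ℚ (AlgebraicClosure ℚ)) (N₁ q : ℕ)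
    [NeZero N₁] [NeZero q] (hcop : Nat.Coprime q N₁) :
    ∃ W, s34_md_IsSwap K₁ N₁ q W :=
  s34_sw_swap_K1 K₁ N₁ q hcop

/-! ### Chart-level predicates (the hypothesis shapes of `s34_pow_of_model`) -/

section Shapes

variable {A₀ F : Type*} [CommRing A₀] [Field F] [Algebra A₀ F]

/-- (cap) : `B ∩ ϖV₁ ∩ ϖV₂ = ϖB`. -/
def s34_md_Cap (π : A₀) (B : Subalgebra A₀ F) (V₁ V₂ : Subring F) : Prop :=
  ∀ x ∈ B.toSubring, (algebraMap A₀ F π)⁻¹ * x ∈ V₁ → (algebraMap A₀ F π)⁻¹ * x ∈ V₂ →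
    (algebraMap A₀ F π)⁻¹ * x ∈ B.toSubring

/-- (sm) : regularity of `B[1/f]` at the closed points over `π`, for `f` vanishing on one of
the two components. -/
def s34_md_Sm (π : A₀) (B : Subalgebra A₀ F) (V₁ V₂ : Subring F) : Prop :=
  ∀ f : B.toSubring,
    ((algebraMap A₀ F π)⁻¹ * (f : F) ∈ V₁ ∨ (algebraMap A₀ F π)⁻¹ * (f : F) ∈ V₂) →
    ∀ 𝔫 : Ideal (s34_away B.toSubring (f : F) f.2), 𝔫.IsMaximal →
    (⟨algebraMap A₀ F π, s34_le_away B.toSubring (f : F) f.2 (B.algebraMap_mem π)⟩ :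
      s34_away B.toSubring (f : F) f.2) ∈ 𝔫 →
    ∃ s ∈ 𝔫, ∀ x ∈ 𝔫, ∃ u, u ∉ 𝔫 ∧ u * x ∈ Ideal.span
      {(⟨algebraMap A₀ F π, s34_le_away B.toSubring (f : F) f.2 (B.algebraMap_mem π)⟩ :
        s34_away B.toSubring (f : F) f.2), s}

/-- (xy) : at every crossing point with residue field that of `A₀`, local parameters `x`, `y`
of the two branches. -/
def s34_md_XY (π : A₀) (B : Subalgebra A₀ F) (V₁ V₂ : Subring F) (hB₁ : B.toSubring ≤ V₁)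
    (hB₂ : B.toSubring ≤ V₂) : Prop :=
  ∀ 𝔪 : Ideal B.toSubring, 𝔪.IsMaximal →
    (⟨algebraMap A₀ F π, B.algebraMap_mem π⟩ : B.toSubring) ∈ 𝔪 →
    (∀ s : B.toSubring, s ∉ 𝔪 →
      (algebraMap A₀ F π)⁻¹ * (s : F) ∉ V₁ ∧ (algebraMap A₀ F π)⁻¹ * (s : F) ∉ V₂) →
    (∀ b : B.toSubring, ∃ a : A₀, b - ⟨algebraMap A₀ F a, B.algebraMap_mem a⟩ ∈ 𝔪) →
    (∀ a : A₀, (⟨algebraMap A₀ F a, B.algebraMap_mem a⟩ : B.toSubring) ∈ 𝔪 →
      ∃ a', a = π * a') →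
    (∃ x : B.toSubring, x ∈ s34_ni_P (algebraMap A₀ F π) B.toSubring V₂ hB₂ ∧
      x ∉ s34_ni_P (algebraMap A₀ F π) B.toSubring V₁ hB₁ ∧
      ∀ m' ∈ 𝔪, ∃ r u : B.toSubring, u ∉ 𝔪 ∧
        u * m' - x * r ∈ s34_ni_P (algebraMap A₀ F π) B.toSubring V₁ hB₁) ∧
    (∃ y : B.toSubring, y ∈ s34_ni_P (algebraMap A₀ F π) B.toSubring V₁ hB₁ ∧
      y ∉ s34_ni_P (algebraMap A₀ F π) B.toSubring V₂ hB₂ ∧
      ∀ m' ∈ 𝔪, ∃ r u : B.toSubring, u ∉ 𝔪 ∧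
        u * m' - y * r ∈ s34_ni_P (algebraMap A₀ F π) B.toSubring V₂ hB₂)

end Shapes

/-! ### The contract -/

/-- (fin) `t` is transcendental over `K₁` and `F` is finite over `K₁(t)`. -/
def s34_ct_fin : Prop :=
  ∀ (N₁ q : ℕ) [NeZero N₁] [NeZero (N₁ * q)]
    (K₁ : IntermediateField ℚ (AlgebraicClosure ℚ))
    (tL : modularFunctionFieldFull (N₁ * q)), s34_md_IsT N₁ q tL →
    Transcendental K₁ (s18_coord K₁ tL) ∧
      FiniteDimensional (IntermediateField.adjoin K₁ {s18_coord K₁ tL}) (s18_F1 K₁ (N₁ * q))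

/-- (unif) the two components are discrete valuation rings with uniformizer `π`. -/
def s34_ct_unif : Prop :=
  ∀ (N₁ q : ℕ) [NeZero N₁] [NeZero (N₁ * q)] [Fact q.Prime], ¬ q ∣ N₁ →
    ∀ (P : ValuationSubring (AlgebraicClosure ℚ)), P.LiesOverPrime q →
    ∀ (K₁ : IntermediateField ℚ (AlgebraicClosure ℚ)) [FiniteDimensional ℚ K₁] [IsGalois ℚ K₁]
      [IsDiscreteValuationRing (s18_A1 P K₁)] (π : s18_A1 P K₁), Irreducible π →
    ∀ (W : s18_F1 K₁ (N₁ * q) ≃ₐ[K₁] s18_F1 K₁ (N₁ * q)),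
      haveI : NeZero q := ⟨(Fact.out : q.Prime).ne_zero⟩
      s34_md_IsSwap K₁ N₁ q W →
    s34_Unif (algebraMap (s18_A1 P K₁) (s18_F1 K₁ (N₁ * q)) π) (s34_md_V1 P K₁ (N₁ * q)) ∧
    s34_Unif (algebraMap (s18_A1 P K₁) (s18_F1 K₁ (N₁ * q)) π) (s34_md_V2 P K₁ (N₁ * q) W)

/-- (le) the charts lie in both components. -/
def s34_ct_le : Prop :=
  ∀ (N₁ q : ℕ) [NeZero N₁] [NeZero (N₁ * q)] [Fact q.Prime], ¬ q ∣ N₁ →
    ∀ (P : ValuationSubring (AlgebraicClosure ℚ)), P.LiesOverPrime q →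
    ∀ (K₁ : IntermediateField ℚ (AlgebraicClosure ℚ)) [FiniteDimensional ℚ K₁] [IsGalois ℚ K₁]
      [IsDiscreteValuationRing (s18_A1 P K₁)] (π : s18_A1 P K₁), Irreducible π →
    ∀ (tL : modularFunctionFieldFull (N₁ * q)), s34_md_IsT N₁ q tL →
    ∀ (W : s18_F1 K₁ (N₁ * q) ≃ₐ[K₁] s18_F1 K₁ (N₁ * q)),
      haveI : NeZero q := ⟨(Fact.out : q.Prime).ne_zero⟩
      s34_md_IsSwap K₁ N₁ q W →
    (s34_md_B0 P K₁ (N₁ * q) tL).toSubring ≤ s34_md_V1 P K₁ (N₁ * q) ∧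
    (s34_md_B0 P K₁ (N₁ * q) tL).toSubring ≤ s34_md_V2 P K₁ (N₁ * q) W ∧
    (s34_md_Binf P K₁ (N₁ * q) tL).toSubring ≤ s34_md_V1 P K₁ (N₁ * q) ∧
    (s34_md_Binf P K₁ (N₁ * q) tL).toSubring ≤ s34_md_V2 P K₁ (N₁ * q) W

/-- (tau) the coefficientwise action of an inertia element. -/
def s34_ct_tau : Prop :=
  ∀ (N₁ q : ℕ) [NeZero N₁] [NeZero (N₁ * q)] [Fact q.Prime], ¬ q ∣ N₁ →
    ∀ (P : ValuationSubring (AlgebraicClosure ℚ)), P.LiesOverPrime q →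
    ∀ (K₁ : IntermediateField ℚ (AlgebraicClosure ℚ)) [FiniteDimensional ℚ K₁] [IsGalois ℚ K₁]
      [IsDiscreteValuationRing (s18_A1 P K₁)] (π : s18_A1 P K₁), Irreducible π →
    ∀ (tL : modularFunctionFieldFull (N₁ * q)), s34_md_IsT N₁ q tL →
    ∀ (W : s18_F1 K₁ (N₁ * q) ≃ₐ[K₁] s18_F1 K₁ (N₁ * q)),
      haveI : NeZero q := ⟨(Fact.out : q.Prime).ne_zero⟩
      s34_md_IsSwap K₁ N₁ q W →
    ∀ τ : AlgebraicClosure ℚ ≃ₐ[ℚ] AlgebraicClosure ℚ, τ ∈ P.inertiaSubgroupIn ℚ →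
    (∀ x : s18_F1 K₁ (N₁ * q),
      s18_baseIncl K₁ (N₁ * q)
        (arithmeticRingAut (modularFunctionFieldFull (N₁ * q)) (τ.restrictNormal K₁) x) =
      arithmeticGalois (modularFunctionFieldFull (N₁ * q)) τ • s18_baseIncl K₁ (N₁ * q) x) ∧
    (∀ x ∈ (s34_md_B0 P K₁ (N₁ * q) tL).toSubring,
      arithmeticRingAut (modularFunctionFieldFull (N₁ * q)) (τ.restrictNormal K₁) x ∈
        (s34_md_B0 P K₁ (N₁ * q) tL).toSubring) ∧
    (∀ x ∈ (s34_md_Binf P K₁ (N₁ * q) tL).toSubring,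
      arithmeticRingAut (modularFunctionFieldFull (N₁ * q)) (τ.restrictNormal K₁) x ∈
        (s34_md_Binf P K₁ (N₁ * q) tL).toSubring) ∧
    (∃ c : s18_A1 P K₁, IsUnit c ∧
      arithmeticRingAut (modularFunctionFieldFull (N₁ * q)) (τ.restrictNormal K₁)
          (algebraMap (s18_A1 P K₁) (s18_F1 K₁ (N₁ * q)) π) =
        algebraMap (s18_A1 P K₁) (s18_F1 K₁ (N₁ * q)) c *
          algebraMap (s18_A1 P K₁) (s18_F1 K₁ (N₁ * q)) π) ∧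
    (∀ x : s18_F1 K₁ (N₁ * q), x ≠ 0 →
      arithmeticRingAut (modularFunctionFieldFull (N₁ * q)) (τ.restrictNormal K₁) x / x ∈
        s34_md_V1 P K₁ (N₁ * q) ∧
      x / arithmeticRingAut (modularFunctionFieldFull (N₁ * q)) (τ.restrictNormal K₁) x ∈
        s34_md_V1 P K₁ (N₁ * q)) ∧
    (∀ x : s18_F1 K₁ (N₁ * q), x ≠ 0 →
      arithmeticRingAut (modularFunctionFieldFull (N₁ * q)) (τ.restrictNormal K₁) x / x ∈
        s34_md_V2 P K₁ (N₁ * q) W ∧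
      x / arithmeticRingAut (modularFunctionFieldFull (N₁ * q)) (τ.restrictNormal K₁) x ∈
        s34_md_V2 P K₁ (N₁ * q) W) ∧
    (∀ x ∈ s34_md_V1 P K₁ (N₁ * q),
      (algebraMap (s18_A1 P K₁) (s18_F1 K₁ (N₁ * q)) π)⁻¹ *
        (arithmeticRingAut (modularFunctionFieldFull (N₁ * q)) (τ.restrictNormal K₁) x - x) ∈
        s34_md_V1 P K₁ (N₁ * q)) ∧
    (∀ x ∈ s34_md_V2 P K₁ (N₁ * q) W,
      (algebraMap (s18_A1 P K₁) (s18_F1 K₁ (N₁ * q)) π)⁻¹ *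
        (arithmeticRingAut (modularFunctionFieldFull (N₁ * q)) (τ.restrictNormal K₁) x - x) ∈
        s34_md_V2 P K₁ (N₁ * q) W)

/-- (cap) `B ∩ ϖV₁ ∩ ϖV₂ = ϖB` for both charts. -/
def s34_ct_cap : Prop :=
  ∀ (N₁ q : ℕ) [NeZero N₁] [NeZero (N₁ * q)] [Fact q.Prime], ¬ q ∣ N₁ →
    ∀ (P : ValuationSubring (AlgebraicClosure ℚ)), P.LiesOverPrime q →
    ∀ (K₁ : IntermediateField ℚ (AlgebraicClosure ℚ)) [FiniteDimensional ℚ K₁] [IsGalois ℚ K₁]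
      [IsDiscreteValuationRing (s18_A1 P K₁)] (π : s18_A1 P K₁), Irreducible π →
    ∀ (tL : modularFunctionFieldFull (N₁ * q)), s34_md_IsT N₁ q tL →
    ∀ (W : s18_F1 K₁ (N₁ * q) ≃ₐ[K₁] s18_F1 K₁ (N₁ * q)),
      haveI : NeZero q := ⟨(Fact.out : q.Prime).ne_zero⟩
      s34_md_IsSwap K₁ N₁ q W →
    s34_md_Cap π (s34_md_B0 P K₁ (N₁ * q) tL) (s34_md_V1 P K₁ (N₁ * q))
      (s34_md_V2 P K₁ (N₁ * q) W) ∧
    s34_md_Cap π (s34_md_Binf P K₁ (N₁ * q) tL) (s34_md_V1 P K₁ (N₁ * q))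
      (s34_md_V2 P K₁ (N₁ * q) W)

/-- (sm) regularity at the smooth points of both charts. -/
def s34_ct_sm : Prop :=
  ∀ (N₁ q : ℕ) [NeZero N₁] [NeZero (N₁ * q)] [Fact q.Prime], ¬ q ∣ N₁ →
    ∀ (P : ValuationSubring (AlgebraicClosure ℚ)), P.LiesOverPrime q →
    ∀ (K₁ : IntermediateField ℚ (AlgebraicClosure ℚ)) [FiniteDimensional ℚ K₁] [IsGalois ℚ K₁]
      [IsDiscreteValuationRing (s18_A1 P K₁)] (π : s18_A1 P K₁), Irreducible π →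
    ∀ (tL : modularFunctionFieldFull (N₁ * q)), s34_md_IsT N₁ q tL →
    ∀ (W : s18_F1 K₁ (N₁ * q) ≃ₐ[K₁] s18_F1 K₁ (N₁ * q)),
      haveI : NeZero q := ⟨(Fact.out : q.Prime).ne_zero⟩
      s34_md_IsSwap K₁ N₁ q W →
    s34_md_Sm π (s34_md_B0 P K₁ (N₁ * q) tL) (s34_md_V1 P K₁ (N₁ * q))
      (s34_md_V2 P K₁ (N₁ * q) W) ∧
    s34_md_Sm π (s34_md_Binf P K₁ (N₁ * q) tL) (s34_md_V1 P K₁ (N₁ * q))
      (s34_md_V2 P K₁ (N₁ * q) W)

/-- (xy) branch parameters at the rational crossing points of both charts. -/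
def s34_ct_xy : Prop :=
  ∀ (N₁ q : ℕ) [NeZero N₁] [NeZero (N₁ * q)] [Fact q.Prime], ¬ q ∣ N₁ →
    ∀ (P : ValuationSubring (AlgebraicClosure ℚ)), P.LiesOverPrime q →
    ∀ (K₁ : IntermediateField ℚ (AlgebraicClosure ℚ)) [FiniteDimensional ℚ K₁] [IsGalois ℚ K₁]
      [IsDiscreteValuationRing (s18_A1 P K₁)] (π : s18_A1 P K₁), Irreducible π →
    ∀ (tL : modularFunctionFieldFull (N₁ * q)), s34_md_IsT N₁ q tL →
    ∀ (W : s18_F1 K₁ (N₁ * q) ≃ₐ[K₁] s18_F1 K₁ (N₁ * q)),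
      haveI : NeZero q := ⟨(Fact.out : q.Prime).ne_zero⟩
      s34_md_IsSwap K₁ N₁ q W →
    ∀ (h01 : (s34_md_B0 P K₁ (N₁ * q) tL).toSubring ≤ s34_md_V1 P K₁ (N₁ * q))
      (h02 : (s34_md_B0 P K₁ (N₁ * q) tL).toSubring ≤ s34_md_V2 P K₁ (N₁ * q) W)
      (hi1 : (s34_md_Binf P K₁ (N₁ * q) tL).toSubring ≤ s34_md_V1 P K₁ (N₁ * q))
      (hi2 : (s34_md_Binf P K₁ (N₁ * q) tL).toSubring ≤ s34_md_V2 P K₁ (N₁ * q) W),
    s34_md_XY π (s34_md_B0 P K₁ (N₁ * q) tL) (s34_md_V1 P K₁ (N₁ * q))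
      (s34_md_V2 P K₁ (N₁ * q) W) h01 h02 ∧
    s34_md_XY π (s34_md_Binf P K₁ (N₁ * q) tL) (s34_md_V1 P K₁ (N₁ * q))
      (s34_md_V2 P K₁ (N₁ * q) W) hi1 hi2

end Fermat.Agent.S34
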