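import Mathlib
import Fermat.Agent.S18.ChartDefs
import Fermat.Agent.S34.ChartQuot
import Fermat.Agent.S34.SmoothPoint

/-!
# S34 (NODE), block (M), abstract leaf (REG): regularity of `B[1/f]` on one component

This supplies the hypotheses `hsm0`, `hsmi` of `s34_two_chart_components` (= `hsmooth` of
`s34_pointData_of_cases`, `hreg` of `s34_away_chart` / `s34_pointData_smooth`).

Two-field form: the level-`N'` S18 chart `B₁` lives in its own field `F''` and is mapped into the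
chart `B ⊆ F` by a field embedding `ι : F'' →+* F` with `B = ι B₁ + (B ∩ ϖ V₁)` (`hres`, the
output of `s34_res_two`), `ϖ = ι ϖ''`.  If `f ∈ B` vanishes on the other component
(`ϖ⁻¹ f ∈ V₂`), then every maximal ideal `𝔫 ∋ ϖ` of `B[1/f] = s34_away B f` is generated, locally
at `𝔫`, by `ϖ` and one more element.

(Proof: `𝔫` contracts to a prime `𝔮 ∋ ϖ''` of `B₁`, at which `reg` holds by `s34_cq_prime_reg`;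
the relation is pushed to `B[1/f]` using `x ≡ ι x' mod ϖ V₁` and `s34_away_cap`.)

* `s34_sm_reg` : one component;
* `s34_sm_reg_components` : both components, in the exact shape of `hsm0` / `hsmi`.
-/

set_option autoImplicit false
set_option linter.style.haveILetI false

namespace Fermat.Agent.S34

open Fermat.Agent.S18

variable {F'' F : Type*} [Field F''] [Field F]

/-- **(REG), one component.**  Regularity of `B[1/f]` at its closed points over `ϖ` when `f`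
vanishes on the component `V₂` and the branch along `V₁` is the special fibre of the S18 chart
`B₁`. -/
theorem s34_sm_reg (ι : F'' →+* F) {ϖ'' : F''} (B₁ : Subring F'') (hB₁ : s18_Chart ϖ'' B₁)
    {B V₁ V₂ : Subring F} (hBV₁ : B ≤ V₁) (hBV₂ : B ≤ V₂) (hϖB : ι ϖ'' ∈ B)
    (hcap : ∀ x ∈ B, (ι ϖ'')⁻¹ * x ∈ V₁ → (ι ϖ'')⁻¹ * x ∈ V₂ → (ι ϖ'')⁻¹ * x ∈ B)
    (hB₁B : ∀ x ∈ B₁, ι x ∈ B)
    (hres : ∀ x ∈ B, ∃ x' ∈ B₁, (ι ϖ'')⁻¹ * (x - ι x') ∈ V₁)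
    (f : F) (hf : f ∈ B) (hf₂ : (ι ϖ'')⁻¹ * f ∈ V₂)
    (𝔫 : Ideal (s34_away B f hf)) (h𝔫 : 𝔫.IsMaximal)
    (hϖ𝔫 : (⟨ι ϖ'', s34_le_away B f hf hϖB⟩ : s34_away B f hf) ∈ 𝔫) :
    ∃ s ∈ 𝔫, ∀ x ∈ 𝔫, ∃ u, u ∉ 𝔫 ∧
      u * x ∈ Ideal.span {(⟨ι ϖ'', s34_le_away B f hf hϖB⟩ : s34_away B f hf), s} := by
  classical
  have hϖ0 : ι ϖ'' ≠ 0 := (map_ne_zero ι).mpr hB₁.ϖ_ne
  have hBB' := s34_le_away B f hf
  have h𝔫p : 𝔫.IsPrime := h𝔫.isPrime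
  -- `f ≠ 0`
  have hfne : f ≠ 0 := by
    rintro rfl
    apply h𝔫p.ne_top
    rw [Ideal.eq_top_iff_one]
    have hinv : (ι ϖ'')⁻¹ ∈ s34_away B (0 : F) hf :=
      ⟨1, by rw [pow_one, zero_mul]; exact B.zero_mem⟩
    have e : (1 : s34_away B (0 : F) hf) =
        ⟨(ι ϖ'')⁻¹, hinv⟩ * ⟨ι ϖ'', s34_le_away B (0 : F) hf hϖB⟩ := by
      apply Subtype.ext
      show (1 : F) = (ι ϖ'')⁻¹ * ι ϖ''
      rw [inv_mul_cancel₀ hϖ0]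
    rw [e]
    exact 𝔫.mul_mem_left _ hϖ𝔫
  have hfinv : f⁻¹ ∈ s34_away B f hf := s34_inv_mem_away B f hf
  have hdvd : ∀ y ∈ s34_away B f hf, (ι ϖ'')⁻¹ * y ∈ V₁ → (ι ϖ'')⁻¹ * y ∈ s34_away B f hf :=
    fun y hy hy₁ => s34_away_cap hBV₁ hBV₂ hcap f hf hf₂ hy hy₁
  let incl : B₁ →+* s34_away B f hf :=
    RingHom.codRestrict (ι.comp B₁.subtype) (s34_away B f hf) (fun x => hBB' (hB₁B _ x.2))
  have h𝔮 : (𝔫.comap incl).IsPrime := Ideal.comap_isPrime incl 𝔫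
  have hϖ𝔮 : (⟨ϖ'', hB₁.ϖ_mem⟩ : B₁) ∈ 𝔫.comap incl := hϖ𝔫
  obtain ⟨s, hs, hreg⟩ := s34_cq_prime_reg hB₁ (𝔫.comap incl) h𝔮 hϖ𝔮
  refine ⟨incl s, hs, fun x hx => ?_⟩
  obtain ⟨k, hk⟩ := x.2
  obtain ⟨x', hx', hxx'⟩ := hres _ hk
  -- `y = f^k x - ι x'` is divisible by `ϖ` in `B[1/f]`
  have hyB' : f ^ k * (x : F) - ι x' ∈ s34_away B f hf :=
    hBB' (B.sub_mem hk (hB₁B x' hx'))
  have hy := hdvd _ hyB' hxx'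
  have hfk : (⟨f ^ k, hBB' (B.pow_mem hf k)⟩ : s34_away B f hf) ∉ 𝔫 := by
    intro hmem
    apply h𝔫p.ne_top
    rw [Ideal.eq_top_iff_one]
    have : (1 : s34_away B f hf) =
        ⟨(f⁻¹) ^ k, (s34_away B f hf).pow_mem hfinv k⟩ *
          ⟨f ^ k, hBB' (B.pow_mem hf k)⟩ := by
      apply Subtype.ext
      show (1 : F) = (f⁻¹) ^ k * f ^ k
      rw [← mul_pow, inv_mul_cancel₀ hfne, one_pow]
    rw [this]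
    exact 𝔫.mul_mem_left _ hmem
  -- `x' ∈ 𝔫`
  have hx'𝔫 : incl ⟨x', hx'⟩ ∈ 𝔫 := by
    have e : incl ⟨x', hx'⟩ = ⟨f ^ k, hBB' (B.pow_mem hf k)⟩ * x -
        ⟨ι ϖ'', hBB' hϖB⟩ * ⟨_, hy⟩ := by
      apply Subtype.ext
      show ι x' = f ^ k * (x : F) - ι ϖ'' * ((ι ϖ'')⁻¹ * (f ^ k * (x : F) - ι x'))
      rw [← mul_assoc, mul_inv_cancel₀ hϖ0, one_mul]
      ring
    rw [e]
    exact 𝔫.sub_mem (𝔫.mul_mem_left _ hx) (𝔫.mul_mem_right _ hϖ𝔫)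
  obtain ⟨u, hu, hux⟩ := hreg ⟨x', hx'⟩ hx'𝔫
  rw [Ideal.mem_span_pair] at hux
  obtain ⟨a, b, hab⟩ := hux
  refine ⟨incl u * ⟨f ^ k, hBB' (B.pow_mem hf k)⟩, fun hmem => ?_, ?_⟩
  · rcases h𝔫p.mem_or_mem hmem with h | h
    · exact hu h
    · exact hfk h
  · rw [Ideal.mem_span_pair]
    refine ⟨incl a + incl u * ⟨_, hy⟩, incl b, ?_⟩
    apply Subtype.ext
    have hab' : ι (a : F'') * ι ϖ'' + ι (b : F'') * ι (s : F'') = ι (u : F'') * ι x' := by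
      have h1 := congrArg (fun z : B₁ => ι (z : F'')) hab
      simp only [Subring.coe_add, Subring.coe_mul, map_add, map_mul] at h1
      exact h1
    show (ι (a : F'') + ι (u : F'') * ((ι ϖ'')⁻¹ * (f ^ k * (x : F) - ι x'))) * ι ϖ'' +
        ι (b : F'') * ι (s : F'') = ι (u : F'') * f ^ k * (x : F)
    have e : (ι (a : F'') + ι (u : F'') * ((ι ϖ'')⁻¹ * (f ^ k * (x : F) - ι x'))) * ι ϖ'' +
        ι (b : F'') * ι (s : F'') =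
        (ι (a : F'') * ι ϖ'' + ι (b : F'') * ι (s : F'')) +
          ι (u : F'') * (f ^ k * (x : F) - ι x') * ((ι ϖ'')⁻¹ * ι ϖ'') := by
      ring
    rw [e, hab', inv_mul_cancel₀ hϖ0]
    ring

/-- **(REG), both components**, in the exact shape of the hypotheses `hsm0` / `hsmi` of
`s34_two_chart_components`: `ι₁`, `ι₂` are the two embeddings of the level-`N'` function field
(`ι₂ = W ∘ ι₁` in the application), with `B = ι₁ B₁ + (B ∩ ϖ V₁) = ι₂ B₂ + (B ∩ ϖ V₂)`. -/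
theorem s34_sm_reg_components {F₁ F₂ : Type*} [Field F₁] [Field F₂] {ϖ : F}
    (ι₁ : F₁ →+* F) {ϖ₁ : F₁} (B₁ : Subring F₁) (hB₁ : s18_Chart ϖ₁ B₁) (hϖ₁ : ι₁ ϖ₁ = ϖ)
    (ι₂ : F₂ →+* F) {ϖ₂ : F₂} (B₂ : Subring F₂) (hB₂ : s18_Chart ϖ₂ B₂) (hϖ₂ : ι₂ ϖ₂ = ϖ)
    {B V₁ V₂ : Subring F} (hBV₁ : B ≤ V₁) (hBV₂ : B ≤ V₂) (hϖB : ϖ ∈ B)
    (hcap : ∀ x ∈ B, ϖ⁻¹ * x ∈ V₁ → ϖ⁻¹ * x ∈ V₂ → ϖ⁻¹ * x ∈ B)
    (hB₁B : ∀ x ∈ B₁, ι₁ x ∈ B) (hB₂B : ∀ x ∈ B₂, ι₂ x ∈ B)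
    (hres₁ : ∀ x ∈ B, ∃ x' ∈ B₁, ϖ⁻¹ * (x - ι₁ x') ∈ V₁)
    (hres₂ : ∀ x ∈ B, ∃ x' ∈ B₂, ϖ⁻¹ * (x - ι₂ x') ∈ V₂)
    (f : B) (hf : ϖ⁻¹ * (f : F) ∈ V₁ ∨ ϖ⁻¹ * (f : F) ∈ V₂)
    (𝔫 : Ideal (s34_away B (f : F) f.2)) (h𝔫 : 𝔫.IsMaximal)
    (hϖ𝔫 : (⟨ϖ, s34_le_away B (f : F) f.2 hϖB⟩ : s34_away B (f : F) f.2) ∈ 𝔫) :
    ∃ s ∈ 𝔫, ∀ x ∈ 𝔫, ∃ u, u ∉ 𝔫 ∧
      u * x ∈ Ideal.span {(⟨ϖ, s34_le_away B (f : F) f.2 hϖB⟩ : s34_away B (f : F) f.2), s} := by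
  rcases hf with hf | hf
  · -- `f` vanishes on `V₁`: the point lies on the component `V₂`
    subst hϖ₂
    exact s34_sm_reg ι₂ B₂ hB₂ hBV₂ hBV₁ hϖB (fun x hx h₂ h₁ => hcap x hx h₁ h₂) hB₂B hres₂
      (f : F) f.2 hf 𝔫 h𝔫 hϖ𝔫
  · subst hϖ₁
    exact s34_sm_reg ι₁ B₁ hB₁ hBV₁ hBV₂ hϖB hcap hB₁B hres₁ (f : F) f.2 hf 𝔫 h𝔫 hϖ𝔫

end Fermat.Agent.S34
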