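import Mathlib
import Fermat.Agent.S18.ChartDefs
import Fermat.Agent.S34.ResTwo
import Fermat.Agent.S34.AwayReg

/-!
# S34 (NODE), leaf (REG): both components from the `C∞`-side data and the swap `W`

In the model the second Gauss ring is `V0 = V∞.comap W` for the Atkin–Lehner swap `W` (a field
automorphism of `F` with `W ϖ = ϖ` preserving the chart `B`).  Then the `C₀`-side decomposition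
`B = (W⁻¹ ∘ ι) B₁ + (B ∩ ϖ V0)` is the `W`-transport of the `C∞`-side one, and the hypotheses
`hsm0` / `hsmi` of `s34_two_chart_components` (for `V₁ = V∞`, `V₂ = V∞.comap W`) follow from the
`C∞`-side data alone.

* `s34_sm_res_comap` : transport of `hres` along `W`;
* `s34_sm_reg_swap` : `hsm` from `B = ι B₁ + (B ∩ ϖ V∞)`;
* `s34_sm_reg_model` : `hsm` from the inputs of `s34_res_two`.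
-/

set_option autoImplicit false
set_option linter.style.haveILetI false

namespace Fermat.Agent.S34

open Fermat.Agent.S18

variable {F'' F : Type*} [Field F''] [Field F]

/-- The `C₀`-side decomposition from the `C∞`-side one by transport along `W`. -/
theorem s34_sm_res_comap {ϖ : F} (W : F ≃+* F) (hWϖ : W ϖ = ϖ) {B V : Subring F}
    (hWB : ∀ x ∈ B, W x ∈ B) (ι : F'' →+* F) (B₁ : Subring F'')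
    (hres : ∀ x ∈ B, ∃ x' ∈ B₁, ϖ⁻¹ * (x - ι x') ∈ V) :
    ∀ x ∈ B, ∃ x' ∈ B₁,
      ϖ⁻¹ * (x - ((W.symm : F →+* F).comp ι) x') ∈ V.comap (W : F →+* F) := by
  intro x hx
  obtain ⟨x', hx', h⟩ := hres (W x) (hWB x hx)
  refine ⟨x', hx', ?_⟩
  rw [Subring.mem_comap]
  show W (ϖ⁻¹ * (x - W.symm (ι x'))) ∈ V
  rw [map_mul, map_inv₀, hWϖ, map_sub, RingEquiv.apply_symm_apply]
  exact h

/-- **(REG) for the pair `(V, V.comap W)`** from the `C∞`-side decomposition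
`B = ι B₁ + (B ∩ ϖ V)`: the hypotheses `hsm0` / `hsmi` of `s34_two_chart_components`. -/
theorem s34_sm_reg_swap (ι : F'' →+* F) {ϖ'' : F''} (B₁ : Subring F'')
    (hB₁ : s18_Chart ϖ'' B₁) (W : F ≃+* F) (hWϖ : W (ι ϖ'') = ι ϖ'')
    {B V : Subring F} (hBV : B ≤ V) (hWB : ∀ x ∈ B, W x ∈ B) (hWB' : ∀ x ∈ B, W.symm x ∈ B)
    (hϖB : ι ϖ'' ∈ B)
    (hcap : ∀ x ∈ B, (ι ϖ'')⁻¹ * x ∈ V → (ι ϖ'')⁻¹ * x ∈ V.comap (W : F →+* F) →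
      (ι ϖ'')⁻¹ * x ∈ B)
    (hB₁B : ∀ x ∈ B₁, ι x ∈ B)
    (hres : ∀ x ∈ B, ∃ x' ∈ B₁, (ι ϖ'')⁻¹ * (x - ι x') ∈ V)
    (f : B) (hf : (ι ϖ'')⁻¹ * (f : F) ∈ V ∨ (ι ϖ'')⁻¹ * (f : F) ∈ V.comap (W : F →+* F))
    (𝔫 : Ideal (s34_away B (f : F) f.2)) (h𝔫 : 𝔫.IsMaximal)
    (hϖ𝔫 : (⟨ι ϖ'', s34_le_away B (f : F) f.2 hϖB⟩ : s34_away B (f : F) f.2) ∈ 𝔫) :
    ∃ s ∈ 𝔫, ∀ x ∈ 𝔫, ∃ u, u ∉ 𝔫 ∧
      u * x ∈ Ideal.span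
        {(⟨ι ϖ'', s34_le_away B (f : F) f.2 hϖB⟩ : s34_away B (f : F) f.2), s} := by
  have hBV0 : B ≤ V.comap (W : F →+* F) := fun x hx => by
    rw [Subring.mem_comap]
    exact hBV (hWB x hx)
  have hϖ₂ : ((W.symm : F →+* F).comp ι) ϖ'' = ι ϖ'' := by
    show W.symm (ι ϖ'') = ι ϖ''
    rw [RingEquiv.symm_apply_eq, hWϖ]
  exact s34_sm_reg_components ι B₁ hB₁ rfl ((W.symm : F →+* F).comp ι) B₁ hB₁ hϖ₂ hBV hBV0 hϖB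
    hcap hB₁B (fun x hx => hWB' _ (hB₁B x hx)) hres
    (s34_sm_res_comap W hWϖ hWB ι B₁ hres) f hf 𝔫 h𝔫 hϖ𝔫

/-- **(REG) from the model inputs**: `hsm0` / `hsmi` of `s34_two_chart_components` for
`V₁ = V`, `V₂ = V.comap W`, from the native S18 chart `B₁`, the embedding `ι`, the swap `W`,
integrality of `B` over `ι B₁`, and `κ(V) = κ(gauss B₁)`. -/
theorem s34_sm_reg_model (ι : F'' →+* F) {ϖ'' : F''} (B₁ : Subring F'')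
    (hB₁ : s18_Chart ϖ'' B₁) (W : F ≃+* F) (hWϖ : W (ι ϖ'') = ι ϖ'')
    {B V : Subring F} (hV : s34_Unif (ι ϖ'') V) (hBV : B ≤ V)
    (hWB : ∀ x ∈ B, W x ∈ B) (hWB' : ∀ x ∈ B, W.symm x ∈ B) (hϖB : ι ϖ'' ∈ B)
    (hcap : ∀ x ∈ B, (ι ϖ'')⁻¹ * x ∈ V → (ι ϖ'')⁻¹ * x ∈ V.comap (W : F →+* F) →
      (ι ϖ'')⁻¹ * x ∈ B)
    (hB₁B : ∀ x ∈ B₁, ι x ∈ B)
    (hgauss : ∀ b ∈ B₁, (ι ϖ'')⁻¹ * ι b ∈ V → ϖ''⁻¹ * b ∈ B₁)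
    (hint : ∀ x ∈ B, ∃ P : Polynomial B₁, P.Monic ∧ P.eval₂ (ι.comp B₁.subtype) x = 0)
    (hresκ : ∀ y ∈ B, ∃ y' ∈ s18_gauss ϖ'' B₁, (ι ϖ'')⁻¹ * (y - ι y') ∈ V)
    (f : B) (hf : (ι ϖ'')⁻¹ * (f : F) ∈ V ∨ (ι ϖ'')⁻¹ * (f : F) ∈ V.comap (W : F →+* F))
    (𝔫 : Ideal (s34_away B (f : F) f.2)) (h𝔫 : 𝔫.IsMaximal)
    (hϖ𝔫 : (⟨ι ϖ'', s34_le_away B (f : F) f.2 hϖB⟩ : s34_away B (f : F) f.2) ∈ 𝔫) :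
    ∃ s ∈ 𝔫, ∀ x ∈ 𝔫, ∃ u, u ∉ 𝔫 ∧
      u * x ∈ Ideal.span
        {(⟨ι ϖ'', s34_le_away B (f : F) f.2 hϖB⟩ : s34_away B (f : F) f.2), s} :=
  s34_sm_reg_swap ι B₁ hB₁ W hWϖ hBV hWB hWB' hϖB hcap hB₁B
    (s34_res_two ι B₁ hB₁ B V hV hB₁B hBV hgauss hint hresκ) f hf 𝔫 h𝔫 hϖ𝔫

/-- `s34_sm_reg_model` with the uniformizer given as an arbitrary term `ϖ = ι ϖ''` (e.g.
`algebraMap A₁ F π`). -/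
theorem s34_sm_reg_model_of_eq (ι : F'' →+* F) {ϖ'' : F''} (B₁ : Subring F'')
    (hB₁ : s18_Chart ϖ'' B₁) {ϖ : F} (hιϖ : ι ϖ'' = ϖ) (W : F ≃+* F) (hWϖ : W ϖ = ϖ)
    {B V : Subring F} (hV : s34_Unif ϖ V) (hBV : B ≤ V)
    (hWB : ∀ x ∈ B, W x ∈ B) (hWB' : ∀ x ∈ B, W.symm x ∈ B) (hϖB : ϖ ∈ B)
    (hcap : ∀ x ∈ B, ϖ⁻¹ * x ∈ V → ϖ⁻¹ * x ∈ V.comap (W : F →+* F) → ϖ⁻¹ * x ∈ B)
    (hB₁B : ∀ x ∈ B₁, ι x ∈ B)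
    (hgauss : ∀ b ∈ B₁, ϖ⁻¹ * ι b ∈ V → ϖ''⁻¹ * b ∈ B₁)
    (hint : ∀ x ∈ B, ∃ P : Polynomial B₁, P.Monic ∧ P.eval₂ (ι.comp B₁.subtype) x = 0)
    (hresκ : ∀ y ∈ B, ∃ y' ∈ s18_gauss ϖ'' B₁, ϖ⁻¹ * (y - ι y') ∈ V)
    (f : B) (hf : ϖ⁻¹ * (f : F) ∈ V ∨ ϖ⁻¹ * (f : F) ∈ V.comap (W : F →+* F))
    (𝔫 : Ideal (s34_away B (f : F) f.2)) (h𝔫 : 𝔫.IsMaximal)
    (hϖ𝔫 : (⟨ϖ, s34_le_away B (f : F) f.2 hϖB⟩ : s34_away B (f : F) f.2) ∈ 𝔫) :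
    ∃ s ∈ 𝔫, ∀ x ∈ 𝔫, ∃ u, u ∉ 𝔫 ∧
      u * x ∈ Ideal.span
        {(⟨ϖ, s34_le_away B (f : F) f.2 hϖB⟩ : s34_away B (f : F) f.2), s} := by
  subst hιϖ
  exact s34_sm_reg_model ι B₁ hB₁ W hWϖ hV hBV hWB hWB' hϖB hcap hB₁B hgauss hint hresκ f hf 𝔫
    h𝔫 hϖ𝔫

/-- `s34_res_two` with the uniformizer given as an arbitrary term `ϖ = ι ϖ''`. -/
theorem s34_res_two_of_eq (ι : F'' →+* F) {ϖ'' : F''} (B₁ : Subring F'')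
    (hB₁ : s18_Chart ϖ'' B₁) {ϖ : F} (hιϖ : ι ϖ'' = ϖ) (B V : Subring F) (hV : s34_Unif ϖ V)
    (hB₁B : ∀ x ∈ B₁, ι x ∈ B) (hBV : B ≤ V)
    (hgauss : ∀ b ∈ B₁, ϖ⁻¹ * ι b ∈ V → ϖ''⁻¹ * b ∈ B₁)
    (hint : ∀ x ∈ B, ∃ P : Polynomial B₁, P.Monic ∧ P.eval₂ (ι.comp B₁.subtype) x = 0)
    (hres : ∀ y ∈ B, ∃ y' ∈ s18_gauss ϖ'' B₁, ϖ⁻¹ * (y - ι y') ∈ V) :
    ∀ x ∈ B, ∃ x' ∈ B₁, ϖ⁻¹ * (x - ι x') ∈ V := by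
  subst hιϖ
  exact s34_res_two ι B₁ hB₁ B V hV hB₁B hBV hgauss hint hres

end Fermat.Agent.S34
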