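import Mathlib
import Fermat.Agent.S18.ChNormalForm
import Fermat.Agent.S18.ChNormal
import Fermat.Agent.S18.Gauss
import Fermat.Agent.S18.ChPkgInst
import Fermat.Agent.S34.GaussInf
import Fermat.Agent.S34.LevelChart

/-!
# S34 (NODE), leaf (B1), items (3), (4): the S18 chart and the `q`-expansion Gauss ring

`K` a field of characteristic zero, `A` a valuation subring of `K` which is a discrete valuation
ring with uniformizer `π`, `ℓ` the residue characteristic, `t` an S18 coordinate of level `N`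
(`ℓ ∤ N` through `CoreData`), `B₁ = s18_chAlg N ℓ A t` the S18 chart inside
`FK = laurentBaseChange K (modularFunctionFieldFull N)`, and `V = s34_gi_V A N` the `q`-expansion
Gauss ring of `FK` (helper14's `GaussInf.lean`).  Everything is stated natively in `FK`.

* `s34_lg_chart_le_V` : `B₁ ≤ V`;
* `s34_lg_cap` : `x ∈ B₁`, `π⁻¹ x ∈ V` implies `π⁻¹ x ∈ B₁`  (`B₁ ∩ π V = π B₁`);
* `s34_lg_cap_pow` : `x ∈ V`, `π^k x ∈ B₁` implies `x ∈ B₁`  (`B₁[1/π] ∩ V = B₁`);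
* `s34_lg_gauss_eq` : the Gauss ring `s18_gauss π B₁` of the chart IS `V`;
* `s34_lg_normal` : (`K/ℚ` finite Galois) `B₁` is integrally closed in `FK`;
* the instances for the Hauptmoduln `t₂`, `t₃` and their inverses over a number field.

The first section is abstract (a subring `B` of a uniformized ring `V` of a field with
`B ∩ ϖ V = ϖ B` and `Frac B = F`).
-/

set_option autoImplicit false
set_option synthInstance.maxHeartbeats 400000
set_option linter.unusedSectionVars false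
set_option linter.unusedVariables false

open ModularCurve ModularCurve.IgusaScheme Fermat.Agent.S28

noncomputable section

namespace Fermat.Agent.S34

open Fermat.Agent.S18

section Abstract

variable {F : Type*} [Field F] {ϖ : F} {B V : Subring F}

/-- `B[1/ϖ] ∩ V = B` (inverse-power form) from `B ∩ ϖ V = ϖ B`. -/
theorem s34_lg_abs_cap_inv (hV : s34_Unif ϖ V)
    (hcap : ∀ x ∈ B, ϖ⁻¹ * x ∈ V → ϖ⁻¹ * x ∈ B) (k : ℕ) :
    ∀ x ∈ B, ϖ⁻¹ ^ k * x ∈ V → ϖ⁻¹ ^ k * x ∈ B := by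
  induction k with
  | zero => intro x hx _; simpa using hx
  | succ k ih =>
    intro x hx hxV
    have e : ϖ⁻¹ ^ (k + 1) * x = ϖ⁻¹ * (ϖ⁻¹ ^ k * x) := by rw [pow_succ]; ring
    have e' : ϖ⁻¹ ^ k * x = ϖ * (ϖ⁻¹ ^ (k + 1) * x) := by
      rw [e, ← mul_assoc, mul_inv_cancel₀ hV.ne_zero, one_mul]
    have h1 : ϖ⁻¹ ^ k * x ∈ B := ih x hx (by rw [e']; exact V.mul_mem hV.mem hxV)
    rw [e]
    exact hcap _ h1 (by rw [← e]; exact hxV)

/-- `B[1/ϖ] ∩ V = B` from `B ∩ ϖ V = ϖ B`. -/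
theorem s34_lg_abs_cap_pow (hV : s34_Unif ϖ V)
    (hcap : ∀ x ∈ B, ϖ⁻¹ * x ∈ V → ϖ⁻¹ * x ∈ B) (k : ℕ) {x : F}
    (hxV : x ∈ V) (hx : ϖ ^ k * x ∈ B) : x ∈ B := by
  have e : x = ϖ⁻¹ ^ k * (ϖ ^ k * x) := by
    rw [← mul_assoc, ← mul_pow, inv_mul_cancel₀ hV.ne_zero, one_pow, one_mul]
  rw [e]
  exact s34_lg_abs_cap_inv hV hcap k _ hx (by rw [← e]; exact hxV)

/-- **The Gauss ring of `B` is `V`**, for `B ≤ V` with `B ∩ ϖ V = ϖ B` and `Frac B = F`. -/
theorem s34_lg_abs_mem_gauss_iff (hV : s34_Unif ϖ V) (hBV : B ≤ V)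
    (hcap : ∀ x ∈ B, ϖ⁻¹ * x ∈ V → ϖ⁻¹ * x ∈ B)
    (hfrac : ∀ x : F, ∃ a ∈ B, ∃ b ∈ B, b ≠ 0 ∧ x = a / b) (x : F) :
    x ∈ s18_gauss ϖ B ↔ x ∈ V := by
  constructor
  · rintro ⟨a, ha, b, hb, hb', rfl⟩
    rw [div_eq_mul_inv]
    exact V.mul_mem (hBV ha)
      (hV.inv_mem_of_not_dvd (hBV hb) (fun hbV => hb' (hcap b hb hbV)))
  · intro hxV
    obtain ⟨a, ha, b, hb, hb0, rfl⟩ := hfrac x
    obtain ⟨k, hk, hk'⟩ := hV.exists_pow (hBV hb) hb0
    have hb₁ : ϖ⁻¹ ^ k * b ∈ B := s34_lg_abs_cap_inv hV hcap k b hb hk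
    have hϖk : ϖ⁻¹ ^ k ≠ 0 := pow_ne_zero k (inv_ne_zero hV.ne_zero)
    have hb₁0 : ϖ⁻¹ ^ k * b ≠ 0 := mul_ne_zero hϖk hb0
    have hnd : ϖ⁻¹ * (ϖ⁻¹ ^ k * b) ∉ B := fun hmem =>
      hV.not_dvd_of_inv_mem hb₁0 hk' (hBV hmem)
    have ha₁ : ϖ⁻¹ ^ k * a ∈ B := by
      refine s34_lg_abs_cap_inv hV hcap k a ha ?_
      have e : ϖ⁻¹ ^ k * a = a / b * (ϖ⁻¹ ^ k * b) := by field_simp
      rw [e]
      exact V.mul_mem hxV hk
    refine ⟨ϖ⁻¹ ^ k * a, ha₁, ϖ⁻¹ ^ k * b, hb₁, hnd, ?_⟩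
    rw [mul_div_mul_left _ _ hϖk]

/-- An element of the field integral over a uniformized ring lies in it. -/
theorem s34_lg_abs_closed (hV : s34_Unif ϖ V) (z : F) (hz : IsIntegral V z) : z ∈ V := by
  by_contra hzV
  have hz0 : z ≠ 0 := by
    rintro rfl
    exact hzV V.zero_mem
  have hϖ0 : ϖ ≠ 0 := hV.ne_zero
  -- `z⁻¹ = ϖ w` with `w ∈ V`
  obtain ⟨w, hwV, hzinv⟩ : ∃ w ∈ V, z⁻¹ = ϖ * w := by
    obtain ⟨j, u, hu, hu', hzu⟩ := hV.decomp z hz0
    have hu0 : u ≠ 0 := by rintro rfl; simp [hzu] at hz0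
    have hj : j < 0 := by
      by_contra hj
      exact hzV (by rw [hzu]; exact (hV.mem_iff hu0 hu hu').mpr (not_lt.mp hj))
    refine ⟨ϖ ^ (-j - 1) * u⁻¹, V.mul_mem (hV.zpow_mem (by omega)) hu', ?_⟩
    rw [hzu, ← mul_assoc, ← zpow_one_add₀ hϖ0, mul_inv, ← zpow_neg]
    congr 2
    ring
  -- the integral equation
  obtain ⟨p, hp, hpz⟩ := hz
  have hpz' : Polynomial.aeval z p = 0 := by
    rw [Polynomial.aeval_def]; exact hpz
  rw [Polynomial.aeval_eq_sum_range, Finset.sum_range_succ, hp.coeff_natDegree, one_smul] at hpz'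
  have h1 : (1 : F) = -∑ i ∈ Finset.range p.natDegree,
      (p.coeff i : F) * (ϖ * w) ^ (p.natDegree - i) := by
    have h2 : z ^ p.natDegree = -∑ i ∈ Finset.range p.natDegree, p.coeff i • z ^ i :=
      eq_neg_of_add_eq_zero_right hpz'
    have h3 : (1 : F) = z ^ p.natDegree * (z⁻¹) ^ p.natDegree := by
      rw [← mul_pow, mul_inv_cancel₀ hz0, one_pow]
    rw [h3, h2, neg_mul, Finset.sum_mul]
    congr 1
    refine Finset.sum_congr rfl (fun i hi => ?_)
    have hi' : i ≤ p.natDegree := (Finset.mem_range.mp hi).le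
    rw [← hzinv]
    have e : (z⁻¹) ^ p.natDegree = (z⁻¹) ^ i * (z⁻¹) ^ (p.natDegree - i) := by
      rw [← pow_add, Nat.add_sub_cancel' hi']
    rw [e]
    have e2 : z ^ i * (z⁻¹) ^ i = 1 := by rw [← mul_pow, mul_inv_cancel₀ hz0, one_pow]
    have e3 : p.coeff i • z ^ i = (p.coeff i : F) * z ^ i := rfl
    rw [e3]
    calc (p.coeff i : F) * z ^ i * ((z⁻¹) ^ i * (z⁻¹) ^ (p.natDegree - i))
        = (p.coeff i : F) * (z ^ i * (z⁻¹) ^ i) * (z⁻¹) ^ (p.natDegree - i) := by ring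
      _ = (p.coeff i : F) * (z⁻¹) ^ (p.natDegree - i) := by rw [e2, mul_one]
  -- hence `ϖ⁻¹ ∈ V`
  apply hV.inv_not_mem
  have h4 : ϖ⁻¹ = -∑ i ∈ Finset.range p.natDegree,
      (p.coeff i : F) * (w * (ϖ * w) ^ (p.natDegree - i - 1)) := by
    have h5 : ϖ⁻¹ = ϖ⁻¹ * 1 := (mul_one _).symm
    rw [h5, h1, mul_neg, Finset.mul_sum]
    congr 1
    refine Finset.sum_congr rfl (fun i hi => ?_)
    have hi' : i < p.natDegree := Finset.mem_range.mp hi
    have e : p.natDegree - i = (p.natDegree - i - 1) + 1 := by omega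
    rw [e, pow_succ]
    have e' : p.natDegree - i - 1 + 1 - 1 = p.natDegree - i - 1 := by omega
    rw [e']
    field_simp
  rw [h4]
  refine V.neg_mem (V.sum_mem (fun i _ => ?_))
  exact V.mul_mem (p.coeff i).2 (V.mul_mem hwV (V.pow_mem (V.mul_mem hV.mem hwV) _))

/-- Integrality over a subring passes to a larger subring. -/
theorem s34_lg_abs_isIntegral_mono (hBV : B ≤ V) (z : F) (hz : IsIntegral B z) :
    IsIntegral V z := by
  obtain ⟨p, hp, hpz⟩ := hz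
  refine ⟨p.map (Subring.inclusion hBV), hp.map _, ?_⟩
  rw [Polynomial.eval₂_map]
  exact hpz

/-- **`B` is integrally closed in `F`**, for `B ≤ V` with `B ∩ ϖ V = ϖ B` and `B[1/ϖ]`
integrally closed. -/
theorem s34_lg_abs_normal (hV : s34_Unif ϖ V) (hBV : B ≤ V)
    (hcap : ∀ x ∈ B, ϖ⁻¹ * x ∈ V → ϖ⁻¹ * x ∈ B)
    (hnorm : ∀ z : F, IsIntegral B z → ∃ k : ℕ, ϖ ^ k * z ∈ B)
    (z : F) (hz : IsIntegral B z) : z ∈ B := by
  obtain ⟨k, hk⟩ := hnorm z hz
  exact s34_lg_abs_cap_pow hV hcap k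
    (s34_lg_abs_closed hV z (s34_lg_abs_isIntegral_mono hBV z hz)) hk

end Abstract

section LevelGauss

variable {N : ℕ} [NeZero N] {ℓ : ℕ} [Fact ℓ.Prime]
variable {K : Type*} [Field K] [Algebra ℚ K] {A : ValuationSubring K}
variable {t : modularFunctionFieldFull N}

local notation "FK" => laurentBaseChange K (modularFunctionFieldFull N)

/-- The two spellings of a constant of `FK` agree. -/
theorem s34_lg_algebraMap_eq (r : A) : algebraMap A FK r = algebraMap K FK (r : K) := rfl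

omit [NeZero N] in
/-- helper19's `s34_lc_V N A` (`LevelChart.lean`) IS helper14's `s34_gi_V A N` (`GaussInf.lean`). -/
theorem s34_lg_lc_V_eq : s34_lc_V N A = s34_gi_V A N := rfl

omit [NeZero N] in
theorem s34_lg_mem_lc_V_iff {x : FK} : x ∈ s34_lc_V N A ↔ x ∈ s34_gi_V A N := Iff.rfl

/-- **The S18 chart lies in the `q`-expansion Gauss ring.** -/
theorem s34_lg_chart_le_V (hℓ : ((ℓ : K))⁻¹ ∉ A) (h : s18_cz_Coord N ℓ t)
    {B : Subring (LaurentSeries ℚ)} (hB : CoreData N ℓ B) {x : FK}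
    (hx : x ∈ s18_chAlg N ℓ A t) : x ∈ s34_gi_V A N :=
  s18_chRing_le_W hℓ h hB (s18_mem_chAlg.mp hx)

/-- Subring form of `s34_lg_chart_le_V`. -/
theorem s34_lg_chart_le (hℓ : ((ℓ : K))⁻¹ ∉ A) (h : s18_cz_Coord N ℓ t)
    {B : Subring (LaurentSeries ℚ)} (hB : CoreData N ℓ B) :
    (s18_chAlg N ℓ A t).toSubring ≤ s34_gi_V A N :=
  fun _ hx => s34_lg_chart_le_V hℓ h hB hx

variable [IsDiscreteValuationRing A] {π : A}

/-- The `q`-expansion Gauss ring is uniformized by `π` (spelled with `algebraMap A FK`). -/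
theorem s34_lg_unif (hπ : Irreducible π) : s34_Unif (algebraMap A FK π) (s34_gi_V A N) := by
  rw [s34_lg_algebraMap_eq]
  exact s34_gi_unif hπ

/-- **`B₁ ∩ π V = π B₁`**: an element of the chart which is divisible by `π` in the Gauss ring is
divisible by `π` in the chart (the `q`-expansion principle). -/
theorem s34_lg_cap (hR : s18_ResBasis ℓ A π) (h : s18_cz_Coord N ℓ t)
    {B : Subring (LaurentSeries ℚ)} (hB : CoreData N ℓ B) {x : FK}
    (hx : x ∈ s18_chAlg N ℓ A t) (hxV : (algebraMap A FK π)⁻¹ * x ∈ s34_gi_V A N) :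
    (algebraMap A FK π)⁻¹ * x ∈ s18_chAlg N ℓ A t := by
  refine s18_chAlg_dvd hR h hB x hx ?_
  rw [s34_lg_algebraMap_eq] at hxV
  exact (s34_gi_red_eq_zero_iff hR.irr ⟨x, s34_lg_chart_le_V hR.unit h hB hx⟩).mpr hxV

/-- **`B₁[1/π] ∩ V = B₁`**. -/
theorem s34_lg_cap_pow (hR : s18_ResBasis ℓ A π) (h : s18_cz_Coord N ℓ t)
    {B : Subring (LaurentSeries ℚ)} (hB : CoreData N ℓ B) (k : ℕ) {x : FK}
    (hxV : x ∈ s34_gi_V A N) (hx : (algebraMap A FK π) ^ k * x ∈ s18_chAlg N ℓ A t) :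
    x ∈ s18_chAlg N ℓ A t :=
  s34_lg_abs_cap_pow (B := (s18_chAlg N ℓ A t).toSubring) (s34_lg_unif hR.irr)
    (fun _ hy hyV => s34_lg_cap hR h hB hy hyV) k hxV hx

/-- An element of the chart not divisible by `π` in the chart is a unit of the Gauss ring. -/
theorem s34_lg_inv_mem (hR : s18_ResBasis ℓ A π) (h : s18_cz_Coord N ℓ t)
    {B : Subring (LaurentSeries ℚ)} (hB : CoreData N ℓ B) {b : FK}
    (hb : b ∈ s18_chAlg N ℓ A t) (hb' : (algebraMap A FK π)⁻¹ * b ∉ s18_chAlg N ℓ A t) :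
    b⁻¹ ∈ s34_gi_V A N :=
  (s34_lg_unif hR.irr).inv_mem_of_not_dvd (s34_lg_chart_le_V hR.unit h hB hb)
    (fun hV => hb' (s34_lg_cap hR h hB hb hV))

/-- **The Gauss ring of the S18 chart is the `q`-expansion Gauss ring** (membership form). -/
theorem s34_lg_mem_gauss_iff (hR : s18_ResBasis ℓ A π) (h : s18_cz_Coord N ℓ t)
    {B : Subring (LaurentSeries ℚ)} (hB : CoreData N ℓ B) (x : FK) :
    x ∈ s18_gauss (algebraMap A FK π) (s18_chAlg N ℓ A t).toSubring ↔ x ∈ s34_gi_V A N :=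
  s34_lg_abs_mem_gauss_iff (s34_lg_unif hR.irr) (s34_lg_chart_le hR.unit h hB)
    (fun _ hy hyV => s34_lg_cap hR h hB hy hyV)
    (fun y => s18_chAlg_frac (A := A) (t := t) hR.unit h hB y) x

/-- **The Gauss ring of the S18 chart is the `q`-expansion Gauss ring** (set form). -/
theorem s34_lg_gauss_eq (hR : s18_ResBasis ℓ A π) (h : s18_cz_Coord N ℓ t)
    {B : Subring (LaurentSeries ℚ)} (hB : CoreData N ℓ B) :
    s18_gauss (algebraMap A FK π) (s18_chAlg N ℓ A t).toSubring =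
      ((s34_gi_V A N : Subring FK) : Set FK) :=
  Set.ext fun x => s34_lg_mem_gauss_iff hR h hB x

/-- An element of `FK` integral over the `q`-expansion Gauss ring lies in it. -/
theorem s34_lg_V_closed (hπ : Irreducible π) (z : FK)
    (hz : IsIntegral (s34_gi_V A N) z) : z ∈ s34_gi_V A N :=
  s34_lg_abs_closed (s34_lg_unif hπ) z hz

variable [FiniteDimensional ℚ K] [IsGalois ℚ K]

/-- **The S18 chart is integrally closed in `FK`** (subring form, the `hnorm` shape of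
`Krull.lean`). -/
theorem s34_lg_normal (hR : s18_ResBasis ℓ A π) (h : s18_cz_Coord N ℓ t)
    {B : Subring (LaurentSeries ℚ)} (hB : CoreData N ℓ B) (z : FK)
    (hz : IsIntegral (s18_chAlg N ℓ A t).toSubring z) : z ∈ (s18_chAlg N ℓ A t).toSubring :=
  s34_lg_abs_normal (s34_lg_unif hR.irr) (s34_lg_chart_le hR.unit h hB)
    (fun _ hy hyV => s34_lg_cap hR h hB hy hyV)
    (fun y hy => s18_chAlg_normal hR.irr y hy) z hz

/-- **The S18 chart is integrally closed in `FK`** (subalgebra form). -/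
theorem s34_lg_normal' (hR : s18_ResBasis ℓ A π) (h : s18_cz_Coord N ℓ t)
    {B : Subring (LaurentSeries ℚ)} (hB : CoreData N ℓ B) (z : FK)
    (hz : IsIntegral (s18_chAlg N ℓ A t) z) : z ∈ s18_chAlg N ℓ A t :=
  s34_lg_normal hR h hB z hz

end LevelGauss

end Fermat.Agent.S34
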