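import Fermat.Agent.S34.Descent
import Fermat.Agent.S34.IcChart
import Fermat.Agent.S37.EsChartStable
import Fermat.Agent.S37.DetLevel
import Fermat.Agent.S18.BranchChart

/-!
# S34 (NODE), leaf (WST): the integral-closure charts are stable under the Atkin–Lehner swap

`N₁` a level, `ℓ ∤ N₁` a prime, `M ∈ {2, 3}`, `M ∣ N₁`, `M ≠ ℓ`; `K₁ ⊆ Q̄` an intermediate field,
`A` a valuation ring of `Q̄` over `ℓ`, `A₁ = A ∩ K₁`; `F = K₁ · F_{N₁ℓ}`, `t ∈ F` the Hauptmodul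
`t_M`.  Then `V_ℓ t' = t'(q^ℓ)` is integral over `A₁[t']` for `t' ∈ {t, t⁻¹}`
(`s34_ws_vq_mem`), hence every ring endomorphism `W₁` of `F` which is `K₁`-linear and maps `t` to
`V_ℓ t` preserves the two charts `s34_ic_chart A₁ t`, `s34_ic_chart A₁ t⁻¹`
(`s34_ws_chart_stable`, `s34_ws_chart_stable_inv`).

Proof: over `Q̄` this is the frozen chart stability `s37_es_chart_stable` transported by the swap
`s37_es_swap`; the integrality equation descends from `A` to `A₁` by `s34_ws_descent_core`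
(applied to the coefficientwise Galois action on `Q̄((q))`).
-/

set_option autoImplicit false
set_option linter.style.haveILetI false
set_option linter.unusedSimpArgs false
set_option linter.unusedSectionVars false
set_option synthInstance.maxHeartbeats 400000

namespace Fermat.Agent.S34

open ModularCurve AlgebraicCurve Polynomial
open Fermat.Agent.S18 Fermat.Agent.S37

noncomputable section

local notation "Qb" => AlgebraicClosure ℚ

/-- The fixed field of `Gal(Q̄/K₁)` is `K₁`. -/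
theorem s34_ws_fixed (K₁ : IntermediateField ℚ Qb) (a : Qb)
    (h : ∀ σ : Qb ≃ₐ[K₁] Qb, σ a = a) : a ∈ Set.range (algebraMap K₁ Qb) := by
  haveI : Algebra.IsAlgebraic ℚ Qb := AlgebraicClosure.isAlgebraic ℚ
  haveI : IsAlgClosure ℚ Qb := ⟨inferInstance, inferInstance⟩
  haveI : IsGalois ℚ Qb := inferInstance
  haveI : IsGalois K₁ Qb := IsGalois.tower_top_of_isGalois ℚ K₁ Qb
  exact (InfiniteGalois.mem_range_algebraMap_iff_fixed a).mpr h

/-- A valuation ring is integrally closed in its field. -/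
theorem s34_ws_closed (A : ValuationSubring Qb) (a : Qb) (h : IsIntegral A.toSubring a) :
    a ∈ A.toSubring := by
  have h' : IsIntegral A a := h
  obtain ⟨y, hy⟩ := IsIntegrallyClosed.isIntegral_iff.mp h'
  rw [← hy]
  exact y.2

/-- An element integral over `A[τ]` satisfies a monic equation whose coefficients are polynomials
in `τ` with coefficients in `A`; the equation is transported along a `Q̄`-algebra map `j`. -/
theorem s34_ws_bivar {F Ω : Type*} [Field F] [Algebra Qb F] [CommRing Ω] [Algebra Qb Ω]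
    (j : F →ₐ[Qb] Ω) (A : ValuationSubring Qb) (τ y : F)
    (h : IsIntegral (s37_chartBase A τ) y) :
    ∃ P : Qb[X][X], P.Monic ∧ (∀ i k, (P.coeff i).coeff k ∈ A.toSubring) ∧
      P.eval₂ ((aeval (j τ) : Qb[X] →ₐ[Qb] Ω) : Qb[X] →+* Ω) (j y) = 0 := by
  classical
  set θ : Qb[X] →+* F := ((aeval τ : Qb[X] →ₐ[Qb] F) : Qb[X] →+* F) with hθ
  set incl : Polynomial A.toSubring →+* Qb[X] := Polynomial.mapRingHom A.toSubring.subtype
    with hincl
  set θA : Polynomial A.toSubring →+* F := θ.comp incl with hθA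
  have hle : s37_chartBase A τ ≤ θA.range := by
    rw [s37_chartBase, Subring.closure_le]
    rintro x (⟨a, rfl⟩ | rfl)
    · refine ⟨Polynomial.C (⟨(a : Qb), a.2⟩ : A.toSubring), ?_⟩
      simp [hθA, hθ, hincl]
    · refine ⟨Polynomial.X, ?_⟩
      simp [hθA, hθ, hincl]
  obtain ⟨p, hp, hpy⟩ := h
  have hlift : p.map (algebraMap (s37_chartBase A τ) F) ∈ Polynomial.lifts θA := by
    rw [Polynomial.lifts_iff_coeff_lifts]
    intro n
    rw [Polynomial.coeff_map]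
    exact hle (p.coeff n).2
  obtain ⟨q, hq, -, hqm⟩ := Polynomial.lifts_and_degree_eq_and_monic hlift
    (hp.map (algebraMap (s37_chartBase A τ) F))
  refine ⟨q.map incl, hqm.map incl, fun i k => ?_, ?_⟩
  · rw [Polynomial.coeff_map, hincl, Polynomial.coe_mapRingHom, Polynomial.coeff_map]
    exact ((q.coeff i).coeff k).2
  · have hj : ((aeval (j τ) : Qb[X] →ₐ[Qb] Ω) : Qb[X] →+* Ω) = (j : F →+* Ω).comp θ := by
      apply Polynomial.ringHom_ext
      · intro a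
        simp [hθ]
      · simp [hθ]
    rw [Polynomial.eval₂_map, hj, RingHom.comp_assoc, ← hθA]
    have h1 := Polynomial.hom_eval₂ q θA (j : F →+* Ω) y
    rw [← Polynomial.eval_map, hq, Polynomial.eval_map] at h1
    have hpy' : Polynomial.eval₂ (algebraMap (s37_chartBase A τ) F) y p = 0 := hpy
    rw [hpy', map_zero] at h1
    exact h1.symm

section Concrete

variable (N ℓ M : ℕ) [NeZero N] [NeZero ℓ]

/-- **(WST), main step**: `V_ℓ t' = t'(q^ℓ)` lies in the chart `s34_ic_chart A₁ t'` of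
`K₁ · F_{Nℓ}`, for `t'` the Hauptmodul or its inverse. -/
theorem s34_ws_vq_mem [NeZero (N * ℓ)] (hℓ : ℓ.Prime) (hℓN : ¬ ℓ ∣ N) (hℓM : ℓ ≠ M)
    (hMN : M ∣ N) (A : ValuationSubring Qb) (hA : A.LiesOverPrime ℓ)
    (K₁ : IntermediateField ℚ Qb)
    (t : s18_F1 K₁ (N * ℓ)) (ht : s37_IsHaupt M (s18_baseIncl K₁ (N * ℓ) t))
    (t' : s18_F1 K₁ (N * ℓ)) (ht' : t' = t ∨ t' = t⁻¹)
    (y : s18_F1 K₁ (N * ℓ))
    (hy : (y : LaurentSeries K₁) = qExpand K₁ ℓ (t' : LaurentSeries K₁)) :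
    y ∈ s34_ic_chart (s18_A1 A K₁) t' := by
  classical
  set ι : LaurentSeries K₁ →+* LaurentSeries Qb := coeffMap (algebraMap K₁ Qb) with hι
  have hιinj : Function.Injective ι := RingHom.injective ι
  have hM : M = 2 ∨ M = 3 := by
    rcases ht with ⟨h, -⟩ | ⟨h, -⟩
    · exact Or.inl h
    · exact Or.inr h
  obtain ⟨tb, htb⟩ := s37_dl_haupt_exists N M hM hMN
  -- `tb` and `t` have the same `q`-expansion
  have htbt : (tb : LaurentSeries Qb) = ι (t : LaurentSeries K₁) := by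
    have e : ((s18_baseIncl K₁ (N * ℓ) t : modularFunctionFieldBar (N * ℓ)) :
        LaurentSeries Qb) = ι (t : LaurentSeries K₁) := rfl
    rcases ht with ⟨h2, e1⟩ | ⟨h3, e1⟩
    · rcases htb with ⟨-, e2⟩ | ⟨h3, -⟩
      · rw [e2, ← e, e1]
      · omega
    · rcases htb with ⟨h2, -⟩ | ⟨-, e2⟩
      · omega
      · rw [e2, ← e, e1]
  -- the corresponding coordinate upstairs
  obtain ⟨tb', htb', htb't⟩ : ∃ tb' : modularFunctionFieldBar N, (tb' = tb ∨ tb' = tb⁻¹) ∧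
      (tb' : LaurentSeries Qb) = ι (t' : LaurentSeries K₁) := by
    rcases ht' with rfl | rfl
    · exact ⟨tb, Or.inl rfl, htbt⟩
    · refine ⟨tb⁻¹, Or.inr rfl, ?_⟩
      show (tb : LaurentSeries Qb)⁻¹ = ι ((t : LaurentSeries K₁)⁻¹)
      rw [map_inv₀, htbt]
  have hstab := s37_es_chart_stable N ℓ M hℓ hℓN hℓM hMN A hA tb htb tb' htb'
  have hcop : Nat.Coprime ℓ N := (Nat.Prime.coprime_iff_not_dvd hℓ).mpr hℓN
  obtain ⟨W, hWα, hWβ⟩ := s37_es_swap N ℓ hcop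
  have h2 := s37_et_isIntegral_map A (W : modularFunctionFieldBar (N * ℓ) →ₐ[Qb]
    modularFunctionFieldBar (N * ℓ)) _ _ hstab
  have e1 : (W : modularFunctionFieldBar (N * ℓ) →ₐ[Qb] modularFunctionFieldBar (N * ℓ))
      (heckeBetaBar Qb N ℓ tb') = heckeAlphaBar Qb N ℓ tb' := hWβ tb'
  have e2 : (W : modularFunctionFieldBar (N * ℓ) →ₐ[Qb] modularFunctionFieldBar (N * ℓ))
      (heckeAlphaBar Qb N ℓ tb') = heckeBetaBar Qb N ℓ tb' := hWα tb'
  rw [e1, e2] at h2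
  obtain ⟨P, hPm, hPA, hPx⟩ := s34_ws_bivar (modularFunctionFieldBar (N * ℓ)).val A _ _ h2
  have e3 : (modularFunctionFieldBar (N * ℓ)).val (heckeAlphaBar Qb N ℓ tb') =
      ι (t' : LaurentSeries K₁) := by
    rw [← htb't]
    exact coe_heckeAlphaBar N ℓ tb'
  have e4 : (modularFunctionFieldBar (N * ℓ)).val (heckeBetaBar Qb N ℓ tb') =
      ι (y : LaurentSeries K₁) := by
    rw [hy, hι, coeffMap_qExpand, ← hι, ← htb't]
    exact coe_heckeBetaBar N ℓ tb'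
  rw [e3, e4] at hPx
  -- transcendence
  have htr : Transcendental Qb (ι (t' : LaurentSeries K₁)) := by
    have h0 := s37_et_haupt_transcendental N M tb htb tb' htb'
    rw [← htb't]
    intro halg
    apply h0
    obtain ⟨p, hp0, hp⟩ := halg
    refine ⟨p, hp0, Subtype.ext ?_⟩
    have h3 : ((modularFunctionFieldBar N).val) (aeval tb' p) =
        aeval ((modularFunctionFieldBar N).val tb') p :=
      (Polynomial.aeval_algHom_apply _ _ _).symm
    exact h3.trans hp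
  -- descent
  obtain ⟨P₁, hP₁m, hP₁A, hP₁x⟩ := s34_ws_descent_core (k := K₁) (L := Qb)
    (Ω₁ := LaurentSeries K₁) (Ω := LaurentSeries Qb) (s34_ws_fixed K₁) A.toSubring
    (s34_ws_closed A) ι hιinj
    (fun c => by
      rw [hι, algebraMap_laurentSeries_eq_single, algebraMap_laurentSeries_eq_single,
        coeffMap_single])
    (fun σ => coeffMap ((σ : Qb ≃ₐ[K₁] Qb) : Qb →+* Qb))
    (fun σ a => by
      rw [algebraMap_laurentSeries_eq_single, algebraMap_laurentSeries_eq_single,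
        coeffMap_single]
      rfl)
    (fun σ z => by
      rw [hι, coeffMap_coeffMap]
      exact coeffMap_congr (RingHom.ext fun c => σ.commutes c) z)
    (t' : LaurentSeries K₁) (y : LaurentSeries K₁) htr P hPm hPA hPx
  -- back to the chart
  rw [s34_ic_mem_iff]
  set incl : Polynomial (s18_A1 A K₁) →+* K₁[X] :=
    Polynomial.mapRingHom (s18_A1 A K₁).subtype with hincl
  have hlift : P₁ ∈ Polynomial.lifts incl := by
    rw [Polynomial.lifts_iff_coeff_lifts]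
    intro i
    have h1 : P₁.coeff i ∈ Polynomial.lifts (s18_A1 A K₁).subtype := by
      rw [Polynomial.lifts_iff_coeff_lifts]
      intro k
      exact ⟨⟨(P₁.coeff i).coeff k, hP₁A i k⟩, rfl⟩
    obtain ⟨q, hq⟩ := (Polynomial.mem_lifts _).mp h1
    exact ⟨q, hq⟩
  obtain ⟨q, hq, -, hqm⟩ := Polynomial.lifts_and_degree_eq_and_monic hlift hP₁m
  refine ⟨q, hqm, ?_⟩
  apply Subtype.ext
  have hcomp : ((s18_F1 K₁ (N * ℓ)).val : s18_F1 K₁ (N * ℓ) →+* LaurentSeries K₁).comp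
      ((aeval t' : Polynomial (s18_A1 A K₁) →ₐ[s18_A1 A K₁] s18_F1 K₁ (N * ℓ)) :
        Polynomial (s18_A1 A K₁) →+* s18_F1 K₁ (N * ℓ)) =
      ((aeval (t' : LaurentSeries K₁) : K₁[X] →ₐ[K₁] LaurentSeries K₁) :
        K₁[X] →+* LaurentSeries K₁).comp incl := by
    apply Polynomial.ringHom_ext
    · intro a
      simp only [RingHom.comp_apply, hincl, Polynomial.coe_mapRingHom, Polynomial.map_C,
        AlgHom.coe_toRingHom, Polynomial.aeval_C, RingHom.coe_coe]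
      rfl
    · simp only [RingHom.comp_apply, hincl, Polynomial.coe_mapRingHom, Polynomial.map_X,
        AlgHom.coe_toRingHom, Polynomial.aeval_X, RingHom.coe_coe]
      rfl
  have h1 := Polynomial.hom_eval₂ q
    ((aeval t' : Polynomial (s18_A1 A K₁) →ₐ[s18_A1 A K₁] s18_F1 K₁ (N * ℓ)) :
        Polynomial (s18_A1 A K₁) →+* s18_F1 K₁ (N * ℓ))
    ((s18_F1 K₁ (N * ℓ)).val : s18_F1 K₁ (N * ℓ) →+* LaurentSeries K₁) y
  rw [hcomp, ← Polynomial.eval₂_map, hq] at h1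
  exact h1.trans hP₁x

/-- **(WST)**: a ring endomorphism `W₁` of `K₁ · F_{Nℓ}` which fixes the constants and maps the
Hauptmodul `t` to `V_ℓ t = t(q^ℓ)` maps the chart `s34_ic_chart A₁ t'` (`t' = t` or `t⁻¹`) into
itself. -/
theorem s34_ws_map_mem [NeZero (N * ℓ)] (hℓ : ℓ.Prime) (hℓN : ¬ ℓ ∣ N) (hℓM : ℓ ≠ M)
    (hMN : M ∣ N) (A : ValuationSubring Qb) (hA : A.LiesOverPrime ℓ)
    (K₁ : IntermediateField ℚ Qb)
    (t : s18_F1 K₁ (N * ℓ)) (ht : s37_IsHaupt M (s18_baseIncl K₁ (N * ℓ) t))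
    (t' : s18_F1 K₁ (N * ℓ)) (ht' : t' = t ∨ t' = t⁻¹)
    (W₁ : s18_F1 K₁ (N * ℓ) →+* s18_F1 K₁ (N * ℓ))
    (hWc : ∀ c : K₁, W₁ (algebraMap K₁ (s18_F1 K₁ (N * ℓ)) c) =
      algebraMap K₁ (s18_F1 K₁ (N * ℓ)) c)
    (hWt : ((W₁ t : s18_F1 K₁ (N * ℓ)) : LaurentSeries K₁) =
      qExpand K₁ ℓ (t : LaurentSeries K₁))
    {x : s18_F1 K₁ (N * ℓ)} (hx : x ∈ s34_ic_chart (s18_A1 A K₁) t') :
    W₁ x ∈ s34_ic_chart (s18_A1 A K₁) t' := by
  refine s34_ic_map_mem W₁ (fun a => ?_) ?_ hx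
  · have e : algebraMap (s18_A1 A K₁) (s18_F1 K₁ (N * ℓ)) a =
        algebraMap K₁ (s18_F1 K₁ (N * ℓ)) (a : K₁) := rfl
    rw [e, hWc, ← e]
    exact Subalgebra.algebraMap_mem _ a
  · refine s34_ws_vq_mem N ℓ M hℓ hℓN hℓM hMN A hA K₁ t ht t' ht' (W₁ t') ?_
    rcases ht' with rfl | rfl
    · exact hWt
    · rw [map_inv₀]
      show ((W₁ t : s18_F1 K₁ (N * ℓ)) : LaurentSeries K₁)⁻¹ =
        qExpand K₁ ℓ ((t : LaurentSeries K₁)⁻¹)
      rw [map_inv₀, hWt]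

/-- **(WST)**, both charts at once. -/
theorem s34_ws_chart_stable [NeZero (N * ℓ)] (hℓ : ℓ.Prime) (hℓN : ¬ ℓ ∣ N) (hℓM : ℓ ≠ M)
    (hMN : M ∣ N) (A : ValuationSubring Qb) (hA : A.LiesOverPrime ℓ)
    (K₁ : IntermediateField ℚ Qb)
    (t : s18_F1 K₁ (N * ℓ)) (ht : s37_IsHaupt M (s18_baseIncl K₁ (N * ℓ) t))
    (W₁ : s18_F1 K₁ (N * ℓ) →+* s18_F1 K₁ (N * ℓ))
    (hWc : ∀ c : K₁, W₁ (algebraMap K₁ (s18_F1 K₁ (N * ℓ)) c) =
      algebraMap K₁ (s18_F1 K₁ (N * ℓ)) c)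
    (hWt : ((W₁ t : s18_F1 K₁ (N * ℓ)) : LaurentSeries K₁) =
      qExpand K₁ ℓ (t : LaurentSeries K₁)) :
    (∀ x ∈ s34_ic_chart (s18_A1 A K₁) t, W₁ x ∈ s34_ic_chart (s18_A1 A K₁) t) ∧
      (∀ x ∈ s34_ic_chart (s18_A1 A K₁) t⁻¹, W₁ x ∈ s34_ic_chart (s18_A1 A K₁) t⁻¹) :=
  ⟨fun _ hx => s34_ws_map_mem N ℓ M hℓ hℓN hℓM hMN A hA K₁ t ht t (Or.inl rfl) W₁ hWc hWt hx,
    fun _ hx => s34_ws_map_mem N ℓ M hℓ hℓN hℓM hMN A hA K₁ t ht t⁻¹ (Or.inr rfl) W₁ hWc hWt hx⟩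

end Concrete

section Haupt

variable (N' : ℕ) [NeZero N'] (K₁ : IntermediateField ℚ Qb)

/-- The S18 coordinate `t₂` at level `N'` over `K₁` is the Hauptmodul of `s37_IsHaupt 2`. -/
theorem s34_ws_isHaupt_t2 (h2 : 2 ∣ N') :
    s37_IsHaupt 2 (s18_baseIncl K₁ N' (s18_coord K₁ (s18_cz_t2 N' h2))) :=
  Or.inl ⟨rfl, s18_br_coe_t2 N' K₁ h2⟩

/-- The S18 coordinate `t₃` at level `N'` over `K₁` is the Hauptmodul of `s37_IsHaupt 3`. -/
theorem s34_ws_isHaupt_t3 (h3 : 3 ∣ N') :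
    s37_IsHaupt 3 (s18_baseIncl K₁ N' (s18_coord K₁ (s18_cz_t3 N' h3))) :=
  Or.inr ⟨rfl, s18_br_coe_t3 N' K₁ h3⟩

end Haupt

end

end Fermat.Agent.S34
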