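import Mathlib
import Fermat.Agent.S34.LevelGauss
import Fermat.Agent.S34.LevelChart
import Fermat.Agent.S34.GaussZeroModel
import Fermat.Agent.S34.AwayRegSwap
import Fermat.Agent.S34.IcUnif
import Fermat.Agent.S34.SwapStable

/-!
# S34 (NODE), (REG-inst): `hsm0` / `hsmi` of `s34_pow_of_model` for the model

Setting: `K` a field over `ℚ`, `A` a valuation subring of `K` which is a DVR with uniformizer `π`
and residue characteristic `ℓ`; `N` a level prime to `ℓ` with an S18 coordinate `t` (so that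
`B₁ = s18_chAlg N ℓ A t ⊆ F' = K · F_N` is an S18 chart); `q` a second level factor (`q = ℓ` in
the model); `ι = heckeAlphaBar K N q : F' → FF = K · F_{N q}` the inclusion; `T = ι t`;
`B = s34_ic_chart A T` the integral-closure chart of `FF`; `V∞ = s34_gi_V A (N q)` the
`q`-expansion Gauss ring of `FF`; `W` an automorphism of `FF` (the Atkin–Lehner swap) fixing `π`
and preserving `B`; `V0 = V∞.comap W`.

`s34_ri_hsm` : the regularity hypothesis `hsm0` (resp. `hsmi`, with `t⁻¹` for `t`) of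
`s34_pow_of_model`, LITERALLY, from

* `hcap` : `B ∩ π V∞ ∩ π V0 = π B`  (leaf (CAP)), and
* `hresκ` : every element of `B` is congruent modulo `π V∞` to an element of `V' = s34_gi_V A N`
  (`κ(V∞) = κ(V')`, leaf (EXT)).

Everything else (the inputs `hιϖ`, `hV`, `hBV`, `hϖB`, `hB₁B`, `hgauss`, `hint` of helper7's
`s34_sm_reg_model_of_eq`) is discharged here from the landed leaves.
-/

set_option autoImplicit false
set_option synthInstance.maxHeartbeats 400000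
set_option linter.unusedSectionVars false
set_option linter.unusedVariables false

open ModularCurve ModularCurve.IgusaScheme Fermat.Agent.S28

noncomputable section

namespace Fermat.Agent.S34

open Fermat.Agent.S18

section Generic

variable {N : ℕ} [NeZero N] (q : ℕ) [NeZero q] {ℓ : ℕ} [Fact ℓ.Prime]
variable {K : Type*} [Field K] [Algebra ℚ K] {A : ValuationSubring K}
variable {t : modularFunctionFieldFull N}
variable [IsDiscreteValuationRing A] {π : A}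

local notation "F'" => laurentBaseChange K (modularFunctionFieldFull N)
local notation "FF" => laurentBaseChange K (modularFunctionFieldFull (N * q))

/-- The inclusion `K · F_N → K · F_{N q}` as a ring homomorphism. -/
abbrev s34_ri_incl (K : Type*) [Field K] [Algebra ℚ K] (N q : ℕ) [NeZero N] [NeZero q] :
    laurentBaseChange K (modularFunctionFieldFull N) →+*
      laurentBaseChange K (modularFunctionFieldFull (N * q)) :=
  ((heckeAlphaBar K N q : laurentBaseChange K (modularFunctionFieldFull N) →ₐ[K]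
    laurentBaseChange K (modularFunctionFieldFull (N * q))) :
    laurentBaseChange K (modularFunctionFieldFull N) →+*
      laurentBaseChange K (modularFunctionFieldFull (N * q)))

/-- `hιϖ` : the inclusion maps the uniformizer to the uniformizer. -/
theorem s34_ri_incl_pi : s34_ri_incl K N q (algebraMap A F' π) = algebraMap A FF π :=
  s34_lc_incl_algebraMap q π

/-- The inclusion of the coordinate lies in the Gauss ring at infinity. -/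
theorem s34_ri_coord_mem_V (hℓ : ((ℓ : K))⁻¹ ∉ A) (h : s18_cz_Coord N ℓ t)
    {B : Subring (LaurentSeries ℚ)} (hB : CoreData N ℓ B) :
    heckeAlphaBar K N q (s18_coord K t) ∈ s34_gi_V A (N * q) :=
  (s34_gz_alpha_mem_iff (ℓ := q) (s18_coord K t)).mpr
    (s34_lg_chart_le_V hℓ h hB (s18_coord_mem t))

/-- `hBV` : the integral-closure chart of `ι t` lies in the Gauss ring at infinity. -/
theorem s34_ri_ic_le_V (hR : s18_ResBasis ℓ A π) (h : s18_cz_Coord N ℓ t)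
    {B : Subring (LaurentSeries ℚ)} (hB : CoreData N ℓ B) :
    (s34_ic_chart A (heckeAlphaBar K N q (s18_coord K t))).toSubring ≤ s34_gi_V A (N * q) :=
  s34_ic_le_unif (s34_lg_unif (N := N * q) hR.irr)
    (fun a => s34_gi_algebraMap_mem (N := N * q) a) (s34_ri_coord_mem_V q hR.unit h hB)

/-- `hgauss` : `ι B₁ ∩ π V∞ = π ι B₁`. -/
theorem s34_ri_hgauss (hR : s18_ResBasis ℓ A π) (h : s18_cz_Coord N ℓ t)
    {B : Subring (LaurentSeries ℚ)} (hB : CoreData N ℓ B) :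
    ∀ b ∈ (s18_chAlg N ℓ A t).toSubring,
      (algebraMap A FF π)⁻¹ * s34_ri_incl K N q b ∈ s34_gi_V A (N * q) →
      (algebraMap A F' π)⁻¹ * b ∈ (s18_chAlg N ℓ A t).toSubring := by
  intro b hb hbV
  refine s34_lg_cap hR h hB hb ?_
  rw [← s34_gz_alpha_mem_iff (ℓ := q)]
  have e : heckeAlphaBar K N q ((algebraMap A F' π)⁻¹ * b) =
      (algebraMap A FF π)⁻¹ * s34_ri_incl K N q b := by
    rw [map_mul, map_inv₀, s34_lc_incl_algebraMap q π]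
    rfl
  rw [e]
  exact hbV

/-- `hint` : the integral-closure chart of `ι t` is integral over `ι B₁` (polynomial form). -/
theorem s34_ri_hint (hsm : s18_SmHyp π (s18_coord K t) (s18_chAlg N ℓ A t)) :
    ∀ x ∈ (s34_ic_chart A (heckeAlphaBar K N q (s18_coord K t))).toSubring,
      ∃ P : Polynomial (s18_chAlg N ℓ A t).toSubring, P.Monic ∧
        P.eval₂ ((s34_ri_incl K N q).comp (s18_chAlg N ℓ A t).toSubring.subtype) x = 0 := by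
  intro x hx
  apply s34_res_hint_of_isIntegral
  refine (s34_ic_isIntegral_iff (A₀ := A) (heckeAlphaBar K N q (s18_coord K t))
    ((s18_chAlg N ℓ A t).toSubring.map (s34_ri_incl K N q)) ?_ ?_ ?_ x).mpr hx
  · intro a
    exact ⟨algebraMap A F' a, Subalgebra.algebraMap_mem _ a, s34_lc_incl_algebraMap q a⟩
  · exact ⟨s18_coord K t, s18_coord_mem t, rfl⟩
  · rintro _ ⟨y, hy, rfl⟩
    exact s34_lc_incl_mem_ic q hsm y hy

/-- **(REG-inst)**: the hypothesis `hsm0` / `hsmi` of `s34_pow_of_model`, literally, for the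
integral-closure chart `B = s34_ic_chart A T` (`T = ι t`), `V₁ = V∞ = s34_gi_V A (N q)` and
`V₂ = V0 = V∞.comap W`. -/
theorem s34_ri_hsm (hR : s18_ResBasis ℓ A π) (h : s18_cz_Coord N ℓ t)
    {B : Subring (LaurentSeries ℚ)} (hB : CoreData N ℓ B)
    (hchart : s18_Chart (algebraMap A F' π) (s18_chAlg N ℓ A t).toSubring)
    (hsm : s18_SmHyp π (s18_coord K t) (s18_chAlg N ℓ A t))
    (T : FF) (hT : heckeAlphaBar K N q (s18_coord K t) = T)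
    (W : FF ≃+* FF) (hWϖ : W (algebraMap A FF π) = algebraMap A FF π)
    (hWB : ∀ x ∈ (s34_ic_chart A T).toSubring, W x ∈ (s34_ic_chart A T).toSubring)
    (hWB' : ∀ x ∈ (s34_ic_chart A T).toSubring, W.symm x ∈ (s34_ic_chart A T).toSubring)
    (hcap : ∀ x ∈ (s34_ic_chart A T).toSubring,
      (algebraMap A FF π)⁻¹ * x ∈ s34_gi_V A (N * q) →
      (algebraMap A FF π)⁻¹ * x ∈ (s34_gi_V A (N * q)).comap (W : FF →+* FF) →
      (algebraMap A FF π)⁻¹ * x ∈ (s34_ic_chart A T).toSubring)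
    (hresκ : ∀ y ∈ (s34_ic_chart A T).toSubring, ∃ y' ∈ s34_gi_V A N,
      (algebraMap A FF π)⁻¹ * (y - heckeAlphaBar K N q y') ∈ s34_gi_V A (N * q)) :
    ∀ f : (s34_ic_chart A T).toSubring,
      ((algebraMap A FF π)⁻¹ * (f : FF) ∈ s34_gi_V A (N * q) ∨
        (algebraMap A FF π)⁻¹ * (f : FF) ∈ (s34_gi_V A (N * q)).comap (W : FF →+* FF)) →
      ∀ 𝔫 : Ideal (s34_away (s34_ic_chart A T).toSubring (f : FF) f.2), 𝔫.IsMaximal →
      (⟨algebraMap A FF π, s34_le_away (s34_ic_chart A T).toSubring (f : FF) f.2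
        ((s34_ic_chart A T).algebraMap_mem π)⟩ :
        s34_away (s34_ic_chart A T).toSubring (f : FF) f.2) ∈ 𝔫 →
      ∃ s ∈ 𝔫, ∀ x ∈ 𝔫, ∃ u, u ∉ 𝔫 ∧ u * x ∈ Ideal.span
        {(⟨algebraMap A FF π, s34_le_away (s34_ic_chart A T).toSubring (f : FF) f.2
          ((s34_ic_chart A T).algebraMap_mem π)⟩ :
          s34_away (s34_ic_chart A T).toSubring (f : FF) f.2), s} := by
  subst hT
  intro f hf 𝔫 h𝔫 hϖ𝔫
  have hres' : ∀ y ∈ (s34_ic_chart A (heckeAlphaBar K N q (s18_coord K t))).toSubring,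
      ∃ y' ∈ s18_gauss (algebraMap A F' π) (s18_chAlg N ℓ A t).toSubring,
        (algebraMap A FF π)⁻¹ * (y - s34_ri_incl K N q y') ∈ s34_gi_V A (N * q) := by
    intro y hy
    obtain ⟨y', hy', hyy'⟩ := hresκ y hy
    exact ⟨y', (s34_lg_mem_gauss_iff hR h hB y').mpr hy', hyy'⟩
  exact s34_sm_reg_model_of_eq (s34_ri_incl K N q) (s18_chAlg N ℓ A t).toSubring hchart
    (s34_ri_incl_pi q) W hWϖ (s34_lg_unif (N := N * q) hR.irr) (s34_ri_ic_le_V q hR h hB)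
    hWB hWB' ((s34_ic_chart A (heckeAlphaBar K N q (s18_coord K t))).algebraMap_mem π) hcap
    (fun x hx => s34_lc_incl_mem_ic q hsm x hx) (s34_ri_hgauss q hR h hB) (s34_ri_hint q hsm)
    hres' f hf 𝔫 h𝔫 hϖ𝔫

end Generic

/-- The regularity hypothesis `hsm0` / `hsmi` of `s34_pow_of_model` for the chart `B` and the two
Gauss rings `V₁`, `V₂` (unfolds by `Iff.rfl` to the literal hypothesis). -/
def s34_ri_Hsm {A₀ F : Type*} [CommRing A₀] [Field F] [Algebra A₀ F] (π : A₀)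
    (B : Subalgebra A₀ F) (V₁ V₂ : Subring F) : Prop :=
  ∀ f : B.toSubring,
    ((algebraMap A₀ F π)⁻¹ * (f : F) ∈ V₁ ∨ (algebraMap A₀ F π)⁻¹ * (f : F) ∈ V₂) →
    ∀ 𝔫 : Ideal (s34_away B.toSubring (f : F) f.2), 𝔫.IsMaximal →
    (⟨algebraMap A₀ F π, s34_le_away B.toSubring (f : F) f.2 (B.algebraMap_mem π)⟩ :
      s34_away B.toSubring (f : F) f.2) ∈ 𝔫 →
    ∃ s ∈ 𝔫, ∀ x ∈ 𝔫, ∃ u, u ∉ 𝔫 ∧ u * x ∈ Ideal.span
      {(⟨algebraMap A₀ F π, s34_le_away B.toSubring (f : F) f.2 (B.algebraMap_mem π)⟩ :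
        s34_away B.toSubring (f : F) f.2), s}

section Model

variable (N₁ : ℕ) [NeZero N₁] (q : ℕ) [NeZero q] [Fact q.Prime]
  (A : ValuationSubring (AlgebraicClosure ℚ)) (hA : A.LiesOverPrime q)
  (K₁ : IntermediateField ℚ (AlgebraicClosure ℚ)) [NumberField K₁] [IsGalois ℚ K₁]
  [IsDiscreteValuationRing (s18_A1 A K₁)]

include hA in
/-- **(REG-inst), one coordinate**: `hsm0` and `hsmi` of `s34_pow_of_model` for the model at level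
`N₁ * q`, from the S18 chart package of a coordinate `t₀` of level `N₁`, the swap `W`, (CAP) and
`κ(V∞) = κ(V')`. -/
theorem s34_ri_model_coord (hqN : ¬ q ∣ N₁) (M : ℕ) (hqM : q ≠ M) (hMN : M ∣ N₁)
    {π : s18_A1 A K₁} (hπ : Irreducible π)
    (t₀ : modularFunctionFieldFull N₁) (tL : modularFunctionFieldFull (N₁ * q))
    (htL : (tL : LaurentSeries ℚ) = (t₀ : LaurentSeries ℚ))
    (h : s18_cz_Coord N₁ q t₀)
    (hT : s18_TwoChart π (s18_coord K₁ t₀) (s18_chAlg N₁ q (s18_A1 A K₁) t₀)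
      (s18_chAlg N₁ q (s18_A1 A K₁) t₀⁻¹))
    (hP : s18_ChartPkg π (s18_coord K₁ t₀) (s18_chAlg N₁ q (s18_A1 A K₁) t₀)
      (s18_chAlg N₁ q (s18_A1 A K₁) t₀⁻¹))
    (hHaupt : Fermat.Agent.S37.s37_IsHaupt M (s18_baseIncl K₁ (N₁ * q) (s18_coord K₁ tL)))
    (W : s18_F1 K₁ (N₁ * q) ≃+* s18_F1 K₁ (N₁ * q))
    (hWc : ∀ c : K₁, W (algebraMap K₁ (s18_F1 K₁ (N₁ * q)) c) =
      algebraMap K₁ (s18_F1 K₁ (N₁ * q)) c)
    (hWα : ∀ x : s18_F1 K₁ N₁, W (heckeAlphaBar K₁ N₁ q x) = heckeBetaBar K₁ N₁ q x)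
    (hWW : ∀ x : s18_F1 K₁ (N₁ * q), W (W x) = x)
    (hcap0 : ∀ x ∈ (s34_ic_chart (s18_A1 A K₁) (s18_coord K₁ tL)).toSubring,
      (algebraMap (s18_A1 A K₁) (s18_F1 K₁ (N₁ * q)) π)⁻¹ * x ∈ s34_gi_V (s18_A1 A K₁) (N₁ * q) →
      (algebraMap (s18_A1 A K₁) (s18_F1 K₁ (N₁ * q)) π)⁻¹ * x ∈
        (s34_gi_V (s18_A1 A K₁) (N₁ * q)).comap
          (W : s18_F1 K₁ (N₁ * q) →+* s18_F1 K₁ (N₁ * q)) →
      (algebraMap (s18_A1 A K₁) (s18_F1 K₁ (N₁ * q)) π)⁻¹ * x ∈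
        (s34_ic_chart (s18_A1 A K₁) (s18_coord K₁ tL)).toSubring)
    (hcapi : ∀ x ∈ (s34_ic_chart (s18_A1 A K₁) (s18_coord K₁ tL)⁻¹).toSubring,
      (algebraMap (s18_A1 A K₁) (s18_F1 K₁ (N₁ * q)) π)⁻¹ * x ∈ s34_gi_V (s18_A1 A K₁) (N₁ * q) →
      (algebraMap (s18_A1 A K₁) (s18_F1 K₁ (N₁ * q)) π)⁻¹ * x ∈
        (s34_gi_V (s18_A1 A K₁) (N₁ * q)).comap
          (W : s18_F1 K₁ (N₁ * q) →+* s18_F1 K₁ (N₁ * q)) →
      (algebraMap (s18_A1 A K₁) (s18_F1 K₁ (N₁ * q)) π)⁻¹ * x ∈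
        (s34_ic_chart (s18_A1 A K₁) (s18_coord K₁ tL)⁻¹).toSubring)
    (hresκ : ∀ y ∈ s34_gi_V (s18_A1 A K₁) (N₁ * q), ∃ y' ∈ s34_gi_V (s18_A1 A K₁) N₁,
      (algebraMap (s18_A1 A K₁) (s18_F1 K₁ (N₁ * q)) π)⁻¹ * (y - heckeAlphaBar K₁ N₁ q y') ∈
        s34_gi_V (s18_A1 A K₁) (N₁ * q)) :
    s34_ri_Hsm π (s34_ic_chart (s18_A1 A K₁) (s18_coord K₁ tL))
        (s34_gi_V (s18_A1 A K₁) (N₁ * q))
        ((s34_gi_V (s18_A1 A K₁) (N₁ * q)).comap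
          (W : s18_F1 K₁ (N₁ * q) →+* s18_F1 K₁ (N₁ * q))) ∧
      s34_ri_Hsm π (s34_ic_chart (s18_A1 A K₁) (s18_coord K₁ tL)⁻¹)
        (s34_gi_V (s18_A1 A K₁) (N₁ * q))
        ((s34_gi_V (s18_A1 A K₁) (N₁ * q)).comap
          (W : s18_F1 K₁ (N₁ * q) →+* s18_F1 K₁ (N₁ * q))) := by
  have hq : q.Prime := Fact.out
  have hR : s18_ResBasis q (s18_A1 A K₁) π := s18_a1_resbasis A hA K₁ π hπ
  obtain ⟨B, hB⟩ := core N₁ q hqN
  -- the coordinate at the two levels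
  have hcoord : heckeAlphaBar K₁ N₁ q (s18_coord K₁ t₀) = s18_coord K₁ tL :=
    s34_lc_incl_coord q tL htL
  have hcoord' : heckeAlphaBar K₁ N₁ q (s18_coord K₁ t₀⁻¹) = (s18_coord K₁ tL)⁻¹ := by
    rw [s18_coord_inv, map_inv₀, hcoord]
  -- the swap
  have hWϖ : W (algebraMap (s18_A1 A K₁) (s18_F1 K₁ (N₁ * q)) π) =
      algebraMap (s18_A1 A K₁) (s18_F1 K₁ (N₁ * q)) π := hWc (π : K₁)
  have hWt : ((W (s18_coord K₁ tL) : s18_F1 K₁ (N₁ * q)) : LaurentSeries K₁) =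
      qExpand K₁ q ((s18_coord K₁ tL : s18_F1 K₁ (N₁ * q)) : LaurentSeries K₁) := by
    rw [← hcoord, hWα, coe_heckeBetaBar, coe_heckeAlphaBar]
  have hWsymm : ∀ x : s18_F1 K₁ (N₁ * q), W.symm x = W x := fun x => by
    rw [RingEquiv.symm_apply_eq, hWW]
  obtain ⟨hW0, hWi⟩ := s34_ws_chart_stable N₁ q M hq hqN hqM hMN A hA K₁ (s18_coord K₁ tL) hHaupt
    (W : s18_F1 K₁ (N₁ * q) →+* s18_F1 K₁ (N₁ * q)) hWc hWt
  have hsmInf : s18_SmHyp π (s18_coord K₁ t₀⁻¹) (s18_chAlg N₁ q (s18_A1 A K₁) t₀⁻¹) := by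
    rw [s18_coord_inv]
    exact hP.smInf
  have hchInf : s18_Chart (algebraMap (s18_A1 A K₁) (s18_F1 K₁ N₁) π)
      (s18_chAlg N₁ q (s18_A1 A K₁) t₀⁻¹).toSubring := hT.chartInf
  refine ⟨?_, ?_⟩
  · exact s34_ri_hsm q hR h hB hT.chart0 hP.sm0 (s18_coord K₁ tL) hcoord W hWϖ
      (fun x hx => hW0 x hx) (fun x hx => by rw [hWsymm]; exact hW0 x hx) hcap0
      (fun y hy => hresκ y (by
        have := s34_ri_ic_le_V (K := K₁) (A := s18_A1 A K₁) q hR h hB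
        rw [hcoord] at this
        exact this hy))
  · exact s34_ri_hsm q hR h.inv hB hchInf hsmInf (s18_coord K₁ tL)⁻¹ hcoord' W hWϖ
      (fun x hx => hWi x hx) (fun x hx => by rw [hWsymm]; exact hWi x hx) hcapi
      (fun y hy => hresκ y (by
        have := s34_ri_ic_le_V (K := K₁) (A := s18_A1 A K₁) q hR h.inv hB
        rw [hcoord'] at this
        exact this hy))

include hA in
/-- **(REG-inst) for the Hauptmodul `t_2`**: `hsm0` and `hsmi` of `s34_pow_of_model` for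
`B0 = s34_ic_chart A₁ t`, `Binf = s34_ic_chart A₁ t⁻¹`, `t = s18_coord K₁ (t_2 at level N₁ q)`,
`V₁ = V∞ = s34_gi_V A₁ (N₁ q)`, `V₂ = V0 = V∞.comap W`. -/
theorem s34_ri_model_t2 (hqN : ¬ q ∣ N₁) (hM : 2 ∣ N₁) (hML : 2 ∣ N₁ * q)
    {π : s18_A1 A K₁} (hπ : Irreducible π)
    (W : s18_F1 K₁ (N₁ * q) ≃+* s18_F1 K₁ (N₁ * q))
    (hWc : ∀ c : K₁, W (algebraMap K₁ (s18_F1 K₁ (N₁ * q)) c) =
      algebraMap K₁ (s18_F1 K₁ (N₁ * q)) c)
    (hWα : ∀ x : s18_F1 K₁ N₁, W (heckeAlphaBar K₁ N₁ q x) = heckeBetaBar K₁ N₁ q x)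
    (hWW : ∀ x : s18_F1 K₁ (N₁ * q), W (W x) = x)
    (hcap0 : ∀ x ∈ (s34_ic_chart (s18_A1 A K₁) (s18_coord K₁ (s18_cz_t2 (N₁ * q) hML))).toSubring,
      (algebraMap (s18_A1 A K₁) (s18_F1 K₁ (N₁ * q)) π)⁻¹ * x ∈ s34_gi_V (s18_A1 A K₁) (N₁ * q) →
      (algebraMap (s18_A1 A K₁) (s18_F1 K₁ (N₁ * q)) π)⁻¹ * x ∈
        (s34_gi_V (s18_A1 A K₁) (N₁ * q)).comap
          (W : s18_F1 K₁ (N₁ * q) →+* s18_F1 K₁ (N₁ * q)) →
      (algebraMap (s18_A1 A K₁) (s18_F1 K₁ (N₁ * q)) π)⁻¹ * x ∈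
        (s34_ic_chart (s18_A1 A K₁) (s18_coord K₁ (s18_cz_t2 (N₁ * q) hML))).toSubring)
    (hcapi : ∀ x ∈ (s34_ic_chart (s18_A1 A K₁)
        (s18_coord K₁ (s18_cz_t2 (N₁ * q) hML))⁻¹).toSubring,
      (algebraMap (s18_A1 A K₁) (s18_F1 K₁ (N₁ * q)) π)⁻¹ * x ∈ s34_gi_V (s18_A1 A K₁) (N₁ * q) →
      (algebraMap (s18_A1 A K₁) (s18_F1 K₁ (N₁ * q)) π)⁻¹ * x ∈
        (s34_gi_V (s18_A1 A K₁) (N₁ * q)).comap
          (W : s18_F1 K₁ (N₁ * q) →+* s18_F1 K₁ (N₁ * q)) →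
      (algebraMap (s18_A1 A K₁) (s18_F1 K₁ (N₁ * q)) π)⁻¹ * x ∈
        (s34_ic_chart (s18_A1 A K₁) (s18_coord K₁ (s18_cz_t2 (N₁ * q) hML))⁻¹).toSubring)
    (hresκ : ∀ y ∈ s34_gi_V (s18_A1 A K₁) (N₁ * q), ∃ y' ∈ s34_gi_V (s18_A1 A K₁) N₁,
      (algebraMap (s18_A1 A K₁) (s18_F1 K₁ (N₁ * q)) π)⁻¹ * (y - heckeAlphaBar K₁ N₁ q y') ∈
        s34_gi_V (s18_A1 A K₁) (N₁ * q)) :
    s34_ri_Hsm π (s34_ic_chart (s18_A1 A K₁) (s18_coord K₁ (s18_cz_t2 (N₁ * q) hML)))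
        (s34_gi_V (s18_A1 A K₁) (N₁ * q))
        ((s34_gi_V (s18_A1 A K₁) (N₁ * q)).comap
          (W : s18_F1 K₁ (N₁ * q) →+* s18_F1 K₁ (N₁ * q))) ∧
      s34_ri_Hsm π (s34_ic_chart (s18_A1 A K₁) (s18_coord K₁ (s18_cz_t2 (N₁ * q) hML))⁻¹)
        (s34_gi_V (s18_A1 A K₁) (N₁ * q))
        ((s34_gi_V (s18_A1 A K₁) (N₁ * q)).comap
          (W : s18_F1 K₁ (N₁ * q) →+* s18_F1 K₁ (N₁ * q))) := by
  have hqM : q ≠ 2 := fun h => hqN (h ▸ hM)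
  exact s34_ri_model_coord N₁ q A hA K₁ hqN 2 hqM hM hπ (s18_cz_t2 N₁ hM) (s18_cz_t2 (N₁ * q) hML)
    rfl (s18_cz_coord_t2 N₁ q hM hqM) (s34_lc_twoChart_t2 N₁ A hA K₁ hqN hM π hπ)
    (s18_ch_pkg_t2 (s18_a1_ell A hA K₁) hqN hM π hπ) (s34_ws_isHaupt_t2 (N₁ * q) K₁ hML)
    W hWc hWα hWW hcap0 hcapi hresκ

include hA in
/-- **(REG-inst) for the Hauptmodul `t_3`**: `hsm0` and `hsmi` of `s34_pow_of_model` for
`B0 = s34_ic_chart A₁ t`, `Binf = s34_ic_chart A₁ t⁻¹`, `t = s18_coord K₁ (t_3 at level N₁ q)`,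
`V₁ = V∞ = s34_gi_V A₁ (N₁ q)`, `V₂ = V0 = V∞.comap W`. -/
theorem s34_ri_model_t3 (hqN : ¬ q ∣ N₁) (hM : 3 ∣ N₁) (hML : 3 ∣ N₁ * q)
    {π : s18_A1 A K₁} (hπ : Irreducible π)
    (W : s18_F1 K₁ (N₁ * q) ≃+* s18_F1 K₁ (N₁ * q))
    (hWc : ∀ c : K₁, W (algebraMap K₁ (s18_F1 K₁ (N₁ * q)) c) =
      algebraMap K₁ (s18_F1 K₁ (N₁ * q)) c)
    (hWα : ∀ x : s18_F1 K₁ N₁, W (heckeAlphaBar K₁ N₁ q x) = heckeBetaBar K₁ N₁ q x)
    (hWW : ∀ x : s18_F1 K₁ (N₁ * q), W (W x) = x)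
    (hcap0 : ∀ x ∈ (s34_ic_chart (s18_A1 A K₁) (s18_coord K₁ (s18_cz_t3 (N₁ * q) hML))).toSubring,
      (algebraMap (s18_A1 A K₁) (s18_F1 K₁ (N₁ * q)) π)⁻¹ * x ∈ s34_gi_V (s18_A1 A K₁) (N₁ * q) →
      (algebraMap (s18_A1 A K₁) (s18_F1 K₁ (N₁ * q)) π)⁻¹ * x ∈
        (s34_gi_V (s18_A1 A K₁) (N₁ * q)).comap
          (W : s18_F1 K₁ (N₁ * q) →+* s18_F1 K₁ (N₁ * q)) →
      (algebraMap (s18_A1 A K₁) (s18_F1 K₁ (N₁ * q)) π)⁻¹ * x ∈
        (s34_ic_chart (s18_A1 A K₁) (s18_coord K₁ (s18_cz_t3 (N₁ * q) hML))).toSubring)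
    (hcapi : ∀ x ∈ (s34_ic_chart (s18_A1 A K₁)
        (s18_coord K₁ (s18_cz_t3 (N₁ * q) hML))⁻¹).toSubring,
      (algebraMap (s18_A1 A K₁) (s18_F1 K₁ (N₁ * q)) π)⁻¹ * x ∈ s34_gi_V (s18_A1 A K₁) (N₁ * q) →
      (algebraMap (s18_A1 A K₁) (s18_F1 K₁ (N₁ * q)) π)⁻¹ * x ∈
        (s34_gi_V (s18_A1 A K₁) (N₁ * q)).comap
          (W : s18_F1 K₁ (N₁ * q) →+* s18_F1 K₁ (N₁ * q)) →
      (algebraMap (s18_A1 A K₁) (s18_F1 K₁ (N₁ * q)) π)⁻¹ * x ∈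
        (s34_ic_chart (s18_A1 A K₁) (s18_coord K₁ (s18_cz_t3 (N₁ * q) hML))⁻¹).toSubring)
    (hresκ : ∀ y ∈ s34_gi_V (s18_A1 A K₁) (N₁ * q), ∃ y' ∈ s34_gi_V (s18_A1 A K₁) N₁,
      (algebraMap (s18_A1 A K₁) (s18_F1 K₁ (N₁ * q)) π)⁻¹ * (y - heckeAlphaBar K₁ N₁ q y') ∈
        s34_gi_V (s18_A1 A K₁) (N₁ * q)) :
    s34_ri_Hsm π (s34_ic_chart (s18_A1 A K₁) (s18_coord K₁ (s18_cz_t3 (N₁ * q) hML)))
        (s34_gi_V (s18_A1 A K₁) (N₁ * q))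
        ((s34_gi_V (s18_A1 A K₁) (N₁ * q)).comap
          (W : s18_F1 K₁ (N₁ * q) →+* s18_F1 K₁ (N₁ * q))) ∧
      s34_ri_Hsm π (s34_ic_chart (s18_A1 A K₁) (s18_coord K₁ (s18_cz_t3 (N₁ * q) hML))⁻¹)
        (s34_gi_V (s18_A1 A K₁) (N₁ * q))
        ((s34_gi_V (s18_A1 A K₁) (N₁ * q)).comap
          (W : s18_F1 K₁ (N₁ * q) →+* s18_F1 K₁ (N₁ * q))) := by
  have hqM : q ≠ 3 := fun h => hqN (h ▸ hM)
  exact s34_ri_model_coord N₁ q A hA K₁ hqN 3 hqM hM hπ (s18_cz_t3 N₁ hM) (s18_cz_t3 (N₁ * q) hML)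
    rfl (s18_cz_coord_t3 N₁ q hM hqM) (s34_lc_twoChart_t3 N₁ A hA K₁ hqN hM π hπ)
    (s18_ch_pkg_t3 (s18_a1_ell A hA K₁) hqN hM π hπ) (s34_ws_isHaupt_t3 (N₁ * q) K₁ hML)
    W hWc hWα hWW hcap0 hcapi hresκ

end Model

end Fermat.Agent.S34
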