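import Mathlib
import Fermat.Agent.S34.RegInst
import Fermat.Agent.S34.ExtInst

/-!
# S34 (NODE), (REG-inst), final form: `hsm0` / `hsmi` of `s34_pow_of_model` from the swap and (CAP)

`s34_rx_model_t2`, `s34_rx_model_t3` : `s34_ri_model_t2` / `_t3` (`RegInst.lean`) with the
residue-field hypothesis `hresκ` (`κ(V∞) = κ(V')`) discharged by helper28's `s34_ei_model_haupt`
(`ExtInst.lean`).  The only remaining inputs are the swap `W` (with `W ∘ α = β`, `W ∘ β = α`,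
`W ∘ W = id`, `W` fixing the constants) and the two (CAP) statements `hcap0`, `hcapi` — the same
terms as the hypotheses `hcap0`, `hcapi` of `s34_pow_of_model`.
-/

set_option autoImplicit false
set_option synthInstance.maxHeartbeats 400000
set_option linter.unusedSectionVars false
set_option linter.unusedVariables false

open ModularCurve ModularCurve.IgusaScheme Fermat.Agent.S28

noncomputable section

namespace Fermat.Agent.S34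

open Fermat.Agent.S18

section Model

variable (N₁ : ℕ) [NeZero N₁] (q : ℕ) [NeZero q] [Fact q.Prime]
  (A : ValuationSubring (AlgebraicClosure ℚ)) (hA : A.LiesOverPrime q)
  (K₁ : IntermediateField ℚ (AlgebraicClosure ℚ)) [NumberField K₁] [IsGalois ℚ K₁]
  [IsDiscreteValuationRing (s18_A1 A K₁)]

include hA in
/-- The residue characteristic is divisible by the uniformizer. -/
theorem s34_rx_ell_dvd {π : s18_A1 A K₁} (hπ : Irreducible π) :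
    ∃ c : s18_A1 A K₁, ((q : ℕ) : s18_A1 A K₁) = π * c := by
  have h1 := s18_ell_mem_maximalIdeal q (s18_A1 A K₁) (s18_a1_ell A hA K₁)
  rw [hπ.maximalIdeal_eq, Ideal.mem_span_singleton'] at h1
  obtain ⟨e, he⟩ := h1
  exact ⟨e, by rw [← he, mul_comm]⟩

include hA in
/-- `κ(V∞) = κ(V')` in the model (helper28's `s34_ei_model_haupt`, second part, in the shape of
`hresκ` of `s34_ri_model_t2` / `_t3`). -/
theorem s34_rx_hres (hqN : ¬ q ∣ N₁) (hM : 2 ∣ N₁ ∨ 3 ∣ N₁)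
    {π : s18_A1 A K₁} (hπ : Irreducible π)
    (W : s18_F1 K₁ (N₁ * q) ≃+* s18_F1 K₁ (N₁ * q))
    (hWc : ∀ c : K₁, W (algebraMap K₁ (s18_F1 K₁ (N₁ * q)) c) =
      algebraMap K₁ (s18_F1 K₁ (N₁ * q)) c)
    (hWα : ∀ x : s18_F1 K₁ N₁, W (heckeAlphaBar K₁ N₁ q x) = heckeBetaBar K₁ N₁ q x)
    (hWβ : ∀ x : s18_F1 K₁ N₁, W (heckeBetaBar K₁ N₁ q x) = heckeAlphaBar K₁ N₁ q x) :
    ∀ y ∈ s34_gi_V (s18_A1 A K₁) (N₁ * q), ∃ y' ∈ s34_gi_V (s18_A1 A K₁) N₁,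
      (algebraMap (s18_A1 A K₁) (s18_F1 K₁ (N₁ * q)) π)⁻¹ * (y - heckeAlphaBar K₁ N₁ q y') ∈
        s34_gi_V (s18_A1 A K₁) (N₁ * q) := by
  obtain ⟨c, hc⟩ := s34_rx_ell_dvd q A hA K₁ hπ
  exact (s34_ei_model_haupt (K := K₁) (A₁ := s18_A1 A K₁) (N := N₁) (ℓ := q) hM hqN hπ c hc W
    (hWc (π : K₁)) hWα hWβ).2

include hA in
/-- **(REG-inst), final form, `t₂`**: `hsm0` and `hsmi` of `s34_pow_of_model` from the swap `W`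
and (CAP). -/
theorem s34_rx_model_t2 (hqN : ¬ q ∣ N₁) (hM : 2 ∣ N₁) (hML : 2 ∣ N₁ * q)
    {π : s18_A1 A K₁} (hπ : Irreducible π)
    (W : s18_F1 K₁ (N₁ * q) ≃+* s18_F1 K₁ (N₁ * q))
    (hWc : ∀ c : K₁, W (algebraMap K₁ (s18_F1 K₁ (N₁ * q)) c) =
      algebraMap K₁ (s18_F1 K₁ (N₁ * q)) c)
    (hWα : ∀ x : s18_F1 K₁ N₁, W (heckeAlphaBar K₁ N₁ q x) = heckeBetaBar K₁ N₁ q x)
    (hWβ : ∀ x : s18_F1 K₁ N₁, W (heckeBetaBar K₁ N₁ q x) = heckeAlphaBar K₁ N₁ q x)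
    (hWW : ∀ x : s18_F1 K₁ (N₁ * q), W (W x) = x)
    (hcap0 : ∀ x ∈ (s34_ic_chart (s18_A1 A K₁) (s18_coord K₁ (s18_cz_t2 (N₁ * q) hML))).toSubring,
      (algebraMap (s18_A1 A K₁) (s18_F1 K₁ (N₁ * q)) π)⁻¹ * x ∈ s34_gi_V (s18_A1 A K₁) (N₁ * q) →
      (algebraMap (s18_A1 A K₁) (s18_F1 K₁ (N₁ * q)) π)⁻¹ * x ∈
        (s34_gi_V (s18_A1 A K₁) (N₁ * q)).comap
          (W : s18_F1 K₁ (N₁ * q) →+* s18_F1 K₁ (N₁ * q)) →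
      (algebraMap (s18_A1 A K₁) (s18_F1 K₁ (N₁ * q)) π)⁻¹ * x ∈
        (s34_ic_chart (s18_A1 A K₁) (s18_coord K₁ (s18_cz_t2 (N₁ * q) hML))).toSubring)
    (hcapi : ∀ x ∈ (s34_ic_chart (s18_A1 A K₁)
        (s18_coord K₁ (s18_cz_t2 (N₁ * q) hML))⁻¹).toSubring,
      (algebraMap (s18_A1 A K₁) (s18_F1 K₁ (N₁ * q)) π)⁻¹ * x ∈ s34_gi_V (s18_A1 A K₁) (N₁ * q) →
      (algebraMap (s18_A1 A K₁) (s18_F1 K₁ (N₁ * q)) π)⁻¹ * x ∈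
        (s34_gi_V (s18_A1 A K₁) (N₁ * q)).comap
          (W : s18_F1 K₁ (N₁ * q) →+* s18_F1 K₁ (N₁ * q)) →
      (algebraMap (s18_A1 A K₁) (s18_F1 K₁ (N₁ * q)) π)⁻¹ * x ∈
        (s34_ic_chart (s18_A1 A K₁) (s18_coord K₁ (s18_cz_t2 (N₁ * q) hML))⁻¹).toSubring) :
    s34_ri_Hsm π (s34_ic_chart (s18_A1 A K₁) (s18_coord K₁ (s18_cz_t2 (N₁ * q) hML)))
        (s34_gi_V (s18_A1 A K₁) (N₁ * q))
        ((s34_gi_V (s18_A1 A K₁) (N₁ * q)).comap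
          (W : s18_F1 K₁ (N₁ * q) →+* s18_F1 K₁ (N₁ * q))) ∧
      s34_ri_Hsm π (s34_ic_chart (s18_A1 A K₁) (s18_coord K₁ (s18_cz_t2 (N₁ * q) hML))⁻¹)
        (s34_gi_V (s18_A1 A K₁) (N₁ * q))
        ((s34_gi_V (s18_A1 A K₁) (N₁ * q)).comap
          (W : s18_F1 K₁ (N₁ * q) →+* s18_F1 K₁ (N₁ * q))) :=
  s34_ri_model_t2 N₁ q A hA K₁ hqN hM hML hπ W hWc hWα hWW hcap0 hcapi
    (s34_rx_hres N₁ q A hA K₁ hqN (Or.inl hM) hπ W hWc hWα hWβ)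

include hA in
/-- **(REG-inst), final form, `t₃`**: `hsm0` and `hsmi` of `s34_pow_of_model` from the swap `W`
and (CAP). -/
theorem s34_rx_model_t3 (hqN : ¬ q ∣ N₁) (hM : 3 ∣ N₁) (hML : 3 ∣ N₁ * q)
    {π : s18_A1 A K₁} (hπ : Irreducible π)
    (W : s18_F1 K₁ (N₁ * q) ≃+* s18_F1 K₁ (N₁ * q))
    (hWc : ∀ c : K₁, W (algebraMap K₁ (s18_F1 K₁ (N₁ * q)) c) =
      algebraMap K₁ (s18_F1 K₁ (N₁ * q)) c)
    (hWα : ∀ x : s18_F1 K₁ N₁, W (heckeAlphaBar K₁ N₁ q x) = heckeBetaBar K₁ N₁ q x)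
    (hWβ : ∀ x : s18_F1 K₁ N₁, W (heckeBetaBar K₁ N₁ q x) = heckeAlphaBar K₁ N₁ q x)
    (hWW : ∀ x : s18_F1 K₁ (N₁ * q), W (W x) = x)
    (hcap0 : ∀ x ∈ (s34_ic_chart (s18_A1 A K₁) (s18_coord K₁ (s18_cz_t3 (N₁ * q) hML))).toSubring,
      (algebraMap (s18_A1 A K₁) (s18_F1 K₁ (N₁ * q)) π)⁻¹ * x ∈ s34_gi_V (s18_A1 A K₁) (N₁ * q) →
      (algebraMap (s18_A1 A K₁) (s18_F1 K₁ (N₁ * q)) π)⁻¹ * x ∈
        (s34_gi_V (s18_A1 A K₁) (N₁ * q)).comap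
          (W : s18_F1 K₁ (N₁ * q) →+* s18_F1 K₁ (N₁ * q)) →
      (algebraMap (s18_A1 A K₁) (s18_F1 K₁ (N₁ * q)) π)⁻¹ * x ∈
        (s34_ic_chart (s18_A1 A K₁) (s18_coord K₁ (s18_cz_t3 (N₁ * q) hML))).toSubring)
    (hcapi : ∀ x ∈ (s34_ic_chart (s18_A1 A K₁)
        (s18_coord K₁ (s18_cz_t3 (N₁ * q) hML))⁻¹).toSubring,
      (algebraMap (s18_A1 A K₁) (s18_F1 K₁ (N₁ * q)) π)⁻¹ * x ∈ s34_gi_V (s18_A1 A K₁) (N₁ * q) →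
      (algebraMap (s18_A1 A K₁) (s18_F1 K₁ (N₁ * q)) π)⁻¹ * x ∈
        (s34_gi_V (s18_A1 A K₁) (N₁ * q)).comap
          (W : s18_F1 K₁ (N₁ * q) →+* s18_F1 K₁ (N₁ * q)) →
      (algebraMap (s18_A1 A K₁) (s18_F1 K₁ (N₁ * q)) π)⁻¹ * x ∈
        (s34_ic_chart (s18_A1 A K₁) (s18_coord K₁ (s18_cz_t3 (N₁ * q) hML))⁻¹).toSubring) :
    s34_ri_Hsm π (s34_ic_chart (s18_A1 A K₁) (s18_coord K₁ (s18_cz_t3 (N₁ * q) hML)))
        (s34_gi_V (s18_A1 A K₁) (N₁ * q))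
        ((s34_gi_V (s18_A1 A K₁) (N₁ * q)).comap
          (W : s18_F1 K₁ (N₁ * q) →+* s18_F1 K₁ (N₁ * q))) ∧
      s34_ri_Hsm π (s34_ic_chart (s18_A1 A K₁) (s18_coord K₁ (s18_cz_t3 (N₁ * q) hML))⁻¹)
        (s34_gi_V (s18_A1 A K₁) (N₁ * q))
        ((s34_gi_V (s18_A1 A K₁) (N₁ * q)).comap
          (W : s18_F1 K₁ (N₁ * q) →+* s18_F1 K₁ (N₁ * q))) :=
  s34_ri_model_t3 N₁ q A hA K₁ hqN hM hML hπ W hWc hWα hWW hcap0 hcapi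
    (s34_rx_hres N₁ q A hA K₁ hqN (Or.inr hM) hπ W hWc hWα hWβ)

end Model

end Fermat.Agent.S34
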