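import Mathlib
import Fermat.Agent.S34.InstDefs
import Fermat.Agent.S34.CapInst
import Fermat.Agent.S34.ExtInst
import Fermat.Agent.S34.RegExt

/-!
# S34, block (INST): the contract fact (cap)

`s34_cc_cap : s34_ct_cap` — in the concrete nodal model, `B ∩ ϖ V₁ ∩ ϖ V₂ = ϖ B` for both
charts: `s34_ci_hcap0_t2` … `s34_ci_hcapi_t3` (`CapInst.lean`: cap from "`V₁ ∩ V₂` is integral
over the Gauss ring of the lower level") with that integrality from `s34_ei_model_haupt`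
(`ExtInst.lean`: the two extensions of the Gauss valuation).
-/

set_option autoImplicit false
set_option synthInstance.maxHeartbeats 400000
set_option maxHeartbeats 4000000

open ModularCurve AlgebraicCurve

noncomputable section

namespace Fermat.Agent.S34

open Fermat.Agent.S18

/-- **Contract fact (cap).** -/
theorem s34_cc_cap : s34_ct_cap := by
  intro N₁ q _ _ _ hqN P hP K₁ _ _ _ π hπ tL htL W hW
  have : NeZero q := ⟨(Fact.out : q.Prime).ne_zero⟩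
  have : NumberField K₁ :=
    { to_charZero := inferInstance, to_finiteDimensional := inferInstance }
  obtain ⟨hWα, hWβ, hWW, -, -⟩ := hW
  obtain ⟨c, hc⟩ := s34_rx_ell_dvd q P hP K₁ hπ
  have hM : 2 ∣ N₁ ∨ 3 ∣ N₁ := by
    rcases htL with ⟨-, h2⟩ | ⟨-, h3⟩
    · exact Or.inl h2
    · exact Or.inr h3
  have ha0 := (s34_ei_model_haupt (K := K₁) (A₁ := s18_A1 P K₁) (N := N₁) (ℓ := q) hM hqN hπ c hc
    (W : s18_F1 K₁ (N₁ * q) ≃+* s18_F1 K₁ (N₁ * q)) (W.commutes _) hWα hWβ).1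
  have ha : ∀ y ∈ s34_md_V1 P K₁ (N₁ * q), y ∈ s34_md_V2 P K₁ (N₁ * q) W →
      ∃ Q : Polynomial (s34_gi_V (s18_A1 P K₁) N₁), Q.Monic ∧
        Q.eval₂ ((heckeAlphaBar K₁ N₁ q).toRingHom.comp
          (s34_gi_V (s18_A1 P K₁) N₁).subtype) y = 0 :=
    fun y hy1 hy2 => ha0 y hy1 hy2
  rcases htL with ⟨h, h2⟩ | ⟨h, h3⟩
  · obtain rfl : tL = s18_cz_t2 (N₁ * q) (dvd_mul_of_dvd_left h2 q) := Subtype.ext h
    exact ⟨s34_ci_hcap0_t2 N₁ q P hP K₁ hqN h2 _ π hπ _ _ ha,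
      s34_ci_hcapi_t2 N₁ q P hP K₁ hqN h2 _ π hπ _ _ ha⟩
  · obtain rfl : tL = s18_cz_t3 (N₁ * q) (dvd_mul_of_dvd_left h3 q) := Subtype.ext h
    exact ⟨s34_ci_hcap0_t3 N₁ q P hP K₁ hqN h3 _ π hπ _ _ ha,
      s34_ci_hcapi_t3 N₁ q P hP K₁ hqN h3 _ π hπ _ _ ha⟩

end Fermat.Agent.S34
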