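import Mathlib
import Fermat.Agent.S34.GaussInf
import Fermat.Agent.S55.IfaceFields
import Fermat.Agent.S18.Setup
import Fermat.Agent.S18.UnramMod

/-!
# S34 (NODE), leaf (GI), Galois side: coefficientwise automorphisms and the Gauss ring at infinity

Generic part: `σ : K ≃ₐ[ℚ] K` with `σ(A₁) = A₁` acts on `F = K · F_N` coefficientwise
(`arithmeticRingAut`) and
* `s34_gi_tau_mem` : preserves the Gauss ring `V = s34_gi_V A₁ N`;
* `s34_gi_tau_T1` : `σ x / x` and `x / σ x` are in `V` for every `x ≠ 0`;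
* `s34_gi_tau_T2` : if `σ` is trivial on the residue field of `A₁`, then `π⁻¹ (σ x - x) ∈ V` for
  every `x ∈ V` (`σ` is trivial on the residue field of the Gauss valuation).

Concrete part: `K = K₁ ⊆ Q̄` normal over `ℚ`, `A₁ = s18_A1 P K₁`, `σ = τ|K₁` for `τ` in the inertia
group of `P`; compatibility with `s18_baseIncl` and `arithmeticGalois`.
-/

set_option autoImplicit false
set_option linter.unusedSectionVars false
set_option synthInstance.maxHeartbeats 400000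

open ModularCurve

open scoped Pointwise

noncomputable section

namespace Fermat.Agent.S34

open Fermat.Agent.S18

section Generic

variable {K : Type*} [Field K] [Algebra ℚ K] {A₁ : ValuationSubring K} {N : ℕ}

/-- The restriction to `A₁` of an automorphism of `K` preserving `A₁`. -/
def s34_gi_resAut (σ : K ≃ₐ[ℚ] K) (hσ : ∀ a : K, a ∈ A₁ → σ a ∈ A₁) : A₁ →+* A₁ :=
  ((σ : K →+* K).comp A₁.subtype).codRestrict A₁.toSubring (fun a => hσ a a.2)

theorem s34_gi_resAut_coe (σ : K ≃ₐ[ℚ] K) (hσ : ∀ a : K, a ∈ A₁ → σ a ∈ A₁) (a : A₁) :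
    ((s34_gi_resAut σ hσ a : A₁) : K) = σ (a : K) := rfl

theorem s34_gi_resAut_comp (σ : K ≃ₐ[ℚ] K) (hσ : ∀ a : K, a ∈ A₁ → σ a ∈ A₁) :
    A₁.subtype.comp (s34_gi_resAut σ hσ) = (σ : K →+* K).comp A₁.subtype := rfl

/-- Coefficientwise `σ` on integral series. -/
theorem s34_gi_coeffMap_resAut (σ : K ≃ₐ[ℚ] K) (hσ : ∀ a : K, a ∈ A₁ → σ a ∈ A₁)
    (s : LaurentSeries A₁) :
    coeffMap A₁.subtype (coeffMap (s34_gi_resAut σ hσ) s) =
      coeffMap (σ : K →+* K) (coeffMap A₁.subtype s) := by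
  rw [coeffMap_coeffMap, coeffMap_coeffMap, s34_gi_resAut_comp]

/-- Coefficientwise `σ` preserves Gauss-primitivity. -/
theorem s34_gi_res_resAut_ne (σ : K ≃ₐ[ℚ] K) (hσ : ∀ a : K, a ∈ A₁ → σ a ∈ A₁)
    (s : LaurentSeries A₁) (hs : coeffMap (IsLocalRing.residue A₁) s ≠ 0) :
    coeffMap (IsLocalRing.residue A₁) (coeffMap (s34_gi_resAut σ hσ) s) ≠ 0 := by
  obtain ⟨n, hn⟩ : ∃ n : ℤ, IsLocalRing.residue A₁ (s.coeff n) ≠ 0 := by
    by_contra hcon
    push Not at hcon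
    apply hs
    ext n
    simpa using hcon n
  have hu : IsUnit (s.coeff n) := by
    by_contra hnu
    exact hn ((IsLocalRing.residue_eq_zero_iff _).mpr hnu)
  have hu' : IsUnit (s34_gi_resAut σ hσ (s.coeff n)) := hu.map _
  intro h0
  have h1 := congrArg (fun z : LaurentSeries (IsLocalRing.ResidueField A₁) => z.coeff n) h0
  simp only [coeffMap_coeff, HahnSeries.coeff_zero] at h1
  exact (IsLocalRing.mem_maximalIdeal _).mp ((IsLocalRing.residue_eq_zero_iff _).mp h1) hu'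

/-- **The coefficientwise action preserves the Gauss ring at infinity.** -/
theorem s34_gi_tau_mem (σ : K ≃ₐ[ℚ] K) (hσ : ∀ a : K, a ∈ A₁ → σ a ∈ A₁)
    {x : laurentBaseChange K (modularFunctionFieldFull N)} (hx : x ∈ s34_gi_V A₁ N) :
    arithmeticRingAut (modularFunctionFieldFull N) σ x ∈ s34_gi_V A₁ N := by
  obtain ⟨s, y, hs, h⟩ := s34_gi_mem_V.mp hx
  rw [s34_gi_mem_V]
  refine ⟨coeffMap (s34_gi_resAut σ hσ) s, coeffMap (s34_gi_resAut σ hσ) y,
    s34_gi_res_resAut_ne σ hσ s hs, ?_⟩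
  rw [s34_gi_coeffMap_resAut, s34_gi_coeffMap_resAut, coe_arithmeticRingAut_apply, ← map_mul, h]

variable [IsDiscreteValuationRing A₁] {π : A₁}

/-- `σ π = π * w` with `w` a unit of `A₁`. -/
theorem s34_gi_tau_pi (hπ : Irreducible π) (σ : K ≃ₐ[ℚ] K) (hσ : ∀ a : K, a ∈ A₁ → σ a ∈ A₁)
    (hσ' : ∀ a : K, a ∈ A₁ → σ.symm a ∈ A₁) :
    ∃ w : A₁ˣ, σ (π : K) = (π : K) * ((w : A₁) : K) := by
  -- `σ π` and `σ⁻¹ π` are non-units
  have h1 : ¬ IsUnit (s34_gi_resAut σ hσ π) := by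
    intro hu
    apply hπ.not_isUnit
    have h2 := hu.map (s34_gi_resAut σ.symm hσ')
    have e : s34_gi_resAut σ.symm hσ' (s34_gi_resAut σ hσ π) = π :=
      Subtype.ext (σ.symm_apply_apply _)
    rwa [e] at h2
  have h1' : ¬ IsUnit (s34_gi_resAut σ.symm hσ' π) := by
    intro hu
    apply hπ.not_isUnit
    have h2 := hu.map (s34_gi_resAut σ hσ)
    have e : s34_gi_resAut σ hσ (s34_gi_resAut σ.symm hσ' π) = π :=
      Subtype.ext (σ.apply_symm_apply _)
    rwa [e] at h2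
  obtain ⟨w, hw⟩ := s34_gi_res_dvd hπ _ ((IsLocalRing.residue_eq_zero_iff _).mpr h1)
  obtain ⟨w', hw'⟩ := s34_gi_res_dvd hπ _ ((IsLocalRing.residue_eq_zero_iff _).mpr h1')
  have h3 : π * (w * s34_gi_resAut σ hσ w') = π * 1 := by
    have e : s34_gi_resAut σ hσ (s34_gi_resAut σ.symm hσ' π) = π :=
      Subtype.ext (σ.apply_symm_apply _)
    rw [hw', map_mul, hw] at e
    rw [mul_one, ← mul_assoc]
    exact e
  have h4 : w * s34_gi_resAut σ hσ w' = 1 := mul_left_cancel₀ hπ.ne_zero h3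
  refine ⟨Units.mkOfMulEqOne w _ h4, ?_⟩
  have h5 : ((s34_gi_resAut σ hσ π : A₁) : K) = ((π * w : A₁) : K) := congrArg Subtype.val hw
  exact h5

/-- A unit of the Gauss ring stays a unit. -/
theorem s34_gi_tau_unit (σ : K ≃ₐ[ℚ] K) (hσ : ∀ a : K, a ∈ A₁ → σ a ∈ A₁)
    {u : laurentBaseChange K (modularFunctionFieldFull N)} (hu : u ∈ s34_gi_V A₁ N)
    (hu' : u⁻¹ ∈ s34_gi_V A₁ N) :
    arithmeticRingAut (modularFunctionFieldFull N) σ u ∈ s34_gi_V A₁ N ∧
      (arithmeticRingAut (modularFunctionFieldFull N) σ u)⁻¹ ∈ s34_gi_V A₁ N := by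
  refine ⟨s34_gi_tau_mem σ hσ hu, ?_⟩
  rw [← map_inv₀]
  exact s34_gi_tau_mem σ hσ hu'

/-- **(T1)** the coefficientwise action preserves the Gauss valuation at infinity. -/
theorem s34_gi_tau_T1 (hπ : Irreducible π) (σ : K ≃ₐ[ℚ] K) (hσ : ∀ a : K, a ∈ A₁ → σ a ∈ A₁)
    (hσ' : ∀ a : K, a ∈ A₁ → σ.symm a ∈ A₁)
    (x : laurentBaseChange K (modularFunctionFieldFull N)) (hx : x ≠ 0) :
    arithmeticRingAut (modularFunctionFieldFull N) σ x / x ∈ s34_gi_V A₁ N ∧
      x / arithmeticRingAut (modularFunctionFieldFull N) σ x ∈ s34_gi_V A₁ N := by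
  obtain ⟨j, u, hu, hu', rfl⟩ := (s34_gi_unif (N := N) hπ).decomp x hx
  obtain ⟨w, hw⟩ := s34_gi_tau_pi hπ σ hσ hσ'
  set ϖ := algebraMap K (laurentBaseChange K (modularFunctionFieldFull N)) (π : K) with hϖ
  have hϖ0 : ϖ ≠ 0 := s34_gi_pi_ne hπ
  have hu0 : u ≠ 0 := by
    rintro rfl
    simp at hx
  set ω := algebraMap K (laurentBaseChange K (modularFunctionFieldFull N)) ((w : A₁) : K)
    with hω
  have hωmem : ω ∈ s34_gi_V A₁ N := s34_gi_algebraMap_mem (w : A₁)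
  have hωinv : ω⁻¹ ∈ s34_gi_V A₁ N := by
    have e : ω⁻¹ = algebraMap K (laurentBaseChange K (modularFunctionFieldFull N))
        (((w⁻¹ : A₁ˣ) : A₁) : K) := by
      rw [hω, ← map_inv₀]
      congr 1
      have h1 : ((w : A₁) : K) * (((w⁻¹ : A₁ˣ) : A₁) : K) = 1 :=
        congrArg Subtype.val (Units.mul_inv w)
      exact inv_eq_of_mul_eq_one_right h1
    rw [e]
    exact s34_gi_algebraMap_mem _
  have hω0 : ω ≠ 0 := by
    rw [hω, Ne, map_eq_zero]
    intro h0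
    have h1 : ((w : A₁) : K) * (((w⁻¹ : A₁ˣ) : A₁) : K) = 1 :=
      congrArg Subtype.val (Units.mul_inv w)
    rw [h0, zero_mul] at h1
    exact zero_ne_one h1
  have hσϖ : arithmeticRingAut (modularFunctionFieldFull N) σ ϖ = ϖ * ω := by
    rw [hϖ, arithmeticRingAut_algebraMap, hw, map_mul]
  obtain ⟨hσu, hσu'⟩ := s34_gi_tau_unit σ hσ hu hu'
  have hσu0 : arithmeticRingAut (modularFunctionFieldFull N) σ u ≠ 0 := by
    rw [Ne, map_eq_zero_iff _ (arithmeticRingAut (modularFunctionFieldFull N) σ).injective]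
    exact hu0
  have hωz : ∀ k : ℤ, ω ^ k ∈ s34_gi_V A₁ N := by
    intro k
    rcases le_or_gt 0 k with hk | hk
    · obtain ⟨n, rfl⟩ := Int.eq_ofNat_of_zero_le hk
      rw [zpow_natCast]
      exact Subring.pow_mem _ hωmem n
    · obtain ⟨n, rfl⟩ : ∃ n : ℕ, k = -(n : ℤ) := ⟨(-k).toNat, by omega⟩
      rw [zpow_neg, zpow_natCast, ← inv_pow]
      exact Subring.pow_mem _ hωinv n
  have e1 : arithmeticRingAut (modularFunctionFieldFull N) σ (ϖ ^ j * u) =
      ϖ ^ j * ω ^ j * arithmeticRingAut (modularFunctionFieldFull N) σ u := by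
    rw [map_mul, map_zpow₀, hσϖ, mul_zpow]
  constructor
  · have e2 : arithmeticRingAut (modularFunctionFieldFull N) σ (ϖ ^ j * u) / (ϖ ^ j * u) =
        ω ^ j * arithmeticRingAut (modularFunctionFieldFull N) σ u * u⁻¹ := by
      rw [e1]
      have := zpow_ne_zero j hϖ0
      field_simp
    rw [e2]
    exact Subring.mul_mem _ (Subring.mul_mem _ (hωz j) hσu) hu'
  · have e2 : (ϖ ^ j * u) / arithmeticRingAut (modularFunctionFieldFull N) σ (ϖ ^ j * u) =
        ω ^ (-j) * u * (arithmeticRingAut (modularFunctionFieldFull N) σ u)⁻¹ := by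
      rw [e1, zpow_neg]
      have := zpow_ne_zero j hϖ0
      have := zpow_ne_zero j hω0
      field_simp
    rw [e2]
    exact Subring.mul_mem _ (Subring.mul_mem _ (hωz (-j)) hu) hσu'

/-- **(T2)** an automorphism acting trivially on the residue field of `A₁` acts trivially on the
residue field of the Gauss valuation at infinity. -/
theorem s34_gi_tau_T2 (hπ : Irreducible π) (σ : K ≃ₐ[ℚ] K) (hσ : ∀ a : K, a ∈ A₁ → σ a ∈ A₁)
    (hin : ∀ a : A₁, s34_gi_resAut σ hσ a - a ∈ IsLocalRing.maximalIdeal A₁)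
    (x : laurentBaseChange K (modularFunctionFieldFull N)) (hx : x ∈ s34_gi_V A₁ N) :
    (algebraMap K (laurentBaseChange K (modularFunctionFieldFull N)) (π : K))⁻¹ *
      (arithmeticRingAut (modularFunctionFieldFull N) σ x - x) ∈ s34_gi_V A₁ N := by
  obtain ⟨s, y, hs, h⟩ := s34_gi_mem_V.mp hx
  -- `σ z = z + π z₁` on integral series
  have hser : ∀ z : LaurentSeries A₁, ∃ z₁ : LaurentSeries A₁,
      coeffMap (s34_gi_resAut σ hσ) z = z + HahnSeries.C π * z₁ := by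
    intro z
    obtain ⟨z₁, hz₁⟩ := s18_exists_eq_C_mul_of_coeff π hπ.ne_zero
      (coeffMap (s34_gi_resAut σ hσ) z - z) (fun n => by
        have h1 := hin (z.coeff n)
        rw [hπ.maximalIdeal_eq, Ideal.mem_span_singleton] at h1
        obtain ⟨w, hw⟩ := h1
        exact ⟨w, by rw [HahnSeries.coeff_sub, coeffMap_coeff, hw]⟩)
    exact ⟨z₁, by rw [← hz₁]; ring⟩
  obtain ⟨s₁, hs₁⟩ := hser s
  obtain ⟨y₁, hy₁⟩ := hser y
  rw [s34_gi_pi_inv_mul_mem_iff hπ]
  refine ⟨s * coeffMap (s34_gi_resAut σ hσ) s, s * y₁ - s₁ * y, ?_, ?_⟩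
  · rw [map_mul]
    exact mul_ne_zero hs (s34_gi_res_resAut_ne σ hσ s hs)
  · have h' : coeffMap A₁.subtype (coeffMap (s34_gi_resAut σ hσ) s) *
        coeffMap (σ : K →+* K) (x : LaurentSeries K) =
        coeffMap A₁.subtype (coeffMap (s34_gi_resAut σ hσ) y) := by
      rw [s34_gi_coeffMap_resAut, s34_gi_coeffMap_resAut, ← map_mul, h]
    have hcoe : ((arithmeticRingAut (modularFunctionFieldFull N) σ x - x :
        laurentBaseChange K (modularFunctionFieldFull N)) : LaurentSeries K) =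
        coeffMap (σ : K →+* K) (x : LaurentSeries K) - (x : LaurentSeries K) := rfl
    rw [hcoe]
    calc coeffMap A₁.subtype (s * coeffMap (s34_gi_resAut σ hσ) s) *
          (coeffMap (σ : K →+* K) (x : LaurentSeries K) - (x : LaurentSeries K))
        = coeffMap A₁.subtype s * (coeffMap A₁.subtype (coeffMap (s34_gi_resAut σ hσ) s) *
            coeffMap (σ : K →+* K) (x : LaurentSeries K)) -
          coeffMap A₁.subtype (coeffMap (s34_gi_resAut σ hσ) s) *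
            (coeffMap A₁.subtype s * (x : LaurentSeries K)) := by
          rw [map_mul]; ring
      _ = coeffMap A₁.subtype (s * coeffMap (s34_gi_resAut σ hσ) y -
            coeffMap (s34_gi_resAut σ hσ) s * y) := by
          rw [h', h, map_sub, map_mul, map_mul]
      _ = coeffMap A₁.subtype (HahnSeries.C π * (s * y₁ - s₁ * y)) := by
          rw [hs₁, hy₁]
          congr 1
          ring

end Generic

section Concrete

local notation "Qb" => AlgebraicClosure ℚ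

variable (P : ValuationSubring Qb) (K₁ : IntermediateField ℚ Qb) [Normal ℚ K₁] (N : ℕ) [NeZero N]

/-- The restriction to `K₁` of an element of the decomposition group preserves `A₁ = P ∩ K₁`. -/
theorem s34_gi_restrict_mem (τ : Qb ≃ₐ[ℚ] Qb) (hτ : τ • P = P) (a : K₁)
    (ha : a ∈ s18_A1 P K₁) : τ.restrictNormal K₁ a ∈ s18_A1 P K₁ := by
  show algebraMap K₁ Qb (τ.restrictNormal K₁ a) ∈ P
  rw [AlgEquiv.restrictNormal_commutes]
  have h1 : τ • (algebraMap K₁ Qb a) ∈ τ • P :=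
    ValuationSubring.smul_mem_pointwise_smul τ _ P ha
  rw [hτ] at h1
  exact h1

theorem s34_gi_restrict_symm (τ : Qb ≃ₐ[ℚ] Qb) :
    (τ.restrictNormal K₁).symm = τ.symm.restrictNormal K₁ := by
  apply AlgEquiv.ext
  intro a
  apply (τ.restrictNormal K₁).injective
  rw [AlgEquiv.apply_symm_apply]
  apply (algebraMap K₁ Qb).injective
  rw [AlgEquiv.restrictNormal_commutes, AlgEquiv.restrictNormal_commutes,
    AlgEquiv.apply_symm_apply]

theorem s34_gi_restrict_symm_mem (τ : Qb ≃ₐ[ℚ] Qb) (hτ : τ • P = P) (a : K₁)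
    (ha : a ∈ s18_A1 P K₁) : (τ.restrictNormal K₁).symm a ∈ s18_A1 P K₁ := by
  rw [s34_gi_restrict_symm]
  refine s34_gi_restrict_mem P K₁ τ.symm ?_ a ha
  have h1 : τ⁻¹ • (τ • P) = τ⁻¹ • P := by rw [hτ]
  rw [inv_smul_smul] at h1
  exact h1.symm

/-- The restriction of an inertia element acts trivially on the residue field of `A₁`. -/
theorem s34_gi_restrict_inertia (τ : Qb ≃ₐ[ℚ] Qb) (hτ : τ ∈ P.inertiaSubgroupIn ℚ)
    (a : s18_A1 P K₁) :
    s34_gi_resAut (A₁ := s18_A1 P K₁) (τ.restrictNormal K₁)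
        (s34_gi_restrict_mem P K₁ τ ((Fermat.Agent.S55.pt_mem_inertia_iff P τ).mp hτ).1) a - a ∈
      IsLocalRing.maximalIdeal (s18_A1 P K₁) := by
  obtain ⟨h1, h2⟩ := (Fermat.Agent.S55.pt_mem_inertia_iff P τ).mp hτ
  rw [IsLocalRing.mem_maximalIdeal, mem_nonunits_iff]
  intro hu
  obtain ⟨v, hv⟩ := hu.exists_right_inv
  have h3 := h2 (algebraMap K₁ Qb (a : K₁)) a.2
  have h4 : algebraMap K₁ Qb ((s34_gi_resAut (A₁ := s18_A1 P K₁) (τ.restrictNormal K₁)
      (s34_gi_restrict_mem P K₁ τ h1) a - a : s18_A1 P K₁) : K₁) =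
      τ (algebraMap K₁ Qb (a : K₁)) - algebraMap K₁ Qb (a : K₁) := by
    rw [← AlgEquiv.restrictNormal_commutes, ← map_sub]
    rfl
  have h5 : algebraMap K₁ Qb (((s34_gi_resAut (A₁ := s18_A1 P K₁) (τ.restrictNormal K₁)
      (s34_gi_restrict_mem P K₁ τ h1) a - a : s18_A1 P K₁) : K₁)) *
      algebraMap K₁ Qb ((v : s18_A1 P K₁) : K₁) = 1 := by
    rw [← map_mul]
    have := congrArg (fun z : s18_A1 P K₁ => algebraMap K₁ Qb (z : K₁)) hv
    simpa using this
  rw [h4] at h5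
  have hvP : algebraMap K₁ Qb ((v : s18_A1 P K₁) : K₁) ∈ P := v.2
  have h6 : (τ (algebraMap K₁ Qb (a : K₁)) - algebraMap K₁ Qb (a : K₁))⁻¹ ∈ P := by
    rw [inv_eq_of_mul_eq_one_right h5]
    exact hvP
  rw [ValuationSubring.mem_nonunits_iff_exists_mem_maximalIdeal] at h3
  obtain ⟨hmem, hmax⟩ := h3
  apply (IsLocalRing.mem_maximalIdeal _).mp hmax
  refine IsUnit.of_mul_eq_one ⟨_, h6⟩ (Subtype.ext ?_)
  show (τ (algebraMap K₁ Qb (a : K₁)) - algebraMap K₁ Qb (a : K₁)) *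
    (τ (algebraMap K₁ Qb (a : K₁)) - algebraMap K₁ Qb (a : K₁))⁻¹ = 1
  apply mul_inv_cancel₀
  intro h0
  rw [h0, zero_mul] at h5
  exact zero_ne_one h5

/-- The coefficientwise action of `τ|K₁` on `K₁ · F_N`. -/
def s34_gi_tau (τ : Qb ≃ₐ[ℚ] Qb) : s18_F1 K₁ N ≃+* s18_F1 K₁ N :=
  arithmeticRingAut (modularFunctionFieldFull N) (τ.restrictNormal K₁)

/-- Compatibility with the extension of constants to `Q̄`. -/
theorem s34_gi_baseIncl_tau (τ : Qb ≃ₐ[ℚ] Qb) (x : s18_F1 K₁ N) :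
    s18_baseIncl K₁ N (s34_gi_tau K₁ N τ x) =
      arithmeticGalois (modularFunctionFieldFull N) τ • s18_baseIncl K₁ N x := by
  apply Subtype.ext
  rw [coe_arithmeticGalois_smul, s18_baseIncl_coe, s18_baseIncl_coe]
  show coeffMap (algebraMap K₁ Qb) (coeffMap ((τ.restrictNormal K₁ : K₁ ≃ₐ[ℚ] K₁) : K₁ →+* K₁)
    (x : LaurentSeries K₁)) = _
  rw [coeffMap_coeffMap, coeffMap_coeffMap]
  apply coeffMap_congr
  ext a
  exact AlgEquiv.restrictNormal_commutes τ K₁ a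

variable [IsDiscreteValuationRing (s18_A1 P K₁)] {π : s18_A1 P K₁}

/-- **(T1) for inertia (indeed decomposition) elements, at the Gauss valuation at infinity.** -/
theorem s34_gi_T1 (hπ : Irreducible π) (τ : Qb ≃ₐ[ℚ] Qb) (hτ : τ • P = P)
    (x : s18_F1 K₁ N) (hx : x ≠ 0) :
    s34_gi_tau K₁ N τ x / x ∈ s34_gi_V (s18_A1 P K₁) N ∧
      x / s34_gi_tau K₁ N τ x ∈ s34_gi_V (s18_A1 P K₁) N :=
  s34_gi_tau_T1 hπ (τ.restrictNormal K₁) (s34_gi_restrict_mem P K₁ τ hτ)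
    (s34_gi_restrict_symm_mem P K₁ τ hτ) x hx

/-- The coefficientwise action of a decomposition element preserves the Gauss ring. -/
theorem s34_gi_tau_mem_V (τ : Qb ≃ₐ[ℚ] Qb) (hτ : τ • P = P)
    {x : s18_F1 K₁ N} (hx : x ∈ s34_gi_V (s18_A1 P K₁) N) :
    s34_gi_tau K₁ N τ x ∈ s34_gi_V (s18_A1 P K₁) N :=
  s34_gi_tau_mem (τ.restrictNormal K₁) (s34_gi_restrict_mem P K₁ τ hτ) hx

/-- **(T2) for inertia elements, at the Gauss valuation at infinity.** -/
theorem s34_gi_T2 (hπ : Irreducible π) (τ : Qb ≃ₐ[ℚ] Qb) (hτ : τ ∈ P.inertiaSubgroupIn ℚ)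
    (x : s18_F1 K₁ N) (hx : x ∈ s34_gi_V (s18_A1 P K₁) N) :
    (algebraMap K₁ (s18_F1 K₁ N) (π : K₁))⁻¹ * (s34_gi_tau K₁ N τ x - x) ∈
      s34_gi_V (s18_A1 P K₁) N :=
  s34_gi_tau_T2 hπ (τ.restrictNormal K₁)
    (s34_gi_restrict_mem P K₁ τ ((Fermat.Agent.S55.pt_mem_inertia_iff P τ).mp hτ).1)
    (s34_gi_restrict_inertia P K₁ τ hτ) x hx

end Concrete

end Fermat.Agent.S34
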