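import Fermat.Agent.S18.ChAlg
import Fermat.Agent.S18.UnramMod
import Fermat.Agent.S18.Setup
import Fermat.Agent.S34.IcChart
import Fermat.Agent.S34.GaussTau

/-!
# S34 (NODE), leaf (TAU): the coefficientwise Galois action on the model

Generic part.  `K` a field of characteristic zero, `A₁` a valuation subring of `K`,
`F = K · F(N) ⊆ K((q))` with its `A₁`-algebra structure `s18_algebraAF`, `σ : K ≃ₐ[ℚ] K` with
`σ A₁ ⊆ A₁` (and `σ⁻¹ A₁ ⊆ A₁`), `τ1 := arithmeticRingAut (modularFunctionFieldFull N) σ`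
(the coefficientwise action of `σ` on `F`).

* `s34_tm_coord`, `s34_tm_coord_inv` : `τ1` fixes rational functions (`s18_coord K t`);
* `s34_tm_algebraMap` : `τ1 (algebraMap a) = algebraMap (σ a)`; `s34_tm_hτA` (shape of
  `s34_tau_hdiv`);
* `s34_tm_hτπ`, `s34_tm_hτϖ` : `τ1` maps a uniformizer to a unit multiple of itself (shapes of
  `s34_tau_hdiv` and of `s34_node_of_G` / `s34_hnode_of_G`);
* `s34_tm_chart` : the integral-closure charts `s34_ic_chart A₁ t'` of a `τ1`-fixed coordinate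
  are `τ1`-stable.

Concrete part.  `K = K₁ ⊆ Q̄` normal over `ℚ`, `A₁ = A ∩ K₁`, `τ` in the decomposition group of
`A`, `σ = τ|K₁`:

* `s34_tm_restrict_mem`, `s34_tm_restrict_symm_mem` : `σ` and `σ⁻¹` preserve `A₁`;
* `s34_tm_baseIncl` : extension of constants intertwines `τ1` with the arithmetic Galois action
  of `τ` on `Q̄ · F(N)`.

Model part (the shapes of `s34_pow_of_model`, for `τ₁ := s34_gi_tau K₁ L τ` of `GaussTau.lean`,
which is the same term as `τ1` above, and `τ • A = A`):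

* `s34_tm_m_hτ₁`, `s34_tm_m_hτB0`, `s34_tm_m_hτBi`, `s34_tm_m_hτπ` and the package
  `s34_tm_model`; `s34_tm_model_inertia` for `τ` in the inertia group.
-/

set_option autoImplicit false
set_option linter.unusedSectionVars false
set_option synthInstance.maxHeartbeats 400000

open ModularCurve

open scoped Pointwise

noncomputable section

namespace Fermat.Agent.S34

open Fermat.Agent.S18

section Generic

variable {N : ℕ} {K : Type*} [Field K] [Algebra ℚ K] {A₁ : ValuationSubring K}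

local notation "FK" => laurentBaseChange K (modularFunctionFieldFull N)

/-- The coefficientwise action fixes rational functions. -/
theorem s34_tm_coord (σ : K ≃ₐ[ℚ] K) (t : modularFunctionFieldFull N) :
    arithmeticRingAut (modularFunctionFieldFull N) σ (s18_coord K t) = s18_coord K t := by
  apply Subtype.ext
  show coeffMap (σ : K →+* K) (coeffEmb K (t : LaurentSeries ℚ)) = coeffEmb K (t : LaurentSeries ℚ)
  exact coeffMap_coeffEmb σ _

theorem s34_tm_coord_inv (σ : K ≃ₐ[ℚ] K) (t : modularFunctionFieldFull N) :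
    arithmeticRingAut (modularFunctionFieldFull N) σ (s18_coord K t)⁻¹ = (s18_coord K t)⁻¹ := by
  rw [map_inv₀, s34_tm_coord]

/-- The coefficientwise action on constants of `A₁`. -/
theorem s34_tm_algebraMap (σ : K ≃ₐ[ℚ] K) (hσ : ∀ a ∈ A₁, σ a ∈ A₁) (a : A₁) :
    arithmeticRingAut (modularFunctionFieldFull N) σ (algebraMap A₁ FK a) =
      algebraMap A₁ FK ⟨σ a, hσ a a.2⟩ :=
  arithmeticRingAut_algebraMap (modularFunctionFieldFull N) σ (a : K)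

/-- `hτA` of `s34_tau_hdiv`. -/
theorem s34_tm_hτA (σ : K ≃ₐ[ℚ] K) (hσ : ∀ a ∈ A₁, σ a ∈ A₁) (x : A₁) :
    ∃ y : A₁, arithmeticRingAut (modularFunctionFieldFull N) σ (algebraMap A₁ FK x) =
      algebraMap A₁ FK y :=
  ⟨_, s34_tm_algebraMap σ hσ x⟩

/-- The ring automorphism of `A₁` induced by `σ`. -/
def s34_tm_resEquiv (σ : K ≃ₐ[ℚ] K) (hσ : ∀ a ∈ A₁, σ a ∈ A₁)
    (hσ' : ∀ a ∈ A₁, σ.symm a ∈ A₁) : A₁ ≃+* A₁ where
  toFun a := ⟨σ a, hσ a a.2⟩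
  invFun a := ⟨σ.symm a, hσ' a a.2⟩
  left_inv a := Subtype.ext (σ.symm_apply_apply a)
  right_inv a := Subtype.ext (σ.apply_symm_apply a)
  map_mul' a b := Subtype.ext (map_mul σ (a : K) (b : K))
  map_add' a b := Subtype.ext (map_add σ (a : K) (b : K))

theorem s34_tm_resEquiv_coe (σ : K ≃ₐ[ℚ] K) (hσ : ∀ a ∈ A₁, σ a ∈ A₁)
    (hσ' : ∀ a ∈ A₁, σ.symm a ∈ A₁) (a : A₁) :
    ((s34_tm_resEquiv σ hσ hσ' a : A₁) : K) = σ a := rfl

/-- `σ` maps a uniformizer to a unit multiple of itself. -/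
theorem s34_tm_unif [IsDiscreteValuationRing A₁] (σ : K ≃ₐ[ℚ] K) (hσ : ∀ a ∈ A₁, σ a ∈ A₁)
    (hσ' : ∀ a ∈ A₁, σ.symm a ∈ A₁) {π : A₁} (hπ : Irreducible π) :
    ∃ u : A₁ˣ, s34_tm_resEquiv σ hσ hσ' π = π * u := by
  have h1 : Irreducible (s34_tm_resEquiv σ hσ hσ' π) :=
    (MulEquiv.irreducible_iff (s34_tm_resEquiv σ hσ hσ')).mpr hπ
  obtain ⟨u, hu⟩ := IsDiscreteValuationRing.associated_of_irreducible A₁ hπ h1
  exact ⟨u, hu.symm⟩

/-- `hτπ` of `s34_tau_hdiv`. -/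
theorem s34_tm_hτπ [IsDiscreteValuationRing A₁] (σ : K ≃ₐ[ℚ] K) (hσ : ∀ a ∈ A₁, σ a ∈ A₁)
    (hσ' : ∀ a ∈ A₁, σ.symm a ∈ A₁) {π : A₁} (hπ : Irreducible π) :
    ∃ c : A₁, arithmeticRingAut (modularFunctionFieldFull N) σ
      (algebraMap A₁ FK c * algebraMap A₁ FK π) = algebraMap A₁ FK π := by
  obtain ⟨u, hu⟩ := s34_tm_unif σ hσ hσ' hπ
  -- `σ π = π u`, so `σ (σ⁻¹ (u⁻¹) π) = u⁻¹ π u = π`
  refine ⟨(s34_tm_resEquiv σ hσ hσ').symm ((u⁻¹ : A₁ˣ) : A₁), ?_⟩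
  have key : s34_tm_resEquiv σ hσ hσ'
      ((s34_tm_resEquiv σ hσ hσ').symm ((u⁻¹ : A₁ˣ) : A₁) * π) = π := by
    rw [map_mul, RingEquiv.apply_symm_apply, hu, mul_comm π, ← mul_assoc, Units.inv_mul, one_mul]
  rw [← map_mul, s34_tm_algebraMap σ hσ]
  exact congrArg (algebraMap A₁ FK) key

/-- `hτϖ` of `s34_node_of_G` / `s34_hnode_of_G`, for any subring containing the constants. -/
theorem s34_tm_hτϖ [IsDiscreteValuationRing A₁] (σ : K ≃ₐ[ℚ] K) (hσ : ∀ a ∈ A₁, σ a ∈ A₁)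
    (hσ' : ∀ a ∈ A₁, σ.symm a ∈ A₁) {π : A₁} (hπ : Irreducible π)
    (B : Subring FK) (hB : ∀ a : A₁, algebraMap A₁ FK a ∈ B) :
    ∃ c ∈ B, c⁻¹ ∈ B ∧ arithmeticRingAut (modularFunctionFieldFull N) σ (algebraMap A₁ FK π) =
      c * algebraMap A₁ FK π := by
  obtain ⟨u, hu⟩ := s34_tm_unif σ hσ hσ' hπ
  refine ⟨algebraMap A₁ FK (u : A₁), hB _, ?_, ?_⟩
  · have h1 : (algebraMap A₁ FK (u : A₁))⁻¹ = algebraMap A₁ FK ((u⁻¹ : A₁ˣ) : A₁) := by
      apply inv_eq_of_mul_eq_one_right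
      rw [← map_mul, Units.mul_inv, map_one]
    rw [h1]
    exact hB _
  · have key : s34_tm_resEquiv σ hσ hσ' π = (u : A₁) * π := by rw [hu, mul_comm]
    rw [s34_tm_algebraMap σ hσ, ← map_mul]
    exact congrArg (algebraMap A₁ FK) key

/-- The integral-closure chart of a `τ1`-fixed coordinate is `τ1`-stable. -/
theorem s34_tm_chart (σ : K ≃ₐ[ℚ] K) (hσ : ∀ a ∈ A₁, σ a ∈ A₁) (t' : FK)
    (ht' : arithmeticRingAut (modularFunctionFieldFull N) σ t' = t') {x : FK}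
    (hx : x ∈ s34_ic_chart A₁ t') :
    arithmeticRingAut (modularFunctionFieldFull N) σ x ∈ s34_ic_chart A₁ t' := by
  refine s34_ic_map_mem
    ((arithmeticRingAut (modularFunctionFieldFull N) σ : FK ≃+* FK) : FK →+* FK) (fun a => ?_) ?_ hx
  · show arithmeticRingAut (modularFunctionFieldFull N) σ (algebraMap A₁ FK a) ∈ s34_ic_chart A₁ t'
    rw [s34_tm_algebraMap σ hσ a]
    exact Subalgebra.algebraMap_mem _ _
  · show arithmeticRingAut (modularFunctionFieldFull N) σ t' ∈ s34_ic_chart A₁ t'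
    rw [ht']
    exact s34_ic_t_mem t'

end Generic

section Concrete

local notation "Qb" => AlgebraicClosure ℚ

variable (A : ValuationSubring Qb) (K₁ : IntermediateField ℚ Qb) [Normal ℚ K₁]

/-- An element of the decomposition group of `A` maps `A` into itself. -/
theorem s34_tm_dec_mem (τ : Qb ≃ₐ[ℚ] Qb) (hτ : τ ∈ A.decompositionSubgroup ℚ) (x : Qb)
    (hx : x ∈ A) : τ x ∈ A :=
  (MulSemiringAction.toRingHom (A.decompositionSubgroup ℚ) A ⟨τ, hτ⟩ ⟨x, hx⟩).2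

/-- `τ|K₁` preserves `A₁ = A ∩ K₁`. -/
theorem s34_tm_restrict_mem (τ : Qb ≃ₐ[ℚ] Qb) (hτ : τ ∈ A.decompositionSubgroup ℚ) (a : K₁)
    (ha : a ∈ s18_A1 A K₁) : τ.restrictNormal K₁ a ∈ s18_A1 A K₁ := by
  rw [ValuationSubring.mem_comap] at ha ⊢
  rw [AlgEquiv.restrictNormal_commutes]
  exact s34_tm_dec_mem A τ hτ _ ha

/-- `(τ|K₁)⁻¹` preserves `A₁ = A ∩ K₁`. -/
theorem s34_tm_restrict_symm_mem (τ : Qb ≃ₐ[ℚ] Qb) (hτ : τ ∈ A.decompositionSubgroup ℚ) (a : K₁)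
    (ha : a ∈ s18_A1 A K₁) : (τ.restrictNormal K₁).symm a ∈ s18_A1 A K₁ := by
  have hinv : τ⁻¹ ∈ A.decompositionSubgroup ℚ := inv_mem hτ
  have h1 := s34_tm_restrict_mem A K₁ τ⁻¹ hinv a ha
  have h2 : (τ.restrictNormal K₁).symm a = τ⁻¹.restrictNormal K₁ a := by
    apply (τ.restrictNormal K₁).injective
    rw [AlgEquiv.apply_symm_apply]
    apply (algebraMap K₁ Qb).injective
    rw [AlgEquiv.restrictNormal_commutes, AlgEquiv.restrictNormal_commutes]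
    show algebraMap K₁ Qb a = τ (τ⁻¹ (algebraMap K₁ Qb a))
    exact (AlgEquiv.apply_symm_apply τ _).symm
  rw [h2]
  exact h1

/-- Extension of constants intertwines the coefficientwise action of `τ|K₁` with the arithmetic
Galois action of `τ`. -/
theorem s34_tm_baseIncl (N : ℕ) [NeZero N] (τ : Qb ≃ₐ[ℚ] Qb)
    (x : laurentBaseChange K₁ (modularFunctionFieldFull N)) :
    s18_baseIncl K₁ N (arithmeticRingAut (modularFunctionFieldFull N) (τ.restrictNormal K₁) x) =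
      arithmeticGalois (modularFunctionFieldFull N) τ • s18_baseIncl K₁ N x := by
  apply Subtype.ext
  rw [coe_arithmeticGalois_smul, s18_baseIncl_coe, s18_baseIncl_coe, coe_arithmeticRingAut_apply,
    coeffMap_coeffMap, coeffMap_coeffMap]
  refine coeffMap_congr (RingHom.ext fun a => ?_) _
  show algebraMap K₁ Qb (τ.restrictNormal K₁ a) = τ (algebraMap K₁ Qb a)
  exact AlgEquiv.restrictNormal_commutes τ K₁ a

/-- Inertia lies in the decomposition group. -/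
theorem s34_tm_dec_of_inertia (τ : Qb ≃ₐ[ℚ] Qb) (hτ : τ ∈ A.inertiaSubgroupIn ℚ) :
    τ ∈ A.decompositionSubgroup ℚ := by
  obtain ⟨τ', -, rfl⟩ := Subgroup.mem_map.mp hτ
  exact τ'.2

section Pack

variable {A K₁}
variable {N : ℕ} (τ : Qb ≃ₐ[ℚ] Qb) (hτ : τ ∈ A.decompositionSubgroup ℚ)

local notation "F1" => laurentBaseChange K₁ (modularFunctionFieldFull N)
local notation "τ1" => arithmeticRingAut (modularFunctionFieldFull N) (τ.restrictNormal K₁)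

include hτ

/-- `hτA` of `s34_tau_hdiv`, concrete. -/
theorem s34_tm_c_hτA (x : s18_A1 A K₁) :
    ∃ y : s18_A1 A K₁, τ1 (algebraMap (s18_A1 A K₁) F1 x) = algebraMap (s18_A1 A K₁) F1 y :=
  s34_tm_hτA (τ.restrictNormal K₁) (s34_tm_restrict_mem A K₁ τ hτ) x

/-- `hτπ` of `s34_tau_hdiv`, concrete. -/
theorem s34_tm_c_hτπ [IsDiscreteValuationRing (s18_A1 A K₁)] {π : s18_A1 A K₁}
    (hπ : Irreducible π) :
    ∃ c : s18_A1 A K₁, τ1 (algebraMap (s18_A1 A K₁) F1 c * algebraMap (s18_A1 A K₁) F1 π) =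
      algebraMap (s18_A1 A K₁) F1 π :=
  s34_tm_hτπ (τ.restrictNormal K₁) (s34_tm_restrict_mem A K₁ τ hτ)
    (s34_tm_restrict_symm_mem A K₁ τ hτ) hπ

/-- `hτϖ` of `s34_node_of_G` / `s34_hnode_of_G`, concrete. -/
theorem s34_tm_c_hτϖ [IsDiscreteValuationRing (s18_A1 A K₁)] {π : s18_A1 A K₁}
    (hπ : Irreducible π) (B : Subring F1) (hB : ∀ a : s18_A1 A K₁,
      algebraMap (s18_A1 A K₁) F1 a ∈ B) :
    ∃ c ∈ B, c⁻¹ ∈ B ∧ τ1 (algebraMap (s18_A1 A K₁) F1 π) =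
      c * algebraMap (s18_A1 A K₁) F1 π :=
  s34_tm_hτϖ (τ.restrictNormal K₁) (s34_tm_restrict_mem A K₁ τ hτ)
    (s34_tm_restrict_symm_mem A K₁ τ hτ) hπ B hB

/-- `hτB` for the chart of a rational coordinate. -/
theorem s34_tm_c_chart (t : modularFunctionFieldFull N) {x : F1}
    (hx : x ∈ s34_ic_chart (s18_A1 A K₁) (s18_coord K₁ t)) :
    τ1 x ∈ s34_ic_chart (s18_A1 A K₁) (s18_coord K₁ t) :=
  s34_tm_chart (τ.restrictNormal K₁) (s34_tm_restrict_mem A K₁ τ hτ) _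
    (s34_tm_coord _ t) hx

/-- `hτB` for the chart of the inverse of a rational coordinate. -/
theorem s34_tm_c_chart_inv (t : modularFunctionFieldFull N) {x : F1}
    (hx : x ∈ s34_ic_chart (s18_A1 A K₁) (s18_coord K₁ t)⁻¹) :
    τ1 x ∈ s34_ic_chart (s18_A1 A K₁) (s18_coord K₁ t)⁻¹ :=
  s34_tm_chart (τ.restrictNormal K₁) (s34_tm_restrict_mem A K₁ τ hτ) _
    (s34_tm_coord_inv _ t) hx

end Pack

end Concrete

section Model

local notation "Qb" => AlgebraicClosure ℚ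

variable (A : ValuationSubring Qb) (K₁ : IntermediateField ℚ Qb) [Normal ℚ K₁] (L : ℕ) [NeZero L]

/-- `τ • A = A` is membership in the decomposition group. -/
theorem s34_tm_dec_of_smul (τ : Qb ≃ₐ[ℚ] Qb) (hτ : τ • A = A) :
    τ ∈ A.decompositionSubgroup ℚ :=
  MulAction.mem_stabilizer_iff.mpr hτ

/-- `hτ₁` of `s34_pow_of_model`. -/
theorem s34_tm_m_hτ₁ (τ : Qb ≃ₐ[ℚ] Qb) (x : s18_F1 K₁ L) :
    s18_baseIncl K₁ L (s34_gi_tau K₁ L τ x) =
      arithmeticGalois (modularFunctionFieldFull L) τ • s18_baseIncl K₁ L x :=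
  s34_gi_baseIncl_tau K₁ L τ x

/-- `s34_gi_tau` fixes rational coordinates. -/
theorem s34_tm_m_coord (τ : Qb ≃ₐ[ℚ] Qb) (t : modularFunctionFieldFull L) :
    s34_gi_tau K₁ L τ (s18_coord K₁ t) = s18_coord K₁ t :=
  s34_tm_coord (τ.restrictNormal K₁) t

/-- `hτB0` of `s34_pow_of_model` for the chart of a rational coordinate. -/
theorem s34_tm_m_hτB0 (τ : Qb ≃ₐ[ℚ] Qb) (hτ : τ • A = A) (t : modularFunctionFieldFull L) :
    ∀ x ∈ (s34_ic_chart (s18_A1 A K₁) (s18_coord K₁ t)).toSubring,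
      s34_gi_tau K₁ L τ x ∈ (s34_ic_chart (s18_A1 A K₁) (s18_coord K₁ t)).toSubring :=
  fun _ hx => s34_tm_c_chart τ (s34_tm_dec_of_smul A τ hτ) t hx

/-- `hτBi` of `s34_pow_of_model` for the chart of the inverse of a rational coordinate. -/
theorem s34_tm_m_hτBi (τ : Qb ≃ₐ[ℚ] Qb) (hτ : τ • A = A) (t : modularFunctionFieldFull L) :
    ∀ x ∈ (s34_ic_chart (s18_A1 A K₁) (s18_coord K₁ t)⁻¹).toSubring,
      s34_gi_tau K₁ L τ x ∈ (s34_ic_chart (s18_A1 A K₁) (s18_coord K₁ t)⁻¹).toSubring :=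
  fun _ hx => s34_tm_c_chart_inv τ (s34_tm_dec_of_smul A τ hτ) t hx

variable [IsDiscreteValuationRing (s18_A1 A K₁)]

/-- `hτπ` of `s34_pow_of_model`. -/
theorem s34_tm_m_hτπ {π : s18_A1 A K₁} (hπ : Irreducible π) (τ : Qb ≃ₐ[ℚ] Qb) (hτ : τ • A = A) :
    ∃ c : s18_A1 A K₁, IsUnit c ∧
      s34_gi_tau K₁ L τ (algebraMap (s18_A1 A K₁) (s18_F1 K₁ L) π) =
        algebraMap (s18_A1 A K₁) (s18_F1 K₁ L) c * algebraMap (s18_A1 A K₁) (s18_F1 K₁ L) π := by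
  have hd := s34_tm_dec_of_smul A τ hτ
  obtain ⟨u, hu⟩ := s34_tm_unif (τ.restrictNormal K₁) (s34_tm_restrict_mem A K₁ τ hd)
    (s34_tm_restrict_symm_mem A K₁ τ hd) hπ
  refine ⟨(u : s18_A1 A K₁), u.isUnit, ?_⟩
  have key : s34_tm_resEquiv (τ.restrictNormal K₁) (s34_tm_restrict_mem A K₁ τ hd)
      (s34_tm_restrict_symm_mem A K₁ τ hd) π = (u : s18_A1 A K₁) * π := by rw [hu, mul_comm]
  rw [← map_mul]
  show arithmeticRingAut (modularFunctionFieldFull L) (τ.restrictNormal K₁)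
    (algebraMap (s18_A1 A K₁) (s18_F1 K₁ L) π) = _
  rw [s34_tm_algebraMap (τ.restrictNormal K₁) (s34_tm_restrict_mem A K₁ τ hd)]
  exact congrArg (algebraMap (s18_A1 A K₁) (s18_F1 K₁ L)) key

/-- **(TAU), packaged**: the hypotheses `hτ₁`, `hτB0`, `hτBi`, `hτπ` of `s34_pow_of_model` for
`τ₁ := s34_gi_tau K₁ L τ`, `B0 := s34_ic_chart A₁ t`, `Binf := s34_ic_chart A₁ t⁻¹` with
`t = s18_coord K₁ t₀` a rational coordinate, and `τ` in the decomposition group of `A`. -/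
theorem s34_tm_model {π : s18_A1 A K₁} (hπ : Irreducible π) (τ : Qb ≃ₐ[ℚ] Qb) (hτ : τ • A = A)
    (t : modularFunctionFieldFull L) :
    (∀ x : s18_F1 K₁ L, s18_baseIncl K₁ L (s34_gi_tau K₁ L τ x) =
      arithmeticGalois (modularFunctionFieldFull L) τ • s18_baseIncl K₁ L x) ∧
    (∀ x ∈ (s34_ic_chart (s18_A1 A K₁) (s18_coord K₁ t)).toSubring,
      s34_gi_tau K₁ L τ x ∈ (s34_ic_chart (s18_A1 A K₁) (s18_coord K₁ t)).toSubring) ∧
    (∀ x ∈ (s34_ic_chart (s18_A1 A K₁) (s18_coord K₁ t)⁻¹).toSubring,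
      s34_gi_tau K₁ L τ x ∈ (s34_ic_chart (s18_A1 A K₁) (s18_coord K₁ t)⁻¹).toSubring) ∧
    (∃ c : s18_A1 A K₁, IsUnit c ∧
      s34_gi_tau K₁ L τ (algebraMap (s18_A1 A K₁) (s18_F1 K₁ L) π) =
        algebraMap (s18_A1 A K₁) (s18_F1 K₁ L) c * algebraMap (s18_A1 A K₁) (s18_F1 K₁ L) π) :=
  ⟨s34_tm_m_hτ₁ K₁ L τ, s34_tm_m_hτB0 A K₁ L τ hτ t, s34_tm_m_hτBi A K₁ L τ hτ t,
    s34_tm_m_hτπ A K₁ L hπ τ hτ⟩

/-- The same for `τ` in the inertia group of `A`. -/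
theorem s34_tm_model_inertia {π : s18_A1 A K₁} (hπ : Irreducible π) (τ : Qb ≃ₐ[ℚ] Qb)
    (hτ : τ ∈ A.inertiaSubgroupIn ℚ) (t : modularFunctionFieldFull L) :
    (∀ x : s18_F1 K₁ L, s18_baseIncl K₁ L (s34_gi_tau K₁ L τ x) =
      arithmeticGalois (modularFunctionFieldFull L) τ • s18_baseIncl K₁ L x) ∧
    (∀ x ∈ (s34_ic_chart (s18_A1 A K₁) (s18_coord K₁ t)).toSubring,
      s34_gi_tau K₁ L τ x ∈ (s34_ic_chart (s18_A1 A K₁) (s18_coord K₁ t)).toSubring) ∧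
    (∀ x ∈ (s34_ic_chart (s18_A1 A K₁) (s18_coord K₁ t)⁻¹).toSubring,
      s34_gi_tau K₁ L τ x ∈ (s34_ic_chart (s18_A1 A K₁) (s18_coord K₁ t)⁻¹).toSubring) ∧
    (∃ c : s18_A1 A K₁, IsUnit c ∧
      s34_gi_tau K₁ L τ (algebraMap (s18_A1 A K₁) (s18_F1 K₁ L) π) =
        algebraMap (s18_A1 A K₁) (s18_F1 K₁ L) c * algebraMap (s18_A1 A K₁) (s18_F1 K₁ L) π) :=
  s34_tm_model A K₁ L hπ τ ((Fermat.Agent.S55.pt_mem_inertia_iff A τ).mp hτ).1 t

end Model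

end Fermat.Agent.S34
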