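import Mathlib
import Fermat.Agent.S34.GaussTau
import Fermat.Agent.S34.GaussLevel
import Fermat.Agent.S34.GaussZero
import Fermat.Agent.S34.TauModel
import Fermat.Agent.S34.IcUnif
import Fermat.Agent.S18.ChAlg
import Fermat.Agent.S18.ChartZHaupt

/-!
# S34 (NODE), instantiation block (V/τ): the hypotheses of `s34_pow_of_model` that only mention
the two Gauss rings and the coefficientwise Galois action

Setting: `P` a valuation ring of `Q̄`, `K₁ ⊆ Q̄` normal over `ℚ`, `A₁ = s18_A1 P K₁` a discrete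
valuation ring with uniformizer `π`, level `L = N₁ * q`, `F = s18_F1 K₁ L`,
`ϖ = algebraMap A₁ F π`, `V₁ = s34_gi_V A₁ L` (Gauss ring at infinity), `W : F ≃+* F` a swap
(fixing `K₁`, `W ∘ α = β`, commuting with the coefficientwise Galois action),
`V₂ = V₁.comap W`, `τ₁ = s34_gi_tau K₁ L τ` for `τ` in the inertia group of `P`,
`t = s18_coord K₁ t₀` for a rational coordinate `t₀` of level `L` which comes from level `N₁` and
such that `t₀`, `t₀⁻¹` have integral `q`-expansions, `B0 = s34_ic_chart A₁ t`,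
`Binf = s34_ic_chart A₁ t⁻¹`.

The lemmas `s34_iv_*` are, literally, the hypotheses `hV₁ hV₂ hB0₁ hB0₂ hBi₁ hBi₂ hτ₁ hτB0 hτBi
hτπ hT1₁ hT1₂ hT2₁ hT2₂` of `s34_pow_of_model`.
-/

set_option autoImplicit false
set_option linter.unusedSectionVars false
set_option synthInstance.maxHeartbeats 400000

open ModularCurve

open scoped Pointwise

noncomputable section

namespace Fermat.Agent.S34

open Fermat.Agent.S18

local notation "Qb" => AlgebraicClosure ℚ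

section Coord

variable {K : Type*} [Field K] [Algebra ℚ K] (A₁ : ValuationSubring K)

/-- The `q`-expansion of a rational coordinate with integral `q`-expansion. -/
theorem s34_iv_coord_coe {N : ℕ} (t₀ : modularFunctionFieldFull N) (T : LaurentSeries ℤ)
    (hT : (t₀ : LaurentSeries ℚ) = coeffMap (Int.castRingHom ℚ) T) :
    ((s18_coord K t₀ : laurentBaseChange K (modularFunctionFieldFull N)) : LaurentSeries K) =
      coeffMap A₁.subtype (coeffMap (Int.castRingHom A₁) T) := by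
  show coeffEmb K (t₀ : LaurentSeries ℚ) = _
  rw [hT, coeffEmb, coeffMap_coeffMap, coeffMap_coeffMap]
  exact coeffMap_congr (RingHom.ext_int _ _) T

/-- A rational coordinate with integral `q`-expansion lies in the Gauss ring at infinity. -/
theorem s34_iv_coord_mem {N : ℕ} (t₀ : modularFunctionFieldFull N) (T : LaurentSeries ℤ)
    (hT : (t₀ : LaurentSeries ℚ) = coeffMap (Int.castRingHom ℚ) T) :
    s18_coord K t₀ ∈ s34_gi_V A₁ N :=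
  s34_gi_mem_of_integral _ (s34_iv_coord_coe A₁ t₀ T hT)

/-- The inverse of a rational coordinate whose inverse has integral `q`-expansion lies in the
Gauss ring at infinity. -/
theorem s34_iv_coord_inv_mem {N : ℕ} (t₀ : modularFunctionFieldFull N) (Tinv : LaurentSeries ℤ)
    (hTinv : ((t₀⁻¹ : modularFunctionFieldFull N) : LaurentSeries ℚ) =
      coeffMap (Int.castRingHom ℚ) Tinv) :
    (s18_coord K t₀)⁻¹ ∈ s34_gi_V A₁ N := by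
  have e : (s18_coord K t₀)⁻¹ = s18_coord K t₀⁻¹ := by
    apply Subtype.ext
    show ((s18_coord K t₀ : laurentBaseChange K (modularFunctionFieldFull N)) :
      LaurentSeries K)⁻¹ = coeffEmb K ((t₀⁻¹ : modularFunctionFieldFull N) : LaurentSeries ℚ)
    show (coeffEmb K (t₀ : LaurentSeries ℚ))⁻¹ = coeffEmb K ((t₀ : LaurentSeries ℚ)⁻¹)
    rw [map_inv₀]
  rw [e]
  exact s34_iv_coord_mem A₁ t₀⁻¹ Tinv hTinv

end Coord

section Swap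

variable {K : Type*} [Field K] [Algebra ℚ K] (A₁ : ValuationSubring K)
variable (N₁ q : ℕ) [NeZero N₁] [NeZero q]

/-- The coordinate of level `N₁ * q` coming from level `N₁` is `α` of the coordinate of level
`N₁`. -/
theorem s34_iv_coord_alpha (t₀ : modularFunctionFieldFull (N₁ * q))
    (t₀' : modularFunctionFieldFull N₁)
    (h : (t₀ : LaurentSeries ℚ) = (t₀' : LaurentSeries ℚ)) :
    s18_coord K t₀ = heckeAlphaBar K N₁ q (s18_coord K t₀') := by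
  apply Subtype.ext
  rw [coe_heckeAlphaBar]
  show coeffEmb K (t₀ : LaurentSeries ℚ) = coeffEmb K (t₀' : LaurentSeries ℚ)
  rw [h]

/-- A swap maps the coordinate into the Gauss ring at infinity: `t ∈ V₂ = V₁.comap W`. -/
theorem s34_iv_swap_coord_mem
    (W : laurentBaseChange K (modularFunctionFieldFull (N₁ * q)) ≃+*
      laurentBaseChange K (modularFunctionFieldFull (N₁ * q)))
    (hWα : ∀ x, W (heckeAlphaBar K N₁ q x) = heckeBetaBar K N₁ q x)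
    (t₀ : modularFunctionFieldFull (N₁ * q)) (t₀' : modularFunctionFieldFull N₁)
    (h : (t₀ : LaurentSeries ℚ) = (t₀' : LaurentSeries ℚ)) (T : LaurentSeries ℤ)
    (hT : (t₀' : LaurentSeries ℚ) = coeffMap (Int.castRingHom ℚ) T) :
    W (s18_coord K t₀) ∈ s34_gi_V A₁ (N₁ * q) := by
  rw [s34_iv_coord_alpha N₁ q t₀ t₀' h, hWα]
  exact s34_gi_qExpand_mem q (coe_heckeBetaBar N₁ q _) (s34_iv_coord_mem A₁ t₀' T hT)

/-- A swap maps the inverse of the coordinate into the Gauss ring at infinity. -/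
theorem s34_iv_swap_coord_inv_mem
    (W : laurentBaseChange K (modularFunctionFieldFull (N₁ * q)) ≃+*
      laurentBaseChange K (modularFunctionFieldFull (N₁ * q)))
    (hWα : ∀ x, W (heckeAlphaBar K N₁ q x) = heckeBetaBar K N₁ q x)
    (t₀ : modularFunctionFieldFull (N₁ * q)) (t₀' : modularFunctionFieldFull N₁)
    (h : (t₀ : LaurentSeries ℚ) = (t₀' : LaurentSeries ℚ)) (Tinv : LaurentSeries ℤ)
    (hTinv : ((t₀'⁻¹ : modularFunctionFieldFull N₁) : LaurentSeries ℚ) =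
      coeffMap (Int.castRingHom ℚ) Tinv) :
    W (s18_coord K t₀)⁻¹ ∈ s34_gi_V A₁ (N₁ * q) := by
  rw [s34_iv_coord_alpha N₁ q t₀ t₀' h, ← map_inv₀, hWα]
  exact s34_gi_qExpand_mem q (coe_heckeBetaBar N₁ q _) (s34_iv_coord_inv_mem A₁ t₀' Tinv hTinv)

end Swap

section Inst

variable (P : ValuationSubring Qb) (K₁ : IntermediateField ℚ Qb) [Normal ℚ K₁]
variable (N₁ q : ℕ) [NeZero N₁] [NeZero q] [NeZero (N₁ * q)]
variable [IsDiscreteValuationRing (s18_A1 P K₁)] {π : s18_A1 P K₁}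

/-- The `A₁`-algebra structure of `F` is the restriction of the `K₁`-algebra structure. -/
theorem s34_iv_algebraMap_eq (a : s18_A1 P K₁) :
    algebraMap (s18_A1 P K₁) (s18_F1 K₁ (N₁ * q)) a =
      algebraMap K₁ (s18_F1 K₁ (N₁ * q)) (a : K₁) := rfl

/-- `hV₁`. -/
theorem s34_iv_hV1 (hπ : Irreducible π) :
    s34_Unif (algebraMap (s18_A1 P K₁) (s18_F1 K₁ (N₁ * q)) π)
      (s34_gi_V (s18_A1 P K₁) (N₁ * q)) := by
  rw [s34_iv_algebraMap_eq]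
  exact s34_gi_unif hπ

/-- `hV₂`. -/
theorem s34_iv_hV2 (hπ : Irreducible π)
    (W : s18_F1 K₁ (N₁ * q) ≃+* s18_F1 K₁ (N₁ * q))
    (hWK : ∀ c : K₁, W (algebraMap K₁ (s18_F1 K₁ (N₁ * q)) c) =
      algebraMap K₁ (s18_F1 K₁ (N₁ * q)) c) :
    s34_Unif (algebraMap (s18_A1 P K₁) (s18_F1 K₁ (N₁ * q)) π)
      ((s34_gi_V (s18_A1 P K₁) (N₁ * q)).comap
        (W : s18_F1 K₁ (N₁ * q) →+* s18_F1 K₁ (N₁ * q))) := by
  refine (s34_iv_hV1 P K₁ N₁ q hπ).comap W ?_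
  rw [s34_iv_algebraMap_eq]
  exact hWK _

/-- Constants of `A₁` lie in `V₁`. -/
theorem s34_iv_const_mem_V1 (a : s18_A1 P K₁) :
    algebraMap (s18_A1 P K₁) (s18_F1 K₁ (N₁ * q)) a ∈ s34_gi_V (s18_A1 P K₁) (N₁ * q) := by
  rw [s34_iv_algebraMap_eq]
  exact s34_gi_algebraMap_mem a

/-- Constants of `A₁` lie in `V₂`. -/
theorem s34_iv_const_mem_V2
    (W : s18_F1 K₁ (N₁ * q) ≃+* s18_F1 K₁ (N₁ * q))
    (hWK : ∀ c : K₁, W (algebraMap K₁ (s18_F1 K₁ (N₁ * q)) c) =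
      algebraMap K₁ (s18_F1 K₁ (N₁ * q)) c) (a : s18_A1 P K₁) :
    algebraMap (s18_A1 P K₁) (s18_F1 K₁ (N₁ * q)) a ∈
      (s34_gi_V (s18_A1 P K₁) (N₁ * q)).comap
        (W : s18_F1 K₁ (N₁ * q) →+* s18_F1 K₁ (N₁ * q)) := by
  rw [s34_iv_algebraMap_eq]
  show W (algebraMap K₁ (s18_F1 K₁ (N₁ * q)) (a : K₁)) ∈ s34_gi_V (s18_A1 P K₁) (N₁ * q)
  rw [hWK]
  exact s34_gi_algebraMap_mem a

variable (t₀ : modularFunctionFieldFull (N₁ * q)) (t₀' : modularFunctionFieldFull N₁)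
  (h : (t₀ : LaurentSeries ℚ) = (t₀' : LaurentSeries ℚ)) (T Tinv : LaurentSeries ℤ)
  (hT : (t₀' : LaurentSeries ℚ) = coeffMap (Int.castRingHom ℚ) T)
  (hTinv : ((t₀'⁻¹ : modularFunctionFieldFull N₁) : LaurentSeries ℚ) =
    coeffMap (Int.castRingHom ℚ) Tinv)

include h hT in
/-- `hB0₁`. -/
theorem s34_iv_hB01 (hπ : Irreducible π) :
    (s34_ic_chart (s18_A1 P K₁) (s18_coord K₁ t₀)).toSubring ≤
      s34_gi_V (s18_A1 P K₁) (N₁ * q) :=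
  s34_ic_le_unif (s34_iv_hV1 P K₁ N₁ q hπ) (s34_iv_const_mem_V1 P K₁ N₁ q)
    (s34_iv_coord_mem (s18_A1 P K₁) t₀ T (h.trans hT))

include h hTinv in
/-- `hBi₁`. -/
theorem s34_iv_hBi1 (hπ : Irreducible π) :
    (s34_ic_chart (s18_A1 P K₁) (s18_coord K₁ t₀)⁻¹).toSubring ≤
      s34_gi_V (s18_A1 P K₁) (N₁ * q) := by
  refine s34_ic_le_unif (s34_iv_hV1 P K₁ N₁ q hπ) (s34_iv_const_mem_V1 P K₁ N₁ q)
    (s34_iv_coord_inv_mem (s18_A1 P K₁) t₀ Tinv ?_)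
  have e : ((t₀⁻¹ : modularFunctionFieldFull (N₁ * q)) : LaurentSeries ℚ) =
      ((t₀'⁻¹ : modularFunctionFieldFull N₁) : LaurentSeries ℚ) := by
    show (t₀ : LaurentSeries ℚ)⁻¹ = (t₀' : LaurentSeries ℚ)⁻¹
    rw [h]
  rw [e, hTinv]

include h hT in
/-- `hB0₂`. -/
theorem s34_iv_hB02 (hπ : Irreducible π)
    (W : s18_F1 K₁ (N₁ * q) ≃+* s18_F1 K₁ (N₁ * q))
    (hWK : ∀ c : K₁, W (algebraMap K₁ (s18_F1 K₁ (N₁ * q)) c) =
      algebraMap K₁ (s18_F1 K₁ (N₁ * q)) c)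
    (hWα : ∀ x, W (heckeAlphaBar K₁ N₁ q x) = heckeBetaBar K₁ N₁ q x) :
    (s34_ic_chart (s18_A1 P K₁) (s18_coord K₁ t₀)).toSubring ≤
      (s34_gi_V (s18_A1 P K₁) (N₁ * q)).comap
        (W : s18_F1 K₁ (N₁ * q) →+* s18_F1 K₁ (N₁ * q)) :=
  s34_ic_le_unif (s34_iv_hV2 P K₁ N₁ q hπ W hWK) (s34_iv_const_mem_V2 P K₁ N₁ q W hWK)
    (s34_iv_swap_coord_mem (s18_A1 P K₁) N₁ q W hWα t₀ t₀' h T hT)

include h hTinv in
/-- `hBi₂`. -/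
theorem s34_iv_hBi2 (hπ : Irreducible π)
    (W : s18_F1 K₁ (N₁ * q) ≃+* s18_F1 K₁ (N₁ * q))
    (hWK : ∀ c : K₁, W (algebraMap K₁ (s18_F1 K₁ (N₁ * q)) c) =
      algebraMap K₁ (s18_F1 K₁ (N₁ * q)) c)
    (hWα : ∀ x, W (heckeAlphaBar K₁ N₁ q x) = heckeBetaBar K₁ N₁ q x) :
    (s34_ic_chart (s18_A1 P K₁) (s18_coord K₁ t₀)⁻¹).toSubring ≤
      (s34_gi_V (s18_A1 P K₁) (N₁ * q)).comap
        (W : s18_F1 K₁ (N₁ * q) →+* s18_F1 K₁ (N₁ * q)) :=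
  s34_ic_le_unif (s34_iv_hV2 P K₁ N₁ q hπ W hWK) (s34_iv_const_mem_V2 P K₁ N₁ q W hWK)
    (s34_iv_swap_coord_inv_mem (s18_A1 P K₁) N₁ q W hWα t₀ t₀' h Tinv hTinv)

/-- `hτ₁`. -/
theorem s34_iv_htau (τ : Qb ≃ₐ[ℚ] Qb) (x : s18_F1 K₁ (N₁ * q)) :
    s18_baseIncl K₁ (N₁ * q) (s34_gi_tau K₁ (N₁ * q) τ x) =
      arithmeticGalois (modularFunctionFieldFull (N₁ * q)) τ • s18_baseIncl K₁ (N₁ * q) x :=
  s34_gi_baseIncl_tau K₁ (N₁ * q) τ x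

/-- `hτB0`. -/
theorem s34_iv_htauB0 (τ : Qb ≃ₐ[ℚ] Qb) (hτ : τ ∈ P.inertiaSubgroupIn ℚ)
    (x : s18_F1 K₁ (N₁ * q))
    (hx : x ∈ (s34_ic_chart (s18_A1 P K₁) (s18_coord K₁ t₀)).toSubring) :
    s34_gi_tau K₁ (N₁ * q) τ x ∈ (s34_ic_chart (s18_A1 P K₁) (s18_coord K₁ t₀)).toSubring :=
  s34_tm_chart (τ.restrictNormal K₁)
    (s34_gi_restrict_mem P K₁ τ ((Fermat.Agent.S55.pt_mem_inertia_iff P τ).mp hτ).1) _
    (s34_tm_coord _ t₀) hx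

/-- `hτBi`. -/
theorem s34_iv_htauBi (τ : Qb ≃ₐ[ℚ] Qb) (hτ : τ ∈ P.inertiaSubgroupIn ℚ)
    (x : s18_F1 K₁ (N₁ * q))
    (hx : x ∈ (s34_ic_chart (s18_A1 P K₁) (s18_coord K₁ t₀)⁻¹).toSubring) :
    s34_gi_tau K₁ (N₁ * q) τ x ∈
      (s34_ic_chart (s18_A1 P K₁) (s18_coord K₁ t₀)⁻¹).toSubring :=
  s34_tm_chart (τ.restrictNormal K₁)
    (s34_gi_restrict_mem P K₁ τ ((Fermat.Agent.S55.pt_mem_inertia_iff P τ).mp hτ).1) _
    (s34_tm_coord_inv _ t₀) hx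

/-- `hτπ`. -/
theorem s34_iv_htaupi (hπ : Irreducible π) (τ : Qb ≃ₐ[ℚ] Qb) (hτ : τ ∈ P.inertiaSubgroupIn ℚ) :
    ∃ c : s18_A1 P K₁, IsUnit c ∧
      s34_gi_tau K₁ (N₁ * q) τ (algebraMap (s18_A1 P K₁) (s18_F1 K₁ (N₁ * q)) π) =
        algebraMap (s18_A1 P K₁) (s18_F1 K₁ (N₁ * q)) c *
          algebraMap (s18_A1 P K₁) (s18_F1 K₁ (N₁ * q)) π := by
  have hτP := ((Fermat.Agent.S55.pt_mem_inertia_iff P τ).mp hτ).1
  obtain ⟨w, hw⟩ := s34_gi_tau_pi hπ (τ.restrictNormal K₁) (s34_gi_restrict_mem P K₁ τ hτP)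
    (s34_gi_restrict_symm_mem P K₁ τ hτP)
  refine ⟨(w : s18_A1 P K₁), w.isUnit, ?_⟩
  rw [s34_iv_algebraMap_eq, s34_iv_algebraMap_eq]
  show arithmeticRingAut (modularFunctionFieldFull (N₁ * q)) (τ.restrictNormal K₁)
      (algebraMap K₁ (s18_F1 K₁ (N₁ * q)) (π : K₁)) =
    algebraMap K₁ (s18_F1 K₁ (N₁ * q)) ((w : s18_A1 P K₁) : K₁) *
      algebraMap K₁ (s18_F1 K₁ (N₁ * q)) (π : K₁)
  rw [arithmeticRingAut_algebraMap, hw, map_mul]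
  exact mul_comm _ _

/-- `hT1₁`. -/
theorem s34_iv_hT11 (hπ : Irreducible π) (τ : Qb ≃ₐ[ℚ] Qb) (hτ : τ ∈ P.inertiaSubgroupIn ℚ)
    (x : s18_F1 K₁ (N₁ * q)) (hx : x ≠ 0) :
    s34_gi_tau K₁ (N₁ * q) τ x / x ∈ s34_gi_V (s18_A1 P K₁) (N₁ * q) ∧
      x / s34_gi_tau K₁ (N₁ * q) τ x ∈ s34_gi_V (s18_A1 P K₁) (N₁ * q) :=
  s34_gi_T1 P K₁ (N₁ * q) hπ τ ((Fermat.Agent.S55.pt_mem_inertia_iff P τ).mp hτ).1 x hx

/-- `hT2₁`. -/
theorem s34_iv_hT21 (hπ : Irreducible π) (τ : Qb ≃ₐ[ℚ] Qb) (hτ : τ ∈ P.inertiaSubgroupIn ℚ)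
    (x : s18_F1 K₁ (N₁ * q)) (hx : x ∈ s34_gi_V (s18_A1 P K₁) (N₁ * q)) :
    (algebraMap (s18_A1 P K₁) (s18_F1 K₁ (N₁ * q)) π)⁻¹ *
      (s34_gi_tau K₁ (N₁ * q) τ x - x) ∈ s34_gi_V (s18_A1 P K₁) (N₁ * q) := by
  rw [s34_iv_algebraMap_eq]
  exact s34_gi_T2 P K₁ (N₁ * q) hπ τ hτ x hx

/-- `hT1₂`. -/
theorem s34_iv_hT12 (hπ : Irreducible π) (τ : Qb ≃ₐ[ℚ] Qb) (hτ : τ ∈ P.inertiaSubgroupIn ℚ)
    (W : s18_F1 K₁ (N₁ * q) ≃+* s18_F1 K₁ (N₁ * q))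
    (hWτ : ∀ x, W (s34_gi_tau K₁ (N₁ * q) τ x) = s34_gi_tau K₁ (N₁ * q) τ (W x))
    (x : s18_F1 K₁ (N₁ * q)) (hx : x ≠ 0) :
    s34_gi_tau K₁ (N₁ * q) τ x / x ∈ (s34_gi_V (s18_A1 P K₁) (N₁ * q)).comap
        (W : s18_F1 K₁ (N₁ * q) →+* s18_F1 K₁ (N₁ * q)) ∧
      x / s34_gi_tau K₁ (N₁ * q) τ x ∈ (s34_gi_V (s18_A1 P K₁) (N₁ * q)).comap
        (W : s18_F1 K₁ (N₁ * q) →+* s18_F1 K₁ (N₁ * q)) :=
  s34_gz_T1 W (s34_gi_tau K₁ (N₁ * q) τ) hWτ (s34_iv_hT11 P K₁ N₁ q hπ τ hτ) x hx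

/-- `hT2₂`. -/
theorem s34_iv_hT22 (hπ : Irreducible π) (τ : Qb ≃ₐ[ℚ] Qb) (hτ : τ ∈ P.inertiaSubgroupIn ℚ)
    (W : s18_F1 K₁ (N₁ * q) ≃+* s18_F1 K₁ (N₁ * q))
    (hWK : ∀ c : K₁, W (algebraMap K₁ (s18_F1 K₁ (N₁ * q)) c) =
      algebraMap K₁ (s18_F1 K₁ (N₁ * q)) c)
    (hWτ : ∀ x, W (s34_gi_tau K₁ (N₁ * q) τ x) = s34_gi_tau K₁ (N₁ * q) τ (W x))
    (x : s18_F1 K₁ (N₁ * q))
    (hx : x ∈ (s34_gi_V (s18_A1 P K₁) (N₁ * q)).comap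
      (W : s18_F1 K₁ (N₁ * q) →+* s18_F1 K₁ (N₁ * q))) :
    (algebraMap (s18_A1 P K₁) (s18_F1 K₁ (N₁ * q)) π)⁻¹ *
      (s34_gi_tau K₁ (N₁ * q) τ x - x) ∈ (s34_gi_V (s18_A1 P K₁) (N₁ * q)).comap
        (W : s18_F1 K₁ (N₁ * q) →+* s18_F1 K₁ (N₁ * q)) := by
  refine s34_gz_T2 W (s34_gi_tau K₁ (N₁ * q) τ) ?_ hWτ (s34_iv_hT21 P K₁ N₁ q hπ τ hτ) x hx
  rw [s34_iv_algebraMap_eq]
  exact hWK _

end Inst

section Haupt

variable (N₁ q : ℕ) [NeZero N₁] [NeZero (N₁ * q)]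

/-- The data `(h, hT, hTinv)` for the Hauptmodul `t₂`. -/
theorem s34_iv_t2_data (h2 : 2 ∣ N₁) (h2' : 2 ∣ N₁ * q) :
    ((s18_cz_t2 (N₁ * q) h2' : modularFunctionFieldFull (N₁ * q)) : LaurentSeries ℚ) =
        ((s18_cz_t2 N₁ h2 : modularFunctionFieldFull N₁) : LaurentSeries ℚ) ∧
      ((s18_cz_t2 N₁ h2 : modularFunctionFieldFull N₁) : LaurentSeries ℚ) =
        coeffMap (Int.castRingHom ℚ) s18_t2 ∧
      (((s18_cz_t2 N₁ h2)⁻¹ : modularFunctionFieldFull N₁) : LaurentSeries ℚ) =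
        coeffMap (Int.castRingHom ℚ) s18_t2inv :=
  ⟨rfl, rfl, s18_cz_coe_t2_inv N₁ h2⟩

/-- The data `(h, hT, hTinv)` for the Hauptmodul `t₃`. -/
theorem s34_iv_t3_data (h3 : 3 ∣ N₁) (h3' : 3 ∣ N₁ * q) :
    ((s18_cz_t3 (N₁ * q) h3' : modularFunctionFieldFull (N₁ * q)) : LaurentSeries ℚ) =
        ((s18_cz_t3 N₁ h3 : modularFunctionFieldFull N₁) : LaurentSeries ℚ) ∧
      ((s18_cz_t3 N₁ h3 : modularFunctionFieldFull N₁) : LaurentSeries ℚ) =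
        coeffMap (Int.castRingHom ℚ) s18_t3 ∧
      (((s18_cz_t3 N₁ h3)⁻¹ : modularFunctionFieldFull N₁) : LaurentSeries ℚ) =
        coeffMap (Int.castRingHom ℚ) s18_t3inv :=
  ⟨rfl, rfl, s18_cz_coe_t3_inv N₁ h3⟩

end Haupt

end Fermat.Agent.S34
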