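import Mathlib
import Fermat.Agent.S34.InstDefs
import Fermat.Agent.S34.InstV

/-!
# S34, block (INST): the contract facts (unif), (le), (tau)

The three contract propositions of `InstDefs.lean` which concern the two components
`V₁ = s34_gi_V`, `V₂ = V₁.comap W` and the coefficientwise action of an inertia element:

* `s34_cv_unif : s34_ct_unif` — both components are uniformized by `π`;
* `s34_cv_le : s34_ct_le` — the two charts of the Hauptmodul lie in both components;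
* `s34_cv_tau : s34_ct_tau` — the eight `τ`-hypotheses of `s34_pow_of_model`.

All three are restatements of the lemmas `s34_iv_*` of `InstV.lean`.
-/

set_option autoImplicit false
set_option synthInstance.maxHeartbeats 400000

open ModularCurve AlgebraicCurve

open scoped Pointwise

noncomputable section

namespace Fermat.Agent.S34

open Fermat.Agent.S18

local notation "Qb" => AlgebraicClosure ℚ

/-- The component `V₂` of the contract, written with the ring equivalence underlying `W`. -/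
theorem s34_cv_V2_eq (P : ValuationSubring Qb) (K₁ : IntermediateField ℚ Qb) (L : ℕ)
    (W : s18_F1 K₁ L ≃ₐ[K₁] s18_F1 K₁ L) :
    s34_md_V2 P K₁ L W = (s34_gi_V (s18_A1 P K₁) L).comap
      ((W.toRingEquiv : s18_F1 K₁ L ≃+* s18_F1 K₁ L) : s18_F1 K₁ L →+* s18_F1 K₁ L) :=
  rfl

set_option maxHeartbeats 1000000 in
/-- **Contract (unif).** -/
theorem s34_cv_unif : s34_ct_unif := by
  intro N₁ q _ _ _ hqN P hP K₁ _ _ _ π hπ W hW
  haveI : NeZero q := ⟨(Fact.out : q.Prime).ne_zero⟩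
  refine ⟨s34_iv_hV1 P K₁ N₁ q hπ, ?_⟩
  rw [s34_cv_V2_eq]
  exact s34_iv_hV2 P K₁ N₁ q hπ W.toRingEquiv (fun c => W.commutes c)

set_option maxHeartbeats 1000000 in
/-- **Contract (le).** -/
theorem s34_cv_le : s34_ct_le := by
  intro N₁ q _ _ _ hqN P hP K₁ _ _ _ π hπ tL htL W hW
  haveI : NeZero q := ⟨(Fact.out : q.Prime).ne_zero⟩
  obtain ⟨hWα, -, -, -, -⟩ := hW
  have hWK : ∀ c : K₁, W.toRingEquiv (algebraMap K₁ (s18_F1 K₁ (N₁ * q)) c) =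
      algebraMap K₁ (s18_F1 K₁ (N₁ * q)) c := fun c => W.commutes c
  have hWα' : ∀ x, W.toRingEquiv (heckeAlphaBar K₁ N₁ q x) = heckeBetaBar K₁ N₁ q x := hWα
  rw [s34_cv_V2_eq]
  rcases htL with ⟨h, h2⟩ | ⟨h, h3⟩
  · obtain rfl : tL = s18_cz_t2 (N₁ * q) (dvd_mul_of_dvd_left h2 q) := Subtype.ext h
    obtain ⟨hd1, hd2, hd3⟩ := s34_iv_t2_data N₁ q h2 (dvd_mul_of_dvd_left h2 q)
    exact ⟨s34_iv_hB01 P K₁ N₁ q _ _ hd1 _ hd2 hπ,
      s34_iv_hB02 P K₁ N₁ q _ _ hd1 _ hd2 hπ W.toRingEquiv hWK hWα',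
      s34_iv_hBi1 P K₁ N₁ q _ _ hd1 _ hd3 hπ,
      s34_iv_hBi2 P K₁ N₁ q _ _ hd1 _ hd3 hπ W.toRingEquiv hWK hWα'⟩
  · obtain rfl : tL = s18_cz_t3 (N₁ * q) (dvd_mul_of_dvd_left h3 q) := Subtype.ext h
    obtain ⟨hd1, hd2, hd3⟩ := s34_iv_t3_data N₁ q h3 (dvd_mul_of_dvd_left h3 q)
    exact ⟨s34_iv_hB01 P K₁ N₁ q _ _ hd1 _ hd2 hπ,
      s34_iv_hB02 P K₁ N₁ q _ _ hd1 _ hd2 hπ W.toRingEquiv hWK hWα',
      s34_iv_hBi1 P K₁ N₁ q _ _ hd1 _ hd3 hπ,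
      s34_iv_hBi2 P K₁ N₁ q _ _ hd1 _ hd3 hπ W.toRingEquiv hWK hWα'⟩

set_option maxHeartbeats 1000000 in
/-- **Contract (tau).** -/
theorem s34_cv_tau : s34_ct_tau := by
  intro N₁ q _ _ _ hqN P hP K₁ _ _ _ π hπ tL htL W hW τ hτ
  haveI : NeZero q := ⟨(Fact.out : q.Prime).ne_zero⟩
  obtain ⟨-, -, -, hWσ, -⟩ := hW
  have hWK : ∀ c : K₁, W.toRingEquiv (algebraMap K₁ (s18_F1 K₁ (N₁ * q)) c) =
      algebraMap K₁ (s18_F1 K₁ (N₁ * q)) c := fun c => W.commutes c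
  have hWτ : ∀ x, W.toRingEquiv (s34_gi_tau K₁ (N₁ * q) τ x) =
      s34_gi_tau K₁ (N₁ * q) τ (W.toRingEquiv x) := fun x => hWσ (τ.restrictNormal K₁) x
  rw [s34_cv_V2_eq]
  exact ⟨s34_iv_htau K₁ N₁ q τ, s34_iv_htauB0 P K₁ N₁ q tL τ hτ,
    s34_iv_htauBi P K₁ N₁ q tL τ hτ, s34_iv_htaupi P K₁ N₁ q hπ τ hτ,
    s34_iv_hT11 P K₁ N₁ q hπ τ hτ, s34_iv_hT12 P K₁ N₁ q hπ τ hτ W.toRingEquiv hWτ,
    s34_iv_hT21 P K₁ N₁ q hπ τ hτ, s34_iv_hT22 P K₁ N₁ q hπ τ hτ W.toRingEquiv hWK hWτ⟩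

end Fermat.Agent.S34
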