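import Mathlib
import Fermat.Agent.S18.UnramMod
import Fermat.Agent.S18.ChProps
import Fermat.Agent.S18.ChartZHaupt
import Fermat.Agent.S18.HauptField

/-!
# S34 (NODE), leaf (IM): the two model inputs of the integral-closure chart package

For any level `L` (no coprimality to the residue characteristic), any field `K` with `ℚ → K → Q̄`
and `F := K · F_L ⊆ K((q))`:

* `s34_im_ld` : coefficientwise linear disjointness of `Ω` and `K((q))` over `K`;
* `s34_im_transc` : an element of `F` whose `q`-expansion has nonzero order is transcendental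
  over `K`;
* `s34_im_finite_j` : `F` is finite over `K(j)` (descent from S24's `Q̄`-statement);
* `s34_im_finite` : `F` is finite over `K(t)` for every `t` with `j ∈ K(t)`;
* the instances for the Hauptmoduln `t₂`, `t₃`.
-/

set_option autoImplicit false
set_option synthInstance.maxHeartbeats 400000

open ModularCurve Polynomial IntermediateField

noncomputable section

namespace Fermat.Agent.S34

open Fermat.Agent.S18

/-- Coefficientwise linear disjointness: a `K`-linearly independent family of Laurent series over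
`K` stays linearly independent over any extension field `Ω` after extension of coefficients.
(Stated with explicit multiplication by constants, to be independent of the choice of the module
instance on Laurent series.) -/
theorem s34_im_ld {K Ω : Type*} [Field K] [Field Ω] [Algebra K Ω] {ι : Type*}
    (v : ι → LaurentSeries K)
    (hv : ∀ (s : Finset ι) (g : ι → K),
      ∑ i ∈ s, HahnSeries.C (g i) * v i = 0 → ∀ i ∈ s, g i = 0)
    (s : Finset ι) (g : ι → Ω)
    (hg : ∑ i ∈ s, HahnSeries.C (g i) * coeffMap (algebraMap K Ω) (v i) = 0) :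
    ∀ i ∈ s, g i = 0 := by
  classical
  intro i₀ hi₀
  by_contra hne
  obtain ⟨φ, hφ⟩ := Module.Projective.exists_dual_ne_zero K hne
  have hsum : ∑ i ∈ s, HahnSeries.C (φ (g i)) * v i = 0 := by
    ext n
    have h1 := congrArg (fun x : LaurentSeries Ω => φ (x.coeff n)) hg
    simp only [HahnSeries.C_apply, HahnSeries.coeff_sum,
      HahnSeries.coeff_single_zero_mul, coeffMap_coeff, HahnSeries.coeff_zero, map_sum,
      map_zero] at h1 ⊢
    rw [← h1]
    refine Finset.sum_congr rfl fun i _ => ?_
    rw [mul_comm (g i), ← Algebra.smul_def, map_smul, smul_eq_mul, mul_comm]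
  exact hφ (hv s (fun i => φ (g i)) hsum i₀ hi₀)

/-- The coercion of a scalar multiple in an intermediate field of `K((q))`. -/
theorem s34_im_coe_smul {K : Type*} [Field K] (F : IntermediateField K (LaurentSeries K))
    (r : K) (x : F) :
    ((r • x : F) : LaurentSeries K) = HahnSeries.C r * (x : LaurentSeries K) := by
  rw [Algebra.smul_def]
  show algebraMap K (LaurentSeries K) r * (x : LaurentSeries K) = _
  rw [algebraMap_laurentSeries_eq_single, ← HahnSeries.C_apply]

/-- The order of a series with leading term `q⁻ⁿ`. -/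
theorem s34_im_order_of_lead {R : Type*} [CommRing R] [Nontrivial R] {x : LaurentSeries R} {n : ℤ}
    (hx : s18h_lead n x) : x.order = -n := by
  have hc : x.coeff (-n) ≠ 0 := by
    rw [s18h_lead_coeff hx _ rfl]
    exact one_ne_zero
  have hne : x ≠ 0 := fun h0 => hc (by rw [h0]; rfl)
  refine le_antisymm (HahnSeries.order_le_of_coeff_ne_zero hc) ?_
  by_contra hlt
  push Not at hlt
  exact (fun h0 => hne (HahnSeries.coeff_order_eq_zero.mp h0)) (s18h_lead_coeff_lt hx _ hlt)

section Transc

variable {K : Type*} [Field K] [Algebra ℚ K] (N : ℕ)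

local notation "FK" => laurentBaseChange K (modularFunctionFieldFull N)

/-- Evaluation of `K`-polynomials at an element of `K · F_N`, in ambient terms. -/
theorem s34_im_coe_aeval (t : FK) (p : K[X]) :
    ((aeval t p : FK) : LaurentSeries K) =
      Polynomial.eval₂RingHom (HahnSeries.C : K →+* LaurentSeries K) (t : LaurentSeries K) p := by
  have h1 : ((aeval t p : FK) : LaurentSeries K) = aeval (t : LaurentSeries K) p :=
    (Polynomial.aeval_algHom_apply (laurentBaseChange K (modularFunctionFieldFull N)).val t p).symm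
  rw [h1, Polynomial.aeval_def, Polynomial.coe_eval₂RingHom]
  congr 1
  refine RingHom.ext fun r => ?_
  rw [algebraMap_laurentSeries_eq_single, ← HahnSeries.C_apply]

/-- **(IM-a)** An element of `K · F_N` whose `q`-expansion has nonzero order is transcendental
over `K`. -/
theorem s34_im_transc (t : FK) (ht : (t : LaurentSeries K).order ≠ 0) : Transcendental K t := by
  rintro ⟨p, hp0, hp⟩
  apply s18_ch_transc (t : LaurentSeries K) ht p hp0
  rw [← s34_im_coe_aeval, hp]
  rfl

end Transc

section Finite

open scoped IntermediateField.algebraAdjoinAdjoin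

/-- Powers of a transcendental element are linearly independent. -/
theorem s34_im_pow_li {K A : Type*} [Field K] [CommRing A] [Algebra K A] (x : A)
    (hx : Transcendental K x) : LinearIndependent K (fun a : ℕ => x ^ a) := by
  have h1 := (Polynomial.basisMonomials K).linearIndependent
  have h2 := h1.map' (aeval x).toLinearMap
    (LinearMap.ker_eq_bot.mpr (transcendental_iff_injective.mp hx))
  have hfun : (fun a : ℕ => x ^ a) = (aeval x).toLinearMap ∘ (Polynomial.basisMonomials K) := by
    funext a
    simp [Polynomial.aeval_monomial]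
  rw [hfun]
  exact h2

/-- From independence over `K(x)` to independence over `K` of the products with the powers
of `x` (`x` transcendental). -/
theorem s34_im_li_mul_pow {K F : Type*} [Field K] [Field F] [Algebra K F] (x : F)
    (hx : Transcendental K x) {ι : Type*} (c : ι → F) (hc : LinearIndependent K⟮x⟯ c) :
    LinearIndependent K (fun p : ℕ × ι => x ^ p.1 * c p.2) := by
  have hb : LinearIndependent K (fun a : ℕ => (AdjoinSimple.gen K x) ^ a) := by
    apply LinearIndependent.of_comp (K⟮x⟯.val.toLinearMap)
    have h := s34_im_pow_li x hx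
    have hfun : (K⟮x⟯.val.toLinearMap ∘ fun a : ℕ => (AdjoinSimple.gen K x) ^ a) =
        fun a : ℕ => x ^ a := by
      funext a
      simp
    rw [hfun]
    exact h
  have h2 : LinearIndependent K
      (fun p : ℕ × ι => (AdjoinSimple.gen K x) ^ p.1 • c p.2) := linearIndependent_smul hb hc
  have hfun : (fun p : ℕ × ι => x ^ p.1 * c p.2) =
      fun p : ℕ × ι => (AdjoinSimple.gen K x) ^ p.1 • c p.2 := by
    funext p
    rw [IntermediateField.smul_def, IntermediateField.coe_pow, AdjoinSimple.coe_gen, smul_eq_mul]
  rw [hfun]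
  exact h2

/-- From independence over `E` of the products with the powers of `x` to independence over
`E(x)`. -/
theorem s34_im_li_of_mul_pow {E F : Type*} [Field E] [Field F] [Algebra E F] (x : F)
    {ι : Type*} [Fintype ι] (c : ι → F)
    (h : LinearIndependent E (fun p : ℕ × ι => x ^ p.1 * c p.2)) :
    LinearIndependent E⟮x⟯ c := by
  classical
  have h6 : LinearIndependent (Algebra.adjoin E {x}) c := by
    rw [Fintype.linearIndependent_iff]
    intro g hg i
    have hmem : ∀ i : ι, ∃ p : Polynomial E, aeval x p = (g i : F) := by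
      intro i
      have h : (g i : F) ∈ (aeval x : Polynomial E →ₐ[E] F).range := by
        rw [← Algebra.adjoin_singleton_eq_range_aeval]
        exact (g i).2
      exact (AlgHom.mem_range _).mp h
    choose P hP using hmem
    set n := (Finset.univ.sup fun i => (P i).natDegree) + 1 with hn
    have hdeg : ∀ i, (P i).natDegree < n := fun i =>
      Nat.lt_succ_of_le (Finset.le_sup (f := fun i => (P i).natDegree) (Finset.mem_univ i))
    have hsum : ∑ p ∈ Finset.range n ×ˢ (Finset.univ : Finset ι),
        (P p.2).coeff p.1 • (x ^ p.1 * c p.2) = 0 := by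
      rw [Finset.sum_product_right, ← hg]
      refine Finset.sum_congr rfl fun i _ => ?_
      rw [Subalgebra.smul_def, smul_eq_mul, ← hP i, Polynomial.aeval_eq_sum_range' (hdeg i),
        Finset.sum_mul]
      refine Finset.sum_congr rfl fun a _ => ?_
      rw [smul_mul_assoc]
    have hzero := linearIndependent_iff'.mp h _ (fun p => (P p.2).coeff p.1) hsum
    have hPi : P i = 0 := by
      ext a
      rw [Polynomial.coeff_zero]
      by_cases ha : a < n
      · exact hzero (a, i) (Finset.mem_product.mpr ⟨Finset.mem_range.mpr ha, Finset.mem_univ i⟩)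
      · exact Polynomial.coeff_eq_zero_of_natDegree_lt (lt_of_lt_of_le (hdeg i) (not_lt.mp ha))
    apply Subtype.ext
    rw [← hP i, hPi, map_zero]
    rfl
  exact (LinearIndependent.iff_fractionRing (Algebra.adjoin E {x}) E⟮x⟯).mp h6

variable (K : Type*) [Field K] [Algebra ℚ K] [Algebra K (AlgebraicClosure ℚ)] (L : ℕ) [NeZero L]

local notation "Qb" => AlgebraicClosure ℚ
local notation "FK" => laurentBaseChange K (modularFunctionFieldFull L)
local notation "Fb" => modularFunctionFieldBar L

/-- `j` as an element of `K · F_L`. -/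
def s34_im_j : FK :=
  ⟨coeffEmb K jq, coeffEmb_mem_laurentBaseChange K (by
    have h := jqd_mem_full L (one_dvd L)
    rwa [qExpand_one_apply] at h)⟩

omit [Algebra K (AlgebraicClosure ℚ)] [NeZero L] in
theorem s34_im_coe_j : ((s34_im_j K L : FK) : LaurentSeries K) = jqModC K := by
  show coeffEmb K jq = _
  rw [← jqModC_rat, coeffEmb, coeffMap_jqModC]

theorem s34_im_baseIncl_j : s18_baseIncl K L (s34_im_j K L) = Fermat.Agent.S24.jF L :=
  Subtype.ext (s18_coeffMap_coeffEmb_bar K jq)

omit [Algebra K (AlgebraicClosure ℚ)] [NeZero L] in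
theorem s34_im_transc_j : Transcendental K (s34_im_j K L) := by
  apply s34_im_transc
  rw [s34_im_coe_j, s34_im_order_of_lead (s18h_lead_jq (R := K))]
  norm_num

/-- Descent of linear independence: a family of `K · F_L` linearly independent over `K(j)` stays
linearly independent over `Q̄(j)` in `Q̄ · F_L`. -/
theorem s34_im_li_bar {ι : Type*} [Fintype ι] (c : ι → FK)
    (hc : LinearIndependent K⟮s34_im_j K L⟯ c) :
    LinearIndependent Qb⟮Fermat.Agent.S24.jF L⟯ (fun i : ι => s18_baseIncl K L (c i)) := by
  classical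
  have h2 := s34_im_li_mul_pow (s34_im_j K L) (s34_im_transc_j K L) c hc
  rw [linearIndependent_iff'] at h2
  apply s34_im_li_of_mul_pow
  rw [linearIndependent_iff']
  intro s g hg
  refine s34_im_ld (Ω := Qb)
    (fun p : ℕ × ι => ((s34_im_j K L ^ p.1 * c p.2 : FK) : LaurentSeries K)) ?_ s g ?_
  · intro s' g' hg'
    apply h2 s' g'
    apply Subtype.ext
    have hcoe := map_sum (laurentBaseChange K (modularFunctionFieldFull L)).val
      (fun i : ℕ × ι => g' i • (s34_im_j K L ^ i.1 * c i.2)) s'
    refine hcoe.trans (Eq.trans ?_ hg')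
    refine Finset.sum_congr rfl fun p _ => ?_
    exact s34_im_coe_smul _ _ _
  · have hcoe := map_sum (modularFunctionFieldBar L).val
      (fun i : ℕ × ι => g i • (Fermat.Agent.S24.jF L ^ i.1 * s18_baseIncl K L (c i.2))) s
    rw [hg] at hcoe
    refine Eq.trans ?_ hcoe.symm
    refine Finset.sum_congr rfl fun p _ => ?_
    refine Eq.trans ?_ (s34_im_coe_smul _ _ _).symm
    rw [← s34_im_baseIncl_j K L, ← map_pow, ← map_mul]
    rfl

/-- **(IM-b1)** `K · F_L` is finite over `K(j)`, for every level `L`. -/
theorem s34_im_finite_j : Module.Finite K⟮s34_im_j K L⟯ FK := by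
  classical
  have hfd : FiniteDimensional Qb⟮Fermat.Agent.S24.jF L⟯ Fb := (Fermat.Agent.S24.asm_generic L).1
  have hrank : Module.rank K⟮s34_im_j K L⟯ FK ≤
      ((Module.finrank Qb⟮Fermat.Agent.S24.jF L⟯ Fb : ℕ) : Cardinal) := by
    apply rank_le
    intro s hs
    have h := (s34_im_li_bar K L (fun i : s => (i : FK)) hs).fintype_card_le_finrank
    rwa [Fintype.card_coe] at h
  exact Module.rank_lt_aleph0_iff.mp (lt_of_le_of_lt hrank (Cardinal.natCast_lt_aleph0))

/-- **(IM-b)** `K · F_L` is finite over `K(t)` for every `t` with `j ∈ K(t)`. -/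
theorem s34_im_finite (t : FK) (hj : s34_im_j K L ∈ K⟮t⟯) : FiniteDimensional K⟮t⟯ FK := by
  have hfin := s34_im_finite_j K L
  have hle : K⟮s34_im_j K L⟯ ≤ K⟮t⟯ := by
    rw [IntermediateField.adjoin_simple_le_iff]
    exact hj
  let _ : SMul K⟮s34_im_j K L⟯ K⟮t⟯ := ⟨fun a b => IntermediateField.inclusion hle a * b⟩
  have : IsScalarTower K⟮s34_im_j K L⟯ K⟮t⟯ FK := ⟨fun a b c => by
    show ((IntermediateField.inclusion hle a * b : K⟮t⟯) : FK) * c = (a : FK) * ((b : FK) * c)
    rw [IntermediateField.coe_mul, IntermediateField.coe_inclusion, mul_assoc]⟩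
  exact Module.Finite.of_restrictScalars_finite K⟮s34_im_j K L⟯ K⟮t⟯ FK

end Finite

section Haupt

variable (K : Type*) [Field K] [Algebra ℚ K] (L : ℕ) [NeZero L]

local notation "FK" => laurentBaseChange K (modularFunctionFieldFull L)

theorem s34_im_coe_t2 (h : 2 ∣ L) :
    ((s18_coord K (s18_cz_t2 L h) : FK) : LaurentSeries K) = s18_t2R K := by
  show coeffEmb K (s18_t2R ℚ) = _
  rw [coeffEmb, s18_coeffMap_t2R]

theorem s34_im_coe_t3 (h : 3 ∣ L) :
    ((s18_coord K (s18_cz_t3 L h) : FK) : LaurentSeries K) = s18_t3R K := by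
  show coeffEmb K (s18_t3R ℚ) = _
  rw [coeffEmb, s18_coeffMap_t3R]

/-- **(IM-a)** for `t₂`. -/
theorem s34_im_transc_t2 (h : 2 ∣ L) : Transcendental K (s18_coord K (s18_cz_t2 L h)) := by
  apply s34_im_transc
  rw [s34_im_coe_t2, s34_im_order_of_lead (s18h_lead_t2R K)]
  norm_num

/-- **(IM-a)** for `t₃`. -/
theorem s34_im_transc_t3 (h : 3 ∣ L) : Transcendental K (s18_coord K (s18_cz_t3 L h)) := by
  apply s34_im_transc
  rw [s34_im_coe_t3, s34_im_order_of_lead (s18h_lead_t3R K)]
  norm_num

theorem s34_im_j_mem_t2 (h : 2 ∣ L) : s34_im_j K L ∈ K⟮s18_coord K (s18_cz_t2 L h)⟯ := by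
  set t := s18_coord K (s18_cz_t2 L h) with ht
  have hmem : t ∈ K⟮t⟯ := IntermediateField.mem_adjoin_simple_self K t
  have heq : s34_im_j K L = (t + 256) ^ 3 * (t⁻¹) ^ 2 := by
    apply Subtype.ext
    rw [s34_im_coe_j, IntermediateField.coe_mul, IntermediateField.coe_pow,
      IntermediateField.coe_pow, IntermediateField.coe_add, IntermediateField.coe_inv,
      s34_im_coe_t2, ← s18_t2invR_eq_inv]
    exact s18_t2R_j_eq K
  rw [heq]
  exact mul_mem (pow_mem (add_mem hmem (ofNat_mem _ 256)) 3) (pow_mem (inv_mem hmem) 2)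

theorem s34_im_j_mem_t3 (h : 3 ∣ L) : s34_im_j K L ∈ K⟮s18_coord K (s18_cz_t3 L h)⟯ := by
  set t := s18_coord K (s18_cz_t3 L h) with ht
  have hmem : t ∈ K⟮t⟯ := IntermediateField.mem_adjoin_simple_self K t
  have heq : s34_im_j K L = (t + 27) * (t + 243) ^ 3 * (t⁻¹) ^ 3 := by
    apply Subtype.ext
    rw [s34_im_coe_j, IntermediateField.coe_mul, IntermediateField.coe_mul,
      IntermediateField.coe_pow, IntermediateField.coe_pow, IntermediateField.coe_add,
      IntermediateField.coe_add, IntermediateField.coe_inv, s34_im_coe_t3, ← s18_t3invR_eq_inv]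
    exact s18_t3R_j_eq K
  rw [heq]
  exact mul_mem (mul_mem (add_mem hmem (ofNat_mem _ 27)) (pow_mem (add_mem hmem (ofNat_mem _ 243)) 3))
    (pow_mem (inv_mem hmem) 3)

variable [Algebra K (AlgebraicClosure ℚ)]

/-- **(IM-b)** for `t₂`: `K · F_L` is finite over `K(t₂)`, for every level `L` divisible by `2`. -/
theorem s34_im_finite_t2 (h : 2 ∣ L) :
    FiniteDimensional K⟮s18_coord K (s18_cz_t2 L h)⟯ FK :=
  s34_im_finite K L _ (s34_im_j_mem_t2 K L h)

/-- **(IM-b)** for `t₃`: `K · F_L` is finite over `K(t₃)`, for every level `L` divisible by `3`. -/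
theorem s34_im_finite_t3 (h : 3 ∣ L) :
    FiniteDimensional K⟮s18_coord K (s18_cz_t3 L h)⟯ FK :=
  s34_im_finite K L _ (s34_im_j_mem_t3 K L h)

end Haupt

end Fermat.Agent.S34
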