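import Mathlib
import Fermat.Agent.S34.InstDefs
import Fermat.Agent.S34.IcModel

/-!
# S34 (INST), contract item 1: `s34_ct_fin`

For the Hauptmodul `tL = t₂` or `t₃` at the level `N₁ * q`, the coordinate `s18_coord K₁ tL` is
transcendental over `K₁` and `K₁ · F(N₁ q)` is finite over `K₁(t)` (from `IcModel.lean`).
-/

set_option autoImplicit false
set_option synthInstance.maxHeartbeats 400000

open ModularCurve AlgebraicCurve

noncomputable section

namespace Fermat.Agent.S34

open Fermat.Agent.S18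

/-- **Contract item 1 (fin).** -/
theorem s34_fi_ct_fin : s34_ct_fin := by
  intro N₁ q _ _ K₁ tL htL
  rcases htL with ⟨h, h2⟩ | ⟨h, h3⟩
  · obtain rfl : tL = s18_cz_t2 (N₁ * q) (dvd_mul_of_dvd_left h2 q) := Subtype.ext h
    exact ⟨s34_im_transc_t2 K₁ (N₁ * q) _, s34_im_finite_t2 K₁ (N₁ * q) _⟩
  · obtain rfl : tL = s18_cz_t3 (N₁ * q) (dvd_mul_of_dvd_left h3 q) := Subtype.ext h
    exact ⟨s34_im_transc_t3 K₁ (N₁ * q) _, s34_im_finite_t3 K₁ (N₁ * q) _⟩

end Fermat.Agent.S34
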