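import Fermat.Agent.S34.UDef

/-!
# S34: (U) from the power statement

`s34_U_of_pow` : (U) follows once, for every `τ` in an inertia group at `q`, every `m` prime to `q`
and every function `g ≠ 0` of level `N` all of whose orders are divisible by `m`, the function
`v = τ²g · g / (τg)²` is an `m`-th power in the function field `Q̄ · F(N)`.

(Indeed, for `x = [D]` with `m D = div g` we get `div v = m (τ - 1)² D`, so `(τ - 1)² D = div h`
if `h ^ m = v`.)
-/

set_option autoImplicit false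

open ModularCurve AlgebraicCurve

noncomputable section

namespace Fermat.Agent.S34

/-- The core computation, for a semilinear automorphism `σ` of an arbitrary function field and one
class `x` killed by `m`. -/
theorem s34_sq_zero_of_pow_gen {K F : Type*} [Field K] [Field F] [Algebra K F]
    (σ : SemilinearAut K F) (m : ℕ) (hm : 0 < m) (x : Pic0 K F) (hx : m • x = 0)
    (hpow : ∀ g : F, g ≠ 0 → (∀ v : Place K F, (m : ℤ) ∣ v.ord g) →
      ∃ h : F, h ^ m = (σ • (σ • g)) * g / (σ • g) ^ 2) :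
    σ • σ • x - 2 • (σ • x) + x = 0 := by
  classical
  obtain ⟨D, rfl⟩ := Pic0.mk_surjective x
  -- `m D` is principal
  have hmD : (m • D : Divisor.degZero (K := K) (F := F)) ∈
      (Divisor.principal (K := K) (F := F)).addSubgroupOf (Divisor.degZero (K := K) (F := F)) := by
    have h1 : Pic0.mk (m • D) = (0 : Pic0 K F) := by
      rw [← hx]; rfl
    exact (QuotientAddGroup.eq_zero_iff _).mp h1
  rw [AddSubgroup.mem_addSubgroupOf] at hmD
  obtain ⟨g, hg0, hg⟩ := hmD
  have hgD : ∀ v : Place K F, v.ord g = (m : ℤ) * (D : Divisor K F) v := by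
    intro v
    rw [← hg v]
    simp [Finsupp.smul_apply]
  obtain ⟨h, hh⟩ := hpow g hg0 (fun v => ⟨_, hgD v⟩)
  have hσ0 : ∀ z : F, z ≠ 0 → σ • z ≠ 0 := by
    intro z hz h0
    apply hz
    have := congrArg (fun y => σ⁻¹ • y) h0
    simpa using this
  have hσg0 : σ • g ≠ 0 := hσ0 g hg0
  have hσσg0 : σ • (σ • g) ≠ 0 := hσ0 _ hσg0
  have hv0 : σ • (σ • g) * g / (σ • g) ^ 2 ≠ 0 :=
    div_ne_zero (mul_ne_zero hσσg0 hg0) (pow_ne_zero 2 hσg0)
  have hh0 : h ≠ 0 := by
    rintro rfl
    rw [zero_pow hm.ne'] at hh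
    exact hv0 hh.symm
  -- orders of the translates
  have hord1 : ∀ w : Place K F, w.ord (σ • g) = (m : ℤ) * (D : Divisor K F) (σ⁻¹ • w) := by
    intro w
    have h1 := SemilinearAut.ord_smul σ (σ⁻¹ • w) g
    rw [smul_inv_smul] at h1
    rw [h1, hgD]
  have hord2 : ∀ w : Place K F,
      w.ord (σ • (σ • g)) = (m : ℤ) * (D : Divisor K F) (σ⁻¹ • (σ⁻¹ • w)) := by
    intro w
    have h1 := SemilinearAut.ord_smul σ (σ⁻¹ • w) (σ • g)
    rw [smul_inv_smul] at h1
    rw [h1, hord1]
  -- the class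
  have hcls : σ • σ • Pic0.mk D - 2 • (σ • Pic0.mk D) + Pic0.mk D =
      Pic0.mk (SemilinearAut.degZeroSMulHom σ (SemilinearAut.degZeroSMulHom σ D) -
        2 • SemilinearAut.degZeroSMulHom σ D + D) := rfl
  rw [hcls]
  refine (QuotientAddGroup.eq_zero_iff _).mpr ?_
  rw [AddSubgroup.mem_addSubgroupOf]
  refine ⟨h, hh0, fun w => ?_⟩
  have hE : ((SemilinearAut.degZeroSMulHom σ (SemilinearAut.degZeroSMulHom σ D) -
        2 • SemilinearAut.degZeroSMulHom σ D + D :
          Divisor.degZero (K := K) (F := F)) : Divisor K F) w =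
      (D : Divisor K F) (σ⁻¹ • (σ⁻¹ • w)) - 2 * (D : Divisor K F) (σ⁻¹ • w) +
        (D : Divisor K F) w := by
    simp only [AddSubgroup.coe_add, AddSubgroup.coe_sub, AddSubgroup.coe_nsmul,
      SemilinearAut.coe_degZeroSMulHom, Finsupp.add_apply, Finsupp.sub_apply, Finsupp.smul_apply,
      SemilinearAut.divisor_smul_apply]
    simp
  rw [hE]
  -- compare with `m * ord h`
  have hmz : (m : ℤ) ≠ 0 := by exact_mod_cast hm.ne'
  apply mul_left_cancel₀ hmz
  have hordh : (m : ℤ) * w.ord h = w.ord (h ^ m) := by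
    have := w.ord_zpow h (m : ℤ)
    rw [zpow_natCast] at this
    rw [this]
  rw [hordh, hh, div_eq_mul_inv,
    w.ord_mul (mul_ne_zero hσσg0 hg0) (inv_ne_zero (pow_ne_zero 2 hσg0)),
    w.ord_mul hσσg0 hg0, w.ord_inv, hord2, hgD]
  have hsq : w.ord ((σ • g) ^ 2) = 2 * w.ord (σ • g) := by
    have := w.ord_zpow (σ • g) (2 : ℤ)
    rw [show ((σ • g) ^ (2 : ℤ)) = (σ • g) ^ 2 from zpow_ofNat _ 2] at this
    exact this
  rw [hsq, hord1]
  ring

local notation "Qb" => AlgebraicClosure ℚ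

/-- **(U) from the power statement.** -/
theorem s34_U_of_pow (N : ℕ) (p q : ℕ) (hp : p.Prime) (hq : q.Prime) (hqp : q ≠ p)
    (hpow : ∀ P : ValuationSubring Qb, P.LiesOverPrime q → ∀ τ ∈ P.inertiaSubgroupIn ℚ,
      ∀ m : ℕ, 0 < m → ¬ q ∣ m → ∀ g : modularFunctionFieldBar N, g ≠ 0 →
        (∀ v : Place Qb (modularFunctionFieldBar N), (m : ℤ) ∣ v.ord g) →
        ∃ h : modularFunctionFieldBar N,
          h ^ m = (arithmeticGalois (modularFunctionFieldFull N) τ •
              (arithmeticGalois (modularFunctionFieldFull N) τ • g)) * g /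
            (arithmeticGalois (modularFunctionFieldFull N) τ • g) ^ 2) :
    s34_U N p q := by
  intro P hP τ hτ n x hx
  have hm : 0 < p ^ n := pow_pos hp.pos n
  have hqm : ¬ q ∣ p ^ n := fun hd =>
    hqp ((Nat.prime_dvd_prime_iff_eq hq hp).mp (hq.dvd_of_dvd_pow hd))
  exact s34_sq_zero_of_pow_gen (arithmeticGalois (modularFunctionFieldFull N) τ) (p ^ n) hm x hx
    (hpow P hP τ hτ (p ^ n) hm hqm)

end Fermat.Agent.S34
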