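import Mathlib
import Fermat.Agent.S18.InjDescent
import Fermat.Agent.S34.UOfPow

/-!
# S34 (NODE), leaf (AUX): the power statement and the auxiliary level

`s34_PowLevel N q` is, verbatim, the hypothesis `hpow` of `s34_U_of_pow`: for every `τ` in an
inertia group at `q`, every `m` prime to `q` and every function `g ≠ 0` of level `N` all of whose
orders are divisible by `m`, the function `τ²g · g / (τg)²` is an `m`-th power in `Q̄ · F(N)`.

`s34_pl_of_level` : the power statement at level `N` follows from the power statements at the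
levels `lcm N M`, `M ∈ {2, 3}`, `M ≠ q` (norm descent, exactly as in `s18_inj_of_level`).

`s34_pl_U` : hence (U) at level `N` follows from the power statements at these auxiliary levels.
-/

set_option autoImplicit false

open ModularCurve AlgebraicCurve

noncomputable section

namespace Fermat.Agent.S34

open Fermat.Agent.S18

local notation "Qb" => AlgebraicClosure ℚ

/-- The power statement at level `N` for the prime `q` (the hypothesis of `s34_U_of_pow`). -/
def s34_PowLevel (N q : ℕ) : Prop :=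
  ∀ P : ValuationSubring Qb, P.LiesOverPrime q → ∀ τ ∈ P.inertiaSubgroupIn ℚ,
    ∀ m : ℕ, 0 < m → ¬ q ∣ m → ∀ g : modularFunctionFieldBar N, g ≠ 0 →
      (∀ v : Place Qb (modularFunctionFieldBar N), (m : ℤ) ∣ v.ord g) →
      ∃ h : modularFunctionFieldBar N,
        h ^ m = (arithmeticGalois (modularFunctionFieldFull N) τ •
            (arithmeticGalois (modularFunctionFieldFull N) τ • g)) * g /
          (arithmeticGalois (modularFunctionFieldFull N) τ • g) ^ 2

/-- (U) from the power statement (restatement of `s34_U_of_pow`). -/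
theorem s34_pl_U_of_powLevel (N : ℕ) (p q : ℕ) (hp : p.Prime) (hq : q.Prime) (hqp : q ≠ p)
    (h : s34_PowLevel N q) : s34_U N p q :=
  s34_U_of_pow N p q hp hq hqp h

/-- The coefficientwise Galois action commutes with the inclusion of levels. -/
theorem s34_pl_smul_coe (N : ℕ) (τ : Qb ≃ₐ[ℚ] Qb) (g : modularFunctionFieldBar N) :
    ((arithmeticGalois (modularFunctionFieldFull N) τ • g : modularFunctionFieldBar N) :
      LaurentSeries Qb) = coeffMap (τ : Qb →+* Qb) (g : LaurentSeries Qb) :=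
  rfl

/-- The power statement at level `N` from the power statements at the levels `lcm N M`,
`M ∈ {2, 3}`, `M ≠ q`. -/
theorem s34_pl_of_level (N q : ℕ) [NeZero N] (hq : q.Prime)
    (hlev : ∀ M : ℕ, (M = 2 ∨ M = 3) → M ≠ q → s34_PowLevel (Nat.lcm N M) q) :
    s34_PowLevel N q := by
  intro P hP τ hτ m hm0 hqm g hg0 hdiv
  set σ := arithmeticGalois (modularFunctionFieldFull N) τ with hσ
  set v : modularFunctionFieldBar N := (σ • (σ • g)) * g / (σ • g) ^ 2 with hv
  -- for each admissible `M`, `v ^ (M + 1)` is an `m`-th power at level `N`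
  have key : ∀ M : ℕ, (M = 2 ∨ M = 3) → M ≠ q → ∃ y : modularFunctionFieldBar N,
      y ^ m = v ^ (M + 1) := by
    intro M hM hMq
    have hM0 : M ≠ 0 := by rcases hM with rfl | rfl <;> norm_num
    have : NeZero (Nat.lcm N M) := ⟨Nat.lcm_ne_zero (NeZero.ne N) hM0⟩
    have hdvd : N ∣ Nat.lcm N M := Nat.dvd_lcm_left N M
    have hle := s18_d5_le (N := N) (N' := Nat.lcm N M) hdvd
    set g' : modularFunctionFieldBar (Nat.lcm N M) := ⟨(g : LaurentSeries Qb), hle g.2⟩ with hg'
    have hg'0 : g' ≠ 0 := by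
      intro h0
      apply hg0
      apply Subtype.ext
      have := congrArg Subtype.val h0
      simpa [hg'] using this
    have hdiv' : ∀ P' : Place Qb (modularFunctionFieldBar (Nat.lcm N M)), (m : ℤ) ∣ P'.ord g' :=
      s18_d7_dvd hdvd (m : ℤ) (g : LaurentSeries Qb) g.2 (fun P => hdiv P)
    obtain ⟨x, hx⟩ := hlev M hM hMq P hP τ hτ m hm0 hqm g' hg'0 hdiv'
    have hxp : (x : LaurentSeries Qb) ^ m = (v : LaurentSeries Qb) := by
      have h1 : (x : LaurentSeries Qb) ^ m =
          coeffMap (τ : Qb →+* Qb) (coeffMap (τ : Qb →+* Qb) (g : LaurentSeries Qb)) *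
            (g : LaurentSeries Qb) / (coeffMap (τ : Qb →+* Qb) (g : LaurentSeries Qb)) ^ 2 :=
        congrArg Subtype.val hx
      have h2 : (v : LaurentSeries Qb) =
          coeffMap (τ : Qb →+* Qb) (coeffMap (τ : Qb →+* Qb) (g : LaurentSeries Qb)) *
            (g : LaurentSeries Qb) / (coeffMap (τ : Qb →+* Qb) (g : LaurentSeries Qb)) ^ 2 := rfl
      rw [h1, h2]
    obtain ⟨y, hy, hym⟩ := s18_descent_pow N M hM m (v : LaurentSeries Qb) v.2 x x.2 hxp
    exact ⟨⟨y, hy⟩, Subtype.ext (by simpa using hym)⟩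
  have hqm' : Nat.Coprime m q := (hq.coprime_iff_not_dvd.mpr hqm).symm
  by_cases h2 : q = 2
  · obtain ⟨y, hy⟩ := key 3 (Or.inr rfl) (by omega)
    have hcop : Nat.Coprime m (3 + 1) := by
      subst h2
      exact Nat.Coprime.pow_right 2 hqm'
    exact s18_root_of_coprime m (3 + 1) hm0 hcop _ y hy
  by_cases h3 : q = 3
  · obtain ⟨y, hy⟩ := key 2 (Or.inl rfl) (by omega)
    have hcop : Nat.Coprime m (2 + 1) := by
      subst h3
      exact hqm'
    exact s18_root_of_coprime m (2 + 1) hm0 hcop _ y hy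
  · obtain ⟨y2, hy2⟩ := key 2 (Or.inl rfl) (fun h => h2 h.symm)
    obtain ⟨y3, hy3⟩ := key 3 (Or.inr rfl) (fun h => h3 h.symm)
    by_cases h0 : v = 0
    · exact ⟨0, by rw [h0, zero_pow hm0.ne']⟩
    refine ⟨y3 / y2, ?_⟩
    rw [div_pow, hy3, hy2]
    field_simp
    rw [pow_succ]

/-- **(U) from the power statements at the auxiliary levels** `lcm N M`, `M ∈ {2, 3}`,
`M ≠ q`. -/
theorem s34_pl_U (N : ℕ) [NeZero N] (p q : ℕ) (hp : p.Prime) (hq : q.Prime) (hqp : q ≠ p)
    (hlev : ∀ M : ℕ, (M = 2 ∨ M = 3) → M ≠ q → s34_PowLevel (Nat.lcm N M) q) :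
    s34_U N p q :=
  s34_U_of_pow N p q hp hq hqp (s34_pl_of_level N q hq hlev)

/-- Arithmetic of the auxiliary level: if `q ∥ N`, `M` is a prime `≠ q`, then `q ∥ lcm N M`,
`lcm N M = lcm (N / q) M * q`, and `lcm (N / q) M` is divisible by `M` and prime to `q`. -/
theorem s34_pl_level_arith (N q M : ℕ) (hq : q.Prime) (hM : M.Prime) (hMq : M ≠ q)
    (hqN : q ∣ N) (hq2 : ¬ q ^ 2 ∣ N) :
    Nat.lcm N M = Nat.lcm (N / q) M * q ∧ M ∣ Nat.lcm (N / q) M ∧ ¬ q ∣ Nat.lcm (N / q) M := by
  obtain ⟨N', rfl⟩ := hqN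
  have hq0 : 0 < q := hq.pos
  have hqN' : ¬ q ∣ N' := by
    rintro ⟨k, rfl⟩
    exact hq2 ⟨k, by ring⟩
  rw [Nat.mul_div_cancel_left _ hq0]
  have hqM : Nat.Coprime q M := (Nat.coprime_primes hq hM).mpr (fun h => hMq h.symm)
  have hnot : ¬ q ∣ Nat.lcm N' M := by
    intro hd
    have h1 : q ∣ N' * M := hd.trans (Nat.lcm_dvd_mul N' M)
    rcases hq.dvd_mul.mp h1 with h2 | h2
    · exact hqN' h2
    · exact hMq ((Nat.prime_dvd_prime_iff_eq hq hM).mp h2).symm
  refine ⟨?_, Nat.dvd_lcm_right N' M, hnot⟩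
  apply Nat.dvd_antisymm
  · apply Nat.lcm_dvd
    · rw [mul_comm q N']
      exact Nat.mul_dvd_mul_right (Nat.dvd_lcm_left N' M) q
    · exact (Nat.dvd_lcm_right N' M).mul_right q
  · have hcop : Nat.Coprime (Nat.lcm N' M) q := (hq.coprime_iff_not_dvd.mpr hnot).symm
    apply hcop.mul_dvd_of_dvd_of_dvd
    · apply Nat.lcm_dvd
      · exact (Dvd.intro_left q rfl).trans (Nat.dvd_lcm_left (q * N') M)
      · exact Nat.dvd_lcm_right (q * N') M
    · exact (Dvd.intro N' rfl).trans (Nat.dvd_lcm_left (q * N') M)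

end Fermat.Agent.S34
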