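import Mathlib
import Fermat.Agent.S34.PowLevel

/-!
# S34 (NODE), final wiring: (U) from the power statement of the model

`s34_fin_U_of_model` : if the power statement `s34_PowLevel (N₁ * q) q` holds at every level
`N₁ * q` with `q ∤ N₁` and `M ∣ N₁` for some `M ∈ {2, 3}` (the levels at which the nodal two-chart
model is built), then (U) = `s34_U N p q` holds for every `N` with `q ∥ N` and every prime
`p ≠ q`.  (`s34_pl_U` + `s34_pl_level_arith`.)
-/

set_option autoImplicit false

open ModularCurve AlgebraicCurve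

noncomputable section

namespace Fermat.Agent.S34

/-- (U) at every level `N` with `q ∥ N` from the power statement at the model levels. -/
theorem s34_fin_U_of_model
    (hmodel : ∀ N₁ q M : ℕ, N₁ ≠ 0 → (M = 2 ∨ M = 3) → M ∣ N₁ → q.Prime → ¬ q ∣ N₁ →
      s34_PowLevel (N₁ * q) q)
    (N : ℕ) [NeZero N] (p q : ℕ) (hp : p.Prime) (hq : q.Prime) (hqp : q ≠ p) (hqN : q ∣ N)
    (hq2 : ¬ q ^ 2 ∣ N) : s34_U N p q := by
  refine s34_pl_U N p q hp hq hqp (fun M hM hMq => ?_)
  have hMp : M.Prime := by rcases hM with rfl | rfl <;> norm_num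
  obtain ⟨h1, h2, h3⟩ := s34_pl_level_arith N q M hq hMp hMq hqN hq2
  rw [h1]
  refine hmodel (Nat.lcm (N / q) M) q M ?_ hM h2 hq h3
  apply Nat.lcm_ne_zero
  · obtain ⟨N', rfl⟩ := hqN
    rw [Nat.mul_div_cancel_left _ hq.pos]
    intro h0
    exact NeZero.ne (q * N') (by rw [h0, mul_zero])
  · exact hMp.ne_zero

end Fermat.Agent.S34
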