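import Mathlib
import Fermat.Agent.S18.DvrAtPrime
import Fermat.Agent.S34.IcChart

/-!
# S34 (NODE), generic model leaf (DVR): horizontal primes of an integral-closure chart

`A₀` a discrete valuation ring with uniformizer `π`, `B` a domain integral over `A₀[t]`.

* `s34_dvr_alg_quot` : for a nonzero prime `Q` of `B` the quotient `B ⧸ Q` is algebraic over `A₀`.
* `s34_dvr_height_one` : a prime `𝔮 ∌ π` of `B` contains no nonzero prime other than itself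
  (the "horizontal" primes have height at most one).
* `s34_ic_hdvr` : for the chart `B = s34_ic_chart A₀ t` the local ring `B_𝔮` at a nonzero prime
  `𝔮 ∌ π` is a discrete valuation ring (the hypothesis `hdvr` of the node lemma).
-/

set_option autoImplicit false

namespace Fermat.Agent.S34

open Polynomial IntermediateField Fermat.Agent.S18

/-- Modulo a nonzero prime, a domain integral over `A₀[t]` is algebraic over `A₀`. -/
theorem s34_dvr_alg_quot {A₀ B : Type*} [CommRing A₀] [IsDomain A₀] [CommRing B] [IsDomain B]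
    [Algebra A₀ B] (t : B)
    (hint : ((aeval t : A₀[X] →ₐ[A₀] B) : A₀[X] →+* B).IsIntegral)
    (Q : Ideal B) [Q.IsPrime] (hQ0 : Q ≠ ⊥) : Algebra.IsAlgebraic A₀ (B ⧸ Q) := by
  classical
  set φ : A₀[X] →+* B := ((aeval t : A₀[X] →ₐ[A₀] B) : A₀[X] →+* B) with hφ
  have hφa : ∀ P : A₀[X], φ P = aeval t P := fun _ => rfl
  -- step 1: the class of `t` is algebraic over `A₀`
  have h1 : IsAlgebraic A₀ (Ideal.Quotient.mkₐ A₀ Q t) := by
    obtain ⟨y, hyQ, hy0⟩ := Submodule.exists_mem_ne_zero_of_ne_bot hQ0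
    let _ : Algebra A₀[X] B := φ.toAlgebra
    obtain ⟨p, hp, hpy⟩ := hint y
    have halg : IsAlgebraic A₀[X] y := ⟨p, hp.ne_zero, hpy⟩
    obtain ⟨q, hq0, hqy⟩ :=
      halg.exists_nonzero_coeff_and_aeval_eq_zero (mem_nonZeroDivisors_of_ne_zero hy0)
    refine ⟨q.coeff 0, hq0, ?_⟩
    rw [aeval_algHom_apply, Ideal.Quotient.mkₐ_eq_mk, Ideal.Quotient.eq_zero_iff_mem]
    have h2 : aeval y q = aeval y (divX q) * y + φ (q.coeff 0) := by
      conv_lhs => rw [← divX_mul_X_add q]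
      rw [map_add, map_mul, aeval_X, aeval_C]
      rfl
    have h3 : (aeval t (q.coeff 0) : B) = -(aeval y (divX q)) * y := by
      rw [← hφa]
      rw [hqy] at h2
      linear_combination -h2
    rw [h3]
    exact Q.mul_mem_left _ hyQ
  -- step 2: everything is integral over `A₀[t̄]`
  set tb : B ⧸ Q := Ideal.Quotient.mkₐ A₀ Q t with htb
  set S : Subalgebra A₀ (B ⧸ Q) := Algebra.adjoin A₀ ({tb} : Set (B ⧸ Q)) with hS
  have : Algebra.IsAlgebraic A₀ S :=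
    (Subalgebra.isAlgebraic_iff S).mp (Algebra.isAlgebraic_adjoin_singleton_iff.mpr h1)
  let ρ : A₀[X] →+* S :=
    ((aeval tb : A₀[X] →ₐ[A₀] (B ⧸ Q)) : A₀[X] →+* (B ⧸ Q)).codRestrict S.toSubring
      (fun P => aeval_mem_adjoin_singleton A₀ tb)
  have hρ : (algebraMap S (B ⧸ Q)).comp ρ = (Ideal.Quotient.mk Q).comp φ := by
    ext P
    · simp [ρ, φ, tb]
    · simp [ρ, φ, tb]
  refine ⟨fun d => ?_⟩
  obtain ⟨b, rfl⟩ := Ideal.Quotient.mk_surjective d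
  obtain ⟨p, hp, hpb⟩ := hint b
  have hb : IsIntegral S (Ideal.Quotient.mk Q b) := by
    refine ⟨p.map ρ, hp.map ρ, ?_⟩
    rw [eval₂_map, hρ, ← hom_eval₂, hpb, map_zero]
  exact hb.trans_isAlgebraic A₀

/-- **Horizontal primes have height at most one.**  `A₀` a discrete valuation ring with
uniformizer `π`, `B` a domain integral over `A₀[t]`, `𝔮` a prime of `B` not containing `π`.
Then every nonzero prime contained in `𝔮` equals `𝔮`. -/
theorem s34_dvr_height_one {A₀ B : Type*} [CommRing A₀] [IsDomain A₀]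
    [IsDiscreteValuationRing A₀] [CommRing B] [IsDomain B] [Algebra A₀ B]
    (π : A₀) (hπ : Irreducible π) (t : B)
    (hint : ((aeval t : A₀[X] →ₐ[A₀] B) : A₀[X] →+* B).IsIntegral)
    (𝔮 : Ideal B) [h𝔮 : 𝔮.IsPrime] (hϖ : algebraMap A₀ B π ∉ 𝔮)
    (Q : Ideal B) [hQ : Q.IsPrime] (hQ0 : Q ≠ ⊥) (hle : Q ≤ 𝔮) : Q = 𝔮 := by
  classical
  refine le_antisymm hle fun x hx => ?_
  by_contra hxQ
  have := s34_dvr_alg_quot t hint Q hQ0
  have hx0 : Ideal.Quotient.mk Q x ≠ 0 := fun h => hxQ (Ideal.Quotient.eq_zero_iff_mem.mp h)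
  have h1 := Ideal.comap_ne_bot_of_algebraic_mem (R := A₀) (I := 𝔮.map (Ideal.Quotient.mk Q))
    hx0 (Ideal.mem_map_of_mem _ hx) (Algebra.IsAlgebraic.isAlgebraic _)
  obtain ⟨a, ha, ha0⟩ := Submodule.exists_mem_ne_zero_of_ne_bot h1
  have ha' : algebraMap A₀ B a ∈ 𝔮 := by
    have h2 : Ideal.Quotient.mk Q (algebraMap A₀ B a) ∈ 𝔮.map (Ideal.Quotient.mk Q) := ha
    exact (Ideal.mem_quotient_iff_mem hle).mp h2
  obtain ⟨n, u, hu⟩ := IsDiscreteValuationRing.associated_pow_irreducible ha0 hπ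
  have h3 : algebraMap A₀ B (π ^ n) ∈ 𝔮 := by
    rw [← hu, map_mul]
    exact 𝔮.mul_mem_right _ ha'
  rw [map_pow] at h3
  exact hϖ (h𝔮.mem_of_pow_mem n h3)

section Chart

variable {A₀ F : Type*} [CommRing A₀] [Field F] [Algebra A₀ F]

/-- The chart is integral over `A₀[X]` through `X ↦ t` (internal form). -/
theorem s34_ic_isIntegral_aeval (t : F) :
    ((aeval (⟨t, s34_ic_t_mem t⟩ : s34_ic_chart A₀ t) : A₀[X] →ₐ[A₀] s34_ic_chart A₀ t) :
      A₀[X] →+* s34_ic_chart A₀ t).IsIntegral := by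
  intro x
  obtain ⟨p, hp, hpx⟩ := s34_ic_mem_iff.mp x.2
  refine ⟨p, hp, ?_⟩
  apply Subtype.ext
  have h1 := hom_eval₂ p
    ((aeval (⟨t, s34_ic_t_mem t⟩ : s34_ic_chart A₀ t) : A₀[X] →ₐ[A₀] s34_ic_chart A₀ t) :
      A₀[X] →+* s34_ic_chart A₀ t)
    ((s34_ic_chart A₀ t).val : s34_ic_chart A₀ t →+* F) x
  have h2 : (((s34_ic_chart A₀ t).val : s34_ic_chart A₀ t →+* F)).comp
      ((aeval (⟨t, s34_ic_t_mem t⟩ : s34_ic_chart A₀ t) : A₀[X] →ₐ[A₀] s34_ic_chart A₀ t) :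
        A₀[X] →+* s34_ic_chart A₀ t) = ((aeval t : A₀[X] →ₐ[A₀] F) : A₀[X] →+* F) := by
    ext P
    · simp
    · simp
  rw [h2] at h1
  exact h1.trans hpx

variable [IsDomain A₀] [IsDiscreteValuationRing A₀]

/-- Horizontal primes of the chart have height at most one. -/
theorem s34_ic_height_one (π : A₀) (hπ : Irreducible π) (t : F)
    (𝔮 : Ideal (s34_ic_chart A₀ t).toSubring) (h𝔮 : 𝔮.IsPrime)
    (hmem : algebraMap A₀ F π ∈ (s34_ic_chart A₀ t).toSubring)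
    (hϖ : (⟨algebraMap A₀ F π, hmem⟩ : (s34_ic_chart A₀ t).toSubring) ∉ 𝔮)
    (Q : Ideal (s34_ic_chart A₀ t).toSubring) (hQ : Q.IsPrime) (hQ0 : Q ≠ ⊥) (hle : Q ≤ 𝔮) :
    Q = 𝔮 :=
  s34_dvr_height_one (B := s34_ic_chart A₀ t) π hπ ⟨t, s34_ic_t_mem t⟩
    (s34_ic_isIntegral_aeval t) 𝔮 (h𝔮 := h𝔮) hϖ Q (hQ := hQ) hQ0 hle

end Chart

section ChartDvr

variable {A₀ K F : Type*} [CommRing A₀] [IsDomain A₀] [IsDiscreteValuationRing A₀]
  [Field K] [CharZero K] [Algebra A₀ K] [IsFractionRing A₀ K]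
  [Field F] [Algebra K F] [Algebra A₀ F] [IsScalarTower A₀ K F]

/-- **(DVR)** The local ring of the chart `B = s34_ic_chart A₀ t` at a nonzero prime `𝔮 ∌ π` is a
discrete valuation ring of `F` (the hypothesis `hdvr` of the node lemma `s34_node_G`). -/
theorem s34_ic_hdvr (π : A₀) (hπ : Irreducible π) (t : F) (ht : Transcendental K t)
    [FiniteDimensional K⟮t⟯ F]
    (𝔮 : Ideal (s34_ic_chart A₀ t).toSubring) (h𝔮 : 𝔮.IsPrime)
    (hmem : algebraMap A₀ F π ∈ (s34_ic_chart A₀ t).toSubring)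
    (hϖ : (⟨algebraMap A₀ F π, hmem⟩ : (s34_ic_chart A₀ t).toSubring) ∉ 𝔮) (h0 : 𝔮 ≠ ⊥) :
    ∃ W : ValuationSubring F, IsDiscreteValuationRing W ∧
      ∀ z : F, z ∈ W ↔ ∃ a s : (s34_ic_chart A₀ t).toSubring, s ∉ 𝔮 ∧ z = (a : F) / (s : F) := by
  refine s18_e1_dvr_at_prime (s34_ic_chart A₀ t).toSubring
    (s34_ic_noeth (A₀ := A₀) (K := K) t ht) (s34_ic_frac (A₀ := A₀) (K := K) t) 𝔮 h𝔮 h0
    (fun Q hQ hQ0 hle => s34_ic_height_one π hπ t 𝔮 h𝔮 hmem hϖ Q hQ hQ0 hle)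
    (fun z hz => ⟨1, fun h1 => h𝔮.ne_top ((Ideal.eq_top_iff_one _).mpr h1), ?_⟩)
  have hz' : z ∈ s34_ic_chart A₀ t := s34_ic_normal hz
  simpa using hz'

omit [CharZero K] in
/-- `F` is finite over `K(t⁻¹)` as well. -/
theorem s34_ic_finiteDimensional_inv (t : F) [FiniteDimensional K⟮t⟯ F] :
    FiniteDimensional K⟮t⁻¹⟯ F :=
  (s34_ic_adjoin_inv (K := K) t).symm ▸ (inferInstance : FiniteDimensional K⟮t⟯ F)

/-- Noetherianity of the chart at infinity. -/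
theorem s34_ic_noeth_inv (t : F) (ht : Transcendental K t) [FiniteDimensional K⟮t⟯ F] :
    IsNoetherianRing (s34_ic_chart A₀ t⁻¹) := by
  have := s34_ic_finiteDimensional_inv (K := K) t
  exact s34_ic_noeth (A₀ := A₀) (K := K) t⁻¹ (s34_ic_transcendental_inv ht)

/-- `F` is the fraction field of the chart at infinity. -/
theorem s34_ic_frac_inv (t : F) [FiniteDimensional K⟮t⟯ F] (x : F) :
    ∃ a ∈ s34_ic_chart A₀ t⁻¹, ∃ b ∈ s34_ic_chart A₀ t⁻¹, b ≠ 0 ∧ x = a / b := by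
  have := s34_ic_finiteDimensional_inv (K := K) t
  exact s34_ic_frac (A₀ := A₀) (K := K) t⁻¹ x

/-- **(DVR)** at infinity: the same for the chart of `t⁻¹`. -/
theorem s34_ic_hdvr_inv (π : A₀) (hπ : Irreducible π) (t : F) (ht : Transcendental K t)
    [FiniteDimensional K⟮t⟯ F]
    (𝔮 : Ideal (s34_ic_chart A₀ t⁻¹).toSubring) (h𝔮 : 𝔮.IsPrime)
    (hmem : algebraMap A₀ F π ∈ (s34_ic_chart A₀ t⁻¹).toSubring)
    (hϖ : (⟨algebraMap A₀ F π, hmem⟩ : (s34_ic_chart A₀ t⁻¹).toSubring) ∉ 𝔮) (h0 : 𝔮 ≠ ⊥) :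
    ∃ W : ValuationSubring F, IsDiscreteValuationRing W ∧
      ∀ z : F, z ∈ W ↔
        ∃ a s : (s34_ic_chart A₀ t⁻¹).toSubring, s ∉ 𝔮 ∧ z = (a : F) / (s : F) := by
  have := s34_ic_finiteDimensional_inv (K := K) t
  exact s34_ic_hdvr (K := K) π hπ t⁻¹ (s34_ic_transcendental_inv ht) 𝔮 h𝔮 hmem hϖ h0

end ChartDvr

end Fermat.Agent.S34
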