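import Mathlib
import Fermat.Agent.S37.RRat
import Fermat.Agent.S37.RFix
import Fermat.Agent.S37.HHecke
import Fermat.Agent.S18.InjCore

/-!
# S34 (NODE), leaf (RP): rationality of the horizontal primes through a closed point

* `s34_rp_abs` (abstract): a subring `B` of a field `F`, a ring `W ⊇ B` with an evaluation
  `ev : W →+* K`, a valuation subring `A` of `K` with `A ⊆ B` (via `ι`), and a proper ideal `𝔪` of
  `B` containing `ker ev ∩ B` and the nonunits of `A`: then `ev` maps `B` into `A`, i.e. there is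
  `s : B →+* A` with `s a = a` and `ker s = ker ev ∩ B`.  (No integrality is needed.)
* `s34_rp_hrat` (modular): `K₁ ⊆ Q̄` with `A₁ = A ∩ K₁` a discrete valuation ring, `g ∈ K₁ · F_N`
  such that every place of `Q̄ · F_N` in the support of `div g` is fixed by `Gal(Q̄/K₁)`.  For a
  subring `B ⊇ A₁` of `K₁ · F_N`, a proper ideal `𝔪 ∋ π` and a prime `𝔮 ≤ 𝔪` not containing `π`
  with `B_𝔮` a discrete valuation ring at which `g` is not a unit: `𝔮` is the kernel of a ring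
  homomorphism `s : B →+* A₁` which is the identity on `A₁`.
* `s34_rp_exists` : for `g ≠ 0` in `Q̄ · F_N` there is a finite Galois `K₀/ℚ` such that for every
  `K₁ ⊇ K₀`, `g` is defined over `K₁` and `Gal(Q̄/K₁)` fixes every place in the support of `div g`.
-/

set_option autoImplicit false
set_option synthInstance.maxHeartbeats 400000

open AlgebraicCurve ModularCurve
open Fermat.Agent.S18 Fermat.Agent.S37

noncomputable section

namespace Fermat.Agent.S34

local notation "Qb" => AlgebraicClosure ℚ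

/-- **Abstract rationality step.**  An evaluation `ev : W →+* K` maps a subring `B ⊆ W` into the
valuation ring `A ⊆ B` of `K` as soon as some proper ideal `𝔪` of `B` contains `B ∩ ker ev` and
the nonunits of `A`. -/
theorem s34_rp_abs {K F : Type*} [Field K] [Field F] (A : ValuationSubring K) (ι : K →+* F)
    (B : Subring F) (hAB : ∀ a : A, ι (a : K) ∈ B)
    (W : Subring F) (hBW : B ≤ W) (ev : W →+* K)
    (hev : ∀ (a : A), ev ⟨ι (a : K), hBW (hAB a)⟩ = (a : K))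
    (𝔪 : Ideal B) (h𝔪 : 𝔪 ≠ ⊤)
    (hker : ∀ b : B, ev ⟨(b : F), hBW b.2⟩ = 0 → b ∈ 𝔪)
    (hnu : ∀ a : A, (a : K) ∈ A.nonunits → (⟨ι (a : K), hAB a⟩ : B) ∈ 𝔪) :
    ∃ s : B →+* A, (∀ a : A, s ⟨ι (a : K), hAB a⟩ = a) ∧
      ∀ b : B, s b = 0 ↔ ev ⟨(b : F), hBW b.2⟩ = 0 := by
  classical
  -- the composite `B → W → K`
  let e : B →+* K := ev.comp (Subring.inclusion hBW)
  have he : ∀ b : B, e b = ev ⟨(b : F), hBW b.2⟩ := fun b => rfl
  have hmem : ∀ b : B, e b ∈ A := by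
    intro b
    by_contra hc
    set c : K := e b with hcdef
    have hc0 : c ≠ 0 := fun h0 => hc (h0 ▸ A.zero_mem)
    have hci : c⁻¹ ∈ A := (A.mem_or_inv_mem c).resolve_left hc
    have hcnu : c⁻¹ ∈ A.nonunits := by
      rw [ValuationSubring.mem_nonunits_iff_exists_mem_maximalIdeal]
      refine ⟨hci, ?_⟩
      rw [IsLocalRing.mem_maximalIdeal, mem_nonunits_iff]
      intro hu
      obtain ⟨u, hu⟩ := hu
      apply hc
      have h1 : ((u⁻¹ : Aˣ) : A) * (⟨c⁻¹, hci⟩ : A) = 1 := by rw [← hu]; exact u.inv_mul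
      have h2 : (((u⁻¹ : Aˣ) : A) : K) * c⁻¹ = 1 := congrArg Subtype.val h1
      have h3 : (((u⁻¹ : Aˣ) : A) : K) = c := by
        field_simp at h2
        exact h2
      rw [← h3]
      exact ((u⁻¹ : Aˣ) : A).2
    set d : B := ⟨ι ((⟨c⁻¹, hci⟩ : A) : K), hAB ⟨c⁻¹, hci⟩⟩ with hd
    have hd𝔪 : d ∈ 𝔪 := hnu ⟨c⁻¹, hci⟩ hcnu
    have hed : e d = c⁻¹ := by
      rw [he]
      exact hev ⟨c⁻¹, hci⟩
    have hz : (1 - b * d) ∈ 𝔪 := by
      apply hker
      rw [← he, map_sub, map_one, map_mul, hed, ← hcdef, mul_inv_cancel₀ hc0, sub_self]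
    apply h𝔪
    rw [Ideal.eq_top_iff_one]
    have : (1 : B) = (1 - b * d) + b * d := by ring
    rw [this]
    exact 𝔪.add_mem hz (𝔪.mul_mem_left b hd𝔪)
  refine ⟨e.codRestrict A.toSubring hmem, fun a => ?_, fun b => ?_⟩
  · apply Subtype.ext
    show e ⟨ι (a : K), hAB a⟩ = (a : K)
    rw [he]
    exact hev a
  · rw [← he]
    constructor
    · intro h
      have := congrArg Subtype.val h
      exact this
    · intro h
      exact Subtype.ext h

/-- The evaluation at a `K₁`-rational place, on a subring of `K₁ · F_N` regular at the place. -/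
theorem s34_rp_ev (N : ℕ) [NeZero N] (K₁ : IntermediateField ℚ Qb)
    (P : Place Qb (modularFunctionFieldBar N))
    (hfix : ∀ σ : Qb ≃ₐ[ℚ] Qb, (∀ c ∈ K₁, σ c = c) →
      arithmeticGalois (modularFunctionFieldFull N) σ • P = P)
    (W : Subring (s18_F1 K₁ N))
    (hWP : ∀ x ∈ W, s18_baseIncl K₁ N x ∈ P.toValuationSubring) :
    ∃ ev : W →+* K₁, ∀ x : W, algebraMap K₁ Qb (ev x) =
      s37_r_val P (s18_baseIncl K₁ N (x : s18_F1 K₁ N)) := by
  classical
  have := s37_rr_rational N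
  have hinj : Function.Injective (algebraMap K₁ Qb) := (algebraMap K₁ Qb).injective
  choose c hc using fun x : W => s37_rr_val_mem N K₁ P hfix (x : s18_F1 K₁ N) (hWP x x.2)
  refine ⟨{ toFun := c, map_one' := ?_, map_mul' := ?_, map_zero' := ?_, map_add' := ?_ },
    fun x => (hc x).symm⟩
  · apply hinj
    rw [← hc, map_one]
    show s37_r_val P (s18_baseIncl K₁ N (1 : s18_F1 K₁ N)) = 1
    rw [map_one, s37_r_val_one]
  · intro x y
    apply hinj
    rw [← hc, map_mul, ← hc, ← hc]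
    show s37_r_val P (s18_baseIncl K₁ N ((x : s18_F1 K₁ N) * (y : s18_F1 K₁ N))) = _
    rw [map_mul, s37_r_val_mul P (hWP x x.2) (hWP y y.2)]
  · apply hinj
    rw [← hc, map_zero]
    show s37_r_val P (s18_baseIncl K₁ N (0 : s18_F1 K₁ N)) = 0
    rw [map_zero, s37_r_val_zero]
  · intro x y
    apply hinj
    rw [← hc, map_add, ← hc, ← hc]
    show s37_r_val P (s18_baseIncl K₁ N ((x : s18_F1 K₁ N) + (y : s18_F1 K₁ N))) = _
    rw [map_add, s37_r_val_add P (hWP x x.2) (hWP y y.2)]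

/-- **(RP) Rationality of the bad horizontal primes.**  If `Gal(Q̄/K₁)` fixes every place in the
support of `div g`, then a prime `𝔮` of a subring `B ⊇ A₁` of `K₁ · F_N` which lies under a proper
ideal `𝔪 ∋ π`, does not contain `π`, has `B_𝔮` a discrete valuation ring and at which `g` is not a
unit, is the kernel of a ring homomorphism `B →+* A₁` which is the identity on `A₁`. -/
theorem s34_rp_hrat (N : ℕ) [NeZero N] (A : ValuationSubring Qb) (K₁ : IntermediateField ℚ Qb)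
    [IsDiscreteValuationRing (s18_A1 A K₁)] {π : s18_A1 A K₁} (hπ : Irreducible π)
    (g : s18_F1 K₁ N)
    (hfix : ∀ P : Place Qb (modularFunctionFieldBar N), P.ord (s18_baseIncl K₁ N g) ≠ 0 →
      ∀ σ : Qb ≃ₐ[ℚ] Qb, (∀ c ∈ K₁, σ c = c) →
        arithmeticGalois (modularFunctionFieldFull N) σ • P = P)
    (B : Subring (s18_F1 K₁ N))
    (hAB : ∀ a : s18_A1 A K₁, algebraMap (s18_A1 A K₁) (s18_F1 K₁ N) a ∈ B)
    (𝔪 : Ideal B) (h𝔪 : 𝔪 ≠ ⊤)
    (hπ𝔪 : (⟨algebraMap (s18_A1 A K₁) (s18_F1 K₁ N) π, hAB π⟩ : B) ∈ 𝔪)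
    (𝔮 : Ideal B) (h𝔮 : 𝔮.IsPrime) (h𝔮𝔪 : 𝔮 ≤ 𝔪)
    (hπ𝔮 : (⟨algebraMap (s18_A1 A K₁) (s18_F1 K₁ N) π, hAB π⟩ : B) ∉ 𝔮)
    (hdvr : ∃ W : ValuationSubring (s18_F1 K₁ N), IsDiscreteValuationRing W ∧
      ∀ z : s18_F1 K₁ N, z ∈ W ↔
        ∃ a s : B, s ∉ 𝔮 ∧ z = (a : s18_F1 K₁ N) / (s : s18_F1 K₁ N))
    (hbad : ¬ (g ∈ s18_loc B 𝔮 ∧ g⁻¹ ∈ s18_loc B 𝔮)) :
    ∃ s : B →+* s18_A1 A K₁,
      (∀ a : s18_A1 A K₁, s ⟨algebraMap (s18_A1 A K₁) (s18_F1 K₁ N) a, hAB a⟩ = a) ∧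
      RingHom.ker s = 𝔮 := by
  classical
  have := s37_rr_rational N
  obtain ⟨W, hWdvr, hW⟩ := hdvr
  have := hWdvr
  have h1𝔮 : (1 : B) ∉ 𝔮 := fun h => h𝔮.ne_top ((Ideal.eq_top_iff_one _).mpr h)
  -- `B ⊆ W`
  have hBW : ∀ b : B, (b : s18_F1 K₁ N) ∈ W := fun b =>
    (hW _).mpr ⟨b, 1, h1𝔮, by simp⟩
  have hAW : ∀ x : s18_A1 A K₁, algebraMap (s18_A1 A K₁) (s18_F1 K₁ N) x ∈ W := fun x =>
    hBW ⟨_, hAB x⟩
  have hπW : (algebraMap (s18_A1 A K₁) (s18_F1 K₁ N) π)⁻¹ ∈ W :=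
    (hW _).mpr ⟨1, ⟨_, hAB π⟩, hπ𝔮, by simp⟩
  have hK : ∀ c : K₁, algebraMap K₁ (s18_F1 K₁ N) c ∈ W :=
    s18_K_mem_of_A1 N A K₁ hπ W hAW hπW
  obtain ⟨P, hP1, hP2, -⟩ := s18_d3 K₁ N W hK
  -- `g` is not a unit of `W`, so `P` is in the support of `div g`
  have hgW : ¬ (g ∈ W ∧ g⁻¹ ∈ W) := fun h => hbad ⟨(hW g).mp h.1, (hW g⁻¹).mp h.2⟩
  have hord : P.ord (s18_baseIncl K₁ N g) ≠ 0 := by
    by_cases hg : g ∈ W
    · have hgi : g⁻¹ ∉ W := fun h => hgW ⟨hg, h⟩
      have hg0 : g ≠ 0 := fun h0 => hgi (by rw [h0, inv_zero]; exact W.zero_mem)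
      have hnu : g ∈ W.nonunits := by
        have := (W.inv_mem_nonunits_iff (x := g⁻¹)).mpr (Or.inr hgi)
        rwa [inv_inv] at this
      have h2 := hP2 g hnu
      have h3 := (Fermat.Agent.S24.mem_nonunits_iff_ord_pos P
        ((map_ne_zero (s18_baseIncl K₁ N)).mpr hg0)).mp h2
      omega
    · have hg0 : g ≠ 0 := fun h0 => hg (h0 ▸ W.zero_mem)
      have hnu : g⁻¹ ∈ W.nonunits := W.inv_mem_nonunits_iff.mpr (Or.inr hg)
      have h2 := hP2 g⁻¹ hnu
      have h3 := (Fermat.Agent.S24.mem_nonunits_iff_ord_pos P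
        ((map_ne_zero (s18_baseIncl K₁ N)).mpr (inv_ne_zero hg0))).mp h2
      rw [map_inv₀, Place.ord_inv] at h3
      omega
  have hfixP := hfix P hord
  obtain ⟨ev, hev⟩ := s34_rp_ev N K₁ P hfixP W.toSubring (fun x hx => hP1 x hx)
  have hinj : Function.Injective (algebraMap K₁ Qb) := (algebraMap K₁ Qb).injective
  -- the kernel of `ev` on `B` is `𝔮`
  have hker : ∀ b : B, ev ⟨(b : s18_F1 K₁ N), hBW b⟩ = 0 ↔ b ∈ 𝔮 := by
    intro b
    have hbP : s18_baseIncl K₁ N (b : s18_F1 K₁ N) ∈ P.toValuationSubring := hP1 _ (hBW b)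
    have e1 : ev ⟨(b : s18_F1 K₁ N), hBW b⟩ = 0 ↔
        s18_baseIncl K₁ N (b : s18_F1 K₁ N) ∈ P.toValuationSubring.nonunits := by
      rw [← s37_r_val_eq_zero_iff P hbP]
      have h := hev ⟨(b : s18_F1 K₁ N), hBW b⟩
      constructor
      · intro h0
        rw [h0, map_zero] at h
        exact h.symm
      · intro h0
        apply hinj
        rw [h, map_zero]
        exact h0
    rw [e1]
    constructor
    · intro hnu
      by_contra hb𝔮
      have hbi : ((b : s18_F1 K₁ N))⁻¹ ∈ W := (hW _).mpr ⟨1, b, hb𝔮, by simp⟩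
      have hb0 : (b : s18_F1 K₁ N) ≠ 0 := by
        intro h0
        apply hb𝔮
        have : b = 0 := Subtype.ext h0
        rw [this]; exact 𝔮.zero_mem
      have h2 := s37_r_nonunits_mul_mem _ hnu (hP1 _ hbi)
      rw [← map_mul, mul_inv_cancel₀ hb0, map_one] at h2
      have h3 := (ValuationSubring.mem_nonunits_iff_exists_mem_maximalIdeal.mp h2).2
      exact (IsLocalRing.mem_maximalIdeal _).mp h3 isUnit_one
    · intro hb𝔮
      apply hP2
      by_cases hb0 : (b : s18_F1 K₁ N) = 0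
      · rw [hb0]
        exact ValuationSubring.mem_nonunits_iff_exists_mem_maximalIdeal.mpr
          ⟨W.zero_mem, (IsLocalRing.maximalIdeal _).zero_mem⟩
      · have := (W.inv_mem_nonunits_iff (x := ((b : s18_F1 K₁ N))⁻¹)).mpr (Or.inr ?_)
        · rwa [inv_inv] at this
        · intro hbi
          obtain ⟨a, s, hs, hbs⟩ := (hW _).mp hbi
          apply hs
          have hs0 : (s : s18_F1 K₁ N) ≠ 0 := by
            intro h0
            rw [h0, div_zero] at hbs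
            exact hb0 (inv_eq_zero.mp hbs)
          have : s = a * b := by
            apply Subtype.ext
            show (s : s18_F1 K₁ N) = (a : s18_F1 K₁ N) * (b : s18_F1 K₁ N)
            field_simp at hbs
            linear_combination hbs
          rw [this]
          exact 𝔮.mul_mem_left a hb𝔮
  -- apply the abstract step
  obtain ⟨s, hs1, hs2⟩ := s34_rp_abs (s18_A1 A K₁) (algebraMap K₁ (s18_F1 K₁ N)) B
    (fun a => hAB a) W.toSubring (fun b hb => hBW ⟨b, hb⟩) ev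
    (fun a => by
      apply hinj
      rw [hev]
      show s37_r_val P (s18_baseIncl K₁ N (algebraMap K₁ (s18_F1 K₁ N) (a : K₁))) = _
      rw [s18_baseIncl_algebraMap, s37_r_val_algebraMap])
    𝔪 h𝔪 (fun b hb => h𝔮𝔪 ((hker b).mp hb))
    (fun a ha => by
      -- nonunits of `A₁` are multiples of `π`
      have hamax : a ∈ IsLocalRing.maximalIdeal (s18_A1 A K₁) :=
        (ValuationSubring.mem_nonunits_iff_exists_mem_maximalIdeal.mp ha).2
      rw [hπ.maximalIdeal_eq, Ideal.mem_span_singleton'] at hamax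
      obtain ⟨r, hr⟩ := hamax
      have : (⟨algebraMap K₁ (s18_F1 K₁ N) (a : K₁), hAB a⟩ : B) =
          ⟨algebraMap (s18_A1 A K₁) (s18_F1 K₁ N) r, hAB r⟩ *
            ⟨algebraMap (s18_A1 A K₁) (s18_F1 K₁ N) π, hAB π⟩ := by
        apply Subtype.ext
        show algebraMap K₁ (s18_F1 K₁ N) (a : K₁) =
          algebraMap (s18_A1 A K₁) (s18_F1 K₁ N) r * algebraMap (s18_A1 A K₁) (s18_F1 K₁ N) π
        rw [← map_mul, hr]
        rfl
      rw [this]
      exact 𝔪.mul_mem_left _ hπ𝔪)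
  refine ⟨s, fun a => hs1 a, ?_⟩
  ext b
  rw [RingHom.mem_ker, hs2 b, hker b]

/-- **Choice of the number field.**  For `g ≠ 0` in `Q̄ · F_N` there is a finite Galois extension
`K₀/ℚ` such that for every `K₁ ⊇ K₀`: `g` is defined over `K₁`, and `Gal(Q̄/K₁)` fixes every place
in the support of `div g`. -/
theorem s34_rp_exists (N : ℕ) [NeZero N] (g : modularFunctionFieldBar N) (hg : g ≠ 0) :
    ∃ K₀ : IntermediateField ℚ Qb, s18_d1_IsGaloisNF K₀ ∧
      ∀ K₁ : IntermediateField ℚ Qb, K₀ ≤ K₁ →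
        (∃ g₁ : s18_F1 K₁ N, s18_baseIncl K₁ N g₁ = g) ∧
        ∀ P : Place Qb (modularFunctionFieldBar N), P.ord g ≠ 0 →
          ∀ σ : Qb ≃ₐ[ℚ] Qb, (∀ c ∈ K₁, σ c = c) →
            arithmeticGalois (modularFunctionFieldFull N) σ • P = P := by
  classical
  have := s37_h_hasPrincipalDivisors_bar N
  obtain ⟨E, hE, -⟩ :=
    HasPrincipalDivisors.exists_divisor (K := Qb) (F := modularFunctionFieldBar N) g hg
  obtain ⟨Ka, hKa, hfixa⟩ := s37_rf_exists_fixing N E.support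
  obtain ⟨Kb, hKb, hdef⟩ := s18_d1_exists (F₀ := modularFunctionFieldFull N)
    (g : LaurentSeries Qb) g.2
  refine ⟨Ka ⊔ Kb, hKa.sup hKb, fun K₁ hK₁ => ⟨?_, fun P hP σ hσ => ?_⟩⟩
  · obtain ⟨y, hy, hyg⟩ := hdef.mono (le_sup_right.trans hK₁)
    exact ⟨⟨y, hy⟩, Subtype.ext hyg⟩
  · refine hfixa P ?_ σ (fun c hc => hσ c (hK₁ (le_sup_left (a := Ka) (b := Kb) hc)))
    rw [Finsupp.mem_support_iff, hE P]
    exact hP

end Fermat.Agent.S34
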