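import Mathlib
import Fermat.Agent.S18.InjCore
import Fermat.Agent.S34.NodeInst
import Fermat.Agent.S34.RatPt

/-!
# S34 (NODE), sub-assembly (INST-node), part 2: the crossing-point hypothesis in the model

`s34_ni_hG_model` : for a chart `B` of `F = K₁ · F_L` over `A₁ = A ∩ K₁`, the hypothesis
`hG0` / `hGi` of `s34_pow_of_model`, from

* the two Gauss rings `V₁`, `V₂` and the cap property;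
* `hdivg` (all orders of `g₁` divisible by `m`) — gives `hdiv` of `s34_node_G` (`s18_d3_hdiv`);
* `hfix` (the points of the divisor of `g₁` are `K₁`-rational) — gives `hrat` (`s34_rp_hrat`);
* `hdvrB` (`B_𝔮` is a discrete valuation ring at the nonzero horizontal primes; `s34_ic_hdvr`);
* the branch parameters `x`, `y` at the crossing point (transversality).
-/

set_option autoImplicit false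
set_option synthInstance.maxHeartbeats 400000

open ModularCurve AlgebraicCurve

noncomputable section

namespace Fermat.Agent.S34

open Fermat.Agent.S18

/-- **The crossing-point hypothesis `hG0` / `hGi` of `s34_pow_of_model`** in the model. -/
theorem s34_ni_hG_model (L : ℕ) [NeZero L] (A : ValuationSubring (AlgebraicClosure ℚ))
    (K₁ : IntermediateField ℚ (AlgebraicClosure ℚ)) [IsDiscreteValuationRing (s18_A1 A K₁)]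
    {π : s18_A1 A K₁} (hπ : Irreducible π)
    (B : Subring (s18_F1 K₁ L))
    (hAB : ∀ a : s18_A1 A K₁, algebraMap (s18_A1 A K₁) (s18_F1 K₁ L) a ∈ B)
    (hnoeth : IsNoetherianRing B)
    (hfrac : ∀ x : s18_F1 K₁ L, ∃ a ∈ B, ∃ b ∈ B, b ≠ 0 ∧ x = a / b)
    (V₁ V₂ : Subring (s18_F1 K₁ L))
    (hV₁ : s34_Unif (algebraMap (s18_A1 A K₁) (s18_F1 K₁ L) π) V₁)
    (hV₂ : s34_Unif (algebraMap (s18_A1 A K₁) (s18_F1 K₁ L) π) V₂)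
    (hB₁ : B ≤ V₁) (hB₂ : B ≤ V₂)
    (hcap : ∀ x ∈ B, (algebraMap (s18_A1 A K₁) (s18_F1 K₁ L) π)⁻¹ * x ∈ V₁ →
      (algebraMap (s18_A1 A K₁) (s18_F1 K₁ L) π)⁻¹ * x ∈ V₂ →
      (algebraMap (s18_A1 A K₁) (s18_F1 K₁ L) π)⁻¹ * x ∈ B)
    (m : ℕ) (g₁ : s18_F1 K₁ L) (hg₁ : g₁ ≠ 0)
    (hdivg : ∀ P : Place (AlgebraicClosure ℚ) (modularFunctionFieldBar L),
      (m : ℤ) ∣ P.ord (s18_baseIncl K₁ L g₁))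
    (hfix : ∀ P : Place (AlgebraicClosure ℚ) (modularFunctionFieldBar L),
      P.ord (s18_baseIncl K₁ L g₁) ≠ 0 →
      ∀ σ : AlgebraicClosure ℚ ≃ₐ[ℚ] AlgebraicClosure ℚ, (∀ c ∈ K₁, σ c = c) →
        arithmeticGalois (modularFunctionFieldFull L) σ • P = P)
    (hdvrB : ∀ 𝔮 : Ideal B, 𝔮.IsPrime →
      (⟨algebraMap (s18_A1 A K₁) (s18_F1 K₁ L) π, hAB π⟩ : B) ∉ 𝔮 → 𝔮 ≠ ⊥ →
      ∃ W : ValuationSubring (s18_F1 K₁ L), IsDiscreteValuationRing W ∧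
        ∀ z : s18_F1 K₁ L, z ∈ W ↔ ∃ a s : B, s ∉ 𝔮 ∧ z = (a : s18_F1 K₁ L) / (s : s18_F1 K₁ L))
    (𝔪 : Ideal B) (h𝔪 : 𝔪.IsMaximal)
    (hϖ𝔪 : (⟨algebraMap (s18_A1 A K₁) (s18_F1 K₁ L) π, hAB π⟩ : B) ∈ 𝔪)
    (hnode : ∀ s : B, s ∉ 𝔪 →
      (algebraMap (s18_A1 A K₁) (s18_F1 K₁ L) π)⁻¹ * (s : s18_F1 K₁ L) ∉ V₁ ∧
      (algebraMap (s18_A1 A K₁) (s18_F1 K₁ L) π)⁻¹ * (s : s18_F1 K₁ L) ∉ V₂)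
    (hx : (∀ b : B, ∃ a : s18_A1 A K₁,
        b - ⟨algebraMap (s18_A1 A K₁) (s18_F1 K₁ L) a, hAB a⟩ ∈ 𝔪) →
      (∀ a : s18_A1 A K₁, (⟨algebraMap (s18_A1 A K₁) (s18_F1 K₁ L) a, hAB a⟩ : B) ∈ 𝔪 →
        ∃ a', a = π * a') →
      ∃ x : B, x ∈ s34_ni_P (algebraMap (s18_A1 A K₁) (s18_F1 K₁ L) π) B V₂ hB₂ ∧
        x ∉ s34_ni_P (algebraMap (s18_A1 A K₁) (s18_F1 K₁ L) π) B V₁ hB₁ ∧
        ∀ m' ∈ 𝔪, ∃ r u : B, u ∉ 𝔪 ∧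
          u * m' - x * r ∈ s34_ni_P (algebraMap (s18_A1 A K₁) (s18_F1 K₁ L) π) B V₁ hB₁)
    (hy : (∀ b : B, ∃ a : s18_A1 A K₁,
        b - ⟨algebraMap (s18_A1 A K₁) (s18_F1 K₁ L) a, hAB a⟩ ∈ 𝔪) →
      (∀ a : s18_A1 A K₁, (⟨algebraMap (s18_A1 A K₁) (s18_F1 K₁ L) a, hAB a⟩ : B) ∈ 𝔪 →
        ∃ a', a = π * a') →
      ∃ y : B, y ∈ s34_ni_P (algebraMap (s18_A1 A K₁) (s18_F1 K₁ L) π) B V₁ hB₁ ∧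
        y ∉ s34_ni_P (algebraMap (s18_A1 A K₁) (s18_F1 K₁ L) π) B V₂ hB₂ ∧
        ∀ m' ∈ 𝔪, ∃ r u : B, u ∉ 𝔪 ∧
          u * m' - y * r ∈ s34_ni_P (algebraMap (s18_A1 A K₁) (s18_F1 K₁ L) π) B V₂ hB₂) :
    ∃ G : s18_F1 K₁ L, G ≠ 0 ∧ ∀ 𝔮 : Ideal B, 𝔮.IsPrime → 𝔮 ≤ 𝔪 →
      (⟨algebraMap (s18_A1 A K₁) (s18_F1 K₁ L) π, hAB π⟩ : B) ∉ 𝔮 →
      g₁ * (G⁻¹) ^ m ∈ s18_loc B 𝔮 ∧ G ^ m * g₁⁻¹ ∈ s18_loc B 𝔮 := by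
  refine s34_ni_hG π hπ B hAB hnoeth hfrac V₁ V₂ hV₁ hV₂ hB₁ hB₂ hcap m g₁ hg₁ 𝔪 h𝔪 hnode hx hy
    ?_ ?_ ?_
  · intro 𝔮 h𝔮 _ hϖ𝔮 h𝔮0 _
    exact hdvrB 𝔮 h𝔮 hϖ𝔮 h𝔮0
  · intro W hW hA hπW
    exact s18_d3_hdiv K₁ L m g₁ hg₁ hdivg W hW (s18_K_mem_of_A1 L A K₁ hπ W hA hπW)
  · intro 𝔮 h𝔮 h𝔮𝔪 hϖ𝔮 h𝔮0 hbad
    exact s34_rp_hrat L A K₁ hπ g₁ hfix B hAB 𝔪 h𝔪.ne_top hϖ𝔪 𝔮 h𝔮 h𝔮𝔪 hϖ𝔮
      (hdvrB 𝔮 h𝔮 hϖ𝔮 h𝔮0) hbad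

end Fermat.Agent.S34
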