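import Mathlib
import Fermat.Agent.S34.InstDefs
import Fermat.Agent.S34.NodeInstModel
import Fermat.Agent.S34.IcDvr
import Fermat.Agent.S34.IcUnif
import Fermat.Agent.S34.RatPt
import Fermat.Agent.S34.PowLevel
import Fermat.Agent.S18.A1Facts

/-!
# S34, block (INST): the power statement at the model levels from the contract

`s34_inst_pow` : the seven facts `s34_ct_*` about the concrete nodal model (file `InstDefs.lean`)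
give `s34_PowLevel (N₁ * q) q` at every level `N₁ * q` with `q ∤ N₁`, `M ∣ N₁`, `M ∈ {2, 3}`.
-/

set_option autoImplicit false
set_option synthInstance.maxHeartbeats 400000

open ModularCurve AlgebraicCurve

noncomputable section

namespace Fermat.Agent.S34

open Fermat.Agent.S18

set_option maxHeartbeats 4000000 in
/-- **(INST)** the power statement at the model levels. -/
theorem s34_inst_pow (hfin : s34_ct_fin) (hunif : s34_ct_unif) (hle : s34_ct_le)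
    (htau : s34_ct_tau) (hcap : s34_ct_cap) (hsm : s34_ct_sm) (hxy : s34_ct_xy)
    (N₁ q M : ℕ) (hN₁ : N₁ ≠ 0) (hM : M = 2 ∨ M = 3) (hMN : M ∣ N₁) (hq : q.Prime)
    (hqN : ¬ q ∣ N₁) : s34_PowLevel (N₁ * q) q := by
  intro P hP τ hτ m hm0 hqm g hg0 hdiv
  haveI : NeZero N₁ := ⟨hN₁⟩
  haveI : Fact q.Prime := ⟨hq⟩
  haveI : NeZero q := ⟨hq.ne_zero⟩
  haveI : NeZero (N₁ * q) := ⟨mul_ne_zero hN₁ hq.ne_zero⟩
  -- the number field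
  obtain ⟨K₁, hK₁, hK⟩ := s34_rp_exists (N₁ * q) g hg0
  obtain ⟨⟨g₁, hg₁⟩, hfix⟩ := hK K₁ le_rfl
  haveI : FiniteDimensional ℚ K₁ := hK₁.1
  haveI : IsGalois ℚ K₁ := hK₁.2
  haveI hDVR : IsDiscreteValuationRing (s18_A1 P K₁) := s18_a1_dvr P hP K₁
  obtain ⟨π, hπ⟩ := IsDiscreteValuationRing.exists_irreducible (s18_A1 P K₁)
  -- the coordinate
  obtain ⟨tL, htL⟩ : ∃ tL : modularFunctionFieldFull (N₁ * q), s34_md_IsT N₁ q tL := by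
    rcases hM with rfl | rfl
    · exact ⟨s18_cz_t2 (N₁ * q) (dvd_mul_of_dvd_left hMN q), Or.inl ⟨rfl, hMN⟩⟩
    · exact ⟨s18_cz_t3 (N₁ * q) (dvd_mul_of_dvd_left hMN q), Or.inr ⟨rfl, hMN⟩⟩
  -- the swap
  have hcop : Nat.Coprime q N₁ := (hq.coprime_iff_not_dvd).mpr hqN
  obtain ⟨W, hW⟩ := s34_md_exists_swap K₁ N₁ q hcop
  -- the contract
  obtain ⟨htr, hfd⟩ := hfin N₁ q K₁ tL htL
  haveI := hfd
  obtain ⟨hV₁, hV₂⟩ := hunif N₁ q hqN P hP K₁ π hπ W hW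
  obtain ⟨h01, h02, hi1, hi2⟩ := hle N₁ q hqN P hP K₁ π hπ tL htL W hW
  obtain ⟨hτ₁, hτB0, hτBi, hτπ, hT1₁, hT1₂, hT2₁, hT2₂⟩ :=
    htau N₁ q hqN P hP K₁ π hπ tL htL W hW τ hτ
  obtain ⟨hcap0, hcapi⟩ := hcap N₁ q hqN P hP K₁ π hπ tL htL W hW
  obtain ⟨hsm0, hsmi⟩ := hsm N₁ q hqN P hP K₁ π hπ tL htL W hW
  obtain ⟨hxy0, hxyi⟩ := hxy N₁ q hqN P hP K₁ π hπ tL htL W hW h01 h02 hi1 hi2
  -- the function
  have hg₁0 : g₁ ≠ 0 := by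
    rintro rfl
    exact hg0 (by rw [← hg₁, map_zero])
  have hmu : IsUnit ((m : ℕ) : s18_A1 P K₁) := s18_a1_isUnit_natCast P hP K₁ m hqm
  have hdivg : ∀ P' : Place (AlgebraicClosure ℚ) (modularFunctionFieldBar (N₁ * q)),
      (m : ℤ) ∣ P'.ord (s18_baseIncl K₁ (N₁ * q) g₁) := by
    rw [hg₁]; exact hdiv
  have hfix' : ∀ P' : Place (AlgebraicClosure ℚ) (modularFunctionFieldBar (N₁ * q)),
      P'.ord (s18_baseIncl K₁ (N₁ * q) g₁) ≠ 0 →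
      ∀ σ : AlgebraicClosure ℚ ≃ₐ[ℚ] AlgebraicClosure ℚ, (∀ c ∈ K₁, σ c = c) →
        arithmeticGalois (modularFunctionFieldFull (N₁ * q)) σ • P' = P' := by
    rw [hg₁]; exact hfix
  -- the charts
  haveI tower : IsScalarTower (s18_A1 P K₁) K₁ (s18_F1 K₁ (N₁ * q)) :=
    IsScalarTower.of_algebraMap_eq (fun _ => rfl)
  have t_ne : s18_coord K₁ tL ≠ 0 := s34_ic_ne_zero htr
  have noeth0 : IsNoetherianRing (s34_md_B0 P K₁ (N₁ * q) tL).toSubring :=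
    s34_ic_noeth (K := K₁) (s18_coord K₁ tL) htr
  have noethi : IsNoetherianRing (s34_md_Binf P K₁ (N₁ * q) tL).toSubring :=
    s34_ic_noeth_inv (K := K₁) (s18_coord K₁ tL) htr
  have frac0 : ∀ x : s18_F1 K₁ (N₁ * q), ∃ a ∈ (s34_md_B0 P K₁ (N₁ * q) tL).toSubring,
      ∃ b ∈ (s34_md_B0 P K₁ (N₁ * q) tL).toSubring, b ≠ 0 ∧ x = a / b :=
    s34_ic_frac (K := K₁) (s18_coord K₁ tL)
  have fraci : ∀ x : s18_F1 K₁ (N₁ * q), ∃ a ∈ (s34_md_Binf P K₁ (N₁ * q) tL).toSubring,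
      ∃ b ∈ (s34_md_Binf P K₁ (N₁ * q) tL).toSubring, b ≠ 0 ∧ x = a / b :=
    s34_ic_frac_inv (K := K₁) (s18_coord K₁ tL)
  -- the crossing points
  have hG0 := fun (𝔪 : Ideal (s34_md_B0 P K₁ (N₁ * q) tL).toSubring) (h𝔪 : 𝔪.IsMaximal)
      (hϖ𝔪 : (⟨algebraMap (s18_A1 P K₁) (s18_F1 K₁ (N₁ * q)) π,
        (s34_md_B0 P K₁ (N₁ * q) tL).algebraMap_mem π⟩ :
          (s34_md_B0 P K₁ (N₁ * q) tL).toSubring) ∈ 𝔪)
      (hnode : ∀ s : (s34_md_B0 P K₁ (N₁ * q) tL).toSubring, s ∉ 𝔪 →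
        (algebraMap (s18_A1 P K₁) (s18_F1 K₁ (N₁ * q)) π)⁻¹ * (s : s18_F1 K₁ (N₁ * q)) ∉
          s34_md_V1 P K₁ (N₁ * q) ∧
        (algebraMap (s18_A1 P K₁) (s18_F1 K₁ (N₁ * q)) π)⁻¹ * (s : s18_F1 K₁ (N₁ * q)) ∉
          s34_md_V2 P K₁ (N₁ * q) W) =>
    s34_ni_hG_model (N₁ * q) P K₁ hπ (s34_md_B0 P K₁ (N₁ * q) tL).toSubring
      (fun a => (s34_md_B0 P K₁ (N₁ * q) tL).algebraMap_mem a) noeth0 frac0
      (s34_md_V1 P K₁ (N₁ * q)) (s34_md_V2 P K₁ (N₁ * q) W) hV₁ hV₂ h01 h02 hcap0 m g₁ hg₁0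
      hdivg hfix'
      (fun 𝔮 h𝔮 hϖ h0 =>
        s34_ic_hdvr (K := K₁) π hπ (s18_coord K₁ tL) htr 𝔮 h𝔮 _ hϖ h0)
      𝔪 h𝔪 hϖ𝔪 hnode
      (fun hres hker => (hxy0 𝔪 h𝔪 hϖ𝔪 hnode hres hker).1)
      (fun hres hker => (hxy0 𝔪 h𝔪 hϖ𝔪 hnode hres hker).2)
  have hGi := fun (𝔪 : Ideal (s34_md_Binf P K₁ (N₁ * q) tL).toSubring) (h𝔪 : 𝔪.IsMaximal)
      (hϖ𝔪 : (⟨algebraMap (s18_A1 P K₁) (s18_F1 K₁ (N₁ * q)) π,
        (s34_md_Binf P K₁ (N₁ * q) tL).algebraMap_mem π⟩ :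
          (s34_md_Binf P K₁ (N₁ * q) tL).toSubring) ∈ 𝔪)
      (hnode : ∀ s : (s34_md_Binf P K₁ (N₁ * q) tL).toSubring, s ∉ 𝔪 →
        (algebraMap (s18_A1 P K₁) (s18_F1 K₁ (N₁ * q)) π)⁻¹ * (s : s18_F1 K₁ (N₁ * q)) ∉
          s34_md_V1 P K₁ (N₁ * q) ∧
        (algebraMap (s18_A1 P K₁) (s18_F1 K₁ (N₁ * q)) π)⁻¹ * (s : s18_F1 K₁ (N₁ * q)) ∉
          s34_md_V2 P K₁ (N₁ * q) W) =>
    s34_ni_hG_model (N₁ * q) P K₁ hπ (s34_md_Binf P K₁ (N₁ * q) tL).toSubring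
      (fun a => (s34_md_Binf P K₁ (N₁ * q) tL).algebraMap_mem a) noethi fraci
      (s34_md_V1 P K₁ (N₁ * q)) (s34_md_V2 P K₁ (N₁ * q) W) hV₁ hV₂ hi1 hi2 hcapi m g₁ hg₁0
      hdivg hfix'
      (fun 𝔮 h𝔮 hϖ h0 =>
        s34_ic_hdvr_inv (K := K₁) π hπ (s18_coord K₁ tL) htr 𝔮 h𝔮 _ hϖ h0)
      𝔪 h𝔪 hϖ𝔪 hnode
      (fun hres hker => (hxyi 𝔪 h𝔪 hϖ𝔪 hnode hres hker).1)
      (fun hres hker => (hxyi 𝔪 h𝔪 hϖ𝔪 hnode hres hker).2)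
  have key := s34_pow_of_model (N₁ * q) P K₁ hπ (t := s18_coord K₁ tL)
    (B0 := s34_md_B0 P K₁ (N₁ * q) tL) (Binf := s34_md_Binf P K₁ (N₁ * q) tL)
    (s34_md_V1 P K₁ (N₁ * q)) (s34_md_V2 P K₁ (N₁ * q) W) hV₁ hV₂ h01 h02 hi1 hi2 hcap0 hcapi
    noeth0 noethi frac0 fraci t_ne (s34_ic_t_mem _) (s34_ic_t_mem _)
    (fun x hx => s34_ic_glue t_ne hx) (fun x hx => s34_ic_glue' t_ne hx)
    (s34_ic_h1 (K := K₁) (s18_coord K₁ tL) htr) (s34_ic_fin (K := K₁) (s18_coord K₁ tL) htr)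
    m hm0 hmu (s34_ic_root (s18_coord K₁ tL) m hm0) (s34_ic_root (s18_coord K₁ tL)⁻¹ m hm0)
    τ (arithmeticRingAut (modularFunctionFieldFull (N₁ * q)) (τ.restrictNormal K₁))
    hτ₁ hτB0 hτBi hτπ hT1₁ hT1₂ hT2₁ hT2₂ g₁ hg₁0 hdivg hsm0 hsmi hG0 hGi
  rw [hg₁] at key
  exact key

end Fermat.Agent.S34
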