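import Mathlib
import Fermat.Prelude.Def_GaloisRep_Adic
import Fermat.Prelude.Def_CuspForm_HeckeAlgebra
import Fermat.Agent.S31.TraceCong
import Fermat.Agent.S31.TraceInvAbs

/-!
# S34: the determinant on inertia

`s34_det_inertia` : for the Galois representation `ρ` over `T` with
`charpoly ρ(Frob_ℓ) = X² - π(T_ℓ) X + ℓ` (`ℓ ∉ S`, `ℓ ∤ N`) and `τ` in an inertia group at a
prime `q ≠ p`: `det ρ(τ) = 1` (weak Chebotarev + the cyclotomic congruence `ℓ ^ j ≡ 1 mod p ^ k`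
for a Frobenius power approximating `τ`).
-/

set_option autoImplicit false

open Polynomial
open Fermat.Agent.S18 Fermat.Agent.S29 Fermat.Agent.S31

namespace Fermat.Agent.S34

local notation "Qb" => AlgebraicClosure ℚ
local notation "Γ" => (AlgebraicClosure ℚ ≃ₐ[ℚ] AlgebraicClosure ℚ)

/-- If `f - 1` maps a finite free module `V` into `I • V`, then `det f - 1 ∈ I`. -/
theorem s34_det_sub_one_mem {A : Type*} [CommRing A] (I : Ideal A) {V : Type*}
    [AddCommGroup V] [Module A V] [Module.Free A V] [Module.Finite A V] (f : Module.End A V)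
    (hf : ∀ v, f v - v ∈ I • (⊤ : Submodule A V)) : LinearMap.det f - 1 ∈ I := by
  classical
  let b := Module.Free.chooseBasis A V
  have hM : (Ideal.Quotient.mk I).mapMatrix (LinearMap.toMatrix b b f) = 1 := by
    ext i j
    rw [RingHom.mapMatrix_apply, Matrix.map_apply, LinearMap.toMatrix_apply]
    by_cases hij : i = j
    · subst hij
      rw [Matrix.one_apply_eq, ← map_one (Ideal.Quotient.mk I), Ideal.Quotient.eq]
      have h := s31_tc_repr_mem I b (f (b i) - b i) (hf (b i)) i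
      rwa [map_sub, Finsupp.sub_apply, Module.Basis.repr_self, Finsupp.single_eq_same] at h
    · rw [Matrix.one_apply_ne hij, Ideal.Quotient.eq_zero_iff_mem]
      have h := s31_tc_repr_mem I b (f (b j) - b j) (hf (b j)) i
      rwa [map_sub, Finsupp.sub_apply, Module.Basis.repr_self,
        Finsupp.single_eq_of_ne hij, sub_zero] at h
  have h1 : Ideal.Quotient.mk I (LinearMap.det f) = 1 := by
    rw [← LinearMap.det_toMatrix b f, RingHom.map_det, hM, Matrix.det_one]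
  rw [← Ideal.Quotient.eq, h1, map_one]

/-- Determinants of two elements agreeing on the level of `𝔪 ^ k` are congruent modulo
`𝔪 ^ k`. -/
theorem s34_det_approx {T : Type} [CommRing T] [IsLocalRing T] (ρ : GaloisRepAdic T) (k : ℕ)
    (L : IntermediateField ℚ Qb)
    (hLρ : ∀ σ : Γ, (∀ x ∈ L, σ x = x) → ∀ v : ρ.V,
      ρ.ρ σ v - v ∈ (IsLocalRing.maximalIdeal T ^ k) • (⊤ : Submodule T ρ.V))
    (γ s : Γ) (h : ∀ x ∈ L, γ x = s x) :
    LinearMap.det (ρ.ρ s) - LinearMap.det (ρ.ρ γ) ∈ IsLocalRing.maximalIdeal T ^ k := by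
  have hh : ∀ x ∈ L, (γ⁻¹ * s) x = x := by
    intro x hx
    rw [AlgEquiv.mul_apply, ← h x hx]
    exact γ.symm_apply_apply x
  have hs : s = γ * (γ⁻¹ * s) := by rw [mul_inv_cancel_left]
  have h1 := s34_det_sub_one_mem (IsLocalRing.maximalIdeal T ^ k) (ρ.ρ (γ⁻¹ * s)) (hLρ _ hh)
  have h2 : LinearMap.det (ρ.ρ s) - LinearMap.det (ρ.ρ γ)
      = LinearMap.det (ρ.ρ γ) * (LinearMap.det (ρ.ρ (γ⁻¹ * s)) - 1) := by
    conv_lhs => rw [hs, map_mul, map_mul]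
    ring
  rw [h2]
  exact Ideal.mul_mem_left _ _ h1

/-- The determinant of an endomorphism of a free module of rank `2` with characteristic
polynomial `X² - t X + d` is `d`. -/
theorem s34_det_of_charpoly {A : Type*} [CommRing A] {V : Type*} [AddCommGroup V] [Module A V]
    [Module.Free A V] [Module.Finite A V] (hV : Module.finrank A V = 2)
    (f : Module.End A V) (t d : A) (hf : f.charpoly = X ^ 2 - C t * X + C d) :
    LinearMap.det f = d := by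
  rw [LinearMap.det_eq_sign_charpoly_coeff, hV, hf]
  simp [coeff_C]

/-- **The determinant on inertia.** -/
theorem s34_det_inertia (N : ℕ) [NeZero N] (p : ℕ) (hp : p.Prime) (S : Finset ℕ) (hpS : p ∈ S)
    (hNS : ∀ q : ℕ, q.Prime → q ∣ N → q ∈ S) (hcheb : s29_asm_Cheb)
    {T : Type} [CommRing T] [IsLocalRing T] [IsHausdorff (IsLocalRing.maximalIdeal T) T]
    (hpT : (p : T) ∈ IsLocalRing.maximalIdeal T)
    (π : CuspForm.heckeAlgebra N 2 (↑S : Set ℕ) →+* T) (ρ : GaloisRepAdic T)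
    (hfrob : ∀ (ℓ : ℕ) (hℓ : ℓ.Prime) (hℓN : ¬ ℓ ∣ N) (hℓS : ℓ ∉ (↑S : Set ℕ))
      (A : ValuationSubring Qb), A.LiesOverPrime ℓ → ∀ σ : Γ, A.IsFrobeniusAt σ ℓ →
        LinearMap.charpoly (ρ.ρ σ)
          = X ^ 2 - C (π (CuspForm.heckeAlgebra.T hℓ hℓN hℓS)) * X + C ((ℓ : T)))
    (q : ℕ) (hq : q.Prime) (hqp : q ≠ p) (P : ValuationSubring Qb) (hP : P.LiesOverPrime q)
    (τ : Γ) (hτ : τ ∈ P.inertiaSubgroupIn ℚ) :
    LinearMap.det (ρ.ρ τ) = 1 := by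
  rw [← sub_eq_zero]
  refine IsHausdorff.haus' (I := IsLocalRing.maximalIdeal T) _ fun k => ?_
  rw [SModEq.zero, smul_eq_mul, Ideal.mul_top]
  have hm0 : p ^ k ≠ 0 := pow_ne_zero k hp.ne_zero
  obtain ⟨L, hL, hLρ⟩ := ρ.isAdicContinuous k
  have := hL
  obtain ⟨ζ, hζ⟩ := s31_cy_exists_primitive (p ^ k) hm0
  obtain ⟨Kζ, hKζG, hζK⟩ := s18_d1_exists_galois ζ
  obtain ⟨KL, hKLG, hLK⟩ := s31_ti_exists_galois_ge L
  have hKG : s18_d1_IsGaloisNF (Kζ ⊔ KL) := hKζG.sup hKLG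
  have hKζK : Kζ ≤ Kζ ⊔ KL := le_sup_left
  have hKLK : KL ≤ Kζ ⊔ KL := le_sup_right
  have : FiniteDimensional ℚ ↥(Kζ ⊔ KL) := hKG.1
  obtain ⟨ℓ, A, σ, j, hℓ, hℓS, hA, hσ, hg⟩ := hcheb (Kζ ⊔ KL) S τ
  have hℓN : ¬ ℓ ∣ N := fun h => hℓS (hNS ℓ hℓ h)
  have hℓS' : ℓ ∉ (↑S : Set ℕ) := fun h => hℓS (Finset.mem_coe.mp h)
  -- the determinant of the Frobenius power
  have d1 : LinearMap.det (ρ.ρ (σ ^ j)) = (ℓ : T) ^ j := by
    rw [map_pow, map_pow,
      s34_det_of_charpoly ρ.finrank_eq (ρ.ρ σ) _ _ (hfrob ℓ hℓ hℓN hℓS' A hA σ hσ)]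
  have a1 := s34_det_approx ρ k L hLρ τ (σ ^ j) (fun x hx => hg x (hKLK (hLK hx)))
  rw [d1] at a1
  -- the cyclotomic congruence
  have hζm : ζ ^ (p ^ k) = 1 := hζ.pow_eq_one
  have hneℓ : Nat.Coprime (p ^ k) ℓ := by
    refine Nat.Coprime.pow_left k ((Nat.coprime_primes hp hℓ).mpr ?_)
    rintro rfl
    exact hℓS hpS
  have hneq : Nat.Coprime (p ^ k) q :=
    Nat.Coprime.pow_left k ((Nat.coprime_primes hp hq).mpr (fun h => hqp h.symm))
  have hc1 : ζ ^ (ℓ ^ j) = ζ ^ 1 := by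
    rw [pow_one, ← s31_cy_frob_pow_root (p ^ k) ℓ hm0 hneℓ A hA σ hσ ζ hζm j,
      ← hg ζ (hKζK hζK)]
    exact s31_cy_inertia_root (p ^ k) q hm0 hneq P hP τ hτ ζ hζm
  have hmod : ℓ ^ j ≡ 1 [MOD p ^ k] := s31_cy_pow_eq (p ^ k) ζ hζ hm0 _ _ hc1
  have hcast : ((ℓ : T) ^ j) - 1 ∈ IsLocalRing.maximalIdeal T ^ k := by
    have h1 : ((p ^ k : ℕ) : ℤ) ∣ ((ℓ ^ j : ℕ) : ℤ) - ((1 : ℕ) : ℤ) :=
      (Nat.modEq_iff_dvd.mp hmod.symm)
    obtain ⟨c, hc⟩ := h1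
    have h2 : ((ℓ : T) ^ j) - 1 = ((p : T) ^ k) * (c : T) := by
      have := congrArg (Int.cast : ℤ → T) hc
      push_cast at this
      exact this
    rw [h2]
    exact Ideal.mul_mem_right _ _ (Ideal.pow_mem_pow hpT k)
  have e : LinearMap.det (ρ.ρ τ) - 1
      = ((ℓ : T) ^ j - 1) - ((ℓ : T) ^ j - LinearMap.det (ρ.ρ τ)) := by ring
  rw [e]
  exact sub_mem hcast a1

end Fermat.Agent.S34
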