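import Mathlib
import Fermat.Prelude.Def_GaloisRep_LocalConditions
import Fermat.Agent.S31.Key

/-!
# S34: the key algebra

* `s34_key_gen` : for a representation `ρ` on a free module of rank `2` over a local ring with
  absolutely irreducible residual representation, an endomorphism `X` with
  `tr (ρ g * X) = 0` for all `g` is zero (nondegeneracy of the trace pairing; generalises
  `s31_key_gen`).
* `s34_charpoly_of_sq` : a `2 × 2` matrix `M` with `(M - 1)² = 0` and `det M = 1` has
  characteristic polynomial `(X - 1)²`.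
* `s34_unipotent_of_trace` : unipotency on inertia from `det = 1` on inertia and the
  second-difference trace identity `tr ρ(g τ²) - 2 tr ρ(g τ) + tr ρ(g) = 0`.
-/

set_option autoImplicit false
open scoped TensorProduct
open Polynomial

namespace Fermat.Agent.S34

/-- trace-pairing nondegeneracy: generalisation of `s31_key_gen` to an arbitrary endomorphism. -/
theorem s34_key_gen {A : Type} [CommRing A] [IsLocalRing A] {V : Type} [AddCommGroup V]
    [Module A V] [Module.Free A V] [Module.Finite A V] (hV : Module.finrank A V = 2)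
    {G : Type*} [Monoid G] (ρ : G →* Module.End A V)
    (K : Type) [Field K] [IsAlgClosed K] [Algebra (IsLocalRing.ResidueField A) K]
    (hirr : ∀ W : Submodule K
        (K ⊗[IsLocalRing.ResidueField A] (IsLocalRing.ResidueField A ⊗[A] V)),
      (∀ g : G, ∀ x ∈ W,
        ((ρ g).baseChange (IsLocalRing.ResidueField A)).baseChange K x ∈ W) → W = ⊥ ∨ W = ⊤)
    (X : Module.End A V) (hX : ∀ g : G, LinearMap.trace A V (ρ g * X) = 0) :
    X = 0 := by
  classical
  let b : Module.Basis (Fin 2) A V := Module.finBasisOfFinrankEq A V hV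
  let bk : Module.Basis (Fin 2) (IsLocalRing.ResidueField A)
      (IsLocalRing.ResidueField A ⊗[A] V) := Algebra.TensorProduct.basis (IsLocalRing.ResidueField A) b
  let bK : Module.Basis (Fin 2) K
      (K ⊗[IsLocalRing.ResidueField A] (IsLocalRing.ResidueField A ⊗[A] V)) :=
    Algebra.TensorProduct.basis K bk
  let φ : A →+* K := (algebraMap (IsLocalRing.ResidueField A) K).comp (IsLocalRing.residue A)
  have hφ : ∀ a ∈ IsLocalRing.maximalIdeal A, φ a = 0 := by
    intro a ha
    show algebraMap (IsLocalRing.ResidueField A) K (IsLocalRing.residue A a) = 0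
    rw [(IsLocalRing.residue_eq_zero_iff a).mpr ha, map_zero]
  let ρK : G →* Module.End K
      (K ⊗[IsLocalRing.ResidueField A] (IsLocalRing.ResidueField A ⊗[A] V)) :=
    { toFun := fun g => ((ρ g).baseChange (IsLocalRing.ResidueField A)).baseChange K
      map_one' := by rw [map_one, LinearMap.baseChange_one, LinearMap.baseChange_one]
      map_mul' := fun g h => by rw [map_mul, LinearMap.baseChange_mul, LinearMap.baseChange_mul] }
  have hfr : Module.finrank K
      (K ⊗[IsLocalRing.ResidueField A] (IsLocalRing.ResidueField A ⊗[A] V)) = 2 := by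
    rw [Module.finrank_baseChange, Module.finrank_baseChange, hV]
  have hB : Algebra.adjoin K (Set.range ρK) = ⊤ :=
    Fermat.Agent.S31.s31_burnside_two hfr _ (fun W hW => hirr W (fun g x hx =>
      hW (ρK g) (Algebra.subset_adjoin ⟨g, rfl⟩) x hx))
  have hspanEnd : Submodule.span K (Set.range ρK) = ⊤ := by
    have h := Algebra.adjoin_eq_span K (Set.range ρK)
    rw [hB, ← MonoidHom.coe_mrange, Submonoid.closure_eq, MonoidHom.coe_mrange] at h
    rw [← h]
    rfl
  let F : G → Fin 2 × Fin 2 → A := fun g c => LinearMap.toMatrix b b (ρ g) c.1 c.2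
  let Θ : Module.End K (K ⊗[IsLocalRing.ResidueField A] (IsLocalRing.ResidueField A ⊗[A] V))
      ≃ₗ[K] (Fin 2 × Fin 2 → K) :=
    (LinearMap.toMatrix bK bK).trans (LinearEquiv.curry K K (Fin 2) (Fin 2)).symm
  have hΘ : (fun g => (fun c : Fin 2 × Fin 2 => φ (F g c))) = (Θ : _ → _) ∘ ρK := by
    funext g c
    show φ (LinearMap.toMatrix b b (ρ g) c.1 c.2) =
      LinearMap.toMatrix bK bK
        (((ρ g).baseChange (IsLocalRing.ResidueField A)).baseChange K) c.1 c.2
    rw [LinearMap.toMatrix_baseChange, LinearMap.toMatrix_baseChange]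
    rfl
  have hspan : Submodule.span K (Set.range fun g => (fun c : Fin 2 × Fin 2 => φ (F g c))) = ⊤ := by
    rw [hΘ, Set.range_comp]
    have h := Submodule.map_span Θ.toLinearMap (Set.range ρK)
    rw [hspanEnd, Submodule.map_top, LinearEquiv.range] at h
    exact h.symm
  obtain ⟨gs, hgs⟩ := Fermat.Agent.S31.s31_exists_unit_det φ hφ F hspan
  have htr : ∀ g : G, Matrix.trace (LinearMap.toMatrix b b (ρ g) *
      LinearMap.toMatrix b b X) = 0 := by
    intro g
    rw [← LinearMap.toMatrix_mul, ← LinearMap.trace_eq_matrix_trace A b, hX g]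
  have hmv : (Matrix.of fun a c => F (gs a) c : Matrix (Fin 2 × Fin 2) (Fin 2 × Fin 2) A).mulVec
      (fun c => LinearMap.toMatrix b b X c.2 c.1) = 0 := by
    funext a
    have h := htr (gs a)
    rw [Matrix.trace] at h
    simp only [Matrix.diag_apply, Matrix.mul_apply] at h
    rw [Matrix.mulVec, dotProduct, Fintype.sum_prod_type]
    exact h
  have hzero : (fun c : Fin 2 × Fin 2 => LinearMap.toMatrix b b X c.2 c.1) = 0 := by
    have h := congrArg ((Matrix.of fun a c => F (gs a) c :
      Matrix (Fin 2 × Fin 2) (Fin 2 × Fin 2) A)⁻¹).mulVec hmv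
    rw [Matrix.mulVec_mulVec, Matrix.nonsing_inv_mul _ hgs, Matrix.one_mulVec,
      Matrix.mulVec_zero] at h
    exact h
  have hM : LinearMap.toMatrix b b X = 0 := by
    ext i j
    exact congrFun hzero (j, i)
  exact (LinearMap.toMatrix b b).injective (by rw [hM, map_zero])

/-- 2x2 algebra: `(M - 1)^2 = 0` and `det M = 1` force `charpoly M = (X - 1)^2`. -/
theorem s34_charpoly_of_sq {A : Type*} [CommRing A] [Nontrivial A] (M : Matrix (Fin 2) (Fin 2) A)
    (hsq : (M - 1) * (M - 1) = 0) (hdet : M.det = 1) :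
    M.charpoly = (X - 1) ^ 2 := by
  have hCH := Matrix.aeval_self_charpoly M
  rw [Matrix.charpoly_fin_two, hdet] at hCH
  simp only [map_add, map_sub, map_mul, map_pow, aeval_X, aeval_C, map_one] at hCH
  have h2 : (algebraMap A (Matrix (Fin 2) (Fin 2) A) (M.trace - 2)) * M = 0 := by
    have e : (M - 1) * (M - 1) = M ^ 2 - 2 * M + 1 := by noncomm_ring
    rw [e] at hsq
    rw [map_sub, sub_mul]
    have h2' : (algebraMap A (Matrix (Fin 2) (Fin 2) A) 2) = 2 := map_ofNat _ 2
    rw [h2']
    have h3 : M ^ 2 - (algebraMap A (Matrix (Fin 2) (Fin 2) A)) M.trace * M + 1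
        - (M ^ 2 - 2 * M + 1) = 0 := by rw [hCH, hsq, sub_zero]
    have h4 : M ^ 2 - (algebraMap A (Matrix (Fin 2) (Fin 2) A)) M.trace * M + 1
        - (M ^ 2 - 2 * M + 1) = -((algebraMap A (Matrix (Fin 2) (Fin 2) A)) M.trace * M - 2 * M) := by
      noncomm_ring
    rw [h4, neg_eq_zero] at h3
    exact h3
  have hunit : IsUnit M := (Matrix.isUnit_iff_isUnit_det M).mpr (by rw [hdet]; exact isUnit_one)
  have h5 : algebraMap A (Matrix (Fin 2) (Fin 2) A) (M.trace - 2) = 0 := by
    obtain ⟨u, rfl⟩ := hunit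
    have := congrArg (· * (↑u⁻¹ : Matrix (Fin 2) (Fin 2) A)) h2
    simpa [mul_assoc] using this
  have h6 : M.trace - 2 = 0 := by
    have := congrFun (congrFun h5 0) 0
    simpa [Matrix.algebraMap_matrix_apply] using this
  have h7 : M.trace = 2 := sub_eq_zero.mp h6
  rw [Matrix.charpoly_fin_two, hdet, h7]
  simp only [map_ofNat, map_one]
  ring

/-- **Reduction of S34**: unipotency on inertia from (a) `det = 1` on inertia and (b) the
second-difference trace identity. -/
theorem s34_unipotent_of_trace {A : Type} [CommRing A] [IsLocalRing A] (ρ : GaloisRepAdic A)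
    (habs : ρ.residual.IsAbsolutelyIrreducible) (q : ℕ)
    (hdet : ∀ P : ValuationSubring (AlgebraicClosure ℚ), P.LiesOverPrime q →
      ∀ τ ∈ P.inertiaSubgroupIn ℚ, LinearMap.det (ρ.ρ τ) = 1)
    (htr : ∀ P : ValuationSubring (AlgebraicClosure ℚ), P.LiesOverPrime q →
      ∀ τ ∈ P.inertiaSubgroupIn ℚ, ∀ g : AlgebraicClosure ℚ ≃ₐ[ℚ] AlgebraicClosure ℚ,
        ρ.trace (g * τ * τ) - 2 * ρ.trace (g * τ) + ρ.trace g = 0) :
    ρ.IsUnipotentOnInertiaAt q := by
  intro P hP τ hτ
  have hX : (ρ.ρ τ - 1) * (ρ.ρ τ - 1) = 0 := by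
    refine s34_key_gen ρ.finrank_eq ρ.ρ (AlgebraicClosure (IsLocalRing.ResidueField A)) habs _
      (fun g => ?_)
    have h := htr P hP τ hτ g
    simp only [GaloisRepAdic.trace, map_mul] at h
    have e : ρ.ρ g * ((ρ.ρ τ - 1) * (ρ.ρ τ - 1))
        = ρ.ρ g * ρ.ρ τ * ρ.ρ τ - 2 * (ρ.ρ g * ρ.ρ τ) + ρ.ρ g := by noncomm_ring
    rw [e, map_add, map_sub, ← h]
    congr 2
    rw [two_mul, two_mul, map_add]
  classical
  let b : Module.Basis (Fin 2) A ρ.V := Module.finBasisOfFinrankEq A ρ.V ρ.finrank_eq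
  rw [← LinearMap.charpoly_toMatrix (ρ.ρ τ) b]
  refine s34_charpoly_of_sq _ ?_ ?_
  · have := congrArg (LinearMap.toMatrix b b) hX
    rw [LinearMap.toMatrix_mul, map_sub, LinearMap.toMatrix_one, map_zero] at this
    exact this
  · rw [LinearMap.det_toMatrix]
    exact hdet P hP τ hτ

end Fermat.Agent.S34
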