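import Mathlib
import Fermat.Agent.S31.TraceInvAbs

/-!
# S34: the abstract second-difference congruence

Abstract form of the congruence behind the unipotency of inertia.  `M` is an abelian group killed
by `p ^ n` with commuting actions of `Γ = Gal(ℚ̄/ℚ)` and of operators `T_ℓ` (smooth,
Eichler–Shimura relation at Frobenius lifts outside `S`), `ι : Λ → M` is additive with kernel
`p ^ n Λ` and intertwines operators `Tc ℓ` on the finitely generated group `Λ` with the `T_ℓ`.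
If `τ` lies in an inertia group at `q ≠ p` and `(τ - 1)² = 0` on `M`, then for any `g` weak
Chebotarev produces Frobenius lifts `σ, σ', σ''` at `ℓ, ℓ', ℓ'' ∉ S` and exponents approximating
`g`, `g τ`, `g τ²` on a given finite level such that
`D_j(Tc ℓ, ℓ) - 2 D_j'(Tc ℓ', ℓ') + D_j''(Tc ℓ'', ℓ'')` maps `Λ` into `p ^ n Λ` (`s34_ti_abs`).
-/

set_option autoImplicit false

open Fermat.Agent.S18 Fermat.Agent.S29 Fermat.Agent.S31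

namespace Fermat.Agent.S34

local notation "Qb" => AlgebraicClosure ℚ
local notation "Γ" => (AlgebraicClosure ℚ ≃ₐ[ℚ] AlgebraicClosure ℚ)

/-- Pure algebra behind `s34_ti_abs`: in a ring acting on `M`, with `G`, `t` invertible and
`(t - 1)² = 0`, the three relations `γ E = γ² x + a x` for `γ = G, G t, G t t` give
`E - 2 E' + E'' = 0`. -/
theorem s34_ti_alg {M : Type*} [AddCommGroup M] (G Gi t ti : Module.End ℤ M)
    (hGi : Gi * G = 1) (hti : ti * t = 1) (hU : t * t - 2 • t + 1 = 0) (a : ℕ)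
    (x E E' E'' : M)
    (h1 : G E = (G * G) x + a • x)
    (h2 : (G * t) E' = (G * t * (G * t)) x + a • x)
    (h3 : (G * t * t) E'' = (G * t * t * (G * t * t)) x + a • x) :
    E - 2 • E' + E'' = 0 := by
  have e1 : E = (G + a • Gi) x := by
    have h := congrArg Gi h1
    rw [← Module.End.mul_apply, hGi, Module.End.one_apply, map_add, map_nsmul,
      ← Module.End.mul_apply, ← mul_assoc, hGi, one_mul] at h
    rw [h, LinearMap.add_apply, LinearMap.smul_apply]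
  have e2 : E' = (G * t + a • (ti * Gi)) x := by
    have h := congrArg (ti * Gi) h2
    have c1 : ti * Gi * (G * t) = 1 := by
      rw [mul_assoc, ← mul_assoc Gi, hGi, one_mul, hti]
    rw [← Module.End.mul_apply, c1, Module.End.one_apply, map_add, map_nsmul,
      ← Module.End.mul_apply, ← mul_assoc, c1, one_mul] at h
    rw [h, LinearMap.add_apply, LinearMap.smul_apply]
  have e3 : E'' = (G * t * t + a • (ti * ti * Gi)) x := by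
    have h := congrArg (ti * ti * Gi) h3
    have c1 : ti * ti * Gi * (G * t * t) = 1 := by
      have : ti * ti * Gi * (G * t * t) = ti * (ti * ((Gi * G) * t)) * t := by
        simp only [mul_assoc]
      rw [this, hGi, one_mul, hti, mul_one, hti]
    rw [← Module.End.mul_apply, c1, Module.End.one_apply, map_add, map_nsmul,
      ← Module.End.mul_apply, ← mul_assoc, c1, one_mul] at h
    rw [h, LinearMap.add_apply, LinearMap.smul_apply]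
  have hU' : ti * ti - 2 • ti + 1 = 0 := by
    have h : ti * ti * (t * t - 2 • t + 1) = 0 := by rw [hU, mul_zero]
    have c2 : ti * ti * (t * t) = 1 := by
      rw [mul_assoc, ← mul_assoc ti t t, hti, one_mul, hti]
    have c3 : ti * ti * t = ti := by rw [mul_assoc, hti, mul_one]
    rw [mul_add, mul_sub, c2, mul_one, mul_smul_comm, c3] at h
    rw [← h]
    abel
  have key : (G + a • Gi) - 2 • (G * t + a • (ti * Gi)) + (G * t * t + a • (ti * ti * Gi))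
      = G * (t * t - 2 • t + 1) + a • ((ti * ti - 2 • ti + 1) * Gi) := by
    rw [mul_add, mul_sub, mul_one, mul_smul_comm, add_mul, sub_mul, one_mul, smul_mul_assoc,
      smul_add, smul_add, smul_sub, mul_assoc G t t, smul_comm 2 a (ti * Gi)]
    abel
  have hfin : E - 2 • E' + E''
      = ((G + a • Gi) - 2 • (G * t + a • (ti * Gi)) + (G * t * t + a • (ti * ti * Gi))) x := by
    rw [LinearMap.add_apply, LinearMap.sub_apply, LinearMap.smul_apply, ← e1, ← e2, ← e3]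
  rw [hfin, key, hU, hU', mul_zero, zero_mul, smul_zero, add_zero, LinearMap.zero_apply]

/-- **Abstract second-difference congruence.** -/
theorem s34_ti_abs (p n : ℕ) (hp : p.Prime) (S : Finset ℕ) (hpS : p ∈ S)
    (hcheb : s29_asm_Cheb)
    {M : Type*} [AddCommGroup M] (gM : Γ →* Module.End ℤ M) (TM : Nat.Primes → Module.End ℤ M)
    (hGH : ∀ (ℓ : Nat.Primes) (σ : Γ) (x : M), TM ℓ (gM σ x) = gM σ (TM ℓ x))
    (hm : ∀ x : M, (p ^ n) • x = 0)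
    (hfix : ∀ x : M, ∃ K₁ : IntermediateField ℚ Qb, s18_d1_IsGaloisNF K₁ ∧
      ∀ σ : Γ, (∀ c ∈ K₁, σ c = c) → gM σ x = x)
    (hES : ∀ ℓ : Nat.Primes, (ℓ : ℕ) ∉ S → ∀ A : ValuationSubring Qb,
      A.LiesOverPrime ℓ → ∀ σ : Γ, A.IsFrobeniusAt σ ℓ → ∀ x : M,
        gM σ (gM σ x) - TM ℓ (gM σ x) + (ℓ : ℕ) • x = 0)
    {Λ : Type*} [AddCommGroup Λ] [Module.Finite ℤ Λ] (Tc : Nat.Primes → Module.End ℤ Λ)
    (ι : Λ →+ M)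
    (hker : ∀ ψ : Λ, ι ψ = 0 → ∃ ψ' : Λ, ψ = (p ^ n) • ψ')
    (hιT : ∀ ℓ : Nat.Primes, (ℓ : ℕ) ∉ S → ∀ ψ : Λ, ι (Tc ℓ ψ) = TM ℓ (ι ψ))
    (L : IntermediateField ℚ Qb) [FiniteDimensional ℚ L]
    (q : ℕ) (hq : q.Prime) (hqp : q ≠ p) (P : ValuationSubring Qb) (hP : P.LiesOverPrime q)
    (τ : Γ) (hτ : τ ∈ P.inertiaSubgroupIn ℚ)
    (hU : ∀ x : M, gM τ (gM τ x) - 2 • gM τ x + x = 0) (g : Γ) :
    ∃ (ℓ ℓ' ℓ'' : Nat.Primes) (A A' A'' : ValuationSubring Qb) (σ σ' σ'' : Γ) (j j' j'' : ℕ),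
      (ℓ : ℕ) ∉ S ∧ (ℓ' : ℕ) ∉ S ∧ (ℓ'' : ℕ) ∉ S ∧
      A.LiesOverPrime ℓ ∧ A'.LiesOverPrime ℓ' ∧ A''.LiesOverPrime ℓ'' ∧
      A.IsFrobeniusAt σ ℓ ∧ A'.IsFrobeniusAt σ' ℓ' ∧ A''.IsFrobeniusAt σ'' ℓ'' ∧
      (∀ x ∈ L, g x = (σ ^ j) x) ∧ (∀ x ∈ L, (g * τ) x = (σ' ^ j') x) ∧
      (∀ x ∈ L, (g * τ * τ) x = (σ'' ^ j'') x) ∧
      ∀ ψ : Λ, ∃ ψ' : Λ,
        (s31_dk (Tc ℓ) (((ℓ : ℕ) : ℕ) : Module.End ℤ Λ) j
          - 2 • s31_dk (Tc ℓ') (((ℓ' : ℕ) : ℕ) : Module.End ℤ Λ) j'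
          + s31_dk (Tc ℓ'') (((ℓ'' : ℕ) : ℕ) : Module.End ℤ Λ) j'') ψ = (p ^ n) • ψ' := by
  classical
  have hm0 : p ^ n ≠ 0 := pow_ne_zero n hp.ne_zero
  -- (1) a finite Galois field whose fixing subgroup fixes `ι(Λ)`
  obtain ⟨s, hs⟩ := (Module.Finite.fg_top : (⊤ : Submodule ℤ Λ).FG)
  have key : ∀ s' : Finset Λ, ∃ K₀ : IntermediateField ℚ Qb, s18_d1_IsGaloisNF K₀ ∧
      ∀ σ : Γ, (∀ c ∈ K₀, σ c = c) → ∀ e ∈ s', gM σ (ι e) = ι e := by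
    intro s'
    induction s' using Finset.induction_on with
    | empty =>
      obtain ⟨K₁, h₁, -⟩ := s18_d1_exists_galois (0 : Qb)
      exact ⟨K₁, h₁, fun σ _ e he => absurd he (Finset.notMem_empty e)⟩
    | insert a s' _ ih =>
      obtain ⟨K₁, h₁, hK₁⟩ := hfix (ι a)
      obtain ⟨K₂, h₂, hK₂⟩ := ih
      refine ⟨K₁ ⊔ K₂, h₁.sup h₂, fun σ hσ e he => ?_⟩
      rcases Finset.mem_insert.mp he with rfl | he
      · exact hK₁ σ (fun c hc => hσ c ((le_sup_left : K₁ ≤ K₁ ⊔ K₂) hc))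
      · exact hK₂ σ (fun c hc => hσ c ((le_sup_right : K₂ ≤ K₁ ⊔ K₂) hc)) e he
  obtain ⟨K₀, hK₀G, hK₀fix⟩ := key s
  have hK₀all : ∀ σ : Γ, (∀ c ∈ K₀, σ c = c) → ∀ ψ : Λ, gM σ (ι ψ) = ι ψ := by
    intro σ hσ ψ
    have hψ : ψ ∈ Submodule.span ℤ (s : Set Λ) := by rw [hs]; exact Submodule.mem_top
    refine Submodule.span_induction (p := fun x _ => gM σ (ι x) = ι x) ?_ ?_ ?_ ?_ hψ
    · intro e he
      exact hK₀fix σ hσ e he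
    · rw [map_zero, map_zero]
    · intro x y _ _ hx hy
      rw [map_add, map_add, hx, hy]
    · intro c x _ hx
      rw [map_zsmul, map_zsmul, hx]
  -- (2) a primitive root of unity, (3) the level `L`
  obtain ⟨ζ, hζ⟩ := s31_cy_exists_primitive (p ^ n) hm0
  obtain ⟨Kζ, hKζG, hζK⟩ := s18_d1_exists_galois ζ
  obtain ⟨KL, hKLG, hLK⟩ := s31_ti_exists_galois_ge L
  -- (4) the common level
  have hKG : s18_d1_IsGaloisNF (K₀ ⊔ Kζ ⊔ KL) := (hK₀G.sup hKζG).sup hKLG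
  have hK₀K : K₀ ≤ K₀ ⊔ Kζ ⊔ KL := le_sup_left.trans le_sup_left
  have hKζK : Kζ ≤ K₀ ⊔ Kζ ⊔ KL := le_sup_right.trans le_sup_left
  have hKLK : KL ≤ K₀ ⊔ Kζ ⊔ KL := le_sup_right
  have : FiniteDimensional ℚ ↥(K₀ ⊔ Kζ ⊔ KL) := hKG.1
  obtain ⟨ℓ, A, σ, j, hℓ, hℓS, hA, hσ, hg⟩ := hcheb (K₀ ⊔ Kζ ⊔ KL) S g
  obtain ⟨ℓ', A', σ', j', hℓ', hℓ'S, hA', hσ', hg'⟩ := hcheb (K₀ ⊔ Kζ ⊔ KL) S (g * τ)
  obtain ⟨ℓ'', A'', σ'', j'', hℓ'', hℓ''S, hA'', hσ'', hg''⟩ :=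
    hcheb (K₀ ⊔ Kζ ⊔ KL) S (g * τ * τ)
  refine ⟨⟨ℓ, hℓ⟩, ⟨ℓ', hℓ'⟩, ⟨ℓ'', hℓ''⟩, A, A', A'', σ, σ', σ'', j, j', j'', hℓS, hℓ'S, hℓ''S,
    hA, hA', hA'', hσ, hσ', hσ'',
    fun x hx => hg x (hKLK (hLK hx)), fun x hx => hg' x (hKLK (hLK hx)),
    fun x hx => hg'' x (hKLK (hLK hx)), fun ψ => ?_⟩
  have hKfix : ∀ σ : Γ, (∀ c ∈ K₀ ⊔ Kζ ⊔ KL, σ c = c) → ∀ ψ : Λ, gM σ (ι ψ) = ι ψ :=
    fun σ hσ ψ => hK₀all σ (fun c hc => hσ c (hK₀K hc)) ψ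
  have h1 := s31_ti_frob gM (TM ⟨ℓ, hℓ⟩) (hGH ⟨ℓ, hℓ⟩) (Tc ⟨ℓ, hℓ⟩) ι (hιT ⟨ℓ, hℓ⟩ hℓS)
    (K₀ ⊔ Kζ ⊔ KL) hKG hKfix ℓ σ (hES ⟨ℓ, hℓ⟩ hℓS A hA σ hσ) j g hg ψ
  have h2 := s31_ti_frob gM (TM ⟨ℓ', hℓ'⟩) (hGH ⟨ℓ', hℓ'⟩) (Tc ⟨ℓ', hℓ'⟩) ι
    (hιT ⟨ℓ', hℓ'⟩ hℓ'S) (K₀ ⊔ Kζ ⊔ KL) hKG hKfix ℓ' σ' (hES ⟨ℓ', hℓ'⟩ hℓ'S A' hA' σ' hσ') j'
    (g * τ) hg' ψ
  have h3 := s31_ti_frob gM (TM ⟨ℓ'', hℓ''⟩) (hGH ⟨ℓ'', hℓ''⟩) (Tc ⟨ℓ'', hℓ''⟩) ι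
    (hιT ⟨ℓ'', hℓ''⟩ hℓ''S) (K₀ ⊔ Kζ ⊔ KL) hKG hKfix ℓ'' σ''
    (hES ⟨ℓ'', hℓ''⟩ hℓ''S A'' hA'' σ'' hσ'') j'' (g * τ * τ) hg'' ψ
  -- the cyclotomic congruences
  have hζm : ζ ^ (p ^ n) = 1 := hζ.pow_eq_one
  have hne : ∀ r : ℕ, r.Prime → r ∉ S → Nat.Coprime (p ^ n) r := by
    intro r hr hrS
    refine Nat.Coprime.pow_left n ((Nat.coprime_primes hp hr).mpr ?_)
    rintro rfl
    exact hrS hpS
  have hneq : Nat.Coprime (p ^ n) q :=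
    Nat.Coprime.pow_left n ((Nat.coprime_primes hp hq).mpr (fun h => hqp h.symm))
  have hτζ : ∀ t : Qb, t ^ (p ^ n) = 1 → τ t = t :=
    fun t ht => s31_cy_inertia_root (p ^ n) q hm0 hneq P hP τ hτ t ht
  have hc1 : g ζ = ζ ^ (ℓ ^ j) := by
    rw [hg ζ (hKζK hζK)]
    exact s31_cy_frob_pow_root (p ^ n) ℓ hm0 (hne ℓ hℓ hℓS) A hA σ hσ ζ hζm j
  have hc2 : g ζ = ζ ^ (ℓ' ^ j') := by
    have h4 : (g * τ) ζ = g ζ := by
      rw [AlgEquiv.mul_apply, hτζ ζ hζm]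
    rw [← h4, hg' ζ (hKζK hζK)]
    exact s31_cy_frob_pow_root (p ^ n) ℓ' hm0 (hne ℓ' hℓ' hℓ'S) A' hA' σ' hσ' ζ hζm j'
  have hc3 : g ζ = ζ ^ (ℓ'' ^ j'') := by
    have h4 : (g * τ * τ) ζ = g ζ := by
      rw [AlgEquiv.mul_apply, AlgEquiv.mul_apply, hτζ ζ hζm, hτζ ζ hζm]
    rw [← h4, hg'' ζ (hKζK hζK)]
    exact s31_cy_frob_pow_root (p ^ n) ℓ'' hm0 (hne ℓ'' hℓ'' hℓ''S) A'' hA'' σ'' hσ'' ζ hζm j''
  have hmod2 : ℓ' ^ j' ≡ ℓ ^ j [MOD p ^ n] :=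
    s31_cy_pow_eq (p ^ n) ζ hζ hm0 _ _ (hc2.symm.trans hc1)
  have hmod3 : ℓ'' ^ j'' ≡ ℓ ^ j [MOD p ^ n] :=
    s31_cy_pow_eq (p ^ n) ζ hζ hm0 _ _ (hc3.symm.trans hc1)
  have hsm2 : (ℓ' ^ j') • ι ψ = (ℓ ^ j) • ι ψ := s31_ti_modEq_nsmul hmod2 (hm (ι ψ))
  have hsm3 : (ℓ'' ^ j'') • ι ψ = (ℓ ^ j) • ι ψ := s31_ti_modEq_nsmul hmod3 (hm (ι ψ))
  rw [hsm2] at h2
  rw [hsm3] at h3
  -- the algebra
  have hGi : gM g⁻¹ * gM g = 1 := by rw [← map_mul, inv_mul_cancel, map_one]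
  have hti : gM τ⁻¹ * gM τ = 1 := by rw [← map_mul, inv_mul_cancel, map_one]
  have hUop : gM τ * gM τ - 2 • gM τ + 1 = 0 := by
    refine LinearMap.ext fun x => ?_
    rw [LinearMap.add_apply, LinearMap.sub_apply, LinearMap.smul_apply, Module.End.mul_apply,
      Module.End.one_apply, LinearMap.zero_apply]
    exact hU x
  have h1' : gM g (ι (s31_dk (Tc ⟨ℓ, hℓ⟩) ((ℓ : ℕ) : Module.End ℤ Λ) j ψ))
      = (gM g * gM g) (ι ψ) + (ℓ ^ j) • ι ψ := by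
    rw [← map_mul]; exact h1
  have h2' : (gM g * gM τ) (ι (s31_dk (Tc ⟨ℓ', hℓ'⟩) ((ℓ' : ℕ) : Module.End ℤ Λ) j' ψ))
      = (gM g * gM τ * (gM g * gM τ)) (ι ψ) + (ℓ ^ j) • ι ψ := by
    rw [← map_mul, ← map_mul]; exact h2
  have h3' : (gM g * gM τ * gM τ)
        (ι (s31_dk (Tc ⟨ℓ'', hℓ''⟩) ((ℓ'' : ℕ) : Module.End ℤ Λ) j'' ψ))
      = (gM g * gM τ * gM τ * (gM g * gM τ * gM τ)) (ι ψ) + (ℓ ^ j) • ι ψ := by
    rw [← map_mul, ← map_mul, ← map_mul]; exact h3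
  have h5 := s34_ti_alg (gM g) (gM g⁻¹) (gM τ) (gM τ⁻¹) hGi hti hUop (ℓ ^ j) (ι ψ) _ _ _
    h1' h2' h3'
  refine hker _ ?_
  rw [LinearMap.add_apply, LinearMap.sub_apply, LinearMap.smul_apply, map_add, map_sub,
    map_nsmul]
  exact h5

end Fermat.Agent.S34
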