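import Mathlib
import Fermat.Agent.S29.HeckeLatSat
import Fermat.Agent.S31.TraceInvCore
import Fermat.Agent.S34.UDef
import Fermat.Agent.S34.TraceAbs

/-!
# S34: the second-difference trace identity

* `s34_ti_level` : the abstract congruence `s34_ti_abs` for `M = J₀(N)[p ^ n]`, given `(U)`.
* `s34_ti_sat` : transfer of three-term congruences from `End(Λ)` to the Hecke algebra.
* `s34_ti_main` : `tr ρ(g τ²) - 2 tr ρ(g τ) + tr ρ(g) = 0` for `τ` in an inertia group at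
  `q ≠ p`, from `(U)`, weak Chebotarev and the bridge maps `ι_n : Λ → J₀(N)[p ^ n]`.
-/

set_option autoImplicit false
set_option linter.style.haveILetI false

open Polynomial AlgebraicCurve ModularCurve CongruenceSubgroup ModularCurve.Period
open Fermat.Agent.S18 Fermat.Agent.S29 Fermat.Agent.S37 Fermat.Agent.S31

noncomputable section

namespace Fermat.Agent.S34

local notation "Qb" => AlgebraicClosure ℚ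
local notation "Γ" => (AlgebraicClosure ℚ ≃ₐ[ℚ] AlgebraicClosure ℚ)

/-- **Level `n` second-difference congruence** on `Λ = parabolicHoms ℤ (Gamma0 N) ℤ`. -/
theorem s34_ti_level (N : ℕ) [NeZero N] (p : ℕ) (hp : p.Prime) (S : Finset ℕ) (hpS : p ∈ S)
    (hNS : ∀ q : ℕ, q.Prime → q ∣ N → q ∈ S) (hcheb : s29_asm_Cheb) (n : ℕ)
    (ι : ↥(parabolicHoms ℤ (Gamma0 N) ℤ) →+ JZero N)
    (hι1 : ∀ ψ, (p ^ n) • ι ψ = 0)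
    (hι2 : ∀ ψ, ι ψ = 0 → ∃ ψ', ψ = (p ^ n) • ψ')
    (hι3 : ∀ (ℓ : ℕ) (hℓ : ℓ.Prime) (hℓN : ¬ ℓ ∣ N), ¬ ℓ ∣ N * p → ∀ ψ,
      ι (s29_cp_Tpar N ℓ hℓ hℓN ℤ ℤ ψ) = heckeOperatorBar N ⟨ℓ, hℓ⟩ (ι ψ))
    (L : IntermediateField ℚ Qb) [FiniteDimensional ℚ L]
    (q : ℕ) (hq : q.Prime) (hqp : q ≠ p) (P : ValuationSubring Qb) (hP : P.LiesOverPrime q)
    (τ : Γ) (hτ : τ ∈ P.inertiaSubgroupIn ℚ)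
    (hU : ∀ x : JZero N, (p ^ n) • x = 0 → τ • τ • x - 2 • (τ • x) + x = 0) (g : Γ) :
    ∃ (ℓ ℓ' ℓ'' : ℕ) (hℓ : ℓ.Prime) (hℓ' : ℓ'.Prime) (hℓ'' : ℓ''.Prime)
      (hℓN : ¬ ℓ ∣ N) (hℓ'N : ¬ ℓ' ∣ N) (hℓ''N : ¬ ℓ'' ∣ N)
      (A A' A'' : ValuationSubring Qb) (σ σ' σ'' : Γ) (j j' j'' : ℕ),
      ℓ ∉ S ∧ ℓ' ∉ S ∧ ℓ'' ∉ S ∧
      A.LiesOverPrime ℓ ∧ A'.LiesOverPrime ℓ' ∧ A''.LiesOverPrime ℓ'' ∧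
      A.IsFrobeniusAt σ ℓ ∧ A'.IsFrobeniusAt σ' ℓ' ∧ A''.IsFrobeniusAt σ'' ℓ'' ∧
      (∀ x ∈ L, g x = (σ ^ j) x) ∧ (∀ x ∈ L, (g * τ) x = (σ' ^ j') x) ∧
      (∀ x ∈ L, (g * τ * τ) x = (σ'' ^ j'') x) ∧
      ∀ ψ : ↥(parabolicHoms ℤ (Gamma0 N) ℤ), ∃ ψ' : ↥(parabolicHoms ℤ (Gamma0 N) ℤ),
        (s31_dk (s29_cp_Tpar N ℓ hℓ hℓN ℤ ℤ)
            ((ℓ : ℕ) : Module.End ℤ ↥(parabolicHoms ℤ (Gamma0 N) ℤ)) j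
          - 2 • s31_dk (s29_cp_Tpar N ℓ' hℓ' hℓ'N ℤ ℤ)
            ((ℓ' : ℕ) : Module.End ℤ ↥(parabolicHoms ℤ (Gamma0 N) ℤ)) j'
          + s31_dk (s29_cp_Tpar N ℓ'' hℓ'' hℓ''N ℤ ℤ)
            ((ℓ'' : ℕ) : Module.End ℤ ↥(parabolicHoms ℤ (Gamma0 N) ℤ)) j'') ψ
          = (p ^ n) • ψ' := by
  classical
  haveI := s29_pl_fg N
  haveI : Module.Finite ℤ ↥(parabolicHoms ℤ (Gamma0 N) ℤ) := s29_pl_finite (Gamma0 N)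
  have hS37 := Fermat.Agent.S37.result N (p ^ n) (s29_hc_commute N)
  have hnd : ∀ ℓ : ℕ, ℓ.Prime → ℓ ∉ S → ¬ ℓ ∣ N * p ^ n :=
    fun ℓ hℓ hℓS => s31_ti_not_dvd N p n hp S hpS hNS ℓ hℓ hℓS
  have hnd1 : ∀ ℓ : ℕ, ℓ.Prime → ℓ ∉ S → ¬ ℓ ∣ N * p := by
    intro ℓ hℓ hℓS
    have := s31_ti_not_dvd N p 1 hp S hpS hNS ℓ hℓ hℓS
    rwa [pow_one] at this
  have hndN : ∀ ℓ : ℕ, ℓ.Prime → ℓ ∉ S → ¬ ℓ ∣ N := fun ℓ hℓ hℓS h => hℓS (hNS ℓ hℓ h)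
  -- the operators on `Λ`
  let Tc : Nat.Primes → Module.End ℤ ↥(parabolicHoms ℤ (Gamma0 N) ℤ) := fun ℓ =>
    if h : ¬ (ℓ : ℕ) ∣ N then s29_cp_Tpar N ℓ ℓ.2 h ℤ ℤ else 0
  -- the map into the torsion
  let ι' : ↥(parabolicHoms ℤ (Gamma0 N) ℤ) →+ s29_wa_Jp N (p ^ n) :=
    { toFun := fun ψ => ⟨ι ψ, s29_wa_mem_Jp.mpr (hι1 ψ)⟩
      map_zero' := Subtype.ext (map_zero ι)
      map_add' := fun a b => Subtype.ext (map_add ι a b) }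
  have h1 : ∀ (ℓ : Nat.Primes) (σ : Γ) (x : s29_wa_Jp N (p ^ n)),
      s29_wa_hecke N (p ^ n) ℓ (s29_wa_gal N (p ^ n) σ x)
        = s29_wa_gal N (p ^ n) σ (s29_wa_hecke N (p ^ n) ℓ x) :=
    fun ℓ σ x => Subtype.ext (s29_hc_galois_heckeBar N ℓ σ (x : JZero N))
  have h2 : ∀ x : s29_wa_Jp N (p ^ n), (p ^ n) • x = 0 := fun x => Subtype.ext x.2
  have h3 : ∀ x : s29_wa_Jp N (p ^ n), ∃ K₁ : IntermediateField ℚ Qb, s18_d1_IsGaloisNF K₁ ∧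
      ∀ σ : Γ, (∀ c ∈ K₁, σ c = c) → s29_wa_gal N (p ^ n) σ x = x := by
    intro x
    obtain ⟨K₁, hK₁, h⟩ := s29_wa_fix N (x : JZero N)
    exact ⟨K₁, hK₁, fun σ hσ => Subtype.ext (h σ hσ)⟩
  have h5 : ∀ ℓ : Nat.Primes, (ℓ : ℕ) ∉ S → ∀ A : ValuationSubring Qb,
      A.LiesOverPrime ℓ → ∀ σ : Γ, A.IsFrobeniusAt σ ℓ → ∀ x : s29_wa_Jp N (p ^ n),
        s29_wa_gal N (p ^ n) σ (s29_wa_gal N (p ^ n) σ x)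
          - s29_wa_hecke N (p ^ n) ℓ (s29_wa_gal N (p ^ n) σ x) + (ℓ : ℕ) • x = 0 :=
    fun ℓ hℓS A hA σ hσ x =>
      Subtype.ext (s29_wa_es N (p ^ n) (s29_hc_commute N) hS37 ℓ (hnd ℓ ℓ.2 hℓS) A hA σ hσ
        (x : JZero N) x.2)
  have h6 : ∀ ψ : ↥(parabolicHoms ℤ (Gamma0 N) ℤ), ι' ψ = 0 → ∃ ψ', ψ = (p ^ n) • ψ' :=
    fun ψ hψ => hι2 ψ (congrArg Subtype.val hψ)
  have h7 : ∀ ℓ : Nat.Primes, (ℓ : ℕ) ∉ S → ∀ ψ : ↥(parabolicHoms ℤ (Gamma0 N) ℤ),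
      ι' (Tc ℓ ψ) = s29_wa_hecke N (p ^ n) ℓ (ι' ψ) := by
    intro ℓ hℓS ψ
    apply Subtype.ext
    have hN : ¬ (ℓ : ℕ) ∣ N := hndN ℓ ℓ.2 hℓS
    have e : Tc ℓ = s29_cp_Tpar N ℓ ℓ.2 hN ℤ ℤ := dif_pos hN
    rw [e]
    exact hι3 ℓ ℓ.2 hN (hnd1 ℓ ℓ.2 hℓS) ψ
  have h8 : ∀ x : s29_wa_Jp N (p ^ n),
      s29_wa_gal N (p ^ n) τ (s29_wa_gal N (p ^ n) τ x)
        - 2 • s29_wa_gal N (p ^ n) τ x + x = 0 :=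
    fun x => Subtype.ext (hU (x : JZero N) x.2)
  obtain ⟨ℓ, ℓ', ℓ'', A, A', A'', σ, σ', σ'', j, j', j'', hℓS, hℓ'S, hℓ''S, hA, hA', hA'',
    hσ, hσ', hσ'', hg, hg', hg'', hu⟩ :=
    s34_ti_abs p n hp S hpS hcheb (s29_wa_gal N (p ^ n)) (s29_wa_hecke N (p ^ n)) h1 h2 h3 h5
      Tc ι' h6 h7 L q hq hqp P hP τ hτ h8 g
  have hℓN : ¬ (ℓ : ℕ) ∣ N := hndN ℓ ℓ.2 hℓS
  have hℓ'N : ¬ (ℓ' : ℕ) ∣ N := hndN ℓ' ℓ'.2 hℓ'S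
  have hℓ''N : ¬ (ℓ'' : ℕ) ∣ N := hndN ℓ'' ℓ''.2 hℓ''S
  refine ⟨ℓ, ℓ', ℓ'', ℓ.2, ℓ'.2, ℓ''.2, hℓN, hℓ'N, hℓ''N, A, A', A'', σ, σ', σ'', j, j', j'',
    hℓS, hℓ'S, hℓ''S, hA, hA', hA'', hσ, hσ', hσ'', hg, hg', hg'', fun ψ => ?_⟩
  obtain ⟨ψ', hψ'⟩ := hu ψ
  refine ⟨ψ', ?_⟩
  have e1 : Tc ℓ = s29_cp_Tpar N ℓ ℓ.2 hℓN ℤ ℤ := dif_pos hℓN
  have e2 : Tc ℓ' = s29_cp_Tpar N ℓ' ℓ'.2 hℓ'N ℤ ℤ := dif_pos hℓ'N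
  have e3 : Tc ℓ'' = s29_cp_Tpar N ℓ'' ℓ''.2 hℓ''N ℤ ℤ := dif_pos hℓ''N
  rw [e1, e2, e3] at hψ'
  exact hψ'

/-- Transfer of three-term congruences from `End(Λ)` to the Hecke algebra, abstract form. -/
theorem s34_ti_sat_aux (N : ℕ) [NeZero N] (p : ℕ) (S : Set ℕ)
    (hNS : ∀ q : ℕ, q.Prime → q ∣ N → q ∈ S)
    {T : Type} [CommRing T] [IsLocalRing T] (hpT : (p : T) ∈ IsLocalRing.maximalIdeal T)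
    (π : CuspForm.heckeAlgebra N 2 S →+* T) :
    ∃ c : ℕ, ∀ (k : ℕ) (a b d : CuspForm.heckeAlgebra N 2 S)
      (A B D : Module.End ℤ ↥(parabolicHoms ℤ (Gamma0 N) ℤ)) (a' b' d' : T),
      s29_ht_Theta N S hNS a = A → s29_ht_Theta N S hNS b = B → s29_ht_Theta N S hNS d = D →
      π a = a' → π b = b' → π d = d' →
      (∀ ψ : ↥(parabolicHoms ℤ (Gamma0 N) ℤ), ∃ ψ' : ↥(parabolicHoms ℤ (Gamma0 N) ℤ),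
        (A - 2 • B + D) ψ = (p ^ (k + c)) • ψ') →
      a' - 2 * b' + d' ∈ IsLocalRing.maximalIdeal T ^ k := by
  obtain ⟨c, hc⟩ := s29_ht_saturation' N S hNS p
  refine ⟨c, fun k a b d A B D a' b' d' hA hB hD ha hb hd hu => ?_⟩
  subst hA hB hD ha hb hd
  obtain ⟨t', ht'⟩ := hc k (a - (b + b) + d) (fun ψ => by
    obtain ⟨ψ', hψ'⟩ := hu ψ
    refine ⟨ψ', ?_⟩
    rw [map_add, map_sub, map_add, ← two_nsmul, hψ', ← Nat.cast_pow, natCast_zsmul])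
  have e : π a - 2 * π b + π d = π (a - (b + b) + d) := by
    rw [map_add, map_sub, map_add, two_mul]
  rw [e, ht', map_zsmul, zsmul_eq_mul]
  push_cast
  exact Ideal.mul_mem_right _ _ (Ideal.pow_mem_pow hpT k)

/-- Transfer of three-term congruences from `End(Λ)` to the Hecke algebra. -/
theorem s34_ti_sat (N : ℕ) [NeZero N] (p : ℕ) (S : Finset ℕ)
    (hNS : ∀ q : ℕ, q.Prime → q ∣ N → q ∈ S)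
    {T : Type} [CommRing T] [IsLocalRing T] (hpT : (p : T) ∈ IsLocalRing.maximalIdeal T)
    (π : CuspForm.heckeAlgebra N 2 (↑S : Set ℕ) →+* T) :
    ∃ c : ℕ, ∀ (k : ℕ) (ℓ ℓ' ℓ'' : ℕ) (hℓ : ℓ.Prime) (hℓ' : ℓ'.Prime) (hℓ'' : ℓ''.Prime)
      (hℓN : ¬ ℓ ∣ N) (hℓ'N : ¬ ℓ' ∣ N) (hℓ''N : ¬ ℓ'' ∣ N)
      (hℓS : ℓ ∉ (↑S : Set ℕ)) (hℓ'S : ℓ' ∉ (↑S : Set ℕ)) (hℓ''S : ℓ'' ∉ (↑S : Set ℕ))
      (j j' j'' : ℕ),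
      (∀ ψ : ↥(parabolicHoms ℤ (Gamma0 N) ℤ), ∃ ψ' : ↥(parabolicHoms ℤ (Gamma0 N) ℤ),
        (s31_dk (s29_cp_Tpar N ℓ hℓ hℓN ℤ ℤ)
            ((ℓ : ℕ) : Module.End ℤ ↥(parabolicHoms ℤ (Gamma0 N) ℤ)) j
          - 2 • s31_dk (s29_cp_Tpar N ℓ' hℓ' hℓ'N ℤ ℤ)
            ((ℓ' : ℕ) : Module.End ℤ ↥(parabolicHoms ℤ (Gamma0 N) ℤ)) j'
          + s31_dk (s29_cp_Tpar N ℓ'' hℓ'' hℓ''N ℤ ℤ)
            ((ℓ'' : ℕ) : Module.End ℤ ↥(parabolicHoms ℤ (Gamma0 N) ℤ)) j'') ψ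
          = (p ^ (k + c)) • ψ') →
      s31_dk (π (CuspForm.heckeAlgebra.T hℓ hℓN hℓS)) (ℓ : T) j
        - 2 * s31_dk (π (CuspForm.heckeAlgebra.T hℓ' hℓ'N hℓ'S)) (ℓ' : T) j'
        + s31_dk (π (CuspForm.heckeAlgebra.T hℓ'' hℓ''N hℓ''S)) (ℓ'' : T) j''
        ∈ IsLocalRing.maximalIdeal T ^ k := by
  have hNS' : ∀ q : ℕ, q.Prime → q ∣ N → q ∈ (↑S : Set ℕ) :=
    fun q hq hqN => Finset.mem_coe.mpr (hNS q hq hqN)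
  obtain ⟨c, hc⟩ := s34_ti_sat_aux N p (↑S : Set ℕ) hNS' hpT π
  have hD : ∀ (r : ℕ) (hr : r.Prime) (hrN : ¬ r ∣ N) (hrS : r ∉ (↑S : Set ℕ)) (i : ℕ),
      s29_ht_Theta N (↑S : Set ℕ) hNS'
        (s31_dk (CuspForm.heckeAlgebra.T hr hrN hrS)
          ((r : ℕ) : CuspForm.heckeAlgebra N 2 (↑S : Set ℕ)) i)
      = s31_dk (s29_cp_Tpar N r hr hrN ℤ ℤ)
          ((r : ℕ) : Module.End ℤ ↥(parabolicHoms ℤ (Gamma0 N) ℤ)) i := by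
    intro r hr hrN hrS i
    rw [s31_dk_map, s29_ht_Theta_T, map_natCast]
  have hE : ∀ (r : ℕ) (hr : r.Prime) (hrN : ¬ r ∣ N) (hrS : r ∉ (↑S : Set ℕ)) (i : ℕ),
      π (s31_dk (CuspForm.heckeAlgebra.T hr hrN hrS)
          ((r : ℕ) : CuspForm.heckeAlgebra N 2 (↑S : Set ℕ)) i)
      = s31_dk (π (CuspForm.heckeAlgebra.T hr hrN hrS)) (r : T) i := by
    intro r hr hrN hrS i
    rw [s31_dk_map, map_natCast]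
  exact ⟨c, fun k ℓ ℓ' ℓ'' hℓ hℓ' hℓ'' hℓN hℓ'N hℓ''N hℓS hℓ'S hℓ''S j j' j'' hu =>
    hc k _ _ _ _ _ _ _ _ _ (hD ℓ hℓ hℓN hℓS j) (hD ℓ' hℓ' hℓ'N hℓ'S j')
      (hD ℓ'' hℓ'' hℓ''N hℓ''S j'') (hE ℓ hℓ hℓN hℓS j) (hE ℓ' hℓ' hℓ'N hℓ'S j')
      (hE ℓ'' hℓ'' hℓ''N hℓ''S j'') hu⟩

/-- **Second-difference trace identity, core.** -/
theorem s34_ti_core (N : ℕ) [NeZero N] (p : ℕ) (hp : p.Prime) (S : Finset ℕ) (hpS : p ∈ S)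
    (hNS : ∀ q : ℕ, q.Prime → q ∣ N → q ∈ S) (hcheb : s29_asm_Cheb)
    (hBR : ∀ n : ℕ, ∃ ι : ↥(parabolicHoms ℤ (Gamma0 N) ℤ) →+ JZero N,
      (∀ ψ, (p ^ n) • ι ψ = 0) ∧ (∀ ψ, ι ψ = 0 → ∃ ψ', ψ = (p ^ n) • ψ') ∧
      ∀ (ℓ : ℕ) (hℓ : ℓ.Prime) (hℓN : ¬ ℓ ∣ N), ¬ ℓ ∣ N * p → ∀ ψ,
        ι (s29_cp_Tpar N ℓ hℓ hℓN ℤ ℤ ψ) = heckeOperatorBar N ⟨ℓ, hℓ⟩ (ι ψ))
    {T : Type} [CommRing T] [IsLocalRing T] [IsHausdorff (IsLocalRing.maximalIdeal T) T]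
    (hpT : (p : T) ∈ IsLocalRing.maximalIdeal T)
    (π : CuspForm.heckeAlgebra N 2 (↑S : Set ℕ) →+* T)
    (ρ : GaloisRepAdic T)
    (hfrob : ∀ (ℓ : ℕ) (hℓ : ℓ.Prime) (hℓN : ¬ ℓ ∣ N) (hℓS : ℓ ∉ (↑S : Set ℕ))
      (A : ValuationSubring Qb), A.LiesOverPrime ℓ → ∀ σ : Γ, A.IsFrobeniusAt σ ℓ →
        LinearMap.charpoly (ρ.ρ σ)
          = X ^ 2 - C (π (CuspForm.heckeAlgebra.T hℓ hℓN hℓS)) * X + C ((ℓ : T)))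
    (q : ℕ) (hq : q.Prime) (hqp : q ≠ p) (hU : s34_U N p q)
    (P : ValuationSubring Qb) (hP : P.LiesOverPrime q)
    (τ : Γ) (hτ : τ ∈ P.inertiaSubgroupIn ℚ) (g : Γ) :
    LinearMap.trace T ρ.V (ρ.ρ (g * τ * τ)) - 2 * LinearMap.trace T ρ.V (ρ.ρ (g * τ))
      + LinearMap.trace T ρ.V (ρ.ρ g) = 0 := by
  obtain ⟨c, hc⟩ := s34_ti_sat N p S hNS hpT π
  refine IsHausdorff.haus' (I := IsLocalRing.maximalIdeal T) _ fun k => ?_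
  rw [SModEq.zero, smul_eq_mul, Ideal.mul_top]
  obtain ⟨ι, hι1, hι2, hι3⟩ := hBR (k + c)
  obtain ⟨L, hL, hLρ⟩ := ρ.isAdicContinuous k
  haveI := hL
  obtain ⟨ℓ, ℓ', ℓ'', hℓ, hℓ', hℓ'', hℓN, hℓ'N, hℓ''N, A, A', A'', σ, σ', σ'', j, j', j'',
    hℓS, hℓ'S, hℓ''S, hA, hA', hA'', hσ, hσ', hσ'', hg, hg', hg'', hu⟩ :=
    s34_ti_level N p hp S hpS hNS hcheb (k + c) ι hι1 hι2 hι3 L q hq hqp P hP τ hτ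
      (fun x hx => hU P hP τ hτ (k + c) x hx) g
  have hℓS' : ℓ ∉ (↑S : Set ℕ) := fun h => hℓS (Finset.mem_coe.mp h)
  have hℓ'S' : ℓ' ∉ (↑S : Set ℕ) := fun h => hℓ'S (Finset.mem_coe.mp h)
  have hℓ''S' : ℓ'' ∉ (↑S : Set ℕ) := fun h => hℓ''S (Finset.mem_coe.mp h)
  have h1 := hc k ℓ ℓ' ℓ'' hℓ hℓ' hℓ'' hℓN hℓ'N hℓ''N hℓS' hℓ'S' hℓ''S' j j' j'' hu
  have t1 : LinearMap.trace T ρ.V (ρ.ρ (σ ^ j))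
      = s31_dk (π (CuspForm.heckeAlgebra.T hℓ hℓN hℓS')) (ℓ : T) j := by
    rw [map_pow]
    exact s31_dk_trace ρ.finrank_eq (ρ.ρ σ) _ _ (hfrob ℓ hℓ hℓN hℓS' A hA σ hσ) j
  have t2 : LinearMap.trace T ρ.V (ρ.ρ (σ' ^ j'))
      = s31_dk (π (CuspForm.heckeAlgebra.T hℓ' hℓ'N hℓ'S')) (ℓ' : T) j' := by
    rw [map_pow]
    exact s31_dk_trace ρ.finrank_eq (ρ.ρ σ') _ _ (hfrob ℓ' hℓ' hℓ'N hℓ'S' A' hA' σ' hσ') j'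
  have t3 : LinearMap.trace T ρ.V (ρ.ρ (σ'' ^ j''))
      = s31_dk (π (CuspForm.heckeAlgebra.T hℓ'' hℓ''N hℓ''S')) (ℓ'' : T) j'' := by
    rw [map_pow]
    exact s31_dk_trace ρ.finrank_eq (ρ.ρ σ'') _ _
      (hfrob ℓ'' hℓ'' hℓ''N hℓ''S' A'' hA'' σ'' hσ'') j''
  have a1 := s31_ti_approx ρ k L hLρ g (σ ^ j) hg
  have a2 := s31_ti_approx ρ k L hLρ (g * τ) (σ' ^ j') hg'
  have a3 := s31_ti_approx ρ k L hLρ (g * τ * τ) (σ'' ^ j'') hg''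
  rw [t1] at a1
  rw [t2] at a2
  rw [t3] at a3
  have e : LinearMap.trace T ρ.V (ρ.ρ (g * τ * τ)) - 2 * LinearMap.trace T ρ.V (ρ.ρ (g * τ))
        + LinearMap.trace T ρ.V (ρ.ρ g)
      = (s31_dk (π (CuspForm.heckeAlgebra.T hℓ hℓN hℓS')) (ℓ : T) j
          - 2 * s31_dk (π (CuspForm.heckeAlgebra.T hℓ' hℓ'N hℓ'S')) (ℓ' : T) j'
          + s31_dk (π (CuspForm.heckeAlgebra.T hℓ'' hℓ''N hℓ''S')) (ℓ'' : T) j'')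
        - (s31_dk (π (CuspForm.heckeAlgebra.T hℓ hℓN hℓS')) (ℓ : T) j
          - LinearMap.trace T ρ.V (ρ.ρ g))
        + 2 * (s31_dk (π (CuspForm.heckeAlgebra.T hℓ' hℓ'N hℓ'S')) (ℓ' : T) j'
          - LinearMap.trace T ρ.V (ρ.ρ (g * τ)))
        - (s31_dk (π (CuspForm.heckeAlgebra.T hℓ'' hℓ''N hℓ''S')) (ℓ'' : T) j''
          - LinearMap.trace T ρ.V (ρ.ρ (g * τ * τ))) := by
    ring
  rw [e]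
  exact sub_mem (add_mem (sub_mem h1 a1) (Ideal.mul_mem_left _ _ a2)) a3

end Fermat.Agent.S34
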