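import Fermat.Prelude.Def_CuspForm_HeckeGaloisRepDatum
import Fermat.Prelude.Def_GaloisRep_LocalConditions
import Fermat.Agent.S29.ChebAsm
import Fermat.Agent.S29.BrTowerMain
import Fermat.Agent.S34.UDef
import Fermat.Agent.S34.Key
import Fermat.Agent.S34.TraceCore
import Fermat.Agent.S34.Det

/-!
# S34: unipotent inertia at `q ∥ N` from the statement (U)

`s34_of_U` : in a Hecke–Galois datum of level `N` away from `S` (`S ∋ p` and the primes of `N`),
the Galois representation is unipotent on inertia at every prime `q ≠ p` for which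
`(U) = s34_U N p q` holds, i.e. `(τ - 1)² = 0` on `J₀(N)[p ^ n]` for `τ` in inertia at `q`.
The binders are those of the frozen statement S34 (the hypotheses `q ∣ N`, `¬ q ^ 2 ∣ N` are
only needed for `(U)` itself).
-/

set_option autoImplicit false

open IsLocalRing

namespace Fermat.Agent.S34

/-- **S34 from (U).** -/
theorem s34_of_U
    {𝒪 : Type} [CommRing 𝒪] [IsDomain 𝒪] [IsDiscreteValuationRing 𝒪]
    [IsAdicComplete (maximalIdeal 𝒪) 𝒪]
    {p : ℕ} (hp : p.Prime) (hp𝒪 : (p : 𝒪) ∈ maximalIdeal 𝒪)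
    {N : ℕ} [NeZero N] {S : Finset ℕ} (hpS : p ∈ S) (hNS : ∀ q : ℕ, q.Prime → q ∣ N → q ∈ S)
    {θ : CuspForm.heckeAlgebra N 2 (↑S : Set ℕ) →+* ResidueField 𝒪}
    {T : Type} [CommRing T] [IsLocalRing T] [IsNoetherianRing T]
    [IsAdicComplete (maximalIdeal T) T] [Algebra 𝒪 T] [IsLocalHom (algebraMap 𝒪 T)]
    [Module.Finite 𝒪 T] [Module.Free 𝒪 T]
    (H : CuspForm.HeckeGaloisRepDatum N (↑S : Set ℕ) 𝒪 θ T)
    (q : ℕ) (hq : q.Prime) (hqp : q ≠ p) (hU : s34_U N p q) :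
    H.ρ.IsUnipotentOnInertiaAt q := by
  have hpT : (p : T) ∈ maximalIdeal T := by
    have h1 : (algebraMap 𝒪 T) (p : 𝒪) ∈ maximalIdeal T :=
      (IsLocalRing.mem_maximalIdeal _).mpr
        ((map_mem_nonunits_iff (algebraMap 𝒪 T) _).mpr ((IsLocalRing.mem_maximalIdeal _).mp hp𝒪))
    rwa [map_natCast] at h1
  obtain ⟨ι, h1, h2, h3, -⟩ := Fermat.Agent.S29.s29_bt_main_p N p hp.ne_zero
  refine s34_unipotent_of_trace H.ρ H.residual_absIrr q ?_ ?_
  · intro P hP τ hτ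
    exact s34_det_inertia N p hp S hpS hNS Fermat.Agent.S29.s29_cheb_asm hpT H.π H.ρ
      H.charpoly_frob q hq hqp P hP τ hτ
  · intro P hP τ hτ g
    exact s34_ti_core N p hp S hpS hNS Fermat.Agent.S29.s29_cheb_asm
      (fun n => ⟨ι n, h1 n, h2 n, fun ℓ hℓ hℓN _ ψ => h3 n ℓ hℓ hℓN ψ⟩)
      hpT H.π H.ρ H.charpoly_frob q hq hqp hU P hP τ hτ g

end Fermat.Agent.S34
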