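import Mathlib
import Fermat.Agent.S34.InstDefs
import Fermat.Agent.S34.RegExt

/-!
# S34, block (INST), contract item 6: `s34_ct_sm`

`s34_smi_ct_sm` : the regularity item `s34_ct_sm` of the contract of the concrete nodal model
(`InstDefs.lean`) follows from the cap item `s34_ct_cap` — by `s34_rx_model_t2` / `_t3`
(`RegExt.lean`), which need only the swap and (CAP).
-/

set_option autoImplicit false
set_option synthInstance.maxHeartbeats 400000
set_option maxHeartbeats 4000000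

open ModularCurve AlgebraicCurve

noncomputable section

namespace Fermat.Agent.S34

open Fermat.Agent.S18

/-- The second Gauss ring of the contract, with the swap seen as a ring equivalence. -/
theorem s34_smi_V2_eq (P : ValuationSubring (AlgebraicClosure ℚ))
    (K₁ : IntermediateField ℚ (AlgebraicClosure ℚ)) (L : ℕ)
    (W : s18_F1 K₁ L ≃ₐ[K₁] s18_F1 K₁ L) :
    s34_md_V2 P K₁ L W = (s34_gi_V (s18_A1 P K₁) L).comap
      (((W : s18_F1 K₁ L ≃+* s18_F1 K₁ L)) : s18_F1 K₁ L →+* s18_F1 K₁ L) := rfl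

/-- **Contract item 6**: `s34_ct_sm` from `s34_ct_cap`. -/
theorem s34_smi_ct_sm (hcap : s34_ct_cap) : s34_ct_sm := by
  intro N₁ q _ _ _ hqN P hP K₁ _ _ _ π hπ tL htL W hW
  have : NeZero q := ⟨(Fact.out : q.Prime).ne_zero⟩
  have : NumberField K₁ := { to_charZero := inferInstance, to_finiteDimensional := inferInstance }
  obtain ⟨hc0, hci⟩ := hcap N₁ q hqN P hP K₁ π hπ tL htL W hW
  obtain ⟨hWα, hWβ, hWW, -, -⟩ := hW
  rcases htL with ⟨h, h2⟩ | ⟨h, h3⟩
  · obtain rfl : tL = s18_cz_t2 (N₁ * q) (dvd_mul_of_dvd_left h2 q) := Subtype.ext h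
    exact s34_rx_model_t2 N₁ q P hP K₁ hqN h2 (dvd_mul_of_dvd_left h2 q) hπ
      (W : s18_F1 K₁ (N₁ * q) ≃+* s18_F1 K₁ (N₁ * q)) (fun c => W.commutes c) hWα hWβ hWW
      hc0 hci
  · obtain rfl : tL = s18_cz_t3 (N₁ * q) (dvd_mul_of_dvd_left h3 q) := Subtype.ext h
    exact s34_rx_model_t3 N₁ q P hP K₁ hqN h3 (dvd_mul_of_dvd_left h3 q) hπ
      (W : s18_F1 K₁ (N₁ * q) ≃+* s18_F1 K₁ (N₁ * q)) (fun c => W.commutes c) hWα hWβ hWW
      hc0 hci

end Fermat.Agent.S34
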