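import Mathlib
import Fermat.Agent.S18.ChVal
import Fermat.Agent.S18.ChConc
import Fermat.Agent.S37.EsFrob
import Fermat.Prelude.Thm_ModularCurve_coeffMap_qExpand

/-!
# S34 (NODE), concrete inputs of the transversality leaf (N3): the Frobenius congruence

In the coefficientwise Gauss ring `s18_W ι ρ ⊆ L((q))` of `(R ⊆ L, ρ : R → k)`:

* `s34_fc_qExpand_mem_W`, `s34_fc_red_qExpand` : `V_N : f(q) ↦ f(q^N)` preserves the Gauss ring and
  commutes with reduction;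
* `s34_fc_red_ker` : the kernel of the reduction map is `π · W`;
* `s34_fc_frob_W` : **Frobenius congruence**: if the reduction of `x` has Frobenius-fixed
  coefficients then `V_ℓ x - x ^ ℓ ∈ π · W`;
* `s34_fc_frob_of_map` : the same for `x = φ(x₀)` coming from a Gauss ring whose residue field is
  fixed by Frobenius;
* `s34_fc_frob_rat` : the instance `ℤ_(ℓ) ⊆ ℚ` → `A ⊆ K`: for `x₀` in the rational Gauss ring
  `S28.Wring ℓ` (e.g. in the rational chart `s18_czRing N ℓ t`),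
  `V_ℓ x - x ^ ℓ = π · z` with `z` in the Gauss ring of `A`.
-/

set_option autoImplicit false

open ModularCurve

noncomputable section

namespace Fermat.Agent.S34

open Fermat.Agent.S18 Fermat.Agent.S37 Fermat.Agent.S28

section Generic

variable {R L k : Type*} [CommRing R] [Field L] [Field k] {ι : R →+* L} {ρ : R →+* k}

/-- `V_N : f(q) ↦ f(q^N)` preserves the Gauss ring. -/
theorem s34_fc_qExpand_mem_W (N : ℕ) [NeZero N] {x : LaurentSeries L} (hx : x ∈ s18_W ι ρ) :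
    qExpand L N x ∈ s18_W ι ρ := by
  obtain ⟨s, y, hs, h⟩ := hx
  refine ⟨qExpand R N s, qExpand R N y, ?_, ?_⟩
  · rw [coeffMap_qExpand]
    intro h0
    exact hs (qExpand_injective N (by rw [h0, map_zero]))
  · rw [coeffMap_qExpand, coeffMap_qExpand, ← map_mul, h]

/-- `V_N` commutes with the reduction map of the Gauss ring. -/
theorem s34_fc_red_qExpand (hι : Function.Injective ι) (N : ℕ) [NeZero N] (x : LaurentSeries L)
    (hx : x ∈ s18_W ι ρ) :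
    s18_red hι ⟨qExpand L N x, s34_fc_qExpand_mem_W N hx⟩ = qExpand k N (s18_red hι ⟨x, hx⟩) := by
  obtain ⟨s, y, hs, h⟩ := id hx
  have hs' : coeffMap ρ (qExpand R N s) ≠ 0 := by
    rw [coeffMap_qExpand]
    intro h0
    exact hs (qExpand_injective N (by rw [h0, map_zero]))
  have h' : coeffMap ι (qExpand R N s) * qExpand L N x = coeffMap ι (qExpand R N y) := by
    rw [coeffMap_qExpand, coeffMap_qExpand, ← map_mul, h]
  rw [s18_red_eq hι ⟨_, s34_fc_qExpand_mem_W N hx⟩ _ _ hs' h', s18_red_eq hι ⟨x, hx⟩ s y hs h,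
    map_div₀, coeffMap_qExpand, coeffMap_qExpand]

/-- The kernel of the reduction map of the Gauss ring is `π · W`. -/
theorem s34_fc_red_ker [IsDomain R] (hι : Function.Injective ι) {π : R} (hπ0 : π ≠ 0)
    (hρπ : ∀ r : R, ρ r = 0 → ∃ r', r = π * r') (x : LaurentSeries L) (hx : x ∈ s18_W ι ρ)
    (h0 : s18_red hι ⟨x, hx⟩ = 0) :
    ∃ x' ∈ s18_W ι ρ, x = HahnSeries.C (ι π) * x' := by
  obtain ⟨s, y, hs, h⟩ := id hx
  have hy0 : coeffMap ρ y = 0 := by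
    have h1 := s18_red_spec (ρ := ρ) hι ⟨x, hx⟩ s y h
    rw [h0, mul_zero] at h1
    exact h1.symm
  have hdiv : ∀ n : ℤ, ∃ w : R, y.coeff n = π * w := by
    intro n
    apply hρπ
    have h1 := congrArg (fun z : LaurentSeries k => z.coeff n) hy0
    simpa only [coeffMap_coeff, HahnSeries.coeff_zero] using h1
  obtain ⟨y', hy'⟩ := s18_exists_eq_C_mul_of_coeff π hπ0 y hdiv
  have hCπ : (HahnSeries.C (ι π) : LaurentSeries L) ≠ 0 := by
    rw [Ne, map_eq_zero]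
    exact fun h => hπ0 (hι (by rw [h, map_zero]))
  have e1 : (HahnSeries.C (ι π) : LaurentSeries L) = coeffMap ι (HahnSeries.C π) := by
    rw [HahnSeries.C_apply, HahnSeries.C_apply, coeffMap_single]
  refine ⟨(HahnSeries.C (ι π))⁻¹ * x, ⟨s, y', hs, ?_⟩, ?_⟩
  · have h3 : HahnSeries.C (ι π) * (coeffMap ι s * ((HahnSeries.C (ι π))⁻¹ * x)) =
        HahnSeries.C (ι π) * coeffMap ι y' := by
      calc HahnSeries.C (ι π) * (coeffMap ι s * ((HahnSeries.C (ι π))⁻¹ * x))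
          = (HahnSeries.C (ι π) * (HahnSeries.C (ι π))⁻¹) * (coeffMap ι s * x) := by ring
        _ = coeffMap ι y := by rw [mul_inv_cancel₀ hCπ, one_mul, h]
        _ = HahnSeries.C (ι π) * coeffMap ι y' := by rw [hy', map_mul, e1]
    exact mul_left_cancel₀ hCπ h3
  · rw [← mul_assoc, mul_inv_cancel₀ hCπ, one_mul]

/-- **Frobenius congruence**, reduction form: if the reduction of `x` has Frobenius-fixed
coefficients, then `V_ℓ x - x ^ ℓ` reduces to `0`. -/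
theorem s34_fc_frob_red (hι : Function.Injective ι) (ℓ : ℕ) [NeZero ℓ] [Fact ℓ.Prime] [CharP k ℓ]
    (x : LaurentSeries L) (hx : x ∈ s18_W ι ρ)
    (hfix : coeffMap (frobenius k ℓ) (s18_red hι ⟨x, hx⟩) = s18_red hι ⟨x, hx⟩) :
    s18_red hι ⟨qExpand L ℓ x - x ^ ℓ,
      (s18_W ι ρ).sub_mem (s34_fc_qExpand_mem_W ℓ hx) ((s18_W ι ρ).pow_mem hx ℓ)⟩ = 0 := by
  have e : (⟨qExpand L ℓ x - x ^ ℓ,
      (s18_W ι ρ).sub_mem (s34_fc_qExpand_mem_W ℓ hx) ((s18_W ι ρ).pow_mem hx ℓ)⟩ : s18_W ι ρ) =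
      ⟨qExpand L ℓ x, s34_fc_qExpand_mem_W ℓ hx⟩ - ⟨x, hx⟩ ^ ℓ := rfl
  rw [e, map_sub, map_pow, s34_fc_red_qExpand hι ℓ x hx, s37_ec_pow_char ℓ, hfix, sub_self]

/-- **Frobenius congruence** in the Gauss ring: `V_ℓ x - x ^ ℓ ∈ π · W`. -/
theorem s34_fc_frob_W [IsDomain R] (hι : Function.Injective ι) {π : R} (hπ0 : π ≠ 0)
    (hρπ : ∀ r : R, ρ r = 0 → ∃ r', r = π * r') (ℓ : ℕ) [NeZero ℓ] [Fact ℓ.Prime] [CharP k ℓ]
    (x : LaurentSeries L) (hx : x ∈ s18_W ι ρ)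
    (hfix : coeffMap (frobenius k ℓ) (s18_red hι ⟨x, hx⟩) = s18_red hι ⟨x, hx⟩) :
    ∃ z ∈ s18_W ι ρ, qExpand L ℓ x - x ^ ℓ = HahnSeries.C (ι π) * z :=
  s34_fc_red_ker hι hπ0 hρπ _ _ (s34_fc_frob_red hι ℓ x hx hfix)

end Generic

section Map

variable {R₀ L₀ k₀ : Type*} [CommRing R₀] [Field L₀] [Field k₀] {ι₀ : R₀ →+* L₀} {ρ₀ : R₀ →+* k₀}
variable {R L k : Type*} [CommRing R] [Field L] [Field k] {ι : R →+* L} {ρ : R →+* k}

/-- **Frobenius congruence** for series coming from a Gauss ring with Frobenius-fixed residue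
field (`a ^ ℓ = a` for all `a : k₀`, e.g. `k₀ = 𝔽_ℓ`). -/
theorem s34_fc_frob_of_map [IsDomain R] (hι₀ : Function.Injective ι₀) (hι : Function.Injective ι)
    (f : R₀ →+* R) (φ : L₀ →+* L) (ψ : k₀ →+* k)
    (hφ : φ.comp ι₀ = ι.comp f) (hψ : ψ.comp ρ₀ = ρ.comp f)
    {π : R} (hπ0 : π ≠ 0) (hρπ : ∀ r : R, ρ r = 0 → ∃ r', r = π * r')
    (ℓ : ℕ) [NeZero ℓ] [Fact ℓ.Prime] [CharP k ℓ] (hk₀ : ∀ a : k₀, a ^ ℓ = a)
    (x₀ : LaurentSeries L₀) (hx₀ : x₀ ∈ s18_W ι₀ ρ₀) :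
    ∃ z ∈ s18_W ι ρ, qExpand L ℓ (coeffMap φ x₀) - coeffMap φ x₀ ^ ℓ = HahnSeries.C (ι π) * z := by
  have hx : coeffMap φ x₀ ∈ s18_W ι ρ := s18_W_map f φ ψ hφ hψ hx₀
  refine s34_fc_frob_W hι hπ0 hρπ ℓ _ hx ?_
  rw [s18_red_map hι₀ hι f φ ψ hφ hψ ⟨x₀, hx₀⟩ hx, coeffMap_coeffMap]
  refine coeffMap_congr (RingHom.ext fun a => ?_) _
  rw [RingHom.comp_apply, frobenius_def, ← map_pow, hk₀]

end Map

section Rat

variable (ℓ : ℕ) [NeZero ℓ] [Fact ℓ.Prime]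
variable {K : Type*} [Field K] [Algebra ℚ K] (A : ValuationSubring K)

/-- **Frobenius congruence** for rational Gauss-integral series over a DVR `A ⊆ K` in which `ℓ` is
not a unit: for `x₀` in the rational Gauss ring `S28.Wring ℓ` and `x` its image in `K((q))`,
`x(q^ℓ) - x(q)^ℓ = π · z` with `z` in the Gauss ring of `A`. -/
theorem s34_fc_frob_rat [IsDiscreteValuationRing A] (hℓ : ((ℓ : K))⁻¹ ∉ A) {π : A}
    (hπ : Irreducible π) (x₀ : LaurentSeries ℚ) (hx₀ : x₀ ∈ Wring ℓ) :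
    ∃ z ∈ s18_W A.subtype (IsLocalRing.residue A),
      qExpand K ℓ (coeffMap (algebraMap ℚ K) x₀) - coeffMap (algebraMap ℚ K) x₀ ^ ℓ =
        HahnSeries.C (π : K) * z := by
  have := s18_charP_res ℓ A hℓ
  have hmax : IsLocalRing.maximalIdeal A = Ideal.span {π} :=
    (IsDiscreteValuationRing.irreducible_iff_uniformizer π).mp hπ
  have hρπ : ∀ r : A, IsLocalRing.residue A r = 0 → ∃ r', r = π * r' := by
    intro r hr
    have h1 : r ∈ IsLocalRing.maximalIdeal A := (IsLocalRing.residue_eq_zero_iff r).mp hr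
    rw [hmax, Ideal.mem_span_singleton'] at h1
    obtain ⟨a, ha⟩ := h1
    exact ⟨a, by rw [← ha, mul_comm]⟩
  have hx₀' : x₀ ∈ s18_W (GaloisRep.ratLocalizedAt ℓ).subtype (redR ℓ) := by
    rw [← s18_Wring_eq]
    exact hx₀
  exact s34_fc_frob_of_map (s18_subtype_injective (ℓ := ℓ)) (s18_valSubtype_injective (A := A))
    (s18_zToA ℓ A hℓ) (algebraMap ℚ K) (s18_zmodToRes ℓ A hℓ) (s18_comp_sub ℓ A hℓ)
    (s18_comp_res ℓ A hℓ) hπ.ne_zero hρπ ℓ (fun a => ZMod.pow_card a) x₀ hx₀'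

omit [NeZero ℓ] in
/-- The image in `K((q))` of a rational Gauss-integral series lies in the Gauss ring of `A`. -/
theorem s34_fc_rat_mem_W (hℓ : ((ℓ : K))⁻¹ ∉ A) (x₀ : LaurentSeries ℚ) (hx₀ : x₀ ∈ Wring ℓ) :
    coeffMap (algebraMap ℚ K) x₀ ∈ s18_W A.subtype (IsLocalRing.residue A) := by
  have hx₀' : x₀ ∈ s18_W (GaloisRep.ratLocalizedAt ℓ).subtype (redR ℓ) := by
    rw [← s18_Wring_eq]
    exact hx₀
  exact s18_W_map (s18_zToA ℓ A hℓ) (algebraMap ℚ K) (s18_zmodToRes ℓ A hℓ) (s18_comp_sub ℓ A hℓ)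
    (s18_comp_res ℓ A hℓ) hx₀'

end Rat

end Fermat.Agent.S34
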