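import Mathlib
import Fermat.Agent.S18.ChAlg
import Fermat.Agent.S34.GaussInf
import Fermat.Agent.S34.FrobChart

/-!
# S34 (NODE), concrete inputs of the transversality leaf (N3) in the model

`K` a field over `ℚ`, `A` a DVR of `K` in which `ℓ` is not a unit, `F = K · F_N` (any level `N`,
`ℓ ∣ N` allowed), `N' ∣ N` the lower level, `t` a coordinate of level `N'`.

* `s34_fc_C K N' N ℓ t` : the rational chart `s18_czRing N' ℓ t` viewed inside `F`;
* `s34_fc_C_mem_chart` : it lies in the level-`N'` chart `s18_chRing N' ℓ A t`;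
* `s34_fc_span`  : (span) every element of `F` whose `q`-expansion lies in the level-`N'` chart
  `s18_chRing N' ℓ A t` is a finite sum `∑ aᵢ fᵢ`, `aᵢ ∈ A`, `fᵢ` rational;
* `s34_fc_frob_inf` : (frob) at `∞`: for rational `f` and `g = f(q^ℓ)`: `π⁻¹ (g - f^ℓ) ∈ V∞`;
* `s34_fc_hfrob` : the hypothesis `hfrob` of `s34_n3_of_chart` / `s34_n3_transversal` from a swap
  `W` of `F` with `W f = f(q^ℓ)` on rational `f`, `W ∘ W = id`, `W ϖ = ϖ`, `W B ⊆ B`.
-/

set_option autoImplicit false
set_option synthInstance.maxHeartbeats 400000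
set_option linter.unusedSectionVars false

open ModularCurve

noncomputable section

namespace Fermat.Agent.S34

open Fermat.Agent.S18 Fermat.Agent.S28

section Model

variable (K : Type*) [Field K] [Algebra ℚ K]
variable (N' N : ℕ) [NeZero N'] [NeZero N] (ℓ : ℕ) [Fact ℓ.Prime]

/-- The rational chart of the coordinate `t` of level `N'`, viewed inside `K · F_N`. -/
def s34_fc_C (t : modularFunctionFieldFull N') :
    Set (laurentBaseChange K (modularFunctionFieldFull N)) :=
  {f | ∃ x₀ ∈ s18_czRing N' ℓ t, (f : LaurentSeries K) = coeffMap (algebraMap ℚ K) x₀}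

variable {K N' N ℓ}

/-- The image of a rational chart element lies in `K · F_N`. -/
theorem s34_fc_rat_mem (hN : N' ∣ N) {t : modularFunctionFieldFull N'} {x₀ : LaurentSeries ℚ}
    (hx₀ : x₀ ∈ s18_czRing N' ℓ t) :
    coeffMap (algebraMap ℚ K) x₀ ∈ laurentBaseChange K (modularFunctionFieldFull N) := by
  obtain ⟨y, -, rfl⟩ := s18_mem_czRing.mp hx₀
  exact coeffEmb_mem_laurentBaseChange K (full_degeneracy_le hN y.2)

/-- Rational chart elements lie in the chart over `A`. -/
theorem s34_fc_C_mem_chart (A : ValuationSubring K) {t : modularFunctionFieldFull N'}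
    {f : laurentBaseChange K (modularFunctionFieldFull N)} (hf : f ∈ s34_fc_C K N' N ℓ t) :
    (f : LaurentSeries K) ∈ s18_chRing N' ℓ A t := by
  obtain ⟨x₀, hx₀, e⟩ := hf
  rw [e]
  exact s18_map_mem_chSpan hx₀

/-- (span): an element of `K · F_N` whose `q`-expansion lies in the level-`N'` chart over `A` is a
finite sum of products `a * f`, `a ∈ A`, `f` in the rational chart. -/
theorem s34_fc_span (A : ValuationSubring K) (hN : N' ∣ N) (t : modularFunctionFieldFull N')
    (x : laurentBaseChange K (modularFunctionFieldFull N))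
    (hx : (x : LaurentSeries K) ∈ s18_chRing N' ℓ A t) :
    x ∈ AddSubgroup.closure
      {z : laurentBaseChange K (modularFunctionFieldFull N) |
        ∃ (a : A) (f : laurentBaseChange K (modularFunctionFieldFull N)),
          f ∈ s34_fc_C K N' N ℓ t ∧
            z = algebraMap A (laurentBaseChange K (modularFunctionFieldFull N)) a * f} := by
  set S : Set (laurentBaseChange K (modularFunctionFieldFull N)) :=
    {z | ∃ (a : A) (f : laurentBaseChange K (modularFunctionFieldFull N)),
      f ∈ s34_fc_C K N' N ℓ t ∧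
        z = algebraMap A (laurentBaseChange K (modularFunctionFieldFull N)) a * f} with hS
  have key : ∀ y : LaurentSeries K,
      y ∈ AddSubgroup.closure
        (s18_chGen A.subtype (algebraMap ℚ K) (s18_czRing N' ℓ t) : Set (LaurentSeries K)) →
      ∃ h : y ∈ laurentBaseChange K (modularFunctionFieldFull N),
        (⟨y, h⟩ : laurentBaseChange K (modularFunctionFieldFull N)) ∈ AddSubgroup.closure S := by
    intro y hy
    induction hy using AddSubgroup.closure_induction with
    | mem y hy =>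
      obtain ⟨r, x₀, hx₀, rfl⟩ := hy
      have hf : coeffMap (algebraMap ℚ K) x₀ ∈ laurentBaseChange K (modularFunctionFieldFull N) :=
        s34_fc_rat_mem hN hx₀
      have hc : (HahnSeries.C (A.subtype r) : LaurentSeries K) ∈
          laurentBaseChange K (modularFunctionFieldFull N) := by
        rw [HahnSeries.C_apply, ← algebraMap_laurentSeries_eq_single]
        exact (laurentBaseChange K (modularFunctionFieldFull N)).algebraMap_mem _
      refine ⟨mul_mem hc hf, AddSubgroup.subset_closure ⟨r, ⟨_, hf⟩, ⟨x₀, hx₀, rfl⟩, ?_⟩⟩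
      apply Subtype.ext
      show HahnSeries.C (A.subtype r) * coeffMap (algebraMap ℚ K) x₀ =
        algebraMap K (LaurentSeries K) (r : K) * coeffMap (algebraMap ℚ K) x₀
      rw [algebraMap_laurentSeries_eq_single, ← HahnSeries.C_apply]
      rfl
    | zero => exact ⟨zero_mem _, AddSubgroup.zero_mem _⟩
    | add y y' _ _ h h' =>
      obtain ⟨h1, h2⟩ := h
      obtain ⟨h1', h2'⟩ := h'
      exact ⟨add_mem h1 h1', AddSubgroup.add_mem _ h2 h2'⟩
    | neg y _ h =>
      obtain ⟨h1, h2⟩ := h
      exact ⟨neg_mem h1, AddSubgroup.neg_mem _ h2⟩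
  rw [s18_chRing, s18_mem_chSpan_iff] at hx
  obtain ⟨h, hmem⟩ := key _ hx
  exact hmem

/-- (frob) at `∞`: for `f` in the rational chart and `g = f(q^ℓ)`, `π⁻¹ (g - f ^ ℓ) ∈ V∞`. -/
theorem s34_fc_frob_inf [NeZero ℓ] (A : ValuationSubring K) [IsDiscreteValuationRing A]
    (hℓ : ((ℓ : K))⁻¹ ∉ A) {π : A} (hπ : Irreducible π) (t : modularFunctionFieldFull N')
    (hCW : ∀ x ∈ s18_czRing N' ℓ t, x ∈ Wring ℓ)
    (f g : laurentBaseChange K (modularFunctionFieldFull N)) (hf : f ∈ s34_fc_C K N' N ℓ t)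
    (hg : (g : LaurentSeries K) = qExpand K ℓ (f : LaurentSeries K)) :
    (algebraMap K (laurentBaseChange K (modularFunctionFieldFull N)) (π : K))⁻¹ * (g - f ^ ℓ) ∈
      s34_gi_V A N := by
  obtain ⟨x₀, hx₀, hfx⟩ := hf
  obtain ⟨z, hz, e⟩ := s34_fc_frob_rat ℓ A hℓ hπ x₀ (hCW x₀ hx₀)
  have hC0 : (HahnSeries.C (π : K) : LaurentSeries K) ≠ 0 := by
    rw [Ne, map_eq_zero]
    exact fun h => hπ.ne_zero (Subtype.ext h)
  have hcoe : (((algebraMap K (laurentBaseChange K (modularFunctionFieldFull N)) (π : K))⁻¹ *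
      (g - f ^ ℓ) : laurentBaseChange K (modularFunctionFieldFull N)) : LaurentSeries K) =
      (HahnSeries.C (π : K))⁻¹ * ((g : LaurentSeries K) - (f : LaurentSeries K) ^ ℓ) := by
    rw [← s34_gi_coe_algebraMap (N := N)]
    rfl
  show (((algebraMap K (laurentBaseChange K (modularFunctionFieldFull N)) (π : K))⁻¹ *
      (g - f ^ ℓ) : laurentBaseChange K (modularFunctionFieldFull N)) : LaurentSeries K) ∈
      s18_W A.subtype (IsLocalRing.residue A)
  rw [hcoe, hg, hfx, e, ← mul_assoc, inv_mul_cancel₀ hC0, one_mul]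
  exact hz

/-- The hypothesis `hfrob` of the abstract transversality lemma (`s34_n3_of_chart`,
`s34_n3_transversal`): for `f ∈ B` in the rational chart, `g := W f ∈ B` satisfies
`g - f ^ ℓ ∈ 𝔓∞` and `g ^ ℓ - f ∈ 𝔓0`, where `𝔓∞ ⊇ B ∩ ϖ V∞`, `𝔓0 ⊇ B ∩ ϖ V0`,
`V0 ⊇ W⁻¹(V∞)`. -/
theorem s34_fc_hfrob [NeZero ℓ] (A : ValuationSubring K) [IsDiscreteValuationRing A]
    (hℓ : ((ℓ : K))⁻¹ ∉ A) {π : A} (hπ : Irreducible π) (t : modularFunctionFieldFull N')
    (hCW : ∀ x ∈ s18_czRing N' ℓ t, x ∈ Wring ℓ)
    (W : laurentBaseChange K (modularFunctionFieldFull N) ≃+*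
      laurentBaseChange K (modularFunctionFieldFull N))
    (hWW : ∀ x, W (W x) = x)
    (hWϖ : W (algebraMap K (laurentBaseChange K (modularFunctionFieldFull N)) (π : K)) =
      algebraMap K (laurentBaseChange K (modularFunctionFieldFull N)) (π : K))
    (hWq : ∀ f ∈ s34_fc_C K N' N ℓ t,
      ((W f : laurentBaseChange K (modularFunctionFieldFull N)) : LaurentSeries K) =
        qExpand K ℓ (f : LaurentSeries K))
    (V0 : Subring (laurentBaseChange K (modularFunctionFieldFull N)))
    (hV0 : ∀ x, W x ∈ s34_gi_V A N → x ∈ V0)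
    (B : Subring (laurentBaseChange K (modularFunctionFieldFull N))) (hWB : ∀ b ∈ B, W b ∈ B)
    (Pinf P0 : Ideal B)
    (hPinf : ∀ b : B,
      (algebraMap K (laurentBaseChange K (modularFunctionFieldFull N)) (π : K))⁻¹ *
        (b : laurentBaseChange K (modularFunctionFieldFull N)) ∈ s34_gi_V A N → b ∈ Pinf)
    (hP0 : ∀ b : B,
      (algebraMap K (laurentBaseChange K (modularFunctionFieldFull N)) (π : K))⁻¹ *
        (b : laurentBaseChange K (modularFunctionFieldFull N)) ∈ V0 → b ∈ P0) :
    ∀ f : B, (f : laurentBaseChange K (modularFunctionFieldFull N)) ∈ s34_fc_C K N' N ℓ t →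
      ∃ g : B, g - f ^ ℓ ∈ Pinf ∧ g ^ ℓ - f ∈ P0 := by
  intro f hf
  have h1 := s34_fc_frob_inf A hℓ hπ t hCW (f : laurentBaseChange K (modularFunctionFieldFull N))
    (W f) hf (hWq _ hf)
  refine ⟨⟨W f, hWB _ f.2⟩, hPinf _ ?_, hP0 _ (hV0 _ ?_)⟩
  · simpa using h1
  · have e : W ((algebraMap K (laurentBaseChange K (modularFunctionFieldFull N)) (π : K))⁻¹ *
        ((W (f : laurentBaseChange K (modularFunctionFieldFull N))) ^ ℓ -
          (f : laurentBaseChange K (modularFunctionFieldFull N)))) =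
        -((algebraMap K (laurentBaseChange K (modularFunctionFieldFull N)) (π : K))⁻¹ *
          (W (f : laurentBaseChange K (modularFunctionFieldFull N)) -
            (f : laurentBaseChange K (modularFunctionFieldFull N)) ^ ℓ)) := by
      rw [map_mul, map_inv₀, hWϖ, map_sub, map_pow, hWW]
      ring
    have h2 : W ((algebraMap K (laurentBaseChange K (modularFunctionFieldFull N)) (π : K))⁻¹ *
        ((W (f : laurentBaseChange K (modularFunctionFieldFull N))) ^ ℓ -
          (f : laurentBaseChange K (modularFunctionFieldFull N)))) ∈ s34_gi_V A N := by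
      rw [e]
      exact (s34_gi_V A N).neg_mem h1
    simpa using h2

end Model

end Fermat.Agent.S34
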