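import Mathlib
import Fermat.Agent.S34.FrobModel

/-!
# S34 (NODE), concrete inputs of the transversality leaf (N3), swapped side

The `y`-side of the transversality lemma uses the chart `W(B₁)` (the level-`N'` chart transported
by the Atkin–Lehner swap `W`), spanned by `W(C)` (`C` = rational chart), with the roles of `𝔓∞`
and `𝔓0` exchanged.

* `s34_fc_span_swap`  : (span) for `W(B₁)` and `W(C)`;
* `s34_fc_hfrob_swap` : (frob) for `W(C)`: for `f = W f₀`, `g := f₀` satisfies
  `g - f ^ ℓ ∈ 𝔓0` and `g ^ ℓ - f ∈ 𝔓∞`.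
-/

set_option autoImplicit false
set_option synthInstance.maxHeartbeats 400000
set_option linter.unusedSectionVars false

open ModularCurve

noncomputable section

namespace Fermat.Agent.S34

open Fermat.Agent.S18 Fermat.Agent.S28

section Swap

variable {K : Type*} [Field K] [Algebra ℚ K]
variable {N' N : ℕ} [NeZero N'] [NeZero N] {ℓ : ℕ} [Fact ℓ.Prime]

/-- (span), swapped side: an element `W x₁` with `x₁` in the level-`N'` chart over `A` is a finite
sum of products `a * W f`, `a ∈ A`, `f` in the rational chart. -/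
theorem s34_fc_span_swap (A : ValuationSubring K) (hN : N' ∣ N) (t : modularFunctionFieldFull N')
    (W : laurentBaseChange K (modularFunctionFieldFull N) ≃+*
      laurentBaseChange K (modularFunctionFieldFull N))
    (hWA : ∀ a : A, W (algebraMap A (laurentBaseChange K (modularFunctionFieldFull N)) a) =
      algebraMap A (laurentBaseChange K (modularFunctionFieldFull N)) a)
    (x₁ : laurentBaseChange K (modularFunctionFieldFull N))
    (hx₁ : (x₁ : LaurentSeries K) ∈ s18_chRing N' ℓ A t) :
    W x₁ ∈ AddSubgroup.closure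
      {z : laurentBaseChange K (modularFunctionFieldFull N) |
        ∃ (a : A) (f : laurentBaseChange K (modularFunctionFieldFull N)),
          f ∈ (W : laurentBaseChange K (modularFunctionFieldFull N) →
            laurentBaseChange K (modularFunctionFieldFull N)) '' s34_fc_C K N' N ℓ t ∧
            z = algebraMap A (laurentBaseChange K (modularFunctionFieldFull N)) a * f} := by
  have h := s34_fc_span A hN t x₁ hx₁
  clear hx₁
  induction h using AddSubgroup.closure_induction with
  | mem z hz =>
    obtain ⟨a, f, hf, rfl⟩ := hz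
    refine AddSubgroup.subset_closure ⟨a, W f, ⟨f, hf, rfl⟩, ?_⟩
    rw [map_mul, hWA]
  | zero => rw [map_zero]; exact AddSubgroup.zero_mem _
  | add y y' _ _ h h' => rw [map_add]; exact AddSubgroup.add_mem _ h h'
  | neg y _ h => rw [map_neg]; exact AddSubgroup.neg_mem _ h

/-- (frob), swapped side: the hypothesis `hfrob` of the abstract transversality lemma for the
chart `W(B₁)` with the roles of `𝔓∞` and `𝔓0` exchanged: for `f ∈ B` of the form `f = W f₀`,
`f₀` in the rational chart, `g := f₀` satisfies `g - f ^ ℓ ∈ 𝔓0` and `g ^ ℓ - f ∈ 𝔓∞`. -/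
theorem s34_fc_hfrob_swap [NeZero ℓ] (A : ValuationSubring K) [IsDiscreteValuationRing A]
    (hℓ : ((ℓ : K))⁻¹ ∉ A) {π : A} (hπ : Irreducible π) (t : modularFunctionFieldFull N')
    (hCW : ∀ x ∈ s18_czRing N' ℓ t, x ∈ Wring ℓ)
    (W : laurentBaseChange K (modularFunctionFieldFull N) ≃+*
      laurentBaseChange K (modularFunctionFieldFull N))
    (hWW : ∀ x, W (W x) = x)
    (hWϖ : W (algebraMap K (laurentBaseChange K (modularFunctionFieldFull N)) (π : K)) =
      algebraMap K (laurentBaseChange K (modularFunctionFieldFull N)) (π : K))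
    (hWq : ∀ f ∈ s34_fc_C K N' N ℓ t,
      ((W f : laurentBaseChange K (modularFunctionFieldFull N)) : LaurentSeries K) =
        qExpand K ℓ (f : LaurentSeries K))
    (V0 : Subring (laurentBaseChange K (modularFunctionFieldFull N)))
    (hV0 : ∀ x, W x ∈ s34_gi_V A N → x ∈ V0)
    (B : Subring (laurentBaseChange K (modularFunctionFieldFull N))) (hWB : ∀ b ∈ B, W b ∈ B)
    (Pinf P0 : Ideal B)
    (hPinf : ∀ b : B,
      (algebraMap K (laurentBaseChange K (modularFunctionFieldFull N)) (π : K))⁻¹ *
        (b : laurentBaseChange K (modularFunctionFieldFull N)) ∈ s34_gi_V A N → b ∈ Pinf)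
    (hP0 : ∀ b : B,
      (algebraMap K (laurentBaseChange K (modularFunctionFieldFull N)) (π : K))⁻¹ *
        (b : laurentBaseChange K (modularFunctionFieldFull N)) ∈ V0 → b ∈ P0) :
    ∀ f : B, (f : laurentBaseChange K (modularFunctionFieldFull N)) ∈
        (W : laurentBaseChange K (modularFunctionFieldFull N) →
          laurentBaseChange K (modularFunctionFieldFull N)) '' s34_fc_C K N' N ℓ t →
      ∃ g : B, g - f ^ ℓ ∈ P0 ∧ g ^ ℓ - f ∈ Pinf := by
  rintro f ⟨f₀, hf₀, hf⟩
  have h1 := s34_fc_frob_inf A hℓ hπ t hCW f₀ (W f₀) hf₀ (hWq _ hf₀)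
  have hf₀B : f₀ ∈ B := by
    have := hWB _ f.2
    rwa [← hf, hWW] at this
  refine ⟨⟨f₀, hf₀B⟩, hP0 _ (hV0 _ ?_), hPinf _ ?_⟩
  · have e : W ((algebraMap K (laurentBaseChange K (modularFunctionFieldFull N)) (π : K))⁻¹ *
        (f₀ - (W f₀) ^ ℓ)) =
        (algebraMap K (laurentBaseChange K (modularFunctionFieldFull N)) (π : K))⁻¹ *
          (W f₀ - f₀ ^ ℓ) := by
      rw [map_mul, map_inv₀, hWϖ, map_sub, map_pow, hWW]
    have h2 : W ((algebraMap K (laurentBaseChange K (modularFunctionFieldFull N)) (π : K))⁻¹ *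
        (f₀ - (W f₀) ^ ℓ)) ∈ s34_gi_V A N := by
      rw [e]
      exact h1
    simpa [← hf] using h2
  · have e : (algebraMap K (laurentBaseChange K (modularFunctionFieldFull N)) (π : K))⁻¹ *
        (f₀ ^ ℓ - W f₀) =
        -((algebraMap K (laurentBaseChange K (modularFunctionFieldFull N)) (π : K))⁻¹ *
          (W f₀ - f₀ ^ ℓ)) := by ring
    have h2 : (algebraMap K (laurentBaseChange K (modularFunctionFieldFull N)) (π : K))⁻¹ *
        (f₀ ^ ℓ - W f₀) ∈ s34_gi_V A N := by
      rw [e]
      exact (s34_gi_V A N).neg_mem h1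
    simpa [← hf] using h2

end Swap

end Fermat.Agent.S34
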