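import Mathlib
import Fermat.Agent.S18.ChartDefs

/-!
# S34, block (M), leaf (N3): transversality at a node from the Frobenius congruence

Setting: a ring `R` (a chart of the level-`N'q` model, or its localisation), a prime `𝔪`
(the node), two ideals `Pinf`, `P0 ≤ 𝔪` (the two components of the special fibre), a subring
`B₁` (the chart of level `N'`), generated as an additive group by the products `a * f` with `a` a
constant and `f` in a set `C` (the rational chart) on which the *Frobenius pair* exists: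
`g - f ^ q ∈ Pinf`, `g ^ q - f ∈ P0` (`g = f(q^q)`).

`s34_n3_core` : if `R = B₁ + Pinf`, `𝔪 ∩ B₁` is locally generated by `ϖ` and one element, and the
node is rational over the constants, then there is `x ∈ P0 \ Pinf` generating `𝔪` locally modulo
`Pinf` ("`P0` maps onto the maximal ideal of the branch `R / Pinf`").

`s34_n3_transversal` : the same for a subring `B` of a field, in the shape consumed by the node
lemma; `s34_n3_reg_of_chart` : the local generator from `s18_Chart.reg` of the level-`N'` chart.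
-/

set_option autoImplicit false

namespace Fermat.Agent.S34

open Fermat.Agent.S18

/-- A product of two elements of `𝔪`, each a multiple of `s` modulo `P` up to a factor outside
`𝔪`, is a multiple of `s * s` modulo `P` up to a factor outside `𝔪`; the same for sums. -/
theorem s34_n3_sq {R : Type*} [CommRing R] (𝔪 P : Ideal R) [h𝔪 : 𝔪.IsPrime] (s : R)
    (hloc : ∀ m ∈ 𝔪, ∃ u β : R, u ∉ 𝔪 ∧ u * m - β * s ∈ P) :
    ∀ w ∈ 𝔪 * 𝔪, ∃ U γ : R, U ∉ 𝔪 ∧ U * w - γ * (s * s) ∈ P := by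
  intro w hw
  refine Submodule.mul_induction_on hw ?_ ?_
  · intro m hm n hn
    obtain ⟨u₁, β₁, hu₁, h₁⟩ := hloc m hm
    obtain ⟨u₂, β₂, hu₂, h₂⟩ := hloc n hn
    refine ⟨u₁ * u₂, β₁ * β₂, fun h => ?_, ?_⟩
    · rcases h𝔪.mem_or_mem h with h | h
      · exact hu₁ h
      · exact hu₂ h
    · have e : u₁ * u₂ * (m * n) - β₁ * β₂ * (s * s)
          = (u₁ * m - β₁ * s) * (u₂ * n) + (β₁ * s) * (u₂ * n - β₂ * s) := by ring
      rw [e]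
      exact P.add_mem (P.mul_mem_right _ h₁) (P.mul_mem_left _ h₂)
  · rintro w₁ w₂ ⟨U₁, γ₁, hU₁, h₁⟩ ⟨U₂, γ₂, hU₂, h₂⟩
    refine ⟨U₁ * U₂, U₂ * γ₁ + U₁ * γ₂, fun h => ?_, ?_⟩
    · rcases h𝔪.mem_or_mem h with h | h
      · exact hU₁ h
      · exact hU₂ h
    · have e : U₁ * U₂ * (w₁ + w₂) - (U₂ * γ₁ + U₁ * γ₂) * (s * s)
          = U₂ * (U₁ * w₁ - γ₁ * (s * s)) + U₁ * (U₂ * w₂ - γ₂ * (s * s)) := by ring
      rw [e]
      exact P.add_mem (P.mul_mem_left _ h₁) (P.mul_mem_left _ h₂)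

/-- **(N3), abstract core.**  Transversality of the two branches at a node. -/
theorem s34_n3_core {A₀ R : Type*} [CommRing A₀] [CommRing R] (φ : A₀ →+* R)
    (π : A₀) (hπ : ∀ a : A₀, ¬ IsUnit a → ∃ b, a = π * b)
    (𝔪 Pinf P0 : Ideal R) [h𝔪 : 𝔪.IsPrime] [hPi : Pinf.IsPrime] (hPinf : Pinf ≤ 𝔪)
    (hP0 : P0 ≤ 𝔪) (hϖ : φ π ∈ Pinf) (hne : ¬ P0 ≤ Pinf)
    (q : ℕ) (hqP : (q : R) ∈ Pinf)
    (B₁ C : Set R)
    (hspan : ∀ T : AddSubgroup R, (∀ (a : A₀) (f : R), f ∈ C → φ a * f ∈ T) → ∀ x ∈ B₁, x ∈ T)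
    (hfrob : ∀ f ∈ C, ∃ g : R, g - f ^ q ∈ Pinf ∧ g ^ q - f ∈ P0)
    (hsum : ∀ x : R, ∃ x' ∈ B₁, x - x' ∈ Pinf)
    (s : R) (hs₁ : s ∈ B₁) (hs𝔪 : s ∈ 𝔪)
    (hreg : ∀ x ∈ B₁, x ∈ 𝔪 → ∃ u : R, u ∉ 𝔪 ∧ u * x ∈ Ideal.span {φ π, s})
    (hres : ∀ b : R, ∃ a : A₀, b - φ a ∈ 𝔪) :
    ∃ x : R, x ∈ P0 ∧ x ∉ Pinf ∧ ∀ m ∈ 𝔪, ∃ r u : R, u ∉ 𝔪 ∧ u * m - x * r ∈ Pinf := by
  classical
  -- the ideal `J = Pinf + 𝔪²`
  set J : Ideal R := Pinf ⊔ 𝔪 * 𝔪 with hJ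
  have hJ𝔪 : J ≤ 𝔪 := sup_le hPinf Ideal.mul_le_left
  have hPJ : Pinf ≤ J := le_sup_left
  have hmmJ : 𝔪 * 𝔪 ≤ J := le_sup_right
  -- the additive subgroup `T` of elements congruent to (element of `P0`) + constant modulo `J`
  let T : AddSubgroup R :=
    { carrier := {z | ∃ x ∈ P0, ∃ c : A₀, z - x - φ c ∈ J}
      zero_mem' := ⟨0, P0.zero_mem, 0, by simp⟩
      add_mem' := by
        rintro z₁ z₂ ⟨x₁, hx₁, c₁, h₁⟩ ⟨x₂, hx₂, c₂, h₂⟩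
        refine ⟨x₁ + x₂, P0.add_mem hx₁ hx₂, c₁ + c₂, ?_⟩
        have e : z₁ + z₂ - (x₁ + x₂) - φ (c₁ + c₂) = (z₁ - x₁ - φ c₁) + (z₂ - x₂ - φ c₂) := by
          rw [map_add]; ring
        rw [e]
        exact J.add_mem h₁ h₂
      neg_mem' := by
        rintro z ⟨x, hx, c, h⟩
        refine ⟨-x, P0.neg_mem hx, -c, ?_⟩
        have e : -z - -x - φ (-c) = -(z - x - φ c) := by
          rw [map_neg]; ring
        rw [e]
        exact J.neg_mem h }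
  -- generators lie in `T`
  have hgen : ∀ (a : A₀) (f : R), f ∈ C → φ a * f ∈ T := by
    intro a f hf
    obtain ⟨g, hg₁, hg₂⟩ := hfrob f hf
    obtain ⟨c, hc⟩ := hres f
    refine ⟨φ a * (f - g ^ q), ?_, a * c ^ (q * q), ?_⟩
    · have e : φ a * (f - g ^ q) = -(φ a * (g ^ q - f)) := by ring
      rw [e]
      exact P0.neg_mem (P0.mul_mem_left _ hg₂)
    · -- `g^q - (f^q)^q ∈ Pinf`
      have h1 : g ^ q - (f ^ q) ^ q ∈ Pinf := by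
        obtain ⟨k, hk⟩ := sub_dvd_pow_sub_pow g (f ^ q) q
        rw [hk]
        exact Pinf.mul_mem_right _ hg₁
      -- `f^(q*q) - (φ c)^(q*q) ∈ J`
      have h2 : f ^ (q * q) - (φ c) ^ (q * q) ∈ J := by
        obtain ⟨k, hk⟩ := Polynomial.powAddExpansion (φ c) (f - φ c) (q * q)
        have e : f = φ c + (f - φ c) := by ring
        have e2 : f ^ (q * q) - (φ c) ^ (q * q)
            = ((q : R) * ((q : R) * ((φ c) ^ (q * q - 1) * (f - φ c)))) + k * (f - φ c) ^ 2 := by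
          conv_lhs => rw [e, hk]
          push_cast
          ring
        rw [e2]
        refine J.add_mem (hPJ (Pinf.mul_mem_right _ hqP)) (hmmJ ?_)
        rw [pow_two]
        exact Ideal.mul_mem_left _ _ (Ideal.mul_mem_mul hc hc)
      have e : φ a * f - φ a * (f - g ^ q) - φ (a * c ^ (q * q))
          = φ a * (g ^ q - (f ^ q) ^ q) + φ a * (f ^ (q * q) - (φ c) ^ (q * q)) := by
        rw [map_mul, map_pow, pow_mul]; ring
      rw [e]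
      exact J.add_mem (hPJ (Pinf.mul_mem_left _ h1)) (J.mul_mem_left _ h2)
  -- the generator `s` is congruent to an element `x` of `P0` modulo `J`
  obtain ⟨x, hxP0, c, hc⟩ := hspan T hgen s hs₁
  have hcm : φ c ∈ 𝔪 := by
    have e : φ c = s - x - (s - x - φ c) := by ring
    rw [e]
    exact 𝔪.sub_mem (𝔪.sub_mem hs𝔪 (hP0 hxP0)) (hJ𝔪 hc)
  have hcP : φ c ∈ Pinf := by
    have hnu : ¬ IsUnit c := fun hu => h𝔪.ne_top (Ideal.eq_top_of_isUnit_mem _ hcm (hu.map φ))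
    obtain ⟨b, rfl⟩ := hπ c hnu
    rw [map_mul]
    exact Pinf.mul_mem_right _ hϖ
  have hsx : s - x ∈ J := by
    have e : s - x = (s - x - φ c) + φ c := by ring
    rw [e]
    exact J.add_mem hc (hPJ hcP)
  obtain ⟨p, hp, w, hw, hpw⟩ := Submodule.mem_sup.mp hsx
  -- `𝔪` is generated by `s` modulo `Pinf`, locally
  have hloc : ∀ m ∈ 𝔪, ∃ u β : R, u ∉ 𝔪 ∧ u * m - β * s ∈ Pinf := by
    intro m hm
    obtain ⟨m', hm'₁, hm'⟩ := hsum m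
    have hm'𝔪 : m' ∈ 𝔪 := by
      have e : m' = m - (m - m') := by ring
      rw [e]
      exact 𝔪.sub_mem hm (hPinf hm')
    obtain ⟨u, hu, hmem⟩ := hreg m' hm'₁ hm'𝔪
    obtain ⟨α, β, hαβ⟩ := Ideal.mem_span_pair.mp hmem
    refine ⟨u, β, hu, ?_⟩
    have e : u * m - β * s = u * (m - m') + α * φ π := by
      have : u * m' = α * φ π + β * s := hαβ.symm
      calc u * m - β * s = u * (m - m') + (u * m' - β * s) := by ring
        _ = u * (m - m') + α * φ π := by rw [this]; ring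
    rw [e]
    exact Pinf.add_mem (Pinf.mul_mem_left _ hm') (Pinf.mul_mem_left _ hϖ)
  obtain ⟨U, γ, hU, hUw⟩ := s34_n3_sq 𝔪 Pinf s hloc w hw
  -- `(U - γ s) s ≡ U x` modulo `Pinf`
  have hu₀ : U - γ * s ∉ 𝔪 := fun h => hU (by
    have e : U = (U - γ * s) + γ * s := by ring
    rw [e]
    exact 𝔪.add_mem h (𝔪.mul_mem_left _ hs𝔪))
  have hkey : (U - γ * s) * s - U * x ∈ Pinf := by
    have e : (U - γ * s) * s - U * x = U * p + (U * w - γ * (s * s)) := by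
      have : s = x + (p + w) := by rw [hpw]; ring
      calc (U - γ * s) * s - U * x = U * (s - x) - γ * (s * s) := by ring
        _ = U * (p + w) - γ * (s * s) := by rw [← hpw]
        _ = U * p + (U * w - γ * (s * s)) := by ring
    rw [e]
    exact Pinf.add_mem (Pinf.mul_mem_left _ hp) hUw
  have hfin : ∀ m ∈ 𝔪, ∃ r u : R, u ∉ 𝔪 ∧ u * m - x * r ∈ Pinf := by
    intro m hm
    obtain ⟨u, β, hu, hmem⟩ := hloc m hm
    refine ⟨β * U, (U - γ * s) * u, fun h => ?_, ?_⟩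
    · rcases h𝔪.mem_or_mem h with h | h
      · exact hu₀ h
      · exact hu h
    · have e : (U - γ * s) * u * m - x * (β * U)
          = (U - γ * s) * (u * m - β * s) + β * ((U - γ * s) * s - U * x) := by ring
      rw [e]
      exact Pinf.add_mem (Pinf.mul_mem_left _ hmem) (Pinf.mul_mem_left _ hkey)
  refine ⟨x, hxP0, fun hxP => hne ?_, hfin⟩
  -- if `x ∈ Pinf` then `𝔪 ≤ Pinf`
  have h𝔪P : 𝔪 ≤ Pinf := by
    intro m hm
    obtain ⟨r, u, hu, hmem⟩ := hfin m hm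
    have hum : u * m ∈ Pinf := by
      have e : u * m = (u * m - x * r) + x * r := by ring
      rw [e]
      exact Pinf.add_mem hmem (Pinf.mul_mem_right _ hxP)
    rcases hPi.mem_or_mem hum with h | h
    · exact absurd (hPinf h) hu
    · exact h
  exact hP0.trans h𝔪P

/-- **(N3), subring form.**  `B` a subring of a field (a chart of the nodal model), `B₁` the
chart of the lower level, `C` the rational chart.  The conclusion is the local parameter of the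
branch `B / Pinf` at the node `𝔪` lying in the other component `P0`. -/
theorem s34_n3_transversal {A₀ F : Type*} [CommRing A₀] [Field F] [Algebra A₀ F] (π : A₀)
    (hπ : ∀ a : A₀, ¬ IsUnit a → ∃ b, a = π * b)
    (B : Subring F) (hAB : ∀ a : A₀, algebraMap A₀ F a ∈ B)
    (𝔪 Pinf P0 : Ideal B) [h𝔪 : 𝔪.IsPrime] [hPi : Pinf.IsPrime] (hPinf : Pinf ≤ 𝔪)
    (hP0 : P0 ≤ 𝔪) (hϖ : (⟨algebraMap A₀ F π, hAB π⟩ : B) ∈ Pinf) (hne : ¬ P0 ≤ Pinf)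
    (q : ℕ) (hqP : (q : B) ∈ Pinf)
    (B₁ : Subring F) (C : Set F) (hCB : ∀ f ∈ C, f ∈ B)
    (hspan : ∀ x ∈ B₁, x ∈ AddSubgroup.closure
      {z : F | ∃ (a : A₀) (f : F), f ∈ C ∧ z = algebraMap A₀ F a * f})
    (hfrob : ∀ f : B, (f : F) ∈ C → ∃ g : B, g - f ^ q ∈ Pinf ∧ g ^ q - f ∈ P0)
    (hsum : ∀ x : B, ∃ x' : B, (x' : F) ∈ B₁ ∧ x - x' ∈ Pinf)
    (hreg : ∃ s : B, (s : F) ∈ B₁ ∧ s ∈ 𝔪 ∧ ∀ x : B, (x : F) ∈ B₁ → x ∈ 𝔪 →
      ∃ u : B, u ∉ 𝔪 ∧ u * x ∈ Ideal.span {(⟨algebraMap A₀ F π, hAB π⟩ : B), s})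
    (hres : ∀ b : B, ∃ a : A₀, b - ⟨algebraMap A₀ F a, hAB a⟩ ∈ 𝔪) :
    ∃ x : B, x ∈ P0 ∧ x ∉ Pinf ∧ ∀ m ∈ 𝔪, ∃ r u : B, u ∉ 𝔪 ∧ u * m - x * r ∈ Pinf := by
  obtain ⟨s, hs₁, hs𝔪, hreg'⟩ := hreg
  let φ : A₀ →+* B := (algebraMap A₀ F).codRestrict B hAB
  have hφ : ∀ a : A₀, φ a = ⟨algebraMap A₀ F a, hAB a⟩ := fun a => rfl
  refine s34_n3_core φ π hπ 𝔪 Pinf P0 hPinf hP0 hϖ hne q hqP {x : B | (x : F) ∈ B₁}
    {f : B | (f : F) ∈ C} ?_ (fun f hf => hfrob f hf) (fun x => hsum x) s hs₁ hs𝔪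
    (fun x hx hxm => hreg' x hx hxm) (fun b => hres b)
  -- the span condition, transported to `B`
  intro T hT x hx
  have hle : AddSubgroup.closure {z : F | ∃ (a : A₀) (f : F), f ∈ C ∧ z = algebraMap A₀ F a * f}
      ≤ T.map B.subtype.toAddMonoidHom := by
    rw [AddSubgroup.closure_le]
    rintro z ⟨a, f, hf, rfl⟩
    exact ⟨φ a * ⟨f, hCB f hf⟩, hT a ⟨f, hCB f hf⟩ hf, rfl⟩
  obtain ⟨y, hy, hyx⟩ := hle (hspan (x : F) hx)
  have : y = x := Subtype.ext hyx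
  rw [← this]
  exact hy

/-- The local generator `s` of `𝔪 ∩ B₁` (hypothesis `hreg` of `s34_n3_transversal`) from
`s18_Chart.reg` of the lower chart `B₁ ≤ B`, at a node `𝔪` of `B` rational over `A₀ / π`. -/
theorem s34_n3_reg_of_chart {A₀ F : Type*} [CommRing A₀] [Field F] [Algebra A₀ F] (π : A₀)
    (hπ : ∀ a : A₀, ¬ IsUnit a → ∃ b, a = π * b)
    (B : Subring F) (hAB : ∀ a : A₀, algebraMap A₀ F a ∈ B)
    (B₁ : Subring F) (hB₁ : B₁ ≤ B) (hAB₁ : ∀ a : A₀, algebraMap A₀ F a ∈ B₁)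
    (hch : s18_Chart (algebraMap A₀ F π) B₁)
    (𝔪 : Ideal B) [h𝔪 : 𝔪.IsPrime] (hϖ𝔪 : (⟨algebraMap A₀ F π, hAB π⟩ : B) ∈ 𝔪)
    (hres : ∀ b : B, ∃ a : A₀, b - ⟨algebraMap A₀ F a, hAB a⟩ ∈ 𝔪) :
    ∃ s : B, (s : F) ∈ B₁ ∧ s ∈ 𝔪 ∧ ∀ x : B, (x : F) ∈ B₁ → x ∈ 𝔪 →
      ∃ u : B, u ∉ 𝔪 ∧ u * x ∈ Ideal.span {(⟨algebraMap A₀ F π, hAB π⟩ : B), s} := by
  let ι : B₁ →+* B := Subring.inclusion hB₁
  have hι : ∀ x : B₁, ((ι x : B) : F) = (x : F) := fun x => rfl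
  set 𝔪₁ : Ideal B₁ := 𝔪.comap ι with h𝔪₁
  have hmax : 𝔪₁.IsMaximal := by
    rw [Ideal.isMaximal_iff]
    refine ⟨fun h => h𝔪.ne_top ((Ideal.eq_top_iff_one _).mpr (by
      have : ι 1 ∈ 𝔪 := h
      rwa [map_one] at this)), ?_⟩
    intro J b hJ hb hbJ
    obtain ⟨a, ha⟩ := hres (ι b)
    have hau : IsUnit a := by
      by_contra hnu
      obtain ⟨b', rfl⟩ := hπ a hnu
      apply hb
      show ι b ∈ 𝔪
      have e : ι b = (ι b - ⟨algebraMap A₀ F (π * b'), hAB (π * b')⟩)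
          + (⟨algebraMap A₀ F π, hAB π⟩ : B) * ⟨algebraMap A₀ F b', hAB b'⟩ := by
        apply Subtype.ext
        show ((ι b : B) : F) = (((ι b : B) : F) - algebraMap A₀ F (π * b'))
          + algebraMap A₀ F π * algebraMap A₀ F b'
        rw [map_mul]
        ring
      rw [e]
      exact 𝔪.add_mem ha (𝔪.mul_mem_right _ hϖ𝔪)
    obtain ⟨a', ha'⟩ := hau.exists_right_inv
    -- `1 - a' b ∈ 𝔪₁`
    have h1 : (1 - (⟨algebraMap A₀ F a', hAB₁ a'⟩ : B₁) * b) ∈ 𝔪₁ := by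
      show ι (1 - (⟨algebraMap A₀ F a', hAB₁ a'⟩ : B₁) * b) ∈ 𝔪
      have e : ι (1 - (⟨algebraMap A₀ F a', hAB₁ a'⟩ : B₁) * b)
          = -((⟨algebraMap A₀ F a', hAB a'⟩ : B) * (ι b - ⟨algebraMap A₀ F a, hAB a⟩)) := by
        apply Subtype.ext
        have h2 : algebraMap A₀ F a * algebraMap A₀ F a' = 1 := by
          rw [← map_mul, ha', map_one]
        show (1 : F) - algebraMap A₀ F a' * (b : F)
          = -(algebraMap A₀ F a' * ((b : F) - algebraMap A₀ F a))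
        linear_combination (-1 : F) * h2
      rw [e]
      exact 𝔪.neg_mem (𝔪.mul_mem_left _ ha)
    have e : (1 : B₁) = (1 - (⟨algebraMap A₀ F a', hAB₁ a'⟩ : B₁) * b)
        + (⟨algebraMap A₀ F a', hAB₁ a'⟩ : B₁) * b := by ring
    rw [e]
    exact J.add_mem (hJ h1) (J.mul_mem_left _ hbJ)
  have hϖ₁ : (⟨algebraMap A₀ F π, hch.ϖ_mem⟩ : B₁) ∈ 𝔪₁ := by
    show ι ⟨algebraMap A₀ F π, hch.ϖ_mem⟩ ∈ 𝔪
    exact hϖ𝔪
  obtain ⟨s₁, hs₁, hreg⟩ := hch.reg 𝔪₁ hmax hϖ₁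
  refine ⟨ι s₁, s₁.2, hs₁, ?_⟩
  intro x hx hxm
  have hx₁ : (⟨(x : F), hx⟩ : B₁) ∈ 𝔪₁ := by
    show ι ⟨(x : F), hx⟩ ∈ 𝔪
    have : ι ⟨(x : F), hx⟩ = x := Subtype.ext rfl
    rw [this]
    exact hxm
  obtain ⟨u, hu, hmem⟩ := hreg _ hx₁
  obtain ⟨α, β, hαβ⟩ := Ideal.mem_span_pair.mp hmem
  refine ⟨ι u, hu, Ideal.mem_span_pair.mpr ⟨ι α, ι β, ?_⟩⟩
  apply Subtype.ext
  have h3 := congrArg (fun z : B₁ => (z : F)) hαβ
  simp only [Subring.coe_add, Subring.coe_mul] at h3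
  simp only [Subring.coe_add, Subring.coe_mul, hι]
  exact h3

/-- **(N3), chart form**: `s34_n3_transversal` with the local generator taken from the
`s18_Chart` structure of the lower chart `B₁`. -/
theorem s34_n3_of_chart {A₀ F : Type*} [CommRing A₀] [Field F] [Algebra A₀ F] (π : A₀)
    (hπ : ∀ a : A₀, ¬ IsUnit a → ∃ b, a = π * b)
    (B : Subring F) (hAB : ∀ a : A₀, algebraMap A₀ F a ∈ B)
    (𝔪 Pinf P0 : Ideal B) [h𝔪 : 𝔪.IsPrime] [hPi : Pinf.IsPrime] (hPinf : Pinf ≤ 𝔪)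
    (hP0 : P0 ≤ 𝔪) (hϖ : (⟨algebraMap A₀ F π, hAB π⟩ : B) ∈ Pinf) (hne : ¬ P0 ≤ Pinf)
    (q : ℕ) (hqP : (q : B) ∈ Pinf)
    (B₁ : Subring F) (hB₁ : B₁ ≤ B) (hAB₁ : ∀ a : A₀, algebraMap A₀ F a ∈ B₁)
    (hch : s18_Chart (algebraMap A₀ F π) B₁)
    (C : Set F) (hCB : ∀ f ∈ C, f ∈ B)
    (hspan : ∀ x ∈ B₁, x ∈ AddSubgroup.closure
      {z : F | ∃ (a : A₀) (f : F), f ∈ C ∧ z = algebraMap A₀ F a * f})
    (hfrob : ∀ f : B, (f : F) ∈ C → ∃ g : B, g - f ^ q ∈ Pinf ∧ g ^ q - f ∈ P0)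
    (hsum : ∀ x : B, ∃ x' : B, (x' : F) ∈ B₁ ∧ x - x' ∈ Pinf)
    (hres : ∀ b : B, ∃ a : A₀, b - ⟨algebraMap A₀ F a, hAB a⟩ ∈ 𝔪) :
    ∃ x : B, x ∈ P0 ∧ x ∉ Pinf ∧ ∀ m ∈ 𝔪, ∃ r u : B, u ∉ 𝔪 ∧ u * m - x * r ∈ Pinf :=
  s34_n3_transversal π hπ B hAB 𝔪 Pinf P0 hPinf hP0 hϖ hne q hqP B₁ C hCB hspan hfrob hsum
    (s34_n3_reg_of_chart π hπ B hAB B₁ hB₁ hAB₁ hch 𝔪 (hPinf hϖ) hres) hres

end Fermat.Agent.S34
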