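import Mathlib
import Fermat.Agent.S34.Transversal

/-!
# S34 (NODE), leaf (N3), two-field form

The smooth chart `B₁` of the lower level lives natively in its own field `F''` (where it is an
`s18_Chart`); it is mapped into the field `F` of the nodal chart `B` by a field embedding
`ι : F'' →+* F` (`ι = α` for the component at infinity, `ι = W ∘ α` for the other component).
The image `B₁.map ι` is *not* an `s18_Chart` of `F`, so the chart wrappers of `Transversal.lean`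
do not apply; here are their two-field versions.

* `s34_n3t_reg`  : the hypothesis `hreg` of `s34_n3_transversal` for `B₁.map ι`, from
  `s18_Chart.reg` of the native chart;
* `s34_n3t_hsum` : the hypothesis `hsum` from the conclusion of `s34_res_two`;
* `s34_n3t_two`  : transversality at a crossing point in two-field form.
-/

set_option autoImplicit false

namespace Fermat.Agent.S34

open Fermat.Agent.S18

/-- **(N3), two-field form of the local generator**: the local generator of `𝔪 ∩ ι B₁` modulo `ϖ`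
from `s18_Chart.reg` of the native chart `B₁ ⊆ F''`. -/
theorem s34_n3t_reg {A₀ F'' F : Type*} [CommRing A₀] [Field F''] [Field F] [Algebra A₀ F] (π : A₀)
    (hπ : ∀ a : A₀, ¬ IsUnit a → ∃ b, a = π * b)
    (B : Subring F) (hAB : ∀ a : A₀, algebraMap A₀ F a ∈ B)
    (ι : F'' →+* F) {ϖ'' : F''} (B₁ : Subring F'') (hch : s18_Chart ϖ'' B₁)
    (hιϖ : ι ϖ'' = algebraMap A₀ F π) (hB₁B : ∀ x ∈ B₁, ι x ∈ B)
    (hA₁ : ∀ a : A₀, ∃ a₁ ∈ B₁, ι a₁ = algebraMap A₀ F a)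
    (𝔪 : Ideal B) [h𝔪 : 𝔪.IsPrime] (hϖ𝔪 : (⟨algebraMap A₀ F π, hAB π⟩ : B) ∈ 𝔪)
    (hres : ∀ b : B, ∃ a : A₀, b - ⟨algebraMap A₀ F a, hAB a⟩ ∈ 𝔪) :
    ∃ s : B, (s : F) ∈ B₁.map ι ∧ s ∈ 𝔪 ∧ ∀ x : B, (x : F) ∈ B₁.map ι → x ∈ 𝔪 →
      ∃ u : B, u ∉ 𝔪 ∧ u * x ∈ Ideal.span {(⟨algebraMap A₀ F π, hAB π⟩ : B), s} := by
  classical
  -- the map `B₁ → B`
  let j : B₁ →+* B := (ι.comp B₁.subtype).codRestrict B (fun x => hB₁B x x.2)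
  have hj : ∀ x : B₁, ((j x : B) : F) = ι (x : F'') := fun x => rfl
  set 𝔪₁ : Ideal B₁ := 𝔪.comap j with h𝔪₁
  have hmax : 𝔪₁.IsMaximal := by
    rw [Ideal.isMaximal_iff]
    refine ⟨fun h => h𝔪.ne_top ((Ideal.eq_top_iff_one _).mpr (by
      have : j 1 ∈ 𝔪 := h
      rwa [map_one] at this)), ?_⟩
    intro J b hJ hb hbJ
    obtain ⟨a, ha⟩ := hres (j b)
    have hau : IsUnit a := by
      by_contra hnu
      obtain ⟨b', rfl⟩ := hπ a hnu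
      apply hb
      show j b ∈ 𝔪
      have e : j b = (j b - ⟨algebraMap A₀ F (π * b'), hAB (π * b')⟩)
          + (⟨algebraMap A₀ F π, hAB π⟩ : B) * ⟨algebraMap A₀ F b', hAB b'⟩ := by
        apply Subtype.ext
        show ((j b : B) : F) = (((j b : B) : F) - algebraMap A₀ F (π * b'))
          + algebraMap A₀ F π * algebraMap A₀ F b'
        rw [map_mul]
        ring
      rw [e]
      exact 𝔪.add_mem ha (𝔪.mul_mem_right _ hϖ𝔪)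
    obtain ⟨a', ha'⟩ := hau.exists_right_inv
    obtain ⟨a₁', ha₁', hιa₁'⟩ := hA₁ a'
    -- `1 - a' b ∈ 𝔪₁`
    have h1 : (1 - (⟨a₁', ha₁'⟩ : B₁) * b) ∈ 𝔪₁ := by
      show j (1 - (⟨a₁', ha₁'⟩ : B₁) * b) ∈ 𝔪
      have e : j (1 - (⟨a₁', ha₁'⟩ : B₁) * b)
          = -((⟨algebraMap A₀ F a', hAB a'⟩ : B) * (j b - ⟨algebraMap A₀ F a, hAB a⟩)) := by
        apply Subtype.ext
        have h2 : algebraMap A₀ F a * algebraMap A₀ F a' = 1 := by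
          rw [← map_mul, ha', map_one]
        show ι ((1 : F'') - a₁' * (b : F''))
          = -(algebraMap A₀ F a' * (ι (b : F'') - algebraMap A₀ F a))
        rw [map_sub, map_one, map_mul, hιa₁']
        linear_combination (-1 : F) * h2
      rw [e]
      exact 𝔪.neg_mem (𝔪.mul_mem_left _ ha)
    have e : (1 : B₁) = (1 - (⟨a₁', ha₁'⟩ : B₁) * b) + (⟨a₁', ha₁'⟩ : B₁) * b := by ring
    rw [e]
    exact J.add_mem (hJ h1) (J.mul_mem_left _ hbJ)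
  have hjϖ : j ⟨ϖ'', hch.ϖ_mem⟩ = ⟨algebraMap A₀ F π, hAB π⟩ := Subtype.ext hιϖ
  have hϖ₁ : (⟨ϖ'', hch.ϖ_mem⟩ : B₁) ∈ 𝔪₁ := by
    show j ⟨ϖ'', hch.ϖ_mem⟩ ∈ 𝔪
    rw [hjϖ]
    exact hϖ𝔪
  obtain ⟨s₁, hs₁, hreg⟩ := hch.reg 𝔪₁ hmax hϖ₁
  refine ⟨j s₁, ⟨(s₁ : F''), s₁.2, rfl⟩, hs₁, ?_⟩
  intro x hx hxm
  obtain ⟨x₁, hx₁, hx₁x⟩ := hx
  have hjx : j ⟨x₁, hx₁⟩ = x := Subtype.ext hx₁x
  have hx₁m : (⟨x₁, hx₁⟩ : B₁) ∈ 𝔪₁ := by
    show j ⟨x₁, hx₁⟩ ∈ 𝔪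
    rw [hjx]
    exact hxm
  obtain ⟨u, hu, hmem⟩ := hreg _ hx₁m
  obtain ⟨α, β, hαβ⟩ := Ideal.mem_span_pair.mp hmem
  refine ⟨j u, hu, Ideal.mem_span_pair.mpr ⟨j α, j β, ?_⟩⟩
  have h3 := congrArg j hαβ
  rw [map_add, map_mul, map_mul, map_mul, hjϖ, hjx] at h3
  exact h3

/-- The hypothesis `hsum` of `s34_n3_transversal` (`B = ι B₁ + Pinf`) from the conclusion of
`s34_res_two`. -/
theorem s34_n3t_hsum {F'' F : Type*} [Field F''] [Field F] (ϖ : F) (B V : Subring F)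
    (ι : F'' →+* F) (B₁ : Subring F'') (hB₁B : ∀ x ∈ B₁, ι x ∈ B)
    (Pinf : Ideal B) (hPinf : ∀ b : B, ϖ⁻¹ * (b : F) ∈ V → b ∈ Pinf)
    (hres : ∀ x ∈ B, ∃ x' ∈ B₁, ϖ⁻¹ * (x - ι x') ∈ V) :
    ∀ x : B, ∃ x' : B, (x' : F) ∈ B₁.map ι ∧ x - x' ∈ Pinf := by
  intro x
  obtain ⟨x', hx', h⟩ := hres x x.2
  exact ⟨⟨ι x', hB₁B x' hx'⟩, ⟨x', hx', rfl⟩, hPinf _ h⟩

/-- **(N3), two-field form**: transversality at a crossing point `𝔪` of the two components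
`Pinf`, `P0` of the special fibre of `B`, the smooth chart `B₁` of the lower level being given
natively in its own field `F''` with an embedding `ι : F'' →+* F`. -/
theorem s34_n3t_two {A₀ F'' F : Type*} [CommRing A₀] [Field F''] [Field F] [Algebra A₀ F]
    (π : A₀) (hπ : ∀ a : A₀, ¬ IsUnit a → ∃ b, a = π * b)
    (B : Subring F) (hAB : ∀ a : A₀, algebraMap A₀ F a ∈ B)
    (𝔪 Pinf P0 : Ideal B) [h𝔪 : 𝔪.IsPrime] [hPi : Pinf.IsPrime] (hPinf : Pinf ≤ 𝔪)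
    (hP0 : P0 ≤ 𝔪) (hϖ : (⟨algebraMap A₀ F π, hAB π⟩ : B) ∈ Pinf) (hne : ¬ P0 ≤ Pinf)
    (q : ℕ) (hqP : (q : B) ∈ Pinf)
    (ι : F'' →+* F) {ϖ'' : F''} (B₁ : Subring F'') (hch : s18_Chart ϖ'' B₁)
    (hιϖ : ι ϖ'' = algebraMap A₀ F π) (hB₁B : ∀ x ∈ B₁, ι x ∈ B)
    (hA₁ : ∀ a : A₀, ∃ a₁ ∈ B₁, ι a₁ = algebraMap A₀ F a)
    (C : Set F) (hCB : ∀ f ∈ C, f ∈ B)
    (hspan : ∀ x ∈ B₁, ι x ∈ AddSubgroup.closure
      {z : F | ∃ (a : A₀) (f : F), f ∈ C ∧ z = algebraMap A₀ F a * f})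
    (hfrob : ∀ f : B, (f : F) ∈ C → ∃ g : B, g - f ^ q ∈ Pinf ∧ g ^ q - f ∈ P0)
    (hsum : ∀ x : B, ∃ x' : B, (x' : F) ∈ B₁.map ι ∧ x - x' ∈ Pinf)
    (hres : ∀ b : B, ∃ a : A₀, b - ⟨algebraMap A₀ F a, hAB a⟩ ∈ 𝔪) :
    ∃ x : B, x ∈ P0 ∧ x ∉ Pinf ∧ ∀ m ∈ 𝔪, ∃ r u : B, u ∉ 𝔪 ∧ u * m - x * r ∈ Pinf :=
  s34_n3_transversal π hπ B hAB 𝔪 Pinf P0 hPinf hP0 hϖ hne q hqP (B₁.map ι) C hCB
    (by
      rintro _ ⟨x, hx, rfl⟩
      exact hspan x hx)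
    hfrob hsum
    (s34_n3t_reg π hπ B hAB ι B₁ hch hιϖ hB₁B hA₁ 𝔪 (hPinf hϖ) hres) hres

end Fermat.Agent.S34
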