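import Mathlib
import Fermat.Agent.S34.NodeInst
import Fermat.Agent.S34.TransTwo
import Fermat.Agent.S34.FrobSwap
import Fermat.Agent.S34.GaussLevel
import Fermat.Agent.S34.GaussZeroModel

/-!
# S34 (NODE), sub-assembly (INST-node), part 3: the branch parameters at a crossing point

`K` a field over `ℚ`, `A` a DVR of `K` (uniformizer `π`, `ℓ` not a unit), `F' = K · F_N` the lower
level, `FF = K · F_(N ℓ)`, `α, β : F' → FF` the two degeneracy maps, `W` a swap of `FF` (`W ∘ α = β`,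
`W ∘ W = id`), `V₁ = V∞ = s34_gi_V A (N ℓ)`, `V₂ = V0 = V∞.comap W`,
`B₁ = s18_chAlg N ℓ A t ⊆ F'` the native level-`N` S18 chart of the coordinate `t`, `B ⊆ FF` a
`W`-stable chart containing `α(B₁)` with `B = α(B₁) + (B ∩ ϖ V∞)`.

* `s34_ni_hx` : the branch parameter `x ∈ 𝔓0 \ 𝔓∞` at a crossing point `𝔪` (hypothesis `hx` of
  `s34_ni_hG` / `s34_node_G`);
* `s34_ni_hy` : the branch parameter `y ∈ 𝔓∞ \ 𝔓0` (hypothesis `hy`);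
* `s34_ni_hne` : the two components are distinct (`𝔓0 ⊄ 𝔓∞` and `𝔓∞ ⊄ 𝔓0`).
-/

set_option autoImplicit false
set_option synthInstance.maxHeartbeats 400000
set_option linter.unusedSectionVars false

open ModularCurve

noncomputable section

namespace Fermat.Agent.S34

open Fermat.Agent.S18 Fermat.Agent.S28

variable {K : Type*} [Field K] [Algebra ℚ K] (A : ValuationSubring K)
variable {N ℓ : ℕ} [NeZero N] [NeZero ℓ] [Fact ℓ.Prime]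

local notation "F'" => laurentBaseChange K (modularFunctionFieldFull N)
local notation "FF" => laurentBaseChange K (modularFunctionFieldFull (N * ℓ))

/-- Non-units of a DVR are multiples of the uniformizer. -/
theorem s34_ni_dvr_nonunit [IsDiscreteValuationRing A] {π : A} (hπ : Irreducible π) (a : A)
    (ha : ¬ IsUnit a) : ∃ b, a = π * b := by
  have hmax : IsLocalRing.maximalIdeal A = Ideal.span {π} :=
    (IsDiscreteValuationRing.irreducible_iff_uniformizer π).mp hπ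
  have h1 : a ∈ IsLocalRing.maximalIdeal A := ha
  rw [hmax, Ideal.mem_span_singleton'] at h1
  obtain ⟨b, hb⟩ := h1
  exact ⟨b, by rw [← hb, mul_comm]⟩

/-- The two spellings of a constant of `FF`. -/
theorem s34_ni_algebraMap_eq (a : A) : algebraMap A FF a = algebraMap K FF (a : K) := rfl

/-- `W` fixes the constants. -/
theorem s34_ni_W_const (W : FF ≃+* FF)
    (hWα : ∀ x : F', W (heckeAlphaBar K N ℓ x) = heckeBetaBar K N ℓ x) (c : K) :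
    W (algebraMap K FF c) = algebraMap K FF c := by
  have h := hWα (algebraMap K F' c)
  rwa [AlgHom.commutes, AlgHom.commutes] at h

/-- `ℓ ∈ B ∩ ϖ V` for every subring `V ⊇ B ⊇ A`. -/
theorem s34_ni_ell_mem [IsDiscreteValuationRing A] (hℓ : ((ℓ : K))⁻¹ ∉ A) {π : A}
    (hπ : Irreducible π) (B V : Subring FF) (hBV : B ≤ V)
    (hAB : ∀ a : A, algebraMap A FF a ∈ B) :
    ((ℓ : ℕ) : B) ∈ s34_ni_P (algebraMap A FF π) B V hBV := by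
  obtain ⟨c, hc⟩ := s34_ni_dvr_nonunit A hπ ((ℓ : ℕ) : A) (s18_ell_mem_maximalIdeal ℓ A hℓ)
  rw [s34_ni_mem_P]
  have hπ0 : algebraMap A FF π ≠ 0 := by
    intro h
    apply hπ.ne_zero
    have h1 : algebraMap K FF ((π : A) : K) = 0 := h
    exact Subtype.ext ((map_eq_zero _).mp h1)
  have e : (algebraMap A FF π)⁻¹ * (((ℓ : ℕ) : B) : FF) = algebraMap A FF c := by
    have h1 : (((ℓ : ℕ) : B) : FF) = algebraMap A FF ((ℓ : ℕ) : A) := by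
      rw [map_natCast]; rfl
    rw [h1, hc, map_mul, ← mul_assoc, inv_mul_cancel₀ hπ0, one_mul]
  rw [e]
  exact hBV (hAB c)

/-- The rational chart of level `N` lies in `B`. -/
theorem s34_ni_C_mem (t : modularFunctionFieldFull N) (B : Subring FF)
    (hαB : ∀ x ∈ (s18_chAlg N ℓ A t).toSubring, (heckeAlphaBar K N ℓ).toRingHom x ∈ B)
    (f : FF) (hf : f ∈ s34_fc_C K N (N * ℓ) ℓ t) : f ∈ B := by
  obtain ⟨x₀, hx₀, hf⟩ := hf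
  have hmem : coeffMap (algebraMap ℚ K) x₀ ∈ F' := s34_fc_rat_mem dvd_rfl hx₀
  have h1 : (⟨coeffMap (algebraMap ℚ K) x₀, hmem⟩ : F') ∈ (s18_chAlg N ℓ A t).toSubring := by
    show coeffMap (algebraMap ℚ K) x₀ ∈ s18_chRing N ℓ A t
    exact s18_map_mem_chSpan hx₀
  have h2 := hαB _ h1
  have e : (heckeAlphaBar K N ℓ).toRingHom ⟨coeffMap (algebraMap ℚ K) x₀, hmem⟩ = f :=
    Subtype.ext hf.symm
  rwa [e] at h2

/-- On the rational chart of level `N`, `W` is `q ↦ q^ℓ`. -/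
theorem s34_ni_hWq (t : modularFunctionFieldFull N) (W : FF ≃+* FF)
    (hWα : ∀ x : F', W (heckeAlphaBar K N ℓ x) = heckeBetaBar K N ℓ x)
    (f : FF) (hf : f ∈ s34_fc_C K N (N * ℓ) ℓ t) :
    ((W f : FF) : LaurentSeries K) = qExpand K ℓ (f : LaurentSeries K) := by
  obtain ⟨x₀, hx₀, hf⟩ := hf
  have hmem : coeffMap (algebraMap ℚ K) x₀ ∈ F' := s34_fc_rat_mem dvd_rfl hx₀
  have e : f = heckeAlphaBar K N ℓ ⟨coeffMap (algebraMap ℚ K) x₀, hmem⟩ := Subtype.ext hf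
  rw [e, hWα, coe_heckeBetaBar, coe_heckeAlphaBar]

/-- **The branch parameter `x`** at a crossing point: hypothesis `hx` of `s34_ni_hG`. -/
theorem s34_ni_hx [IsDiscreteValuationRing A] (hℓ : ((ℓ : K))⁻¹ ∉ A) {π : A}
    (hπ : Irreducible π) (t : modularFunctionFieldFull N)
    (hCW : ∀ x ∈ s18_czRing N ℓ t, x ∈ Wring ℓ)
    (hch : s18_Chart (algebraMap A F' π) (s18_chAlg N ℓ A t).toSubring)
    (W : FF ≃+* FF) (hWW : ∀ x, W (W x) = x)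
    (hWα : ∀ x : F', W (heckeAlphaBar K N ℓ x) = heckeBetaBar K N ℓ x)
    (B : Subring FF) (hAB : ∀ a : A, algebraMap A FF a ∈ B) (hWB : ∀ b ∈ B, W b ∈ B)
    (hαB : ∀ x ∈ (s18_chAlg N ℓ A t).toSubring, (heckeAlphaBar K N ℓ).toRingHom x ∈ B)
    (hB₁ : B ≤ s34_gi_V A (N * ℓ)) (hB₂ : B ≤ (s34_gi_V A (N * ℓ)).comap (W : FF →+* FF))
    (hresInf : ∀ x ∈ B, ∃ x' ∈ (s18_chAlg N ℓ A t).toSubring,
      (algebraMap A FF π)⁻¹ * (x - (heckeAlphaBar K N ℓ).toRingHom x') ∈ s34_gi_V A (N * ℓ))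
    (hne : ∃ b : B, b ∈ s34_ni_P (algebraMap A FF π) B _ hB₂ ∧
      b ∉ s34_ni_P (algebraMap A FF π) B _ hB₁)
    (𝔪 : Ideal B) (h𝔪 : 𝔪.IsPrime)
    (hP1𝔪 : s34_ni_P (algebraMap A FF π) B _ hB₁ ≤ 𝔪)
    (hP2𝔪 : s34_ni_P (algebraMap A FF π) B _ hB₂ ≤ 𝔪)
    (hres : ∀ b : B, ∃ a : A, b - ⟨algebraMap A FF a, hAB a⟩ ∈ 𝔪) :
    ∃ x : B, x ∈ s34_ni_P (algebraMap A FF π) B _ hB₂ ∧
      x ∉ s34_ni_P (algebraMap A FF π) B _ hB₁ ∧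
      ∀ m ∈ 𝔪, ∃ r u : B, u ∉ 𝔪 ∧ u * m - x * r ∈ s34_ni_P (algebraMap A FF π) B _ hB₁ := by
  have hWϖ : W (algebraMap K FF (π : K)) = algebraMap K FF (π : K) := s34_ni_W_const W hWα _
  have hV₁ : s34_Unif (algebraMap K FF (π : K)) (s34_gi_V A (N * ℓ)) :=
    s34_gi_unif (N := N * ℓ) hπ
  have hP1 : (s34_ni_P (algebraMap A FF π) B _ hB₁).IsPrime := s34_ni_P_prime hV₁ hB₁
  have hne' : ¬ s34_ni_P (algebraMap A FF π) B _ hB₂ ≤ s34_ni_P (algebraMap A FF π) B _ hB₁ := by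
    obtain ⟨b, hb2, hb1⟩ := hne
    exact fun h => hb1 (h hb2)
  have hιϖ : (heckeAlphaBar K N ℓ).toRingHom (algebraMap A F' π) = algebraMap A FF π :=
    (heckeAlphaBar K N ℓ).commutes (π : K)
  have hA₁ : ∀ a : A, ∃ a₁ ∈ (s18_chAlg N ℓ A t).toSubring,
      (heckeAlphaBar K N ℓ).toRingHom a₁ = algebraMap A FF a := fun a =>
    ⟨algebraMap A F' a, (s18_chAlg N ℓ A t).algebraMap_mem a,
      (heckeAlphaBar K N ℓ).commutes (a : K)⟩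
  have hspan : ∀ x ∈ (s18_chAlg N ℓ A t).toSubring, (heckeAlphaBar K N ℓ).toRingHom x ∈
      AddSubgroup.closure {z : FF | ∃ (a : A) (f : FF),
        f ∈ s34_fc_C K N (N * ℓ) ℓ t ∧ z = algebraMap A FF a * f} := by
    intro x hx
    exact s34_fc_span A (dvd_mul_right N ℓ) t _ hx
  have hfrob := s34_fc_hfrob (N' := N) (N := N * ℓ) A hℓ hπ t hCW W hWW hWϖ
    (s34_ni_hWq t W hWα) ((s34_gi_V A (N * ℓ)).comap (W : FF →+* FF)) (fun _ h => h) B hWB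
    (s34_ni_P (algebraMap A FF π) B _ hB₁) (s34_ni_P (algebraMap A FF π) B _ hB₂)
    (fun b h => h) (fun b h => h)
  have hsum := s34_n3t_hsum (algebraMap A FF π) B (s34_gi_V A (N * ℓ))
    (heckeAlphaBar K N ℓ).toRingHom (s18_chAlg N ℓ A t).toSubring hαB
    (s34_ni_P (algebraMap A FF π) B _ hB₁) (fun b h => h) hresInf
  exact s34_n3t_two (A₀ := A) π (s34_ni_dvr_nonunit A hπ) B hAB 𝔪
    (s34_ni_P (algebraMap A FF π) B _ hB₁) (s34_ni_P (algebraMap A FF π) B _ hB₂) hP1𝔪 hP2𝔪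
    (s34_ni_ϖ_mem_P hV₁ hB₁ (hAB π)) hne' ℓ (s34_ni_ell_mem A hℓ hπ B _ hB₁ hAB)
    (heckeAlphaBar K N ℓ).toRingHom (s18_chAlg N ℓ A t).toSubring hch hιϖ hαB hA₁
    (s34_fc_C K N (N * ℓ) ℓ t) (s34_ni_C_mem A t B hαB) hspan hfrob hsum hres

/-- **The branch parameter `y`** at a crossing point: hypothesis `hy` of `s34_ni_hG`. -/
theorem s34_ni_hy [IsDiscreteValuationRing A] (hℓ : ((ℓ : K))⁻¹ ∉ A) {π : A}
    (hπ : Irreducible π) (t : modularFunctionFieldFull N)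
    (hCW : ∀ x ∈ s18_czRing N ℓ t, x ∈ Wring ℓ)
    (hch : s18_Chart (algebraMap A F' π) (s18_chAlg N ℓ A t).toSubring)
    (W : FF ≃+* FF) (hWW : ∀ x, W (W x) = x)
    (hWα : ∀ x : F', W (heckeAlphaBar K N ℓ x) = heckeBetaBar K N ℓ x)
    (B : Subring FF) (hAB : ∀ a : A, algebraMap A FF a ∈ B) (hWB : ∀ b ∈ B, W b ∈ B)
    (hαB : ∀ x ∈ (s18_chAlg N ℓ A t).toSubring, (heckeAlphaBar K N ℓ).toRingHom x ∈ B)
    (hB₁ : B ≤ s34_gi_V A (N * ℓ)) (hB₂ : B ≤ (s34_gi_V A (N * ℓ)).comap (W : FF →+* FF))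
    (hresInf : ∀ x ∈ B, ∃ x' ∈ (s18_chAlg N ℓ A t).toSubring,
      (algebraMap A FF π)⁻¹ * (x - (heckeAlphaBar K N ℓ).toRingHom x') ∈ s34_gi_V A (N * ℓ))
    (hne : ∃ b : B, b ∈ s34_ni_P (algebraMap A FF π) B _ hB₁ ∧
      b ∉ s34_ni_P (algebraMap A FF π) B _ hB₂)
    (𝔪 : Ideal B) (h𝔪 : 𝔪.IsPrime)
    (hP1𝔪 : s34_ni_P (algebraMap A FF π) B _ hB₁ ≤ 𝔪)
    (hP2𝔪 : s34_ni_P (algebraMap A FF π) B _ hB₂ ≤ 𝔪)
    (hres : ∀ b : B, ∃ a : A, b - ⟨algebraMap A FF a, hAB a⟩ ∈ 𝔪) :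
    ∃ y : B, y ∈ s34_ni_P (algebraMap A FF π) B _ hB₁ ∧
      y ∉ s34_ni_P (algebraMap A FF π) B _ hB₂ ∧
      ∀ m ∈ 𝔪, ∃ r u : B, u ∉ 𝔪 ∧ u * m - y * r ∈ s34_ni_P (algebraMap A FF π) B _ hB₂ := by
  have hWϖ : W (algebraMap K FF (π : K)) = algebraMap K FF (π : K) := s34_ni_W_const W hWα _
  have hV₁ : s34_Unif (algebraMap K FF (π : K)) (s34_gi_V A (N * ℓ)) :=
    s34_gi_unif (N := N * ℓ) hπ
  have hV₂ : s34_Unif (algebraMap K FF (π : K))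
      ((s34_gi_V A (N * ℓ)).comap (W : FF →+* FF)) := hV₁.comap W hWϖ
  have hP2 : (s34_ni_P (algebraMap A FF π) B _ hB₂).IsPrime := s34_ni_P_prime hV₂ hB₂
  have hne' : ¬ s34_ni_P (algebraMap A FF π) B _ hB₁ ≤ s34_ni_P (algebraMap A FF π) B _ hB₂ := by
    obtain ⟨b, hb1, hb2⟩ := hne
    exact fun h => hb2 (h hb1)
  have hιϖ : ((W : FF →+* FF).comp (heckeAlphaBar K N ℓ).toRingHom) (algebraMap A F' π) =
      algebraMap A FF π := by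
    show W (heckeAlphaBar K N ℓ (algebraMap K F' (π : K))) = algebraMap K FF (π : K)
    rw [AlgHom.commutes, hWϖ]
  have hB₁B : ∀ x ∈ (s18_chAlg N ℓ A t).toSubring,
      ((W : FF →+* FF).comp (heckeAlphaBar K N ℓ).toRingHom) x ∈ B :=
    fun x hx => hWB _ (hαB x hx)
  have hA₁ : ∀ a : A, ∃ a₁ ∈ (s18_chAlg N ℓ A t).toSubring,
      ((W : FF →+* FF).comp (heckeAlphaBar K N ℓ).toRingHom) a₁ = algebraMap A FF a := by
    intro a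
    refine ⟨algebraMap A F' a, (s18_chAlg N ℓ A t).algebraMap_mem a, ?_⟩
    show W (heckeAlphaBar K N ℓ (algebraMap K F' (a : K))) = algebraMap K FF (a : K)
    rw [AlgHom.commutes, s34_ni_W_const W hWα]
  have hCB : ∀ f ∈ (W : FF → FF) '' s34_fc_C K N (N * ℓ) ℓ t, f ∈ B := by
    rintro _ ⟨f, hf, rfl⟩
    exact hWB _ (s34_ni_C_mem A t B hαB f hf)
  have hspan : ∀ x ∈ (s18_chAlg N ℓ A t).toSubring,
      ((W : FF →+* FF).comp (heckeAlphaBar K N ℓ).toRingHom) x ∈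
      AddSubgroup.closure {z : FF | ∃ (a : A) (f : FF),
        f ∈ (W : FF → FF) '' s34_fc_C K N (N * ℓ) ℓ t ∧ z = algebraMap A FF a * f} := by
    intro x hx
    exact s34_fc_span_swap A (dvd_mul_right N ℓ) t W
      (fun a => s34_ni_W_const W hWα (a : K)) (heckeAlphaBar K N ℓ x) hx
  have hfrob := s34_fc_hfrob_swap (N' := N) (N := N * ℓ) A hℓ hπ t hCW W hWW hWϖ
    (s34_ni_hWq t W hWα) ((s34_gi_V A (N * ℓ)).comap (W : FF →+* FF)) (fun _ h => h) B hWB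
    (s34_ni_P (algebraMap A FF π) B _ hB₁) (s34_ni_P (algebraMap A FF π) B _ hB₂)
    (fun b h => h) (fun b h => h)
  have hres0 : ∀ x ∈ B, ∃ x' ∈ (s18_chAlg N ℓ A t).toSubring,
      (algebraMap A FF π)⁻¹ * (x - ((W : FF →+* FF).comp (heckeAlphaBar K N ℓ).toRingHom) x') ∈
        (s34_gi_V A (N * ℓ)).comap (W : FF →+* FF) := by
    intro x hx
    obtain ⟨x', hx', h⟩ := hresInf (W x) (hWB x hx)
    refine ⟨x', hx', ?_⟩
    rw [Subring.mem_comap]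
    show W ((algebraMap K FF (π : K))⁻¹ * (x - W (heckeAlphaBar K N ℓ x'))) ∈ s34_gi_V A (N * ℓ)
    rw [map_mul, map_inv₀, hWϖ, map_sub, hWW]
    exact h
  have hsum := s34_n3t_hsum (algebraMap A FF π) B ((s34_gi_V A (N * ℓ)).comap (W : FF →+* FF))
    ((W : FF →+* FF).comp (heckeAlphaBar K N ℓ).toRingHom) (s18_chAlg N ℓ A t).toSubring hB₁B
    (s34_ni_P (algebraMap A FF π) B _ hB₂) (fun b h => h) hres0
  exact s34_n3t_two (A₀ := A) π (s34_ni_dvr_nonunit A hπ) B hAB 𝔪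
    (s34_ni_P (algebraMap A FF π) B _ hB₂) (s34_ni_P (algebraMap A FF π) B _ hB₁) hP2𝔪 hP1𝔪
    (s34_ni_ϖ_mem_P hV₂ hB₂ (hAB π)) hne' ℓ (s34_ni_ell_mem A hℓ hπ B _ hB₂ hAB)
    ((W : FF →+* FF).comp (heckeAlphaBar K N ℓ).toRingHom) (s18_chAlg N ℓ A t).toSubring hch hιϖ
    hB₁B hA₁ ((W : FF → FF) '' s34_fc_C K N (N * ℓ) ℓ t) hCB hspan hfrob hsum hres

/-- **The two components are distinct**: `𝔓0 ⊄ 𝔓∞` and `𝔓∞ ⊄ 𝔓0` (hypotheses `hne` of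
`s34_ni_hx` / `s34_ni_hy`), from a function `x` of level `N` with `α x ∈ B` whose `q`-expansion is
integral with leading term `q^e`, `e ≠ 0`. -/
theorem s34_ni_hne [IsDiscreteValuationRing A] {π : A} (hπ : Irreducible π) (c : A)
    (hℓc : (ℓ : A) = π * c)
    (W : FF ≃+* FF) (hWW : ∀ x, W (W x) = x)
    (hWα : ∀ x : F', W (heckeAlphaBar K N ℓ x) = heckeBetaBar K N ℓ x)
    (B : Subring FF) (hWB : ∀ b ∈ B, W b ∈ B)
    (hB₁ : B ≤ s34_gi_V A (N * ℓ)) (hB₂ : B ≤ (s34_gi_V A (N * ℓ)).comap (W : FF →+* FF))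
    (x : F') (hxB : heckeAlphaBar K N ℓ x ∈ B)
    (T : LaurentSeries ℤ) (hT : (x : LaurentSeries K) = coeffMap (Int.castRingHom K) T)
    (e : ℤ) (he : e ≠ 0) (hlead : T.coeff e = 1) (hlow : ∀ n < e, T.coeff n = 0) :
    (∃ b : B, b ∈ s34_ni_P (algebraMap A FF π) B _ hB₂ ∧
      b ∉ s34_ni_P (algebraMap A FF π) B _ hB₁) ∧
    (∃ b : B, b ∈ s34_ni_P (algebraMap A FF π) B _ hB₁ ∧
      b ∉ s34_ni_P (algebraMap A FF π) B _ hB₂) := by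
  have hWϖ : W (algebraMap K FF (π : K)) = algebraMap K FF (π : K) := s34_ni_W_const W hWα _
  have hWβ : ∀ x : F', W (heckeBetaBar K N ℓ x) = heckeAlphaBar K N ℓ x := by
    intro x
    rw [← hWα, hWW]
  have hx : x ∈ s34_gi_V A N := s34_gz_mem_int x T hT
  have hαx : heckeAlphaBar K N ℓ x ∈ s34_gi_V A (N * ℓ) := (s34_gz_alpha_mem_iff x).mpr hx
  have hTα : ((heckeAlphaBar K N ℓ x : FF) : LaurentSeries K) = coeffMap (Int.castRingHom K) T := by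
    rw [coe_heckeAlphaBar, hT]
  have hℓ2 : 2 ≤ ℓ ^ 2 := by
    have := (Fact.out : ℓ.Prime).two_le
    nlinarith
  have h := s34_gz_ne (V := s34_gi_V A (N * ℓ)) W hWϖ (heckeAlphaBar K N ℓ x) hαx
    (by rw [hWα]; exact s34_gz_beta_mem hx) (by rw [hWα, hWβ]) ℓ
    (by rw [hWα]; exact s34_gz_frob hπ c hℓc x T hT)
    (s34_gi_red A (N * ℓ))
    (fun z hz => (s34_gi_red_eq_zero_iff hπ z).mpr hz)
    (by
      rw [s34_gz_red_int (N := N * ℓ) (heckeAlphaBar K N ℓ x) hαx T hTα]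
      exact s34_gz_pow_ne (ℓ ^ 2) hℓ2 _ (by rw [s34_gz_order_red T e hlead hlow]; exact he))
  rw [hWα] at h
  -- `b₁ = (α x)^ℓ - β x ∈ 𝔓∞ \ 𝔓0`, `b₂ = W b₁ = (β x)^ℓ - α x ∈ 𝔓0 \ 𝔓∞`
  have hβB : heckeBetaBar K N ℓ x ∈ B := by
    rw [← hWα]; exact hWB _ hxB
  have hb₁ : (heckeAlphaBar K N ℓ x) ^ ℓ - heckeBetaBar K N ℓ x ∈ B :=
    B.sub_mem (B.pow_mem hxB ℓ) hβB
  have hb₂ : (heckeBetaBar K N ℓ x) ^ ℓ - heckeAlphaBar K N ℓ x ∈ B :=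
    B.sub_mem (B.pow_mem hβB ℓ) hxB
  have e2 : W ((algebraMap K FF (π : K))⁻¹ *
      ((heckeBetaBar K N ℓ x) ^ ℓ - heckeAlphaBar K N ℓ x)) =
      (algebraMap K FF (π : K))⁻¹ * ((heckeAlphaBar K N ℓ x) ^ ℓ - heckeBetaBar K N ℓ x) := by
    rw [map_mul, map_inv₀, hWϖ, map_sub, map_pow, hWβ, hWα]
  have e1 : W ((algebraMap K FF (π : K))⁻¹ *
      ((heckeAlphaBar K N ℓ x) ^ ℓ - heckeBetaBar K N ℓ x)) =
      (algebraMap K FF (π : K))⁻¹ * ((heckeBetaBar K N ℓ x) ^ ℓ - heckeAlphaBar K N ℓ x) := by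
    rw [map_mul, map_inv₀, hWϖ, map_sub, map_pow, hWβ, hWα]
  refine ⟨⟨⟨_, hb₂⟩, ?_, ?_⟩, ⟨⟨_, hb₁⟩, ?_, ?_⟩⟩
  · show W ((algebraMap K FF (π : K))⁻¹ *
      ((heckeBetaBar K N ℓ x) ^ ℓ - heckeAlphaBar K N ℓ x)) ∈ s34_gi_V A (N * ℓ)
    rw [e2]
    exact h.1
  · intro hcon
    apply h.2
    show W ((algebraMap K FF (π : K))⁻¹ *
      ((heckeAlphaBar K N ℓ x) ^ ℓ - heckeBetaBar K N ℓ x)) ∈ s34_gi_V A (N * ℓ)
    rw [e1]
    exact hcon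
  · exact h.1
  · exact h.2

/-- **The crossing-point hypothesis `hG0` / `hGi` of `s34_pow_of_model`** at one crossing point of
a chart `B` of level `N ℓ` (generic constant field): `s34_ni_hG` with the branch parameters
supplied by `s34_ni_hx`, `s34_ni_hy`, `s34_ni_hne`; `hdvr`, `hdiv`, `hrat` as in `s34_node_G`. -/
theorem s34_ni_hG_xy [IsDiscreteValuationRing A] (hℓ : ((ℓ : K))⁻¹ ∉ A) {π : A}
    (hπ : Irreducible π) (t : modularFunctionFieldFull N)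
    (hCW : ∀ x ∈ s18_czRing N ℓ t, x ∈ Wring ℓ)
    (hch : s18_Chart (algebraMap A F' π) (s18_chAlg N ℓ A t).toSubring)
    (W : FF ≃+* FF) (hWW : ∀ x, W (W x) = x)
    (hWα : ∀ x : F', W (heckeAlphaBar K N ℓ x) = heckeBetaBar K N ℓ x)
    (B : Subring FF) (hAB : ∀ a : A, algebraMap A FF a ∈ B) (hnoeth : IsNoetherianRing B)
    (hfrac : ∀ x : FF, ∃ a ∈ B, ∃ b ∈ B, b ≠ 0 ∧ x = a / b)
    (hWB : ∀ b ∈ B, W b ∈ B)
    (hαB : ∀ x ∈ (s18_chAlg N ℓ A t).toSubring, (heckeAlphaBar K N ℓ).toRingHom x ∈ B)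
    (hB₁ : B ≤ s34_gi_V A (N * ℓ)) (hB₂ : B ≤ (s34_gi_V A (N * ℓ)).comap (W : FF →+* FF))
    (hcap : ∀ x ∈ B, (algebraMap A FF π)⁻¹ * x ∈ s34_gi_V A (N * ℓ) →
      (algebraMap A FF π)⁻¹ * x ∈ (s34_gi_V A (N * ℓ)).comap (W : FF →+* FF) →
      (algebraMap A FF π)⁻¹ * x ∈ B)
    (hresInf : ∀ x ∈ B, ∃ x' ∈ (s18_chAlg N ℓ A t).toSubring,
      (algebraMap A FF π)⁻¹ * (x - (heckeAlphaBar K N ℓ).toRingHom x') ∈ s34_gi_V A (N * ℓ))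
    (x₀ : F') (hx₀B : heckeAlphaBar K N ℓ x₀ ∈ B)
    (T : LaurentSeries ℤ) (hT : (x₀ : LaurentSeries K) = coeffMap (Int.castRingHom K) T)
    (e : ℤ) (he : e ≠ 0) (hlead : T.coeff e = 1) (hlow : ∀ n < e, T.coeff n = 0)
    (p : ℕ) (g : FF) (hg : g ≠ 0)
    (𝔪 : Ideal B) (h𝔪 : 𝔪.IsMaximal)
    (hnode : ∀ s : B, s ∉ 𝔪 → (algebraMap A FF π)⁻¹ * (s : FF) ∉ s34_gi_V A (N * ℓ) ∧
      (algebraMap A FF π)⁻¹ * (s : FF) ∉ (s34_gi_V A (N * ℓ)).comap (W : FF →+* FF))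
    (hdvr : ∀ 𝔮 : Ideal B, 𝔮.IsPrime → 𝔮 ≤ 𝔪 → (⟨algebraMap A FF π, hAB π⟩ : B) ∉ 𝔮 → 𝔮 ≠ ⊥ →
      ¬ (g ∈ s18_loc B 𝔮 ∧ g⁻¹ ∈ s18_loc B 𝔮) →
      ∃ W' : ValuationSubring FF, IsDiscreteValuationRing W' ∧
        ∀ z : FF, z ∈ W' ↔ ∃ a s : B, s ∉ 𝔮 ∧ z = (a : FF) / (s : FF))
    (hdiv : ∀ W' : ValuationSubring FF, IsDiscreteValuationRing W' →
      (∀ a : A, algebraMap A FF a ∈ W') → (algebraMap A FF π)⁻¹ ∈ W' →
      ∃ g' u : FF, u ∈ W' ∧ u⁻¹ ∈ W' ∧ g = u * g' ^ p)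
    (hrat : ∀ 𝔮 : Ideal B, 𝔮.IsPrime → 𝔮 ≤ 𝔪 → (⟨algebraMap A FF π, hAB π⟩ : B) ∉ 𝔮 → 𝔮 ≠ ⊥ →
      ¬ (g ∈ s18_loc B 𝔮 ∧ g⁻¹ ∈ s18_loc B 𝔮) →
      ∃ s : B →+* A, (∀ a : A, s ⟨algebraMap A FF a, hAB a⟩ = a) ∧ RingHom.ker s = 𝔮) :
    ∃ G : FF, G ≠ 0 ∧ ∀ 𝔮 : Ideal B, 𝔮.IsPrime → 𝔮 ≤ 𝔪 →
      (⟨algebraMap A FF π, hAB π⟩ : B) ∉ 𝔮 →
      g * (G⁻¹) ^ p ∈ s18_loc B 𝔮 ∧ G ^ p * g⁻¹ ∈ s18_loc B 𝔮 := by
  have hWϖ : W (algebraMap K FF (π : K)) = algebraMap K FF (π : K) := s34_ni_W_const W hWα _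
  have hV₁ : s34_Unif (algebraMap K FF (π : K)) (s34_gi_V A (N * ℓ)) :=
    s34_gi_unif (N := N * ℓ) hπ
  have hV₂ : s34_Unif (algebraMap K FF (π : K))
      ((s34_gi_V A (N * ℓ)).comap (W : FF →+* FF)) := hV₁.comap W hWϖ
  have h𝔪p : 𝔪.IsPrime := h𝔪.isPrime
  have hle1 : s34_ni_P (algebraMap A FF π) B _ hB₁ ≤ 𝔪 := by
    intro b hb
    by_contra hb𝔪
    exact (hnode b hb𝔪).1 hb
  have hle2 : s34_ni_P (algebraMap A FF π) B _ hB₂ ≤ 𝔪 := by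
    intro b hb
    by_contra hb𝔪
    exact (hnode b hb𝔪).2 hb
  obtain ⟨c, hc⟩ := s34_ni_dvr_nonunit A hπ ((ℓ : ℕ) : A) (s18_ell_mem_maximalIdeal ℓ A hℓ)
  obtain ⟨hne₁, hne₂⟩ := s34_ni_hne A hπ c hc W hWW hWα B hWB hB₁ hB₂ x₀ hx₀B T hT
    e he hlead hlow
  exact s34_ni_hG π hπ B hAB hnoeth hfrac _ _ hV₁ hV₂ hB₁ hB₂ hcap p g hg 𝔪 h𝔪 hnode
    (fun hres _ => s34_ni_hx A hℓ hπ t hCW hch W hWW hWα B hAB hWB hαB hB₁ hB₂
      hresInf hne₁ 𝔪 h𝔪p hle1 hle2 hres)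
    (fun hres _ => s34_ni_hy A hℓ hπ t hCW hch W hWW hWα B hAB hWB hαB hB₁ hB₂
      hresInf hne₂ 𝔪 h𝔪p hle1 hle2 hres)
    hdvr hdiv hrat

end Fermat.Agent.S34
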