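import Mathlib
import Fermat.Prelude.Def_ModularCurve_HeckeOperator
import Fermat.Agent.S34.GaussInf
import Fermat.Agent.S34.GaussZeroModel
import Fermat.Agent.S34.AwayRegSwap

/-!
# S34 (NODE), leaf (REG), generic model form: regularity at the smooth points

Model: `K` a field of characteristic zero, `A₁` a discrete valuation ring of `K` with uniformizer
`π`, `F' = K · F_N`, `F = K · F_(N ℓ)`, `α = heckeAlphaBar K N ℓ : F' → F` the inclusion,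
`V' = s34_gi_V A₁ N`, `V∞ = s34_gi_V A₁ (N ℓ)`, `W` the swap, `V0 = V∞.comap W`.

`s34_rg_reg` : for a chart `B ⊆ F` (one of the two integral-closure charts of level `N ℓ`) and
the native S18 chart `B₁ ⊆ F'` of level `N`, the hypothesis `hsm0` / `hsmi` of
`s34_pow_of_model` / `s34_two_chart_components` with `V₁ = V∞`, `V₂ = V0`, from

* `(B1)` : `s18_Chart π B₁`; `V' ⊆ s18_gauss π B₁`; `x ∈ V'`, `π x ∈ B₁ ⟹ x ∈ B₁`;
  `α B₁ ⊆ B`; `B` integral over `α B₁`;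
* `(WST)` : `W B ⊆ B`, `W⁻¹ B ⊆ B`;  `(CAP)` : `B ∩ π (V∞ ∩ V0) = π B`;
* `(EXT)(c)` : `κ(V∞) = κ(V')`, i.e. every `y ∈ B` is congruent mod `π V∞` to `α y'`, `y' ∈ V'`.
-/

set_option autoImplicit false
set_option linter.unusedSectionVars false

open ModularCurve

noncomputable section

namespace Fermat.Agent.S34

open Fermat.Agent.S18

variable {K : Type*} [Field K] [Algebra ℚ K] {A₁ : ValuationSubring K}
variable {N ℓ : ℕ} [NeZero N] [NeZero ℓ]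
variable [IsDiscreteValuationRing A₁] {π : A₁}

local notation "F'" => laurentBaseChange K (modularFunctionFieldFull N)
local notation "FF" => laurentBaseChange K (modularFunctionFieldFull (N * ℓ))

/-- `α π = π`. -/
theorem s34_rg_alpha_pi :
    (heckeAlphaBar K N ℓ).toRingHom (algebraMap K F' (π : K)) = algebraMap K FF (π : K) :=
  (heckeAlphaBar K N ℓ).commutes (π : K)

/-- The hypothesis `hgauss` of `s34_res_two` in the model: `α⁻¹(π V∞) ∩ B₁ = π B₁`. -/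
theorem s34_rg_hgauss (B₁ : Subring F')
    (hB₁V : ∀ x ∈ s34_gi_V A₁ N, algebraMap K F' (π : K) * x ∈ B₁ → x ∈ B₁)
    (hπ0 : algebraMap K F' (π : K) ≠ 0) (b : F') (hb : b ∈ B₁)
    (h : (algebraMap K FF (π : K))⁻¹ * (heckeAlphaBar K N ℓ).toRingHom b ∈
      s34_gi_V A₁ (N * ℓ)) :
    (algebraMap K F' (π : K))⁻¹ * b ∈ B₁ := by
  apply hB₁V
  · rw [← s34_gz_alpha_mem_iff (ℓ := ℓ)]
    have e : heckeAlphaBar K N ℓ ((algebraMap K F' (π : K))⁻¹ * b) =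
        (algebraMap K FF (π : K))⁻¹ * (heckeAlphaBar K N ℓ).toRingHom b := by
      rw [map_mul, map_inv₀, AlgHom.commutes]
      rfl
    rw [e]
    exact h
  · rw [← mul_assoc, mul_inv_cancel₀ hπ0, one_mul]
    exact hb

/-- **(REG-inst)** the hypothesis `hsm0` / `hsmi` of `s34_pow_of_model` for a chart `B` of level
`N ℓ`, with `V₁ = V∞ = s34_gi_V A₁ (N ℓ)` and `V₂ = V0 = V∞.comap W`. -/
theorem s34_rg_reg (hπ : Irreducible π) (B₁ : Subring F')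
    (hB₁ : s18_Chart (algebraMap K F' (π : K)) B₁)
    (hgaussV : ∀ x ∈ s34_gi_V A₁ N, x ∈ s18_gauss (algebraMap K F' (π : K)) B₁)
    (hB₁V : ∀ x ∈ s34_gi_V A₁ N, algebraMap K F' (π : K) * x ∈ B₁ → x ∈ B₁)
    (B : Subring FF) (hαB : ∀ x ∈ B₁, (heckeAlphaBar K N ℓ).toRingHom x ∈ B)
    (hint : ∀ x ∈ B, ∃ P : Polynomial B₁, P.Monic ∧
      P.eval₂ ((heckeAlphaBar K N ℓ).toRingHom.comp B₁.subtype) x = 0)
    (hBV : B ≤ s34_gi_V A₁ (N * ℓ)) (hϖB : algebraMap K FF (π : K) ∈ B)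
    (W : FF ≃+* FF) (hWϖ : W (algebraMap K FF (π : K)) = algebraMap K FF (π : K))
    (hWB : ∀ x ∈ B, W x ∈ B) (hWB' : ∀ x ∈ B, W.symm x ∈ B)
    (hcap : ∀ x ∈ B, (algebraMap K FF (π : K))⁻¹ * x ∈ s34_gi_V A₁ (N * ℓ) →
      (algebraMap K FF (π : K))⁻¹ * x ∈ (s34_gi_V A₁ (N * ℓ)).comap (W : FF →+* FF) →
      (algebraMap K FF (π : K))⁻¹ * x ∈ B)
    (hκ : ∀ y ∈ B, ∃ y' ∈ s34_gi_V A₁ N,
      (algebraMap K FF (π : K))⁻¹ * (y - (heckeAlphaBar K N ℓ).toRingHom y') ∈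
        s34_gi_V A₁ (N * ℓ))
    (f : B)
    (hf : (algebraMap K FF (π : K))⁻¹ * (f : FF) ∈ s34_gi_V A₁ (N * ℓ) ∨
      (algebraMap K FF (π : K))⁻¹ * (f : FF) ∈ (s34_gi_V A₁ (N * ℓ)).comap (W : FF →+* FF))
    (𝔫 : Ideal (s34_away B (f : FF) f.2)) (h𝔫 : 𝔫.IsMaximal)
    (hϖ𝔫 : (⟨algebraMap K FF (π : K), s34_le_away B (f : FF) f.2 hϖB⟩ :
      s34_away B (f : FF) f.2) ∈ 𝔫) :
    ∃ s ∈ 𝔫, ∀ x ∈ 𝔫, ∃ u, u ∉ 𝔫 ∧ u * x ∈ Ideal.span
      {(⟨algebraMap K FF (π : K), s34_le_away B (f : FF) f.2 hϖB⟩ :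
        s34_away B (f : FF) f.2), s} :=
  s34_sm_reg_model_of_eq (heckeAlphaBar K N ℓ).toRingHom B₁ hB₁ s34_rg_alpha_pi W hWϖ
    (s34_gi_unif hπ) hBV hWB hWB' hϖB hcap hαB
    (fun b hb h => s34_rg_hgauss B₁ hB₁V hB₁.ϖ_ne b hb h) hint
    (fun y hy => by
      obtain ⟨y', hy', h⟩ := hκ y hy
      exact ⟨y', hgaussV y' hy', h⟩)
    f hf 𝔫 h𝔫 hϖ𝔫

end Fermat.Agent.S34
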