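import Mathlib
import Fermat.Agent.S34.NodeInstModel
import Fermat.Agent.S34.NodeInstXY
import Fermat.Agent.S34.RegGen

/-!
# S34 (NODE), sub-assembly (INST-node), part 4: the crossing-point hypothesis `hG0` / `hGi`

Model: `K₁ ⊆ Q̄`, `A₁ = A ∩ K₁` a DVR with uniformizer `π` (`ℓ` not a unit), `F' = K₁ · F_N`,
`F = K₁ · F_(N ℓ)`, `α = heckeAlphaBar K₁ N ℓ`, `β = heckeBetaBar K₁ N ℓ`, `W` a swap of `F`,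
`V₁ = V∞ = s34_gi_V A₁ (N ℓ)`, `V₂ = V0 = V∞.comap W`, `B₁ = s18_chAlg N ℓ A₁ t` the native S18
chart of level `N`, `B ⊆ F` a `W`-stable chart of level `N ℓ` containing `α B₁`.

* `s34_ni_hresInf` : `B = α(B₁) + (B ∩ ϖ V∞)` from the inputs of `s34_rg_reg` (`(RES)`);
* `s34_ni_hG_full` : the hypothesis `hG0` / `hGi` of `s34_pow_of_model` at one crossing point,
  with `hx`, `hy` of `s34_ni_hG_model` discharged by `s34_ni_hx`, `s34_ni_hy`, `s34_ni_hne`.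
-/

set_option autoImplicit false
set_option synthInstance.maxHeartbeats 400000
set_option linter.unusedSectionVars false

open ModularCurve AlgebraicCurve

noncomputable section

namespace Fermat.Agent.S34

open Fermat.Agent.S18 Fermat.Agent.S28

section Res

variable {K : Type*} [Field K] [Algebra ℚ K] (A : ValuationSubring K)
variable {N ℓ : ℕ} [NeZero N] [NeZero ℓ] [Fact ℓ.Prime]

local notation "F'" => laurentBaseChange K (modularFunctionFieldFull N)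
local notation "FF" => laurentBaseChange K (modularFunctionFieldFull (N * ℓ))

/-- **(RES) in the model**: `B = α(B₁) + (B ∩ ϖ V∞)`, the hypothesis `hresInf` of `s34_ni_hx` /
`s34_ni_hy`, from the inputs of `s34_rg_reg`. -/
theorem s34_ni_hresInf [IsDiscreteValuationRing A] {π : A} (hπ : Irreducible π)
    (B₁ : Subring F') (hch : s18_Chart (algebraMap A F' π) B₁)
    (hgaussV : ∀ x ∈ s34_gi_V A N, x ∈ s18_gauss (algebraMap A F' π) B₁)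
    (hB₁V : ∀ x ∈ s34_gi_V A N, algebraMap A F' π * x ∈ B₁ → x ∈ B₁)
    (B : Subring FF) (hαB : ∀ x ∈ B₁, (heckeAlphaBar K N ℓ).toRingHom x ∈ B)
    (hint : ∀ x ∈ B, ∃ P : Polynomial B₁, P.Monic ∧
      P.eval₂ ((heckeAlphaBar K N ℓ).toRingHom.comp B₁.subtype) x = 0)
    (hBV : B ≤ s34_gi_V A (N * ℓ))
    (hκ : ∀ y ∈ B, ∃ y' ∈ s34_gi_V A N,
      (algebraMap A FF π)⁻¹ * (y - (heckeAlphaBar K N ℓ).toRingHom y') ∈ s34_gi_V A (N * ℓ)) :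
    ∀ x ∈ B, ∃ x' ∈ B₁,
      (algebraMap A FF π)⁻¹ * (x - (heckeAlphaBar K N ℓ).toRingHom x') ∈ s34_gi_V A (N * ℓ) :=
  s34_res_two_of_eq (heckeAlphaBar K N ℓ).toRingHom B₁ hch
    (ϖ := algebraMap K FF (π : K)) s34_rg_alpha_pi B (s34_gi_V A (N * ℓ))
    (s34_gi_unif (N := N * ℓ) hπ) hαB hBV
    (fun b hb h => s34_rg_hgauss B₁ hB₁V hch.ϖ_ne b hb h) hint
    (fun y hy => by
      obtain ⟨y', hy', h⟩ := hκ y hy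
      exact ⟨y', hgaussV y' hy', h⟩)

end Res

/-- **The crossing-point hypothesis `hG0` / `hGi` of `s34_pow_of_model`** at one crossing point
`𝔪` of a chart `B` of level `N ℓ`, in the model. -/
theorem s34_ni_hG_full (N ℓ : ℕ) [NeZero N] [NeZero ℓ] [Fact ℓ.Prime]
    (A : ValuationSubring (AlgebraicClosure ℚ))
    (K₁ : IntermediateField ℚ (AlgebraicClosure ℚ)) [IsDiscreteValuationRing (s18_A1 A K₁)]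
    {π : s18_A1 A K₁} (hπ : Irreducible π) (hℓ : ((ℓ : K₁))⁻¹ ∉ s18_A1 A K₁)
    -- the native chart of level `N`
    (t : modularFunctionFieldFull N) (hCW : ∀ x ∈ s18_czRing N ℓ t, x ∈ Wring ℓ)
    (hch : s18_Chart (algebraMap (s18_A1 A K₁) (s18_F1 K₁ N) π)
      (s18_chAlg N ℓ (s18_A1 A K₁) t).toSubring)
    -- the swap
    (W : s18_F1 K₁ (N * ℓ) ≃+* s18_F1 K₁ (N * ℓ)) (hWW : ∀ x, W (W x) = x)
    (hWα : ∀ x : s18_F1 K₁ N, W (heckeAlphaBar K₁ N ℓ x) = heckeBetaBar K₁ N ℓ x)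
    -- the chart of level `N ℓ`
    (B : Subring (s18_F1 K₁ (N * ℓ)))
    (hAB : ∀ a : s18_A1 A K₁, algebraMap (s18_A1 A K₁) (s18_F1 K₁ (N * ℓ)) a ∈ B)
    (hnoeth : IsNoetherianRing B)
    (hfrac : ∀ x : s18_F1 K₁ (N * ℓ), ∃ a ∈ B, ∃ b ∈ B, b ≠ 0 ∧ x = a / b)
    (hWB : ∀ b ∈ B, W b ∈ B)
    (hαB : ∀ x ∈ (s18_chAlg N ℓ (s18_A1 A K₁) t).toSubring,
      (heckeAlphaBar K₁ N ℓ).toRingHom x ∈ B)
    (hB₁ : B ≤ s34_gi_V (s18_A1 A K₁) (N * ℓ))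
    (hB₂ : B ≤ (s34_gi_V (s18_A1 A K₁) (N * ℓ)).comap
      (W : s18_F1 K₁ (N * ℓ) →+* s18_F1 K₁ (N * ℓ)))
    (hcap : ∀ x ∈ B, (algebraMap (s18_A1 A K₁) (s18_F1 K₁ (N * ℓ)) π)⁻¹ * x ∈
        s34_gi_V (s18_A1 A K₁) (N * ℓ) →
      (algebraMap (s18_A1 A K₁) (s18_F1 K₁ (N * ℓ)) π)⁻¹ * x ∈
        (s34_gi_V (s18_A1 A K₁) (N * ℓ)).comap
          (W : s18_F1 K₁ (N * ℓ) →+* s18_F1 K₁ (N * ℓ)) →
      (algebraMap (s18_A1 A K₁) (s18_F1 K₁ (N * ℓ)) π)⁻¹ * x ∈ B)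
    (hresInf : ∀ x ∈ B, ∃ x' ∈ (s18_chAlg N ℓ (s18_A1 A K₁) t).toSubring,
      (algebraMap (s18_A1 A K₁) (s18_F1 K₁ (N * ℓ)) π)⁻¹ *
        (x - (heckeAlphaBar K₁ N ℓ).toRingHom x') ∈ s34_gi_V (s18_A1 A K₁) (N * ℓ))
    -- a function of level `N` with integral `q`-expansion of nonzero order (components distinct)
    (x₀ : s18_F1 K₁ N) (hx₀B : heckeAlphaBar K₁ N ℓ x₀ ∈ B)
    (T : LaurentSeries ℤ) (hT : (x₀ : LaurentSeries K₁) = coeffMap (Int.castRingHom K₁) T)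
    (e : ℤ) (he : e ≠ 0) (hlead : T.coeff e = 1) (hlow : ∀ n < e, T.coeff n = 0)
    -- the function
    (m : ℕ) (g₁ : s18_F1 K₁ (N * ℓ)) (hg₁ : g₁ ≠ 0)
    (hdivg : ∀ P : Place (AlgebraicClosure ℚ) (modularFunctionFieldBar (N * ℓ)),
      (m : ℤ) ∣ P.ord (s18_baseIncl K₁ (N * ℓ) g₁))
    (hfix : ∀ P : Place (AlgebraicClosure ℚ) (modularFunctionFieldBar (N * ℓ)),
      P.ord (s18_baseIncl K₁ (N * ℓ) g₁) ≠ 0 →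
      ∀ σ : AlgebraicClosure ℚ ≃ₐ[ℚ] AlgebraicClosure ℚ, (∀ c ∈ K₁, σ c = c) →
        arithmeticGalois (modularFunctionFieldFull (N * ℓ)) σ • P = P)
    (hdvrB : ∀ 𝔮 : Ideal B, 𝔮.IsPrime →
      (⟨algebraMap (s18_A1 A K₁) (s18_F1 K₁ (N * ℓ)) π, hAB π⟩ : B) ∉ 𝔮 → 𝔮 ≠ ⊥ →
      ∃ W' : ValuationSubring (s18_F1 K₁ (N * ℓ)), IsDiscreteValuationRing W' ∧
        ∀ z : s18_F1 K₁ (N * ℓ), z ∈ W' ↔
          ∃ a s : B, s ∉ 𝔮 ∧ z = (a : s18_F1 K₁ (N * ℓ)) / (s : s18_F1 K₁ (N * ℓ)))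
    -- the crossing point
    (𝔪 : Ideal B) (h𝔪 : 𝔪.IsMaximal)
    (hϖ𝔪 : (⟨algebraMap (s18_A1 A K₁) (s18_F1 K₁ (N * ℓ)) π, hAB π⟩ : B) ∈ 𝔪)
    (hnode : ∀ s : B, s ∉ 𝔪 →
      (algebraMap (s18_A1 A K₁) (s18_F1 K₁ (N * ℓ)) π)⁻¹ * (s : s18_F1 K₁ (N * ℓ)) ∉
        s34_gi_V (s18_A1 A K₁) (N * ℓ) ∧
      (algebraMap (s18_A1 A K₁) (s18_F1 K₁ (N * ℓ)) π)⁻¹ * (s : s18_F1 K₁ (N * ℓ)) ∉
        (s34_gi_V (s18_A1 A K₁) (N * ℓ)).comap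
          (W : s18_F1 K₁ (N * ℓ) →+* s18_F1 K₁ (N * ℓ))) :
    ∃ G : s18_F1 K₁ (N * ℓ), G ≠ 0 ∧ ∀ 𝔮 : Ideal B, 𝔮.IsPrime → 𝔮 ≤ 𝔪 →
      (⟨algebraMap (s18_A1 A K₁) (s18_F1 K₁ (N * ℓ)) π, hAB π⟩ : B) ∉ 𝔮 →
      g₁ * (G⁻¹) ^ m ∈ s18_loc B 𝔮 ∧ G ^ m * g₁⁻¹ ∈ s18_loc B 𝔮 := by
  refine s34_ni_hG_xy (s18_A1 A K₁) hℓ hπ t hCW hch W hWW hWα B hAB hnoeth hfrac hWB hαB hB₁ hB₂
    hcap hresInf x₀ hx₀B T hT e he hlead hlow m g₁ hg₁ 𝔪 h𝔪 hnode ?_ ?_ ?_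
  · intro 𝔮 h𝔮 _ hϖ𝔮 h𝔮0 _
    exact hdvrB 𝔮 h𝔮 hϖ𝔮 h𝔮0
  · intro W' hW' hA hπW
    exact s18_d3_hdiv K₁ (N * ℓ) m g₁ hg₁ hdivg W' hW'
      (s18_K_mem_of_A1 (N * ℓ) A K₁ hπ W' hA hπW)
  · intro 𝔮 h𝔮 h𝔮𝔪 hϖ𝔮 h𝔮0 hbad
    exact s34_rp_hrat (N * ℓ) A K₁ hπ g₁ hfix B hAB 𝔪 h𝔪.ne_top hϖ𝔪 𝔮 h𝔮 h𝔮𝔪 hϖ𝔮
      (hdvrB 𝔮 h𝔮 hϖ𝔮 h𝔮0) hbad

end Fermat.Agent.S34
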