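import Mathlib
import Fermat.Agent.S34.InstDefs
import Fermat.Agent.S34.RegExt
import Fermat.Agent.S34.NodeInstFull
import Fermat.Agent.S18.ChartZLead

/-!
# S34, block (INST), contract item 7: `s34_ct_xy`

`s34_xi_ct_xy` : the branch-parameter item `s34_ct_xy` of the contract of the concrete nodal model
(`InstDefs.lean`), from helper16's `s34_ni_hx`, `s34_ni_hy`, `s34_ni_hne` (`NodeInstXY.lean`) and
`s34_ni_hresInf` (`NodeInstFull.lean`), with all their inputs discharged in the model: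

* the S18 chart package of level `N₁` for the Hauptmoduln `t₂`, `t₃` and their inverses;
* `B ≤ V∞`, `α(B₁) ⊆ B`, integrality of `B` over `α(B₁)` (`RegInst.lean`);
* `κ(V∞) = κ(V')` (`RegExt.lean`, from helper28's `s34_ei_model_haupt`);
* the stability of the integral-closure charts under the swap (helper21's `s34_ws_chart_stable`).
-/

set_option autoImplicit false
set_option synthInstance.maxHeartbeats 400000
set_option maxHeartbeats 4000000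
set_option linter.unusedSectionVars false
set_option linter.unusedVariables false

open ModularCurve ModularCurve.IgusaScheme Fermat.Agent.S28

noncomputable section

namespace Fermat.Agent.S34

open Fermat.Agent.S18

section Generic

variable {N : ℕ} [NeZero N] {ℓ : ℕ} [NeZero ℓ] [Fact ℓ.Prime]
variable {K : Type*} [Field K] [Algebra ℚ K] {A : ValuationSubring K}
variable {t : modularFunctionFieldFull N}
variable [IsDiscreteValuationRing A] {π : A}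

local notation "F'" => laurentBaseChange K (modularFunctionFieldFull N)
local notation "FF" => laurentBaseChange K (modularFunctionFieldFull (N * ℓ))

/-- **(RES) for the integral-closure chart**: `B = α(B₁) + (B ∩ π V∞)`. -/
theorem s34_xi_hresInf (hR : s18_ResBasis ℓ A π) (h : s18_cz_Coord N ℓ t)
    {B : Subring (LaurentSeries ℚ)} (hB : CoreData N ℓ B)
    (hchart : s18_Chart (algebraMap A F' π) (s18_chAlg N ℓ A t).toSubring)
    (hsm : s18_SmHyp π (s18_coord K t) (s18_chAlg N ℓ A t))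
    (hκ : ∀ y ∈ s34_gi_V A (N * ℓ), ∃ y' ∈ s34_gi_V A N,
      (algebraMap A FF π)⁻¹ * (y - heckeAlphaBar K N ℓ y') ∈ s34_gi_V A (N * ℓ)) :
    ∀ x ∈ (s34_ic_chart A (heckeAlphaBar K N ℓ (s18_coord K t))).toSubring,
      ∃ x' ∈ (s18_chAlg N ℓ A t).toSubring,
        (algebraMap A FF π)⁻¹ * (x - (heckeAlphaBar K N ℓ).toRingHom x') ∈ s34_gi_V A (N * ℓ) :=
  s34_ni_hresInf A hR.irr (s18_chAlg N ℓ A t).toSubring hchart
    (fun x hx => (s34_lg_mem_gauss_iff hR h hB x).mpr hx)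
    (fun x hx hπx => s34_lg_cap_pow hR h hB 1 hx (by rw [pow_one]; exact hπx))
    (s34_ic_chart A (heckeAlphaBar K N ℓ (s18_coord K t))).toSubring
    (fun x hx => s34_lc_incl_mem_ic ℓ hsm x hx)
    (s34_ri_hint ℓ hsm) (s34_ri_ic_le_V ℓ hR h hB)
    (fun y hy => hκ y (s34_ri_ic_le_V ℓ hR h hB hy))

/-- **(xy) for one integral-closure chart** `B = s34_ic_chart A T`, `T = α t`. -/
theorem s34_xi_xy (hR : s18_ResBasis ℓ A π) (h : s18_cz_Coord N ℓ t)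
    {B : Subring (LaurentSeries ℚ)} (hB : CoreData N ℓ B)
    (hchart : s18_Chart (algebraMap A F' π) (s18_chAlg N ℓ A t).toSubring)
    (hsm : s18_SmHyp π (s18_coord K t) (s18_chAlg N ℓ A t))
    (T : FF) (hT : heckeAlphaBar K N ℓ (s18_coord K t) = T)
    (W : FF ≃+* FF) (hWW : ∀ x, W (W x) = x)
    (hWα : ∀ x : F', W (heckeAlphaBar K N ℓ x) = heckeBetaBar K N ℓ x)
    (hWB : ∀ x ∈ (s34_ic_chart A T).toSubring, W x ∈ (s34_ic_chart A T).toSubring)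
    (hκ : ∀ y ∈ s34_gi_V A (N * ℓ), ∃ y' ∈ s34_gi_V A N,
      (algebraMap A FF π)⁻¹ * (y - heckeAlphaBar K N ℓ y') ∈ s34_gi_V A (N * ℓ))
    (Ts : LaurentSeries ℤ) (hTs : (t : LaurentSeries ℚ) = coeffMap (Int.castRingHom ℚ) Ts)
    (e : ℤ) (he : e ≠ 0) (hlead : IsLeading Ts e 1)
    (hB₁ : (s34_ic_chart A T).toSubring ≤ s34_gi_V A (N * ℓ))
    (hB₂ : (s34_ic_chart A T).toSubring ≤ (s34_gi_V A (N * ℓ)).comap (W : FF →+* FF)) :
    s34_md_XY π (s34_ic_chart A T) (s34_gi_V A (N * ℓ))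
      ((s34_gi_V A (N * ℓ)).comap (W : FF →+* FF)) hB₁ hB₂ := by
  subst hT
  have hℓ : ((ℓ : K))⁻¹ ∉ A := hR.unit
  have hπ : Irreducible π := hR.irr
  have hCW : ∀ x ∈ s18_czRing N ℓ t, x ∈ Wring ℓ := by
    intro x hx
    rw [s18_Wring_eq]
    exact s18_czRing_le_W h hB x hx
  have hAB : ∀ a : A, algebraMap A FF a ∈
      (s34_ic_chart A (heckeAlphaBar K N ℓ (s18_coord K t))).toSubring :=
    fun a => (s34_ic_chart A (heckeAlphaBar K N ℓ (s18_coord K t))).algebraMap_mem a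
  have hαB : ∀ x ∈ (s18_chAlg N ℓ A t).toSubring, (heckeAlphaBar K N ℓ).toRingHom x ∈
      (s34_ic_chart A (heckeAlphaBar K N ℓ (s18_coord K t))).toSubring :=
    fun x hx => s34_lc_incl_mem_ic ℓ hsm x hx
  have hresInf := s34_xi_hresInf hR h hB hchart hsm hκ
  obtain ⟨c, hc⟩ := s34_ni_dvr_nonunit A hπ ((ℓ : ℕ) : A) (s18_ell_mem_maximalIdeal ℓ A hℓ)
  obtain ⟨hne₁, hne₂⟩ := s34_ni_hne A hπ c hc W hWW hWα
    (s34_ic_chart A (heckeAlphaBar K N ℓ (s18_coord K t))).toSubring hWB hB₁ hB₂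
    (s18_coord K t) (hαB _ (s18_coord_mem t)) Ts (s18_coe_coord_eq Ts hTs) e he hlead.1 hlead.2
  intro 𝔪 h𝔪 hϖ𝔪 hnode hres hker
  have hle1 : s34_ni_P (algebraMap A FF π) _ _ hB₁ ≤ 𝔪 := by
    intro b hb
    by_contra hb𝔪
    exact (hnode b hb𝔪).1 hb
  have hle2 : s34_ni_P (algebraMap A FF π) _ _ hB₂ ≤ 𝔪 := by
    intro b hb
    by_contra hb𝔪
    exact (hnode b hb𝔪).2 hb
  exact ⟨s34_ni_hx A hℓ hπ t hCW hchart W hWW hWα _ hAB hWB hαB hB₁ hB₂ hresInf hne₁ 𝔪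
      h𝔪.isPrime hle1 hle2 hres,
    s34_ni_hy A hℓ hπ t hCW hchart W hWW hWα _ hAB hWB hαB hB₁ hB₂ hresInf hne₂ 𝔪
      h𝔪.isPrime hle1 hle2 hres⟩

end Generic

section Model

variable (N₁ : ℕ) [NeZero N₁] (q : ℕ) [NeZero q] [Fact q.Prime]
  (A : ValuationSubring (AlgebraicClosure ℚ)) (hA : A.LiesOverPrime q)
  (K₁ : IntermediateField ℚ (AlgebraicClosure ℚ)) [NumberField K₁] [IsGalois ℚ K₁]
  [IsDiscreteValuationRing (s18_A1 A K₁)]

include hA in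
/-- **(xy), one coordinate**: the branch parameters at the rational crossing points of both
integral-closure charts of the model at level `N₁ * q`, from the S18 chart package of a coordinate
`t₀` of level `N₁` and the swap `W`. -/
theorem s34_xi_model_coord (hqN : ¬ q ∣ N₁) (M : ℕ) (hqM : q ≠ M) (hMN : M ∣ N₁)
    (hM23 : 2 ∣ N₁ ∨ 3 ∣ N₁)
    {π : s18_A1 A K₁} (hπ : Irreducible π)
    (t₀ : modularFunctionFieldFull N₁) (tL : modularFunctionFieldFull (N₁ * q))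
    (htL : (tL : LaurentSeries ℚ) = (t₀ : LaurentSeries ℚ))
    (h : s18_cz_Coord N₁ q t₀)
    (hT : s18_TwoChart π (s18_coord K₁ t₀) (s18_chAlg N₁ q (s18_A1 A K₁) t₀)
      (s18_chAlg N₁ q (s18_A1 A K₁) t₀⁻¹))
    (hP : s18_ChartPkg π (s18_coord K₁ t₀) (s18_chAlg N₁ q (s18_A1 A K₁) t₀)
      (s18_chAlg N₁ q (s18_A1 A K₁) t₀⁻¹))
    (hHaupt : Fermat.Agent.S37.s37_IsHaupt M (s18_baseIncl K₁ (N₁ * q) (s18_coord K₁ tL)))
    (Ts Ti : LaurentSeries ℤ)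
    (hTs : (t₀ : LaurentSeries ℚ) = coeffMap (Int.castRingHom ℚ) Ts)
    (hTi : ((t₀⁻¹ : modularFunctionFieldFull N₁) : LaurentSeries ℚ) =
      coeffMap (Int.castRingHom ℚ) Ti)
    (e e' : ℤ) (he : e ≠ 0) (he' : e' ≠ 0) (hlead : IsLeading Ts e 1) (hlead' : IsLeading Ti e' 1)
    (W : s18_F1 K₁ (N₁ * q) ≃+* s18_F1 K₁ (N₁ * q))
    (hWc : ∀ c : K₁, W (algebraMap K₁ (s18_F1 K₁ (N₁ * q)) c) =
      algebraMap K₁ (s18_F1 K₁ (N₁ * q)) c)
    (hWα : ∀ x : s18_F1 K₁ N₁, W (heckeAlphaBar K₁ N₁ q x) = heckeBetaBar K₁ N₁ q x)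
    (hWβ : ∀ x : s18_F1 K₁ N₁, W (heckeBetaBar K₁ N₁ q x) = heckeAlphaBar K₁ N₁ q x)
    (hWW : ∀ x : s18_F1 K₁ (N₁ * q), W (W x) = x)
    (h01 : (s34_ic_chart (s18_A1 A K₁) (s18_coord K₁ tL)).toSubring ≤
      s34_gi_V (s18_A1 A K₁) (N₁ * q))
    (h02 : (s34_ic_chart (s18_A1 A K₁) (s18_coord K₁ tL)).toSubring ≤
      (s34_gi_V (s18_A1 A K₁) (N₁ * q)).comap
        (W : s18_F1 K₁ (N₁ * q) →+* s18_F1 K₁ (N₁ * q)))
    (hi1 : (s34_ic_chart (s18_A1 A K₁) (s18_coord K₁ tL)⁻¹).toSubring ≤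
      s34_gi_V (s18_A1 A K₁) (N₁ * q))
    (hi2 : (s34_ic_chart (s18_A1 A K₁) (s18_coord K₁ tL)⁻¹).toSubring ≤
      (s34_gi_V (s18_A1 A K₁) (N₁ * q)).comap
        (W : s18_F1 K₁ (N₁ * q) →+* s18_F1 K₁ (N₁ * q))) :
    s34_md_XY π (s34_ic_chart (s18_A1 A K₁) (s18_coord K₁ tL))
        (s34_gi_V (s18_A1 A K₁) (N₁ * q))
        ((s34_gi_V (s18_A1 A K₁) (N₁ * q)).comap
          (W : s18_F1 K₁ (N₁ * q) →+* s18_F1 K₁ (N₁ * q))) h01 h02 ∧
      s34_md_XY π (s34_ic_chart (s18_A1 A K₁) (s18_coord K₁ tL)⁻¹)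
        (s34_gi_V (s18_A1 A K₁) (N₁ * q))
        ((s34_gi_V (s18_A1 A K₁) (N₁ * q)).comap
          (W : s18_F1 K₁ (N₁ * q) →+* s18_F1 K₁ (N₁ * q))) hi1 hi2 := by
  have hq : q.Prime := Fact.out
  have hR : s18_ResBasis q (s18_A1 A K₁) π := s18_a1_resbasis A hA K₁ π hπ
  obtain ⟨B, hB⟩ := core N₁ q hqN
  -- the coordinate at the two levels
  have hcoord : heckeAlphaBar K₁ N₁ q (s18_coord K₁ t₀) = s18_coord K₁ tL :=
    s34_lc_incl_coord q tL htL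
  have hcoord' : heckeAlphaBar K₁ N₁ q (s18_coord K₁ t₀⁻¹) = (s18_coord K₁ tL)⁻¹ := by
    rw [s18_coord_inv, map_inv₀, hcoord]
  -- the swap
  have hWt : ((W (s18_coord K₁ tL) : s18_F1 K₁ (N₁ * q)) : LaurentSeries K₁) =
      qExpand K₁ q ((s18_coord K₁ tL : s18_F1 K₁ (N₁ * q)) : LaurentSeries K₁) := by
    rw [← hcoord, hWα, coe_heckeBetaBar, coe_heckeAlphaBar]
  obtain ⟨hW0, hWi⟩ := s34_ws_chart_stable N₁ q M hq hqN hqM hMN A hA K₁ (s18_coord K₁ tL) hHaupt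
    (W : s18_F1 K₁ (N₁ * q) →+* s18_F1 K₁ (N₁ * q)) hWc hWt
  have hsmInf : s18_SmHyp π (s18_coord K₁ t₀⁻¹) (s18_chAlg N₁ q (s18_A1 A K₁) t₀⁻¹) := by
    rw [s18_coord_inv]
    exact hP.smInf
  have hchInf : s18_Chart (algebraMap (s18_A1 A K₁) (s18_F1 K₁ N₁) π)
      (s18_chAlg N₁ q (s18_A1 A K₁) t₀⁻¹).toSubring := hT.chartInf
  have hκ := s34_rx_hres N₁ q A hA K₁ hqN hM23 hπ W hWc hWα hWβ
  exact ⟨s34_xi_xy hR h hB hT.chart0 hP.sm0 (s18_coord K₁ tL) hcoord W hWW hWα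
      (fun x hx => hW0 x hx) hκ Ts hTs e he hlead h01 h02,
    s34_xi_xy hR h.inv hB hchInf hsmInf (s18_coord K₁ tL)⁻¹ hcoord' W hWW hWα
      (fun x hx => hWi x hx) hκ Ti hTi e' he' hlead' hi1 hi2⟩

end Model

/-- **Contract item 7**: `s34_ct_xy`. -/
theorem s34_xi_ct_xy : s34_ct_xy := by
  intro N₁ q _ _ _ hqN P hP K₁ _ _ _ π hπ tL htL W hW h01 h02 hi1 hi2
  have : NeZero q := ⟨(Fact.out : q.Prime).ne_zero⟩
  have : NumberField K₁ := { to_charZero := inferInstance, to_finiteDimensional := inferInstance }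
  obtain ⟨hWα, hWβ, hWW, -, -⟩ := hW
  rcases htL with ⟨h, h2⟩ | ⟨h, h3⟩
  · obtain rfl : tL = s18_cz_t2 (N₁ * q) (dvd_mul_of_dvd_left h2 q) := Subtype.ext h
    have hqM : q ≠ 2 := fun h => hqN (h ▸ h2)
    exact s34_xi_model_coord N₁ q P hP K₁ hqN 2 hqM h2 (Or.inl h2) hπ (s18_cz_t2 N₁ h2)
      (s18_cz_t2 (N₁ * q) (dvd_mul_of_dvd_left h2 q)) rfl (s18_cz_coord_t2 N₁ q h2 hqM)
      (s34_lc_twoChart_t2 N₁ P hP K₁ hqN h2 π hπ)
      (s18_ch_pkg_t2 (s18_a1_ell P hP K₁) hqN h2 π hπ)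
      (s34_ws_isHaupt_t2 (N₁ * q) K₁ (dvd_mul_of_dvd_left h2 q))
      s18_t2 s18_t2inv (s18_cz_hT_t2 N₁ h2) (s18_cz_hT_t2_inv N₁ h2) (-1) 1 (by decide)
      one_ne_zero s18_cz_isLeading_t2 s18_cz_isLeading_t2inv
      (W : s18_F1 K₁ (N₁ * q) ≃+* s18_F1 K₁ (N₁ * q)) (fun c => W.commutes c) hWα hWβ hWW
      h01 h02 hi1 hi2
  · obtain rfl : tL = s18_cz_t3 (N₁ * q) (dvd_mul_of_dvd_left h3 q) := Subtype.ext h
    have hqM : q ≠ 3 := fun h => hqN (h ▸ h3)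
    exact s34_xi_model_coord N₁ q P hP K₁ hqN 3 hqM h3 (Or.inr h3) hπ (s18_cz_t3 N₁ h3)
      (s18_cz_t3 (N₁ * q) (dvd_mul_of_dvd_left h3 q)) rfl (s18_cz_coord_t3 N₁ q h3 hqM)
      (s34_lc_twoChart_t3 N₁ P hP K₁ hqN h3 π hπ)
      (s18_ch_pkg_t3 (s18_a1_ell P hP K₁) hqN h3 π hπ)
      (s34_ws_isHaupt_t3 (N₁ * q) K₁ (dvd_mul_of_dvd_left h3 q))
      s18_t3 s18_t3inv (s18_cz_hT_t3 N₁ h3) (s18_cz_hT_t3_inv N₁ h3) (-1) 1 (by decide)
      one_ne_zero s18_cz_isLeading_t3 s18_cz_isLeading_t3inv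
      (W : s18_F1 K₁ (N₁ * q) ≃+* s18_F1 K₁ (N₁ * q)) (fun c => W.commutes c) hWα hWβ hWW
      h01 h02 hi1 hi2

end Fermat.Agent.S34
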