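import Mathlib
import Fermat.Agent.S34.InstDefs
import Fermat.Agent.S34.CapInst
import Fermat.Agent.S34.ExtInst

/-!
# S34 (INST), contract item (cap)

`s34_ci_ct_cap : s34_ct_cap` — the cap property `B ∩ ϖV₁ ∩ ϖV₂ = ϖB` of both integral-closure
charts of the nodal model, from `CapInst.lean` (`s34_ci_hcap0_t2`, …) and the integrality of
`V₁ ∩ V₂` over the Gauss ring of the lower level (`s34_ei_model_haupt`, `ExtInst.lean`).
-/

set_option autoImplicit false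
set_option synthInstance.maxHeartbeats 400000
set_option maxHeartbeats 4000000

open ModularCurve AlgebraicCurve

noncomputable section

namespace Fermat.Agent.S34

open Fermat.Agent.S18

/-- **Contract item (cap).** -/
theorem s34_ci_ct_cap : s34_ct_cap := by
  intro N₁ q _ _ _ hqN P hP K₁ _ _ _ π hπ tL htL W hW
  have : NeZero q := ⟨(Fact.out : q.Prime).ne_zero⟩
  have : NumberField K₁ :=
    { to_charZero := inferInstance, to_finiteDimensional := inferInstance }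
  obtain ⟨hWα, hWβ, -, -, -⟩ := hW
  -- the residue characteristic is divisible by the uniformizer
  obtain ⟨c, hc⟩ : ∃ c : s18_A1 P K₁, ((q : ℕ) : s18_A1 P K₁) = π * c := by
    have h1 := s18_ell_mem_maximalIdeal q (s18_A1 P K₁) (s18_a1_ell P hP K₁)
    rw [hπ.maximalIdeal_eq, Ideal.mem_span_singleton'] at h1
    obtain ⟨e, he⟩ := h1
    exact ⟨e, by rw [← he, mul_comm]⟩
  have hM : 2 ∣ N₁ ∨ 3 ∣ N₁ := by
    rcases htL with ⟨-, h2⟩ | ⟨-, h3⟩
    · exact Or.inl h2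
    · exact Or.inr h3
  -- every element of `V₁ ∩ V₂` is integral over the Gauss ring of level `N₁`
  have ha0 := (s34_ei_model_haupt (K := K₁) (A₁ := s18_A1 P K₁) (N := N₁) (ℓ := q) hM hqN hπ c hc
    (W : s18_F1 K₁ (N₁ * q) ≃+* s18_F1 K₁ (N₁ * q)) (W.commutes (π : K₁)) hWα hWβ).1
  have ha : ∀ y ∈ s34_md_V1 P K₁ (N₁ * q), y ∈ s34_md_V2 P K₁ (N₁ * q) W →
      ∃ Q : Polynomial (s34_gi_V (s18_A1 P K₁) N₁), Q.Monic ∧
        Q.eval₂ ((heckeAlphaBar K₁ N₁ q).toRingHom.comp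
          (s34_gi_V (s18_A1 P K₁) N₁).subtype) y = 0 :=
    fun y hy1 hy2 => ha0 y hy1 hy2
  rcases htL with ⟨h, h2⟩ | ⟨h, h3⟩
  · obtain rfl : tL = s18_cz_t2 (N₁ * q) (dvd_mul_of_dvd_left h2 q) := Subtype.ext h
    exact ⟨s34_ci_hcap0_t2 N₁ q P hP K₁ hqN h2 _ π hπ _ _ ha,
      s34_ci_hcapi_t2 N₁ q P hP K₁ hqN h2 _ π hπ _ _ ha⟩
  · obtain rfl : tL = s18_cz_t3 (N₁ * q) (dvd_mul_of_dvd_left h3 q) := Subtype.ext h
    exact ⟨s34_ci_hcap0_t3 N₁ q P hP K₁ hqN h3 _ π hπ _ _ ha,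
      s34_ci_hcapi_t3 N₁ q P hP K₁ hqN h3 _ π hπ _ _ ha⟩

end Fermat.Agent.S34
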