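import Mathlib
import Fermat.Agent.S18.UnramMod
import Fermat.Agent.S18.NormDescent

/-!
# S34, block (M), leaf (DEG): the degree of `K · F(L' q)` over `K · F(L')`

For a field `K` between `ℚ` and `Q̄`, the function fields `K · F(N) ⊆ K((q))` satisfy
`[K · F(L' q) : K · F(L')] ≤ q + 1` (`q` prime, `q ∤ L'`).  This is deduced from the degree
`[Q̄ · F(L' q) : Q̄ · F(L')] = q + 1` (`s18_d5_relfinrank_mul_prime`) by linear disjointness of `Q̄`
and `K((q))` over `K` (coefficientwise; no tensor products).

* `s34_deg_ld`   : the coefficientwise descent of a `Q̄`-linear relation along a `K`-linear form;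
* `s34_deg_dep`  : any `q + 2` elements of `K · F(L' q)` are linearly dependent over `K · F(L')`;
* `s34_deg_le`, `s34_deg_finrank_le`, `s34_deg_finite` : the rank statements.
-/

set_option autoImplicit false
set_option synthInstance.maxHeartbeats 200000
set_option linter.unusedSectionVars false
set_option linter.style.haveILetI false

open ModularCurve

noncomputable section

namespace Fermat.Agent.S34

open Fermat.Agent.S18

section Deg

variable (K : Type*) [Field K] [Algebra ℚ K] [Algebra K (AlgebraicClosure ℚ)]

/-- The coefficient identity behind linear disjointness. -/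
theorem s34_deg_coeff (lam : AlgebraicClosure ℚ →ₗ[K] K) (a : AlgebraicClosure ℚ)
    (w : LaurentSeries K) (n : ℤ) :
    lam ((HahnSeries.C a * coeffMap (algebraMap K (AlgebraicClosure ℚ)) w).coeff n)
      = (HahnSeries.C (lam a) * w).coeff n := by
  rw [HahnSeries.C_mul_eq_smul, HahnSeries.C_mul_eq_smul, HahnSeries.coeff_smul,
    HahnSeries.coeff_smul, coeffMap_coeff, smul_eq_mul, smul_eq_mul]
  have e : a * algebraMap K (AlgebraicClosure ℚ) (w.coeff n) = w.coeff n • a := by
    rw [Algebra.smul_def, mul_comm]
  rw [e, map_smul, smul_eq_mul, mul_comm]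

/-- Descent of a `Q̄`-linear relation along a `K`-linear form `lam : Q̄ → K`. -/
theorem s34_deg_ld {ι α : Type*} [Fintype ι] (c : ι → α →₀ AlgebraicClosure ℚ)
    (z : α → LaurentSeries K) (x : ι → LaurentSeries K)
    (hrel : ∑ i, ((c i).sum fun w a =>
        HahnSeries.C a * coeffMap (algebraMap K (AlgebraicClosure ℚ)) (z w)) *
      coeffMap (algebraMap K (AlgebraicClosure ℚ)) (x i) = 0)
    (lam : AlgebraicClosure ℚ →ₗ[K] K) :
    ∑ i, ((c i).sum fun w a => HahnSeries.C (lam a) * z w) * x i = 0 := by
  ext n
  have h0 := congrArg (fun s : LaurentSeries (AlgebraicClosure ℚ) => lam (s.coeff n)) hrel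
  simp only [HahnSeries.coeff_zero, map_zero] at h0
  rw [HahnSeries.coeff_zero, ← h0, HahnSeries.coeff_sum, HahnSeries.coeff_sum, map_sum]
  refine Finset.sum_congr rfl fun i _ => ?_
  rw [Finsupp.sum_mul, Finsupp.sum_mul]
  rw [Finsupp.sum, Finsupp.sum, HahnSeries.coeff_sum, HahnSeries.coeff_sum, map_sum]
  refine Finset.sum_congr rfl fun w _ => ?_
  rw [mul_assoc, mul_assoc, ← map_mul, s34_deg_coeff]

variable (L' q : ℕ) [NeZero L']

/-- **(DEG), elementwise form.**  Any `q + 2` elements of `K · F(L' q)` are linearly dependent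
over `K · F(L')`. -/
theorem s34_deg_dep (hq : q.Prime) (hqL : ¬ q ∣ L') (x : Fin (q + 2) → LaurentSeries K)
    (hx : ∀ i, x i ∈ laurentBaseChange K (modularFunctionFieldFull (L' * q))) :
    ∃ c : Fin (q + 2) → LaurentSeries K,
      (∀ i, c i ∈ laurentBaseChange K (modularFunctionFieldFull L')) ∧ (∃ i, c i ≠ 0) ∧
      ∑ i, c i * x i = 0 := by
  classical
  haveI : NeZero (L' * q) := ⟨Nat.mul_ne_zero (NeZero.ne L') hq.ne_zero⟩
  have hle : modularFunctionFieldBar L' ≤ modularFunctionFieldBar (L' * q) :=
    s18_d5_le (Dvd.intro q rfl)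
  have hfin : Module.finrank (modularFunctionFieldBar L') (IntermediateField.extendScalars hle)
      = q + 1 := by
    rw [← IntermediateField.relfinrank_eq_finrank_of_le hle]
    exact s18_d5_relfinrank_mul_prime L' q hq hqL
  haveI : Module.Finite (modularFunctionFieldBar L') (IntermediateField.extendScalars hle) :=
    Module.finite_of_finrank_pos (by rw [hfin]; omega)
  -- the images of the `x i` in `Q̄ · F(L' q)`
  let y : Fin (q + 2) → IntermediateField.extendScalars hle := fun i =>
    ⟨coeffMap (algebraMap K (AlgebraicClosure ℚ)) (x i), s18_coeffMap_mem_bar K (L' * q) (hx i)⟩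
  have hdep : ¬ LinearIndependent (modularFunctionFieldBar L') y := fun h => by
    have h1 := h.fintype_card_le_finrank
    rw [hfin, Fintype.card_fin] at h1
    omega
  obtain ⟨g, hg, i₀, hi₀⟩ := Fintype.not_linearIndependent_iff.mp hdep
  have hg' : ∑ i, (g i : LaurentSeries (AlgebraicClosure ℚ)) *
      coeffMap (algebraMap K (AlgebraicClosure ℚ)) (x i) = 0 := by
    have h1 := congrArg
      (fun u : IntermediateField.extendScalars hle => (u : LaurentSeries (AlgebraicClosure ℚ))) hg
    simp only [ZeroMemClass.coe_zero] at h1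
    rw [← h1, AddSubmonoidClass.coe_finsetSum]
    rfl
  -- denominators
  set S : Subalgebra (AlgebraicClosure ℚ) (modularFunctionFieldBar L') :=
    Algebra.adjoin (AlgebraicClosure ℚ) (Set.range (s18_baseIncl K L')) with hS
  have hspanS : ∀ r ∈ S, r ∈ Submodule.span (AlgebraicClosure ℚ) (Set.range (s18_baseIncl K L')) := by
    intro r hr
    have h1 := Algebra.adjoin_eq_span (R := AlgebraicClosure ℚ)
      (s := Set.range (s18_baseIncl K L'))
    have hcl : ((Submonoid.closure (Set.range (s18_baseIncl K L')) :
        Submonoid (modularFunctionFieldBar L')) : Set (modularFunctionFieldBar L')) =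
        Set.range (s18_baseIncl K L') := by
      have h2 : Set.range (s18_baseIncl K L') =
          (((s18_baseIncl K L').rangeS.toSubmonoid : Submonoid (modularFunctionFieldBar L')) :
            Set (modularFunctionFieldBar L')) := rfl
      rw [h2, Submonoid.closure_eq]
    rw [← hcl, ← h1]
    exact hr
  have hSspan : ∀ r ∈ Submodule.span (AlgebraicClosure ℚ) (Set.range (s18_baseIncl K L')), r ∈ S :=
    fun r hr => Algebra.span_le_adjoin _ _ hr
  choose a b ha hb hb0 hab using fun i => s18_baseIncl_gen K L' (g i)
  set B : modularFunctionFieldBar L' := ∏ i, b i with hB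
  have hB0 : B ≠ 0 := Finset.prod_ne_zero_iff.mpr fun i _ => hb0 i
  have hBg : ∀ i, B * g i ∈ S := by
    intro i
    have e : B * g i = (∏ j ∈ Finset.univ.erase i, b j) * a i := by
      rw [hB, ← Finset.prod_erase_mul _ _ (Finset.mem_univ i), hab i, mul_assoc,
        mul_div_cancel₀ _ (hb0 i)]
    rw [e]
    exact S.mul_mem (S.prod_mem fun j _ => hSspan _ (hb j)) (hSspan _ (ha i))
  choose c hc using fun i =>
    Finsupp.mem_span_range_iff_exists_finsupp.mp (hspanS _ (hBg i))
  -- the coercion of `B * g i` to series
  have hcoe : ∀ i, ((B * g i : modularFunctionFieldBar L') : LaurentSeries (AlgebraicClosure ℚ))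
      = (c i).sum fun w a => HahnSeries.C a * coeffMap (algebraMap K (AlgebraicClosure ℚ))
          ((w : laurentBaseChange K (modularFunctionFieldFull L')) : LaurentSeries K) := by
    intro i
    rw [← hc i]
    have h1 := map_finsuppSum (modularFunctionFieldBar L').val (c i)
      (fun w a => a • s18_baseIncl K L' w)
    simp only [IntermediateField.coe_val] at h1
    rw [h1]
    refine Finsupp.sum_congr fun w _ => ?_
    rw [Algebra.smul_def]
    show algebraMap (AlgebraicClosure ℚ) (LaurentSeries (AlgebraicClosure ℚ)) (c i w) * _ = _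
    rw [algebraMap_laurentSeries_eq_single]
    rfl
  have hrel : ∑ i, ((c i).sum fun w a =>
      HahnSeries.C a * coeffMap (algebraMap K (AlgebraicClosure ℚ))
      ((w : laurentBaseChange K (modularFunctionFieldFull L')) : LaurentSeries K)) *
      coeffMap (algebraMap K (AlgebraicClosure ℚ)) (x i) = 0 := by
    have h1 : ∑ i, ((B * g i : modularFunctionFieldBar L') : LaurentSeries (AlgebraicClosure ℚ)) *
        coeffMap (algebraMap K (AlgebraicClosure ℚ)) (x i) = 0 := by
      have h2 : ∀ i, ((B * g i : modularFunctionFieldBar L') : LaurentSeries (AlgebraicClosure ℚ)) *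
          coeffMap (algebraMap K (AlgebraicClosure ℚ)) (x i)
          = (B : LaurentSeries (AlgebraicClosure ℚ)) *
            ((g i : LaurentSeries (AlgebraicClosure ℚ)) *
              coeffMap (algebraMap K (AlgebraicClosure ℚ)) (x i)) := by
        intro i
        rw [← mul_assoc]
        rfl
      rw [Finset.sum_congr rfl fun i _ => h2 i, ← Finset.mul_sum, hg', mul_zero]
    rw [← h1]
    exact Finset.sum_congr rfl fun i _ => by rw [hcoe i]
  -- the candidate coefficients
  let d : (AlgebraicClosure ℚ →ₗ[K] K) → Fin (q + 2) → LaurentSeries K := fun lam i =>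
    (c i).sum fun w a => HahnSeries.C (lam a) *
      ((w : laurentBaseChange K (modularFunctionFieldFull L')) : LaurentSeries K)
  have hdmem : ∀ lam i, d lam i ∈ laurentBaseChange K (modularFunctionFieldFull L') := by
    intro lam i
    refine sum_mem fun w _ => mul_mem ?_ w.2
    have e : (HahnSeries.C (lam (c i w)) : LaurentSeries K)
        = algebraMap K (LaurentSeries K) (lam (c i w)) := by
      rw [algebraMap_laurentSeries_eq_single, HahnSeries.C_apply]
    rw [e]
    exact IntermediateField.algebraMap_mem _ _
  have hdrel : ∀ lam, ∑ i, d lam i * x i = 0 := fun lam =>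
    s34_deg_ld K c (fun w => ((w : laurentBaseChange K (modularFunctionFieldFull L')) :
      LaurentSeries K)) x hrel lam
  by_cases hex : ∃ lam i, d lam i ≠ 0
  · obtain ⟨lam, i, hi⟩ := hex
    exact ⟨d lam, hdmem lam, ⟨i, hi⟩, hdrel lam⟩
  · exfalso
    push Not at hex
    apply mul_ne_zero hB0 hi₀
    apply Subtype.ext
    rw [hcoe i₀]
    show _ = (0 : LaurentSeries (AlgebraicClosure ℚ))
    ext n
    rw [HahnSeries.coeff_zero]
    rw [← Module.forall_dual_apply_eq_zero_iff K]
    intro lam
    have h1 := congrArg (fun s : LaurentSeries K => s.coeff n) (hex lam i₀)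
    simp only [HahnSeries.coeff_zero] at h1
    rw [← h1]
    show lam _ = (d lam i₀).coeff n
    simp only [d]
    rw [Finsupp.sum, Finsupp.sum, HahnSeries.coeff_sum, HahnSeries.coeff_sum, map_sum]
    exact Finset.sum_congr rfl fun w _ => s34_deg_coeff K lam _ _ n

omit [NeZero L'] in
/-- The inclusion `K · F(L') ≤ K · F(L' q)`. -/
theorem s34_deg_le : laurentBaseChange K (modularFunctionFieldFull L')
    ≤ laurentBaseChange K (modularFunctionFieldFull (L' * q)) := by
  apply IntermediateField.adjoin.mono
  apply Set.image_mono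
  intro x hx
  have hmono : modularFunctionFieldFull L' ≤ modularFunctionFieldFull (L' * q) := by
    rw [modularFunctionFieldFull, IntermediateField.adjoin_le_iff]
    rintro y ⟨d, hne, hdvd, rfl⟩
    exact IntermediateField.subset_adjoin ℚ _ ⟨d, hne, hdvd.trans (Dvd.intro q rfl), rfl⟩
  exact hmono hx

end Deg

/-- From "any `n + 1` vectors are linearly dependent" to "finite of rank `≤ n`". -/
theorem s34_deg_finrank_of_dep {F' F : Type*} [Field F'] [AddCommGroup F] [Module F' F] (n : ℕ)
    (h : ∀ x : Fin (n + 1) → F, ∃ c : Fin (n + 1) → F', (∃ i, c i ≠ 0) ∧ ∑ i, c i • x i = 0) :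
    Module.Finite F' F ∧ Module.finrank F' F ≤ n := by
  classical
  have hrank : Module.rank F' F ≤ n := by
    apply rank_le
    intro s hs
    by_contra hlt
    push Not at hlt
    obtain ⟨t, hts, htc⟩ := Finset.exists_subset_card_eq (Nat.succ_le_of_lt hlt)
    let e : Fin (n + 1) ≃ t := (Finset.equivFinOfCardEq htc).symm
    let f : Fin (n + 1) → s := fun i => ⟨(e i : F), hts (e i).2⟩
    have hf : Function.Injective f := by
      intro i j hij
      apply e.injective
      apply Subtype.ext
      exact congrArg (fun u : s => (u : F)) hij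
    have hli := hs.comp f hf
    obtain ⟨c, hc0, hc⟩ := h (fun i => ((f i : s) : F))
    exact Fintype.not_linearIndependent_iff.mpr ⟨c, hc, hc0⟩ hli
  exact ⟨Module.rank_lt_aleph0_iff.mp (lt_of_le_of_lt hrank Cardinal.natCast_lt_aleph0),
    Module.finrank_le_of_rank_le hrank⟩

section DegRank

variable (K : Type*) [Field K] [Algebra ℚ K] [Algebra K (AlgebraicClosure ℚ)]
variable (L' q : ℕ) [NeZero L']

/-- **(DEG)** for the `extendScalars` structure: `K · F(L' q)` is finite of degree `≤ q + 1` over
`K · F(L')`. -/
theorem s34_deg_extendScalars (hq : q.Prime) (hqL : ¬ q ∣ L') :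
    Module.Finite (laurentBaseChange K (modularFunctionFieldFull L'))
        (IntermediateField.extendScalars (s34_deg_le K L' q)) ∧
      Module.finrank (laurentBaseChange K (modularFunctionFieldFull L'))
        (IntermediateField.extendScalars (s34_deg_le K L' q)) ≤ q + 1 := by
  apply s34_deg_finrank_of_dep
  intro x
  obtain ⟨c, hc, hc0, hrel⟩ := s34_deg_dep K L' q hq hqL
    (fun i => ((x i : IntermediateField.extendScalars (s34_deg_le K L' q)) : LaurentSeries K))
    (fun i => (x i).2)
  refine ⟨fun i => ⟨c i, hc i⟩, ?_, ?_⟩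
  · obtain ⟨i, hi⟩ := hc0
    exact ⟨i, fun h => hi (congrArg Subtype.val h)⟩
  · apply Subtype.ext
    rw [AddSubmonoidClass.coe_finsetSum]
    simp only [ZeroMemClass.coe_zero]
    rw [← hrel]
    rfl

/-- **(DEG)**, relative rank form: `[K · F(L' q) : K · F(L')] ≤ q + 1`. -/
theorem s34_deg_relfinrank_le (hq : q.Prime) (hqL : ¬ q ∣ L') :
    (laurentBaseChange K (modularFunctionFieldFull L')).relfinrank
      (laurentBaseChange K (modularFunctionFieldFull (L' * q))) ≤ q + 1 := by
  rw [IntermediateField.relfinrank_eq_finrank_of_le (s34_deg_le K L' q)]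
  exact (s34_deg_extendScalars K L' q hq hqL).2

/-- **(DEG)** for the algebra structure given by the inclusion
`K · F(L') →+* K · F(L' q)`: finite, of degree `≤ q + 1`, separable. -/
theorem s34_deg_inclusion (hq : q.Prime) (hqL : ¬ q ∣ L') :
    letI := (IntermediateField.inclusion (s34_deg_le K L' q)).toRingHom.toAlgebra
    Module.Finite (laurentBaseChange K (modularFunctionFieldFull L'))
        (laurentBaseChange K (modularFunctionFieldFull (L' * q))) ∧
      Module.finrank (laurentBaseChange K (modularFunctionFieldFull L'))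
        (laurentBaseChange K (modularFunctionFieldFull (L' * q))) ≤ q + 1 ∧
      Algebra.IsSeparable (laurentBaseChange K (modularFunctionFieldFull L'))
        (laurentBaseChange K (modularFunctionFieldFull (L' * q))) := by
  letI := (IntermediateField.inclusion (s34_deg_le K L' q)).toRingHom.toAlgebra
  have hmain : Module.Finite (laurentBaseChange K (modularFunctionFieldFull L'))
        (laurentBaseChange K (modularFunctionFieldFull (L' * q))) ∧
      Module.finrank (laurentBaseChange K (modularFunctionFieldFull L'))
        (laurentBaseChange K (modularFunctionFieldFull (L' * q))) ≤ q + 1 := by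
    apply s34_deg_finrank_of_dep
    intro x
    obtain ⟨c, hc, hc0, hrel⟩ := s34_deg_dep K L' q hq hqL
      (fun i => ((x i : laurentBaseChange K (modularFunctionFieldFull (L' * q))) :
        LaurentSeries K)) (fun i => (x i).2)
    refine ⟨fun i => ⟨c i, hc i⟩, ?_, ?_⟩
    · obtain ⟨i, hi⟩ := hc0
      exact ⟨i, fun h => hi (congrArg Subtype.val h)⟩
    · apply Subtype.ext
      rw [AddSubmonoidClass.coe_finsetSum]
      simp only [ZeroMemClass.coe_zero]
      rw [← hrel]
      rfl
  obtain ⟨hfin, hrank⟩ := hmain
  refine ⟨hfin, hrank, ?_⟩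
  haveI : CharZero K := algebraRat.charZero K
  haveI : CharZero (laurentBaseChange K (modularFunctionFieldFull L')) :=
    charZero_of_injective_algebraMap
      (algebraMap K (laurentBaseChange K (modularFunctionFieldFull L'))).injective
  haveI := hfin
  exact Algebra.IsAlgebraic.isSeparable_of_perfectField

end DegRank


end Fermat.Agent.S34
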