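import Mathlib

/-!
# S34 (NODE), leaf (WST), abstract part: descent of integrality along a Galois extension of
constants

`k ⊆ L` fields such that the fixed field of `Aut(L/k)` is `k`; `A ⊆ L` a subring which is
integrally closed in `L` (e.g. a valuation ring); `Ω₁ → Ω` an injective ring homomorphism of a
`k`-algebra into an `L`-algebra (a domain), compatible with the constants, such that every
`σ ∈ Aut(L/k)` extends to a ring endomorphism of `Ω` fixing the image of `Ω₁`.  Let `t, x ∈ Ω₁`
with `t` transcendental over `L` in `Ω`.  If `x` is integral over `A[t]` in `Ω`, then `x` is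
integral over `(A ∩ k)[t]` in `Ω₁`.

Proof: the minimal polynomial `m` of `x` over the integrally closed domain `L[X]` (acting through
`X ↦ t`) is fixed by the Galois group (uniqueness), so it has coefficients in `k[X]`; it divides
the integrality equation, so its coefficients are integral over `A[X]`, hence lie in `A[X]`.
-/

set_option autoImplicit false
set_option linter.style.haveILetI false
set_option linter.unusedSimpArgs false

namespace Fermat.Agent.S34

open Polynomial

/-- **Descent of integrality along a Galois extension of constants**, in terms of bivariate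
polynomials: `P(t, x) = 0` with `P ∈ A[X][Y]` monic in `Y` gives `P₁(t, x) = 0` with
`P₁ ∈ (A ∩ k)[X][Y]` monic in `Y`. -/
theorem s34_ws_descent_core
    {k L Ω₁ Ω : Type*} [Field k] [Field L] [Algebra k L]
    [CommRing Ω₁] [CommRing Ω] [IsDomain Ω] [Algebra k Ω₁] [Algebra L Ω]
    (hgal : ∀ a : L, (∀ σ : L ≃ₐ[k] L, σ a = a) → a ∈ Set.range (algebraMap k L))
    (A : Subring L) (hA : ∀ a : L, IsIntegral A a → a ∈ A)
    (ι : Ω₁ →+* Ω) (hι : Function.Injective ι)
    (hιc : ∀ c : k, ι (algebraMap k Ω₁ c) = algebraMap L Ω (algebraMap k L c))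
    (act : (L ≃ₐ[k] L) → Ω →+* Ω)
    (hact : ∀ σ a, act σ (algebraMap L Ω a) = algebraMap L Ω (σ a))
    (hactι : ∀ σ y, act σ (ι y) = ι y)
    (t x : Ω₁) (ht : Transcendental L (ι t))
    (P : L[X][X]) (hPm : P.Monic) (hPA : ∀ i j, (P.coeff i).coeff j ∈ A)
    (hPx : P.eval₂ ((aeval (ι t) : L[X] →ₐ[L] Ω) : L[X] →+* Ω) (ι x) = 0) :
    ∃ P₁ : k[X][X], P₁.Monic ∧ (∀ i j, algebraMap k L ((P₁.coeff i).coeff j) ∈ A) ∧
      P₁.eval₂ ((aeval t : k[X] →ₐ[k] Ω₁) : k[X] →+* Ω₁) x = 0 := by
  classical
  set φ : L[X] →+* Ω := ((aeval (ι t) : L[X] →ₐ[L] Ω) : L[X] →+* Ω) with hφ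
  have hφinj : Function.Injective φ := transcendental_iff_injective.mp ht
  letI : Algebra L[X] Ω := φ.toAlgebra
  have halg : algebraMap L[X] Ω = φ := rfl
  haveI : FaithfulSMul L[X] Ω := (faithfulSMul_iff_algebraMap_injective _ _).mpr hφinj
  have hint : IsIntegral L[X] (ι x) := ⟨P, hPm, hPx⟩
  set m : L[X][X] := minpoly L[X] (ι x) with hm
  have hmm : m.Monic := minpoly.monic hint
  have hmx : m.eval₂ φ (ι x) = 0 := minpoly.aeval L[X] (ι x)
  have hdvd : ∀ Q : L[X][X], Q.eval₂ φ (ι x) = 0 → m ∣ Q := fun Q hQ =>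
    minpoly.isIntegrallyClosed_dvd hint hQ
  -- (ii) the coefficients of `m` lie in `A[X]`
  have hmA : ∀ i j, (m.coeff i).coeff j ∈ A := by
    letI : Algebra (Polynomial A) L[X] := Polynomial.algebra A L
    have hlift : P ∈ Polynomial.lifts (algebraMap (Polynomial A) L[X]) := by
      rw [Polynomial.lifts_iff_coeff_lifts]
      intro i
      have h1 : P.coeff i ∈ Polynomial.lifts (algebraMap A L) := by
        rw [Polynomial.lifts_iff_coeff_lifts]
        intro j
        exact ⟨⟨_, hPA i j⟩, rfl⟩
      obtain ⟨q, hq⟩ := (Polynomial.mem_lifts _).mp h1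
      exact ⟨q, hq⟩
    obtain ⟨p, hp, -, hpm⟩ := Polynomial.lifts_and_degree_eq_and_monic hlift hPm
    have hdvd' : m ∣ p.map (algebraMap (Polynomial A) L[X]) := by
      rw [hp]
      exact hdvd P hPx
    intro i j
    have h1 : IsIntegral (Polynomial A) (m.coeff i) :=
      Polynomial.isIntegral_coeff_of_dvd p m hpm hmm hdvd' i
    exact hA _ (Polynomial.isIntegral_iff_isIntegral_coeff.mp h1 j)
  -- (i) the coefficients of `m` are fixed by the Galois group
  have hmk : ∀ i j, (m.coeff i).coeff j ∈ Set.range (algebraMap k L) := by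
    intro i j
    apply hgal
    intro σ
    set σR : L[X] →+* L[X] := Polynomial.mapRingHom (σ : L →+* L) with hσR
    have hcomp : φ.comp σR = (act σ).comp φ := by
      apply Polynomial.ringHom_ext
      · intro a
        simp only [RingHom.comp_apply, hσR, hφ, Polynomial.coe_mapRingHom, Polynomial.map_C,
          AlgHom.coe_toRingHom, Polynomial.aeval_C, RingHom.coe_coe]
        exact (hact σ a).symm
      · simp only [RingHom.comp_apply, hσR, hφ, Polynomial.coe_mapRingHom, Polynomial.map_X,
          AlgHom.coe_toRingHom, Polynomial.aeval_X]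
        exact (hactι σ t).symm
    have h0 : (m.map σR).eval₂ φ (ι x) = 0 := by
      rw [Polynomial.eval₂_map, hcomp]
      have h1 := Polynomial.hom_eval₂ m φ (act σ) (ι x)
      rw [hactι σ x] at h1
      rw [← h1, hmx, map_zero]
    have hσinj : Function.Injective σR :=
      Polynomial.map_injective _ (RingHom.injective _)
    have hmon : (m.map σR).Monic := hmm.map σR
    have hdeg : (m.map σR).natDegree ≤ m.natDegree := Polynomial.natDegree_map_le
    have heq : m.map σR = m :=
      Polynomial.eq_of_monic_of_dvd_of_natDegree_le hmm hmon (hdvd _ h0) hdeg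
    have h2 := congrArg (fun q : L[X][X] => (q.coeff i).coeff j) heq
    simp only [Polynomial.coeff_map, hσR, Polynomial.coe_mapRingHom] at h2
    exact h2
  -- (iii) lift `m` to `k[X][Y]`
  set ψ : k[X] →+* L[X] := Polynomial.mapRingHom (algebraMap k L) with hψ
  have hlift : m ∈ Polynomial.lifts ψ := by
    rw [Polynomial.lifts_iff_coeff_lifts]
    intro i
    have h1 : m.coeff i ∈ Polynomial.lifts (algebraMap k L) := by
      rw [Polynomial.lifts_iff_coeff_lifts]
      exact fun j => hmk i j
    obtain ⟨q, hq⟩ := (Polynomial.mem_lifts _).mp h1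
    exact ⟨q, hq⟩
  obtain ⟨P₁, hP₁, -, hP₁m⟩ := Polynomial.lifts_and_degree_eq_and_monic hlift hmm
  refine ⟨P₁, hP₁m, fun i j => ?_, ?_⟩
  · have h1 : algebraMap k L ((P₁.coeff i).coeff j) = (m.coeff i).coeff j := by
      rw [← hP₁, Polynomial.coeff_map, hψ, Polynomial.coe_mapRingHom, Polynomial.coeff_map]
    rw [h1]
    exact hmA i j
  · apply hι
    rw [map_zero, Polynomial.hom_eval₂]
    have hcomp : ι.comp ((aeval t : k[X] →ₐ[k] Ω₁) : k[X] →+* Ω₁) = φ.comp ψ := by
      apply Polynomial.ringHom_ext
      · intro c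
        simp only [RingHom.comp_apply, hψ, hφ, Polynomial.coe_mapRingHom, Polynomial.map_C,
          AlgHom.coe_toRingHom, Polynomial.aeval_C, RingHom.coe_coe]
        exact hιc c
      · simp only [RingHom.comp_apply, hψ, hφ, Polynomial.coe_mapRingHom, Polynomial.map_X,
          AlgHom.coe_toRingHom, Polynomial.aeval_X]
    rw [hcomp, ← Polynomial.eval₂_map, hP₁]
    exact hmx

end Fermat.Agent.S34
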