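import Mathlib
import Fermat.Agent.S34.SmoothPoint

/-!
# S34, block (M), leaf (EXT), elementary form: the two extensions of the Gauss valuation

Setting: a field embedding `ι : F' →+* F`, a discrete valuation ring `V'` of `F'` with uniformizer
`ϖ'`, two discrete valuation rings `V₁`, `V₂` of `F` with uniformizer `ι ϖ'` containing `ι V'`
(the two components `C∞`, `C₀`), and

* `hdep` : any `q + 2` elements of `F` are linearly dependent over `ι F'` (`[F : F'] ≤ q + 1`);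
* `u`  : a unit of `V₁` vanishing on `V₂`;  `u'` : a unit of `V₂` vanishing on `V₁`;
* `θ ∈ V₁ ⊓ V₂` whose powers `1, θ, …, θ^(q-1)` are linearly independent over the residue field of
  `V'` in the residue field of `V₂` (`hind`).

Then (no Dedekind theory, no completion):

* `s34_xe_basis` : `V₁ ⊓ V₂ = ι V' · u + Σ_j ι V' · u' θ^j` (in particular `V₁ ⊓ V₂` is integral
  over `ι V'` as soon as `u`, `u'`, `θ` are: there is no third extension);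
* `s34_xe_res`   : the residue field of `V₁` is that of `V'`: every `y ∈ V₁` is congruent modulo
  `ϖ V₁` to an element of `ι V'`.
-/

set_option autoImplicit false

namespace Fermat.Agent.S34

variable {F' F : Type*} [Field F'] [Field F]

/-- Scaling a nonzero finite family of a discretely valued field to a primitive family. -/
theorem s34_xe_scale {ϖ' : F'} {V' : Subring F'} (hV' : s34_Unif ϖ' V') {n : ℕ} (c : Fin n → F')
    (hc : ∃ i, c i ≠ 0) :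
    ∃ d : F', d ≠ 0 ∧ (∀ i, d * c i ∈ V') ∧ ∃ i, ϖ'⁻¹ * (d * c i) ∉ V' := by
  classical
  have hdec : ∀ i, c i ≠ 0 → ∃ (j : ℤ) (u : F'), u ∈ V' ∧ u⁻¹ ∈ V' ∧ c i = ϖ' ^ j * u :=
    fun i hi => hV'.decomp _ hi
  let val : Fin n → ℤ := fun i => if h : c i ≠ 0 then Classical.choose (hdec i h) else 0
  have hval : ∀ i (_ : c i ≠ 0), ∃ u : F', u ∈ V' ∧ u⁻¹ ∈ V' ∧ c i = ϖ' ^ (val i) * u := by
    intro i h
    have h1 := Classical.choose_spec (hdec i h)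
    simp only [val, dif_pos h]
    exact h1
  obtain ⟨i₁, hi₁⟩ := hc
  have hs : (Finset.univ.filter fun i => c i ≠ 0).Nonempty :=
    ⟨i₁, Finset.mem_filter.mpr ⟨Finset.mem_univ _, hi₁⟩⟩
  obtain ⟨i₀, hi₀, hmin⟩ := Finset.exists_min_image _ val hs
  have hi₀' : c i₀ ≠ 0 := (Finset.mem_filter.mp hi₀).2
  have hϖ0 := hV'.ne_zero
  refine ⟨ϖ' ^ (-(val i₀)), zpow_ne_zero _ hϖ0, ?_, i₀, ?_⟩
  · intro i
    by_cases hi : c i = 0
    · rw [hi, mul_zero]; exact V'.zero_mem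
    · obtain ⟨u, hu, -, hcu⟩ := hval i hi
      have hle : val i₀ ≤ val i := hmin i (Finset.mem_filter.mpr ⟨Finset.mem_univ _, hi⟩)
      rw [hcu, ← mul_assoc, ← zpow_add₀ hϖ0]
      exact V'.mul_mem (hV'.zpow_mem (by omega)) hu
  · obtain ⟨u, -, hu', hcu⟩ := hval i₀ hi₀'
    have hu0 : u ≠ 0 := by
      rintro rfl
      apply hi₀'; rw [hcu, mul_zero]
    have e : ϖ' ^ (-(val i₀)) * c i₀ = u := by
      rw [hcu, ← mul_assoc, ← zpow_add₀ hϖ0, neg_add_cancel, zpow_zero, one_mul]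
    rw [e]
    exact hV'.not_dvd_of_inv_mem hu0 hu'

/-- Divisibility by the uniformizer is reflected by `ι`. -/
theorem s34_xe_reflect (ι : F' →+* F) {ϖ' : F'} {V' : Subring F'} (hV' : s34_Unif ϖ' V')
    {V : Subring F} (hV : s34_Unif (ι ϖ') V) (hι : ∀ x ∈ V', ι x ∈ V) {x : F'} (hx : x ∈ V')
    (h : (ι ϖ')⁻¹ * ι x ∈ V) : ϖ'⁻¹ * x ∈ V' := by
  by_contra hcon
  have hx' := hV'.inv_mem_of_not_dvd hx hcon
  have hx0 : x ≠ 0 := by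
    rintro rfl
    exact hcon (by rw [mul_zero]; exact V'.zero_mem)
  have h1 : (ι x)⁻¹ ∈ V := by
    rw [← map_inv₀]; exact hι _ hx'
  exact hV.not_dvd_of_inv_mem ((map_ne_zero ι).mpr hx0) h1 h

/-- **(EXT)(a), elementary form**: `V₁ ⊓ V₂` is the `ι V'`-span of `u, u', u' θ, …, u' θ^(q-1)`. -/
theorem s34_xe_basis (ι : F' →+* F) {ϖ' : F'} (V' : Subring F') (hV' : s34_Unif ϖ' V')
    (V₁ V₂ : Subring F) (hV₁ : s34_Unif (ι ϖ') V₁) (hV₂ : s34_Unif (ι ϖ') V₂)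
    (hι₁ : ∀ x ∈ V', ι x ∈ V₁) (hι₂ : ∀ x ∈ V', ι x ∈ V₂) (q : ℕ)
    (hdep : ∀ x : Fin (q + 2) → F, ∃ c : Fin (q + 2) → F', (∃ i, c i ≠ 0) ∧
      ∑ i, ι (c i) * x i = 0)
    (u : F) (hu₁ : u ∈ V₁) (hu₁' : (ι ϖ')⁻¹ * u ∉ V₁) (hu₂ : (ι ϖ')⁻¹ * u ∈ V₂)
    (u' : F) (hu'₂ : u' ∈ V₂) (hu'₂' : (ι ϖ')⁻¹ * u' ∉ V₂) (hu'₁ : (ι ϖ')⁻¹ * u' ∈ V₁)
    (θ : F) (hθ₁ : θ ∈ V₁) (hθ₂ : θ ∈ V₂)
    (hind : ∀ c : Fin q → F', (∀ j, c j ∈ V') →
      (ι ϖ')⁻¹ * ∑ j, ι (c j) * θ ^ (j : ℕ) ∈ V₂ → ∀ j, ϖ'⁻¹ * c j ∈ V')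
    (y : F) (hy₁ : y ∈ V₁) (hy₂ : y ∈ V₂) :
    ∃ (c₀ : F') (c : Fin q → F'), c₀ ∈ V' ∧ (∀ j, c j ∈ V') ∧
      y = ι c₀ * u + u' * ∑ j, ι (c j) * θ ^ (j : ℕ) := by
  classical
  -- the dependent family `y, u, u' θ^j`
  obtain ⟨c, hc0, hrel⟩ := hdep (Fin.cons y (Fin.cons u fun j : Fin q => u' * θ ^ (j : ℕ)))
  obtain ⟨d, hd0, hdV, i₀, hi₀⟩ := s34_xe_scale hV' c hc0
  -- the scaled relation
  have hrel' : ι (d * c 0) * y + ι (d * c 1) * u +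
      u' * ∑ j : Fin q, ι (d * c j.succ.succ) * θ ^ (j : ℕ) = 0 := by
    have h1 : ι d * ∑ i, ι (c i) * (Fin.cons y (Fin.cons u fun j : Fin q => u' * θ ^ (j : ℕ)) :
        Fin (q + 2) → F) i = 0 := by rw [hrel, mul_zero]
    rw [Fin.sum_univ_succ, Fin.sum_univ_succ] at h1
    simp only [Fin.cons_zero, Fin.cons_succ] at h1
    have h1' : ι d * (ι (c 0) * y + (ι (c 1) * u +
        ∑ x : Fin q, ι (c x.succ.succ) * (u' * θ ^ (x : ℕ)))) = 0 := h1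
    have hsum : u' * ∑ j : Fin q, ι (d * c j.succ.succ) * θ ^ (j : ℕ)
        = ι d * ∑ x : Fin q, ι (c x.succ.succ) * (u' * θ ^ (x : ℕ)) := by
      rw [Finset.mul_sum, Finset.mul_sum]
      refine Finset.sum_congr rfl fun j _ => ?_
      rw [map_mul]
      ring
    rw [hsum, map_mul, map_mul]
    linear_combination h1'
  set R : F := ∑ j : Fin q, ι (d * c j.succ.succ) * θ ^ (j : ℕ) with hR
  have hR₁ : R ∈ V₁ := Subring.sum_mem _ fun j _ =>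
    V₁.mul_mem (hι₁ _ (hdV _)) (V₁.pow_mem hθ₁ _)
  have hR₂ : R ∈ V₂ := Subring.sum_mem _ fun j _ =>
    V₂.mul_mem (hι₂ _ (hdV _)) (V₂.pow_mem hθ₂ _)
  have hϖι : ∀ x : F', (ι ϖ')⁻¹ * ι x = ι (ϖ'⁻¹ * x) := fun x => by
    rw [map_mul, map_inv₀]
  -- the coefficient of `y` is a unit
  have h0 : ϖ'⁻¹ * (d * c 0) ∉ V' := by
    intro h0
    -- which coefficient is a unit?
    have hcases : ∀ i : Fin (q + 2), ϖ'⁻¹ * (d * c i) ∉ V' → False := by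
      intro i
      refine Fin.cases ?_ (fun k => ?_) i
      · exact fun h => h h0
      · refine Fin.cases ?_ (fun j => ?_) k
        · -- the coefficient of `u` is a unit: look at `V₁`
          intro h1
          have e : (Fin.succ (0 : Fin (q + 1)) : Fin (q + 2)) = 1 := rfl
          rw [e] at h1
          have hmem : (ι ϖ')⁻¹ * (ι (d * c 1) * u) ∈ V₁ := by
            have e2 : (ι ϖ')⁻¹ * (ι (d * c 1) * u)
                = -(ι (ϖ'⁻¹ * (d * c 0)) * y) - ((ι ϖ')⁻¹ * u') * R := by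
              rw [← hϖι]
              have h2 : ι (d * c 1) * u = -(ι (d * c 0) * y) - u' * R := by
                linear_combination hrel'
              rw [h2]; ring
            rw [e2]
            exact V₁.sub_mem (V₁.neg_mem (V₁.mul_mem (hι₁ _ h0) hy₁)) (V₁.mul_mem hu'₁ hR₁)
          rcases hV₁.prime (hι₁ _ (hdV 1)) hu₁ hmem with h | h
          · exact h1 (s34_xe_reflect ι hV' hV₁ hι₁ (hdV 1) h)
          · exact hu₁' h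
        · -- the coefficient of some `u' θ^j` is a unit: look at `V₂`
          intro h1
          have hmem : (ι ϖ')⁻¹ * (u' * R) ∈ V₂ := by
            have e2 : (ι ϖ')⁻¹ * (u' * R)
                = -(ι (ϖ'⁻¹ * (d * c 0)) * y) - ι (d * c 1) * ((ι ϖ')⁻¹ * u) := by
              rw [← hϖι]
              have h2 : u' * R = -(ι (d * c 0) * y) - ι (d * c 1) * u := by
                linear_combination hrel'
              rw [h2]; ring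
            rw [e2]
            exact V₂.sub_mem (V₂.neg_mem (V₂.mul_mem (hι₂ _ h0) hy₂))
              (V₂.mul_mem (hι₂ _ (hdV 1)) hu₂)
          rcases hV₂.prime hu'₂ hR₂ hmem with h | h
          · exact hu'₂' h
          · exact h1 (hind (fun j => d * c j.succ.succ) (fun j => hdV _) h j)
    exact hcases i₀ hi₀
  have ha : (d * c 0)⁻¹ ∈ V' := hV'.inv_mem_of_not_dvd (hdV 0) h0
  have hc0' : d * c 0 ≠ 0 := by
    intro h
    apply h0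
    rw [h, mul_zero]; exact V'.zero_mem
  have hιc0 : ι (d * c 0) ≠ 0 := (map_ne_zero ι).mpr hc0'
  refine ⟨-((d * c 0)⁻¹ * (d * c 1)), fun j => -((d * c 0)⁻¹ * (d * c j.succ.succ)),
    V'.neg_mem (V'.mul_mem ha (hdV 1)), fun j => V'.neg_mem (V'.mul_mem ha (hdV _)), ?_⟩
  have hsum : ∑ j : Fin q, ι (-((d * c 0)⁻¹ * (d * c j.succ.succ))) * θ ^ (j : ℕ)
      = -(ι (d * c 0))⁻¹ * R := by
    rw [hR, Finset.mul_sum]
    refine Finset.sum_congr rfl fun j _ => ?_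
    rw [map_neg, map_mul, map_inv₀]
    ring
  rw [hsum, map_neg, map_mul, map_inv₀]
  have h2 : ι (d * c 0) * y = -(ι (d * c 1) * u) - u' * R := by
    linear_combination hrel'
  field_simp
  linear_combination h2

/-- Congruences modulo `ϖ V` are preserved by powers. -/
theorem s34_xe_pow_congr {V : Subring F} {ϖ a b : F} (ha : a ∈ V) (hb : b ∈ V)
    (h : ϖ⁻¹ * (a - b) ∈ V) (k : ℕ) : ϖ⁻¹ * (a ^ k - b ^ k) ∈ V := by
  rw [← geom_sum₂_mul]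
  have e : ϖ⁻¹ * ((∑ i ∈ Finset.range k, a ^ i * b ^ (k - 1 - i)) * (a - b))
      = (∑ i ∈ Finset.range k, a ^ i * b ^ (k - 1 - i)) * (ϖ⁻¹ * (a - b)) := by ring
  rw [e]
  exact V.mul_mem (Subring.sum_mem _ fun i _ => V.mul_mem (V.pow_mem ha _) (V.pow_mem hb _)) h

/-- **(EXT)(c), elementary form**: the residue field of `V₁` is the residue field of `V'`. -/
theorem s34_xe_res (ι : F' →+* F) {ϖ' : F'} (V' : Subring F') (hV' : s34_Unif ϖ' V')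
    (V₁ V₂ : Subring F) (hV₁ : s34_Unif (ι ϖ') V₁) (hV₂ : s34_Unif (ι ϖ') V₂)
    (hι₁ : ∀ x ∈ V', ι x ∈ V₁) (hι₂ : ∀ x ∈ V', ι x ∈ V₂) (q : ℕ)
    (hdep : ∀ x : Fin (q + 2) → F, ∃ c : Fin (q + 2) → F', (∃ i, c i ≠ 0) ∧
      ∑ i, ι (c i) * x i = 0)
    (u : F) (hu₁ : u ∈ V₁) (hu₁' : (ι ϖ')⁻¹ * u ∉ V₁) (hu₂ : (ι ϖ')⁻¹ * u ∈ V₂)
    (u' : F) (hu'₂ : u' ∈ V₂) (hu'₂' : (ι ϖ')⁻¹ * u' ∉ V₂) (hu'₁ : (ι ϖ')⁻¹ * u' ∈ V₁)
    (θ : F) (hθ₁ : θ ∈ V₁) (hθ₂ : θ ∈ V₂)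
    (hind : ∀ c : Fin q → F', (∀ j, c j ∈ V') →
      (ι ϖ')⁻¹ * ∑ j, ι (c j) * θ ^ (j : ℕ) ∈ V₂ → ∀ j, ϖ'⁻¹ * c j ∈ V')
    (y : F) (hy₁ : y ∈ V₁) :
    ∃ y' ∈ V', (ι ϖ')⁻¹ * (y - ι y') ∈ V₁ := by
  have hϖ0 : ι ϖ' ≠ 0 := hV₁.ne_zero
  have hbasis := s34_xe_basis ι V' hV' V₁ V₂ hV₁ hV₂ hι₁ hι₂ q hdep u hu₁ hu₁' hu₂ u' hu'₂ hu'₂'
    hu'₁ θ hθ₁ hθ₂ hind
  have huV₂ : u ∈ V₂ := by
    have e : u = ι ϖ' * ((ι ϖ')⁻¹ * u) := by field_simp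
    rw [e]; exact V₂.mul_mem hV₂.mem hu₂
  -- the residue of `u` lies in the residue field of `V'`
  obtain ⟨a, ha, hua⟩ : ∃ a ∈ V', (ι ϖ')⁻¹ * (u - ι a) ∈ V₁ := by
    obtain ⟨c₀, c, hc₀, hc, hrel⟩ := hbasis (u * u) (V₁.mul_mem hu₁ hu₁) (V₂.mul_mem huV₂ huV₂)
    refine ⟨c₀, hc₀, ?_⟩
    have hmem : (ι ϖ')⁻¹ * (u * (u - ι c₀)) ∈ V₁ := by
      have e : (ι ϖ')⁻¹ * (u * (u - ι c₀))
          = ((ι ϖ')⁻¹ * u') * ∑ j, ι (c j) * θ ^ (j : ℕ) := by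
        have h2 : u * (u - ι c₀) = u' * ∑ j, ι (c j) * θ ^ (j : ℕ) := by
          linear_combination hrel
        rw [h2]; ring
      rw [e]
      exact V₁.mul_mem hu'₁ (Subring.sum_mem _ fun j _ =>
        V₁.mul_mem (hι₁ _ (hc j)) (V₁.pow_mem hθ₁ _))
    rcases hV₁.prime hu₁ (V₁.sub_mem hu₁ (hι₁ _ hc₀)) hmem with h | h
    · exact absurd h hu₁'
    · exact h
  -- `a` is a unit of `V'`
  have ha' : ϖ'⁻¹ * a ∉ V' := by
    intro h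
    apply hu₁'
    have e : (ι ϖ')⁻¹ * u = (ι ϖ')⁻¹ * (u - ι a) + ι (ϖ'⁻¹ * a) := by
      rw [map_mul, map_inv₀]; ring
    rw [e]
    exact V₁.add_mem hua (hι₁ _ h)
  have hainv : a⁻¹ ∈ V' := hV'.inv_mem_of_not_dvd ha ha'
  have ha0 : a ≠ 0 := by
    rintro rfl
    exact ha' (by rw [mul_zero]; exact V'.zero_mem)
  have hιa0 : ι a ≠ 0 := (map_ne_zero ι).mpr ha0
  -- the general element
  obtain ⟨k, hk⟩ := hV₂.exists_pow_mul_mem y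
  have hyk₂ : u ^ k * y ∈ V₂ := by
    have e : u ^ k * y = ((ι ϖ')⁻¹ * u) ^ k * (ι ϖ' ^ k * y) := by
      rw [mul_pow, inv_pow]; field_simp
    rw [e]; exact V₂.mul_mem (V₂.pow_mem hu₂ k) hk
  obtain ⟨c₀, c, hc₀, hc, hrel⟩ := hbasis (u ^ k * y) (V₁.mul_mem (V₁.pow_mem hu₁ k) hy₁) hyk₂
  refine ⟨c₀ * a * a⁻¹ ^ k, V'.mul_mem (V'.mul_mem hc₀ ha) (V'.pow_mem hainv k), ?_⟩
  have h1 : (ι ϖ')⁻¹ * (u ^ k - ι a ^ k) ∈ V₁ := s34_xe_pow_congr hu₁ (hι₁ _ ha) hua k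
  have h2 : (ι ϖ')⁻¹ * (u ^ k * y - ι c₀ * u) ∈ V₁ := by
    have e : (ι ϖ')⁻¹ * (u ^ k * y - ι c₀ * u)
        = ((ι ϖ')⁻¹ * u') * ∑ j, ι (c j) * θ ^ (j : ℕ) := by
      have h3 : u ^ k * y - ι c₀ * u = u' * ∑ j, ι (c j) * θ ^ (j : ℕ) := by
        linear_combination hrel
      rw [h3]; ring
    rw [e]
    exact V₁.mul_mem hu'₁ (Subring.sum_mem _ fun j _ =>
      V₁.mul_mem (hι₁ _ (hc j)) (V₁.pow_mem hθ₁ _))
  have e : (ι ϖ')⁻¹ * (y - ι (c₀ * a * a⁻¹ ^ k))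
      = ι (a⁻¹) ^ k * (-(((ι ϖ')⁻¹ * (u ^ k - ι a ^ k)) * y)
          + (ι ϖ')⁻¹ * (u ^ k * y - ι c₀ * u) + ι c₀ * ((ι ϖ')⁻¹ * (u - ι a))) := by
    have hpow : ι a ^ k * (ι a)⁻¹ ^ k = 1 := by
      rw [← mul_pow, mul_inv_cancel₀ hιa0, one_pow]
    rw [map_mul, map_mul, map_pow, map_inv₀]
    linear_combination (-(ι ϖ')⁻¹ * y) * hpow
  rw [e]
  exact V₁.mul_mem (V₁.pow_mem (hι₁ _ hainv) k)
    (V₁.add_mem (V₁.add_mem (V₁.neg_mem (V₁.mul_mem h1 hy₁)) h2) (V₁.mul_mem (hι₁ _ hc₀) hua))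

end Fermat.Agent.S34
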