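import Mathlib
import Fermat.Agent.S34.SmoothPoint
import Fermat.Agent.S34.ResTwo

/-!
# S34 (project NODE): a uniformized ring is a discrete valuation ring

Bridge between the elementary predicate `s34_Unif ϖ V` (`V` a subring of the field `F` such that
every nonzero element of `F` is `ϖ^j * unit`) and Mathlib's typeclasses:

* `s34_eu_isUnit_iff` : units of `V`;
* `s34_eu_irred` : `ϖ` is irreducible in `V`;
* `s34_eu_frac` : `F` is the fraction field of `V`;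
* `s34_eu_dvr` : `V` is a discrete valuation ring;
* `s34_eu_val_lt` : the maximal ideal of the valuation subring `s34_res_vs V hV` is `ϖ V`.
-/

set_option autoImplicit false

namespace Fermat.Agent.S34

variable {F : Type*} [Field F] {ϖ : F} {V : Subring F}

/-- Units of a uniformized ring. -/
theorem s34_eu_isUnit_iff (a : V) : IsUnit a ↔ (a : F) ≠ 0 ∧ ((a : F))⁻¹ ∈ V := by
  constructor
  · rintro ⟨u, rfl⟩
    have h1 : ((u : V) : F) * (((u⁻¹ : Vˣ) : V) : F) = 1 := congrArg Subtype.val u.mul_inv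
    have h0 : ((u : V) : F) ≠ 0 := left_ne_zero_of_mul_eq_one h1
    refine ⟨h0, ?_⟩
    rw [← eq_inv_of_mul_eq_one_right h1]
    exact ((u⁻¹ : Vˣ) : V).2
  · rintro ⟨h0, h⟩
    refine IsUnit.of_mul_eq_one (⟨_, h⟩ : V) (Subtype.ext ?_)
    show (a : F) * ((a : F))⁻¹ = 1
    exact mul_inv_cancel₀ h0

/-- The uniformizer is not a unit. -/
theorem s34_eu_not_isUnit (hV : s34_Unif ϖ V) : ¬ IsUnit (⟨ϖ, hV.mem⟩ : V) := by
  intro h
  exact hV.inv_not_mem ((s34_eu_isUnit_iff _).mp h).2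

/-- A nonunit of `V` is divisible by `ϖ`. -/
theorem s34_eu_dvd_of_not_isUnit (hV : s34_Unif ϖ V) (a : V) (ha : ¬ IsUnit a) :
    ϖ⁻¹ * (a : F) ∈ V := by
  by_contra h
  apply ha
  rw [s34_eu_isUnit_iff]
  refine ⟨?_, hV.inv_mem_of_not_dvd a.2 h⟩
  intro h0
  apply h
  rw [h0, mul_zero]
  exact V.zero_mem

/-- `ϖ` is irreducible in `V`. -/
theorem s34_eu_irred (hV : s34_Unif ϖ V) : Irreducible (⟨ϖ, hV.mem⟩ : V) := by
  rw [irreducible_iff]
  refine ⟨s34_eu_not_isUnit hV, ?_⟩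
  intro a b hab
  by_contra hcon
  push Not at hcon
  have ha := s34_eu_dvd_of_not_isUnit hV a hcon.1
  have hb := s34_eu_dvd_of_not_isUnit hV b hcon.2
  apply hV.inv_not_mem
  have habF : ϖ = (a : F) * (b : F) := congrArg Subtype.val hab
  have e : ϖ⁻¹ = (ϖ⁻¹ * (a : F)) * (ϖ⁻¹ * (b : F)) := by
    have h0 : ϖ ≠ 0 := hV.ne_zero
    have e2 : (ϖ⁻¹ * (a : F)) * (ϖ⁻¹ * (b : F)) = ϖ⁻¹ * ϖ⁻¹ * ((a : F) * (b : F)) := by ring
    rw [e2, ← habF]
    field_simp
  rw [e]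
  exact V.mul_mem ha hb

/-- `F` is the fraction field of `V`. -/
theorem s34_eu_frac (hV : s34_Unif ϖ V) : IsFractionRing V F := by
  refine IsFractionRing.of_field V F fun z => ?_
  by_cases hz0 : z = 0
  · refine ⟨0, 1, ?_⟩
    rw [hz0, map_zero, zero_div]
  obtain ⟨j, u, hu, hu', rfl⟩ := hV.decomp z hz0
  have hu0 : u ≠ 0 := by
    rintro rfl
    exact hz0 (mul_zero _)
  rcases le_or_gt 0 j with hj | hj
  · refine ⟨⟨ϖ ^ j * u, V.mul_mem (hV.zpow_mem hj) hu⟩, 1, ?_⟩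
    show ϖ ^ j * u = (ϖ ^ j * u) / 1
    rw [div_one]
  · refine ⟨⟨u, hu⟩, ⟨ϖ ^ (-j), hV.zpow_mem (by omega)⟩, ?_⟩
    show ϖ ^ j * u = u / ϖ ^ (-j)
    rw [zpow_neg, div_inv_eq_mul, mul_comm]

/-- Every nonzero element of `V` is a unit times a power of `ϖ`. -/
theorem s34_eu_associated (hV : s34_Unif ϖ V) {x : V} (hx : x ≠ 0) :
    ∃ n : ℕ, Associated ((⟨ϖ, hV.mem⟩ : V) ^ n) x := by
  have hx0 : (x : F) ≠ 0 := fun h => hx (Subtype.ext h)
  obtain ⟨j, u, hu, hu', hxu⟩ := hV.decomp (x : F) hx0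
  have hu0 : u ≠ 0 := by
    rintro rfl
    rw [mul_zero] at hxu
    exact hx0 hxu
  have hj : 0 ≤ j := (hV.mem_iff hu0 hu hu').mp (by rw [← hxu]; exact x.2)
  obtain ⟨n, rfl⟩ := Int.eq_ofNat_of_zero_le hj
  have hunit : IsUnit (⟨u, hu⟩ : V) := (s34_eu_isUnit_iff _).mpr ⟨hu0, hu'⟩
  obtain ⟨c, hc⟩ := hunit
  refine ⟨n, c, Subtype.ext ?_⟩
  rw [hc]
  show ϖ ^ n * u = (x : F)
  rw [hxu, zpow_natCast]

/-- A uniformized ring is a discrete valuation ring. -/
theorem s34_eu_dvr (hV : s34_Unif ϖ V) : IsDiscreteValuationRing V :=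
  IsDiscreteValuationRing.ofHasUnitMulPowIrreducibleFactorization
    ⟨⟨ϖ, hV.mem⟩, s34_eu_irred hV, fun hx => s34_eu_associated hV hx⟩

/-- The maximal ideal of the valuation subring of a uniformized ring is `ϖ V`. -/
theorem s34_eu_val_lt (hV : s34_Unif ϖ V) (x : F) :
    (s34_res_vs V hV).valuation x < 1 ↔ ϖ⁻¹ * x ∈ V := by
  have hϖ0 : ϖ ≠ 0 := hV.ne_zero
  have hle : ∀ y : F, (s34_res_vs V hV).valuation y ≤ 1 ↔ y ∈ V := fun y =>
    (s34_res_vs V hV).valuation_le_one_iff y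
  constructor
  · intro h
    by_contra hnot
    have hxV : x ∈ V := (hle x).mp (le_of_lt h)
    have hinv : x⁻¹ ∈ V := hV.inv_mem_of_not_dvd hxV hnot
    have hx0 : x ≠ 0 := by
      rintro rfl
      exact hnot (by rw [mul_zero]; exact V.zero_mem)
    have h1 : (s34_res_vs V hV).valuation x⁻¹ ≤ 1 := (hle _).mpr hinv
    have h2 : (s34_res_vs V hV).valuation x * (s34_res_vs V hV).valuation x⁻¹ = 1 := by
      rw [← map_mul, mul_inv_cancel₀ hx0, map_one]
    have h3 : (s34_res_vs V hV).valuation x * (s34_res_vs V hV).valuation x⁻¹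
        ≤ (s34_res_vs V hV).valuation x * 1 := mul_le_mul_right h1 _
    rw [h2, mul_one] at h3
    exact absurd h (not_lt.mpr h3)
  · intro h
    have h1 : (s34_res_vs V hV).valuation (ϖ⁻¹ * x) ≤ 1 := (hle _).mpr h
    have hϖ1 : (s34_res_vs V hV).valuation ϖ < 1 := by
      refine lt_of_le_of_ne ((hle _).mpr hV.mem) ?_
      intro h1'
      apply hV.inv_not_mem
      rw [← hle, map_inv₀, h1', inv_one]
    have e : x = ϖ * (ϖ⁻¹ * x) := by field_simp
    have h3 : (s34_res_vs V hV).valuation ϖ * (s34_res_vs V hV).valuation (ϖ⁻¹ * x)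
        ≤ (s34_res_vs V hV).valuation ϖ * 1 := mul_le_mul_right h1 _
    rw [e, map_mul]
    rw [mul_one] at h3
    exact lt_of_le_of_lt h3 hϖ1

end Fermat.Agent.S34
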