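import Fermat.Agent.S34.ExtTwo
import Fermat.Agent.S34.ResTwo
import Fermat.Agent.S34.ExtUnif

/-!
# S34 (NODE), leaf (EXT), subring / two-field form

`s34_ext_two` : the statement of `s34_ext_main` for uniformized subrings (`s34_Unif`) of two
fields related by an embedding `ι : F'' →+* F`.  Conclusions:

* (a') every element of `V₁ ∩ V₂` is integral over `V'` (through `ι`);
* (c') the residue field of `V₁` is that of `V'`:  `∀ y ∈ V₁, ∃ y' ∈ V', (ι ϖ'')⁻¹ (y - ι y') ∈ V₁`.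
-/

set_option autoImplicit false

namespace Fermat.Agent.S34

open Fermat.Agent.S18

/-- Subring / two-field form of `s34_ext_main`, with the discrete valuation ring structure of `V'`
as instance hypotheses. -/
theorem s34_ext_two_aux {F'' F : Type*} [Field F''] [Field F] [CharZero F''] (ι : F'' →+* F)
    (q : ℕ) (hq : q.Prime)
    (hfin : letI := ι.toAlgebra; Module.Finite F'' F ∧ Module.finrank F'' F ≤ q + 1)
    {ϖ'' : F''} {V' : Subring F''} (hV' : s34_Unif ϖ'' V')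
    [IsDiscreteValuationRing V'] [IsFractionRing V' F'']
    (hirr : Irreducible (⟨ϖ'', hV'.mem⟩ : V'))
    {V₁ V₂ : Subring F} (hV₁ : s34_Unif (ι ϖ'') V₁) (hV₂ : s34_Unif (ι ϖ'') V₂)
    (hι₁ : ∀ x ∈ V', ι x ∈ V₁) (hι₂ : ∀ x ∈ V', ι x ∈ V₂) (hne : V₁ ≠ V₂)
    (θ : F) (c : F'') (hθ : θ ∈ V₂) (hc : c ∈ V') (hθc : (ι ϖ'')⁻¹ * (θ ^ q - ι c) ∈ V₂)
    (hnq : ∀ d ∈ V', ϖ''⁻¹ * (d ^ q - c) ∉ V') :
    (∀ y ∈ V₁, y ∈ V₂ → ∃ P : Polynomial V', P.Monic ∧ P.eval₂ (ι.comp V'.subtype) y = 0) ∧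
    (∀ y ∈ V₁, ∃ y' ∈ V', (ι ϖ'')⁻¹ * (y - ι y') ∈ V₁) := by
  let _ : Algebra F'' F := ι.toAlgebra
  obtain ⟨hfd, hdeg⟩ := hfin
  have : FiniteDimensional F'' F := hfd
  let _ : Algebra V' F := (ι.comp V'.subtype).toAlgebra
  have : IsScalarTower V' F'' F := IsScalarTower.of_algebraMap_eq (fun _ => rfl)
  have hne' : s34_res_vs V₁ hV₁ ≠ s34_res_vs V₂ hV₂ := by
    intro h
    apply hne
    ext x
    rw [← s34_res_mem_vs V₁ hV₁, ← s34_res_mem_vs V₂ hV₂, h]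
  have hϖ0 : ι ϖ'' ≠ 0 := hV₂.ne_zero
  have hθc' : (s34_res_vs V₂ hV₂).valuation (θ ^ q - algebraMap V' F ⟨c, hc⟩) < 1 := by
    have e : θ ^ q - algebraMap V' F ⟨c, hc⟩ = ι ϖ'' * ((ι ϖ'')⁻¹ * (θ ^ q - ι c)) := by
      rw [← mul_assoc, mul_inv_cancel₀ hϖ0, one_mul]
      rfl
    rw [e, map_mul]
    calc (s34_res_vs V₂ hV₂).valuation (ι ϖ'')
          * (s34_res_vs V₂ hV₂).valuation ((ι ϖ'')⁻¹ * (θ ^ q - ι c))
        ≤ (s34_res_vs V₂ hV₂).valuation (ι ϖ'') * 1 :=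
          mul_le_mul_right (((s34_res_vs V₂ hV₂).valuation_le_one_iff _).2 hθc) _
      _ < 1 := by
          rw [mul_one]
          exact s34_ext_val_lt_one _ hV₂.inv_not_mem
  have hcu : ∀ d : V', IsUnit (d ^ q - ⟨c, hc⟩) := by
    intro d
    have h1 : ((d ^ q - ⟨c, hc⟩ : V') : F'') ∈ V' := (d ^ q - ⟨c, hc⟩ : V').2
    have h2 : (((d ^ q - ⟨c, hc⟩ : V') : F''))⁻¹ ∈ V' :=
      hV'.inv_mem_of_not_dvd h1 (hnq d d.2)
    have h0 : ((d ^ q - ⟨c, hc⟩ : V') : F'') ≠ 0 := by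
      intro h
      apply hnq d d.2
      have h' : (d : F'') ^ q - c = 0 := h
      rw [h', mul_zero]
      exact V'.zero_mem
    refine IsUnit.of_mul_eq_one ⟨_, h2⟩ ?_
    apply Subtype.ext
    exact mul_inv_cancel₀ h0
  have main := s34_ext_main (R := V') (F' := F'') (F := F) q hq hdeg hirr
    (s34_res_vs V₁ hV₁) (s34_res_vs V₂ hV₂) hne'
    (fun r => hι₁ r r.2) hV₁.inv_not_mem (fun r => hι₂ r r.2) hV₂.inv_not_mem
    θ ⟨c, hc⟩ hθ hθc' hcu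
  refine ⟨fun y hy1 hy2 => main.1 y hy1 hy2, fun y hy => ?_⟩
  obtain ⟨r, hr⟩ := main.2.2.2 y hy
  exact ⟨r.1, r.2, hr⟩

/-- **(EXT), subring / two-field form.**  `ι : F'' →+* F` a finite extension of fields of
characteristic zero of degree `≤ q + 1`; `V'` a discrete valuation ring of `F''` with uniformizer
`ϖ''`; `V₁ ≠ V₂` two discrete valuation rings of `F` containing `ι V'`, with uniformizer `ι ϖ''`;
`θ ∈ V₂` and `c ∈ V'` with `θ ^ q ≡ ι c` modulo `ϖ V₂`, while `c` is not a `q`-th power modulo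
`ϖ'' V'`.  Then every element of `V₁ ∩ V₂` is integral over `V'`, and `V₁` has the same residue
field as `V'`. -/
theorem s34_ext_two {F'' F : Type*} [Field F''] [Field F] [CharZero F''] (ι : F'' →+* F)
    (q : ℕ) (hq : q.Prime)
    (hfin : letI := ι.toAlgebra; Module.Finite F'' F ∧ Module.finrank F'' F ≤ q + 1)
    {ϖ'' : F''} {V' : Subring F''} (hV' : s34_Unif ϖ'' V')
    {V₁ V₂ : Subring F} (hV₁ : s34_Unif (ι ϖ'') V₁) (hV₂ : s34_Unif (ι ϖ'') V₂)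
    (hι₁ : ∀ x ∈ V', ι x ∈ V₁) (hι₂ : ∀ x ∈ V', ι x ∈ V₂) (hne : V₁ ≠ V₂)
    (θ : F) (c : F'') (hθ : θ ∈ V₂) (hc : c ∈ V') (hθc : (ι ϖ'')⁻¹ * (θ ^ q - ι c) ∈ V₂)
    (hnq : ∀ d ∈ V', ϖ''⁻¹ * (d ^ q - c) ∉ V') :
    (∀ y ∈ V₁, y ∈ V₂ → ∃ P : Polynomial V', P.Monic ∧ P.eval₂ (ι.comp V'.subtype) y = 0) ∧
    (∀ y ∈ V₁, ∃ y' ∈ V', (ι ϖ'')⁻¹ * (y - ι y') ∈ V₁) := by
  have : IsDiscreteValuationRing V' := s34_eu_dvr hV'
  have : IsFractionRing V' F'' := s34_eu_frac hV'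
  exact s34_ext_two_aux ι q hq hfin hV' (s34_eu_irred hV') hV₁ hV₂ hι₁ hι₂ hne θ c hθ hc hθc hnq

end Fermat.Agent.S34
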