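import Mathlib

/-!
# S34 (NODE), transversality leaf (N3): the crossing points are rational

* `s34_fc_hres` : in the abstract setting of the transversality lemma (`B = B₁ + 𝔓∞`,
  `B₁` spanned over `A₀` by a set `C` of "rational" functions, Frobenius pairs `g - f^q ∈ 𝔓∞`,
  `g^q - f ∈ 𝔓0` for `f ∈ C`), if `A₀` contains `q²` elements which are roots of `X^(q²) - X`
  modulo `𝔪` and pairwise distinct modulo `𝔪` (i.e. `A₀/π ⊇ 𝔽_(q²)`), then every maximal ideal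
  `𝔪 ⊇ 𝔓∞ + 𝔓0` of `B` is rational over `A₀`: `∀ b : B, ∃ a : A₀, b - a ∈ 𝔪`.
* `s34_fc_roots_of_primitive` : such a set of roots from a primitive `(q² - 1)`-th root of unity.
* `s34_fc_root_mem_valuationSubring` : roots of unity lie in every valuation subring.
-/

set_option autoImplicit false

namespace Fermat.Agent.S34

open Polynomial

/-- **Rationality of the crossing points** (`hres` of the node lemmas). -/
theorem s34_fc_hres {A₀ F : Type*} [CommRing A₀] [Field F] [Algebra A₀ F]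
    (B : Subring F) (hAB : ∀ a : A₀, algebraMap A₀ F a ∈ B)
    (𝔪 Pinf P0 : Ideal B) [h𝔪 : 𝔪.IsMaximal] (hPinf : Pinf ≤ 𝔪) (hP0 : P0 ≤ 𝔪)
    (q : ℕ) (hq : 1 < q) (B₁ : Subring F) (C : Set F) (hCB : ∀ f ∈ C, f ∈ B)
    (hspan : ∀ x ∈ B₁, x ∈ AddSubgroup.closure
      {z : F | ∃ (a : A₀) (f : F), f ∈ C ∧ z = algebraMap A₀ F a * f})
    (hfrob : ∀ f : B, (f : F) ∈ C → ∃ g : B, g - f ^ q ∈ Pinf ∧ g ^ q - f ∈ P0)
    (hsum : ∀ x : B, ∃ x' : B, (x' : F) ∈ B₁ ∧ x - x' ∈ Pinf)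
    (S : Finset A₀) (hScard : q ^ 2 ≤ S.card)
    (hSroot : ∀ a ∈ S, (⟨algebraMap A₀ F (a ^ (q ^ 2) - a), hAB _⟩ : B) ∈ 𝔪)
    (hSinj : ∀ a ∈ S, ∀ b ∈ S, (⟨algebraMap A₀ F (a - b), hAB _⟩ : B) ∈ 𝔪 → a = b) :
    ∀ b : B, ∃ a : A₀, b - ⟨algebraMap A₀ F a, hAB a⟩ ∈ 𝔪 := by
  classical
  let _ : Field (B ⧸ 𝔪) := Ideal.Quotient.field 𝔪
  set φ : B →+* B ⧸ 𝔪 := Ideal.Quotient.mk 𝔪 with hφ
  set ι : A₀ →+* B := (algebraMap A₀ F).codRestrict B hAB with hι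
  have hιval : ∀ a : A₀, ι a = ⟨algebraMap A₀ F a, hAB a⟩ := fun a => rfl
  have hφ0 : ∀ x : B, φ x = 0 ↔ x ∈ 𝔪 := fun x => Ideal.Quotient.eq_zero_iff_mem
  set ψ : A₀ →+* B ⧸ 𝔪 := φ.comp ι with hψ
  have hq2 : 1 < q ^ 2 := by nlinarith
  -- the polynomial `X^(q²) - X`
  set p : (B ⧸ 𝔪)[X] := X ^ (q ^ 2) - X with hp
  have hp0 : p ≠ 0 := FiniteField.X_pow_card_sub_X_ne_zero (B ⧸ 𝔪) hq2
  have hpdeg : p.natDegree = q ^ 2 := FiniteField.X_pow_card_sub_X_natDegree_eq (B ⧸ 𝔪) hq2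
  -- the images of `S` are `q²` distinct roots
  have hinj : Set.InjOn ψ (S : Set A₀) := by
    intro a ha b hb hab
    apply hSinj a ha b hb
    rw [← hιval, ← hφ0, map_sub]
    show ψ a - ψ b = 0
    rw [hab, sub_self]
  have hTcard : (S.image ψ).card = S.card := Finset.card_image_of_injOn hinj
  have hTsub : S.image ψ ⊆ p.roots.toFinset := by
    intro x hx
    obtain ⟨a, ha, rfl⟩ := Finset.mem_image.mp hx
    rw [Multiset.mem_toFinset, mem_roots hp0, IsRoot.def, hp, eval_sub, eval_pow, eval_X]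
    have h1 := (hφ0 _).mpr (hSroot a ha)
    rw [← hιval, map_sub, map_pow] at h1
    exact h1
  have hTeq : S.image ψ = p.roots.toFinset := by
    apply Finset.eq_of_subset_of_card_le hTsub
    calc p.roots.toFinset.card ≤ Multiset.card p.roots := Multiset.toFinset_card_le _
      _ ≤ p.natDegree := card_roots' p
      _ = q ^ 2 := hpdeg
      _ ≤ S.card := hScard
      _ = (S.image ψ).card := hTcard.symm
  -- rational functions are congruent to constants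
  have hC : ∀ f : B, (f : F) ∈ C → ∃ a : A₀, f - ι a ∈ 𝔪 := by
    intro f hf
    obtain ⟨g, hg1, hg2⟩ := hfrob f hf
    have e1 : φ g = φ f ^ q := by
      have := (hφ0 _).mpr (hPinf hg1)
      rw [map_sub, map_pow, sub_eq_zero] at this
      exact this
    have e2 : φ g ^ q = φ f := by
      have := (hφ0 _).mpr (hP0 hg2)
      rw [map_sub, map_pow, sub_eq_zero] at this
      exact this
    have hroot : φ f ∈ p.roots.toFinset := by
      rw [Multiset.mem_toFinset, mem_roots hp0, IsRoot.def, hp, eval_sub, eval_pow, eval_X,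
        sub_eq_zero, pow_two, pow_mul, ← e1, e2]
    rw [← hTeq] at hroot
    obtain ⟨a, -, ha⟩ := Finset.mem_image.mp hroot
    refine ⟨a, ?_⟩
    rw [← hφ0, map_sub, sub_eq_zero]
    exact ha.symm
  -- elements of `B₁`
  have key : ∀ x : F, x ∈ AddSubgroup.closure
      {z : F | ∃ (a : A₀) (f : F), f ∈ C ∧ z = algebraMap A₀ F a * f} →
      ∃ (hx : x ∈ B) (a : A₀), (⟨x, hx⟩ : B) - ι a ∈ 𝔪 := by
    intro x hx
    induction hx using AddSubgroup.closure_induction with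
    | mem z hz =>
      obtain ⟨a, f, hf, rfl⟩ := hz
      obtain ⟨c, hc⟩ := hC ⟨f, hCB f hf⟩ hf
      refine ⟨B.mul_mem (hAB a) (hCB f hf), a * c, ?_⟩
      have e : (⟨algebraMap A₀ F a * f, B.mul_mem (hAB a) (hCB f hf)⟩ : B) - ι (a * c) =
          ι a * ((⟨f, hCB f hf⟩ : B) - ι c) := by
        rw [map_mul, mul_sub]
        rfl
      rw [e]
      exact 𝔪.mul_mem_left _ hc
    | zero => exact ⟨B.zero_mem, 0, by rw [map_zero, sub_zero]; exact 𝔪.zero_mem⟩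
    | add y y' _ _ h h' =>
      obtain ⟨h1, a, h2⟩ := h
      obtain ⟨h1', a', h2'⟩ := h'
      refine ⟨B.add_mem h1 h1', a + a', ?_⟩
      have e0 : (⟨y + y', B.add_mem h1 h1'⟩ : B) = ⟨y, h1⟩ + ⟨y', h1'⟩ := rfl
      have e : (⟨y, h1⟩ : B) + ⟨y', h1'⟩ - ι (a + a') =
          ((⟨y, h1⟩ : B) - ι a) + ((⟨y', h1'⟩ : B) - ι a') := by
        rw [map_add]
        ring
      rw [e0, e]
      exact 𝔪.add_mem h2 h2'
    | neg y _ h =>
      obtain ⟨h1, a, h2⟩ := h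
      refine ⟨B.neg_mem h1, -a, ?_⟩
      have e0 : (⟨-y, B.neg_mem h1⟩ : B) = -⟨y, h1⟩ := rfl
      have e : -(⟨y, h1⟩ : B) - ι (-a) = -((⟨y, h1⟩ : B) - ι a) := by
        rw [map_neg]
        ring
      rw [e0, e]
      exact 𝔪.neg_mem h2
  intro b
  obtain ⟨x', hx'B₁, hx'⟩ := hsum b
  obtain ⟨hx, a, ha⟩ := key _ (hspan _ hx'B₁)
  refine ⟨a, ?_⟩
  have ex : (⟨(x' : F), hx⟩ : B) = x' := rfl
  rw [ex] at ha
  show b - ι a ∈ 𝔪
  have e : b - ι a = (b - x') + (x' - ι a) := by ring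
  rw [e]
  exact 𝔪.add_mem (hPinf hx') ha

/-- A primitive `(q² - 1)`-th root of unity gives `q²` roots of `X^(q²) - X`, pairwise distinct
modulo any prime ideal containing `q`. -/
theorem s34_fc_roots_of_primitive {A₀ : Type*} [CommRing A₀] [IsDomain A₀] (q : ℕ) (hq : 1 < q)
    (ζ : A₀) (hζ : IsPrimitiveRoot ζ (q ^ 2 - 1)) (𝔭 : Ideal A₀) [h𝔭 : 𝔭.IsPrime]
    (hq𝔭 : (q : A₀) ∈ 𝔭) :
    ∃ S : Finset A₀, q ^ 2 ≤ S.card ∧ (∀ a ∈ S, a ^ (q ^ 2) - a = 0) ∧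
      (∀ a ∈ S, ∀ b ∈ S, a - b ∈ 𝔭 → a = b) := by
  classical
  have hq2 : 4 ≤ q ^ 2 := by nlinarith
  obtain ⟨n, hn⟩ : ∃ n : ℕ, q ^ 2 - 1 = n + 1 := ⟨q ^ 2 - 2, by omega⟩
  rw [hn] at hζ
  have hn2 : q ^ 2 = n + 2 := by omega
  have hζn : ζ ^ (n + 1) = 1 := hζ.pow_eq_one
  have h1𝔭 : (1 : A₀) ∉ 𝔭 := fun h => h𝔭.ne_top ((Ideal.eq_top_iff_one _).mpr h)
  have hζ𝔭 : ∀ i : ℕ, ζ ^ i ∉ 𝔭 := by
    intro i hi
    have h2 : ζ ∈ 𝔭 := h𝔭.mem_of_pow_mem i hi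
    exact h1𝔭 (hζn ▸ 𝔭.pow_mem_of_mem h2 (n + 1) (Nat.succ_pos n))
  -- `n + 1 ∉ 𝔭`
  have hn𝔭 : ((n : A₀) + 1) ∉ 𝔭 := by
    intro h
    apply h1𝔭
    have e : (1 : A₀) = (q : A₀) ^ 2 - ((n : A₀) + 1) := by
      have : ((q ^ 2 : ℕ) : A₀) = ((n + 2 : ℕ) : A₀) := by rw [hn2]
      push_cast at this
      rw [this]
      ring
    rw [e]
    exact 𝔭.sub_mem (𝔭.pow_mem_of_mem hq𝔭 2 (by norm_num)) h
  -- `1 - ζ^(k+1) ∉ 𝔭` for `k < n`
  have hone : ∀ k : ℕ, k < n → (1 - ζ ^ (k + 1)) ∉ 𝔭 := by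
    intro k hk hmem
    apply hn𝔭
    rw [← hζ.prod_one_sub_pow_eq_order]
    exact Ideal.prod_mem (f := fun k : ℕ => 1 - ζ ^ (k + 1)) 𝔭 (Finset.mem_range.mpr hk) hmem
  -- differences of powers
  have hdiff : ∀ i j : ℕ, i < j → j < n + 1 → ζ ^ i - ζ ^ j ∉ 𝔭 := by
    intro i j hij hj hmem
    obtain ⟨k, rfl⟩ : ∃ k, j = i + (k + 1) := ⟨j - i - 1, by omega⟩
    have e : ζ ^ i - ζ ^ (i + (k + 1)) = ζ ^ i * (1 - ζ ^ (k + 1)) := by ring
    rw [e] at hmem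
    rcases h𝔭.mem_or_mem hmem with h | h
    · exact hζ𝔭 i h
    · exact hone k (by omega) h
  have hdiff' : ∀ i j : ℕ, i < n + 1 → j < n + 1 → ζ ^ i - ζ ^ j ∈ 𝔭 → i = j := by
    intro i j hi hj hmem
    rcases lt_trichotomy i j with h | h | h
    · exact absurd hmem (hdiff i j h hj)
    · exact h
    · exfalso
      apply hdiff j i h hi
      have e : ζ ^ j - ζ ^ i = -(ζ ^ i - ζ ^ j) := by ring
      rw [e]
      exact 𝔭.neg_mem hmem
  have hpinj : Set.InjOn (fun i : ℕ => ζ ^ i) (Finset.range (n + 1) : Set ℕ) := by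
    intro i hi j hj hij
    apply hdiff' i j (Finset.mem_range.mp hi) (Finset.mem_range.mp hj)
    have : ζ ^ i - ζ ^ j = 0 := sub_eq_zero.mpr hij
    rw [this]
    exact 𝔭.zero_mem
  set T : Finset A₀ := (Finset.range (n + 1)).image (fun i : ℕ => ζ ^ i) with hT
  have h0T : (0 : A₀) ∉ T := by
    intro h
    obtain ⟨i, -, hi⟩ := Finset.mem_image.mp h
    exact hζ𝔭 i (by rw [hi]; exact 𝔭.zero_mem)
  refine ⟨insert 0 T, ?_, ?_, ?_⟩
  · rw [Finset.card_insert_of_notMem h0T, hT, Finset.card_image_of_injOn hpinj,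
      Finset.card_range, hn2]
  · intro a ha
    rcases Finset.mem_insert.mp ha with rfl | ha
    · rw [zero_pow (by omega), sub_zero]
    · obtain ⟨i, -, rfl⟩ := Finset.mem_image.mp ha
      have e : (ζ ^ i) ^ (q ^ 2) = ζ ^ i := by
        rw [hn2, ← pow_mul, show i * (n + 2) = (n + 1) * i + i by ring, pow_add, pow_mul, hζn,
          one_pow, one_mul]
      rw [e, sub_self]
  · intro a ha b hb hab
    rcases Finset.mem_insert.mp ha with rfl | ha <;> rcases Finset.mem_insert.mp hb with rfl | hb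
    · rfl
    · exfalso
      obtain ⟨i, -, rfl⟩ := Finset.mem_image.mp hb
      apply hζ𝔭 i
      have e : ζ ^ i = -(0 - ζ ^ i) := by ring
      rw [e]
      exact 𝔭.neg_mem hab
    · exfalso
      obtain ⟨i, -, rfl⟩ := Finset.mem_image.mp ha
      apply hζ𝔭 i
      rw [sub_zero] at hab
      exact hab
    · obtain ⟨i, hi, rfl⟩ := Finset.mem_image.mp ha
      obtain ⟨j, hj, rfl⟩ := Finset.mem_image.mp hb
      rw [hdiff' i j (Finset.mem_range.mp hi) (Finset.mem_range.mp hj) hab]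

/-- Roots of unity lie in every valuation subring. -/
theorem s34_fc_root_mem_valuationSubring {K : Type*} [Field K] (A : ValuationSubring K) (ζ : K)
    (n : ℕ) (hn : 0 < n) (hζ : ζ ^ n = 1) : ζ ∈ A := by
  rcases A.mem_or_inv_mem ζ with h | h
  · exact h
  · obtain ⟨m, rfl⟩ : ∃ m, n = m + 1 := ⟨n - 1, by omega⟩
    have hζ0 : ζ ≠ 0 := by
      rintro rfl
      rw [zero_pow (Nat.succ_ne_zero m)] at hζ
      exact zero_ne_one hζ
    have e : ζ = ζ⁻¹ ^ m := by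
      have h1 : ζ ^ m * ζ = 1 := by rw [← pow_succ]; exact hζ
      have h2 : ζ ^ m = ζ⁻¹ := eq_inv_of_mul_eq_one_left h1
      rw [inv_pow, h2, inv_inv]
    rw [e]
    exact A.pow_mem h m

end Fermat.Agent.S34
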