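import Mathlib
import Fermat.Agent.S18.HauptField
import Fermat.Agent.S18.ChartZHaupt
import Fermat.Agent.S18.ChAlg
import Fermat.Agent.S34.GaussTau
import Fermat.Agent.S34.GaussZeroModel

/-!
# S34, block (M), leaf (V0): instances for the model

* `s34_gzi_coord_t2`, `s34_gzi_coord_t3`, `s34_gzi_t2_lead`, `s34_gzi_t3_lead` : the Hauptmodul
  coordinates `t₂`, `t₃` have integral `q`-expansions with leading term `q⁻¹`;
* `s34_gzi_alpha_coord` : `α` maps the coordinate of level `N` to the coordinate of level `N ℓ`;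
* `s34_gzi_not_pow_t2`, `s34_gzi_not_pow_t3` : the coordinate is not an `ℓ`-th power modulo `ϖ V'`;
* `s34_gzi_theta_t2`, `s34_gzi_theta_t3` : `θ := β t ∈ V0` and `ϖ⁻¹ (θ^ℓ - α t) ∈ V0`;
* `s34_gzi_ne_t2`, `s34_gzi_ne_t3` : an element of `V∞ \ V0`;
* `s34_gzi_unif_inf`, `s34_gzi_unif_zero`, `s34_gzi_T1_inf`, `s34_gzi_T1_zero`, `s34_gzi_T2_inf`,
  `s34_gzi_T2_zero` : the hypotheses `hV₁`, `hV₂`, `hT1₁`, `hT1₂`, `hT2₁`, `hT2₂` of
  `s34_pow_of_model` for `V₁ = V∞ = s34_gi_V (s18_A1 P K₁) L`, `V₂ = V0 = V∞.comap W`,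
  `τ₁ = s34_gi_tau K₁ L τ`, in the literal shape of that contract.
-/

set_option autoImplicit false
set_option linter.unusedSectionVars false
set_option synthInstance.maxHeartbeats 400000

open ModularCurve

open scoped Pointwise

noncomputable section

namespace Fermat.Agent.S34

open Fermat.Agent.S18

section Coord

variable (K : Type*) [Field K] [Algebra ℚ K] (N : ℕ) [NeZero N]

/-- The `q`-expansion of the coordinate `t₂` is the integral series `s18_t2`. -/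
theorem s34_gzi_coord_t2 (hN : 2 ∣ N) :
    ((s18_coord K (s18_cz_t2 N hN) : laurentBaseChange K (modularFunctionFieldFull N)) :
      LaurentSeries K) = coeffMap (Int.castRingHom K) s18_t2 := by
  show coeffMap (algebraMap ℚ K) (coeffMap (Int.castRingHom ℚ) s18_t2) = _
  rw [coeffMap_coeffMap]
  exact coeffMap_congr (RingHom.ext_int _ _) _

/-- The `q`-expansion of the coordinate `t₃` is the integral series `s18_t3`. -/
theorem s34_gzi_coord_t3 (hN : 3 ∣ N) :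
    ((s18_coord K (s18_cz_t3 N hN) : laurentBaseChange K (modularFunctionFieldFull N)) :
      LaurentSeries K) = coeffMap (Int.castRingHom K) s18_t3 := by
  show coeffMap (algebraMap ℚ K) (coeffMap (Int.castRingHom ℚ) s18_t3) = _
  rw [coeffMap_coeffMap]
  exact coeffMap_congr (RingHom.ext_int _ _) _

/-- `t₂ = q⁻¹ + …`. -/
theorem s34_gzi_t2_lead : s18_t2.coeff (-1) = 1 ∧ ∀ n < (-1 : ℤ), s18_t2.coeff n = 0 := by
  have h := s18h_lead_t2R ℤ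
  rw [s18_t2R_int] at h
  exact ⟨s18h_lead_coeff h (-1) rfl, fun n hn => s18h_lead_coeff_lt h n hn⟩

/-- `t₃ = q⁻¹ + …`. -/
theorem s34_gzi_t3_lead : s18_t3.coeff (-1) = 1 ∧ ∀ n < (-1 : ℤ), s18_t3.coeff n = 0 := by
  have h := s18h_lead_t3R ℤ
  rw [s18_t3R_int] at h
  exact ⟨s18h_lead_coeff h (-1) rfl, fun n hn => s18h_lead_coeff_lt h n hn⟩

variable {N} (ℓ : ℕ) [NeZero ℓ]

/-- `α` maps the coordinate of level `N` to the coordinate of level `N ℓ` (same `q`-series). -/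
theorem s34_gzi_alpha_coord [NeZero (N * ℓ)] (t : modularFunctionFieldFull N)
    (t' : modularFunctionFieldFull (N * ℓ)) (h : (t' : LaurentSeries ℚ) = (t : LaurentSeries ℚ)) :
    heckeAlphaBar K N ℓ (s18_coord K t) = s18_coord K t' := by
  apply Subtype.ext
  rw [coe_heckeAlphaBar]
  show coeffEmb K (t : LaurentSeries ℚ) = coeffEmb K (t' : LaurentSeries ℚ)
  rw [h]

end Coord

section Ext

variable {K : Type*} [Field K] [Algebra ℚ K] {A₁ : ValuationSubring K}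
variable [IsDiscreteValuationRing A₁] {π : A₁}
variable {N ℓ : ℕ} [NeZero N] [NeZero ℓ]

local notation "F'" => laurentBaseChange K (modularFunctionFieldFull N)
local notation "FF" => laurentBaseChange K (modularFunctionFieldFull (N * ℓ))

/-- A prime number which is not a unit of the discrete valuation ring `A₁` is a multiple of the
uniformizer. -/
theorem s34_gzi_ell_dvd (hπ : Irreducible π) (ℓ : ℕ) (hℓ : ((ℓ : K))⁻¹ ∉ A₁) :
    ∃ c : A₁, (ℓ : A₁) = π * c := by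
  have hnu : ¬ IsUnit ((ℓ : ℕ) : A₁) := by
    intro hu
    obtain ⟨u, hu⟩ := hu.exists_right_inv
    apply hℓ
    have h1 : (ℓ : K) * (u : K) = 1 := by
      have := congrArg (Subtype.val : A₁ → K) hu
      simpa using this
    rw [← eq_inv_of_mul_eq_one_right h1]
    exact u.2
  have hmem : ((ℓ : ℕ) : A₁) ∈ IsLocalRing.maximalIdeal A₁ :=
    (IsLocalRing.mem_maximalIdeal _).mpr hnu
  rw [hπ.maximalIdeal_eq, Ideal.mem_span_singleton] at hmem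
  exact hmem

/-- The coordinate `t₂` is not an `ℓ`-th power modulo `ϖ V'`. -/
theorem s34_gzi_not_pow_t2 [Fact ℓ.Prime] (hπ : Irreducible π) (hN : 2 ∣ N) (y : F')
    (hy : y ∈ s34_gi_V A₁ N) :
    (algebraMap K F' (π : K))⁻¹ * (y ^ ℓ - s18_coord K (s18_cz_t2 N hN)) ∉ s34_gi_V A₁ N := by
  refine s34_gz_not_pow_model hπ _ s18_t2 (s34_gzi_coord_t2 K N hN) (-1) s34_gzi_t2_lead.1
    s34_gzi_t2_lead.2 ?_ y hy
  rw [Int.dvd_neg]
  exact fun h => (Fact.out : ℓ.Prime).one_lt.ne' (Nat.eq_one_of_dvd_one (Int.natCast_dvd_natCast.mp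
    (by simpa using h)))

/-- The coordinate `t₃` is not an `ℓ`-th power modulo `ϖ V'`. -/
theorem s34_gzi_not_pow_t3 [Fact ℓ.Prime] (hπ : Irreducible π) (hN : 3 ∣ N) (y : F')
    (hy : y ∈ s34_gi_V A₁ N) :
    (algebraMap K F' (π : K))⁻¹ * (y ^ ℓ - s18_coord K (s18_cz_t3 N hN)) ∉ s34_gi_V A₁ N := by
  refine s34_gz_not_pow_model hπ _ s18_t3 (s34_gzi_coord_t3 K N hN) (-1) s34_gzi_t3_lead.1
    s34_gzi_t3_lead.2 ?_ y hy
  rw [Int.dvd_neg]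
  exact fun h => (Fact.out : ℓ.Prime).one_lt.ne' (Nat.eq_one_of_dvd_one (Int.natCast_dvd_natCast.mp
    (by simpa using h)))

/-- `θ := β t₂ ∈ V0` and `θ^ℓ ≡ α t₂ mod ϖ V0`. -/
theorem s34_gzi_theta_t2 [Fact ℓ.Prime] (W : FF ≃+* FF) (hπ : Irreducible π)
    (hℓ : ((ℓ : K))⁻¹ ∉ A₁)
    (hWϖ : W (algebraMap K FF (π : K)) = algebraMap K FF (π : K))
    (hWα : ∀ x : F', W (heckeAlphaBar K N ℓ x) = heckeBetaBar K N ℓ x)
    (hWβ : ∀ x : F', W (heckeBetaBar K N ℓ x) = heckeAlphaBar K N ℓ x) (hN : 2 ∣ N) :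
    heckeBetaBar K N ℓ (s18_coord K (s18_cz_t2 N hN)) ∈
        (s34_gi_V A₁ (N * ℓ)).comap (W : FF →+* FF) ∧
      (algebraMap K FF (π : K))⁻¹ * ((heckeBetaBar K N ℓ (s18_coord K (s18_cz_t2 N hN))) ^ ℓ -
        heckeAlphaBar K N ℓ (s18_coord K (s18_cz_t2 N hN))) ∈
          (s34_gi_V A₁ (N * ℓ)).comap (W : FF →+* FF) := by
  obtain ⟨c, hc⟩ := s34_gzi_ell_dvd hπ ℓ hℓ
  exact s34_gz_theta_model W hπ c hc hWϖ hWα hWβ _ s18_t2 (s34_gzi_coord_t2 K N hN)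

/-- `θ := β t₃ ∈ V0` and `θ^ℓ ≡ α t₃ mod ϖ V0`. -/
theorem s34_gzi_theta_t3 [Fact ℓ.Prime] (W : FF ≃+* FF) (hπ : Irreducible π)
    (hℓ : ((ℓ : K))⁻¹ ∉ A₁)
    (hWϖ : W (algebraMap K FF (π : K)) = algebraMap K FF (π : K))
    (hWα : ∀ x : F', W (heckeAlphaBar K N ℓ x) = heckeBetaBar K N ℓ x)
    (hWβ : ∀ x : F', W (heckeBetaBar K N ℓ x) = heckeAlphaBar K N ℓ x) (hN : 3 ∣ N) :
    heckeBetaBar K N ℓ (s18_coord K (s18_cz_t3 N hN)) ∈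
        (s34_gi_V A₁ (N * ℓ)).comap (W : FF →+* FF) ∧
      (algebraMap K FF (π : K))⁻¹ * ((heckeBetaBar K N ℓ (s18_coord K (s18_cz_t3 N hN))) ^ ℓ -
        heckeAlphaBar K N ℓ (s18_coord K (s18_cz_t3 N hN))) ∈
          (s34_gi_V A₁ (N * ℓ)).comap (W : FF →+* FF) := by
  obtain ⟨c, hc⟩ := s34_gzi_ell_dvd hπ ℓ hℓ
  exact s34_gz_theta_model W hπ c hc hWϖ hWα hWβ _ s18_t3 (s34_gzi_coord_t3 K N hN)

/-- `V∞ ≠ V0` (level divisible by `2`). -/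
theorem s34_gzi_ne_t2 [Fact ℓ.Prime] (W : FF ≃+* FF) (hπ : Irreducible π)
    (hℓ : ((ℓ : K))⁻¹ ∉ A₁)
    (hWϖ : W (algebraMap K FF (π : K)) = algebraMap K FF (π : K))
    (hWα : ∀ x : F', W (heckeAlphaBar K N ℓ x) = heckeBetaBar K N ℓ x)
    (hWβ : ∀ x : F', W (heckeBetaBar K N ℓ x) = heckeAlphaBar K N ℓ x) (hN : 2 ∣ N) :
    ∃ z : FF, z ∈ s34_gi_V A₁ (N * ℓ) ∧ z ∉ (s34_gi_V A₁ (N * ℓ)).comap (W : FF →+* FF) := by
  obtain ⟨c, hc⟩ := s34_gzi_ell_dvd hπ ℓ hℓ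
  exact s34_gz_ne_model W hπ c hc hWϖ hWα hWβ _ s18_t2 (s34_gzi_coord_t2 K N hN) (-1)
    (by norm_num) s34_gzi_t2_lead.1 s34_gzi_t2_lead.2

/-- `V∞ ≠ V0` (level divisible by `3`). -/
theorem s34_gzi_ne_t3 [Fact ℓ.Prime] (W : FF ≃+* FF) (hπ : Irreducible π)
    (hℓ : ((ℓ : K))⁻¹ ∉ A₁)
    (hWϖ : W (algebraMap K FF (π : K)) = algebraMap K FF (π : K))
    (hWα : ∀ x : F', W (heckeAlphaBar K N ℓ x) = heckeBetaBar K N ℓ x)
    (hWβ : ∀ x : F', W (heckeBetaBar K N ℓ x) = heckeAlphaBar K N ℓ x) (hN : 3 ∣ N) :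
    ∃ z : FF, z ∈ s34_gi_V A₁ (N * ℓ) ∧ z ∉ (s34_gi_V A₁ (N * ℓ)).comap (W : FF →+* FF) := by
  obtain ⟨c, hc⟩ := s34_gzi_ell_dvd hπ ℓ hℓ
  exact s34_gz_ne_model W hπ c hc hWϖ hWα hWβ _ s18_t3 (s34_gzi_coord_t3 K N hN) (-1)
    (by norm_num) s34_gzi_t3_lead.1 s34_gzi_t3_lead.2

end Ext

section Contract

variable (P : ValuationSubring (AlgebraicClosure ℚ))
  (K₁ : IntermediateField ℚ (AlgebraicClosure ℚ)) [Normal ℚ K₁] (L : ℕ) [NeZero L]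
variable [IsDiscreteValuationRing (s18_A1 P K₁)] {π : s18_A1 P K₁}

/-- The two ways of writing the uniformizer in `F` agree. -/
theorem s34_gzi_algebraMap (a : s18_A1 P K₁) :
    algebraMap (s18_A1 P K₁) (s18_F1 K₁ L) a = algebraMap K₁ (s18_F1 K₁ L) (a : K₁) := rfl

/-- `hV₁` of `s34_pow_of_model` for `V₁ = V∞`. -/
theorem s34_gzi_unif_inf (hπ : Irreducible π) :
    s34_Unif (algebraMap (s18_A1 P K₁) (s18_F1 K₁ L) π) (s34_gi_V (s18_A1 P K₁) L) := by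
  rw [s34_gzi_algebraMap]
  exact s34_gi_unif (A₁ := s18_A1 P K₁) (N := L) (π := π) hπ

/-- `hV₂` of `s34_pow_of_model` for `V₂ = V0 = V∞.comap W`. -/
theorem s34_gzi_unif_zero (hπ : Irreducible π) (W : s18_F1 K₁ L ≃+* s18_F1 K₁ L)
    (hWϖ : W (algebraMap (s18_A1 P K₁) (s18_F1 K₁ L) π) =
      algebraMap (s18_A1 P K₁) (s18_F1 K₁ L) π) :
    s34_Unif (algebraMap (s18_A1 P K₁) (s18_F1 K₁ L) π)
      ((s34_gi_V (s18_A1 P K₁) L).comap (W : s18_F1 K₁ L →+* s18_F1 K₁ L)) :=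
  s34_Unif.comap (s34_gzi_unif_inf P K₁ L hπ) W hWϖ

/-- `hT1₁` of `s34_pow_of_model` for `V₁ = V∞`, `τ₁ = s34_gi_tau K₁ L τ`. -/
theorem s34_gzi_T1_inf (hπ : Irreducible π)
    (τ : AlgebraicClosure ℚ ≃ₐ[ℚ] AlgebraicClosure ℚ) (hτ : τ • P = P) :
    ∀ x : s18_F1 K₁ L, x ≠ 0 → s34_gi_tau K₁ L τ x / x ∈ s34_gi_V (s18_A1 P K₁) L ∧
      x / s34_gi_tau K₁ L τ x ∈ s34_gi_V (s18_A1 P K₁) L :=
  fun x hx => s34_gi_T1 P K₁ L hπ τ hτ x hx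

/-- `hT2₁` of `s34_pow_of_model` for `V₁ = V∞`, `τ₁ = s34_gi_tau K₁ L τ`. -/
theorem s34_gzi_T2_inf (hπ : Irreducible π)
    (τ : AlgebraicClosure ℚ ≃ₐ[ℚ] AlgebraicClosure ℚ) (hτ : τ ∈ P.inertiaSubgroupIn ℚ) :
    ∀ x ∈ s34_gi_V (s18_A1 P K₁) L,
      (algebraMap (s18_A1 P K₁) (s18_F1 K₁ L) π)⁻¹ * (s34_gi_tau K₁ L τ x - x) ∈
        s34_gi_V (s18_A1 P K₁) L := by
  intro x hx
  rw [s34_gzi_algebraMap]
  exact s34_gi_T2 P K₁ L hπ τ hτ x hx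

/-- `hT1₂` of `s34_pow_of_model` for `V₂ = V0 = V∞.comap W`, `τ₁ = s34_gi_tau K₁ L τ`. -/
theorem s34_gzi_T1_zero (hπ : Irreducible π) (W : s18_F1 K₁ L ≃+* s18_F1 K₁ L)
    (hWσ : ∀ (σ : K₁ ≃ₐ[ℚ] K₁) (x : s18_F1 K₁ L),
      W (arithmeticRingAut (modularFunctionFieldFull L) σ x) =
        arithmeticRingAut (modularFunctionFieldFull L) σ (W x))
    (τ : AlgebraicClosure ℚ ≃ₐ[ℚ] AlgebraicClosure ℚ) (hτ : τ • P = P) :
    ∀ x : s18_F1 K₁ L, x ≠ 0 →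
      s34_gi_tau K₁ L τ x / x ∈
          (s34_gi_V (s18_A1 P K₁) L).comap (W : s18_F1 K₁ L →+* s18_F1 K₁ L) ∧
        x / s34_gi_tau K₁ L τ x ∈
          (s34_gi_V (s18_A1 P K₁) L).comap (W : s18_F1 K₁ L →+* s18_F1 K₁ L) :=
  fun x hx => s34_gz_T1 (V := s34_gi_V (s18_A1 P K₁) L) W (s34_gi_tau K₁ L τ)
    (fun y => hWσ _ y) (s34_gzi_T1_inf P K₁ L hπ τ hτ) x hx

/-- `hT2₂` of `s34_pow_of_model` for `V₂ = V0 = V∞.comap W`, `τ₁ = s34_gi_tau K₁ L τ`. -/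
theorem s34_gzi_T2_zero (hπ : Irreducible π) (W : s18_F1 K₁ L ≃+* s18_F1 K₁ L)
    (hWϖ : W (algebraMap (s18_A1 P K₁) (s18_F1 K₁ L) π) =
      algebraMap (s18_A1 P K₁) (s18_F1 K₁ L) π)
    (hWσ : ∀ (σ : K₁ ≃ₐ[ℚ] K₁) (x : s18_F1 K₁ L),
      W (arithmeticRingAut (modularFunctionFieldFull L) σ x) =
        arithmeticRingAut (modularFunctionFieldFull L) σ (W x))
    (τ : AlgebraicClosure ℚ ≃ₐ[ℚ] AlgebraicClosure ℚ) (hτ : τ ∈ P.inertiaSubgroupIn ℚ) :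
    ∀ x ∈ (s34_gi_V (s18_A1 P K₁) L).comap (W : s18_F1 K₁ L →+* s18_F1 K₁ L),
      (algebraMap (s18_A1 P K₁) (s18_F1 K₁ L) π)⁻¹ * (s34_gi_tau K₁ L τ x - x) ∈
        (s34_gi_V (s18_A1 P K₁) L).comap (W : s18_F1 K₁ L →+* s18_F1 K₁ L) :=
  fun x hx => s34_gz_T2 (V := s34_gi_V (s18_A1 P K₁) L) W (s34_gi_tau K₁ L τ)
    hWϖ (fun y => hWσ _ y) (s34_gzi_T2_inf P K₁ L hπ τ hτ) x hx

end Contract

end Fermat.Agent.S34
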