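import Mathlib
import Fermat.Agent.S34.IcModel
import Fermat.Agent.S34.IcChart
import Fermat.Agent.S34.IcDvr
import Fermat.Agent.S34.IcUnif
import Fermat.Agent.S18.Setup

/-!
# S34 (NODE), leaf (IM-c): the integral-closure charts at the concrete model

`s34_imi_Charts A₀ t` bundles the chart-side hypotheses of `s34_pow_of_model` /
`s34_two_chart_components` that do not involve the two Gauss valuations, for the charts
`B0 := s34_ic_chart A₀ t`, `Binf := s34_ic_chart A₀ t⁻¹`: `noeth0`, `noethi`, `frac0`, `fraci`,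
`t_ne`, `t_mem`, `tinv_mem`, `glue0`, `glueInf`, `h1`, `fin`, `hroot0`, `hrooti`, together with
the `hdvr` hypothesis of the node lemma for both charts (`hdvr0`, `hdvri`).

* `s34_imi_charts_gen` : the bundle in the generic setting of helper17's (IC) (`A₀` a discrete
  valuation ring with fraction field `K`, `F ⊇ K` finite over `K(t)`, `t` transcendental).
* `s34_imi_charts` : the bundle at the model, `A₀ = s18_A1 A K₁`, `F = s18_F1 K₁ L`, any level `L`,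
  for a coordinate `t` transcendental over `K₁` with `j ∈ K₁(t)`.
* `s34_imi_charts_t2`, `s34_imi_charts_t3` : the Hauptmoduln `t₂`, `t₃`.
-/

set_option autoImplicit false
set_option synthInstance.maxHeartbeats 400000

open ModularCurve Polynomial IntermediateField

noncomputable section

namespace Fermat.Agent.S34

open Fermat.Agent.S18

/-- The chart-side hypotheses of `s34_pow_of_model` for the integral-closure charts of a
coordinate `t` (a `Prop`-valued bundle, fields named as in `s34_pow_of_model`), and the `hdvr`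
hypothesis of the node lemma for both charts. -/
structure s34_imi_Charts (A₀ : Type*) {F : Type*} [CommRing A₀] [Field F] [Algebra A₀ F]
    (t : F) : Prop where
  noeth0 : IsNoetherianRing (s34_ic_chart A₀ t).toSubring
  noethi : IsNoetherianRing (s34_ic_chart A₀ t⁻¹).toSubring
  frac0 : ∀ x : F, ∃ a ∈ (s34_ic_chart A₀ t).toSubring,
    ∃ b ∈ (s34_ic_chart A₀ t).toSubring, b ≠ 0 ∧ x = a / b
  fraci : ∀ x : F, ∃ a ∈ (s34_ic_chart A₀ t⁻¹).toSubring,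
    ∃ b ∈ (s34_ic_chart A₀ t⁻¹).toSubring, b ≠ 0 ∧ x = a / b
  t_ne : t ≠ 0
  t_mem : t ∈ s34_ic_chart A₀ t
  tinv_mem : t⁻¹ ∈ s34_ic_chart A₀ t⁻¹
  glue0 : ∀ x ∈ s34_ic_chart A₀ t, ∃ k : ℕ, t⁻¹ ^ k * x ∈ s34_ic_chart A₀ t⁻¹
  glueInf : ∀ x ∈ s34_ic_chart A₀ t⁻¹, ∃ k : ℕ, t ^ k * x ∈ s34_ic_chart A₀ t
  h1 : ∃ c₁ : ℕ, ∀ c, c₁ ≤ c → ∀ x ∈ s34_ic_chart A₀ t, ∀ k : ℕ,
    ∃ a ∈ s34_ic_chart A₀ t, ∃ b ∈ s34_ic_chart A₀ t⁻¹, t⁻¹ ^ k * x = a + t ^ c * b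
  fin : ∀ c : ℕ, ∃ s : Finset F, ∀ x ∈ s34_ic_chart A₀ t,
    t⁻¹ ^ c * x ∈ s34_ic_chart A₀ t⁻¹ → x ∈ Submodule.span A₀ (s : Set F)
  hroot0 : ∀ m : ℕ, 0 < m → ∀ z : F,
    z ^ m ∈ (s34_ic_chart A₀ t).toSubring → z ∈ (s34_ic_chart A₀ t).toSubring
  hrooti : ∀ m : ℕ, 0 < m → ∀ z : F,
    z ^ m ∈ (s34_ic_chart A₀ t⁻¹).toSubring → z ∈ (s34_ic_chart A₀ t⁻¹).toSubring
  hdvr0 : ∀ π : A₀, Irreducible π → ∀ 𝔮 : Ideal (s34_ic_chart A₀ t).toSubring, 𝔮.IsPrime →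
    (⟨algebraMap A₀ F π, (s34_ic_chart A₀ t).algebraMap_mem π⟩ :
      (s34_ic_chart A₀ t).toSubring) ∉ 𝔮 → 𝔮 ≠ ⊥ →
    ∃ W : ValuationSubring F, IsDiscreteValuationRing W ∧
      ∀ z : F, z ∈ W ↔
        ∃ a s : (s34_ic_chart A₀ t).toSubring, s ∉ 𝔮 ∧ z = (a : F) / (s : F)
  hdvri : ∀ π : A₀, Irreducible π → ∀ 𝔮 : Ideal (s34_ic_chart A₀ t⁻¹).toSubring, 𝔮.IsPrime →
    (⟨algebraMap A₀ F π, (s34_ic_chart A₀ t⁻¹).algebraMap_mem π⟩ :
      (s34_ic_chart A₀ t⁻¹).toSubring) ∉ 𝔮 → 𝔮 ≠ ⊥ →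
    ∃ W : ValuationSubring F, IsDiscreteValuationRing W ∧
      ∀ z : F, z ∈ W ↔
        ∃ a s : (s34_ic_chart A₀ t⁻¹).toSubring, s ∉ 𝔮 ∧ z = (a : F) / (s : F)

/-- **(IM-c), generic form.** -/
theorem s34_imi_charts_gen {A₀ K F : Type*} [CommRing A₀] [IsDomain A₀]
    [IsDiscreteValuationRing A₀] [Field K] [CharZero K] [Algebra A₀ K] [IsFractionRing A₀ K]
    [Field F] [Algebra K F] [Algebra A₀ F] [IsScalarTower A₀ K F]
    (t : F) (ht : Transcendental K t) [FiniteDimensional K⟮t⟯ F] : s34_imi_Charts A₀ t := by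
  have hne : t ≠ 0 := s34_ic_ne_zero (K := K) ht
  exact
    { noeth0 := s34_ic_noeth (A₀ := A₀) (K := K) t ht
      noethi := s34_ic_noeth_inv (A₀ := A₀) (K := K) t ht
      frac0 := s34_ic_frac (A₀ := A₀) (K := K) t
      fraci := s34_ic_frac_inv (A₀ := A₀) (K := K) t
      t_ne := hne
      t_mem := s34_ic_t_mem t
      tinv_mem := s34_ic_t_mem t⁻¹
      glue0 := fun x hx => s34_ic_glue hne hx
      glueInf := fun x hx => s34_ic_glue' hne hx
      h1 := s34_ic_h1 (A₀ := A₀) (K := K) t ht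
      fin := s34_ic_fin (A₀ := A₀) (K := K) t ht
      hroot0 := fun m hm z hz => s34_ic_root t m hm z hz
      hrooti := fun m hm z hz => s34_ic_root t⁻¹ m hm z hz
      hdvr0 := fun π hπ 𝔮 h𝔮 hϖ h0 =>
        s34_ic_hdvr (A₀ := A₀) (K := K) π hπ t ht 𝔮 h𝔮 _ hϖ h0
      hdvri := fun π hπ 𝔮 h𝔮 hϖ h0 =>
        s34_ic_hdvr_inv (A₀ := A₀) (K := K) π hπ t ht 𝔮 h𝔮 _ hϖ h0 }

variable (L : ℕ) [NeZero L] (A : ValuationSubring (AlgebraicClosure ℚ))
  (K₁ : IntermediateField ℚ (AlgebraicClosure ℚ))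

omit [NeZero L] in
/-- The scalar tower `A₁ → K₁ → K₁ · F_L`. -/
theorem s34_imi_tower : IsScalarTower (s18_A1 A K₁) K₁ (s18_F1 K₁ L) :=
  IsScalarTower.of_algebraMap_eq (fun _ => rfl)

set_option maxHeartbeats 4000000 in
/-- **(IM-c)** The integral-closure charts of a transcendental coordinate `t` with `j ∈ K₁(t)`
satisfy the chart-side hypotheses of `s34_pow_of_model`, at every level `L`. -/
theorem s34_imi_charts [IsDiscreteValuationRing (s18_A1 A K₁)] (t : s18_F1 K₁ L)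
    (ht : Transcendental K₁ t) (hj : s34_im_j K₁ L ∈ K₁⟮t⟯) :
    s34_imi_Charts (s18_A1 A K₁) t := by
  have htower := s34_imi_tower L A K₁
  have hfd : FiniteDimensional K₁⟮t⟯ (s18_F1 K₁ L) := s34_im_finite K₁ L t hj
  exact s34_imi_charts_gen (A₀ := s18_A1 A K₁) (K := K₁) t ht

/-- **(IM-c)** for the Hauptmodul `t₂` at a level divisible by `2`. -/
theorem s34_imi_charts_t2 [IsDiscreteValuationRing (s18_A1 A K₁)] (h : 2 ∣ L) :
    s34_imi_Charts (s18_A1 A K₁) (s18_coord K₁ (s18_cz_t2 L h)) :=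
  s34_imi_charts L A K₁ _ (s34_im_transc_t2 K₁ L h) (s34_im_j_mem_t2 K₁ L h)

/-- **(IM-c)** for the Hauptmodul `t₃` at a level divisible by `3`. -/
theorem s34_imi_charts_t3 [IsDiscreteValuationRing (s18_A1 A K₁)] (h : 3 ∣ L) :
    s34_imi_Charts (s18_A1 A K₁) (s18_coord K₁ (s18_cz_t3 L h)) :=
  s34_imi_charts L A K₁ _ (s34_im_transc_t3 K₁ L h) (s34_im_j_mem_t3 K₁ L h)

end Fermat.Agent.S34
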