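import Mathlib
import Fermat.Agent.S34.InstDefs
import Fermat.Agent.S34.IcDvr
import Fermat.Agent.S34.IcUnif
import Fermat.Agent.S34.RatPt
import Fermat.Agent.S34.PowLevel
import Fermat.Agent.S18.A1Facts

/-!
# S34, block (INST), variant: the crossing points through the functions `G`

`s34_ct_G` : the contract fact "at every crossing point there is a function `G` carrying the
horizontal divisor of `g₁`" (the hypotheses `hG0`, `hGi` of `s34_pow_of_model`) for the concrete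
model; `s34_inst_pow_G` : the power statement at the model levels from
`s34_ct_fin/unif/le/tau/cap/sm/G`.
-/

set_option autoImplicit false
set_option synthInstance.maxHeartbeats 400000

open ModularCurve AlgebraicCurve

noncomputable section

namespace Fermat.Agent.S34

open Fermat.Agent.S18

/-- (G) for one chart: at every crossing point a function `G` with `g₁ / G ^ m` a unit at all
horizontal primes through the point. -/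
def s34_md_G {A₀ F : Type*} [CommRing A₀] [Field F] [Algebra A₀ F] (π : A₀)
    (B : Subalgebra A₀ F) (V₁ V₂ : Subring F) (m : ℕ) (g₁ : F) : Prop :=
  ∀ 𝔪 : Ideal B.toSubring, 𝔪.IsMaximal →
    (⟨algebraMap A₀ F π, B.algebraMap_mem π⟩ : B.toSubring) ∈ 𝔪 →
    (∀ s : B.toSubring, s ∉ 𝔪 →
      (algebraMap A₀ F π)⁻¹ * (s : F) ∉ V₁ ∧ (algebraMap A₀ F π)⁻¹ * (s : F) ∉ V₂) →
    ∃ G : F, G ≠ 0 ∧
      ∀ 𝔮 : Ideal B.toSubring, 𝔮.IsPrime → 𝔮 ≤ 𝔪 →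
        (⟨algebraMap A₀ F π, B.algebraMap_mem π⟩ : B.toSubring) ∉ 𝔮 →
        g₁ * (G⁻¹) ^ m ∈ s18_loc B.toSubring 𝔮 ∧ G ^ m * g₁⁻¹ ∈ s18_loc B.toSubring 𝔮

/-- (G) the functions `G` at the crossing points of both charts. -/
def s34_ct_G : Prop :=
  ∀ (N₁ q : ℕ) [NeZero N₁] [NeZero (N₁ * q)] [Fact q.Prime], ¬ q ∣ N₁ →
    ∀ (P : ValuationSubring (AlgebraicClosure ℚ)), P.LiesOverPrime q →
    ∀ (K₁ : IntermediateField ℚ (AlgebraicClosure ℚ)) [FiniteDimensional ℚ K₁] [IsGalois ℚ K₁]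
      [IsDiscreteValuationRing (s18_A1 P K₁)] (π : s18_A1 P K₁), Irreducible π →
    ∀ (tL : modularFunctionFieldFull (N₁ * q)), s34_md_IsT N₁ q tL →
    ∀ (W : s18_F1 K₁ (N₁ * q) ≃ₐ[K₁] s18_F1 K₁ (N₁ * q)),
      haveI : NeZero q := ⟨(Fact.out : q.Prime).ne_zero⟩
      s34_md_IsSwap K₁ N₁ q W →
    ∀ (m : ℕ) (g₁ : s18_F1 K₁ (N₁ * q)), g₁ ≠ 0 →
    (∀ P' : Place (AlgebraicClosure ℚ) (modularFunctionFieldBar (N₁ * q)),
      (m : ℤ) ∣ P'.ord (s18_baseIncl K₁ (N₁ * q) g₁)) →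
    (∀ P' : Place (AlgebraicClosure ℚ) (modularFunctionFieldBar (N₁ * q)),
      P'.ord (s18_baseIncl K₁ (N₁ * q) g₁) ≠ 0 →
      ∀ σ : AlgebraicClosure ℚ ≃ₐ[ℚ] AlgebraicClosure ℚ, (∀ c ∈ K₁, σ c = c) →
        arithmeticGalois (modularFunctionFieldFull (N₁ * q)) σ • P' = P') →
    s34_md_G π (s34_md_B0 P K₁ (N₁ * q) tL) (s34_md_V1 P K₁ (N₁ * q))
      (s34_md_V2 P K₁ (N₁ * q) W) m g₁ ∧
    s34_md_G π (s34_md_Binf P K₁ (N₁ * q) tL) (s34_md_V1 P K₁ (N₁ * q))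
      (s34_md_V2 P K₁ (N₁ * q) W) m g₁

set_option maxHeartbeats 4000000 in
/-- **(INST)**, variant with `s34_ct_G` : the power statement at the model levels. -/
theorem s34_inst_pow_G (hfin : s34_ct_fin) (hunif : s34_ct_unif) (hle : s34_ct_le)
    (htau : s34_ct_tau) (hcap : s34_ct_cap) (hsm : s34_ct_sm) (hG : s34_ct_G)
    (N₁ q M : ℕ) (hN₁ : N₁ ≠ 0) (hM : M = 2 ∨ M = 3) (hMN : M ∣ N₁) (hq : q.Prime)
    (hqN : ¬ q ∣ N₁) : s34_PowLevel (N₁ * q) q := by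
  intro P hP τ hτ m hm0 hqm g hg0 hdiv
  haveI : NeZero N₁ := ⟨hN₁⟩
  haveI : Fact q.Prime := ⟨hq⟩
  haveI : NeZero q := ⟨hq.ne_zero⟩
  haveI : NeZero (N₁ * q) := ⟨mul_ne_zero hN₁ hq.ne_zero⟩
  -- the number field
  obtain ⟨K₁, hK₁, hK⟩ := s34_rp_exists (N₁ * q) g hg0
  obtain ⟨⟨g₁, hg₁⟩, hfix⟩ := hK K₁ le_rfl
  haveI : FiniteDimensional ℚ K₁ := hK₁.1
  haveI : IsGalois ℚ K₁ := hK₁.2
  haveI hDVR : IsDiscreteValuationRing (s18_A1 P K₁) := s18_a1_dvr P hP K₁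
  obtain ⟨π, hπ⟩ := IsDiscreteValuationRing.exists_irreducible (s18_A1 P K₁)
  -- the coordinate
  obtain ⟨tL, htL⟩ : ∃ tL : modularFunctionFieldFull (N₁ * q), s34_md_IsT N₁ q tL := by
    rcases hM with rfl | rfl
    · exact ⟨s18_cz_t2 (N₁ * q) (dvd_mul_of_dvd_left hMN q), Or.inl ⟨rfl, hMN⟩⟩
    · exact ⟨s18_cz_t3 (N₁ * q) (dvd_mul_of_dvd_left hMN q), Or.inr ⟨rfl, hMN⟩⟩
  -- the swap
  have hcop : Nat.Coprime q N₁ := (hq.coprime_iff_not_dvd).mpr hqN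
  obtain ⟨W, hW⟩ := s34_md_exists_swap K₁ N₁ q hcop
  -- the contract
  obtain ⟨htr, hfd⟩ := hfin N₁ q K₁ tL htL
  haveI := hfd
  obtain ⟨hV₁, hV₂⟩ := hunif N₁ q hqN P hP K₁ π hπ W hW
  obtain ⟨h01, h02, hi1, hi2⟩ := hle N₁ q hqN P hP K₁ π hπ tL htL W hW
  obtain ⟨hτ₁, hτB0, hτBi, hτπ, hT1₁, hT1₂, hT2₁, hT2₂⟩ :=
    htau N₁ q hqN P hP K₁ π hπ tL htL W hW τ hτ
  obtain ⟨hcap0, hcapi⟩ := hcap N₁ q hqN P hP K₁ π hπ tL htL W hW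
  obtain ⟨hsm0, hsmi⟩ := hsm N₁ q hqN P hP K₁ π hπ tL htL W hW
  -- the function
  have hg₁0 : g₁ ≠ 0 := by
    rintro rfl
    exact hg0 (by rw [← hg₁, map_zero])
  have hmu : IsUnit ((m : ℕ) : s18_A1 P K₁) := s18_a1_isUnit_natCast P hP K₁ m hqm
  have hdivg : ∀ P' : Place (AlgebraicClosure ℚ) (modularFunctionFieldBar (N₁ * q)),
      (m : ℤ) ∣ P'.ord (s18_baseIncl K₁ (N₁ * q) g₁) := by
    rw [hg₁]; exact hdiv
  have hfix' : ∀ P' : Place (AlgebraicClosure ℚ) (modularFunctionFieldBar (N₁ * q)),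
      P'.ord (s18_baseIncl K₁ (N₁ * q) g₁) ≠ 0 →
      ∀ σ : AlgebraicClosure ℚ ≃ₐ[ℚ] AlgebraicClosure ℚ, (∀ c ∈ K₁, σ c = c) →
        arithmeticGalois (modularFunctionFieldFull (N₁ * q)) σ • P' = P' := by
    rw [hg₁]; exact hfix
  obtain ⟨hG0, hGi⟩ := hG N₁ q hqN P hP K₁ π hπ tL htL W hW m g₁ hg₁0 hdivg hfix'
  -- the charts
  haveI tower : IsScalarTower (s18_A1 P K₁) K₁ (s18_F1 K₁ (N₁ * q)) :=
    IsScalarTower.of_algebraMap_eq (fun _ => rfl)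
  have t_ne : s18_coord K₁ tL ≠ 0 := s34_ic_ne_zero htr
  have noeth0 : IsNoetherianRing (s34_md_B0 P K₁ (N₁ * q) tL).toSubring :=
    s34_ic_noeth (K := K₁) (s18_coord K₁ tL) htr
  have noethi : IsNoetherianRing (s34_md_Binf P K₁ (N₁ * q) tL).toSubring :=
    s34_ic_noeth_inv (K := K₁) (s18_coord K₁ tL) htr
  have frac0 : ∀ x : s18_F1 K₁ (N₁ * q), ∃ a ∈ (s34_md_B0 P K₁ (N₁ * q) tL).toSubring,
      ∃ b ∈ (s34_md_B0 P K₁ (N₁ * q) tL).toSubring, b ≠ 0 ∧ x = a / b :=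
    s34_ic_frac (K := K₁) (s18_coord K₁ tL)
  have fraci : ∀ x : s18_F1 K₁ (N₁ * q), ∃ a ∈ (s34_md_Binf P K₁ (N₁ * q) tL).toSubring,
      ∃ b ∈ (s34_md_Binf P K₁ (N₁ * q) tL).toSubring, b ≠ 0 ∧ x = a / b :=
    s34_ic_frac_inv (K := K₁) (s18_coord K₁ tL)
  have key := s34_pow_of_model (N₁ * q) P K₁ hπ (t := s18_coord K₁ tL)
    (B0 := s34_md_B0 P K₁ (N₁ * q) tL) (Binf := s34_md_Binf P K₁ (N₁ * q) tL)
    (s34_md_V1 P K₁ (N₁ * q)) (s34_md_V2 P K₁ (N₁ * q) W) hV₁ hV₂ h01 h02 hi1 hi2 hcap0 hcapi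
    noeth0 noethi frac0 fraci t_ne (s34_ic_t_mem _) (s34_ic_t_mem _)
    (fun x hx => s34_ic_glue t_ne hx) (fun x hx => s34_ic_glue' t_ne hx)
    (s34_ic_h1 (K := K₁) (s18_coord K₁ tL) htr) (s34_ic_fin (K := K₁) (s18_coord K₁ tL) htr)
    m hm0 hmu (s34_ic_root (s18_coord K₁ tL) m hm0) (s34_ic_root (s18_coord K₁ tL)⁻¹ m hm0)
    τ (arithmeticRingAut (modularFunctionFieldFull (N₁ * q)) (τ.restrictNormal K₁))
    hτ₁ hτB0 hτBi hτπ hT1₁ hT1₂ hT2₁ hT2₂ g₁ hg₁0 hdivg hsm0 hsmi hG0 hGi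
  rw [hg₁] at key
  exact key

end Fermat.Agent.S34
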