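import Mathlib
import Fermat.Agent.S18.ChartDefs

/-!
# S34: Krull's lemma for a normal noetherian subring of a field, localised at a prime

`s34_krull_loc`: let `B` be a noetherian subring of a field `F` with fraction field `F`, integrally
closed in `F`, `𝔪` a prime ideal of `B` and `x : F`.  If `x` lies in every discrete valuation ring
`W ⊇ B_𝔪` of `F`, then `x ∈ B_𝔪`.

(Proof: otherwise `(B : x) ⊆ 𝔪`; a minimal prime `𝔭 ⊆ 𝔪` over `(B : x)` is of the form `(B : y)`,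
and then `B_𝔭` has principal maximal ideal — else `y 𝔭 ⊆ 𝔭` makes `y` integral —, so `B_𝔭` is a
discrete valuation ring containing `B_𝔪` and not containing `x`.)
-/

set_option autoImplicit false

namespace Fermat.Agent.S34

open IsLocalRing Fermat.Agent.S18

/-- The local ring at a prime `𝔭 = (B : y)` (`y ∉ B`) of a noetherian subring `B` of `F`,
integrally closed in `F`, is a discrete valuation ring. -/
theorem s34_dvr_of_colon {F : Type*} [Field F] (B : Subring F) (hnoeth : IsNoetherianRing B)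
    (hfrac : ∀ x : F, ∃ a ∈ B, ∃ b ∈ B, b ≠ 0 ∧ x = a / b)
    (hnorm : ∀ z : F, IsIntegral B z → z ∈ B)
    (𝔭 : Ideal B) (h𝔭 : 𝔭.IsPrime) (y : F) (hy : y ∉ B)
    (h𝔭y : ∀ r : B, r ∈ 𝔭 ↔ (r : F) * y ∈ B) :
    ∃ W : ValuationSubring F, IsDiscreteValuationRing W ∧
      ∀ x : F, x ∈ W ↔ ∃ a s : B, s ∉ 𝔭 ∧ x = (a : F) / (s : F) := by
  classical
  have hfracI : IsFractionRing B F := by
    refine IsFractionRing.of_field B F fun z => ?_
    obtain ⟨x, hx, y, hy, hy0, rfl⟩ := hfrac z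
    exact ⟨⟨x, hx⟩, ⟨y, hy⟩, rfl⟩
  have hS : 𝔭.primeCompl ≤ nonZeroDivisors B := Ideal.primeCompl_le_nonZeroDivisors 𝔭
  let R : Subalgebra B F := Localization.subalgebra.ofField F 𝔭.primeCompl hS
  have hmemR : ∀ x : F, x ∈ R ↔ ∃ a s : B, s ∉ 𝔭 ∧ x = (a : F) / (s : F) := by
    intro x
    constructor
    · rintro ⟨a, s, hs, rfl⟩
      exact ⟨a, s, hs, by rw [div_eq_mul_inv]; rfl⟩
    · rintro ⟨a, s, hs, rfl⟩
      exact ⟨a, s, hs, by rw [div_eq_mul_inv]; rfl⟩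
  have hloc : IsLocalization.AtPrime R 𝔭 :=
    Localization.subalgebra.isLocalization_ofField F 𝔭.primeCompl hS
  have hRnoeth : IsNoetherianRing R := IsLocalization.isNoetherianRing 𝔭.primeCompl R hnoeth
  have hRlocal : IsLocalRing R := IsLocalization.AtPrime.isLocalRing R 𝔭
  have hRfrac : IsFractionRing R F := Localization.subalgebra.isFractionRing_ofField F _ hS
  have hy0 : y ≠ 0 := fun h0 => hy (h0 ▸ B.zero_mem)
  -- `𝔭 ≠ ⊥`
  obtain ⟨a₀, ha₀, b₀, hb₀, hb₀0, hyab⟩ := hfrac y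
  have hb₀𝔭 : (⟨b₀, hb₀⟩ : B) ∈ 𝔭 := by
    rw [h𝔭y]
    show b₀ * y ∈ B
    rw [hyab, mul_div_cancel₀ _ hb₀0]
    exact ha₀
  -- an element `z ∈ 𝔭` with `z y ∉ 𝔭`
  have hz : ∃ z : B, z ∈ 𝔭 ∧ ∀ hzy : (z : F) * y ∈ B, (⟨(z : F) * y, hzy⟩ : B) ∉ 𝔭 := by
    by_contra hcon
    push Not at hcon
    apply hy
    apply hnorm
    -- `y 𝔭 ⊆ 𝔭`, so `y` is integral
    let N : Submodule B F := Submodule.map (Algebra.linearMap B F) 𝔭
    have hN0 : N ≠ ⊥ := by
      intro h0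
      have h1 : (algebraMap B F) ⟨b₀, hb₀⟩ ∈ N := ⟨⟨b₀, hb₀⟩, hb₀𝔭, rfl⟩
      rw [h0, Submodule.mem_bot] at h1
      exact hb₀0 h1
    have hNfg : N.FG := Submodule.FG.map _ ((isNoetherianRing_iff_ideal_fg B).mp hnoeth 𝔭)
    refine isIntegral_of_smul_mem_submodule N hN0 hNfg y ?_
    rintro _ ⟨z, hz, rfl⟩
    obtain ⟨hzy, hzy'⟩ := hcon z hz
    refine ⟨⟨(z : F) * y, hzy⟩, hzy', ?_⟩
    show (z : F) * y = y • (z : F)
    rw [smul_eq_mul, mul_comm]
  obtain ⟨z, hz𝔭, hzy⟩ := hz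
  have hzyB : (z : F) * y ∈ B := (h𝔭y z).mp hz𝔭
  set u : B := ⟨(z : F) * y, hzyB⟩ with hu
  have hu𝔭 : u ∉ 𝔭 := hzy hzyB
  have hu0 : (u : F) ≠ 0 := fun h0 => hu𝔭 (by
    have : u = 0 := Subtype.ext h0
    rw [this]; exact 𝔭.zero_mem)
  have hz0 : (z : F) ≠ 0 := by
    intro h0
    apply hu0
    show (z : F) * y = 0
    rw [h0, zero_mul]
  -- the maximal ideal is generated by `z`
  have hmax : maximalIdeal R = Ideal.span {algebraMap B R z} := by
    apply le_antisymm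
    · rw [← IsLocalization.AtPrime.map_eq_maximalIdeal 𝔭 R]
      intro m hm
      rw [IsLocalization.mem_map_algebraMap_iff 𝔭.primeCompl] at hm
      obtain ⟨⟨a, s⟩, has⟩ := hm
      rw [Ideal.mem_span_singleton]
      have hayB : ((a : B) : F) * y ∈ B := (h𝔭y a).mp a.2
      have hs0 : ((s : B) : F) ≠ 0 := fun h0 => s.2 (by
        have : (s : B) = 0 := Subtype.ext h0
        rw [this]; exact 𝔭.zero_mem)
      have hus : u * (s : B) ∉ 𝔭 := fun h => (h𝔭.mem_or_mem h).elim hu𝔭 s.2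
      refine ⟨⟨((a : B) : F) * y / ((u : F) * ((s : B) : F)),
        (hmemR _).mpr ⟨⟨_, hayB⟩, u * (s : B), hus, rfl⟩⟩, ?_⟩
      apply Subtype.ext
      have h1 : (m : F) * ((s : B) : F) = ((a : B) : F) := congrArg Subtype.val has
      show (m : F) = (z : F) * (((a : B) : F) * y / ((u : F) * ((s : B) : F)))
      have h2 : (m : F) = ((a : B) : F) / ((s : B) : F) := by
        rw [← h1, mul_div_cancel_right₀ _ hs0]
      rw [h2]
      show ((a : B) : F) / ((s : B) : F) = (z : F) * (((a : B) : F) * y / ((z : F) * y * ((s : B) : F)))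
      field_simp
    · rw [Ideal.span_le, Set.singleton_subset_iff, ← IsLocalization.AtPrime.map_eq_maximalIdeal 𝔭 R]
      exact Ideal.mem_map_of_mem _ hz𝔭
  have hprinc : (maximalIdeal R).IsPrincipal := ⟨⟨algebraMap B R z, hmax⟩⟩
  have hnf : maximalIdeal R ≠ ⊥ := by
    rw [hmax]
    intro h0
    have h3 : algebraMap B R z ∈ Ideal.span {algebraMap B R z} := Ideal.mem_span_singleton_self _
    rw [h0, Ideal.mem_bot] at h3
    have h4 : ((algebraMap B R z : R) : F) = 0 := by rw [h3]; rfl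
    exact hz0 h4
  have h40 : (maximalIdeal R).IsPrincipal → IsPrincipalIdealRing R :=
    ((tfae_of_isNoetherianRing_of_isLocalRing_of_isDomain R).out 4 0).mp
  have hPIR : IsPrincipalIdealRing R := h40 hprinc
  have hDVR : IsDiscreteValuationRing R := { hPIR, hRlocal with not_a_field' := hnf }
  let W : ValuationSubring F :=
    { R.toSubring with
      mem_or_inv_mem' := fun x => by
        rcases ValuationRing.isInteger_or_isInteger R x with ⟨y, hy⟩ | ⟨y, hy⟩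
        · left; rw [← hy]; exact y.2
        · right; rw [← hy]; exact y.2 }
  refine ⟨W, ?_, fun x => hmemR x⟩
  let e : R ≃+* W :=
    { toFun := fun x => ⟨x.1, x.2⟩
      invFun := fun x => ⟨x.1, x.2⟩
      left_inv := fun _ => rfl
      right_inv := fun _ => rfl
      map_mul' := fun _ _ => rfl
      map_add' := fun _ _ => rfl }
  exact IsDiscreteValuationRing.RingEquivClass.isDiscreteValuationRing e

/-- **Krull's lemma at a prime** (sharp form).  If `x` lies in the local ring `B_𝔭` for every prime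
`𝔭 ⊆ 𝔪` such that `B_𝔭` is a discrete valuation ring, then `x ∈ B_𝔪`. -/
theorem s34_krull_loc {F : Type*} [Field F] (B : Subring F) (hnoeth : IsNoetherianRing B)
    (hfrac : ∀ x : F, ∃ a ∈ B, ∃ b ∈ B, b ≠ 0 ∧ x = a / b)
    (hnorm : ∀ z : F, IsIntegral B z → z ∈ B)
    (𝔪 : Ideal B) [h𝔪 : 𝔪.IsPrime] (x : F)
    (hx : ∀ 𝔭 : Ideal B, 𝔭.IsPrime → 𝔭 ≤ 𝔪 → ∀ W : ValuationSubring F,
      IsDiscreteValuationRing W →
      (∀ z : F, z ∈ W ↔ ∃ a s : B, s ∉ 𝔭 ∧ z = (a : F) / (s : F)) → x ∈ W) :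
    x ∈ s18_loc B 𝔪 := by
  classical
  -- the submodule `B ⊆ F`
  let N : Submodule B F := LinearMap.range (Algebra.linearMap B F)
  have hN : ∀ v : F, v ∈ N ↔ v ∈ B := by
    intro v
    constructor
    · rintro ⟨b, rfl⟩
      exact b.2
    · intro hv
      exact ⟨⟨v, hv⟩, rfl⟩
  have hcolon : ∀ (v : F) (r : B), r ∈ N.colon {v} ↔ (r : F) * v ∈ B := by
    intro v r
    rw [Submodule.mem_colon_singleton, hN]
    rfl
  by_cases hI : N.colon {x} ≤ 𝔪
  · exfalso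
    obtain ⟨𝔭, h𝔭min, h𝔭le⟩ := Ideal.exists_minimalPrimes_le hI
    have h𝔭 : 𝔭.IsPrime := h𝔭min.1.1
    obtain ⟨y, hy⟩ := Submodule.exists_eq_colon_of_mem_minimalPrimes h𝔭min
    have hyB : y ∉ B := by
      intro hyB
      apply h𝔭.ne_top
      rw [Ideal.eq_top_iff_one, hy, hcolon]
      simpa using hyB
    obtain ⟨W, hW, hWmem⟩ := s34_dvr_of_colon B hnoeth hfrac hnorm 𝔭 h𝔭 y hyB
      (fun r => by rw [hy, hcolon])
    have hxW : x ∈ W := hx 𝔭 h𝔭 h𝔭le W hW hWmem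
    obtain ⟨a, s, hs, hxas⟩ := (hWmem x).mp hxW
    apply hs
    apply h𝔭min.1.2
    rw [hcolon, hxas]
    have hs0 : (s : F) ≠ 0 := fun h0 => hs (by
      have : s = 0 := Subtype.ext h0
      rw [this]; exact 𝔭.zero_mem)
    rw [mul_div_cancel₀ _ hs0]
    exact a.2
  · obtain ⟨r, hr, hr𝔪⟩ := Set.not_subset.mp hI
    have hrx : (r : F) * x ∈ B := (hcolon x r).mp hr
    have hr0 : (r : F) ≠ 0 := fun h0 => hr𝔪 (by
      have : r = 0 := Subtype.ext h0
      rw [this]; exact 𝔪.zero_mem)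
    exact ⟨⟨_, hrx⟩, r, hr𝔪, by simp only; field_simp⟩

/-- **Krull's lemma at a prime** (coarse form).  If `x` lies in every discrete valuation ring of
`F` containing `B_𝔪`, then `x ∈ B_𝔪`. -/
theorem s34_krull_loc_of_forall_dvr {F : Type*} [Field F] (B : Subring F)
    (hnoeth : IsNoetherianRing B)
    (hfrac : ∀ x : F, ∃ a ∈ B, ∃ b ∈ B, b ≠ 0 ∧ x = a / b)
    (hnorm : ∀ z : F, IsIntegral B z → z ∈ B)
    (𝔪 : Ideal B) [h𝔪 : 𝔪.IsPrime] (x : F)
    (hx : ∀ W : ValuationSubring F, IsDiscreteValuationRing W → B ≤ W.toSubring →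
      (∀ b : B, b ∉ 𝔪 → ((b : F))⁻¹ ∈ W) → x ∈ W) :
    x ∈ s18_loc B 𝔪 := by
  refine s34_krull_loc B hnoeth hfrac hnorm 𝔪 x fun 𝔭 h𝔭 h𝔭le W hW hWmem => ?_
  apply hx W hW
  · intro b hb
    exact (hWmem b).mpr ⟨⟨b, hb⟩, 1, fun h1 => h𝔭.ne_top ((Ideal.eq_top_iff_one _).mpr h1),
      by simp⟩
  · intro b hb
    exact (hWmem _).mpr ⟨1, b, fun hb' => hb (h𝔭le hb'), by simp⟩

/-- Global form: a normal noetherian subring of `F` is the intersection of its localisations at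
the primes where it is a discrete valuation ring. -/
theorem s34_krull {F : Type*} [Field F] (B : Subring F) (hnoeth : IsNoetherianRing B)
    (hfrac : ∀ x : F, ∃ a ∈ B, ∃ b ∈ B, b ≠ 0 ∧ x = a / b)
    (hnorm : ∀ z : F, IsIntegral B z → z ∈ B) (x : F)
    (hx : ∀ 𝔭 : Ideal B, 𝔭.IsPrime → ∀ W : ValuationSubring F, IsDiscreteValuationRing W →
      (∀ z : F, z ∈ W ↔ ∃ a s : B, s ∉ 𝔭 ∧ z = (a : F) / (s : F)) → x ∈ W) :
    x ∈ B := by
  classical
  by_contra hxB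
  let N : Submodule B F := LinearMap.range (Algebra.linearMap B F)
  have hN : ∀ v : F, v ∈ N ↔ v ∈ B := by
    intro v
    constructor
    · rintro ⟨b, rfl⟩
      exact b.2
    · intro hv
      exact ⟨⟨v, hv⟩, rfl⟩
  have hcolon : ∀ (v : F) (r : B), r ∈ N.colon {v} ↔ (r : F) * v ∈ B := by
    intro v r
    rw [Submodule.mem_colon_singleton, hN]
    rfl
  have hne : N.colon {x} ≠ ⊤ := by
    intro h
    apply hxB
    have h1 : (1 : B) ∈ N.colon {x} := by rw [h]; trivial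
    simpa using (hcolon x 1).mp h1
  obtain ⟨𝔪, h𝔪, hle⟩ := Ideal.exists_le_maximal _ hne
  have := h𝔪.isPrime
  have hloc : x ∈ s18_loc B 𝔪 :=
    s34_krull_loc B hnoeth hfrac hnorm 𝔪 x fun 𝔭 h𝔭 _ W hW hWmem => hx 𝔭 h𝔭 W hW hWmem
  obtain ⟨a, s, hs, rfl⟩ := hloc
  apply hs
  apply hle
  rw [hcolon]
  have hs0 : (s : F) ≠ 0 := fun h0 => hs (by
    have : s = 0 := Subtype.ext h0
    rw [this]; exact 𝔪.zero_mem)
  rw [mul_div_cancel₀ _ hs0]
  exact a.2

end Fermat.Agent.S34
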