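import Mathlib
import Fermat.Agent.S34.NodeTau
import Fermat.Agent.S34.SmoothPoint

/-!
# S34, block (L): the `τ`-side of the node case, two-component form

Complements `NodeTau.lean` (same abstract setting) for the two-component interface
`s34_two_chart_components` / `s34_pointData_of_cases` of `SmoothPoint.lean`:

* `s34_tau_T1_of_unif` : `(T1)` for a ring `V` with `s34_Unif ϖ V` stable under `τ` and `τ⁻¹`;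
* `s34_tau_T1_comap`, `s34_tau_T2_comap` : transport of `(T1)`, `(T2)` from `V` to
  `V.comap W` for a ring automorphism `W` commuting with `τ` and fixing `ϖ`
  (`V₀ = W⁻¹ V_∞` for the Atkin–Lehner swap `W`);
* `s34_tau_T1_inf`, `s34_tau_T2_inf` : `(T1)`, `(T2)` for `V₁ ⊓ V₂`;
* `s34_unif_comap` : `s34_Unif ϖ V → s34_Unif ϖ (V.comap W)`;
* `s34_hnode_of_G` : the hypothesis `hnode` of `s34_pointData_of_cases` /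
  `s34_two_chart_components` for `h = τ(τ g) g / (τ g)²`, with `g_loc = τ(τ G) G / (τ G)²`.
-/

set_option autoImplicit false

namespace Fermat.Agent.S34

open Fermat.Agent.S18

variable {F : Type*} [Field F] {ϖ : F}

/-- `(T1)` for a discrete valuation ring `V` with uniformizer `ϖ`, stable under `τ` and `τ⁻¹`,
when `τ ϖ = c ϖ` with `c` a unit of `V`. -/
theorem s34_tau_T1_of_unif {V : Subring F} (hV : s34_Unif ϖ V) (τ : F ≃+* F)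
    (hτV : ∀ x ∈ V, τ x ∈ V)
    (hτϖ : ∃ c ∈ V, c⁻¹ ∈ V ∧ τ ϖ = c * ϖ) (x : F) (hx : x ≠ 0) :
    τ x / x ∈ V ∧ x / τ x ∈ V := by
  have hϖ0 := hV.ne_zero
  obtain ⟨c, hc, hc', hτϖc⟩ := hτϖ
  have hτϖ0 : τ ϖ ≠ 0 := (map_ne_zero τ).mpr hϖ0
  have hc0 : c ≠ 0 := by
    rintro rfl
    rw [zero_mul] at hτϖc
    exact hτϖ0 hτϖc
  obtain ⟨j, u, hu, hu', rfl⟩ := hV.decomp x hx
  have hu0 : u ≠ 0 := by
    rintro rfl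
    exact hx (mul_zero _)
  have hτu0 : τ u ≠ 0 := (map_ne_zero τ).mpr hu0
  have hτuinv : (τ u)⁻¹ ∈ V := by
    rw [← map_inv₀]
    exact hτV _ hu'
  have e1 : τ (ϖ ^ j * u) / (ϖ ^ j * u) = c ^ j * (τ u * u⁻¹) := by
    rw [map_mul, map_zpow₀, hτϖc, mul_zpow]
    have h1 : ϖ ^ j ≠ 0 := zpow_ne_zero _ hϖ0
    field_simp
  have e2 : ϖ ^ j * u / τ (ϖ ^ j * u) = (c⁻¹) ^ j * (u * (τ u)⁻¹) := by
    rw [map_mul, map_zpow₀, hτϖc, mul_zpow, inv_zpow]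
    have h1 : ϖ ^ j ≠ 0 := zpow_ne_zero _ hϖ0
    have h2 : c ^ j ≠ 0 := zpow_ne_zero _ hc0
    field_simp
  -- integer powers of a unit of `V` lie in `V`
  have hzpow : ∀ (d : F), d ∈ V → d⁻¹ ∈ V → ∀ j : ℤ, d ^ j ∈ V := by
    intro d hd hd' j
    rcases Int.le_total 0 j with hj | hj
    · obtain ⟨n, rfl⟩ := Int.eq_ofNat_of_zero_le hj
      rw [zpow_natCast]
      exact V.pow_mem hd n
    · obtain ⟨n, hn⟩ := Int.eq_ofNat_of_zero_le (neg_nonneg.mpr hj)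
      have hjn : j = -(n : ℤ) := by omega
      rw [hjn, zpow_neg, zpow_natCast, ← inv_pow]
      exact V.pow_mem hd' n
  constructor
  · rw [e1]
    exact V.mul_mem (hzpow c hc hc' j) (V.mul_mem (hτV _ hu) hu')
  · rw [e2]
    exact V.mul_mem (hzpow c⁻¹ hc' (by rw [inv_inv]; exact hc) j) (V.mul_mem hu hτuinv)

/-- Transport of `(T1)` along an automorphism `W` commuting with `τ`. -/
theorem s34_tau_T1_comap (V : Subring F) (τ W : F ≃+* F) (hcomm : ∀ x, W (τ x) = τ (W x))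
    (hT1 : ∀ x : F, x ≠ 0 → τ x / x ∈ V ∧ x / τ x ∈ V) (x : F) (hx : x ≠ 0) :
    τ x / x ∈ V.comap (W : F →+* F) ∧ x / τ x ∈ V.comap (W : F →+* F) := by
  have hWx : W x ≠ 0 := (map_ne_zero W).mpr hx
  obtain ⟨h1, h2⟩ := hT1 (W x) hWx
  constructor
  · show W (τ x / x) ∈ V
    rw [map_div₀, hcomm]
    exact h1
  · show W (x / τ x) ∈ V
    rw [map_div₀, hcomm]
    exact h2

/-- Transport of `(T2)` along an automorphism `W` commuting with `τ` and fixing `ϖ`. -/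
theorem s34_tau_T2_comap (V : Subring F) (τ W : F ≃+* F) (hcomm : ∀ x, W (τ x) = τ (W x))
    (hWϖ : W ϖ = ϖ) (hT2 : ∀ x ∈ V, ϖ⁻¹ * (τ x - x) ∈ V) (x : F)
    (hx : x ∈ V.comap (W : F →+* F)) :
    ϖ⁻¹ * (τ x - x) ∈ V.comap (W : F →+* F) := by
  have hx' : W x ∈ V := hx
  show W (ϖ⁻¹ * (τ x - x)) ∈ V
  rw [map_mul, map_inv₀, hWϖ, map_sub, hcomm]
  exact hT2 _ hx'

/-- `(T1)` for an intersection. -/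
theorem s34_tau_T1_inf (V₁ V₂ : Subring F) (τ : F ≃+* F)
    (h₁ : ∀ x : F, x ≠ 0 → τ x / x ∈ V₁ ∧ x / τ x ∈ V₁)
    (h₂ : ∀ x : F, x ≠ 0 → τ x / x ∈ V₂ ∧ x / τ x ∈ V₂) (x : F) (hx : x ≠ 0) :
    τ x / x ∈ V₁ ⊓ V₂ ∧ x / τ x ∈ V₁ ⊓ V₂ :=
  ⟨⟨(h₁ x hx).1, (h₂ x hx).1⟩, ⟨(h₁ x hx).2, (h₂ x hx).2⟩⟩

/-- `(T2)` for an intersection. -/
theorem s34_tau_T2_inf (V₁ V₂ : Subring F) (τ : F ≃+* F)
    (h₁ : ∀ x ∈ V₁, ϖ⁻¹ * (τ x - x) ∈ V₁) (h₂ : ∀ x ∈ V₂, ϖ⁻¹ * (τ x - x) ∈ V₂) (x : F)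
    (hx : x ∈ V₁ ⊓ V₂) : ϖ⁻¹ * (τ x - x) ∈ V₁ ⊓ V₂ :=
  ⟨h₁ x hx.1, h₂ x hx.2⟩

/-- The preimage of a discrete valuation ring with uniformizer `ϖ` under an automorphism fixing
`ϖ` is again one. -/
theorem s34_unif_comap {V : Subring F} (hV : s34_Unif ϖ V) (W : F ≃+* F) (hWϖ : W ϖ = ϖ) :
    s34_Unif ϖ (V.comap (W : F →+* F)) where
  mem := by
    show W ϖ ∈ V
    rw [hWϖ]
    exact hV.mem
  inv_not_mem := by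
    intro h
    have h' : W (ϖ⁻¹) ∈ V := h
    rw [map_inv₀, hWϖ] at h'
    exact hV.inv_not_mem h'
  decomp := by
    intro x hx
    have hWx : W x ≠ 0 := (map_ne_zero W).mpr hx
    obtain ⟨j, u, hu, hu', hxu⟩ := hV.decomp (W x) hWx
    refine ⟨j, W.symm u, ?_, ?_, ?_⟩
    · show W (W.symm u) ∈ V
      rw [RingEquiv.apply_symm_apply]
      exact hu
    · show W ((W.symm u)⁻¹) ∈ V
      rw [map_inv₀, RingEquiv.apply_symm_apply]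
      exact hu'
    · apply W.injective
      rw [hxu, map_mul, map_zpow₀, hWϖ, RingEquiv.apply_symm_apply]

/-- **The hypothesis `hnode`** of `s34_pointData_of_cases` / `s34_two_chart_components` for
`h = τ(τ g) g / (τ g)²`: given `G` with `g / G^p` a unit at every horizontal prime below `𝔪`, the
function `g_loc = τ(τ G) G / (τ G)²` is `≡ 1 mod ϖ V` and `h / g_loc^p` is a unit at every
horizontal prime below `𝔪`. -/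
theorem s34_hnode_of_G (B V : Subring F) (hBV : B ≤ V) (hϖB : ϖ ∈ B)
    (hcap : ∀ x ∈ B, ϖ⁻¹ * x ∈ V → ϖ⁻¹ * x ∈ B)
    (𝔪 : Ideal B) (hϖ𝔪 : (⟨ϖ, hϖB⟩ : B) ∈ 𝔪) (p : ℕ)
    (τ : F ≃+* F) (hτB : ∀ x ∈ B, τ x ∈ B)
    (hτϖ : ∃ c ∈ B, c⁻¹ ∈ B ∧ τ ϖ = c * ϖ)
    (hT1 : ∀ x : F, x ≠ 0 → τ x / x ∈ V ∧ x / τ x ∈ V)
    (hT2 : ∀ x ∈ V, ϖ⁻¹ * (τ x - x) ∈ V)
    (g G : F) (hG0 : G ≠ 0)
    (hG : ∀ 𝔮 : Ideal B, 𝔮.IsPrime → 𝔮 ≤ 𝔪 → (⟨ϖ, hϖB⟩ : B) ∉ 𝔮 →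
      g * (G⁻¹) ^ p ∈ s18_loc B 𝔮 ∧ G ^ p * g⁻¹ ∈ s18_loc B 𝔮) :
    ∃ gl : F, ϖ⁻¹ * (gl - 1) ∈ V ∧
      ∀ 𝔮 : Ideal B, 𝔮.IsPrime → 𝔮 ≤ 𝔪 → (⟨ϖ, hϖB⟩ : B) ∉ 𝔮 →
        τ (τ g) * g / (τ g) ^ 2 * (gl⁻¹) ^ p ∈ s18_loc B 𝔮 ∧
        gl ^ p * (τ (τ g) * g / (τ g) ^ 2)⁻¹ ∈ s18_loc B 𝔮 := by
  refine ⟨τ (τ G) * G / (τ G) ^ 2, s34_tau_sq_one V τ hT1 hT2 G hG0, ?_⟩
  intro 𝔮 h𝔮 h𝔮𝔪 hϖ𝔮
  have _inst := h𝔮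
  obtain ⟨h𝔮1, h𝔮1𝔪, hϖ𝔮1⟩ :=
    s34_tau_hor B V hBV hϖB hcap 𝔪 hϖ𝔪 τ hτB hτϖ hT2 𝔮 h𝔮 h𝔮𝔪 hϖ𝔮
  obtain ⟨h𝔮2, h𝔮2𝔪, hϖ𝔮2⟩ :=
    s34_tau_hor B V hBV hϖB hcap 𝔪 hϖ𝔪 τ hτB hτϖ hT2 _ h𝔮1 h𝔮1𝔪 hϖ𝔮1
  obtain ⟨hω0, hω0'⟩ := hG 𝔮 h𝔮 h𝔮𝔪 hϖ𝔮
  obtain ⟨hω1, hω1'⟩ := hG _ h𝔮1 h𝔮1𝔪 hϖ𝔮1
  obtain ⟨hω2, hω2'⟩ := hG _ h𝔮2 h𝔮2𝔪 hϖ𝔮2
  have a1 := s34_tau_loc B τ hτB 𝔮 _ hω1
  have a1' := s34_tau_loc B τ hτB 𝔮 _ hω1'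
  have a2 := s34_tau_loc B τ hτB 𝔮 _ (s34_tau_loc B τ hτB _ _ hω2)
  have a2' := s34_tau_loc B τ hτB 𝔮 _ (s34_tau_loc B τ hτB _ _ hω2')
  have e1 : τ (τ g) * g / (τ g) ^ 2 * ((τ (τ G) * G / (τ G) ^ 2)⁻¹) ^ p =
      τ (τ (g * (G⁻¹) ^ p)) * (g * (G⁻¹) ^ p) * (τ (G ^ p * g⁻¹)) ^ 2 := by
    simp only [map_mul, map_pow, map_inv₀, div_eq_mul_inv, mul_inv, inv_inv]
    ring
  have e2 : (τ (τ G) * G / (τ G) ^ 2) ^ p * (τ (τ g) * g / (τ g) ^ 2)⁻¹ =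
      τ (τ (G ^ p * g⁻¹)) * (G ^ p * g⁻¹) * (τ (g * (G⁻¹) ^ p)) ^ 2 := by
    simp only [map_mul, map_pow, map_inv₀, div_eq_mul_inv, mul_inv, inv_inv]
    ring
  constructor
  · rw [e1]
    exact (s18_locRing B 𝔮).mul_mem ((s18_locRing B 𝔮).mul_mem a2 hω0)
      ((s18_locRing B 𝔮).pow_mem a1' 2)
  · rw [e2]
    exact (s18_locRing B 𝔮).mul_mem ((s18_locRing B 𝔮).mul_mem a2' hω0')
      ((s18_locRing B 𝔮).pow_mem a1 2)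

end Fermat.Agent.S34
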