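import Mathlib
import Fermat.Agent.S34.SmoothPoint
import Fermat.Agent.S34.NodeG
import Fermat.Agent.S34.NodeTauW

/-!
# S34 (project NODE): the function `G` at a crossing point, two-component form

The chart `B` has the two components `V₁`, `V₂` (discrete valuation rings of `F` with uniformizer
`ϖ`, in the elementary form `s34_Unif`).

* `s34_ngc_P B V ϖ hBV` : the component ideal `B ∩ ϖ V` of `B`; it is prime (`s34_ngc_prime`),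
  contains `ϖ` (`s34_ngc_ϖ_mem`), lies in every crossing point (`s34_ngc_le`), and the two
  component ideals meet in `ϖ B` (`s34_ngc_cap`).
* `s34_node_G_components` : `s34_node_G` for the two component ideals, at a crossing point `𝔪`
  (hypothesis `hall` in the shape of `s34_two_chart_components`).
* `s34_hnode_components` : the conclusion of the hypotheses `hnode0`, `hnodei` of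
  `s34_two_chart_components` for `h = τ(τ g) g / (τ g)²`.
-/

set_option autoImplicit false

namespace Fermat.Agent.S34

open Fermat.Agent.S18

section Ideal

variable {F : Type*} [Field F] {ϖ : F}

/-- The component ideal `B ∩ ϖ V` of the chart `B`. -/
def s34_ngc_P (B V : Subring F) (ϖ : F) (hBV : B ≤ V) : Ideal B where
  carrier := {b | ϖ⁻¹ * (b : F) ∈ V}
  add_mem' := by
    intro a b ha hb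
    show ϖ⁻¹ * ((a + b : B) : F) ∈ V
    rw [Subring.coe_add, mul_add]
    exact V.add_mem ha hb
  zero_mem' := by
    show ϖ⁻¹ * ((0 : B) : F) ∈ V
    rw [Subring.coe_zero, mul_zero]
    exact V.zero_mem
  smul_mem' := by
    intro c b hb
    show ϖ⁻¹ * ((c * b : B) : F) ∈ V
    rw [Subring.coe_mul, mul_left_comm]
    exact V.mul_mem (hBV c.2) hb

theorem s34_ngc_mem {B V : Subring F} {hBV : B ≤ V} {b : B} :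
    b ∈ s34_ngc_P B V ϖ hBV ↔ ϖ⁻¹ * (b : F) ∈ V := Iff.rfl

theorem s34_ngc_prime {B V : Subring F} (hV : s34_Unif ϖ V) (hBV : B ≤ V) :
    (s34_ngc_P B V ϖ hBV).IsPrime := by
  refine ⟨?_, ?_⟩
  · rw [Ideal.ne_top_iff_one]
    intro h
    apply hV.inv_not_mem
    have h1 : ϖ⁻¹ * ((1 : B) : F) ∈ V := h
    rwa [Subring.coe_one, mul_one] at h1
  · intro a b hab
    have h1 : ϖ⁻¹ * ((a * b : B) : F) ∈ V := hab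
    rw [Subring.coe_mul] at h1
    exact hV.prime (hBV a.2) (hBV b.2) h1

theorem s34_ngc_ϖ_mem {B V : Subring F} (hV : s34_Unif ϖ V) (hBV : B ≤ V) (hϖB : ϖ ∈ B) :
    (⟨ϖ, hϖB⟩ : B) ∈ s34_ngc_P B V ϖ hBV := by
  show ϖ⁻¹ * ϖ ∈ V
  rw [inv_mul_cancel₀ hV.ne_zero]
  exact V.one_mem

theorem s34_ngc_le {B V : Subring F} (hBV : B ≤ V) (𝔪 : Ideal B)
    (hall : ∀ s : B, s ∉ 𝔪 → ϖ⁻¹ * (s : F) ∉ V) : s34_ngc_P B V ϖ hBV ≤ 𝔪 := by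
  intro b hb
  by_contra h
  exact hall b h hb

theorem s34_ngc_cap {B V₁ V₂ : Subring F} (hϖ0 : ϖ ≠ 0) (hB₁ : B ≤ V₁) (hB₂ : B ≤ V₂)
    (hϖB : ϖ ∈ B)
    (hcap : ∀ x ∈ B, ϖ⁻¹ * x ∈ V₁ → ϖ⁻¹ * x ∈ V₂ → ϖ⁻¹ * x ∈ B) :
    ∀ z ∈ s34_ngc_P B V₁ ϖ hB₁, z ∈ s34_ngc_P B V₂ ϖ hB₂ → ∃ r : B, z = ⟨ϖ, hϖB⟩ * r := by
  intro z h1 h2
  refine ⟨⟨ϖ⁻¹ * z, hcap z z.2 h1 h2⟩, Subtype.ext ?_⟩
  show (z : F) = ϖ * (ϖ⁻¹ * z)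
  field_simp

end Ideal

section Main

variable {A₀ F : Type*} [CommRing A₀] [IsDomain A₀] [IsDiscreteValuationRing A₀] [Field F]
  [Algebra A₀ F]

/-- **(NG), two-component form.**  `s34_node_G` at a crossing point `𝔪` of the two components
`V₁`, `V₂` of the chart `B`; the component ideals are `s34_ngc_P B Vᵢ ϖ _`. -/
theorem s34_node_G_components (π : A₀) (hπ : Irreducible π) {B V₁ V₂ : Subring F}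
    (hV₁ : s34_Unif (algebraMap A₀ F π) V₁) (hV₂ : s34_Unif (algebraMap A₀ F π) V₂)
    (hB₁ : B ≤ V₁) (hB₂ : B ≤ V₂) (hAB : ∀ a : A₀, algebraMap A₀ F a ∈ B)
    (hcap : ∀ x ∈ B, (algebraMap A₀ F π)⁻¹ * x ∈ V₁ → (algebraMap A₀ F π)⁻¹ * x ∈ V₂ →
      (algebraMap A₀ F π)⁻¹ * x ∈ B)
    (hnoeth : IsNoetherianRing B) (hfrac : ∀ x : F, ∃ a ∈ B, ∃ b ∈ B, b ≠ 0 ∧ x = a / b)
    (𝔪 : Ideal B) [h𝔪 : 𝔪.IsPrime]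
    (hall : ∀ s : B, s ∉ 𝔪 →
      (algebraMap A₀ F π)⁻¹ * (s : F) ∉ V₁ ∧ (algebraMap A₀ F π)⁻¹ * (s : F) ∉ V₂)
    (hx : (∀ b : B, ∃ a : A₀, b - ⟨algebraMap A₀ F a, hAB a⟩ ∈ 𝔪) →
      (∀ a : A₀, (⟨algebraMap A₀ F a, hAB a⟩ : B) ∈ 𝔪 → ∃ a', a = π * a') →
      ∃ x : B, x ∈ s34_ngc_P B V₂ (algebraMap A₀ F π) hB₂ ∧
        x ∉ s34_ngc_P B V₁ (algebraMap A₀ F π) hB₁ ∧
        ∀ m ∈ 𝔪, ∃ r u : B, u ∉ 𝔪 ∧ u * m - x * r ∈ s34_ngc_P B V₁ (algebraMap A₀ F π) hB₁)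
    (hy : (∀ b : B, ∃ a : A₀, b - ⟨algebraMap A₀ F a, hAB a⟩ ∈ 𝔪) →
      (∀ a : A₀, (⟨algebraMap A₀ F a, hAB a⟩ : B) ∈ 𝔪 → ∃ a', a = π * a') →
      ∃ y : B, y ∈ s34_ngc_P B V₁ (algebraMap A₀ F π) hB₁ ∧
        y ∉ s34_ngc_P B V₂ (algebraMap A₀ F π) hB₂ ∧
        ∀ m ∈ 𝔪, ∃ r u : B, u ∉ 𝔪 ∧ u * m - y * r ∈ s34_ngc_P B V₂ (algebraMap A₀ F π) hB₂)
    (p : ℕ) (g : F) (hg : g ≠ 0)
    (hdvr : ∀ 𝔮 : Ideal B, 𝔮.IsPrime → 𝔮 ≤ 𝔪 → (⟨algebraMap A₀ F π, hAB π⟩ : B) ∉ 𝔮 → 𝔮 ≠ ⊥ →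
      ¬ (g ∈ s18_loc B 𝔮 ∧ g⁻¹ ∈ s18_loc B 𝔮) →
      ∃ W : ValuationSubring F, IsDiscreteValuationRing W ∧
        ∀ z : F, z ∈ W ↔ ∃ a s : B, s ∉ 𝔮 ∧ z = (a : F) / (s : F))
    (hdiv : ∀ W : ValuationSubring F, IsDiscreteValuationRing W →
      (∀ a : A₀, algebraMap A₀ F a ∈ W) → (algebraMap A₀ F π)⁻¹ ∈ W →
      ∃ g' u : F, u ∈ W ∧ u⁻¹ ∈ W ∧ g = u * g' ^ p)
    (hrat : ∀ 𝔮 : Ideal B, 𝔮.IsPrime → 𝔮 ≤ 𝔪 → (⟨algebraMap A₀ F π, hAB π⟩ : B) ∉ 𝔮 → 𝔮 ≠ ⊥ →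
      ¬ (g ∈ s18_loc B 𝔮 ∧ g⁻¹ ∈ s18_loc B 𝔮) →
      ∃ s : B →+* A₀, (∀ a : A₀, s ⟨algebraMap A₀ F a, hAB a⟩ = a) ∧ RingHom.ker s = 𝔮) :
    ∃ G : F, G ≠ 0 ∧ ∀ 𝔮 : Ideal B, 𝔮.IsPrime → 𝔮 ≤ 𝔪 →
      (⟨algebraMap A₀ F π, hAB π⟩ : B) ∉ 𝔮 →
      g * (G⁻¹) ^ p ∈ s18_loc B 𝔮 ∧ G ^ p * g⁻¹ ∈ s18_loc B 𝔮 := by
  have hP1 : (s34_ngc_P B V₁ (algebraMap A₀ F π) hB₁).IsPrime := s34_ngc_prime hV₁ hB₁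
  have hP2 : (s34_ngc_P B V₂ (algebraMap A₀ F π) hB₂).IsPrime := s34_ngc_prime hV₂ hB₂
  exact s34_node_G π hπ B hAB hnoeth hfrac 𝔪 (s34_ngc_P B V₁ (algebraMap A₀ F π) hB₁)
    (s34_ngc_P B V₂ (algebraMap A₀ F π) hB₂)
    (s34_ngc_le hB₁ 𝔪 fun s hs => (hall s hs).1) (s34_ngc_le hB₂ 𝔪 fun s hs => (hall s hs).2)
    (s34_ngc_ϖ_mem hV₁ hB₁ (hAB π)) (s34_ngc_ϖ_mem hV₂ hB₂ (hAB π))
    (s34_ngc_cap hV₁.ne_zero hB₁ hB₂ (hAB π) hcap) hx hy p g hg hdvr hdiv hrat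

/-- **The node hypothesis of `s34_two_chart_components`** (`hnode0`, `hnodei`) for
`h = τ(τ g) g / (τ g)²`: at a crossing point `𝔪` of the chart `B` there is
`g_loc ≡ 1 mod ϖ (V₁ ⊓ V₂)` with `h / g_loc ^ p` a unit at every horizontal prime through `𝔪`. -/
theorem s34_hnode_components (π : A₀) (hπ : Irreducible π) {B V₁ V₂ : Subring F}
    (hV₁ : s34_Unif (algebraMap A₀ F π) V₁) (hV₂ : s34_Unif (algebraMap A₀ F π) V₂)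
    (hB₁ : B ≤ V₁) (hB₂ : B ≤ V₂) (hAB : ∀ a : A₀, algebraMap A₀ F a ∈ B)
    (hcap : ∀ x ∈ B, (algebraMap A₀ F π)⁻¹ * x ∈ V₁ → (algebraMap A₀ F π)⁻¹ * x ∈ V₂ →
      (algebraMap A₀ F π)⁻¹ * x ∈ B)
    (hnoeth : IsNoetherianRing B) (hfrac : ∀ x : F, ∃ a ∈ B, ∃ b ∈ B, b ≠ 0 ∧ x = a / b)
    (𝔪 : Ideal B) [h𝔪 : 𝔪.IsPrime]
    (hall : ∀ s : B, s ∉ 𝔪 →
      (algebraMap A₀ F π)⁻¹ * (s : F) ∉ V₁ ∧ (algebraMap A₀ F π)⁻¹ * (s : F) ∉ V₂)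
    (hx : (∀ b : B, ∃ a : A₀, b - ⟨algebraMap A₀ F a, hAB a⟩ ∈ 𝔪) →
      (∀ a : A₀, (⟨algebraMap A₀ F a, hAB a⟩ : B) ∈ 𝔪 → ∃ a', a = π * a') →
      ∃ x : B, x ∈ s34_ngc_P B V₂ (algebraMap A₀ F π) hB₂ ∧
        x ∉ s34_ngc_P B V₁ (algebraMap A₀ F π) hB₁ ∧
        ∀ m ∈ 𝔪, ∃ r u : B, u ∉ 𝔪 ∧ u * m - x * r ∈ s34_ngc_P B V₁ (algebraMap A₀ F π) hB₁)
    (hy : (∀ b : B, ∃ a : A₀, b - ⟨algebraMap A₀ F a, hAB a⟩ ∈ 𝔪) →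
      (∀ a : A₀, (⟨algebraMap A₀ F a, hAB a⟩ : B) ∈ 𝔪 → ∃ a', a = π * a') →
      ∃ y : B, y ∈ s34_ngc_P B V₁ (algebraMap A₀ F π) hB₁ ∧
        y ∉ s34_ngc_P B V₂ (algebraMap A₀ F π) hB₂ ∧
        ∀ m ∈ 𝔪, ∃ r u : B, u ∉ 𝔪 ∧ u * m - y * r ∈ s34_ngc_P B V₂ (algebraMap A₀ F π) hB₂)
    (p : ℕ) (g : F) (hg : g ≠ 0)
    (hdvr : ∀ 𝔮 : Ideal B, 𝔮.IsPrime → 𝔮 ≤ 𝔪 → (⟨algebraMap A₀ F π, hAB π⟩ : B) ∉ 𝔮 → 𝔮 ≠ ⊥ →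
      ¬ (g ∈ s18_loc B 𝔮 ∧ g⁻¹ ∈ s18_loc B 𝔮) →
      ∃ W : ValuationSubring F, IsDiscreteValuationRing W ∧
        ∀ z : F, z ∈ W ↔ ∃ a s : B, s ∉ 𝔮 ∧ z = (a : F) / (s : F))
    (hdiv : ∀ W : ValuationSubring F, IsDiscreteValuationRing W →
      (∀ a : A₀, algebraMap A₀ F a ∈ W) → (algebraMap A₀ F π)⁻¹ ∈ W →
      ∃ g' u : F, u ∈ W ∧ u⁻¹ ∈ W ∧ g = u * g' ^ p)
    (hrat : ∀ 𝔮 : Ideal B, 𝔮.IsPrime → 𝔮 ≤ 𝔪 → (⟨algebraMap A₀ F π, hAB π⟩ : B) ∉ 𝔮 → 𝔮 ≠ ⊥ →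
      ¬ (g ∈ s18_loc B 𝔮 ∧ g⁻¹ ∈ s18_loc B 𝔮) →
      ∃ s : B →+* A₀, (∀ a : A₀, s ⟨algebraMap A₀ F a, hAB a⟩ = a) ∧ RingHom.ker s = 𝔮)
    (τ : F ≃+* F) (hτB : ∀ x ∈ B, τ x ∈ B)
    (hτϖ : ∃ c ∈ B, c⁻¹ ∈ B ∧ τ (algebraMap A₀ F π) = c * algebraMap A₀ F π)
    (hT1 : ∀ x : F, x ≠ 0 → τ x / x ∈ V₁ ⊓ V₂ ∧ x / τ x ∈ V₁ ⊓ V₂)
    (hT2 : ∀ x ∈ V₁ ⊓ V₂, (algebraMap A₀ F π)⁻¹ * (τ x - x) ∈ V₁ ⊓ V₂) :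
    ∃ gl : F, (algebraMap A₀ F π)⁻¹ * (gl - 1) ∈ V₁ ⊓ V₂ ∧
      ∀ 𝔮 : Ideal B, 𝔮.IsPrime → 𝔮 ≤ 𝔪 → (⟨algebraMap A₀ F π, hAB π⟩ : B) ∉ 𝔮 →
        τ (τ g) * g / (τ g) ^ 2 * (gl⁻¹) ^ p ∈ s18_loc B 𝔮 ∧
        gl ^ p * (τ (τ g) * g / (τ g) ^ 2)⁻¹ ∈ s18_loc B 𝔮 := by
  obtain ⟨G, hG0, hG⟩ := s34_node_G_components π hπ hV₁ hV₂ hB₁ hB₂ hAB hcap hnoeth hfrac 𝔪
    hall hx hy p g hg hdvr hdiv hrat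
  exact s34_hnode_of_G B (V₁ ⊓ V₂) (le_inf hB₁ hB₂) (hAB π)
    (fun x hx hxV => hcap x hx hxV.1 hxV.2) 𝔪
    (s34_ngc_le hB₁ 𝔪 (fun s hs => (hall s hs).1) (s34_ngc_ϖ_mem hV₁ hB₁ (hAB π)))
    p τ hτB hτϖ hT1 hT2 g G hG0 hG

end Main

end Fermat.Agent.S34
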