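import Mathlib
import Fermat.Agent.S34.NodeInstFull
import Fermat.Agent.S34.RegExt
import Fermat.Agent.S34.IcModel
import Fermat.Agent.S34.IcDvr
import Fermat.Agent.S34.GaussZeroInst

/-!
# S34 (NODE), (INST-node), final form: `hG0` / `hGi` of `s34_pow_of_model` for the Hauptmodul charts

`s34_nh_model_t2`, `s34_nh_model_t3` : the crossing-point hypotheses `hG0` and `hGi` of
`s34_pow_of_model`, LITERALLY, for `L = N₁ q`, `B0 = s34_ic_chart A₁ t`,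
`Binf = s34_ic_chart A₁ t⁻¹`, `t = s18_coord K₁ (t_M at level N₁ q)`, `V₁ = s34_gi_V A₁ (N₁ q)`,
`V₂ = V₁.comap W`, from the swap `W` (`hWc`, `hWα`, `hWβ`, `hWW`), the two (CAP) statements
`hcap0`, `hcapi` (the contract terms), and the function `g₁` (`hdivg`, `hfix`).

Same hypotheses on `W`, `hcap0`, `hcapi` as `s34_rx_model_t2` / `_t3` (`RegExt.lean`).
-/

set_option autoImplicit false
set_option synthInstance.maxHeartbeats 400000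
set_option linter.unusedSectionVars false
set_option linter.unusedVariables false
set_option linter.style.haveILetI false

open ModularCurve AlgebraicCurve ModularCurve.IgusaScheme

noncomputable section

namespace Fermat.Agent.S34

open Fermat.Agent.S18 Fermat.Agent.S28 IntermediateField

/-- The crossing-point hypothesis `hG0` / `hGi` of `s34_pow_of_model` for the chart `B`, the two
Gauss rings `V₁`, `V₂`, the exponent `m` and the function `g₁` (unfolds by `Iff.rfl` to the literal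
hypothesis). -/
def s34_nh_HG {A₀ F : Type*} [CommRing A₀] [Field F] [Algebra A₀ F] (π : A₀)
    (B : Subalgebra A₀ F) (V₁ V₂ : Subring F) (m : ℕ) (g₁ : F) : Prop :=
  ∀ 𝔪 : Ideal B.toSubring, 𝔪.IsMaximal →
    (⟨algebraMap A₀ F π, B.algebraMap_mem π⟩ : B.toSubring) ∈ 𝔪 →
    (∀ s : B.toSubring, s ∉ 𝔪 →
      (algebraMap A₀ F π)⁻¹ * (s : F) ∉ V₁ ∧ (algebraMap A₀ F π)⁻¹ * (s : F) ∉ V₂) →
    ∃ G : F, G ≠ 0 ∧
      ∀ 𝔮 : Ideal B.toSubring, 𝔮.IsPrime → 𝔮 ≤ 𝔪 →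
        (⟨algebraMap A₀ F π, B.algebraMap_mem π⟩ : B.toSubring) ∉ 𝔮 →
        g₁ * (G⁻¹) ^ m ∈ s18_loc B.toSubring 𝔮 ∧ G ^ m * g₁⁻¹ ∈ s18_loc B.toSubring 𝔮

section Generic

variable {K : Type*} [Field K] [Algebra ℚ K] (A : ValuationSubring K)

section Facts

variable {L : ℕ} [NeZero L]

local notation "FL" => laurentBaseChange K (modularFunctionFieldFull L)

/-- Noetherianity, fraction field and the discrete valuation rings at the horizontal primes of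
the integral-closure chart of a transcendental coordinate of finite degree. -/
theorem s34_nh_chart_facts [IsDiscreteValuationRing A] {π : A} (hπ : Irreducible π) (T : FL)
    (hT : Transcendental K T) (hfd : FiniteDimensional K⟮T⟯ FL) :
    IsNoetherianRing (s34_ic_chart A T).toSubring ∧
    (∀ x : FL, ∃ a ∈ (s34_ic_chart A T).toSubring, ∃ b ∈ (s34_ic_chart A T).toSubring,
      b ≠ 0 ∧ x = a / b) ∧
    (∀ 𝔮 : Ideal (s34_ic_chart A T).toSubring, 𝔮.IsPrime →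
      (⟨algebraMap A FL π, (s34_ic_chart A T).algebraMap_mem π⟩ :
        (s34_ic_chart A T).toSubring) ∉ 𝔮 → 𝔮 ≠ ⊥ →
      ∃ W' : ValuationSubring FL, IsDiscreteValuationRing W' ∧
        ∀ z : FL, z ∈ W' ↔
          ∃ a s : (s34_ic_chart A T).toSubring, s ∉ 𝔮 ∧ z = (a : FL) / (s : FL)) := by
  haveI : CharZero K := algebraRat.charZero K
  haveI : IsScalarTower A K FL := IsScalarTower.of_algebraMap_eq (fun _ => rfl)
  refine ⟨s34_ic_noeth (A₀ := A) (K := K) T hT, s34_ic_frac (A₀ := A) (K := K) T, ?_⟩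
  intro 𝔮 h𝔮 hϖ h0
  exact s34_ic_hdvr (K := K) π hπ T hT 𝔮 h𝔮 _ hϖ h0

/-- The coordinate `T` is transcendental over the constants and `K · F_L` is finite over `K(T)`
(bundled so that statements over `K₁` do not have to spell `K₁(T)`). -/
def s34_nh_Fin (K : Type*) [Field K] [Algebra ℚ K] (L : ℕ) [NeZero L]
    (T : laurentBaseChange K (modularFunctionFieldFull L)) : Prop :=
  Transcendental K T ∧
    FiniteDimensional K⟮T⟯ (laurentBaseChange K (modularFunctionFieldFull L))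

theorem s34_nh_fin_inv {T : FL} (hT : s34_nh_Fin K L T) : s34_nh_Fin K L T⁻¹ :=
  haveI := hT.2
  ⟨s34_ic_transcendental_inv hT.1, s34_ic_finiteDimensional_inv (K := K) T⟩

theorem s34_nh_fin_t2 [Algebra K (AlgebraicClosure ℚ)] (h : 2 ∣ L) :
    s34_nh_Fin K L (s18_coord K (s18_cz_t2 L h)) :=
  ⟨s34_im_transc_t2 K L h, s34_im_finite_t2 K L h⟩

theorem s34_nh_fin_t3 [Algebra K (AlgebraicClosure ℚ)] (h : 3 ∣ L) :
    s34_nh_Fin K L (s18_coord K (s18_cz_t3 L h)) :=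
  ⟨s34_im_transc_t3 K L h, s34_im_finite_t3 K L h⟩

/-- The `q`-expansion of `t₂⁻¹` is the integral series `s18_t2inv`. -/
theorem s34_nh_coord_t2_inv (h : 2 ∣ L) :
    ((s18_coord K (s18_cz_t2 L h)⁻¹ : FL) : LaurentSeries K) =
      coeffMap (Int.castRingHom K) s18_t2inv := by
  show coeffMap (algebraMap ℚ K) (((s18_cz_t2 L h)⁻¹ : modularFunctionFieldFull L) :
    LaurentSeries ℚ) = _
  rw [s18_cz_hT_t2_inv, coeffMap_coeffMap]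
  exact coeffMap_congr (RingHom.ext_int _ _) _

/-- The `q`-expansion of `t₃⁻¹` is the integral series `s18_t3inv`. -/
theorem s34_nh_coord_t3_inv (h : 3 ∣ L) :
    ((s18_coord K (s18_cz_t3 L h)⁻¹ : FL) : LaurentSeries K) =
      coeffMap (Int.castRingHom K) s18_t3inv := by
  show coeffMap (algebraMap ℚ K) (((s18_cz_t3 L h)⁻¹ : modularFunctionFieldFull L) :
    LaurentSeries ℚ) = _
  rw [s18_cz_hT_t3_inv, coeffMap_coeffMap]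
  exact coeffMap_congr (RingHom.ext_int _ _) _

end Facts

variable {N ℓ : ℕ} [NeZero N] [NeZero ℓ] [Fact ℓ.Prime]
variable {t : modularFunctionFieldFull N}

local notation "F'" => laurentBaseChange K (modularFunctionFieldFull N)
local notation "FF" => laurentBaseChange K (modularFunctionFieldFull (N * ℓ))

/-- **(INST-node), one chart, generic constant field**: `hG0` / `hGi` for the integral-closure
chart `B = s34_ic_chart A T`, `T = α (coordinate t)`. -/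
theorem s34_nh_hG_chart [IsDiscreteValuationRing A] {π : A} (hR : s18_ResBasis ℓ A π)
    (h : s18_cz_Coord N ℓ t) {Bc : Subring (LaurentSeries ℚ)} (hB : CoreData N ℓ Bc)
    (hchart : s18_Chart (algebraMap A F' π) (s18_chAlg N ℓ A t).toSubring)
    (hsm : s18_SmHyp π (s18_coord K t) (s18_chAlg N ℓ A t))
    (T : FF) (hT : heckeAlphaBar K N ℓ (s18_coord K t) = T)
    (hfin : s34_nh_Fin K (N * ℓ) T)
    (Tz : LaurentSeries ℤ)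
    (hTz : ((s18_coord K t : F') : LaurentSeries K) = coeffMap (Int.castRingHom K) Tz)
    (e : ℤ) (he : e ≠ 0) (hlead : Tz.coeff e = 1) (hlow : ∀ n < e, Tz.coeff n = 0)
    (W : FF ≃+* FF) (hWW : ∀ x, W (W x) = x)
    (hWα : ∀ x : F', W (heckeAlphaBar K N ℓ x) = heckeBetaBar K N ℓ x)
    (hWB : ∀ x ∈ (s34_ic_chart A T).toSubring, W x ∈ (s34_ic_chart A T).toSubring)
    (hcap : ∀ x ∈ (s34_ic_chart A T).toSubring,
      (algebraMap A FF π)⁻¹ * x ∈ s34_gi_V A (N * ℓ) →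
      (algebraMap A FF π)⁻¹ * x ∈ (s34_gi_V A (N * ℓ)).comap (W : FF →+* FF) →
      (algebraMap A FF π)⁻¹ * x ∈ (s34_ic_chart A T).toSubring)
    (hresκ : ∀ y ∈ s34_gi_V A (N * ℓ), ∃ y' ∈ s34_gi_V A N,
      (algebraMap A FF π)⁻¹ * (y - heckeAlphaBar K N ℓ y') ∈ s34_gi_V A (N * ℓ))
    (p : ℕ) (g : FF) (hg : g ≠ 0)
    (hdiv : ∀ W' : ValuationSubring FF, IsDiscreteValuationRing W' →
      (∀ a : A, algebraMap A FF a ∈ W') → (algebraMap A FF π)⁻¹ ∈ W' →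
      ∃ g' u : FF, u ∈ W' ∧ u⁻¹ ∈ W' ∧ g = u * g' ^ p)
    (hrat : ∀ (𝔪 : Ideal (s34_ic_chart A T).toSubring) (_ : 𝔪 ≠ ⊤)
      (_ : (⟨algebraMap A FF π, (s34_ic_chart A T).algebraMap_mem π⟩ :
        (s34_ic_chart A T).toSubring) ∈ 𝔪)
      (𝔮 : Ideal (s34_ic_chart A T).toSubring) (_ : 𝔮.IsPrime) (_ : 𝔮 ≤ 𝔪)
      (_ : (⟨algebraMap A FF π, (s34_ic_chart A T).algebraMap_mem π⟩ :
        (s34_ic_chart A T).toSubring) ∉ 𝔮)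
      (_ : ∃ W' : ValuationSubring FF, IsDiscreteValuationRing W' ∧
        ∀ z : FF, z ∈ W' ↔
          ∃ a s : (s34_ic_chart A T).toSubring, s ∉ 𝔮 ∧ z = (a : FF) / (s : FF))
      (_ : ¬ (g ∈ s18_loc (s34_ic_chart A T).toSubring 𝔮 ∧
        g⁻¹ ∈ s18_loc (s34_ic_chart A T).toSubring 𝔮)),
      ∃ s : (s34_ic_chart A T).toSubring →+* A,
        (∀ a : A, s ⟨algebraMap A FF a, (s34_ic_chart A T).algebraMap_mem a⟩ = a) ∧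
        RingHom.ker s = 𝔮) :
    s34_nh_HG π (s34_ic_chart A T) (s34_gi_V A (N * ℓ))
      ((s34_gi_V A (N * ℓ)).comap (W : FF →+* FF)) p g := by
  subst hT
  obtain ⟨hnoeth, hfrac, hdvrB⟩ := s34_nh_chart_facts A hR.irr _ hfin.1 hfin.2
  have hBV : (s34_ic_chart A (heckeAlphaBar K N ℓ (s18_coord K t))).toSubring ≤
      s34_gi_V A (N * ℓ) := s34_ri_ic_le_V ℓ hR h hB
  have hBV0 : (s34_ic_chart A (heckeAlphaBar K N ℓ (s18_coord K t))).toSubring ≤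
      (s34_gi_V A (N * ℓ)).comap (W : FF →+* FF) := fun x hx => by
    rw [Subring.mem_comap]
    exact hBV (hWB x hx)
  have hCW : ∀ x ∈ s18_czRing N ℓ t, x ∈ Wring ℓ := by
    intro x hx
    have := s18_czRing_le_W h hB x hx
    rwa [← s18_Wring_eq] at this
  have hαB : ∀ x ∈ (s18_chAlg N ℓ A t).toSubring, (heckeAlphaBar K N ℓ).toRingHom x ∈
      (s34_ic_chart A (heckeAlphaBar K N ℓ (s18_coord K t))).toSubring :=
    fun x hx => s34_lc_incl_mem_ic ℓ hsm x hx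
  have hres' : ∀ y ∈ (s34_ic_chart A (heckeAlphaBar K N ℓ (s18_coord K t))).toSubring,
      ∃ y' ∈ s18_gauss (algebraMap A F' π) (s18_chAlg N ℓ A t).toSubring,
        (algebraMap A FF π)⁻¹ * (y - s34_ri_incl K N ℓ y') ∈ s34_gi_V A (N * ℓ) := by
    intro y hy
    obtain ⟨y', hy', hyy'⟩ := hresκ y (hBV hy)
    exact ⟨y', (s34_lg_mem_gauss_iff hR h hB y').mpr hy', hyy'⟩
  have hresInf : ∀ x ∈ (s34_ic_chart A (heckeAlphaBar K N ℓ (s18_coord K t))).toSubring,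
      ∃ x' ∈ (s18_chAlg N ℓ A t).toSubring,
        (algebraMap A FF π)⁻¹ * (x - (heckeAlphaBar K N ℓ).toRingHom x') ∈ s34_gi_V A (N * ℓ) :=
    s34_res_two_of_eq (s34_ri_incl K N ℓ) (s18_chAlg N ℓ A t).toSubring hchart
      (s34_ri_incl_pi ℓ) _ _ (s34_lg_unif (N := N * ℓ) hR.irr) hαB hBV
      (s34_ri_hgauss ℓ hR h hB) (s34_ri_hint ℓ hsm) hres'
  intro 𝔪 h𝔪 hϖ𝔪 hnode
  exact s34_ni_hG_xy A hR.unit hR.irr t hCW hchart W hWW hWα _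
    (s34_ic_chart A (heckeAlphaBar K N ℓ (s18_coord K t))).algebraMap_mem hnoeth hfrac hWB hαB
    hBV hBV0 hcap hresInf (s18_coord K t) (s34_ic_t_mem _) Tz hTz e he hlead hlow p g hg 𝔪 h𝔪
    hnode
    (fun 𝔮 h𝔮 _ hϖ𝔮 h𝔮0 _ => hdvrB 𝔮 h𝔮 hϖ𝔮 h𝔮0) hdiv
    (fun 𝔮 h𝔮 h𝔮𝔪 hϖ𝔮 h𝔮0 hbad =>
      hrat 𝔪 h𝔪.ne_top hϖ𝔪 𝔮 h𝔮 h𝔮𝔪 hϖ𝔮 (hdvrB 𝔮 h𝔮 hϖ𝔮 h𝔮0) hbad)

end Generic

section Model

variable (N₁ : ℕ) [NeZero N₁] (q : ℕ) [NeZero q] [Fact q.Prime]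
  (A : ValuationSubring (AlgebraicClosure ℚ)) (hA : A.LiesOverPrime q)
  (K₁ : IntermediateField ℚ (AlgebraicClosure ℚ)) [NumberField K₁] [IsGalois ℚ K₁]
  [IsDiscreteValuationRing (s18_A1 A K₁)]

set_option maxHeartbeats 1600000 in
include hA in
/-- **(INST-node), one coordinate**: `hG0` and `hGi` of `s34_pow_of_model` for the model at level
`N₁ * q`, from the S18 chart package of a coordinate `t₀` of level `N₁` with integral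
`q`-expansion, the swap `W`, (CAP), and the function `g₁`. -/
theorem s34_nh_model_coord (hqN : ¬ q ∣ N₁) (hM23 : 2 ∣ N₁ ∨ 3 ∣ N₁) (M : ℕ) (hqM : q ≠ M)
    (hMN : M ∣ N₁) {π : s18_A1 A K₁} (hπ : Irreducible π)
    (t₀ : modularFunctionFieldFull N₁) (tL : modularFunctionFieldFull (N₁ * q))
    (htL : (tL : LaurentSeries ℚ) = (t₀ : LaurentSeries ℚ))
    (h : s18_cz_Coord N₁ q t₀)
    (hT : s18_TwoChart π (s18_coord K₁ t₀) (s18_chAlg N₁ q (s18_A1 A K₁) t₀)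
      (s18_chAlg N₁ q (s18_A1 A K₁) t₀⁻¹))
    (hP : s18_ChartPkg π (s18_coord K₁ t₀) (s18_chAlg N₁ q (s18_A1 A K₁) t₀)
      (s18_chAlg N₁ q (s18_A1 A K₁) t₀⁻¹))
    (hHaupt : Fermat.Agent.S37.s37_IsHaupt M (s18_baseIncl K₁ (N₁ * q) (s18_coord K₁ tL)))
    (hfin : s34_nh_Fin K₁ (N₁ * q) (s18_coord K₁ tL))
    (T0 Ti : LaurentSeries ℤ)
    (hT0 : ((s18_coord K₁ t₀ : s18_F1 K₁ N₁) : LaurentSeries K₁) =
      coeffMap (Int.castRingHom K₁) T0)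
    (hTi : ((s18_coord K₁ t₀⁻¹ : s18_F1 K₁ N₁) : LaurentSeries K₁) =
      coeffMap (Int.castRingHom K₁) Ti)
    (e0 ei : ℤ) (he0 : e0 ≠ 0) (hei : ei ≠ 0)
    (hlead0 : T0.coeff e0 = 1) (hlow0 : ∀ n < e0, T0.coeff n = 0)
    (hleadi : Ti.coeff ei = 1) (hlowi : ∀ n < ei, Ti.coeff n = 0)
    (W : s18_F1 K₁ (N₁ * q) ≃+* s18_F1 K₁ (N₁ * q))
    (hWc : ∀ c : K₁, W (algebraMap K₁ (s18_F1 K₁ (N₁ * q)) c) =
      algebraMap K₁ (s18_F1 K₁ (N₁ * q)) c)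
    (hWα : ∀ x : s18_F1 K₁ N₁, W (heckeAlphaBar K₁ N₁ q x) = heckeBetaBar K₁ N₁ q x)
    (hWβ : ∀ x : s18_F1 K₁ N₁, W (heckeBetaBar K₁ N₁ q x) = heckeAlphaBar K₁ N₁ q x)
    (hWW : ∀ x : s18_F1 K₁ (N₁ * q), W (W x) = x)
    (hcap0 : ∀ x ∈ (s34_ic_chart (s18_A1 A K₁) (s18_coord K₁ tL)).toSubring,
      (algebraMap (s18_A1 A K₁) (s18_F1 K₁ (N₁ * q)) π)⁻¹ * x ∈ s34_gi_V (s18_A1 A K₁) (N₁ * q) →
      (algebraMap (s18_A1 A K₁) (s18_F1 K₁ (N₁ * q)) π)⁻¹ * x ∈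
        (s34_gi_V (s18_A1 A K₁) (N₁ * q)).comap
          (W : s18_F1 K₁ (N₁ * q) →+* s18_F1 K₁ (N₁ * q)) →
      (algebraMap (s18_A1 A K₁) (s18_F1 K₁ (N₁ * q)) π)⁻¹ * x ∈
        (s34_ic_chart (s18_A1 A K₁) (s18_coord K₁ tL)).toSubring)
    (hcapi : ∀ x ∈ (s34_ic_chart (s18_A1 A K₁) (s18_coord K₁ tL)⁻¹).toSubring,
      (algebraMap (s18_A1 A K₁) (s18_F1 K₁ (N₁ * q)) π)⁻¹ * x ∈ s34_gi_V (s18_A1 A K₁) (N₁ * q) →
      (algebraMap (s18_A1 A K₁) (s18_F1 K₁ (N₁ * q)) π)⁻¹ * x ∈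
        (s34_gi_V (s18_A1 A K₁) (N₁ * q)).comap
          (W : s18_F1 K₁ (N₁ * q) →+* s18_F1 K₁ (N₁ * q)) →
      (algebraMap (s18_A1 A K₁) (s18_F1 K₁ (N₁ * q)) π)⁻¹ * x ∈
        (s34_ic_chart (s18_A1 A K₁) (s18_coord K₁ tL)⁻¹).toSubring)
    (m : ℕ) (g₁ : s18_F1 K₁ (N₁ * q)) (hg₁ : g₁ ≠ 0)
    (hdivg : ∀ P : Place (AlgebraicClosure ℚ) (modularFunctionFieldBar (N₁ * q)),
      (m : ℤ) ∣ P.ord (s18_baseIncl K₁ (N₁ * q) g₁))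
    (hfix : ∀ P : Place (AlgebraicClosure ℚ) (modularFunctionFieldBar (N₁ * q)),
      P.ord (s18_baseIncl K₁ (N₁ * q) g₁) ≠ 0 →
      ∀ σ : AlgebraicClosure ℚ ≃ₐ[ℚ] AlgebraicClosure ℚ, (∀ c ∈ K₁, σ c = c) →
        arithmeticGalois (modularFunctionFieldFull (N₁ * q)) σ • P = P) :
    s34_nh_HG π (s34_ic_chart (s18_A1 A K₁) (s18_coord K₁ tL))
        (s34_gi_V (s18_A1 A K₁) (N₁ * q))
        ((s34_gi_V (s18_A1 A K₁) (N₁ * q)).comap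
          (W : s18_F1 K₁ (N₁ * q) →+* s18_F1 K₁ (N₁ * q))) m g₁ ∧
      s34_nh_HG π (s34_ic_chart (s18_A1 A K₁) (s18_coord K₁ tL)⁻¹)
        (s34_gi_V (s18_A1 A K₁) (N₁ * q))
        ((s34_gi_V (s18_A1 A K₁) (N₁ * q)).comap
          (W : s18_F1 K₁ (N₁ * q) →+* s18_F1 K₁ (N₁ * q))) m g₁ := by
  have hq : q.Prime := Fact.out
  have hR : s18_ResBasis q (s18_A1 A K₁) π := s18_a1_resbasis A hA K₁ π hπ
  obtain ⟨B, hB⟩ := core N₁ q hqN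
  -- the coordinate at the two levels
  have hcoord : heckeAlphaBar K₁ N₁ q (s18_coord K₁ t₀) = s18_coord K₁ tL :=
    s34_lc_incl_coord q tL htL
  have hcoord' : heckeAlphaBar K₁ N₁ q (s18_coord K₁ t₀⁻¹) = (s18_coord K₁ tL)⁻¹ := by
    rw [s18_coord_inv, map_inv₀, hcoord]
  -- the swap
  have hWt : ((W (s18_coord K₁ tL) : s18_F1 K₁ (N₁ * q)) : LaurentSeries K₁) =
      qExpand K₁ q ((s18_coord K₁ tL : s18_F1 K₁ (N₁ * q)) : LaurentSeries K₁) := by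
    rw [← hcoord, hWα, coe_heckeBetaBar, coe_heckeAlphaBar]
  obtain ⟨hW0, hWi⟩ := s34_ws_chart_stable N₁ q M hq hqN hqM hMN A hA K₁ (s18_coord K₁ tL) hHaupt
    (W : s18_F1 K₁ (N₁ * q) →+* s18_F1 K₁ (N₁ * q)) hWc hWt
  have hsmInf : s18_SmHyp π (s18_coord K₁ t₀⁻¹) (s18_chAlg N₁ q (s18_A1 A K₁) t₀⁻¹) := by
    rw [s18_coord_inv]
    exact hP.smInf
  have hchInf : s18_Chart (algebraMap (s18_A1 A K₁) (s18_F1 K₁ N₁) π)
      (s18_chAlg N₁ q (s18_A1 A K₁) t₀⁻¹).toSubring := hT.chartInf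
  have hresκ := s34_rx_hres N₁ q A hA K₁ hqN hM23 hπ W hWc hWα hWβ
  refine ⟨?_, ?_⟩
  · exact s34_nh_hG_chart (s18_A1 A K₁) hR h hB hT.chart0 hP.sm0 (s18_coord K₁ tL) hcoord hfin
      T0 hT0 e0 he0 hlead0 hlow0 W hWW hWα (fun x hx => hW0 x hx) hcap0 hresκ m g₁ hg₁
      (fun W' hW' hAW hπW => s18_d3_hdiv K₁ (N₁ * q) m g₁ hg₁ hdivg W' hW'
        (s18_K_mem_of_A1 (N₁ * q) A K₁ hπ W' hAW hπW))
      (fun 𝔪 h𝔪 hπ𝔪 𝔮 h𝔮 h𝔮𝔪 hπ𝔮 hdvr hbad =>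
        s34_rp_hrat (N₁ * q) A K₁ hπ g₁ hfix
          (s34_ic_chart (s18_A1 A K₁) (s18_coord K₁ tL)).toSubring
          (s34_ic_chart (s18_A1 A K₁) (s18_coord K₁ tL)).algebraMap_mem 𝔪 h𝔪 hπ𝔪 𝔮 h𝔮 h𝔮𝔪 hπ𝔮
          hdvr hbad)
  · exact s34_nh_hG_chart (s18_A1 A K₁) hR h.inv hB hchInf hsmInf (s18_coord K₁ tL)⁻¹ hcoord'
      (s34_nh_fin_inv hfin) Ti hTi ei hei hleadi hlowi W hWW hWα (fun x hx => hWi x hx) hcapi
      hresκ m g₁ hg₁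
      (fun W' hW' hAW hπW => s18_d3_hdiv K₁ (N₁ * q) m g₁ hg₁ hdivg W' hW'
        (s18_K_mem_of_A1 (N₁ * q) A K₁ hπ W' hAW hπW))
      (fun 𝔪 h𝔪 hπ𝔪 𝔮 h𝔮 h𝔮𝔪 hπ𝔮 hdvr hbad =>
        s34_rp_hrat (N₁ * q) A K₁ hπ g₁ hfix
          (s34_ic_chart (s18_A1 A K₁) (s18_coord K₁ tL)⁻¹).toSubring
          (s34_ic_chart (s18_A1 A K₁) (s18_coord K₁ tL)⁻¹).algebraMap_mem 𝔪 h𝔪 hπ𝔪 𝔮 h𝔮 h𝔮𝔪
          hπ𝔮 hdvr hbad)

set_option maxHeartbeats 1600000 in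
include hA in
/-- **(INST-node), final form, `t_2`**: `hG0` and `hGi` of `s34_pow_of_model` for
`B0 = s34_ic_chart A₁ t`, `Binf = s34_ic_chart A₁ t⁻¹`, `t = s18_coord K₁ (t_2 at level N₁ q)`,
`V₁ = s34_gi_V A₁ (N₁ q)`, `V₂ = V₁.comap W`, from the swap `W`, (CAP) and the function `g₁`. -/
theorem s34_nh_model_t2 (hqN : ¬ q ∣ N₁) (hM : 2 ∣ N₁) (hML : 2 ∣ N₁ * q)
    {π : s18_A1 A K₁} (hπ : Irreducible π)
    (W : s18_F1 K₁ (N₁ * q) ≃+* s18_F1 K₁ (N₁ * q))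
    (hWc : ∀ c : K₁, W (algebraMap K₁ (s18_F1 K₁ (N₁ * q)) c) =
      algebraMap K₁ (s18_F1 K₁ (N₁ * q)) c)
    (hWα : ∀ x : s18_F1 K₁ N₁, W (heckeAlphaBar K₁ N₁ q x) = heckeBetaBar K₁ N₁ q x)
    (hWβ : ∀ x : s18_F1 K₁ N₁, W (heckeBetaBar K₁ N₁ q x) = heckeAlphaBar K₁ N₁ q x)
    (hWW : ∀ x : s18_F1 K₁ (N₁ * q), W (W x) = x)
    (hcap0 : ∀ x ∈ (s34_ic_chart (s18_A1 A K₁) (s18_coord K₁ (s18_cz_t2 (N₁ * q) hML))).toSubring,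
      (algebraMap (s18_A1 A K₁) (s18_F1 K₁ (N₁ * q)) π)⁻¹ * x ∈ s34_gi_V (s18_A1 A K₁) (N₁ * q) →
      (algebraMap (s18_A1 A K₁) (s18_F1 K₁ (N₁ * q)) π)⁻¹ * x ∈
        (s34_gi_V (s18_A1 A K₁) (N₁ * q)).comap
          (W : s18_F1 K₁ (N₁ * q) →+* s18_F1 K₁ (N₁ * q)) →
      (algebraMap (s18_A1 A K₁) (s18_F1 K₁ (N₁ * q)) π)⁻¹ * x ∈
        (s34_ic_chart (s18_A1 A K₁) (s18_coord K₁ (s18_cz_t2 (N₁ * q) hML))).toSubring)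
    (hcapi : ∀ x ∈ (s34_ic_chart (s18_A1 A K₁)
        (s18_coord K₁ (s18_cz_t2 (N₁ * q) hML))⁻¹).toSubring,
      (algebraMap (s18_A1 A K₁) (s18_F1 K₁ (N₁ * q)) π)⁻¹ * x ∈ s34_gi_V (s18_A1 A K₁) (N₁ * q) →
      (algebraMap (s18_A1 A K₁) (s18_F1 K₁ (N₁ * q)) π)⁻¹ * x ∈
        (s34_gi_V (s18_A1 A K₁) (N₁ * q)).comap
          (W : s18_F1 K₁ (N₁ * q) →+* s18_F1 K₁ (N₁ * q)) →
      (algebraMap (s18_A1 A K₁) (s18_F1 K₁ (N₁ * q)) π)⁻¹ * x ∈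
        (s34_ic_chart (s18_A1 A K₁) (s18_coord K₁ (s18_cz_t2 (N₁ * q) hML))⁻¹).toSubring)
    (m : ℕ) (g₁ : s18_F1 K₁ (N₁ * q)) (hg₁ : g₁ ≠ 0)
    (hdivg : ∀ P : Place (AlgebraicClosure ℚ) (modularFunctionFieldBar (N₁ * q)),
      (m : ℤ) ∣ P.ord (s18_baseIncl K₁ (N₁ * q) g₁))
    (hfix : ∀ P : Place (AlgebraicClosure ℚ) (modularFunctionFieldBar (N₁ * q)),
      P.ord (s18_baseIncl K₁ (N₁ * q) g₁) ≠ 0 →
      ∀ σ : AlgebraicClosure ℚ ≃ₐ[ℚ] AlgebraicClosure ℚ, (∀ c ∈ K₁, σ c = c) →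
        arithmeticGalois (modularFunctionFieldFull (N₁ * q)) σ • P = P) :
    s34_nh_HG π (s34_ic_chart (s18_A1 A K₁) (s18_coord K₁ (s18_cz_t2 (N₁ * q) hML)))
        (s34_gi_V (s18_A1 A K₁) (N₁ * q))
        ((s34_gi_V (s18_A1 A K₁) (N₁ * q)).comap
          (W : s18_F1 K₁ (N₁ * q) →+* s18_F1 K₁ (N₁ * q))) m g₁ ∧
      s34_nh_HG π (s34_ic_chart (s18_A1 A K₁) (s18_coord K₁ (s18_cz_t2 (N₁ * q) hML))⁻¹)
        (s34_gi_V (s18_A1 A K₁) (N₁ * q))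
        ((s34_gi_V (s18_A1 A K₁) (N₁ * q)).comap
          (W : s18_F1 K₁ (N₁ * q) →+* s18_F1 K₁ (N₁ * q))) m g₁ := by
  have hqM : q ≠ 2 := fun h => hqN (h ▸ hM)
  exact s34_nh_model_coord N₁ q A hA K₁ hqN (Or.inl hM) 2 hqM hM hπ (s18_cz_t2 N₁ hM)
    (s18_cz_t2 (N₁ * q) hML) rfl (s18_cz_coord_t2 N₁ q hM hqM)
    (s34_lc_twoChart_t2 N₁ A hA K₁ hqN hM π hπ)
    (s18_ch_pkg_t2 (s18_a1_ell A hA K₁) hqN hM π hπ) (s34_ws_isHaupt_t2 (N₁ * q) K₁ hML)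
    (s34_nh_fin_t2 (K := K₁) hML) s18_t2 s18_t2inv (s34_gzi_coord_t2 K₁ N₁ hM)
    (s34_nh_coord_t2_inv hM) (-1) 1 (by norm_num) one_ne_zero s34_gzi_t2_lead.1
    s34_gzi_t2_lead.2 s18_cz_isLeading_t2inv.1 s18_cz_isLeading_t2inv.2 W hWc hWα hWβ hWW
    hcap0 hcapi m g₁ hg₁ hdivg hfix

set_option maxHeartbeats 1600000 in
include hA in
/-- **(INST-node), final form, `t_3`**: `hG0` and `hGi` of `s34_pow_of_model` for
`B0 = s34_ic_chart A₁ t`, `Binf = s34_ic_chart A₁ t⁻¹`, `t = s18_coord K₁ (t_3 at level N₁ q)`,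
`V₁ = s34_gi_V A₁ (N₁ q)`, `V₂ = V₁.comap W`, from the swap `W`, (CAP) and the function `g₁`. -/
theorem s34_nh_model_t3 (hqN : ¬ q ∣ N₁) (hM : 3 ∣ N₁) (hML : 3 ∣ N₁ * q)
    {π : s18_A1 A K₁} (hπ : Irreducible π)
    (W : s18_F1 K₁ (N₁ * q) ≃+* s18_F1 K₁ (N₁ * q))
    (hWc : ∀ c : K₁, W (algebraMap K₁ (s18_F1 K₁ (N₁ * q)) c) =
      algebraMap K₁ (s18_F1 K₁ (N₁ * q)) c)
    (hWα : ∀ x : s18_F1 K₁ N₁, W (heckeAlphaBar K₁ N₁ q x) = heckeBetaBar K₁ N₁ q x)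
    (hWβ : ∀ x : s18_F1 K₁ N₁, W (heckeBetaBar K₁ N₁ q x) = heckeAlphaBar K₁ N₁ q x)
    (hWW : ∀ x : s18_F1 K₁ (N₁ * q), W (W x) = x)
    (hcap0 : ∀ x ∈ (s34_ic_chart (s18_A1 A K₁) (s18_coord K₁ (s18_cz_t3 (N₁ * q) hML))).toSubring,
      (algebraMap (s18_A1 A K₁) (s18_F1 K₁ (N₁ * q)) π)⁻¹ * x ∈ s34_gi_V (s18_A1 A K₁) (N₁ * q) →
      (algebraMap (s18_A1 A K₁) (s18_F1 K₁ (N₁ * q)) π)⁻¹ * x ∈
        (s34_gi_V (s18_A1 A K₁) (N₁ * q)).comap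
          (W : s18_F1 K₁ (N₁ * q) →+* s18_F1 K₁ (N₁ * q)) →
      (algebraMap (s18_A1 A K₁) (s18_F1 K₁ (N₁ * q)) π)⁻¹ * x ∈
        (s34_ic_chart (s18_A1 A K₁) (s18_coord K₁ (s18_cz_t3 (N₁ * q) hML))).toSubring)
    (hcapi : ∀ x ∈ (s34_ic_chart (s18_A1 A K₁)
        (s18_coord K₁ (s18_cz_t3 (N₁ * q) hML))⁻¹).toSubring,
      (algebraMap (s18_A1 A K₁) (s18_F1 K₁ (N₁ * q)) π)⁻¹ * x ∈ s34_gi_V (s18_A1 A K₁) (N₁ * q) →
      (algebraMap (s18_A1 A K₁) (s18_F1 K₁ (N₁ * q)) π)⁻¹ * x ∈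
        (s34_gi_V (s18_A1 A K₁) (N₁ * q)).comap
          (W : s18_F1 K₁ (N₁ * q) →+* s18_F1 K₁ (N₁ * q)) →
      (algebraMap (s18_A1 A K₁) (s18_F1 K₁ (N₁ * q)) π)⁻¹ * x ∈
        (s34_ic_chart (s18_A1 A K₁) (s18_coord K₁ (s18_cz_t3 (N₁ * q) hML))⁻¹).toSubring)
    (m : ℕ) (g₁ : s18_F1 K₁ (N₁ * q)) (hg₁ : g₁ ≠ 0)
    (hdivg : ∀ P : Place (AlgebraicClosure ℚ) (modularFunctionFieldBar (N₁ * q)),
      (m : ℤ) ∣ P.ord (s18_baseIncl K₁ (N₁ * q) g₁))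
    (hfix : ∀ P : Place (AlgebraicClosure ℚ) (modularFunctionFieldBar (N₁ * q)),
      P.ord (s18_baseIncl K₁ (N₁ * q) g₁) ≠ 0 →
      ∀ σ : AlgebraicClosure ℚ ≃ₐ[ℚ] AlgebraicClosure ℚ, (∀ c ∈ K₁, σ c = c) →
        arithmeticGalois (modularFunctionFieldFull (N₁ * q)) σ • P = P) :
    s34_nh_HG π (s34_ic_chart (s18_A1 A K₁) (s18_coord K₁ (s18_cz_t3 (N₁ * q) hML)))
        (s34_gi_V (s18_A1 A K₁) (N₁ * q))
        ((s34_gi_V (s18_A1 A K₁) (N₁ * q)).comap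
          (W : s18_F1 K₁ (N₁ * q) →+* s18_F1 K₁ (N₁ * q))) m g₁ ∧
      s34_nh_HG π (s34_ic_chart (s18_A1 A K₁) (s18_coord K₁ (s18_cz_t3 (N₁ * q) hML))⁻¹)
        (s34_gi_V (s18_A1 A K₁) (N₁ * q))
        ((s34_gi_V (s18_A1 A K₁) (N₁ * q)).comap
          (W : s18_F1 K₁ (N₁ * q) →+* s18_F1 K₁ (N₁ * q))) m g₁ := by
  have hqM : q ≠ 3 := fun h => hqN (h ▸ hM)
  exact s34_nh_model_coord N₁ q A hA K₁ hqN (Or.inr hM) 3 hqM hM hπ (s18_cz_t3 N₁ hM)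
    (s18_cz_t3 (N₁ * q) hML) rfl (s18_cz_coord_t3 N₁ q hM hqM)
    (s34_lc_twoChart_t3 N₁ A hA K₁ hqN hM π hπ)
    (s18_ch_pkg_t3 (s18_a1_ell A hA K₁) hqN hM π hπ) (s34_ws_isHaupt_t3 (N₁ * q) K₁ hML)
    (s34_nh_fin_t3 (K := K₁) hML) s18_t3 s18_t3inv (s34_gzi_coord_t3 K₁ N₁ hM)
    (s34_nh_coord_t3_inv hM) (-1) 1 (by norm_num) one_ne_zero s34_gzi_t3_lead.1
    s34_gzi_t3_lead.2 s18_cz_isLeading_t3inv.1 s18_cz_isLeading_t3inv.2 W hWc hWα hWβ hWW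
    hcap0 hcapi m g₁ hg₁ hdivg hfix

end Model

end Fermat.Agent.S34
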