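import Mathlib
import Fermat.Agent.S18.ChartDefs

/-!
# S34 (NODE), leaf (TR): branch parameters at a node (transversality)

Abstract commutative algebra.  `B` is the nodal chart, `Pinf`, `P0` the two vertical primes
(`Pinf ∩ P0 = π B` is NOT needed here), `𝔪` a maximal ideal through both (a node), `φ : A₀ →+* B`
the structure map of the base ring.  `B₁ ⊆ B` is the smooth chart of the lower level, with
`B = B₁ + Pinf` (the branch `B / Pinf` is the special fibre of `B₁`) and a local parameter `s` of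
`B₁` at `𝔪 ∩ B₁` (the field `reg` of the chart).  The Frobenius structure: every element of `B₁`
is an `A₀`-combination of elements `f` possessing a partner `g` (`g = W f`, the Atkin–Lehner
transform) with `g ≡ f ^ q` modulo `Pinf` and `f ≡ g ^ q` modulo `P0`.

* `s34_tr_param` : there is `x ∈ P0`, `x ∉ Pinf`, generating `𝔪` modulo `Pinf` locally at `𝔪`
  (the two branches are transversal at the node and `x` is a parameter of the branch `B / Pinf`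
  vanishing on the other branch).  The statement for the other branch is the same theorem with
  `Pinf`, `P0` exchanged, `B₁` replaced by its Atkin–Lehner transform and the pairs `(f, g)`
  swapped.
* `s34_tr_param_chart` : the same for subrings `B₁ ≤ B` of a field with `s18_Chart (φ π) B₁`
  (the parameter `s` and the maximality of `𝔪 ∩ B₁` are produced inside).

Proof: `s = ∑ aᵢ fᵢ`, `x := ∑ aᵢ gᵢ ^ q - s ∈ P0`; modulo `Pinf`, `x ≡ ∑ aᵢ (fᵢ ^ (q²) - fᵢ)`, and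
with constants `cᵢ ≡ fᵢ` modulo `𝔪` one gets `x ≡ -s` modulo `𝔪² + Pinf`; Nakayama by hand.
-/

set_option autoImplicit false

namespace Fermat.Agent.S34

section Trans

variable {A₀ B : Type*} [CommRing A₀] [CommRing B]

/-- A difference of `n`-th powers lies in every ideal containing the difference. -/
theorem s34_tr_pow_sub_pow_mem (I : Ideal B) {a b : B} (h : a - b ∈ I) (n : ℕ) :
    a ^ n - b ^ n ∈ I := by
  obtain ⟨k, hk⟩ := sub_dvd_pow_sub_pow a b n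
  rw [hk]
  exact I.mul_mem_right _ h

/-- **(TR)** branch parameter at a node. -/
theorem s34_tr_param (φ : A₀ →+* B) (q : ℕ) (hq : q.Prime) (π : A₀)
    (Pinf P0 𝔪 : Ideal B) [Pinf.IsPrime] [𝔪.IsMaximal] (hPinf : Pinf ≤ 𝔪) (hP0 : P0 ≤ 𝔪)
    (hπinf : φ π ∈ Pinf)
    (hqπ : ∃ a : A₀, (q : A₀) = π * a)
    (hker : ∀ a : A₀, φ a ∈ 𝔪 → ∃ a' : A₀, a = π * a')
    (hres : ∀ b : B, ∃ a : A₀, b - φ a ∈ 𝔪)
    (B₁ : Subring B)
    (hRES : ∀ b : B, ∃ b₁ ∈ B₁, b - b₁ ∈ Pinf)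
    (hreg : ∃ s ∈ B₁, s ∈ 𝔪 ∧ ∀ z ∈ B₁, z ∈ 𝔪 →
      ∃ u α β : B, u ∉ 𝔪 ∧ u * z = α * φ π + β * s)
    (hfrob : ∀ z ∈ B₁, ∃ (n : ℕ) (a : Fin n → A₀) (f g : Fin n → B),
      z = ∑ i, φ (a i) * f i ∧ ∀ i, g i - f i ^ q ∈ Pinf ∧ f i - g i ^ q ∈ P0)
    (hne : ¬ 𝔪 ≤ Pinf) :
    ∃ x : B, x ∈ P0 ∧ x ∉ Pinf ∧ ∀ m ∈ 𝔪, ∃ r u : B, u ∉ 𝔪 ∧ u * m - x * r ∈ Pinf := by
  classical
  have h𝔪prime : 𝔪.IsPrime := Ideal.IsMaximal.isPrime inferInstance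
  have h1𝔪 : (1 : B) ∉ 𝔪 := (Ideal.ne_top_iff_one 𝔪).mp h𝔪prime.ne_top
  obtain ⟨s, hs₁, hs𝔪, hloc⟩ := hreg
  obtain ⟨n, a, f, g, hsum, hfg⟩ := hfrob s hs₁
  choose c hc using fun i => hres (f i)
  -- `φ (π A₀) ⊆ Pinf`
  have hπmul : ∀ a' : A₀, φ (π * a') ∈ Pinf := fun a' => by
    rw [map_mul]; exact Pinf.mul_mem_right _ hπinf
  have hkerinf : ∀ a' : A₀, φ a' ∈ 𝔪 → φ a' ∈ Pinf := by
    intro a' ha'
    obtain ⟨a'', rfl⟩ := hker a' ha'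
    exact hπmul a''
  have hqB : (q : B) ∈ Pinf := by
    obtain ⟨a', ha'⟩ := hqπ
    have h2 : (q : B) = φ (π * a') := by rw [← ha', map_natCast]
    rw [h2]; exact hπmul a'
  -- local generation of `𝔪` modulo `Pinf` by `s`
  have h5a : ∀ m ∈ 𝔪, ∃ u β : B, u ∉ 𝔪 ∧ u * m - β * s ∈ Pinf := by
    intro m hm
    obtain ⟨b₁, hb₁, hmb⟩ := hRES m
    have hb₁𝔪 : b₁ ∈ 𝔪 := by
      have h2 := 𝔪.sub_mem hm (hPinf hmb)
      have h3 : m - (m - b₁) = b₁ := by ring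
      rwa [h3] at h2
    obtain ⟨u, α, β, hu, huz⟩ := hloc b₁ hb₁ hb₁𝔪
    refine ⟨u, β, hu, ?_⟩
    have h2 : u * m - β * s = u * (m - b₁) + α * φ π := by
      linear_combination huz
    rw [h2]
    exact Pinf.add_mem (Pinf.mul_mem_left _ hmb) (Pinf.mul_mem_left _ hπinf)
  -- the elements `e` with `U e ≡ ε s`, `U ∉ 𝔪`, `ε ∈ 𝔪`
  have hLadd : ∀ e₁ e₂ : B, (∃ U ε : B, U ∉ 𝔪 ∧ ε ∈ 𝔪 ∧ U * e₁ - ε * s ∈ Pinf) →
      (∃ U ε : B, U ∉ 𝔪 ∧ ε ∈ 𝔪 ∧ U * e₂ - ε * s ∈ Pinf) →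
      ∃ U ε : B, U ∉ 𝔪 ∧ ε ∈ 𝔪 ∧ U * (e₁ + e₂) - ε * s ∈ Pinf := by
    rintro e₁ e₂ ⟨U₁, ε₁, hU₁, hε₁, h₁⟩ ⟨U₂, ε₂, hU₂, hε₂, h₂⟩
    refine ⟨U₁ * U₂, U₂ * ε₁ + U₁ * ε₂, fun h => (h𝔪prime.mem_or_mem h).elim hU₁ hU₂,
      𝔪.add_mem (𝔪.mul_mem_left _ hε₁) (𝔪.mul_mem_left _ hε₂), ?_⟩
    have h3 : U₁ * U₂ * (e₁ + e₂) - (U₂ * ε₁ + U₁ * ε₂) * s =
        U₂ * (U₁ * e₁ - ε₁ * s) + U₁ * (U₂ * e₂ - ε₂ * s) := by ring
    rw [h3]
    exact Pinf.add_mem (Pinf.mul_mem_left _ h₁) (Pinf.mul_mem_left _ h₂)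
  have hLmul : ∀ e m : B, e ∈ 𝔪 → m ∈ 𝔪 → ∃ U ε : B, U ∉ 𝔪 ∧ ε ∈ 𝔪 ∧ U * (e * m) - ε * s ∈ Pinf := by
    intro e m he hm
    obtain ⟨u, β, hu, hum⟩ := h5a m hm
    refine ⟨u, e * β, hu, 𝔪.mul_mem_right _ he, ?_⟩
    have h3 : u * (e * m) - e * β * s = e * (u * m - β * s) := by ring
    rw [h3]; exact Pinf.mul_mem_left _ hum
  -- the exponent
  obtain ⟨k, hk⟩ : ∃ k : ℕ, q ^ 2 = k + 2 := by
    have h2 := hq.two_le
    have h4 : 2 ≤ q ^ 2 := by nlinarith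
    exact ⟨q ^ 2 - 2, by omega⟩
  -- notation
  set mm : Fin n → B := fun i => f i - φ (c i) with hmm
  have hmm𝔪 : ∀ i, mm i ∈ 𝔪 := fun i => hc i
  set E : B := ∑ i, φ (a i) * mm i ^ (q ^ 2) with hE
  set x : B := ∑ i, φ (a i) * g i ^ q - s with hx
  have hpow𝔪 : ∀ i, mm i ^ (q ^ 2) ∈ 𝔪 := fun i => by
    rw [hk]; exact Ideal.pow_mem_of_mem 𝔪 (hmm𝔪 i) (k + 2) (by omega)
  have hE𝔪 : E ∈ 𝔪 := Ideal.sum_mem _ fun i _ => 𝔪.mul_mem_left _ (hpow𝔪 i)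
  -- `E` is a multiple of `s` locally
  have hEL : ∃ U ε : B, U ∉ 𝔪 ∧ ε ∈ 𝔪 ∧ U * E - ε * s ∈ Pinf := by
    rw [hE]
    refine Finset.sum_induction _ (fun e => ∃ U ε : B, U ∉ 𝔪 ∧ ε ∈ 𝔪 ∧ U * e - ε * s ∈ Pinf)
      hLadd ⟨1, 0, h1𝔪, 𝔪.zero_mem, by simp⟩ ?_
    intro i _
    have h3 : φ (a i) * mm i ^ (q ^ 2) =
        (φ (a i) * mm i ^ (k + 1)) * mm i := by
      rw [hk]; ring
    rw [h3]
    exact hLmul _ _ (𝔪.mul_mem_left _ (Ideal.pow_mem_of_mem 𝔪 (hmm𝔪 i) (k + 1) (by omega)))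
      (hmm𝔪 i)
  -- `x ∈ P0`
  have hxP0 : x ∈ P0 := by
    have h3 : x = ∑ i, φ (a i) * (-(f i - g i ^ q)) := by
      rw [hx, hsum, ← Finset.sum_sub_distrib]
      refine Finset.sum_congr rfl fun i _ => ?_
      ring
    rw [h3]
    exact Ideal.sum_mem _ fun i _ => P0.mul_mem_left _ (P0.neg_mem (hfg i).2)
  -- the termwise congruence
  have hterm : ∀ i, g i ^ q - f i - mm i ^ (q ^ 2) + mm i ∈ Pinf := by
    intro i
    -- T1
    have hT1 : g i ^ q - f i ^ (q ^ 2) ∈ Pinf := by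
      have h3 := s34_tr_pow_sub_pow_mem Pinf (hfg i).1 q
      have h4 : (f i ^ q) ^ q = f i ^ (q ^ 2) := by rw [← pow_mul, sq]
      rwa [h4] at h3
    -- T2
    have hT2 : f i ^ (q ^ 2) - mm i ^ (q ^ 2) - φ (c i) ^ (q ^ 2) ∈ Pinf := by
      obtain ⟨r, hr⟩ := exists_add_pow_prime_pow_eq hq (mm i) (φ (c i)) 2
      have h3 : mm i + φ (c i) = f i := by rw [hmm]; ring
      rw [h3] at hr
      have h4 : f i ^ (q ^ 2) - mm i ^ (q ^ 2) - φ (c i) ^ (q ^ 2) =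
          (q : B) * (mm i * φ (c i) * r) := by rw [hr]; ring
      rw [h4]
      exact Pinf.mul_mem_right _ hqB
    -- T3
    have hT3 : φ (c i) ^ (q ^ 2) - φ (c i) ∈ Pinf := by
      have h3 : φ (c i) ^ (q ^ 2) - φ (c i) =
          φ (c i ^ (q ^ 2) - c i) := by rw [map_sub, map_pow]
      rw [h3]
      apply hkerinf
      rw [← h3]
      have h5 : φ (c i) - f i ∈ 𝔪 := by
        have := 𝔪.neg_mem (hc i)
        rwa [neg_sub] at this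
      have h6 : φ (c i) ^ (q ^ 2) - f i ^ (q ^ 2) ∈ 𝔪 :=
        s34_tr_pow_sub_pow_mem 𝔪 h5 (q ^ 2)
      have h7 : f i ^ (q ^ 2) - g i ^ q ∈ 𝔪 := by
        have := 𝔪.neg_mem (hPinf hT1)
        rwa [neg_sub] at this
      have h8 : g i ^ q - f i ∈ 𝔪 := by
        have := 𝔪.neg_mem (hP0 (hfg i).2)
        rwa [neg_sub] at this
      have h9 : φ (c i) ^ (q ^ 2) - φ (c i) =
          (φ (c i) ^ (q ^ 2) - f i ^ (q ^ 2)) + (f i ^ (q ^ 2) - g i ^ q) +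
            (g i ^ q - f i) + (f i - φ (c i)) := by ring
      rw [h9]
      exact 𝔪.add_mem (𝔪.add_mem (𝔪.add_mem h6 h7) h8) (hc i)
    have h10 : g i ^ q - f i - mm i ^ (q ^ 2) + mm i =
        (g i ^ q - f i ^ (q ^ 2)) +
          (f i ^ (q ^ 2) - mm i ^ (q ^ 2) - φ (c i) ^ (q ^ 2)) +
          (φ (c i) ^ (q ^ 2) - φ (c i)) := by
      rw [hmm]; ring
    rw [h10]
    exact Pinf.add_mem (Pinf.add_mem hT1 hT2) hT3
  -- summing up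
  have hsum2 : x - E + s - φ (∑ i, a i * c i) ∈ Pinf := by
    have h3 : x - E + s - φ (∑ i, a i * c i) =
        ∑ i, φ (a i) * (g i ^ q - f i - mm i ^ (q ^ 2) + mm i) := by
      have h4 : φ (∑ i, a i * c i) =
          ∑ i, φ (a i) * φ (c i) := by
        rw [map_sum]
        exact Finset.sum_congr rfl fun i _ => map_mul _ _ _
      have h5 : x - E + s = ∑ i, (φ (a i) * g i ^ q -
          φ (a i) * mm i ^ (q ^ 2)) := by
        rw [hx, hE, Finset.sum_sub_distrib]; ring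
      rw [h5, h4, ← Finset.sum_sub_distrib]
      refine Finset.sum_congr rfl fun i _ => ?_
      rw [hmm]; ring
    rw [h3]
    exact Ideal.sum_mem _ fun i _ => Pinf.mul_mem_left _ (hterm i)
  have hC : φ (∑ i, a i * c i) ∈ Pinf := by
    apply hkerinf
    have h3 : φ (∑ i, a i * c i) =
        x - E + s - (x - E + s - φ (∑ i, a i * c i)) := by ring
    rw [h3]
    exact 𝔪.sub_mem (𝔪.add_mem (𝔪.sub_mem (hP0 hxP0) hE𝔪) hs𝔪) (hPinf hsum2)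
  have hstar : x + s - E ∈ Pinf := by
    have h3 : x + s - E = (x - E + s - φ (∑ i, a i * c i)) +
        φ (∑ i, a i * c i) := by ring
    rw [h3]
    exact Pinf.add_mem hsum2 hC
  -- `s` is a multiple of `x` locally
  obtain ⟨U, ε, hU, hε, hUE⟩ := hEL
  have hu' : U - ε ∉ 𝔪 := by
    intro h
    apply hU
    have h3 : U = (U - ε) + ε := by ring
    rw [h3]
    exact 𝔪.add_mem h hε
  have hxs : U * x + (U - ε) * s ∈ Pinf := by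
    have h3 : U * x + (U - ε) * s = U * (x + s - E) + (U * E - ε * s) := by ring
    rw [h3]
    exact Pinf.add_mem (Pinf.mul_mem_left _ hstar) hUE
  have hfinal : ∀ m ∈ 𝔪, ∃ r u : B, u ∉ 𝔪 ∧ u * m - x * r ∈ Pinf := by
    intro m hm
    obtain ⟨u, β, hu, hum⟩ := h5a m hm
    refine ⟨-(β * U), (U - ε) * u, fun h => (h𝔪prime.mem_or_mem h).elim hu' hu, ?_⟩
    have h3 : (U - ε) * u * m - x * (-(β * U)) =
        (U - ε) * (u * m - β * s) + β * (U * x + (U - ε) * s) := by ring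
    rw [h3]
    exact Pinf.add_mem (Pinf.mul_mem_left _ hum) (Pinf.mul_mem_left _ hxs)
  refine ⟨x, hxP0, ?_, hfinal⟩
  intro hxinf
  apply hne
  intro m hm
  obtain ⟨r, u, hu, hum⟩ := hfinal m hm
  have h3 : u * m ∈ Pinf := by
    have h4 : u * m = (u * m - x * r) + x * r := by ring
    rw [h4]
    exact Pinf.add_mem hum (Pinf.mul_mem_right _ hxinf)
  rcases Ideal.IsPrime.mem_or_mem inferInstance h3 with h5 | h5
  · exact absurd (hPinf h5) hu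
  · exact h5

end Trans

section TransChart

open Fermat.Agent.S18

variable {A₀ F : Type*} [CommRing A₀] [Field F]

/-- **(TR), chart form**: `B₁ ≤ B` subrings of a field, `B₁` an `s18_Chart` (the smooth chart of
the lower level), `B = B₁ + Pinf`; the local parameter is taken from the field `reg` of `B₁` at
`𝔪 ∩ B₁`. -/
theorem s34_tr_param_chart (φ : A₀ →+* F) (q : ℕ) (hq : q.Prime) (π : A₀)
    (B B₁ : Subring F) (hB₁B : B₁ ≤ B) (hφB : ∀ a : A₀, φ a ∈ B) (hchart : s18_Chart (φ π) B₁)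
    (Pinf P0 𝔪 : Ideal B) [Pinf.IsPrime] [𝔪.IsMaximal] (hPinf : Pinf ≤ 𝔪) (hP0 : P0 ≤ 𝔪)
    (hπinf : (⟨φ π, hφB π⟩ : B) ∈ Pinf)
    (hqπ : ∃ a : A₀, (q : A₀) = π * a)
    (hker : ∀ a : A₀, (⟨φ a, hφB a⟩ : B) ∈ 𝔪 → ∃ a' : A₀, a = π * a')
    (hres : ∀ b : B, ∃ a : A₀, b - ⟨φ a, hφB a⟩ ∈ 𝔪)
    (hRES : ∀ b : B, ∃ b₁ : B₁, b - Subring.inclusion hB₁B b₁ ∈ Pinf)
    (hfrob : ∀ z : B₁, ∃ (n : ℕ) (a : Fin n → A₀) (f g : Fin n → B),
      (z : F) = ∑ i, φ (a i) * (f i : F) ∧ ∀ i, g i - f i ^ q ∈ Pinf ∧ f i - g i ^ q ∈ P0)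
    (hne : ¬ 𝔪 ≤ Pinf) :
    ∃ x : B, x ∈ P0 ∧ x ∉ Pinf ∧ ∀ m ∈ 𝔪, ∃ r u : B, u ∉ 𝔪 ∧ u * m - x * r ∈ Pinf := by
  classical
  set incl : B₁ →+* B := Subring.inclusion hB₁B with hincl
  set φB : A₀ →+* B := φ.codRestrict B hφB with hφBdef
  have hφBval : ∀ a : A₀, φB a = ⟨φ a, hφB a⟩ := fun a => rfl
  -- `𝔪 ∩ B₁` is maximal
  set 𝔪₁ : Ideal B₁ := 𝔪.comap incl with h𝔪₁
  have hmax₁ : 𝔪₁.IsMaximal := by
    rw [Ideal.isMaximal_iff]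
    refine ⟨fun h1 => ?_, fun J x₁ hJ hx₁ hx₁J => ?_⟩
    · rw [h𝔪₁, Ideal.mem_comap, map_one] at h1
      exact (Ideal.ne_top_iff_one 𝔪).mp (Ideal.IsMaximal.ne_top inferInstance) h1
    · have hx₁' : incl x₁ ∉ 𝔪 := fun h => hx₁ (by rw [h𝔪₁, Ideal.mem_comap]; exact h)
      obtain ⟨y, m, hm, hym⟩ := Ideal.IsMaximal.exists_inv (I := 𝔪) inferInstance hx₁'
      obtain ⟨y₁, hy₁⟩ := hRES y
      have h2 : y₁ * x₁ - 1 ∈ 𝔪₁ := by
        rw [h𝔪₁, Ideal.mem_comap, map_sub, map_mul, map_one]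
        have h3 : incl y₁ * incl x₁ - 1 = -(m + (y - incl y₁) * incl x₁) := by
          linear_combination hym
        rw [h3]
        exact 𝔪.neg_mem (𝔪.add_mem hm (𝔪.mul_mem_right _ (hPinf hy₁)))
      have h4 : (1 : B₁) = y₁ * x₁ - (y₁ * x₁ - 1) := by ring
      rw [h4]
      exact J.sub_mem (J.mul_mem_left _ hx₁J) (hJ h2)
  have hπB₁ : φ π ∈ B₁ := hchart.ϖ_mem
  have hπ𝔪₁ : (⟨φ π, hπB₁⟩ : B₁) ∈ 𝔪₁ := by
    rw [h𝔪₁, Ideal.mem_comap]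
    exact hPinf hπinf
  obtain ⟨s₁, hs₁, hgen⟩ := hchart.reg 𝔪₁ hmax₁ hπ𝔪₁
  refine s34_tr_param φB q hq π Pinf P0 𝔪 hPinf hP0 (by rw [hφBval]; exact hπinf) hqπ
    (fun a ha => hker a (by rw [← hφBval]; exact ha))
    (fun b => by obtain ⟨a, ha⟩ := hres b; exact ⟨a, by rw [hφBval]; exact ha⟩)
    incl.range ?_ ?_ ?_ hne
  · intro b
    obtain ⟨b₁, hb₁⟩ := hRES b
    exact ⟨incl b₁, ⟨b₁, rfl⟩, hb₁⟩
  · refine ⟨incl s₁, ⟨s₁, rfl⟩, hs₁, ?_⟩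
    rintro z ⟨z₁, rfl⟩ hz
    obtain ⟨u₁, hu₁, hu₁z⟩ := hgen z₁ hz
    obtain ⟨α₁, β₁, hαβ⟩ := Ideal.mem_span_pair.mp hu₁z
    refine ⟨incl u₁, incl α₁, incl β₁, hu₁, ?_⟩
    have h2 : incl (⟨φ π, hπB₁⟩ : B₁) = φB π := rfl
    rw [← h2, ← map_mul, ← map_mul, ← map_mul, ← map_add, hαβ]
  · rintro z ⟨z₁, rfl⟩
    obtain ⟨n, a, f, g, hz, hfg⟩ := hfrob z₁
    refine ⟨n, a, f, g, ?_, hfg⟩
    apply Subtype.ext
    rw [Subring.coe_inclusion] at *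
    rw [hz]
    simp only [AddSubmonoidClass.coe_finsetSum, Subring.coe_mul]
    rfl

end TransChart

end Fermat.Agent.S34
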