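import Fermat.Agent.S34.SwapK
import Fermat.Agent.S18.UnramMod

/-!
# S34 (NODE), leaf (SW), part 2: compatibility of the swap over `K` with the swap over `ℚ̄`

For a prime `ℓ ∤ N`, the field `K · F(N ℓ)` is generated over `K` by `α(K · F(N))` and
`β(K · F(N))`.  Hence a ring homomorphism on `K · F(N ℓ)` is determined by its values on the
constants and on the two images, and any two swaps (over `K` and over `ℚ̄`) are compatible with
the extension of constants `s18_baseIncl`.
-/

set_option autoImplicit false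
set_option linter.style.haveILetI false
set_option linter.unusedSectionVars false

open ModularCurve

noncomputable section

namespace Fermat.Agent.S34

open Fermat.Agent.S18

section

variable {K : Type*} [Field K] [Algebra ℚ K]

/-- For a prime `ℓ`, two ring homomorphisms on `K · F(N ℓ)` which agree on the constants, on
`α(K · F(N))` and on `β(K · F(N))` are equal. -/
theorem s34_sw_ringHom_ext_prime (N ℓ : ℕ) [NeZero N] [NeZero ℓ] (hℓ : ℓ.Prime) {E : Type*}
    [Field E] (φ₁ φ₂ : laurentBaseChange K (modularFunctionFieldFull (N * ℓ)) →+* E)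
    (hc : ∀ c : K, φ₁ (algebraMap K _ c) = φ₂ (algebraMap K _ c))
    (hα : ∀ x, φ₁ (heckeAlphaBar K N ℓ x) = φ₂ (heckeAlphaBar K N ℓ x))
    (hβ : ∀ x, φ₁ (heckeBetaBar K N ℓ x) = φ₂ (heckeBetaBar K N ℓ x)) : φ₁ = φ₂ := by
  have hℓ0 := NeZero.ne ℓ
  apply s34_sw_ringHom_ext (N * ℓ) φ₁ φ₂ hc
  intro e _ he
  obtain ⟨d, m, hd, hm, rfl⟩ := (Nat.dvd_mul).mp he
  have hd0 : d ≠ 0 := fun h => NeZero.ne N (by rw [h] at hd; exact zero_dvd_iff.mp hd)
  haveI : NeZero d := ⟨hd0⟩
  rcases (Nat.dvd_prime hℓ).mp hm with rfl | rfl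
  · have e1 : (⟨coeffEmb K (qExpand ℚ (d * 1) jq), s34_sw_s_mem K (N * ℓ) (d * 1) he⟩ :
        laurentBaseChange K (modularFunctionFieldFull (N * ℓ))) =
        heckeAlphaBar K N ℓ ⟨coeffEmb K (qExpand ℚ d jq), s34_sw_s_mem K N d hd⟩ := by
      apply Subtype.ext
      rw [coe_heckeAlphaBar]
      show coeffEmb K (qExpand ℚ (d * 1) jq) = coeffEmb K (qExpand ℚ d jq)
      rw [qExpand_congr (mul_one d)]
    rw [e1]
    exact hα _
  · haveI : NeZero (m * d) := ⟨Nat.mul_ne_zero hℓ0 hd0⟩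
    have e1 : (⟨coeffEmb K (qExpand ℚ (d * m) jq), s34_sw_s_mem K (N * m) (d * m) he⟩ :
        laurentBaseChange K (modularFunctionFieldFull (N * m))) =
        heckeBetaBar K N m ⟨coeffEmb K (qExpand ℚ d jq), s34_sw_s_mem K N d hd⟩ := by
      apply Subtype.ext
      rw [coe_heckeBetaBar]
      show coeffEmb K (qExpand ℚ (d * m) jq) =
        qExpand K m (coeffMap (algebraMap ℚ K) (qExpand ℚ d jq))
      rw [← coeffMap_qExpand, qExpand_qExpand, qExpand_congr (mul_comm m d)]
      rfl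
    rw [e1]
    exact hβ _

variable (K) in
/-- Extension of constants commutes with `α`. -/
theorem s34_sw_baseIncl_alpha [Algebra K (AlgebraicClosure ℚ)] (N ℓ : ℕ) [NeZero N] [NeZero ℓ]
    (x : laurentBaseChange K (modularFunctionFieldFull N)) :
    s18_baseIncl K (N * ℓ) (heckeAlphaBar K N ℓ x) =
      heckeAlphaBar (AlgebraicClosure ℚ) N ℓ (s18_baseIncl K N x) := by
  apply Subtype.ext
  rw [s18_baseIncl_coe, coe_heckeAlphaBar, coe_heckeAlphaBar, s18_baseIncl_coe]

variable (K) in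
/-- Extension of constants commutes with `β`. -/
theorem s34_sw_baseIncl_beta [Algebra K (AlgebraicClosure ℚ)] (N ℓ : ℕ) [NeZero N] [NeZero ℓ]
    (x : laurentBaseChange K (modularFunctionFieldFull N)) :
    s18_baseIncl K (N * ℓ) (heckeBetaBar K N ℓ x) =
      heckeBetaBar (AlgebraicClosure ℚ) N ℓ (s18_baseIncl K N x) := by
  apply Subtype.ext
  rw [s18_baseIncl_coe, coe_heckeBetaBar, coe_heckeBetaBar, s18_baseIncl_coe, coeffMap_qExpand]

/-- **(SW), compatibility**: a swap over `K` and a swap over `ℚ̄` (both exchanging `α` and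
`β`) are compatible with the extension of constants. -/
theorem s34_sw_baseIncl_swap [Algebra K (AlgebraicClosure ℚ)] (N ℓ : ℕ) [NeZero N] [NeZero ℓ]
    (hℓ : ℓ.Prime)
    (W : laurentBaseChange K (modularFunctionFieldFull (N * ℓ)) ≃ₐ[K]
      laurentBaseChange K (modularFunctionFieldFull (N * ℓ)))
    (hWα : ∀ x, W (heckeAlphaBar K N ℓ x) = heckeBetaBar K N ℓ x)
    (hWβ : ∀ x, W (heckeBetaBar K N ℓ x) = heckeAlphaBar K N ℓ x)
    (Wbar : modularFunctionFieldBar (N * ℓ) ≃ₐ[AlgebraicClosure ℚ]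
      modularFunctionFieldBar (N * ℓ))
    (hα : ∀ x, Wbar (heckeAlphaBar (AlgebraicClosure ℚ) N ℓ x) =
      heckeBetaBar (AlgebraicClosure ℚ) N ℓ x)
    (hβ : ∀ x, Wbar (heckeBetaBar (AlgebraicClosure ℚ) N ℓ x) =
      heckeAlphaBar (AlgebraicClosure ℚ) N ℓ x)
    (x : laurentBaseChange K (modularFunctionFieldFull (N * ℓ))) :
    s18_baseIncl K (N * ℓ) (W x) = Wbar (s18_baseIncl K (N * ℓ) x) := by
  have key : (s18_baseIncl K (N * ℓ)).comp
      (W : laurentBaseChange K (modularFunctionFieldFull (N * ℓ)) →+*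
        laurentBaseChange K (modularFunctionFieldFull (N * ℓ))) =
      (Wbar : modularFunctionFieldBar (N * ℓ) →+* modularFunctionFieldBar (N * ℓ)).comp
        (s18_baseIncl K (N * ℓ)) := by
    apply s34_sw_ringHom_ext_prime N ℓ hℓ
    · intro c
      show s18_baseIncl K (N * ℓ) (W (algebraMap K _ c)) =
        Wbar (s18_baseIncl K (N * ℓ) (algebraMap K _ c))
      rw [AlgEquiv.commutes, s18_baseIncl_algebraMap, AlgEquiv.commutes]
    · intro y
      show s18_baseIncl K (N * ℓ) (W (heckeAlphaBar K N ℓ y)) =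
        Wbar (s18_baseIncl K (N * ℓ) (heckeAlphaBar K N ℓ y))
      rw [hWα, s34_sw_baseIncl_beta, s34_sw_baseIncl_alpha, hα]
    · intro y
      show s18_baseIncl K (N * ℓ) (W (heckeBetaBar K N ℓ y)) =
        Wbar (s18_baseIncl K (N * ℓ) (heckeBetaBar K N ℓ y))
      rw [hWβ, s34_sw_baseIncl_beta, s34_sw_baseIncl_alpha, hβ]
  exact DFunLike.congr_fun key x

end

end Fermat.Agent.S34
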