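import Mathlib
import Fermat.Agent.S37.EsChartStable

/-!
# S34, leaf (WST), core: `t(q^ℓ)` is integral over `ℤ_(ℓ)[t(q)]` and conversely

For the Hauptmodul `t = t_M` (`M ∈ {2, 3}`, `M ∣ N`, `ℓ ≠ M`, `ℓ ∤ N`) or its inverse, inside the
RATIONAL function field `F(N ℓ)`:  `t(q) ∈ chartAlg (N ℓ) ℓ {t(q^ℓ)}` and
`t(q^ℓ) ∈ chartAlg (N ℓ) ℓ {t(q)}`, i.e. each is integral over `ℤ_(ℓ)[the other]`.

Route: the coefficients of the characteristic polynomial `χ` of `t(q)` over the field of the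
`f(q^ℓ)` (S37) lie in the chart over every valuation ring `A` of `Q̄` above `ℓ`, and have rational
`q`-expansions (explicit factorisation of `χ`, Galois invariance); a rational element of the
`A`-span of the `ℤ_(ℓ)`-chart lies in the `ℤ_(ℓ)`-chart (linear projection + saturation).
-/

set_option autoImplicit false
set_option synthInstance.maxHeartbeats 400000
set_option linter.style.haveILetI false

open AlgebraicCurve ModularCurve ModularCurve.IgusaScheme Polynomial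
open Fermat.Agent.S18 Fermat.Agent.S24 Fermat.Agent.S28 Fermat.Agent.S37

noncomputable section

namespace Fermat.Agent.S34

local notation "Qb" => AlgebraicClosure ℚ

/-- (Y1) The coefficients of the characteristic polynomial of `t'(q)` along `β` are chart
functions with `A`-integral `q`-expansions. -/
theorem s34_wi_chi_chartFn (N ℓ M : ℕ) [NeZero N] [NeZero ℓ] (hℓ : ℓ.Prime) (hℓN : ¬ ℓ ∣ N)
    (hℓM : ℓ ≠ M) (hMN : M ∣ N) (A : ValuationSubring Qb) (hA : A.LiesOverPrime ℓ)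
    (t : modularFunctionFieldBar N) (ht : s37_IsHaupt M t)
    (t' : modularFunctionFieldBar N) (ht' : t' = t ∨ t' = t⁻¹)
    (hfin : FiniteAlong Qb (heckeBetaBar Qb N ℓ)) (i : ℕ) :
    s37_IsChartFn A t' ((s37_chi (heckeBetaBar Qb N ℓ) hfin (heckeAlphaBar Qb N ℓ t')).coeff i) ∧
    ∀ n, (((s37_chi (heckeBetaBar Qb N ℓ) hfin (heckeAlphaBar Qb N ℓ t')).coeff i :
      modularFunctionFieldBar N) : LaurentSeries Qb).coeff n ∈ A := by
  haveI : NeZero (N * ℓ) := ⟨Nat.mul_ne_zero (NeZero.ne N) (NeZero.ne ℓ)⟩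
  have htr : Transcendental Qb t' := s37_et_haupt_transcendental N M t ht t' ht'
  have hswap : ∀ (N₀ : ℕ) [NeZero N₀], Nat.Coprime ℓ N₀ →
      ∃ W : modularFunctionFieldBar (N₀ * ℓ) ≃ₐ[Qb] modularFunctionFieldBar (N₀ * ℓ),
        (∀ x, W (heckeAlphaBar Qb N₀ ℓ x) = heckeBetaBar Qb N₀ ℓ x) ∧
        (∀ x, W (heckeBetaBar Qb N₀ ℓ x) = heckeAlphaBar Qb N₀ ℓ x) :=
    fun N₀ _ h => s37_es_swap N₀ ℓ h
  have hint := s37_et_chi_integral N ℓ hℓ hℓN A hfin t'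
    (s37_et_haupt_integral N M A t ht t' ht') i
  refine ⟨?_, hint⟩
  obtain ⟨c, hc⟩ := s37_et_exists_coeffMap A _ hint
  have hmem : coeffMap A.subtype c ∈ modularFunctionFieldBar N := by
    rw [hc]
    exact SetLike.coe_mem _
  have heq : (⟨_, hmem⟩ : modularFunctionFieldBar N) =
      (s37_chi (heckeBetaBar Qb N ℓ) hfin (heckeAlphaBar Qb N ℓ t')).coeff i :=
    Subtype.ext hc
  rw [← heq]
  apply s37_rc_qep N ℓ M hℓ hℓN hℓM hMN A hA t ht t' ht' c hmem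
  rw [heq]
  apply s37_hol_bar N t' htr
  intro P hP
  apply s37_et_chi_coeff_mem (s37_h_isFF_bar N) (s37_h_isFF_bar (N * ℓ))
    (heckeBetaBar Qb N ℓ) hfin P (heckeAlphaBar Qb N ℓ t')
  intro W hW
  exact s37_et_chart_regular N ℓ M hℓ hℓM hMN hswap t ht t' ht' W (hW t' hP)

/-- The fixed field of the absolute Galois group of `ℚ` is `ℚ`. -/
theorem s34_wi_rat_of_fixed (x : Qb) (h : ∀ σ : Qb ≃ₐ[ℚ] Qb, σ x = x) :
    x ∈ Set.range (algebraMap ℚ Qb) := by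
  haveI : Algebra.IsAlgebraic ℚ Qb := AlgebraicClosure.isAlgebraic ℚ
  haveI : IsAlgClosure ℚ Qb := ⟨inferInstance, inferInstance⟩
  haveI : IsGalois ℚ Qb := inferInstance
  have hmem : x ∈ IntermediateField.fixedField ((⊥ : IntermediateField ℚ Qb).fixingSubgroup) := by
    rw [IntermediateField.mem_fixedField_iff]
    intro σ _
    exact h σ
  rw [InfiniteGalois.fixedField_fixingSubgroup] at hmem
  exact IntermediateField.mem_bot.mp hmem

theorem s34_wi_mod_inv {a a' ℓ : ℕ} (h : (a * a') % ℓ = 1) {i : ℕ} (hi : i < ℓ) :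
    (a' * ((a * i) % ℓ)) % ℓ = i := by
  rw [Nat.mul_mod, Nat.mod_mod, ← Nat.mul_mod, ← mul_assoc, mul_comm a' a, Nat.mul_mod, h,
    one_mul, Nat.mod_mod, Nat.mod_eq_of_lt hi]

/-- (Y2) The coefficients of the characteristic polynomial of `G(q)` along `β` have rational
`q`-expansions if `G` has. -/
theorem s34_wi_chi_rat (N ℓ : ℕ) [NeZero N] [NeZero ℓ] (hℓ : ℓ.Prime) (hℓN : ¬ ℓ ∣ N)
    (hfin : FiniteAlong Qb (heckeBetaBar Qb N ℓ)) (G : modularFunctionFieldBar N)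
    (hG : ∀ (σ : Qb ≃ₐ[ℚ] Qb) (n : ℤ), σ ((G : LaurentSeries Qb).coeff n) =
      (G : LaurentSeries Qb).coeff n) (i : ℕ) (n : ℤ) :
    (((s37_chi (heckeBetaBar Qb N ℓ) hfin (heckeAlphaBar Qb N ℓ G)).coeff i :
      modularFunctionFieldBar N) : LaurentSeries Qb).coeff n ∈ Set.range (algebraMap ℚ Qb) := by
  classical
  haveI : NeZero (ℓ : Qb) := ⟨by exact_mod_cast NeZero.ne ℓ⟩
  obtain ⟨ζ, hζ⟩ := HasEnoughRootsOfUnity.exists_primitiveRoot Qb ℓ
  have hζ0 : ζ ≠ 0 := hζ.ne_zero (NeZero.ne ℓ)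
  obtain ⟨s, hs, hchi⟩ := s37_es_chi N ℓ hℓ hℓN ζ hζ hfin G
  haveI : NeZero (ℓ ^ 2) := ⟨pow_ne_zero 2 (NeZero.ne ℓ)⟩
  apply s34_wi_rat_of_fixed
  intro σ
  -- `σ ζ = ζ ^ a`
  have hσζ : IsPrimitiveRoot (σ ζ) ℓ := hζ.map_of_injective σ.injective
  obtain ⟨a, -, ha⟩ := hζ.eq_pow_of_pow_eq_one hσζ.pow_eq_one
  have hacop : a.Coprime ℓ := by
    rw [← ha] at hσζ
    exact (hζ.pow_iff_coprime hℓ.pos a).mp hσζ
  obtain ⟨a', -, haa'⟩ := Nat.exists_mul_mod_eq_one_of_coprime hacop hℓ.one_lt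
  have ha'a : (a' * a) % ℓ = 1 := by rw [mul_comm]; exact haa'
  -- reduction of exponents modulo `ℓ`
  have key : ∀ (m : ℕ) (k : ℤ), ζ ^ ((m : ℤ) * k) = ζ ^ (((m % ℓ : ℕ) : ℤ) * k) := by
    intro m k
    conv_lhs => rw [← Nat.div_add_mod m ℓ]
    push_cast
    rw [add_mul, zpow_add₀ hζ0, mul_assoc, zpow_mul, zpow_natCast, hζ.pow_eq_one, one_zpow,
      one_mul]
  -- the twists are permuted
  have htw : ∀ j : ℕ, coeffMap (σ : Qb →+* Qb) (s j) = s ((a * j) % ℓ) := by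
    intro j
    ext k
    rw [coeffMap_coeff, hs, hs, map_mul]
    have h1 : (σ : Qb →+* Qb) (ζ ^ ((j : ℤ) * k)) = ζ ^ (((a * j : ℕ) : ℤ) * k) := by
      show σ (ζ ^ ((j : ℤ) * k)) = _
      rw [map_zpow₀, ← ha, ← zpow_natCast, ← zpow_mul]
      congr 1
      push_cast
      ring
    rw [h1, key (a * j) k]
    congr 1
    exact hG σ k
  -- the big term is fixed
  have hbig : coeffMap (σ : Qb →+* Qb) (qExpand Qb (ℓ ^ 2) (G : LaurentSeries Qb)) =
      qExpand Qb (ℓ ^ 2) (G : LaurentSeries Qb) := by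
    rw [coeffMap_qExpand]
    congr 1
    ext k
    rw [coeffMap_coeff]
    exact hG σ k
  -- the right-hand side is invariant
  have hinv : ((X - C (qExpand Qb (ℓ ^ 2) (G : LaurentSeries Qb))) *
      ∏ j ∈ Finset.range ℓ, (X - C (s j))).map (coeffMap (σ : Qb →+* Qb)) =
      (X - C (qExpand Qb (ℓ ^ 2) (G : LaurentSeries Qb))) *
      ∏ j ∈ Finset.range ℓ, (X - C (s j)) := by
    rw [Polynomial.map_mul, Polynomial.map_sub, Polynomial.map_X, Polynomial.map_C, hbig,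
      Polynomial.map_prod]
    congr 1
    refine Finset.prod_nbij' (fun j => (a * j) % ℓ) (fun j => (a' * j) % ℓ) ?_ ?_ ?_ ?_ ?_
    · intro j _
      exact Finset.mem_range.mpr (Nat.mod_lt _ hℓ.pos)
    · intro j _
      exact Finset.mem_range.mpr (Nat.mod_lt _ hℓ.pos)
    · intro j hj
      exact s34_wi_mod_inv haa' (Finset.mem_range.mp hj)
    · intro j hj
      exact s34_wi_mod_inv ha'a (Finset.mem_range.mp hj)
    · intro j _
      rw [Polynomial.map_sub, Polynomial.map_X, Polynomial.map_C, htw]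
  rw [← hchi] at hinv
  have h1 := congrArg (fun p : Polynomial (LaurentSeries Qb) => p.coeff i) hinv
  simp only [Polynomial.coeff_map] at h1
  have h2 : ((algebraMap (modularFunctionFieldBar (N * ℓ)) (LaurentSeries Qb)).comp
      (heckeBetaBar Qb N ℓ).toRingHom)
        ((s37_chi (heckeBetaBar Qb N ℓ) hfin (heckeAlphaBar Qb N ℓ G)).coeff i) =
      qExpand Qb ℓ (((s37_chi (heckeBetaBar Qb N ℓ) hfin (heckeAlphaBar Qb N ℓ G)).coeff i :
        modularFunctionFieldBar N) : LaurentSeries Qb) := rfl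
  rw [h2] at h1
  have h3 := congrArg (fun x : LaurentSeries Qb => x.coeff ((ℓ : ℤ) * n)) h1
  simp only [coeffMap_coeff] at h3
  rw [qExpand_coeff_mul] at h3
  exact h3

theorem s34_wi_coeff_C_mul {R : Type*} [CommRing R] (c : R) (w : LaurentSeries R) (n : ℤ) :
    (HahnSeries.C c * w).coeff n = c * w.coeff n := by
  rw [HahnSeries.C_mul_eq_smul, HahnSeries.coeff_smul, smul_eq_mul]

/-- (Y3b) Coefficientwise `ℚ`-linear projection of the `A`-span of a `ℤ_(ℓ)`-stable ring `C` of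
rational series lands in `C[1/ℓ]`. -/
theorem s34_wi_proj (ℓ : ℕ) [Fact ℓ.Prime] (A : ValuationSubring Qb)
    (C : Subring (LaurentSeries ℚ))
    (hC : ∀ r : GaloisRep.ratLocalizedAt ℓ, HahnSeries.C (r : ℚ) ∈ C)
    (lam : Qb →ₗ[ℚ] ℚ) (z : LaurentSeries Qb)
    (hz : z ∈ s18_chSpan A.subtype (algebraMap ℚ Qb) C) :
    ∃ (y : LaurentSeries ℚ) (k : ℕ), HahnSeries.C ((ℓ : ℚ) ^ k) * y ∈ C ∧
      ∀ n, y.coeff n = lam (z.coeff n) := by
  have hpow : ∀ j : ℕ, HahnSeries.C ((ℓ : ℚ) ^ j) ∈ C := by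
    intro j
    have := hC ((ℓ : GaloisRep.ratLocalizedAt ℓ) ^ j)
    simpa using this
  refine s18_chSpan_induction (P := fun z => ∃ (y : LaurentSeries ℚ) (k : ℕ),
    HahnSeries.C ((ℓ : ℚ) ^ k) * y ∈ C ∧ ∀ n, y.coeff n = lam (z.coeff n)) ?_ ?_ ?_ ?_ hz
  · intro r x hx
    obtain ⟨k, a, hka⟩ := s18_cz_exists_pow_mul_mem_ratLocalizedAt ℓ (lam (r : Qb))
    refine ⟨HahnSeries.C (lam (r : Qb)) * x, k, ?_, ?_⟩
    · rw [← mul_assoc, ← map_mul, hka]
      exact C.mul_mem (hC a) hx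
    · intro n
      rw [s34_wi_coeff_C_mul, s34_wi_coeff_C_mul, coeffMap_coeff]
      have h1 : A.subtype r * algebraMap ℚ Qb (x.coeff n) = x.coeff n • (r : Qb) := by
        rw [Algebra.smul_def, mul_comm]
        rfl
      rw [h1, map_smul, smul_eq_mul, mul_comm]
  · exact ⟨0, 0, by rw [mul_zero]; exact C.zero_mem, fun n => by simp⟩
  · rintro z z' ⟨y, k, hy, hyc⟩ ⟨y', k', hy', hyc'⟩
    refine ⟨y + y', k + k', ?_, ?_⟩
    · have e : HahnSeries.C ((ℓ : ℚ) ^ (k + k')) * (y + y') =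
          HahnSeries.C ((ℓ : ℚ) ^ k') * (HahnSeries.C ((ℓ : ℚ) ^ k) * y) +
          HahnSeries.C ((ℓ : ℚ) ^ k) * (HahnSeries.C ((ℓ : ℚ) ^ k') * y') := by
        rw [pow_add, map_mul]
        ring
      rw [e]
      exact C.add_mem (C.mul_mem (hpow k') hy) (C.mul_mem (hpow k) hy')
    · intro n
      rw [HahnSeries.coeff_add, HahnSeries.coeff_add, map_add, hyc, hyc']
  · rintro z ⟨y, k, hy, hyc⟩
    refine ⟨-y, k, ?_, ?_⟩
    · rw [mul_neg]
      exact C.neg_mem hy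
    · intro n
      rw [HahnSeries.coeff_neg, HahnSeries.coeff_neg, map_neg, hyc]

/-- (Y3c) Saturation of the `ℤ_(ℓ)`-chart: an `ℓ`-integral series `y` with `ℓ^k y` in the chart
lies in the chart. -/
theorem s34_wi_sat (N ℓ : ℕ) [NeZero N] [Fact ℓ.Prime] {t : modularFunctionFieldFull N}
    (h : s18_cz_Coord N ℓ t) {B : Subring (LaurentSeries ℚ)} (hB : CoreData N ℓ B)
    (y₀ : LaurentSeries (GaloisRep.ratLocalizedAt ℓ)) (k : ℕ)
    (hy : HahnSeries.C ((ℓ : ℚ) ^ k) * incL ℓ y₀ ∈ s18_czRing N ℓ t) :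
    incL ℓ y₀ ∈ s18_czRing N ℓ t := by
  have hℓ : ℓ.Prime := Fact.out
  induction k with
  | zero =>
    rwa [pow_zero, map_one, one_mul] at hy
  | succ k ih =>
    apply ih
    have hred : ∀ (x : LaurentSeries ℚ) (hx : x ∈ s18_czRing N ℓ t)
        (y' : LaurentSeries (GaloisRep.ratLocalizedAt ℓ)),
        x = coeffMap (GaloisRep.ratLocalizedAt ℓ).subtype y' → coeffMap (redR ℓ) y' = 0 →
        s18_red (s18_subtype_injective (ℓ := ℓ)) ⟨x, s18_czRing_le_W h hB x hx⟩ = 0 := by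
      intro x hx y' hxy h0
      subst hxy
      rw [s18_red_coeffMap]
      exact h0
    have hx : HahnSeries.C ((ℓ : ℚ) ^ (k + 1)) * incL ℓ y₀ =
        coeffMap (GaloisRep.ratLocalizedAt ℓ).subtype
          (HahnSeries.C ((ℓ : GaloisRep.ratLocalizedAt ℓ) ^ (k + 1)) * y₀) := by
      rw [map_mul, ← s18_C_eq_coeffMap]
      congr 2
    have h0 : coeffMap (redR ℓ) (HahnSeries.C ((ℓ : GaloisRep.ratLocalizedAt ℓ) ^ (k + 1)) * y₀)
        = 0 := by
      rw [map_mul, ← s18_C_eq_coeffMap, map_pow, map_natCast, ZMod.natCast_self,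
        zero_pow (Nat.succ_ne_zero k), map_zero, zero_mul]
    obtain ⟨x', hx', e⟩ := s18_czRing_kernel h hB _ hy (hred _ hy _ hx h0)
    have hℓ0 : (HahnSeries.C ((ℓ : ℚ)) : LaurentSeries ℚ) ≠ 0 := by
      rw [Ne, map_eq_zero]
      exact_mod_cast hℓ.ne_zero
    have e2 : HahnSeries.C ((ℓ : ℚ) ^ k) * incL ℓ y₀ = x' := by
      apply mul_left_cancel₀ hℓ0
      have h1 : ((GaloisRep.ratLocalizedAt ℓ).subtype (ℓ : GaloisRep.ratLocalizedAt ℓ) : ℚ)
          = (ℓ : ℚ) := by simp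
      rw [h1] at e
      rw [← e, pow_succ, map_mul]
      ring
    rw [e2]
    exact hx'

/-- (Y3d) A rational number lying in `A` (above `ℓ`) is `ℓ`-integral. -/
theorem s34_wi_rat_mem (ℓ : ℕ) [Fact ℓ.Prime] (A : ValuationSubring Qb)
    (hℓ : ((ℓ : Qb))⁻¹ ∉ A) (r : ℚ) (hr : algebraMap ℚ Qb r ∈ A) :
    r ∈ GaloisRep.ratLocalizedAt ℓ := by
  have hℓp : ℓ.Prime := Fact.out
  show r.den.Coprime ℓ
  by_contra hcop
  have hdvd : ℓ ∣ r.den := by
    by_contra hnd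
    exact hcop ((Nat.Prime.coprime_iff_not_dvd hℓp).mpr hnd).symm
  obtain ⟨d, hd⟩ := hdvd
  have hnum : ¬ (ℓ : ℤ) ∣ r.num := by
    intro hdiv
    have h1 : ℓ ∣ r.num.natAbs := Int.natCast_dvd.mp hdiv
    have h3 : ℓ ∣ Nat.gcd r.num.natAbs r.den := Nat.dvd_gcd h1 ⟨d, hd⟩
    rw [Nat.Coprime.gcd_eq_one r.reduced] at h3
    exact hℓp.one_lt.ne' (Nat.dvd_one.mp h3)
  have hinv := s18_int_inv_mem ℓ A hℓ r.num hnum
  have hd0 : d ≠ 0 := by
    rintro rfl
    rw [mul_zero] at hd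
    exact r.den_ne_zero hd
  have hr' : algebraMap ℚ Qb r = (r.num : Qb) / ((ℓ : Qb) * (d : Qb)) := by
    conv_lhs => rw [← Rat.num_div_den r]
    rw [map_div₀, map_intCast, map_natCast, hd]
    push_cast
    rfl
  have hnum0 : (r.num : Qb) ≠ 0 := by
    intro h0
    have h1 : r.num = 0 := by exact_mod_cast h0
    exact hnum (h1 ▸ dvd_zero _)
  have hd0' : (d : Qb) ≠ 0 := by exact_mod_cast hd0
  have hℓ0 : (ℓ : Qb) ≠ 0 := by exact_mod_cast hℓp.ne_zero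
  have e : ((ℓ : Qb))⁻¹ = algebraMap ℚ Qb r * (d : Qb) * ((r.num : Qb))⁻¹ := by
    rw [hr']
    field_simp
  exact hℓ (e ▸ A.mul_mem _ _ (A.mul_mem _ _ hr (natCast_mem A d)) hinv)

/-- (Y3) A series with rational, `A`-integral coefficients in the `A`-span of the
`ℤ_(ℓ)`-chart of `t` comes from the `ℤ_(ℓ)`-chart. -/
theorem s34_wi_descend (N ℓ : ℕ) [NeZero N] [Fact ℓ.Prime] (hℓN : ¬ ℓ ∣ N)
    (A : ValuationSubring Qb) (hA : A.LiesOverPrime ℓ) {t : modularFunctionFieldFull N}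
    (h : s18_cz_Coord N ℓ t) (z : LaurentSeries Qb) (hz : z ∈ s18_chRing N ℓ A t)
    (hzA : ∀ n, z.coeff n ∈ A) (hzQ : ∀ n, z.coeff n ∈ Set.range (algebraMap ℚ Qb)) :
    ∃ y ∈ chartAlg N ℓ {t}, coeffEmb Qb (y : LaurentSeries ℚ) = z := by
  obtain ⟨B, hB⟩ := core N ℓ hℓN
  have hℓ : ((ℓ : Qb))⁻¹ ∉ A := s18_res_inv_notMem_bar A ℓ hA
  obtain ⟨lam, hlam⟩ := LinearMap.exists_leftInverse_of_injective (Algebra.linearMap ℚ Qb)
    (LinearMap.ker_eq_bot.mpr (algebraMap ℚ Qb).injective)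
  have hlam' : ∀ r : ℚ, lam (algebraMap ℚ Qb r) = r := fun r => by
    have := congrArg (fun f : ℚ →ₗ[ℚ] ℚ => f r) hlam
    simpa using this
  have hC : ∀ r : GaloisRep.ratLocalizedAt ℓ, HahnSeries.C (r : ℚ) ∈ s18_czRing N ℓ t := by
    intro r
    have h1 : algebraMap (GaloisRep.ratLocalizedAt ℓ) (modularFunctionFieldFull N) r ∈
        chartAlg N ℓ {t} := Subalgebra.algebraMap_mem _ r
    have h2 := s18_coe_mem_czRing h1
    have h3 := kerVal_algebraMap (N := N) (ℓ := ℓ) r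
    have h4 : kerVal N (algebraMap (GaloisRep.ratLocalizedAt ℓ) (modularFunctionFieldFull N) r)
        = HahnSeries.C (r : ℚ) := h3
    rw [← h4]
    exact h2
  obtain ⟨y, k, hyk, hyc⟩ := s34_wi_proj ℓ A (s18_czRing N ℓ t) hC lam z hz
  have hyz : ∀ n, algebraMap ℚ Qb (y.coeff n) = z.coeff n := by
    intro n
    obtain ⟨r, hr⟩ := hzQ n
    rw [hyc, ← hr, hlam']
  have hyint : ∀ n, y.coeff n ∈ GaloisRep.ratLocalizedAt ℓ := by
    intro n
    apply s34_wi_rat_mem ℓ A hℓ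
    rw [hyz]
    exact hzA n
  obtain ⟨y₀, hy₀⟩ : ∃ y₀ : LaurentSeries (GaloisRep.ratLocalizedAt ℓ), incL ℓ y₀ = y := by
    refine ⟨HahnSeries.mk (fun n => ⟨y.coeff n, hyint n⟩) (y.isPWO_support.mono ?_), ?_⟩
    · intro n hn
      rw [Function.mem_support] at hn
      rw [HahnSeries.mem_support]
      intro h0
      exact hn (Subtype.ext h0)
    · ext n
      rfl
  rw [← hy₀] at hyk
  have hmem := s34_wi_sat N ℓ h hB y₀ k hyk
  rw [hy₀] at hmem
  obtain ⟨y', hy', e⟩ := s18_mem_czRing.mp hmem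
  refine ⟨y', hy', ?_⟩
  rw [e]
  ext n
  rw [coeffEmb_coeff, hyz]

/-- **(WI), series form.**  For a coordinate `t₀` (the Hauptmodul `t_M` or its inverse) there
are `y_0, …, y_d = 1` in the `ℤ_(ℓ)`-chart of `t₀` at level `N` with
`∑ y_i(q^ℓ) t₀(q)^i = 0` and `∑ y_i(q) t₀(q^ℓ)^i = 0` (identities of rational `q`-series). -/
theorem s34_wi_poly (N ℓ M : ℕ) [NeZero N] [NeZero ℓ] [Fact ℓ.Prime] (hℓN : ¬ ℓ ∣ N)
    (hℓM : ℓ ≠ M) (hMN : M ∣ N) (A : ValuationSubring Qb) (hA : A.LiesOverPrime ℓ)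
    (t : modularFunctionFieldBar N) (ht : s37_IsHaupt M t)
    (t₀ : modularFunctionFieldFull N) (h : s18_cz_Coord N ℓ t₀)
    (ht₀ : s18_coord Qb t₀ = t ∨ s18_coord Qb t₀ = t⁻¹) :
    ∃ (d : ℕ) (y : ℕ → modularFunctionFieldFull N), (∀ i, y i ∈ chartAlg N ℓ {t₀}) ∧ y d = 1 ∧
      ∑ i ∈ Finset.range (d + 1),
        qExpand ℚ ℓ (y i : LaurentSeries ℚ) * (t₀ : LaurentSeries ℚ) ^ i = 0 ∧
      ∑ i ∈ Finset.range (d + 1),
        (y i : LaurentSeries ℚ) * (qExpand ℚ ℓ (t₀ : LaurentSeries ℚ)) ^ i = 0 := by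
  have hℓ : ℓ.Prime := Fact.out
  haveI : NeZero (N * ℓ) := ⟨Nat.mul_ne_zero (NeZero.ne N) (NeZero.ne ℓ)⟩
  obtain ⟨hfin, -⟩ := s37_es_finrank_beta N ℓ hℓ hℓN
  obtain ⟨B, hB⟩ := core N ℓ hℓN
  have hcop : Nat.Coprime ℓ N := (Nat.Prime.coprime_iff_not_dvd hℓ).mpr hℓN
  obtain ⟨W, hWα, hWβ⟩ := s37_es_swap N ℓ hcop
  set t' : modularFunctionFieldBar N := s18_coord Qb t₀ with ht'def
  set χ := s37_chi (heckeBetaBar Qb N ℓ) hfin (heckeAlphaBar Qb N ℓ t') with hχ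
  obtain ⟨hmonic, hroot⟩ := s37_et_chi_root (heckeBetaBar Qb N ℓ) hfin (heckeAlphaBar Qb N ℓ t')
  have hχmonic : χ.Monic :=
    Polynomial.monic_of_injective (heckeBetaBar Qb N ℓ).toRingHom.injective hmonic
  have hinj : Function.Injective (coeffEmb Qb) :=
    s18_coeffMap_injective (algebraMap ℚ Qb) (algebraMap ℚ Qb).injective
  -- the coefficients come from the rational chart
  have hco : ∀ i, ∃ y ∈ chartAlg N ℓ {t₀}, coeffEmb Qb (y : LaurentSeries ℚ) =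
      ((χ.coeff i : modularFunctionFieldBar N) : LaurentSeries Qb) := by
    intro i
    obtain ⟨hcf, hcA⟩ := s34_wi_chi_chartFn N ℓ M hℓ hℓN hℓM hMN A hA t ht t' ht₀ hfin i
    obtain ⟨c, hc⟩ := s37_et_exists_coeffMap A _ hcA
    have hmem : χ.coeff i ∈ s18_chAlg N ℓ A t₀ := s37_rc_mem_chart A hA h hB _ hcf c hc
    refine s34_wi_descend N ℓ hℓN A hA h _ hmem hcA ?_
    intro n
    refine s34_wi_chi_rat N ℓ hℓ hℓN hfin t' (fun σ k => ?_) i n
    show σ (algebraMap ℚ Qb ((t₀ : LaurentSeries ℚ).coeff k)) = _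
    exact σ.commutes _
  choose y hy hyc using hco
  -- the root identity
  have hsum : ∑ i ∈ Finset.range (χ.natDegree + 1),
      heckeBetaBar Qb N ℓ (χ.coeff i) * heckeAlphaBar Qb N ℓ t' ^ i = 0 := by
    rw [Polynomial.eval_map, Polynomial.eval₂_eq_sum_range] at hroot
    exact hroot
  have hsum2 : ∑ i ∈ Finset.range (χ.natDegree + 1),
      heckeAlphaBar Qb N ℓ (χ.coeff i) * heckeBetaBar Qb N ℓ t' ^ i = 0 := by
    have h1 := congrArg W hsum
    rw [map_zero, map_sum] at h1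
    rw [← h1]
    refine Finset.sum_congr rfl fun i _ => ?_
    rw [map_mul, map_pow, hWβ, hWα]
  have ht'coe : ((t' : modularFunctionFieldBar N) : LaurentSeries Qb) =
      coeffEmb Qb (t₀ : LaurentSeries ℚ) := rfl
  refine ⟨χ.natDegree, y, hy, ?_, ?_, ?_⟩
  · apply Subtype.ext
    apply hinj
    rw [hyc, hχmonic.coeff_natDegree]
    show (1 : LaurentSeries Qb) = coeffEmb Qb 1
    rw [map_one]
  · apply hinj
    rw [map_zero, map_sum]
    have h1 : (modularFunctionFieldBar (N * ℓ)).val (∑ i ∈ Finset.range (χ.natDegree + 1),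
        heckeBetaBar Qb N ℓ (χ.coeff i) * heckeAlphaBar Qb N ℓ t' ^ i) = 0 := by
      rw [hsum, map_zero]
    rw [map_sum] at h1
    rw [← h1]
    refine Finset.sum_congr rfl fun i _ => ?_
    rw [map_mul, map_pow, map_mul, map_pow]
    show coeffEmb Qb (qExpand ℚ ℓ (y i : LaurentSeries ℚ)) * coeffEmb Qb (t₀ : LaurentSeries ℚ) ^ i
      = qExpand Qb ℓ ((χ.coeff i : modularFunctionFieldBar N) : LaurentSeries Qb) *
        ((t' : modularFunctionFieldBar N) : LaurentSeries Qb) ^ i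
    rw [← hyc, ht'coe]
    congr 1
    exact coeffMap_qExpand (algebraMap ℚ Qb) ℓ _
  · apply hinj
    rw [map_zero, map_sum]
    have h1 : (modularFunctionFieldBar (N * ℓ)).val (∑ i ∈ Finset.range (χ.natDegree + 1),
        heckeAlphaBar Qb N ℓ (χ.coeff i) * heckeBetaBar Qb N ℓ t' ^ i) = 0 := by
      rw [hsum2, map_zero]
    rw [map_sum] at h1
    rw [← h1]
    refine Finset.sum_congr rfl fun i _ => ?_
    rw [map_mul, map_pow, map_mul, map_pow]
    show coeffEmb Qb (y i : LaurentSeries ℚ) * coeffEmb Qb (qExpand ℚ ℓ (t₀ : LaurentSeries ℚ)) ^ i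
      = ((χ.coeff i : modularFunctionFieldBar N) : LaurentSeries Qb) *
        qExpand Qb ℓ ((t' : modularFunctionFieldBar N) : LaurentSeries Qb) ^ i
    rw [← hyc, ht'coe]
    congr 2
    exact coeffMap_qExpand (algebraMap ℚ Qb) ℓ _

/-- A root of a monic relation with integral coefficients is integral. -/
theorem s34_wi_int_generic {R S : Type*} [CommRing R] [CommRing S] [Algebra R S] (d : ℕ)
    (a : ℕ → S) (ha : ∀ i, IsIntegral R (a i)) (had : a d = 1) (u : S)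
    (hrel : ∑ i ∈ Finset.range (d + 1), a i * u ^ i = 0) : IsIntegral R u := by
  have hu : IsIntegral (integralClosure R S) u := by
    refine ⟨X ^ d + ∑ i ∈ Finset.range d, C ⟨a i, ha i⟩ * X ^ i, ?_, ?_⟩
    · apply Polynomial.monic_X_pow_add
      rw [Polynomial.degree_lt_iff_coeff_zero]
      intro m hm
      rw [Polynomial.finsetSum_coeff]
      apply Finset.sum_eq_zero
      intro i hi
      rw [Polynomial.coeff_C_mul_X_pow, if_neg]
      have := Finset.mem_range.mp hi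
      omega
    · rw [Finset.sum_range_succ, had, one_mul] at hrel
      rw [eval₂_add, eval₂_pow, eval₂_X, eval₂_finsetSum, add_comm]
      refine Eq.trans ?_ hrel
      congr 1
      refine Finset.sum_congr rfl fun i _ => ?_
      rw [eval₂_mul, eval₂_C, eval₂_pow, eval₂_X]
      rfl
  exact isIntegral_trans u hu

section KLevel

variable {K : Type*} [Field K] [Algebra ℚ K]

/-- The coefficient embedding `F(N) → K · F(N)` as a ring homomorphism (`= s18_coord K`). -/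
def s34_wi_emb (K : Type*) [Field K] [Algebra ℚ K] (N : ℕ) [NeZero N] :
    modularFunctionFieldFull N →+* laurentBaseChange K (modularFunctionFieldFull N) where
  toFun x := ⟨coeffEmb K (x : LaurentSeries ℚ), coeffEmb_mem_laurentBaseChange K x.2⟩
  map_one' := Subtype.ext (map_one _)
  map_mul' _ _ := Subtype.ext (map_mul _ _ _)
  map_zero' := Subtype.ext (map_zero _)
  map_add' _ _ := Subtype.ext (map_add _ _ _)

theorem s34_wi_emb_apply (N : ℕ) [NeZero N] (x : modularFunctionFieldFull N) :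
    s34_wi_emb K N x = s18_coord K x := rfl

/-- From a monic relation with coefficients in the image of the `ℤ_(ℓ)`-chart of `t₀` to
integrality over `A₁[ψ t₀]`. -/
theorem s34_wi_int_aux (N ℓ : ℕ) [NeZero N] [NeZero ℓ] [Fact ℓ.Prime]
    (A₁ : ValuationSubring K) (hℓ : ((ℓ : K))⁻¹ ∉ A₁) (t₀ : modularFunctionFieldFull N)
    (ψ : modularFunctionFieldFull N →+* laurentBaseChange K (modularFunctionFieldFull (N * ℓ)))
    (d : ℕ) (y : ℕ → modularFunctionFieldFull N) (hy : ∀ i, y i ∈ chartAlg N ℓ {t₀})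
    (hyd : y d = 1) (u : laurentBaseChange K (modularFunctionFieldFull (N * ℓ)))
    (hrel : ∑ i ∈ Finset.range (d + 1), ψ (y i) * u ^ i = 0) :
    IsIntegral (Algebra.adjoin A₁ {ψ t₀}) u := by
  set R := Algebra.adjoin A₁ {ψ t₀} with hR
  have hconst : ∀ r : GaloisRep.ratLocalizedAt ℓ,
      ψ (algebraMap (GaloisRep.ratLocalizedAt ℓ) (modularFunctionFieldFull N) r) ∈ R := by
    intro r
    have h1 : ψ (algebraMap (GaloisRep.ratLocalizedAt ℓ) (modularFunctionFieldFull N) r) =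
        algebraMap A₁ (laurentBaseChange K (modularFunctionFieldFull (N * ℓ)))
          (s18_zToA ℓ A₁ hℓ r) := by
      have e1 : algebraMap (GaloisRep.ratLocalizedAt ℓ) (modularFunctionFieldFull N) r =
          ((r : ℚ) : modularFunctionFieldFull N) :=
        eq_ratCast (algebraMap ℚ (modularFunctionFieldFull N)) (r : ℚ)
      have e2 : algebraMap A₁ (laurentBaseChange K (modularFunctionFieldFull (N * ℓ)))
          (s18_zToA ℓ A₁ hℓ r) =
          ((r : ℚ) : laurentBaseChange K (modularFunctionFieldFull (N * ℓ))) := by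
        show algebraMap K (laurentBaseChange K (modularFunctionFieldFull (N * ℓ)))
          (algebraMap ℚ K (r : ℚ)) = _
        rw [eq_ratCast, map_ratCast]
      rw [e1, e2, map_ratCast]
    rw [h1]
    exact Subalgebra.algebraMap_mem _ _
  have hmap : ∀ x ∈ Algebra.adjoin (GaloisRep.ratLocalizedAt ℓ)
      ({t₀} : Set (modularFunctionFieldFull N)), ψ x ∈ R := by
    intro x hx
    induction hx using Algebra.adjoin_induction with
    | mem x hx =>
      rw [Set.mem_singleton_iff] at hx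
      rw [hx]
      exact Algebra.subset_adjoin rfl
    | algebraMap r => exact hconst r
    | add x y _ _ hx hy =>
      rw [map_add]
      exact R.add_mem hx hy
    | mul x y _ _ hx hy =>
      rw [map_mul]
      exact R.mul_mem hx hy
  let φ : Algebra.adjoin (GaloisRep.ratLocalizedAt ℓ)
      ({t₀} : Set (modularFunctionFieldFull N)) →+* R :=
    (ψ.comp (Algebra.adjoin (GaloisRep.ratLocalizedAt ℓ)
      ({t₀} : Set (modularFunctionFieldFull N))).val.toRingHom).codRestrict R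
      (fun x => hmap x x.2)
  have hint : ∀ i, IsIntegral R (ψ (y i)) := fun i =>
    IsIntegral.map_of_comp_eq φ ψ (by ext; rfl) ((mem_chartAlg_iff N ℓ).mp (hy i))
  exact s34_wi_int_generic d (fun i => ψ (y i)) hint (by simp only [hyd, map_one]) u hrel

/-- **(WI)** over `(K, A₁)`: for a coordinate `t₀` (the Hauptmodul `t_M` or its inverse),
inside `K · F(N ℓ)`: `t₀(q^ℓ)` is integral over `A₁[t₀(q)]` and `t₀(q)` is integral over
`A₁[t₀(q^ℓ)]`. -/
theorem s34_wi_coord (N ℓ M : ℕ) [NeZero N] [NeZero ℓ] [Fact ℓ.Prime] (hℓN : ¬ ℓ ∣ N)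
    (hℓM : ℓ ≠ M) (hMN : M ∣ N) (A : ValuationSubring Qb) (hA : A.LiesOverPrime ℓ)
    (t : modularFunctionFieldBar N) (ht : s37_IsHaupt M t)
    (t₀ : modularFunctionFieldFull N) (h : s18_cz_Coord N ℓ t₀)
    (ht₀ : s18_coord Qb t₀ = t ∨ s18_coord Qb t₀ = t⁻¹)
    (A₁ : ValuationSubring K) (hℓ : ((ℓ : K))⁻¹ ∉ A₁) :
    IsIntegral (Algebra.adjoin A₁ {heckeAlphaBar K N ℓ (s18_coord K t₀)})
      (heckeBetaBar K N ℓ (s18_coord K t₀)) ∧
    IsIntegral (Algebra.adjoin A₁ {heckeBetaBar K N ℓ (s18_coord K t₀)})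
      (heckeAlphaBar K N ℓ (s18_coord K t₀)) := by
  haveI : NeZero (N * ℓ) := ⟨Nat.mul_ne_zero (NeZero.ne N) (NeZero.ne ℓ)⟩
  obtain ⟨d, y, hy, hyd, h1, h2⟩ := s34_wi_poly N ℓ M hℓN hℓM hMN A hA t ht t₀ h ht₀
  constructor
  · refine s34_wi_int_aux N ℓ A₁ hℓ t₀
      ((heckeAlphaBar K N ℓ).toRingHom.comp (s34_wi_emb K N)) d y hy hyd _ ?_
    apply Subtype.ext
    have e : (laurentBaseChange K (modularFunctionFieldFull (N * ℓ))).val
        (∑ i ∈ Finset.range (d + 1),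
          ((heckeAlphaBar K N ℓ).toRingHom.comp (s34_wi_emb K N)) (y i) *
            heckeBetaBar K N ℓ (s18_coord K t₀) ^ i) = coeffEmb K
        (∑ i ∈ Finset.range (d + 1),
          (y i : LaurentSeries ℚ) * (qExpand ℚ ℓ (t₀ : LaurentSeries ℚ)) ^ i) := by
      rw [map_sum, map_sum]
      refine Finset.sum_congr rfl fun i _ => ?_
      rw [map_mul, map_pow, map_mul, map_pow]
      show coeffEmb K (y i : LaurentSeries ℚ) *
        qExpand K ℓ (coeffEmb K (t₀ : LaurentSeries ℚ)) ^ i = _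
      congr 2
      exact (coeffMap_qExpand (algebraMap ℚ K) ℓ _).symm
    rw [h2, map_zero] at e
    exact e
  · refine s34_wi_int_aux N ℓ A₁ hℓ t₀
      ((heckeBetaBar K N ℓ).toRingHom.comp (s34_wi_emb K N)) d y hy hyd _ ?_
    apply Subtype.ext
    have e : (laurentBaseChange K (modularFunctionFieldFull (N * ℓ))).val
        (∑ i ∈ Finset.range (d + 1),
          ((heckeBetaBar K N ℓ).toRingHom.comp (s34_wi_emb K N)) (y i) *
            heckeAlphaBar K N ℓ (s18_coord K t₀) ^ i) = coeffEmb K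
        (∑ i ∈ Finset.range (d + 1),
          qExpand ℚ ℓ (y i : LaurentSeries ℚ) * (t₀ : LaurentSeries ℚ) ^ i) := by
      rw [map_sum, map_sum]
      refine Finset.sum_congr rfl fun i _ => ?_
      rw [map_mul, map_pow, map_mul, map_pow]
      show qExpand K ℓ (coeffEmb K (y i : LaurentSeries ℚ)) *
        coeffEmb K (t₀ : LaurentSeries ℚ) ^ i = _
      congr 1
      exact (coeffMap_qExpand (algebraMap ℚ K) ℓ _).symm
    rw [h1, map_zero] at e
    exact e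

/-- **(WI)**, coordinate-free form: `T = t₀(q)` and `U = t₀(q^ℓ)` given by their
`q`-expansions. -/
theorem s34_wi_coord' (N ℓ M : ℕ) [NeZero N] [NeZero ℓ] [Fact ℓ.Prime] (hℓN : ¬ ℓ ∣ N)
    (hℓM : ℓ ≠ M) (hMN : M ∣ N) (A : ValuationSubring Qb) (hA : A.LiesOverPrime ℓ)
    (t : modularFunctionFieldBar N) (ht : s37_IsHaupt M t)
    (t₀ : modularFunctionFieldFull N) (h : s18_cz_Coord N ℓ t₀)
    (ht₀ : s18_coord Qb t₀ = t ∨ s18_coord Qb t₀ = t⁻¹)
    (A₁ : ValuationSubring K) (hℓ : ((ℓ : K))⁻¹ ∉ A₁)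
    (T U : laurentBaseChange K (modularFunctionFieldFull (N * ℓ)))
    (hT : (T : LaurentSeries K) = coeffEmb K (t₀ : LaurentSeries ℚ))
    (hU : (U : LaurentSeries K) = qExpand K ℓ (coeffEmb K (t₀ : LaurentSeries ℚ))) :
    IsIntegral (Algebra.adjoin A₁ {T}) U ∧ IsIntegral (Algebra.adjoin A₁ {U}) T := by
  have eT : T = heckeAlphaBar K N ℓ (s18_coord K t₀) := Subtype.ext hT
  have eU : U = heckeBetaBar K N ℓ (s18_coord K t₀) := Subtype.ext hU
  rw [eT, eU]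
  exact s34_wi_coord N ℓ M hℓN hℓM hMN A hA t ht t₀ h ht₀ A₁ hℓ

/-- **(WI) for `t₂`** and its inverse (`2 ∣ N`, `ℓ ≠ 2`, `ℓ ∤ N`). -/
theorem s34_wi_t2 (N ℓ : ℕ) [NeZero N] [NeZero ℓ] [Fact ℓ.Prime] (hℓN : ¬ ℓ ∣ N)
    (hℓ2 : ℓ ≠ 2) (hN : 2 ∣ N) (A : ValuationSubring Qb) (hA : A.LiesOverPrime ℓ)
    (A₁ : ValuationSubring K) (hℓ : ((ℓ : K))⁻¹ ∉ A₁)
    (t₀ : modularFunctionFieldFull N) (ht₀ : t₀ = s18_cz_t2 N hN ∨ t₀ = (s18_cz_t2 N hN)⁻¹) :
    IsIntegral (Algebra.adjoin A₁ {heckeAlphaBar K N ℓ (s18_coord K t₀)})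
      (heckeBetaBar K N ℓ (s18_coord K t₀)) ∧
    IsIntegral (Algebra.adjoin A₁ {heckeBetaBar K N ℓ (s18_coord K t₀)})
      (heckeAlphaBar K N ℓ (s18_coord K t₀)) := by
  have ht : s37_IsHaupt 2 (s18_coord Qb (s18_cz_t2 N hN)) := by
    refine Or.inl ⟨rfl, ?_⟩
    show coeffEmb Qb (s18_t2R ℚ) = s18_t2R Qb
    rw [coeffEmb, s18_coeffMap_t2R]
  have h := s18_cz_coord_t2 N ℓ hN hℓ2
  rcases ht₀ with rfl | rfl
  · exact s34_wi_coord N ℓ 2 hℓN hℓ2 hN A hA _ ht _ h (Or.inl rfl) A₁ hℓ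
  · exact s34_wi_coord N ℓ 2 hℓN hℓ2 hN A hA _ ht _ h.inv (Or.inr (s18_coord_inv _)) A₁ hℓ

/-- **(WI) for `t₃`** and its inverse (`3 ∣ N`, `ℓ ≠ 3`, `ℓ ∤ N`). -/
theorem s34_wi_t3 (N ℓ : ℕ) [NeZero N] [NeZero ℓ] [Fact ℓ.Prime] (hℓN : ¬ ℓ ∣ N)
    (hℓ3 : ℓ ≠ 3) (hN : 3 ∣ N) (A : ValuationSubring Qb) (hA : A.LiesOverPrime ℓ)
    (A₁ : ValuationSubring K) (hℓ : ((ℓ : K))⁻¹ ∉ A₁)
    (t₀ : modularFunctionFieldFull N) (ht₀ : t₀ = s18_cz_t3 N hN ∨ t₀ = (s18_cz_t3 N hN)⁻¹) :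
    IsIntegral (Algebra.adjoin A₁ {heckeAlphaBar K N ℓ (s18_coord K t₀)})
      (heckeBetaBar K N ℓ (s18_coord K t₀)) ∧
    IsIntegral (Algebra.adjoin A₁ {heckeBetaBar K N ℓ (s18_coord K t₀)})
      (heckeAlphaBar K N ℓ (s18_coord K t₀)) := by
  have ht : s37_IsHaupt 3 (s18_coord Qb (s18_cz_t3 N hN)) := by
    refine Or.inr ⟨rfl, ?_⟩
    show coeffEmb Qb (s18_t3R ℚ) = s18_t3R Qb
    rw [coeffEmb, s18_coeffMap_t3R]
  have h := s18_cz_coord_t3 N ℓ hN hℓ3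
  rcases ht₀ with rfl | rfl
  · exact s34_wi_coord N ℓ 3 hℓN hℓ3 hN A hA _ ht _ h (Or.inl rfl) A₁ hℓ
  · exact s34_wi_coord N ℓ 3 hℓN hℓ3 hN A hA _ ht _ h.inv (Or.inr (s18_coord_inv _)) A₁ hℓ

/-- **(WI) at level `N ℓ`**: the coordinate `t = t_M` (or its inverse) of level `N ℓ` and
its Atkin–Lehner transform `V_ℓ t` are integral over each other's polynomial ring, in the form
used for the charts of `K · F(N ℓ)` (`T` the level-`N ℓ` coordinate, `U = t(q^ℓ)`). -/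
theorem s34_wi_level (N ℓ : ℕ) [NeZero N] [NeZero ℓ] [Fact ℓ.Prime] (hℓN : ¬ ℓ ∣ N)
    (A : ValuationSubring Qb) (hA : A.LiesOverPrime ℓ)
    (A₁ : ValuationSubring K) (hℓ : ((ℓ : K))⁻¹ ∉ A₁)
    (T U : laurentBaseChange K (modularFunctionFieldFull (N * ℓ)))
    (hTU : (2 ∣ N ∧ ℓ ≠ 2 ∧ (((T : LaurentSeries K) = s18_t2R K ∧
          (U : LaurentSeries K) = qExpand K ℓ (s18_t2R K)) ∨
        ((T : LaurentSeries K) = (s18_t2R K)⁻¹ ∧
          (U : LaurentSeries K) = qExpand K ℓ (s18_t2R K)⁻¹))) ∨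
      (3 ∣ N ∧ ℓ ≠ 3 ∧ (((T : LaurentSeries K) = s18_t3R K ∧
          (U : LaurentSeries K) = qExpand K ℓ (s18_t3R K)) ∨
        ((T : LaurentSeries K) = (s18_t3R K)⁻¹ ∧
          (U : LaurentSeries K) = qExpand K ℓ (s18_t3R K)⁻¹)))) :
    IsIntegral (Algebra.adjoin A₁ {T}) U ∧ IsIntegral (Algebra.adjoin A₁ {U}) T := by
  have e2 : coeffEmb K (s18_t2R ℚ) = s18_t2R K := by rw [coeffEmb, s18_coeffMap_t2R]
  have e3 : coeffEmb K (s18_t3R ℚ) = s18_t3R K := by rw [coeffEmb, s18_coeffMap_t3R]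
  rcases hTU with ⟨hN, hℓ2, h | h⟩ | ⟨hN, hℓ3, h | h⟩
  · have eT : T = heckeAlphaBar K N ℓ (s18_coord K (s18_cz_t2 N hN)) :=
      Subtype.ext (h.1.trans e2.symm)
    have eU : U = heckeBetaBar K N ℓ (s18_coord K (s18_cz_t2 N hN)) :=
      Subtype.ext (h.2.trans (by rw [← e2]; rfl))
    rw [eT, eU]
    exact s34_wi_t2 N ℓ hℓN hℓ2 hN A hA A₁ hℓ _ (Or.inl rfl)
  · have e : coeffEmb K (((s18_cz_t2 N hN)⁻¹ : modularFunctionFieldFull N) : LaurentSeries ℚ) =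
        (s18_t2R K)⁻¹ := by
      rw [← e2, ← map_inv₀]
      rfl
    have eT : T = heckeAlphaBar K N ℓ (s18_coord K (s18_cz_t2 N hN)⁻¹) :=
      Subtype.ext (h.1.trans e.symm)
    have eU : U = heckeBetaBar K N ℓ (s18_coord K (s18_cz_t2 N hN)⁻¹) :=
      Subtype.ext (h.2.trans (by rw [← e]; rfl))
    rw [eT, eU]
    exact s34_wi_t2 N ℓ hℓN hℓ2 hN A hA A₁ hℓ _ (Or.inr rfl)
  · have eT : T = heckeAlphaBar K N ℓ (s18_coord K (s18_cz_t3 N hN)) :=
      Subtype.ext (h.1.trans e3.symm)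
    have eU : U = heckeBetaBar K N ℓ (s18_coord K (s18_cz_t3 N hN)) :=
      Subtype.ext (h.2.trans (by rw [← e3]; rfl))
    rw [eT, eU]
    exact s34_wi_t3 N ℓ hℓN hℓ3 hN A hA A₁ hℓ _ (Or.inl rfl)
  · have e : coeffEmb K (((s18_cz_t3 N hN)⁻¹ : modularFunctionFieldFull N) : LaurentSeries ℚ) =
        (s18_t3R K)⁻¹ := by
      rw [← e3, ← map_inv₀]
      rfl
    have eT : T = heckeAlphaBar K N ℓ (s18_coord K (s18_cz_t3 N hN)⁻¹) :=
      Subtype.ext (h.1.trans e.symm)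
    have eU : U = heckeBetaBar K N ℓ (s18_coord K (s18_cz_t3 N hN)⁻¹) :=
      Subtype.ext (h.2.trans (by rw [← e]; rfl))
    rw [eT, eU]
    exact s34_wi_t3 N ℓ hℓN hℓ3 hN A hA A₁ hℓ _ (Or.inr rfl)

end KLevel

end Fermat.Agent.S34
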