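import Mathlib
import Fermat.Agent.S37.EsChartStable
import Fermat.Agent.S37.EsSwap
import Fermat.Agent.S34.IcChart
import Fermat.Agent.S18.UnramMod
import Fermat.Agent.S18.ChAlg
import Fermat.Agent.S18.Setup
import Fermat.Agent.S18.BranchChart

/-!
# S34 (NODE), leaf (WST): the charts are stable under the swap — valuative route

For the Hauptmodul `t = t_M` (`M ∈ {2, 3}`, `M ∣ N`, `ℓ ≠ M`, `ℓ ∤ N`), `t' ∈ {t, t⁻¹}`, a subfield
`K₁ ⊆ Q̄` and `A₁ = A ∩ K₁` (`A` a valuation ring of `Q̄` over `ℓ`), inside `K₁ · F(N ℓ)`: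

* `s34_sv_beta_mem`  : `V_ℓ t' = β t'` lies in the chart of `α t'`, i.e. is integral over `A₁[α t']`;
* `s34_sv_alpha_mem` : `α t'` lies in the chart of `β t'`.

No descent of integrality is needed: the integral closure of `A₁[t']` is the intersection of the
valuation subrings `O` containing it (`s34_sv_mem_of_valuative`); each such `O` is dominated by a
valuation subring of `Q̄ · F(N ℓ)`, whose trace on `Q̄` is a valuation ring `A'` containing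
`ℤ_(ℓ)`; either `A'` lies over `ℓ` and the frozen `s37_es_chart_stable` applies to `A'` itself, or
`A' = Q̄` and it applies to `A ⊆ A'`.
-/

set_option autoImplicit false
set_option synthInstance.maxHeartbeats 400000

open ModularCurve AlgebraicCurve

noncomputable section

namespace Fermat.Agent.S34

open Fermat.Agent.S18 Fermat.Agent.S37

local notation "Qb" => AlgebraicClosure ℚ

/-- **Valuative criterion** for membership in the chart: `y` lies in the integral closure of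
`A₀[t]` as soon as it lies in every valuation subring containing `A₀` and `t`. -/
theorem s34_sv_mem_of_valuative {A₀ F : Type*} [CommRing A₀] [Field F] [Algebra A₀ F] (t y : F)
    (h : ∀ O : ValuationSubring F, (∀ a : A₀, algebraMap A₀ F a ∈ O) → t ∈ O → y ∈ O) :
    y ∈ s34_ic_chart A₀ t := by
  by_contra hy
  have hy' : y ∉ (integralClosure (Algebra.adjoin A₀ ({t} : Set F)) F).toSubring := hy
  obtain ⟨V, hV, hyV⟩ := Subring.exists_le_valuationSubring_of_isIntegrallyClosedIn hy'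
  exact hyV (h V (fun a => hV ((s34_ic_chart A₀ t).algebraMap_mem a)) (hV (s34_ic_t_mem t)))

/-- An element integral over a subring of a valuation subring lies in the valuation subring. -/
theorem s34_sv_mem_of_isIntegral {F : Type*} [Field F] (U : ValuationSubring F) (S : Subring F)
    (hS : S ≤ U.toSubring) {x : F} (hx : IsIntegral S x) : x ∈ U := by
  have h1 : IsIntegral U x :=
    IsIntegral.map_of_comp_eq (Subring.inclusion hS) (RingHom.id F) (by ext; rfl) hx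
  obtain ⟨y, hy⟩ := (IsIntegrallyClosed.isIntegral_iff (R := U) (K := F)).mp h1
  rw [← hy]
  exact y.2

/-- A valuation subring of `Q̄` containing `ℓ⁻¹` and the inverses of the integers prime to `ℓ` is
everything. -/
theorem s34_sv_top {ℓ : ℕ} (hℓ : ℓ.Prime) (A' : ValuationSubring Qb)
    (hm : ∀ m : ℕ, ¬ ℓ ∣ m → ((m : Qb))⁻¹ ∈ A') (hl : ((ℓ : Qb))⁻¹ ∈ A') (c : Qb) : c ∈ A' := by
  -- inverses of all nonzero naturals
  have hnat : ∀ n : ℕ, n ≠ 0 → ((n : Qb))⁻¹ ∈ A' := by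
    intro n hn
    obtain ⟨e, n', hn', rfl⟩ := Nat.exists_eq_pow_mul_and_not_dvd hn ℓ hℓ.ne_one
    rw [Nat.cast_mul, Nat.cast_pow, mul_inv, ← inv_pow]
    exact A'.mul_mem _ _ (A'.pow_mem hl e) (hm n' hn')
  -- rationals
  have hrat : ∀ r : ℚ, algebraMap ℚ Qb r ∈ A' := by
    intro r
    have e : algebraMap ℚ Qb r = (r.num : Qb) * ((r.den : Qb))⁻¹ := by
      rw [eq_ratCast, Rat.cast_def, div_eq_mul_inv]
    rw [e]
    exact A'.mul_mem _ _ (intCast_mem A' r.num) (hnat r.den r.den_nz)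
  -- integrality over `ℚ`
  have hint : IsIntegral ℚ c := ((AlgebraicClosure.isAlgebraic ℚ).isAlgebraic c).isIntegral
  let ψ : ℚ →+* A' := (algebraMap ℚ Qb).codRestrict A'.toSubring hrat
  have h1 : IsIntegral A' c :=
    IsIntegral.map_of_comp_eq ψ (RingHom.id Qb) (by ext; rfl) hint
  obtain ⟨y, hy⟩ := (IsIntegrallyClosed.isIntegral_iff (R := A') (K := Qb)).mp h1
  rw [← hy]
  exact y.2

/-- The `Q̄`-level statement for an arbitrary valuation subring `U` of `Q̄ · F(N ℓ)` containing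
`ℤ_(ℓ)`: if `β t' ∈ U` then `α t' ∈ U`. -/
theorem s34_sv_bar (N ℓ M : ℕ) [NeZero N] [NeZero ℓ] (hℓ : ℓ.Prime) (hℓN : ¬ ℓ ∣ N)
    (hℓM : ℓ ≠ M) (hMN : M ∣ N) (A : ValuationSubring Qb) (hA : A.LiesOverPrime ℓ)
    (t : modularFunctionFieldBar N) (ht : s37_IsHaupt M t)
    (t' : modularFunctionFieldBar N) (ht' : t' = t ∨ t' = t⁻¹)
    (U : ValuationSubring (modularFunctionFieldBar (N * ℓ)))
    (hm : ∀ m : ℕ, ¬ ℓ ∣ m →
      algebraMap Qb (modularFunctionFieldBar (N * ℓ)) ((m : Qb))⁻¹ ∈ U)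
    (hβ : heckeBetaBar Qb N ℓ t' ∈ U) : heckeAlphaBar Qb N ℓ t' ∈ U := by
  set A' : ValuationSubring Qb :=
    U.comap (algebraMap Qb (modularFunctionFieldBar (N * ℓ))) with hA'
  have key : ∀ A₂ : ValuationSubring Qb, A₂.LiesOverPrime ℓ → (∀ c ∈ A₂, c ∈ A') →
      heckeAlphaBar Qb N ℓ t' ∈ U := by
    intro A₂ hA₂ hle
    have hint := s37_es_chart_stable N ℓ M hℓ hℓN hℓM hMN A₂ hA₂ t ht t' ht'
    refine s34_sv_mem_of_isIntegral U _ ?_ hint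
    unfold s37_chartBase
    rw [Subring.closure_le]
    rintro x (⟨a, rfl⟩ | rfl)
    · exact hle _ a.2
    · exact hβ
  by_cases hl : A'.LiesOverPrime ℓ
  · exact key A' hl (fun c hc => hc)
  · refine key A hA (fun c _ => ?_)
    have hℓ0 : ((ℓ : Qb)) ≠ 0 := Nat.cast_ne_zero.mpr hℓ.ne_zero
    have hl' : ((ℓ : Qb))⁻¹ ∈ A' := by
      by_contra hcon
      exact hl (A'.mem_nonunits_iff_or.mpr (Or.inr hcon))
    exact s34_sv_top hℓ A' (fun m hm' => hm m hm') hl' c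

section Concrete

variable (K₁ : IntermediateField ℚ Qb) (N ℓ : ℕ) [NeZero N] [NeZero ℓ]

/-- Extension of constants commutes with `α`. -/
theorem s34_sv_baseIncl_alpha (x : s18_F1 K₁ N) :
    s18_baseIncl K₁ (N * ℓ) (heckeAlphaBar K₁ N ℓ x) =
      heckeAlphaBar Qb N ℓ (s18_baseIncl K₁ N x) := by
  apply Subtype.ext
  rw [s18_baseIncl_coe, coe_heckeAlphaBar, coe_heckeAlphaBar, s18_baseIncl_coe]

/-- Extension of constants commutes with `β = V_ℓ`. -/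
theorem s34_sv_baseIncl_beta (x : s18_F1 K₁ N) :
    s18_baseIncl K₁ (N * ℓ) (heckeBetaBar K₁ N ℓ x) =
      heckeBetaBar Qb N ℓ (s18_baseIncl K₁ N x) := by
  apply Subtype.ext
  rw [s18_baseIncl_coe, coe_heckeBetaBar, coe_heckeBetaBar, s18_baseIncl_coe, coeffMap_qExpand]

variable {K₁ N ℓ}

/-- The constants `m⁻¹`, `ℓ ∤ m`, lie in every valuation subring of `Q̄ · F(N ℓ)` dominating a
valuation subring of `K₁ · F(N ℓ)` that contains `A₁`. -/
theorem s34_sv_const_mem (hℓ : ℓ.Prime) (A : ValuationSubring Qb) (hA : A.LiesOverPrime ℓ)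
    (O : ValuationSubring (s18_F1 K₁ (N * ℓ)))
    (hOA : ∀ a : s18_A1 A K₁, algebraMap (s18_A1 A K₁) (s18_F1 K₁ (N * ℓ)) a ∈ O)
    (V : ValuationSubring (modularFunctionFieldBar (N * ℓ)))
    (hWV : ∀ x ∈ O, s18_baseIncl K₁ (N * ℓ) x ∈ V) (m : ℕ) (hm : ¬ ℓ ∣ m) :
    algebraMap Qb (modularFunctionFieldBar (N * ℓ)) ((m : Qb))⁻¹ ∈ V := by
  have : Fact ℓ.Prime := ⟨hℓ⟩
  have hℓ0 : ((ℓ : Qb)) ≠ 0 := Nat.cast_ne_zero.mpr hℓ.ne_zero
  have hℓA : ((ℓ : Qb))⁻¹ ∉ A := by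
    rcases A.mem_nonunits_iff_or.mp hA with h | h
    · exact absurd h hℓ0
    · exact h
  have hmA : ((m : Qb))⁻¹ ∈ A := by
    have := s18_int_inv_mem ℓ A hℓA (m : ℤ) (by exact_mod_cast hm)
    simpa using this
  have hmA₁ : ((m : K₁))⁻¹ ∈ s18_A1 A K₁ := by
    show algebraMap K₁ Qb ((m : K₁))⁻¹ ∈ A
    rw [map_inv₀, map_natCast]
    exact hmA
  have h1 := hWV _ (hOA ⟨((m : K₁))⁻¹, hmA₁⟩)
  have e : s18_baseIncl K₁ (N * ℓ)
      (algebraMap (s18_A1 A K₁) (s18_F1 K₁ (N * ℓ)) ⟨((m : K₁))⁻¹, hmA₁⟩) =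
      algebraMap Qb (modularFunctionFieldBar (N * ℓ)) ((m : Qb))⁻¹ := by
    have e1 : algebraMap (s18_A1 A K₁) (s18_F1 K₁ (N * ℓ)) ⟨((m : K₁))⁻¹, hmA₁⟩ =
        algebraMap K₁ (s18_F1 K₁ (N * ℓ)) ((m : K₁))⁻¹ := rfl
    rw [e1, s18_baseIncl_algebraMap, map_inv₀, map_natCast]
  rw [← e]
  exact h1

/-- **(WST), first half.** `V_ℓ t' = β t'` is integral over `A₁[α t']`. -/
theorem s34_sv_beta_mem (M : ℕ) (hℓ : ℓ.Prime) (hℓN : ¬ ℓ ∣ N) (hℓM : ℓ ≠ M) (hMN : M ∣ N)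
    (A : ValuationSubring Qb) (hA : A.LiesOverPrime ℓ)
    (t : s18_F1 K₁ N) (ht : s37_IsHaupt M (s18_baseIncl K₁ N t))
    (t' : s18_F1 K₁ N) (ht' : t' = t ∨ t' = t⁻¹) :
    heckeBetaBar K₁ N ℓ t' ∈ s34_ic_chart (s18_A1 A K₁) (heckeAlphaBar K₁ N ℓ t') := by
  apply s34_sv_mem_of_valuative
  intro O hOA hOt
  obtain ⟨V, hWV, hnon⟩ := s18_exists_dominating (s18_baseIncl K₁ (N * ℓ)) O
  have hiff := (s18_dominate_iff (s18_baseIncl K₁ (N * ℓ)) O V hWV hnon).1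
  obtain ⟨W, hWα, hWβ⟩ := s37_es_swap N ℓ ((Nat.Prime.coprime_iff_not_dvd hℓ).mpr hℓN)
  have ht'' : s18_baseIncl K₁ N t' = s18_baseIncl K₁ N t ∨
      s18_baseIncl K₁ N t' = (s18_baseIncl K₁ N t)⁻¹ := by
    rcases ht' with rfl | rfl
    · exact Or.inl rfl
    · exact Or.inr (map_inv₀ _ _)
  have hmain := s34_sv_bar N ℓ M hℓ hℓN hℓM hMN A hA (s18_baseIncl K₁ N t) ht
    (s18_baseIncl K₁ N t') ht'' (V.comap (W : modularFunctionFieldBar (N * ℓ) →+*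
      modularFunctionFieldBar (N * ℓ))) ?_ ?_
  · have h2 : W (heckeAlphaBar Qb N ℓ (s18_baseIncl K₁ N t')) ∈ V :=
      ValuationSubring.mem_comap.mp hmain
    rw [hWα, ← s34_sv_baseIncl_beta] at h2
    exact (hiff _).mpr h2
  · intro m hm
    show W (algebraMap Qb (modularFunctionFieldBar (N * ℓ)) ((m : Qb))⁻¹) ∈ V
    rw [AlgEquiv.commutes]
    exact s34_sv_const_mem hℓ A hA O hOA V hWV m hm
  · show W (heckeBetaBar Qb N ℓ (s18_baseIncl K₁ N t')) ∈ V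
    rw [hWβ, ← s34_sv_baseIncl_alpha]
    exact hWV _ hOt

/-- **(WST), second half.** `α t'` is integral over `A₁[β t']`, `β t' = V_ℓ t'`. -/
theorem s34_sv_alpha_mem (M : ℕ) (hℓ : ℓ.Prime) (hℓN : ¬ ℓ ∣ N) (hℓM : ℓ ≠ M) (hMN : M ∣ N)
    (A : ValuationSubring Qb) (hA : A.LiesOverPrime ℓ)
    (t : s18_F1 K₁ N) (ht : s37_IsHaupt M (s18_baseIncl K₁ N t))
    (t' : s18_F1 K₁ N) (ht' : t' = t ∨ t' = t⁻¹) :
    heckeAlphaBar K₁ N ℓ t' ∈ s34_ic_chart (s18_A1 A K₁) (heckeBetaBar K₁ N ℓ t') := by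
  apply s34_sv_mem_of_valuative
  intro O hOA hOt
  obtain ⟨V, hWV, hnon⟩ := s18_exists_dominating (s18_baseIncl K₁ (N * ℓ)) O
  have hiff := (s18_dominate_iff (s18_baseIncl K₁ (N * ℓ)) O V hWV hnon).1
  have ht'' : s18_baseIncl K₁ N t' = s18_baseIncl K₁ N t ∨
      s18_baseIncl K₁ N t' = (s18_baseIncl K₁ N t)⁻¹ := by
    rcases ht' with rfl | rfl
    · exact Or.inl rfl
    · exact Or.inr (map_inv₀ _ _)
  have hmain := s34_sv_bar N ℓ M hℓ hℓN hℓM hMN A hA (s18_baseIncl K₁ N t) ht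
    (s18_baseIncl K₁ N t') ht'' V
    (fun m hm => s34_sv_const_mem hℓ A hA O hOA V hWV m hm)
    (by rw [← s34_sv_baseIncl_beta]; exact hWV _ hOt)
  rw [← s34_sv_baseIncl_alpha] at hmain
  exact (hiff _).mpr hmain

/-- **(WST), chart stability** (the shape of `s34_ic_map_mem`): a `K₁`-algebra endomorphism `W1`
of `K₁ · F(N ℓ)` with `W1 ∘ α = β` maps the chart of `α t'` into itself. -/
theorem s34_sv_chart_stable (M : ℕ) (hℓ : ℓ.Prime) (hℓN : ¬ ℓ ∣ N) (hℓM : ℓ ≠ M) (hMN : M ∣ N)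
    (A : ValuationSubring Qb) (hA : A.LiesOverPrime ℓ)
    (t : s18_F1 K₁ N) (ht : s37_IsHaupt M (s18_baseIncl K₁ N t))
    (t' : s18_F1 K₁ N) (ht' : t' = t ∨ t' = t⁻¹)
    (W1 : s18_F1 K₁ (N * ℓ) →ₐ[K₁] s18_F1 K₁ (N * ℓ))
    (hW : W1 (heckeAlphaBar K₁ N ℓ t') = heckeBetaBar K₁ N ℓ t')
    {x : s18_F1 K₁ (N * ℓ)}
    (hx : x ∈ s34_ic_chart (s18_A1 A K₁) (heckeAlphaBar K₁ N ℓ t')) :
    W1 x ∈ s34_ic_chart (s18_A1 A K₁) (heckeAlphaBar K₁ N ℓ t') := by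
  refine s34_ic_map_mem (W1 : s18_F1 K₁ (N * ℓ) →+* s18_F1 K₁ (N * ℓ)) (fun a => ?_) ?_ hx
  · have e : (W1 : s18_F1 K₁ (N * ℓ) →+* s18_F1 K₁ (N * ℓ))
        (algebraMap (s18_A1 A K₁) (s18_F1 K₁ (N * ℓ)) a) =
        algebraMap (s18_A1 A K₁) (s18_F1 K₁ (N * ℓ)) a := by
      show W1 (algebraMap K₁ (s18_F1 K₁ (N * ℓ)) (a : K₁)) =
        algebraMap K₁ (s18_F1 K₁ (N * ℓ)) (a : K₁)
      exact W1.commutes _
    rw [e]
    exact (s34_ic_chart (s18_A1 A K₁) (heckeAlphaBar K₁ N ℓ t')).algebraMap_mem a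
  · show W1 (heckeAlphaBar K₁ N ℓ t') ∈ _
    rw [hW]
    exact s34_sv_beta_mem M hℓ hℓN hℓM hMN A hA t ht t' ht'

variable (K₁ N)

/-- The level-2 Hauptmodul over `K₁` is a Hauptmodul in the sense of S37. -/
theorem s34_sv_isHaupt_t2 (h2 : 2 ∣ N) :
    s37_IsHaupt 2 (s18_baseIncl K₁ N (s18_coord K₁ (s18_cz_t2 N h2))) :=
  Or.inl ⟨rfl, s18_br_coe_t2 N K₁ h2⟩

/-- The level-3 Hauptmodul over `K₁` is a Hauptmodul in the sense of S37. -/
theorem s34_sv_isHaupt_t3 (h3 : 3 ∣ N) :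
    s37_IsHaupt 3 (s18_baseIncl K₁ N (s18_coord K₁ (s18_cz_t3 N h3))) :=
  Or.inr ⟨rfl, s18_br_coe_t3 N K₁ h3⟩

end Concrete

end Fermat.Agent.S34
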